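import Fermat.Agent.RED.H73_GAScale

/-!
# G-RED package GA, part 2 (helper73): the Gauss valuation ring of a field of series

`C` a field, `O : ValuationSubring C` arbitrary, `F : IntermediateField C (LaurentSeries C)` with
the scaling property `HasScale O F` (part 1).  Then

* `gaussValSub O F h : ValuationSubring F` : the elements of `F` lying in the Gauss ring;
* `gaussResF O F h : gaussValSub O F h →+* LaurentSeries (kV O)` : reduction of `q`-expansions;
  its kernel is the maximal ideal (`gaussResF_eq_zero_iff`);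
* `algebraMap_mem_gaussValSub_iff` : `V ∩ C = O`;
* `exists_unit_scale` : value group of `V` = value group of `O`;
* `redField O F h : IntermediateField (kV O) (LaurentSeries (kV O))` : the residue field of `V`,
  realised inside `k((q))`; `resFieldEquiv : ResidueField V ≃+* redField`.
-/

set_option autoImplicit false

open ModularCurve Fermat.Agent.S28 Fermat.Agent.S28.H73

noncomputable section

namespace Fermat.Agent.RED.H73

variable {C : Type} [Field C] (O : ValuationSubring C)

theorem C_eq_iotaV (a : ↥O) :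
    (HahnSeries.C (a : C) : LaurentSeries C) = iotaV O (HahnSeries.C a) :=
  (coeffMap_single O.subtype 0 a).symm

theorem C_mem_gaussRingV {c : C} (hc : c ∈ O) :
    (HahnSeries.C c : LaurentSeries C) ∈ gaussRingV O := by
  have := iotaV_mem_gaussRingV O (HahnSeries.C (⟨c, hc⟩ : ↥O))
  rwa [← C_eq_iotaV] at this

theorem gaussRedV_C (a : ↥O) (h : (HahnSeries.C (a : C) : LaurentSeries C) ∈ gaussRingV O) :
    gaussRedV O ⟨HahnSeries.C (a : C), h⟩ = HahnSeries.C (resV O a) := by
  have e : (⟨HahnSeries.C (a : C), h⟩ : gaussRingV O)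
      = ⟨iotaV O (HahnSeries.C a), iotaV_mem_gaussRingV O _⟩ := Subtype.ext (C_eq_iotaV O a)
  rw [e, gaussRedV_iotaV]
  exact coeffMap_single (resV O) 0 a

/-- A constant is a Gauss unit iff it is a unit of `O`. -/
theorem gaussUnit_C_iff {c : C} :
    GaussUnit O (HahnSeries.C c) ↔ c ∈ O ∧ c ≠ 0 ∧ c⁻¹ ∈ O := by
  constructor
  · intro h
    have hc0 : c ≠ 0 := by
      rintro rfl
      exact h.ne_zero (map_zero _)
    -- `C c * g = h'` with `g, h'` primitive: compare a coefficient of maximal valuation
    have key : ∀ {c : C}, GaussUnit O (HahnSeries.C c) → c ∈ O := by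
      intro c h
      obtain ⟨g, h', hg, hh', e⟩ := h
      obtain ⟨n, hn⟩ : ∃ n, (redV O g).coeff n ≠ 0 := by
        by_contra hcon
        apply hg
        ext n
        by_contra hn
        exact hcon ⟨n, hn⟩
      have hu : IsUnit (g.coeff n) := by
        have : resV O (g.coeff n) ≠ 0 := hn
        exact (IsLocalRing.residue_ne_zero_iff_isUnit _).1 this
      have e1 : (iotaV O g * HahnSeries.C c).coeff n = (iotaV O h').coeff n := by rw [e]
      rw [mul_comm, HahnSeries.C_mul_eq_smul, HahnSeries.coeff_smul, smul_eq_mul] at e1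
      have e2 : c * ((g.coeff n : ↥O) : C) = ((h'.coeff n : ↥O) : C) := e1
      obtain ⟨hne, hinv⟩ := (isUnit_iff_inv_mem O _).1 hu
      have : c = ((h'.coeff n : ↥O) : C) * ((g.coeff n : ↥O) : C)⁻¹ := by
        rw [← e2, mul_assoc, mul_inv_cancel₀ hne, mul_one]
      rw [this]
      exact O.mul_mem _ _ (h'.coeff n).2 hinv
    refine ⟨key h, hc0, ?_⟩
    have h2 := h.inv
    rw [← C_inv'] at h2
    exact key h2
  · rintro ⟨hc, hc0, hci⟩
    have hu : IsUnit (⟨c, hc⟩ : ↥O) := (isUnit_iff_inv_mem O _).2 ⟨hc0, hci⟩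
    refine ⟨1, HahnSeries.C (⟨c, hc⟩ : ↥O), by rw [map_one]; exact one_ne_zero, ?_, ?_⟩
    · have : redV O (HahnSeries.C (⟨c, hc⟩ : ↥O)) = HahnSeries.C (resV O ⟨c, hc⟩) :=
        coeffMap_single (resV O) 0 _
      rw [this]
      intro h0
      have h1 : (HahnSeries.C (resV O ⟨c, hc⟩) : LaurentSeries (kV O)).coeff 0 = 0 := by
        rw [h0]; rfl
      exact (IsLocalRing.residue_ne_zero_iff_isUnit _).2 hu (by simpa using h1)
    · rw [map_one, one_mul]
      exact C_eq_iotaV O ⟨c, hc⟩

variable (F : IntermediateField C (LaurentSeries C))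

/-- The Gauss valuation ring of `F`. -/
def gaussValSub (h : HasScale O F) : ValuationSubring F where
  carrier := {x | (x : LaurentSeries C) ∈ gaussRingV O}
  mul_mem' := fun {a b} ha hb => (gaussRingV O).mul_mem ha hb
  one_mem' := (gaussRingV O).one_mem
  add_mem' := fun {a b} ha hb => (gaussRingV O).add_mem ha hb
  zero_mem' := (gaussRingV O).zero_mem
  neg_mem' := fun {a} ha => by
    show ((-a : F) : LaurentSeries C) ∈ gaussRingV O
    have : ((-a : F) : LaurentSeries C) = -(a : LaurentSeries C) := rfl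
    rw [this]
    exact (gaussRingV O).toSubring.neg_mem ha
  mem_or_inv_mem' := by
    intro x
    by_cases hx0 : x = 0
    · left
      rw [hx0]
      exact (gaussRingV O).zero_mem
    have hx0' : (x : LaurentSeries C) ≠ 0 := fun h0 => hx0 (Subtype.ext h0)
    obtain ⟨c, hc, hu⟩ := h x x.2 hx0'
    rcases O.mem_or_inv_mem c with hcO | hcO
    · -- `c ∈ O`: `x⁻¹ = c * (c x)⁻¹`
      right
      show ((x⁻¹ : F) : LaurentSeries C) ∈ gaussRingV O
      have e : ((x⁻¹ : F) : LaurentSeries C)
          = HahnSeries.C c * (HahnSeries.C c * (x : LaurentSeries C))⁻¹ := by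
        rw [mul_inv, ← mul_assoc, mul_inv_cancel₀ (C_ne_zero' hc), one_mul]
        rfl
      rw [e]
      exact (gaussRingV O).mul_mem (C_mem_gaussRingV O hcO) hu.inv.mem
    · -- `c⁻¹ ∈ O`: `x = c⁻¹ * (c x)`
      left
      show (x : LaurentSeries C) ∈ gaussRingV O
      have e : (x : LaurentSeries C)
          = HahnSeries.C c⁻¹ * (HahnSeries.C c * (x : LaurentSeries C)) := by
        rw [C_inv', ← mul_assoc, inv_mul_cancel₀ (C_ne_zero' hc), one_mul]
      rw [e]
      exact (gaussRingV O).mul_mem (C_mem_gaussRingV O hcO) hu.mem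

variable {F}

theorem mem_gaussValSub_iff (h : HasScale O F) (x : F) :
    x ∈ gaussValSub O F h ↔ (x : LaurentSeries C) ∈ gaussRingV O := Iff.rfl

/-- The reduction map on the Gauss valuation ring of `F`. -/
def gaussResF (h : HasScale O F) : ↥(gaussValSub O F h) →+* LaurentSeries (kV O) :=
  (gaussRedV O).comp
    { toFun := fun x => ⟨((x : F) : LaurentSeries C), x.2⟩
      map_one' := rfl
      map_mul' := fun _ _ => rfl
      map_zero' := rfl
      map_add' := fun _ _ => rfl }

theorem gaussResF_apply (h : HasScale O F) (x : ↥(gaussValSub O F h)) :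
    gaussResF O h x = gaussRedV O ⟨((x : F) : LaurentSeries C), x.2⟩ := rfl

/-- Units of the Gauss valuation ring = elements with nonzero reduction. -/
theorem isUnit_iff_gaussResF_ne_zero (h : HasScale O F) (x : ↥(gaussValSub O F h)) :
    IsUnit x ↔ gaussResF O h x ≠ 0 := by
  constructor
  · intro hu h0
    have := hu.map (gaussResF O h)
    rw [h0] at this
    exact not_isUnit_zero this
  · intro hne
    have hG : GaussUnit O ((x : F) : LaurentSeries C) :=
      gaussUnit_of_gaussRedV_ne_zero O x.2 hne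
    have hinv : (x : F)⁻¹ ∈ gaussValSub O F h := hG.inv.mem
    have hx0 : (x : F) ≠ 0 := fun h0 => hG.ne_zero (by rw [h0]; rfl)
    refine IsUnit.of_mul_eq_one (⟨(x : F)⁻¹, hinv⟩ : ↥(gaussValSub O F h)) ?_
    exact Subtype.ext (mul_inv_cancel₀ hx0)

theorem gaussResF_eq_zero_iff (h : HasScale O F) (x : ↥(gaussValSub O F h)) :
    gaussResF O h x = 0 ↔ x ∈ IsLocalRing.maximalIdeal ↥(gaussValSub O F h) := by
  rw [IsLocalRing.mem_maximalIdeal, mem_nonunits_iff, isUnit_iff_gaussResF_ne_zero O h, not_not]

theorem ker_gaussResF (h : HasScale O F) :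
    RingHom.ker (gaussResF O h) = IsLocalRing.maximalIdeal ↥(gaussValSub O F h) := by
  ext x
  rw [RingHom.mem_ker, gaussResF_eq_zero_iff]

theorem coe_algebraMap_F (c : C) :
    ((algebraMap C F c : F) : LaurentSeries C) = HahnSeries.C c := by
  show algebraMap C (LaurentSeries C) c = HahnSeries.C c
  rw [algebraMap_laurentSeries_eq_single]
  rfl

/-- `V ∩ C = O`. -/
theorem algebraMap_mem_gaussValSub_iff (h : HasScale O F) (c : C) :
    algebraMap C F c ∈ gaussValSub O F h ↔ c ∈ O := by
  rw [mem_gaussValSub_iff, coe_algebraMap_F]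
  constructor
  · intro hm
    by_cases hc0 : c = 0
    · rw [hc0]; exact O.zero_mem
    rcases O.mem_or_inv_mem c with hc | hc
    · exact hc
    · -- `c⁻¹ ∈ O` and `C c` in the Gauss ring: then `C c` is a Gauss unit
      by_cases hr : gaussRedV O ⟨HahnSeries.C c, hm⟩ = 0
      · exfalso
        have h1 : gaussRedV O (⟨HahnSeries.C c, hm⟩ * ⟨HahnSeries.C c⁻¹, C_mem_gaussRingV O hc⟩)
            = 1 := by
          have e : (⟨HahnSeries.C c, hm⟩ * ⟨HahnSeries.C c⁻¹, C_mem_gaussRingV O hc⟩
              : gaussRingV O) = 1 := by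
            apply Subtype.ext
            show (HahnSeries.C c : LaurentSeries C) * HahnSeries.C c⁻¹ = 1
            rw [C_inv', mul_inv_cancel₀ (C_ne_zero' hc0)]
          rw [e, map_one]
        rw [map_mul, hr, zero_mul] at h1
        exact zero_ne_one h1
      · exact ((gaussUnit_C_iff O).1 (gaussUnit_of_gaussRedV_ne_zero O hm hr)).1
  · exact C_mem_gaussRingV O

theorem gaussResF_algebraMap (h : HasScale O F) (a : ↥O)
    (hm : algebraMap C F (a : C) ∈ gaussValSub O F h) :
    gaussResF O h ⟨algebraMap C F (a : C), hm⟩ = HahnSeries.C (resV O a) := by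
  rw [gaussResF_apply]
  have e : (⟨((algebraMap C F (a : C) : F) : LaurentSeries C), hm⟩ : gaussRingV O)
      = ⟨HahnSeries.C (a : C), C_mem_gaussRingV O a.2⟩ :=
    Subtype.ext (coe_algebraMap_F (F := F) _)
  rw [e, gaussRedV_C]

/-- **Value group**: every nonzero element of `F` is a constant times a unit of `V`. -/
theorem exists_unit_scale (h : HasScale O F) (x : F) (hx : x ≠ 0) :
    ∃ (c : C) (u : (↥(gaussValSub O F h))ˣ), c ≠ 0 ∧ x = algebraMap C F c * ((u : ↥(gaussValSub O F h)) : F) := by
  have hx0' : (x : LaurentSeries C) ≠ 0 := fun h0 => hx (Subtype.ext h0)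
  obtain ⟨c, hc, hu⟩ := h x x.2 hx0'
  have hmem : algebraMap C F c * x ∈ gaussValSub O F h := by
    rw [mem_gaussValSub_iff]
    have : ((algebraMap C F c * x : F) : LaurentSeries C)
        = HahnSeries.C c * (x : LaurentSeries C) := by
      show ((algebraMap C F c : F) : LaurentSeries C) * (x : LaurentSeries C) = _
      rw [coe_algebraMap_F]
    rw [this]
    exact hu.mem
  have hunit : IsUnit (⟨algebraMap C F c * x, hmem⟩ : ↥(gaussValSub O F h)) := by
    rw [isUnit_iff_gaussResF_ne_zero, gaussResF_apply]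
    have e : (⟨((⟨algebraMap C F c * x, hmem⟩ : ↥(gaussValSub O F h)) : F), hmem⟩ : gaussRingV O)
        = ⟨HahnSeries.C c * (x : LaurentSeries C), hu.mem⟩ := by
      apply Subtype.ext
      show ((algebraMap C F c : F) : LaurentSeries C) * (x : LaurentSeries C) = _
      rw [coe_algebraMap_F]
    rw [e]
    exact gaussRedV_ne_zero_of_gaussUnit O hu hu.mem
  refine ⟨c⁻¹, hunit.unit, inv_ne_zero hc, ?_⟩
  rw [IsUnit.unit_spec]
  show x = algebraMap C F c⁻¹ * (algebraMap C F c * x)
  rw [map_inv₀, ← mul_assoc, inv_mul_cancel₀, one_mul]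
  exact fun h0 => hc ((map_eq_zero _).1 h0)

/-! ### The residue field inside `k((q))` -/

variable (F)

/-- The residue field of the Gauss valuation on `F`, as a subfield of `k((q))`. -/
def redField (h : HasScale O F) : IntermediateField (kV O) (LaurentSeries (kV O)) where
  carrier := Set.range (gaussResF O h)
  mul_mem' := by
    rintro _ _ ⟨a, rfl⟩ ⟨b, rfl⟩
    exact ⟨a * b, map_mul _ _ _⟩
  one_mem' := ⟨1, map_one _⟩
  add_mem' := by
    rintro _ _ ⟨a, rfl⟩ ⟨b, rfl⟩
    exact ⟨a + b, map_add _ _ _⟩
  zero_mem' := ⟨0, map_zero _⟩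
  algebraMap_mem' := by
    intro r
    obtain ⟨a, rfl⟩ := IsLocalRing.residue_surjective r
    have hm : algebraMap C F (a : C) ∈ gaussValSub O F h :=
      (algebraMap_mem_gaussValSub_iff O h _).2 a.2
    refine ⟨⟨algebraMap C F (a : C), hm⟩, ?_⟩
    rw [gaussResF_algebraMap, algebraMap_kV]
  inv_mem' := by
    rintro _ ⟨a, rfl⟩
    by_cases h0 : gaussResF O h a = 0
    · rw [h0, inv_zero]
      exact ⟨0, map_zero _⟩
    · have hu := (isUnit_iff_gaussResF_ne_zero O h a).2 h0
      refine ⟨((hu.unit⁻¹ : (↥(gaussValSub O F h))ˣ) : ↥(gaussValSub O F h)), ?_⟩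
      have h1 : gaussResF O h a * gaussResF O h ((hu.unit⁻¹ : (↥(gaussValSub O F h))ˣ)) = 1 := by
        rw [← map_mul]
        have : a * ((hu.unit⁻¹ : (↥(gaussValSub O F h))ˣ) : ↥(gaussValSub O F h)) = 1 := by
          have := hu.unit.mul_inv
          rwa [IsUnit.unit_spec] at this
        rw [this, map_one]
      exact (eq_inv_of_mul_eq_one_right h1)

variable {F}

theorem mem_redField_iff (h : HasScale O F) (y : LaurentSeries (kV O)) :
    y ∈ redField O F h ↔ ∃ x : ↥(gaussValSub O F h), gaussResF O h x = y := Iff.rfl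

theorem gaussResF_mem_redField (h : HasScale O F) (x : ↥(gaussValSub O F h)) :
    gaussResF O h x ∈ redField O F h := ⟨x, rfl⟩

/-- Reduction as a surjective ring hom onto the residue field `redField`. -/
def gaussResF' (h : HasScale O F) : ↥(gaussValSub O F h) →+* ↥(redField O F h) :=
  (gaussResF O h).codRestrict (redField O F h).toSubring (gaussResF_mem_redField O h)

theorem gaussResF'_surjective (h : HasScale O F) : Function.Surjective (gaussResF' O h) := by
  rintro ⟨y, x, rfl⟩
  exact ⟨x, rfl⟩

theorem ker_gaussResF' (h : HasScale O F) :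
    RingHom.ker (gaussResF' O h) = IsLocalRing.maximalIdeal ↥(gaussValSub O F h) := by
  rw [← ker_gaussResF O h]
  ext x
  rw [RingHom.mem_ker, RingHom.mem_ker]
  constructor
  · intro h0
    exact congrArg Subtype.val h0
  · intro h0
    exact Subtype.ext h0

/-- The residue field of the Gauss valuation ring of `F` is `redField`. -/
def resFieldEquiv (h : HasScale O F) :
    IsLocalRing.ResidueField ↥(gaussValSub O F h) ≃+* ↥(redField O F h) :=
  (Ideal.quotEquivOfEq (ker_gaussResF' O h).symm).trans
    (RingHom.quotientKerEquivOfSurjective (gaussResF'_surjective O h))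

theorem resFieldEquiv_residue (h : HasScale O F) (x : ↥(gaussValSub O F h)) :
    resFieldEquiv O h (IsLocalRing.residue _ x) = gaussResF' O h x := rfl

end Fermat.Agent.RED.H73
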