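import Mathlib
import Fermat.Prelude.Def_AlgebraicCurve_Repartitions

/-!
# G-RED, package FF-R (helper42): Riemann's theorem for function fields, any characteristic

Elementary proof (no differentials), following the classical route: `L(D + v) / L(D)` has
dimension at most one, `L(0) = K`, and the lower bound on `l(l * (x)_infty)` coming from a basis
of `F` over `K(x)`.
-/

set_option autoImplicit false

noncomputable section

open AlgebraicCurve IntermediateField WithZero

namespace Fermat.Agent.RED.H42

variable {K F : Type*} [Field K] [Field F] [Algebra K F]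


/-! ## Basic facts on places -/

theorem mem_iff_adicValuation_le_one (v : Place K F) (x : F) :
    x ∈ v.toValuationSubring ↔ v.adicValuation x ≤ 1 := by
  constructor
  · exact v.adicValuation_le_one_of_mem
  · intro h
    by_contra hx
    have hx0 : x ≠ 0 := fun h0 => hx (h0 ▸ v.toValuationSubring.zero_mem)
    have hxi : x⁻¹ ∈ v.toValuationSubring := (v.toValuationSubring.mem_or_inv_mem x).resolve_left hx
    have h1 : v.adicValuation x⁻¹ ≤ 1 := v.adicValuation_le_one_of_mem hxi
    have h2 : v.adicValuation x⁻¹ = 1 := by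
      apply le_antisymm h1
      rw [map_inv₀]
      exact (one_le_inv₀ (zero_lt_iff.mpr (v.adicValuation_ne_zero hx0))).mpr h
    have h3 : IsUnit (⟨x⁻¹, hxi⟩ : v.toValuationSubring) :=
      (v.adicValuation_coe_eq_one_iff ⟨x⁻¹, hxi⟩).mp h2
    obtain ⟨b, hb⟩ := h3.exists_right_inv
    have hb' : x⁻¹ * (b : F) = 1 := congrArg Subtype.val hb
    have hbx : (b : F) = x := by
      field_simp at hb'
      exact hb'
    exact hx (hbx ▸ b.2)

theorem adicValuation_lt_one_iff (v : Place K F) (a : v.toValuationSubring) :
    v.adicValuation (a : F) < 1 ↔ a ∈ IsLocalRing.maximalIdeal v.toValuationSubring := by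
  rw [IsLocalRing.mem_maximalIdeal, mem_nonunits_iff, ← v.adicValuation_coe_eq_one_iff]
  have hle : v.adicValuation (a : F) ≤ 1 := v.adicValuation_le_one_of_mem a.2
  exact ⟨fun h => h.ne, fun h => lt_of_le_of_ne hle h⟩

theorem adicValuation_algebraMap (v : Place K F) {c : K} (hc : c ≠ 0) :
    v.adicValuation (algebraMap K F c) = 1 := by
  have hu : IsUnit (algebraMap K v.toValuationSubring c) := (hc.isUnit).map _
  exact (v.adicValuation_coe_eq_one_iff _).mpr hu

/-- If `deg v = 1`, every element of the valuation ring is congruent to a constant. -/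
theorem exists_const_sub_lt_one (v : Place K F) (hdeg : v.deg = 1) {u : F}
    (hu : v.adicValuation u ≤ 1) : ∃ c : K, v.adicValuation (u - algebraMap K F c) < 1 := by
  have hmem : u ∈ v.toValuationSubring := (mem_iff_adicValuation_le_one v u).mpr hu
  have hbij : Function.Bijective (algebraMap K v.ResidueField) :=
    Algebra.finrank_eq_one_iff_bijective_algebraMap.mp hdeg
  obtain ⟨c, hc⟩ := hbij.2 (IsLocalRing.residue _ ⟨u, hmem⟩)
  refine ⟨c, ?_⟩
  have h1 : IsLocalRing.residue v.toValuationSubring (⟨u, hmem⟩ - algebraMap K v.toValuationSubring c) = 0 := by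
    rw [map_sub, ← hc]
    exact sub_eq_zero.mpr rfl
  have h2 : (⟨u, hmem⟩ - algebraMap K v.toValuationSubring c : v.toValuationSubring) ∈
      IsLocalRing.maximalIdeal v.toValuationSubring := by
    rwa [IsLocalRing.residue_eq_zero_iff] at h1
  have h3 := (adicValuation_lt_one_iff v _).mpr h2
  simpa using h3





/-! ## The spaces `L(D)` -/

local notation "L" => riemannRochSpace

theorem mem_L_iff {D : Divisor K F} {f : F} :
    f ∈ L D ↔ ∀ v : Place K F, v.adicValuation f ≤ exp (D v) := Iff.rfl

theorem L_mono {D D' : Divisor K F} (h : D ≤ D') : L D ≤ L D' := fun _ hf v =>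
  (hf v).trans (exp_le_exp.mpr (Finsupp.le_def.mp h v))

theorem lt_exp_succ_iff {a : ℤᵐ⁰} {n : ℤ} : a < exp (n + 1) ↔ a ≤ exp n := by
  rcases eq_or_ne a 0 with rfl | ha
  · simp
  · rw [← exp_log ha, exp_lt_exp, exp_le_exp]
    omega

/-- One step: modulo `L(D)`, the space `L(D + v)` is spanned by any of its elements outside `L(D)`. -/
theorem one_step (v : Place K F) (hdeg : v.deg = 1) (D : Divisor K F) {f g : F}
    (hf : f ∈ L (D + Finsupp.single v 1)) (hfD : f ∉ L D)
    (hg : g ∈ L (D + Finsupp.single v 1)) : ∃ c : K, g - c • f ∈ L D := by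
  classical
  have hw : ∀ w : Place K F, w ≠ v → (D + Finsupp.single v 1 : Divisor K F) w = D w := fun w hwv => by
    rw [Finsupp.add_apply, Finsupp.single_apply, if_neg (Ne.symm hwv), add_zero]
  have hv : (D + Finsupp.single v 1 : Divisor K F) v = D v + 1 := by
    rw [Finsupp.add_apply, Finsupp.single_apply, if_pos rfl]
  -- the failing place is `v`
  have hfv : ¬ v.adicValuation f ≤ exp (D v) := by
    intro hle
    apply hfD
    intro w
    by_cases hwv : w = v
    · subst hwv; exact hle
    · have := hf w
      rwa [hw w hwv] at this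
  have hf0 : f ≠ 0 := by
    rintro rfl
    exact hfv (by simp)
  have hfval : v.adicValuation f = exp (D v + 1) := by
    have h1 := hf v
    rw [hv] at h1
    rcases lt_or_eq_of_le h1 with h2 | h2
    · exact absurd (lt_exp_succ_iff.mp h2) hfv
    · exact h2
  have hgv : v.adicValuation g ≤ exp (D v + 1) := by
    have := hg v
    rwa [hv] at this
  have hu : v.adicValuation (g / f) ≤ 1 := by
    rw [map_div₀, hfval]
    exact div_le_one_of_le₀ hgv zero_le
  obtain ⟨c, hc⟩ := exists_const_sub_lt_one v hdeg hu
  refine ⟨c, fun w => ?_⟩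
  by_cases hwv : w = v
  · subst hwv
    have h1 : g - c • f = (g / f - algebraMap K F c) * f := by
      rw [Algebra.smul_def]; field_simp
    rw [h1, map_mul, hfval, ← lt_exp_succ_iff]
    calc w.adicValuation (g / f - algebraMap K F c) * exp (D w + 1)
        < 1 * exp (D w + 1) := by
          apply mul_lt_mul_of_pos_right hc
          exact zero_lt_iff.mpr exp_ne_zero
      _ = exp (D w + 1) := one_mul _
  · have h1 := hf w
    have h2 := hg w
    rw [hw w hwv] at h1 h2
    have h3 : w.adicValuation (c • f) ≤ exp (D w) := by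
      rw [Algebra.smul_def, map_mul]
      exact (mul_le_of_le_one_left' (w.adicValuation_algebraMap_le_one c)).trans h1
    exact (Valuation.map_sub _ _ _).trans (max_le h2 h3)






/-! ## Degrees -/

theorem degree_nonneg {E : Divisor K F} (hE : 0 ≤ E) : 0 ≤ Divisor.degree E := by
  have h : Divisor.degree E = E.sum fun v n => n * (v.deg : ℤ) := by
    simp [Divisor.degree, Finsupp.liftAddHom_apply]
  rw [h, Finsupp.sum]
  refine Finset.sum_nonneg fun v _ => ?_
  have := Finsupp.le_def.mp hE v
  simp only [Finsupp.coe_zero, Pi.zero_apply] at this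
  positivity

theorem degree_mono {D D' : Divisor K F} (h : D ≤ D') : Divisor.degree D ≤ Divisor.degree D' := by
  have h1 : 0 ≤ D' - D := sub_nonneg.mpr h
  have h2 := degree_nonneg h1
  rw [map_sub] at h2
  linarith

theorem eq_or_exists_lt {D D' : Divisor K F} (h : D ≤ D') : D = D' ∨ ∃ v, D v < D' v := by
  by_cases hall : ∀ v, D' v ≤ D v
  · left
    ext v
    exact le_antisymm (Finsupp.le_def.mp h v) (hall v)
  · right
    push Not at hall
    exact hall

theorem le_sub_single {D D' : Divisor K F} (h : D ≤ D') {v : Place K F} (hv : D v < D' v) :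
    D ≤ D' - Finsupp.single v 1 := by
  classical
  rw [Finsupp.le_def]
  intro w
  rw [Finsupp.sub_apply, Finsupp.single_apply]
  have := Finsupp.le_def.mp h w
  split_ifs with hw
  · subst hw; omega
  · omega

/-- One step, dimension form. -/
theorem step_finrank (v : Place K F) (hdeg : v.deg = 1) (D : Divisor K F)
    (hfin : Module.Finite K (L D)) :
    Module.Finite K (L (D + Finsupp.single v 1)) ∧
      Module.finrank K (L (D + Finsupp.single v 1)) ≤ Module.finrank K (L D) + 1 := by
  classical
  have hle : L D ≤ L (D + Finsupp.single v 1) := L_mono (by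
    rw [Finsupp.le_def]; intro w
    rw [Finsupp.add_apply, Finsupp.single_apply]
    split_ifs <;> omega)
  by_cases h : L (D + Finsupp.single v 1) ≤ L D
  · have heq : L (D + Finsupp.single v 1) = L D := le_antisymm h hle
    rw [heq]
    exact ⟨hfin, Nat.le_succ _⟩
  · obtain ⟨f, hf, hfD⟩ := SetLike.not_le_iff_exists.mp h
    have hsub : L (D + Finsupp.single v 1) ≤ L D ⊔ Submodule.span K {f} := by
      intro g hg
      obtain ⟨c, hc⟩ := one_step v hdeg D hf hfD hg
      have : g = (g - c • f) + c • f := by ring
      rw [this]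
      exact Submodule.add_mem_sup hc (Submodule.smul_mem _ c (Submodule.mem_span_singleton_self f))
    have hf0 : f ≠ 0 := by
      rintro rfl
      exact hfD (Submodule.zero_mem _)
    have : FiniteDimensional K (L D) := hfin
    have : FiniteDimensional K (L D ⊔ Submodule.span K {f} : Submodule K F) := inferInstance
    refine ⟨Submodule.finiteDimensional_of_le hsub, ?_⟩
    calc Module.finrank K (L (D + Finsupp.single v 1))
        ≤ Module.finrank K (L D ⊔ Submodule.span K {f} : Submodule K F) := Submodule.finrank_mono hsub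
      _ ≤ Module.finrank K (L D) + Module.finrank K (Submodule.span K {f}) :=
          Submodule.finrank_add_le_finrank_add_finrank _ _
      _ = Module.finrank K (L D) + 1 := by rw [finrank_span_singleton hf0]

/-- Comparison of `L(D)` and `L(D')` for `D ≤ D'`. -/
theorem finrank_le_of_le (hdeg : ∀ v : Place K F, v.deg = 1) :
    ∀ (m : ℕ) (D D' : Divisor K F), D ≤ D' → Divisor.degree D' - Divisor.degree D ≤ m →
      Module.Finite K (L D) →
      Module.Finite K (L D') ∧
        (Module.finrank K (L D') : ℤ) ≤ Module.finrank K (L D) +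
          (Divisor.degree D' - Divisor.degree D) := by
  intro m
  induction m with
  | zero =>
    intro D D' h hm hfin
    rcases eq_or_exists_lt h with rfl | ⟨v, hv⟩
    · exact ⟨hfin, by simp⟩
    · exfalso
      have h1 := degree_mono (le_sub_single h hv)
      rw [map_sub, Divisor.degree_single, hdeg v] at h1
      simp only [Nat.cast_zero] at hm
      simp only [one_mul, Nat.cast_one] at h1
      omega
  | succ m ih =>
    intro D D' h hm hfin
    rcases eq_or_exists_lt h with rfl | ⟨v, hv⟩
    · exact ⟨hfin, by simp⟩
    · have hle := le_sub_single h hv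
      have hdeg' : Divisor.degree (D' - Finsupp.single v 1) = Divisor.degree D' - 1 := by
        rw [map_sub, Divisor.degree_single, hdeg v]; simp
      obtain ⟨hfin', hrk⟩ := ih D (D' - Finsupp.single v 1) hle (by rw [hdeg']; push_cast at hm; omega) hfin
      obtain ⟨hfin'', hrk'⟩ := step_finrank v (hdeg v) (D' - Finsupp.single v 1) hfin'
      rw [sub_add_cancel] at hfin'' hrk'
      refine ⟨hfin'', ?_⟩
      rw [hdeg'] at hrk
      have : (Module.finrank K (L D') : ℤ) ≤ Module.finrank K (L (D' - Finsupp.single v 1)) + 1 := by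
        exact_mod_cast hrk'
      omega

theorem finite_of_le (hdeg : ∀ v : Place K F, v.deg = 1) {D D' : Divisor K F} (h : D ≤ D')
    (hfin : Module.Finite K (L D)) : Module.Finite K (L D') :=
  (finrank_le_of_le hdeg _ D D' h (Int.self_le_toNat _) hfin).1

theorem finrank_le_add (hdeg : ∀ v : Place K F, v.deg = 1) {D D' : Divisor K F} (h : D ≤ D')
    (hfin : Module.Finite K (L D)) :
    (Module.finrank K (L D') : ℤ) ≤ Module.finrank K (L D) +
          (Divisor.degree D' - Divisor.degree D) :=
  (finrank_le_of_le hdeg _ D D' h (Int.self_le_toNat _) hfin).2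









/-! ## Hypotheses -/

/-- The facts about places used in the proof of Riemann's theorem. -/
structure Hyp (K F : Type*) [Field K] [Field F] [Algebra K F] : Prop where
  principal : ∀ f : F, f ≠ 0 → ∃ D : Divisor K F, (∀ v, D v = v.ord f) ∧ Divisor.degree D = 0
  deg_one : ∀ v : Place K F, v.deg = 1
  exists_pole : ∀ f : F, f ∉ Set.range (algebraMap K F) → ∃ v : Place K F, v.ord f < 0

variable (H : Hyp K F)
include H

theorem L_zero_eq : L (0 : Divisor K F) = Submodule.span K {(1 : F)} := by
  apply le_antisymm
  · intro f hf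
    by_cases hfr : f ∈ Set.range (algebraMap K F)
    · obtain ⟨c, rfl⟩ := hfr
      rw [Submodule.mem_span_singleton]
      exact ⟨c, by rw [Algebra.smul_def, mul_one]⟩
    · exfalso
      obtain ⟨v, hv⟩ := H.exists_pole f hfr
      have h1 := (mem_riemannRochSpace_iff.mp hf) v
      rcases h1 with rfl | h1
      · simp at hv
      · simp only [Finsupp.coe_zero, Pi.zero_apply, neg_zero] at h1
        omega
  · rw [Submodule.span_singleton_le_iff_mem]
    intro v
    simp

theorem finite_L_zero : Module.Finite K (L (0 : Divisor K F)) := by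
  rw [L_zero_eq H]
  infer_instance

theorem finrank_L_zero : Module.finrank K (L (0 : Divisor K F)) = 1 := by
  rw [L_zero_eq H]
  exact finrank_span_singleton one_ne_zero

theorem finite_L (D : Divisor K F) : Module.Finite K (L D) := by
  have h1 : Module.Finite K (L (D ⊔ 0)) := finite_of_le H.deg_one le_sup_right (finite_L_zero H)
  exact Submodule.finiteDimensional_of_le (L_mono (le_sup_left : D ≤ D ⊔ 0))

theorem L_eq_bot_of_degree_neg {D : Divisor K F} (hD : Divisor.degree D < 0) : L D = ⊥ := by
  rw [eq_bot_iff]
  intro f hf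
  rw [Submodule.mem_bot]
  by_contra hf0
  obtain ⟨E, hE, hE0⟩ := H.principal f hf0
  have h1 : 0 ≤ D + E := by
    rw [Finsupp.le_def]
    intro v
    have := (mem_riemannRochSpace_iff.mp hf) v
    rcases this with h | h
    · exact absurd h hf0
    · rw [Finsupp.add_apply, hE v]
      simp only [Finsupp.coe_zero, Pi.zero_apply]
      omega
  have h2 := degree_nonneg h1
  rw [map_add, hE0] at h2
  omega

omit H in
/-- Multiplication by `f` maps `L(D + div f)` into `L(D)`. -/
theorem mul_mem_L {D E : Divisor K F} {f : F} (hf : f ≠ 0) (hE : ∀ v, E v = v.ord f) {g : F}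
    (hg : g ∈ L (D + E)) : g * f ∈ L D := by
  intro v
  have h1 := hg v
  rw [Finsupp.add_apply, hE v] at h1
  rw [map_mul, v.adicValuation_eq_exp_neg_ord hf]
  calc v.adicValuation g * exp (-v.ord f) ≤ exp (D v + v.ord f) * exp (-v.ord f) := by gcongr
    _ = exp (D v) := by rw [← exp_add]; congr 1; ring

omit H in
theorem mul_inv_mem_L {D E : Divisor K F} {f : F} (hf : f ≠ 0) (hE : ∀ v, E v = v.ord f) {g : F}
    (hg : g ∈ L D) : g * f⁻¹ ∈ L (D + E) := by
  intro v
  have h1 := hg v
  rw [Finsupp.add_apply, hE v]
  rw [map_mul, v.adicValuation_eq_exp_neg_ord (inv_ne_zero hf), Place.ord_inv, neg_neg]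
  calc v.adicValuation g * exp (v.ord f) ≤ exp (D v) * exp (v.ord f) := by gcongr
    _ = exp (D v + v.ord f) := by rw [← exp_add]

theorem finrank_L_add_principal {D E : Divisor K F} {f : F} (hf : f ≠ 0)
    (hE : ∀ v, E v = v.ord f) :
    Module.finrank K (L (D + E)) = Module.finrank K (L D) := by
  have hfin1 := finite_L H D
  have hfin2 := finite_L H (D + E)
  apply le_antisymm
  · let φ : L (D + E) →ₗ[K] L D :=
      { toFun := fun g => ⟨g.1 * f, mul_mem_L hf hE g.2⟩
        map_add' := fun a b => by ext; simp [add_mul]
        map_smul' := fun c a => by ext; simp [Algebra.smul_def, mul_assoc] }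
    refine LinearMap.finrank_le_finrank_of_injective (f := φ) ?_
    intro a b hab
    have := congrArg Subtype.val hab
    simp only [φ, LinearMap.coe_mk, AddHom.coe_mk] at this
    exact Subtype.ext (mul_right_cancel₀ hf this)
  · let ψ : L D →ₗ[K] L (D + E) :=
      { toFun := fun g => ⟨g.1 * f⁻¹, mul_inv_mem_L hf hE g.2⟩
        map_add' := fun a b => by ext; simp [add_mul]
        map_smul' := fun c a => by ext; simp [Algebra.smul_def, mul_assoc] }
    refine LinearMap.finrank_le_finrank_of_injective (f := ψ) ?_
    intro a b hab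
    have := congrArg Subtype.val hab
    simp only [ψ, LinearMap.coe_mk, AddHom.coe_mk] at this
    exact Subtype.ext (mul_right_cancel₀ (inv_ne_zero hf) this)

theorem finrank_L_le {D : Divisor K F} (hD : 0 ≤ Divisor.degree D) :
    (Module.finrank K (L D) : ℤ) ≤ Divisor.degree D + 1 := by
  by_cases hbot : L D = ⊥
  · rw [hbot, finrank_bot]
    simp only [Nat.cast_zero]
    omega
  · obtain ⟨f, hf, hf0⟩ := (Submodule.ne_bot_iff _).mp hbot
    obtain ⟨E, hE, hE0⟩ := H.principal f hf0
    have h1 : 0 ≤ D + E := by
      rw [Finsupp.le_def]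
      intro v
      have := (mem_riemannRochSpace_iff.mp hf) v
      rcases this with h | h
      · exact absurd h hf0
      · rw [Finsupp.add_apply, hE v]
        simp only [Finsupp.coe_zero, Pi.zero_apply]
        omega
    have h2 := finrank_le_add H.deg_one h1 (finite_L_zero H)
    rw [finrank_L_zero H, map_zero, map_add, hE0, finrank_L_add_principal H hf0 hE] at h2
    simp only [Nat.cast_one, add_zero, sub_zero] at h2
    omega



end Fermat.Agent.RED.H42
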