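import Mathlib
import Fermat.Prelude.Def_AlgebraicCurve_Repartitions

/-!
# FF-B, piece P0 (helper51): elementary API for `Place.ord`

`OrdGe v n f` says `v(f) ≥ n`, where `f = 0` is allowed (`v(0) = ∞`).  It is closed under sums and
compatible with products.  `ord_add_eq` is the strict triangle inequality.  Everything here holds for
arbitrary fields `K ⊆ F`.
-/

set_option autoImplicit false
set_option linter.style.haveILetI false

noncomputable section

open AlgebraicCurve WithZero

namespace Fermat.Agent.RED.H51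

variable {K F : Type*} [Field K] [Field F] [Algebra K F]

/-- `v(f) ≥ n`, with the convention `v(0) = ∞`. -/
def OrdGe (v : Place K F) (n : ℤ) (f : F) : Prop := f = 0 ∨ n ≤ v.ord f

theorem ordGe_iff (v : Place K F) (n : ℤ) (f : F) :
    OrdGe v n f ↔ v.adicValuation f ≤ exp (-n) := by
  rw [v.adicValuation_le_exp_iff, neg_neg]
  rfl

@[simp]
theorem ordGe_zero (v : Place K F) (n : ℤ) : OrdGe v n (0 : F) := Or.inl rfl

theorem ordGe_of_le (v : Place K F) {n : ℤ} {f : F} (h : n ≤ v.ord f) : OrdGe v n f := Or.inr h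

theorem OrdGe.le {v : Place K F} {n : ℤ} {f : F} (h : OrdGe v n f) (hf : f ≠ 0) : n ≤ v.ord f :=
  h.resolve_left hf

theorem OrdGe.mono {v : Place K F} {n m : ℤ} {f : F} (h : OrdGe v n f) (hmn : m ≤ n) :
    OrdGe v m f :=
  h.imp id fun h' => hmn.trans h'

theorem OrdGe.add {v : Place K F} {n : ℤ} {f g : F} (hf : OrdGe v n f) (hg : OrdGe v n g) :
    OrdGe v n (f + g) := by
  rw [ordGe_iff] at hf hg ⊢
  exact (Valuation.map_add _ _ _).trans (max_le hf hg)

theorem OrdGe.neg {v : Place K F} {n : ℤ} {f : F} (hf : OrdGe v n f) : OrdGe v n (-f) := by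
  rw [ordGe_iff] at hf ⊢
  rwa [Valuation.map_neg]

theorem OrdGe.sub {v : Place K F} {n : ℤ} {f g : F} (hf : OrdGe v n f) (hg : OrdGe v n g) :
    OrdGe v n (f - g) := by
  rw [sub_eq_add_neg]
  exact hf.add hg.neg

theorem OrdGe.mul {v : Place K F} {n m : ℤ} {f g : F} (hf : OrdGe v n f) (hg : OrdGe v m g) :
    OrdGe v (n + m) (f * g) := by
  rcases eq_or_ne f 0 with rfl | hf0
  · simp
  rcases eq_or_ne g 0 with rfl | hg0
  · simp
  refine Or.inr ?_
  rw [v.ord_mul hf0 hg0]
  exact add_le_add (hf.le hf0) (hg.le hg0)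

theorem ordGe_sum {ι : Type*} (v : Place K F) (n : ℤ) (s : Finset ι) (f : ι → F)
    (h : ∀ i ∈ s, OrdGe v n (f i)) : OrdGe v n (∑ i ∈ s, f i) := by
  classical
  induction s using Finset.induction_on with
  | empty => simp
  | insert a s ha ih =>
    rw [Finset.sum_insert ha]
    exact (h a (Finset.mem_insert_self a s)).add
      (ih fun i hi => h i (Finset.mem_insert_of_mem hi))

/-- Constants have order zero. -/
theorem ord_algebraMap (v : Place K F) (a : K) : v.ord (algebraMap K F a) = 0 := by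
  rcases eq_or_ne a 0 with rfl | ha
  · simp
  · have hu : IsUnit (algebraMap K v.toValuationSubring a) := (ha.isUnit).map _
    have := v.ord_coe_unit hu.unit
    simpa using this

theorem ordGe_algebraMap (v : Place K F) (a : K) : OrdGe v 0 (algebraMap K F a) :=
  Or.inr (ord_algebraMap v a).ge

theorem ordGe_one (v : Place K F) : OrdGe v 0 (1 : F) := Or.inr (by simp)

theorem ord_pow (v : Place K F) (f : F) (n : ℕ) : v.ord (f ^ n) = n * v.ord f := by
  have := v.ord_zpow f (n : ℤ)
  rwa [zpow_natCast] at this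

theorem ord_div (v : Place K F) {f g : F} (hf : f ≠ 0) (hg : g ≠ 0) :
    v.ord (f / g) = v.ord f - v.ord g := by
  rw [div_eq_mul_inv, v.ord_mul hf (inv_ne_zero hg), v.ord_inv]
  ring

theorem ord_neg (v : Place K F) (f : F) : v.ord (-f) = v.ord f := by
  unfold Place.ord
  rw [Valuation.map_neg]

theorem ord_sub_comm (v : Place K F) (f g : F) : v.ord (f - g) = v.ord (g - f) := by
  rw [← ord_neg, neg_sub]

theorem ne_zero_of_ord_ne_zero (v : Place K F) {f : F} (h : v.ord f ≠ 0) : f ≠ 0 := by
  rintro rfl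
  exact h v.ord_zero

/-- Membership in the valuation ring. -/
theorem ordGe_zero_iff_mem (v : Place K F) (f : F) :
    OrdGe v 0 f ↔ f ∈ v.toValuationSubring := by
  constructor
  · rintro (rfl | h)
    · exact zero_mem _
    · rcases eq_or_ne f 0 with rfl | hf
      · exact zero_mem _
      obtain ⟨π, hπ⟩ := IsDiscreteValuationRing.exists_irreducible v.toValuationSubring
      obtain ⟨u, hu⟩ := v.exists_unit_mul_zpow hf hπ
      rw [hu, show v.ord f = (((v.ord f).toNat : ℕ) : ℤ) from (Int.toNat_of_nonneg h).symm,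
        zpow_natCast]
      exact mul_mem (u : v.toValuationSubring).2 (pow_mem (π : v.toValuationSubring).2 _)
  · intro hf
    rw [ordGe_iff, neg_zero, exp_zero]
    exact v.adicValuation_le_one_of_mem hf

theorem mem_iff_ord_nonneg (v : Place K F) {f : F} (hf : f ≠ 0) :
    f ∈ v.toValuationSubring ↔ 0 ≤ v.ord f := by
  rw [← ordGe_zero_iff_mem]
  exact ⟨fun h => h.le hf, fun h => Or.inr h⟩

theorem not_mem_iff_ord_neg (v : Place K F) {f : F} :
    f ∉ v.toValuationSubring ↔ v.ord f < 0 := by
  rw [← ordGe_zero_iff_mem]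
  constructor
  · intro h
    by_contra h'
    exact h (Or.inr (not_lt.mp h'))
  · rintro h (rfl | h')
    · simp at h
    · omega

/-- Strict triangle inequality: a summand of strictly smallest order decides the order. -/
theorem ord_add_eq (v : Place K F) {f g : F} (hf : f ≠ 0) (hg : OrdGe v (v.ord f + 1) g) :
    f + g ≠ 0 ∧ v.ord (f + g) = v.ord f := by
  have hlt : v.adicValuation g < v.adicValuation f := by
    rw [ordGe_iff] at hg
    refine hg.trans_lt ?_
    rw [v.adicValuation_eq_exp_neg_ord hf, exp_lt_exp]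
    omega
  have heq : v.adicValuation (f + g) = v.adicValuation f :=
    Valuation.map_add_eq_of_lt_left _ hlt
  have hne : f + g ≠ 0 := by
    intro h0
    rw [h0, map_zero] at heq
    exact v.adicValuation_ne_zero hf heq.symm
  refine ⟨hne, ?_⟩
  unfold Place.ord
  rw [heq]

theorem ord_add_eq' (v : Place K F) {f g : F} (hf : f ≠ 0) (hg : OrdGe v (v.ord f + 1) g) :
    g + f ≠ 0 ∧ v.ord (g + f) = v.ord f := by
  rw [add_comm]
  exact ord_add_eq v hf hg

/-- There is a uniformizer. -/
theorem exists_uniformizer (v : Place K F) : ∃ t : F, t ≠ 0 ∧ v.ord t = 1 := by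
  obtain ⟨π, hπ⟩ := IsDiscreteValuationRing.exists_irreducible v.toValuationSubring
  refine ⟨(π : F), ?_, v.ord_coe_irreducible hπ⟩
  simpa [ne_eq, ZeroMemClass.coe_eq_zero] using hπ.ne_zero

/-- Elements of every prescribed order exist. -/
theorem exists_ord_eq (v : Place K F) (n : ℤ) : ∃ t : F, t ≠ 0 ∧ v.ord t = n := by
  obtain ⟨t, ht0, ht⟩ := exists_uniformizer v
  exact ⟨t ^ n, zpow_ne_zero n ht0, by rw [v.ord_zpow, ht, mul_one]⟩

theorem OrdGe.pos_of_ne {v : Place K F} {f : F} (h : OrdGe v 1 f) (hf : f ≠ 0) : 0 < v.ord f := by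
  have := h.le hf
  omega

theorem ordGe_pow {v : Place K F} {n : ℤ} {f : F} (hf : OrdGe v n f) (k : ℕ) :
    OrdGe v (k * n) (f ^ k) := by
  rcases eq_or_ne f 0 with rfl | hf0
  · rcases Nat.eq_zero_or_pos k with rfl | hk
    · simp only [pow_zero, Nat.cast_zero, zero_mul]
      exact ordGe_one v
    · rw [zero_pow hk.ne']
      exact ordGe_zero v _
  · refine Or.inr ?_
    rw [ord_pow]
    exact mul_le_mul_of_nonneg_left (hf.le hf0) (Int.natCast_nonneg k)

end Fermat.Agent.RED.H51
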