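import Mathlib
import Fermat.Agent.RED.H51_Ord

/-!
# FF-B, piece P2 (helper51): the weak approximation theorem

For finitely many pairwise distinct places of a field `F` (discrete valuation rings of `F`
containing `K`) and elements `y v` of `F`, there is `z` with `v (z - y v) ≥ N` for all of them.
No hypothesis on `K` or `F`.
-/

set_option autoImplicit false
set_option linter.style.haveILetI false

noncomputable section

open AlgebraicCurve

namespace Fermat.Agent.RED.H51

variable {K F : Type*} [Field K] [Field F] [Algebra K F]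

/-- Distinct places are incomparable: there is an element integral at `v` and not at `w`. -/
theorem exists_mem_not_mem {v w : Place K F} (h : v ≠ w) :
    ∃ y : F, y ∈ v.toValuationSubring ∧ y ∉ w.toValuationSubring := by
  by_contra hcon
  push Not at hcon
  -- `O_v ⊆ O_w`
  apply h
  apply Place.ext
  refine le_antisymm (fun y hy => hcon y hy) ?_
  intro z hz
  by_contra hzv
  -- `v z < 0`, so every `f` is `z ^ k` times an element of `O_v`
  have hzneg : v.ord z < 0 := (not_mem_iff_ord_neg v).mp hzv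
  apply w.ne_top'
  rw [eq_top_iff]
  intro f _
  rcases eq_or_ne f 0 with rfl | hf
  · exact zero_mem _
  have hz0 : z ≠ 0 := ne_zero_of_ord_ne_zero v hzneg.ne
  -- choose `k` with `v f ≥ k * v z`
  obtain ⟨k, hk⟩ : ∃ k : ℕ, (k : ℤ) * v.ord z ≤ v.ord f := by
    refine ⟨(v.ord f).natAbs, ?_⟩
    have h1 : ((v.ord f).natAbs : ℤ) * v.ord z ≤ ((v.ord f).natAbs : ℤ) * (-1) :=
      mul_le_mul_of_nonneg_left (by omega) (Int.natCast_nonneg _)
    have h2 : (((v.ord f).natAbs : ℕ) : ℤ) = |v.ord f| := Int.natCast_natAbs _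
    have h3 : -|v.ord f| ≤ v.ord f := neg_abs_le _
    linarith
  have hmem : f / z ^ k ∈ v.toValuationSubring := by
    rw [mem_iff_ord_nonneg v (div_ne_zero hf (pow_ne_zero k hz0)),
      ord_div v hf (pow_ne_zero k hz0), ord_pow]
    omega
  have hfz : f = f / z ^ k * z ^ k := by
    field_simp
  rw [hfz]
  exact mul_mem (hcon _ hmem) (pow_mem hz k)

/-- Two distinct places are separated by a function. -/
theorem exists_pos_neg_pair {v w : Place K F} (h : v ≠ w) :
    ∃ u : F, 0 < v.ord u ∧ w.ord u < 0 := by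
  obtain ⟨y₁, hy₁v, hy₁w⟩ := exists_mem_not_mem h
  obtain ⟨y₂, hy₂w, hy₂v⟩ := exists_mem_not_mem h.symm
  have h1 : w.ord y₁ < 0 := (not_mem_iff_ord_neg w).mp hy₁w
  have h2 : v.ord y₂ < 0 := (not_mem_iff_ord_neg v).mp hy₂v
  have hy₁0 : y₁ ≠ 0 := ne_zero_of_ord_ne_zero w h1.ne
  have hy₂0 : y₂ ≠ 0 := ne_zero_of_ord_ne_zero v h2.ne
  have h3 : 0 ≤ v.ord y₁ := (mem_iff_ord_nonneg v hy₁0).mp hy₁v
  have h4 : 0 ≤ w.ord y₂ := (mem_iff_ord_nonneg w hy₂0).mp hy₂w
  refine ⟨y₁ / y₂, ?_, ?_⟩
  · rw [ord_div v hy₁0 hy₂0]; omega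
  · rw [ord_div w hy₁0 hy₂0]; omega

/-- Step 1: a function with a zero at `v₀` and poles at all places of `S`. -/
theorem exists_pos_neg (v₀ : Place K F) (S : Finset (Place K F)) (hS : v₀ ∉ S) :
    ∃ u : F, 0 < v₀.ord u ∧ ∀ w ∈ S, w.ord u < 0 := by
  classical
  induction S using Finset.induction_on with
  | empty =>
    obtain ⟨t, -, ht⟩ := exists_uniformizer v₀
    exact ⟨t, by omega, by simp⟩
  | insert w S hw ih =>
    have hv₀S : v₀ ∉ S := fun h => hS (Finset.mem_insert_of_mem h)
    have hv₀w : v₀ ≠ w := fun h => hS (h ▸ Finset.mem_insert_self _ S)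
    obtain ⟨y, hy₀, hyS⟩ := ih hv₀S
    by_cases hwy : w.ord y < 0
    · refine ⟨y, hy₀, fun w' hw' => ?_⟩
      rcases Finset.mem_insert.mp hw' with rfl | hw'
      · exact hwy
      · exact hyS w' hw'
    · have hwy' : 0 ≤ w.ord y := not_lt.mp hwy
      obtain ⟨z, hz₀, hzw⟩ := exists_pos_neg_pair hv₀w
      have hy0 : y ≠ 0 := ne_zero_of_ord_ne_zero v₀ hy₀.ne'
      have hz0 : z ≠ 0 := ne_zero_of_ord_ne_zero v₀ hz₀.ne'
      -- the exponent
      set r : ℕ := 1 + ∑ w' ∈ S, (w'.ord y).natAbs with hr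
      have hr1 : 1 ≤ r := by omega
      have hzr0 : z ^ r ≠ 0 := pow_ne_zero r hz0
      -- order of `y + z ^ r` at `w`
      have hw1 : y + z ^ r ≠ 0 ∧ w.ord (y + z ^ r) = w.ord (z ^ r) := by
        refine ord_add_eq' w hzr0 (Or.inr ?_)
        rw [ord_pow]
        have : (r : ℤ) * w.ord z ≤ (r : ℤ) * (-1) :=
          mul_le_mul_of_nonneg_left (by omega) (Int.natCast_nonneg _)
        have hr1' : (1 : ℤ) ≤ (r : ℤ) := by exact_mod_cast hr1
        linarith
      refine ⟨y + z ^ r, ?_, fun w' hw' => ?_⟩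
      · have h1 : OrdGe v₀ 1 (y + z ^ r) := by
          refine OrdGe.add (Or.inr (by omega)) (Or.inr ?_)
          rw [ord_pow]
          have hr1' : (1 : ℤ) ≤ (r : ℤ) := by exact_mod_cast hr1
          nlinarith
        exact h1.pos_of_ne hw1.1
      · rcases Finset.mem_insert.mp hw' with rfl | hw'
        · rw [hw1.2, ord_pow]
          have hr1' : (1 : ℤ) ≤ (r : ℤ) := by exact_mod_cast hr1
          nlinarith
        · have hyw' : w'.ord y < 0 := hyS w' hw'
          -- `r > |w' y|`
          have hrgt : ((w'.ord y).natAbs : ℤ) < (r : ℤ) := by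
            have : (w'.ord y).natAbs ≤ ∑ w'' ∈ S, (w''.ord y).natAbs :=
              Finset.single_le_sum (f := fun w'' : Place K F => (w''.ord y).natAbs)
                (fun _ _ => Nat.zero_le _) hw'
            have h2 : (w'.ord y).natAbs < r := by omega
            exact_mod_cast h2
          have habs : (((w'.ord y).natAbs : ℕ) : ℤ) = -w'.ord y := by
            rw [Int.natCast_natAbs, abs_of_neg hyw']
          rcases lt_trichotomy (w'.ord z) 0 with hz | hz | hz
          · -- `w' (z^r) = r w' z ≤ -r < w' y`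
            have h3 : (r : ℤ) * w'.ord z ≤ (r : ℤ) * (-1) :=
              mul_le_mul_of_nonneg_left (by omega) (Int.natCast_nonneg _)
            have h4 := ord_add_eq' w' hzr0 (g := y) (Or.inr (by rw [ord_pow]; omega))
            rw [h4.2, ord_pow]
            omega
          · -- `w' (z^r) = 0 > w' y`
            have h4 := ord_add_eq w' hy0 (g := z ^ r)
              (Or.inr (by rw [ord_pow, hz, mul_zero]; omega))
            rw [h4.2]
            exact hyw'
          · -- `w' (z^r) > 0 > w' y`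
            have h3 : 0 ≤ (r : ℤ) * w'.ord z :=
              mul_nonneg (Int.natCast_nonneg _) hz.le
            have h4 := ord_add_eq w' hy0 (g := z ^ r) (Or.inr (by rw [ord_pow]; omega))
            rw [h4.2]
            exact hyw'

/-- Step 2: a function close to `1` at `v₀` and close to `0` at the places of `S`. -/
theorem exists_near_one (v₀ : Place K F) (S : Finset (Place K F)) (hS : v₀ ∉ S) (N : ℤ) :
    ∃ h : F, OrdGe v₀ N (h - 1) ∧ ∀ w ∈ S, OrdGe w N h := by
  obtain ⟨u, hu₀, huS⟩ := exists_pos_neg v₀ S hS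
  have hu0 : u ≠ 0 := ne_zero_of_ord_ne_zero v₀ hu₀.ne'
  set s : ℕ := 1 + N.natAbs with hs
  have hs1 : (1 : ℤ) ≤ (s : ℤ) := by
    have : 1 ≤ s := by omega
    exact_mod_cast this
  have hsN : N ≤ (s : ℤ) := by
    have h1 : N ≤ |N| := le_abs_self N
    have h2 : ((N.natAbs : ℕ) : ℤ) = |N| := Int.natCast_natAbs _
    have h3 : (s : ℤ) = 1 + ((N.natAbs : ℕ) : ℤ) := by rw [hs]; push_cast; ring
    omega
  have hus0 : u ^ s ≠ 0 := pow_ne_zero s hu0
  -- at `v₀`
  have h0 : (1 : F) + u ^ s ≠ 0 ∧ v₀.ord (1 + u ^ s) = v₀.ord 1 := by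
    refine ord_add_eq v₀ one_ne_zero (Or.inr ?_)
    rw [Place.ord_one, ord_pow]
    nlinarith
  have hden : (1 : F) + u ^ s ≠ 0 := h0.1
  refine ⟨(1 + u ^ s)⁻¹, ?_, fun w hw => ?_⟩
  · have hsub : (1 + u ^ s)⁻¹ - 1 = -(u ^ s) / (1 + u ^ s) := by
      field_simp
      ring
    rw [hsub]
    refine Or.inr ?_
    rw [ord_div v₀ (neg_ne_zero.mpr hus0) hden, ord_neg, h0.2, Place.ord_one, ord_pow]
    nlinarith
  · have hw1 : w.ord u < 0 := huS w hw
    have h1 : (1 : F) + u ^ s ≠ 0 ∧ w.ord (1 + u ^ s) = w.ord (u ^ s) := by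
      refine ord_add_eq' w hus0 (Or.inr ?_)
      rw [Place.ord_one, ord_pow]
      nlinarith
    refine Or.inr ?_
    rw [Place.ord_inv, h1.2, ord_pow]
    nlinarith

/-- Step 3, **weak approximation**: for a finite set `S` of places and prescribed elements `y v`
there is `z` with `v (z - y v) ≥ N` for all `v ∈ S`. -/
theorem exists_approx (S : Finset (Place K F)) (y : Place K F → F) (N : ℤ) :
    ∃ z : F, ∀ v ∈ S, OrdGe v N (z - y v) := by
  classical
  -- a common lower bound `-m` for the orders of the `y w` at the `v`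
  set m : ℕ := ∑ v ∈ S, ∑ w ∈ S, ((v.ord (y w)).natAbs) with hm
  have hlow : ∀ v ∈ S, ∀ w ∈ S, OrdGe v (-(m : ℤ)) (y w) := by
    intro v hv w hw
    refine Or.inr ?_
    have h1 : (v.ord (y w)).natAbs ≤ ∑ w' ∈ S, (v.ord (y w')).natAbs :=
      Finset.single_le_sum (f := fun w' : Place K F => (v.ord (y w')).natAbs)
        (fun _ _ => Nat.zero_le _) hw
    have h2 : ∑ w' ∈ S, (v.ord (y w')).natAbs ≤ m :=
      Finset.single_le_sum (f := fun v' : Place K F => ∑ w' ∈ S, (v'.ord (y w')).natAbs)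
        (fun _ _ => Nat.zero_le _) hv
    have h3 : ((v.ord (y w)).natAbs : ℤ) ≤ (m : ℤ) := by exact_mod_cast h1.trans h2
    have h4 : (((v.ord (y w)).natAbs : ℕ) : ℤ) = |v.ord (y w)| := Int.natCast_natAbs _
    have h5 : -|v.ord (y w)| ≤ v.ord (y w) := neg_abs_le _
    omega
  -- the partition of unity
  have hex : ∀ w : Place K F, ∃ h : F, OrdGe w (N + m) (h - 1) ∧
      ∀ v ∈ S.erase w, OrdGe v (N + m) h := fun w =>
    exists_near_one w (S.erase w) (Finset.notMem_erase w S) (N + m)
  choose h hh1 hh2 using hex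
  refine ⟨∑ w ∈ S, y w * h w, fun v hv => ?_⟩
  have hsplit : ∑ w ∈ S, y w * h w - y v
      = y v * (h v - 1) + ∑ w ∈ S.erase v, y w * h w := by
    rw [← Finset.add_sum_erase S (fun w => y w * h w) hv]
    ring
  rw [hsplit]
  refine OrdGe.add ?_ (ordGe_sum v N _ _ fun w hw => ?_)
  · have := (hlow v hv v hv).mul (hh1 v)
    exact this.mono (by omega)
  · have hwS : w ∈ S := Finset.mem_of_mem_erase hw
    have hvw : v ∈ S.erase w := Finset.mem_erase.mpr ⟨(Finset.ne_of_mem_erase hw).symm, hv⟩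
    have := (hlow v hv w hwS).mul (hh2 w v hvw)
    exact this.mono (by omega)

/-- Weak approximation for an injective finite family of places. -/
theorem exists_approx_family {ι : Type*} [Finite ι] (v : ι → Place K F)
    (hv : Function.Injective v) (y : ι → F) (N : ℤ) :
    ∃ z : F, ∀ i, OrdGe (v i) N (z - y i) := by
  classical
  have := Fintype.ofFinite ι
  obtain ⟨z, hz⟩ := exists_approx (Finset.univ.image v)
    (fun p => if h : ∃ i, v i = p then y h.choose else 0) N
  refine ⟨z, fun i => ?_⟩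
  have := hz (v i) (Finset.mem_image_of_mem v (Finset.mem_univ i))
  have hex : ∃ j, v j = v i := ⟨i, rfl⟩
  rw [dif_pos hex] at this
  rwa [hv hex.choose_spec] at this

/-- Weak approximation with exact orders: for a finite set `S` of places and integers `n v` there
is `z ≠ 0` with `v z = n v` for all `v ∈ S`. -/
theorem exists_ord_eq_family (S : Finset (Place K F)) (n : Place K F → ℤ) :
    ∃ z : F, z ≠ 0 ∧ ∀ v ∈ S, v.ord z = n v := by
  classical
  have hex : ∀ v : Place K F, ∃ t : F, t ≠ 0 ∧ v.ord t = n v := fun v => exists_ord_eq v (n v)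
  choose t ht0 ht using hex
  by_cases hS : S.Nonempty
  · obtain ⟨z, hz⟩ := exists_approx S t (∑ v ∈ S, (n v).natAbs + 1)
    have key : ∀ v ∈ S, z ≠ 0 ∧ v.ord z = n v := by
      intro v hv
      have h1 : z = t v + (z - t v) := by ring
      have h2 := ord_add_eq v (ht0 v) (g := z - t v) ((hz v hv).mono (by
        rw [ht]
        have h3 : (n v).natAbs ≤ ∑ v' ∈ S, (n v').natAbs :=
          Finset.single_le_sum (f := fun v' : Place K F => (n v').natAbs)
            (fun _ _ => Nat.zero_le _) hv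
        have h4 : (((n v).natAbs : ℕ) : ℤ) = |n v| := Int.natCast_natAbs _
        have h5 : n v ≤ |n v| := le_abs_self _
        have h6 : ((n v).natAbs : ℤ) ≤ ((∑ v' ∈ S, (n v').natAbs : ℕ) : ℤ) := by
          exact_mod_cast h3
        push_cast at h6 ⊢
        omega))
      rw [← h1] at h2
      exact ⟨h2.1, h2.2.trans (ht v)⟩
    obtain ⟨v, hv⟩ := hS
    exact ⟨z, (key v hv).1, fun v hv => (key v hv).2⟩
  · rw [Finset.not_nonempty_iff_eq_empty] at hS
    exact ⟨1, one_ne_zero, by simp [hS]⟩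

end Fermat.Agent.RED.H51
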