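import Fermat.Agent.RED.H17_Place
import Fermat.Agent.RED.H42_RiemannBasic
import Fermat.Agent.RED.H51_Approx

/-!
# G-RED / TI route C (helper17), part 3: function field toolkit

`FFHyp K F`: the facts on a function field `F / K` used in route C (FF-B and FF-R);
`IsGenus K F g c`: Riemann's theorem with genus `g` and bound `c`.

* `FFHyp.const_of_regular`: a function without poles is constant;
* `FFHyp.infinite_place`: there are infinitely many places;
* `FFHyp.exists_nonspecial`: there are `g` distinct places `A` with `L (∑ A) = K`
  (a non-special reduced effective divisor of degree `g`).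
-/

set_option autoImplicit false
set_option linter.style.haveILetI false

noncomputable section

open AlgebraicCurve

attribute [local instance] Classical.propDecidable

namespace Fermat.Agent.RED.H17

variable {K F : Type*} [Field K] [Field F] [Algebra K F]

local notation "L" => riemannRochSpace

/-- The facts on the function field `F / K` used in route C. -/
structure FFHyp (K F : Type*) [Field K] [Field F] [Algebra K F] : Prop where
  principal : HasPrincipalDivisors K F
  deg_one : ∀ v : Place K F, v.deg = 1
  finite : ∀ D : Divisor K F, Module.Finite K (L D)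
  le : ∀ D : Divisor K F, 0 ≤ Divisor.degree D →
    (Module.finrank K (L D) : ℤ) ≤ Divisor.degree D + 1
  transc : ∃ x : F, Transcendental K x

/-- Riemann's theorem with genus `g`, equality from degree `c` on. -/
def IsGenus (K F : Type*) [Field K] [Field F] [Algebra K F] (g : ℕ) (c : ℤ) : Prop :=
  ∀ D : Divisor K F,
    Divisor.degree D + 1 - g ≤ (Module.finrank K (L D) : ℤ) ∧
    (c ≤ Divisor.degree D → (Module.finrank K (L D) : ℤ) = Divisor.degree D + 1 - g)

theorem mem_L_iff_ord {D : Divisor K F} {f : F} :
    f ∈ L D ↔ ∀ v : Place K F, f = 0 ∨ -D v ≤ v.ord f :=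
  mem_riemannRochSpace_iff

theorem ord_ge_of_mem_L {D : Divisor K F} {f : F} (hf : f ∈ L D) (hf0 : f ≠ 0)
    (v : Place K F) : -D v ≤ v.ord f :=
  ((mem_L_iff_ord.mp hf) v).resolve_left hf0

theorem one_mem_L_of_nonneg {D : Divisor K F} (hD : ∀ v, 0 ≤ D v) : (1 : F) ∈ L D := by
  rw [mem_L_iff_ord]
  intro v
  right
  rw [Place.ord_one]
  have := hD v
  omega

theorem L_mono' {D D' : Divisor K F} (h : ∀ v, D v ≤ D' v) : L D ≤ L D' := by
  intro f hf
  rw [mem_L_iff_ord] at hf ⊢
  intro v
  rcases hf v with h0 | h1
  · exact Or.inl h0
  · right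
    have := h v
    omega

/-! ### Sums of points -/

/-- The divisor `∑_{v ∈ A} v`. -/
def ptsDiv (A : Finset (Place K F)) : Divisor K F := ∑ v ∈ A, Finsupp.single v 1

theorem ptsDiv_apply (A : Finset (Place K F)) (v : Place K F) :
    ptsDiv A v = if v ∈ A then 1 else 0 := by
  unfold ptsDiv
  rw [Finsupp.finsetSum_apply]
  simp only [Finsupp.single_apply]
  rw [Finset.sum_ite_eq' A v]

theorem ptsDiv_nonneg (A : Finset (Place K F)) (v : Place K F) : 0 ≤ ptsDiv A v := by
  rw [ptsDiv_apply]
  split_ifs <;> omega

theorem ptsDiv_le_one (A : Finset (Place K F)) (v : Place K F) : ptsDiv A v ≤ 1 := by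
  rw [ptsDiv_apply]
  split_ifs <;> omega

@[simp] theorem ptsDiv_empty : ptsDiv (∅ : Finset (Place K F)) = 0 := by
  unfold ptsDiv
  rw [Finset.sum_empty]

theorem ptsDiv_insert {v : Place K F} {A : Finset (Place K F)} (h : v ∉ A) :
    ptsDiv (insert v A) = ptsDiv A + Finsupp.single v 1 := by
  unfold ptsDiv
  rw [Finset.sum_insert h, add_comm]

theorem degree_ptsDiv (hdeg : ∀ v : Place K F, v.deg = 1) (A : Finset (Place K F)) :
    Divisor.degree (ptsDiv A) = A.card := by
  unfold ptsDiv
  rw [map_sum]
  simp only [Divisor.degree_single, hdeg, Nat.cast_one, mul_one]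
  rw [Finset.sum_const, nsmul_eq_mul, mul_one]

/-- The degree is the sum of the coefficients. -/
theorem degree_eq_sum (hdeg : ∀ v : Place K F, v.deg = 1) (D : Divisor K F) :
    Divisor.degree D = D.sum fun _ n => n := by
  induction D using Finsupp.induction with
  | zero => simp
  | single_add v n D hv hn ih =>
    rw [map_add, ih, Divisor.degree_single, hdeg, Nat.cast_one, mul_one,
      Finsupp.sum_add_index' (fun _ => rfl) (fun _ _ _ => rfl), Finsupp.sum_single_index rfl]

namespace FFHyp

variable (H : FFHyp K F)
include H

/-- If `D ≥ 0` and `l(D) ≤ 1`, then `L(D)` consists of constants. -/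
theorem const_of_mem_L {D : Divisor K F} (hD : ∀ v, 0 ≤ D v)
    (h1 : Module.finrank K (L D) ≤ 1) {f : F} (hf : f ∈ L D) :
    ∃ c : K, f = algebraMap K F c := by
  haveI := H.finite D
  have hle : Submodule.span K {(1 : F)} ≤ L D := by
    rw [Submodule.span_le, Set.singleton_subset_iff]
    exact one_mem_L_of_nonneg hD
  have hfr : Module.finrank K (Submodule.span K {(1 : F)}) = 1 :=
    finrank_span_singleton one_ne_zero
  have heq : Submodule.span K {(1 : F)} = L D :=
    Submodule.eq_of_le_of_finrank_le hle (by rw [hfr]; exact h1)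
  rw [← heq] at hf
  obtain ⟨c, hc⟩ := Submodule.mem_span_singleton.mp hf
  exact ⟨c, by rw [← hc, Algebra.algebraMap_eq_smul_one]⟩

theorem finrank_L_zero_le : Module.finrank K (L (0 : Divisor K F)) ≤ 1 := by
  have := H.le 0 (by rw [map_zero])
  rw [map_zero] at this
  omega

/-- A function without poles is constant. -/
theorem const_of_regular {f : F} (hf : ∀ v : Place K F, 0 ≤ v.ord f) :
    ∃ c : K, f = algebraMap K F c := by
  refine H.const_of_mem_L (D := 0) (fun _ => le_rfl) H.finrank_L_zero_le ?_
  rw [mem_L_iff_ord]
  intro v
  right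
  simpa using hf v

/-- A non-constant function has a zero. -/
theorem exists_zero {f : F} (hf : f ∉ Set.range (algebraMap K F)) :
    ∃ v : Place K F, 0 < v.ord f := by
  by_contra hcon
  push Not at hcon
  have h1 : ∀ v : Place K F, 0 ≤ v.ord f⁻¹ := by
    intro v
    rw [Place.ord_inv]
    have := hcon v
    omega
  obtain ⟨c, hc⟩ := H.const_of_regular h1
  apply hf
  refine ⟨c⁻¹, ?_⟩
  rw [map_inv₀, ← hc, inv_inv]

/-- There are infinitely many places. -/
theorem infinite_place [Infinite K] : Infinite (Place K F) := by
  obtain ⟨x, hx⟩ := H.transc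
  have hnr : ∀ a : K, x - algebraMap K F a ∉ Set.range (algebraMap K F) := by
    rintro a ⟨b, hb⟩
    apply hx
    have : x = algebraMap K F (b + a) := by
      rw [map_add, hb]; ring
    rw [this]
    exact isAlgebraic_algebraMap _
  have hex : ∀ a : K, ∃ v : Place K F, 0 < v.ord (x - algebraMap K F a) := fun a =>
    H.exists_zero (hnr a)
  choose P hP using hex
  have hinj : Function.Injective P := by
    intro a b hab
    have ha := vanAt_of_ord_pos (hP a)
    have hb := vanAt_of_ord_pos (hP b)
    rw [hab] at ha
    exact value_unique (P b) ha hb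
  exact Infinite.of_injective P hinj

theorem exists_notMem [Infinite K] (T : Finset (Place K F)) : ∃ v : Place K F, v ∉ T := by
  haveI := H.infinite_place
  exact Infinite.exists_notMem_finset T

/-- One more point: `l(D + v) ≤ l(D) + 1`. -/
theorem finrank_add_single_le (D : Divisor K F) (v : Place K F) :
    Module.finrank K (L (D + Finsupp.single v 1)) ≤ Module.finrank K (L D) + 1 :=
  (H42.step_finrank v (H.deg_one v) D (H.finite D)).2

/-- Adding `N` "bad" points raises the dimension by `N`. -/
theorem finrank_add_ptsDiv_ge (D : Divisor K F) (B : Finset (Place K F))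
    (hB : ∀ v ∈ B, ¬ (L (D + Finsupp.single v 1) ≤ L D)) :
    Module.finrank K (L D) + B.card ≤ Module.finrank K (L (D + ptsDiv B)) := by
  induction B using Finset.induction_on with
  | empty => rw [ptsDiv_empty, add_zero, Finset.card_empty, add_zero]
  | insert v B hv ih =>
    have ih' := ih fun w hw => hB w (Finset.mem_insert_of_mem hw)
    have hbad := hB v (Finset.mem_insert_self v B)
    rw [Finset.card_insert_of_notMem hv, ptsDiv_insert hv]
    have hle : L (D + ptsDiv B) ≤ L (D + (ptsDiv B + Finsupp.single v 1)) := by
      apply L_mono'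
      intro w
      simp only [Finsupp.add_apply, Finsupp.single_apply]
      split_ifs <;> omega
    have hne : L (D + ptsDiv B) ≠ L (D + (ptsDiv B + Finsupp.single v 1)) := by
      intro heq
      apply hbad
      intro f hf
      have h1 : f ∈ L (D + (ptsDiv B + Finsupp.single v 1)) := by
        refine L_mono' ?_ hf
        intro w
        have := ptsDiv_nonneg B w
        simp only [Finsupp.add_apply]
        omega
      rw [← heq] at h1
      by_cases hf0 : f = 0
      · rw [hf0]; exact (L D).zero_mem
      rw [mem_L_iff_ord]
      intro w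
      right
      by_cases hwv : w = v
      · subst hwv
        have h3 := ord_ge_of_mem_L h1 hf0 w
        simp only [Finsupp.add_apply, ptsDiv_apply, if_neg hv] at h3
        omega
      · have h2 := ord_ge_of_mem_L hf hf0 w
        simp only [Finsupp.add_apply, Finsupp.single_apply, if_neg (Ne.symm hwv)] at h2
        omega
    haveI := H.finite (D + (ptsDiv B + Finsupp.single v 1))
    have hlt := Submodule.finrank_lt_finrank_of_lt (lt_of_le_of_ne hle hne)
    omega

/-- **A non-special divisor**: there are `g` distinct places `A` with `L (∑ A) = K`. -/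
theorem exists_nonspecial [Infinite K] {g : ℕ} {c : ℤ} (hR : IsGenus K F g c) :
    ∃ A : Finset (Place K F), A.card = g ∧
      ∀ f ∈ L (ptsDiv A), ∃ a : K, f = algebraMap K F a := by
  have key : ∀ j : ℕ, j ≤ g → ∃ A : Finset (Place K F), A.card = j ∧
      Module.finrank K (L (ptsDiv A)) ≤ 1 := by
    intro j
    induction j with
    | zero =>
      intro _
      exact ⟨∅, rfl, by rw [ptsDiv_empty]; exact H.finrank_L_zero_le⟩
    | succ j ih =>
      intro hj
      obtain ⟨A, hA, hl⟩ := ih (by omega)
      -- search for a good point
      have search : ∀ N : ℕ, (∃ v, v ∉ A ∧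
            Module.finrank K (L (ptsDiv A + Finsupp.single v 1)) ≤ 1) ∨
          ∃ B : Finset (Place K F), B.card = N ∧
            ∀ v ∈ B, ¬ (L (ptsDiv A + Finsupp.single v 1) ≤ L (ptsDiv A)) := by
        intro N
        induction N with
        | zero => exact Or.inr ⟨∅, rfl, fun v hv => absurd hv (Finset.notMem_empty v)⟩
        | succ N ihN =>
          rcases ihN with h | ⟨B, hB, hbad⟩
          · exact Or.inl h
          obtain ⟨v, hv⟩ := H.exists_notMem (A ∪ B)
          rw [Finset.mem_union, not_or] at hv
          by_cases hgood : L (ptsDiv A + Finsupp.single v 1) ≤ L (ptsDiv A)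
          · left
            refine ⟨v, hv.1, ?_⟩
            haveI := H.finite (ptsDiv A)
            exact (Submodule.finrank_mono hgood).trans hl
          · right
            refine ⟨insert v B, by rw [Finset.card_insert_of_notMem hv.2, hB], ?_⟩
            intro w hw
            rcases Finset.mem_insert.mp hw with rfl | hw
            · exact hgood
            · exact hbad w hw
      rcases search (c - j).toNat with ⟨v, hv, hl'⟩ | ⟨B, hB, hbad⟩
      · exact ⟨insert v A, by rw [Finset.card_insert_of_notMem hv, hA],
          by rw [ptsDiv_insert hv]; exact hl'⟩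
      · exfalso
        have h1 := H.finrank_add_ptsDiv_ge (ptsDiv A) B hbad
        have hdeg : Divisor.degree (ptsDiv A + ptsDiv B) = j + (c - j).toNat := by
          rw [map_add, degree_ptsDiv H.deg_one, degree_ptsDiv H.deg_one, hA, hB]
        have h2 := (hR (ptsDiv A + ptsDiv B)).2 (by rw [hdeg]; omega)
        rw [hdeg] at h2
        have h3 : 1 ≤ Module.finrank K (L (ptsDiv A)) := by
          haveI := H.finite (ptsDiv A)
          rw [Nat.one_le_iff_ne_zero, Ne, Submodule.finrank_eq_zero]
          intro hbot
          have := one_mem_L_of_nonneg (ptsDiv_nonneg A)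
          rw [hbot, Submodule.mem_bot] at this
          exact one_ne_zero this
        rw [hB] at h1
        omega
  obtain ⟨A, hA, hl⟩ := key g le_rfl
  exact ⟨A, hA, fun f hf => H.const_of_mem_L (ptsDiv_nonneg A) hl hf⟩

end FFHyp

end Fermat.Agent.RED.H17
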