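import Fermat.Agent.RED.H17_Red
import Fermat.Agent.RED.H17_FF

/-!
# G-RED / TI route C (helper17), part 4: lifting functions with control of the poles

`S : RedSetup K F k F'`.

* `RedSetup.r_surjective`: every place of the reduced field lifts.
* `RedSetup.Rsub D`: the reduction of `L(D) ∩ V`; `Rsub_le`: it lies in `L(r_* D)`;
  `le_finrank_Rsub`: its dimension is at least `l(D)` (pivots at places);
* `RedSetup.exists_lift`: if `l(r_* D) ≤ l(D)`, every element of `L(r_* D)` lifts to `L(D) ∩ V`;
* `RedSetup.exists_good_lift`: (genus does not drop) every function of the reduced field lifts to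
  a function regular on the fibres of the places of a given finite set where it is regular.
-/

set_option autoImplicit false
set_option linter.style.haveILetI false

noncomputable section

open AlgebraicCurve

attribute [local instance] Classical.propDecidable

namespace Fermat.Agent.RED.H17

local notation "L" => riemannRochSpace

theorem mapDomain_nonneg' {α β : Type*} (r : α → β) {D : α →₀ ℤ} (hD : ∀ a, 0 ≤ D a) (b : β) :
    0 ≤ Finsupp.mapDomain r D b := by
  rw [mapDomain_apply_eq_sum]
  refine Finset.sum_nonneg fun P _ => ?_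
  split_ifs
  · exact hD P
  · exact le_rfl

theorem degree_mapDomain {K F k F' : Type*} [Field K] [Field F] [Algebra K F] [Field k]
    [Field F'] [Algebra k F'] (hdeg : ∀ v : Place K F, v.deg = 1)
    (hdeg' : ∀ v : Place k F', v.deg = 1) (r : Place K F → Place k F') (D : Divisor K F) :
    Divisor.degree (Finsupp.mapDomain r D) = Divisor.degree D := by
  rw [degree_eq_sum hdeg', degree_eq_sum hdeg,
    Finsupp.sum_mapDomain_index (fun _ => rfl) (fun _ _ _ => rfl)]

namespace RedSetup

variable {K F k F' : Type*} [Field K] [Field F] [Algebra K F] [Field k] [Field F']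
  [Algebra k F'] (S : RedSetup K F k F')

theorem exists_rd_eq (y : F') : ∃ u : F, u ∈ S.V ∧ S.rd u = y := by
  obtain ⟨u, hu⟩ := S.red_surj y
  exact ⟨u, u.2, by rw [S.rd_of_mem u.2]; exact hu⟩

/-- Every place of the reduced field lifts. -/
theorem r_surjective (hP : HasPrincipalDivisors K F) (Q : Place k F') : ∃ P, S.r P = Q := by
  obtain ⟨t, ht0, ht⟩ := H51.exists_uniformizer Q
  obtain ⟨u, hu, hut⟩ := S.exists_rd_eq t
  have hGU : S.IsGU u := ⟨hu, by rw [hut]; exact ht0⟩
  obtain ⟨P, hPQ, -⟩ := S.exists_zero_of_ord_rd_pos hP hGU Q (by rw [hut, ht]; exact one_pos)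
  exact ⟨P, hPQ⟩

/-- The reduction of `L(D) ∩ V`. -/
def Rsub (D : Divisor K F) : Submodule k F' where
  carrier := {y | ∃ u : F, u ∈ S.V ∧ u ∈ L D ∧ S.rd u = y}
  zero_mem' := ⟨0, S.V.zero_mem, (L D).zero_mem, S.rd_zero⟩
  add_mem' := by
    rintro _ _ ⟨u, hu, huD, rfl⟩ ⟨u', hu', hu'D, rfl⟩
    exact ⟨u + u', S.V.add_mem _ _ hu hu', (L D).add_mem huD hu'D, S.rd_add hu hu'⟩
  smul_mem' := by
    rintro c' _ ⟨u, hu, huD, rfl⟩
    obtain ⟨c, hc, hcr⟩ := S.exists_const_lift c'
    refine ⟨algebraMap K F c * u, S.V.mul_mem _ _ hc hu, ?_, ?_⟩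
    · rw [← Algebra.smul_def]
      exact (L D).smul_mem c huD
    · rw [S.rd_mul hc hu, hcr, Algebra.smul_def]

theorem mem_Rsub {D : Divisor K F} {y : F'} :
    y ∈ S.Rsub D ↔ ∃ u : F, u ∈ S.V ∧ u ∈ L D ∧ S.rd u = y := Iff.rfl

theorem Rsub_mono {D D' : Divisor K F} (h : ∀ v, D v ≤ D' v) : S.Rsub D ≤ S.Rsub D' := by
  rintro _ ⟨u, hu, huD, rfl⟩
  exact ⟨u, hu, L_mono' h huD, rfl⟩

/-- The divisor identity for a Gauss unit, in terms of `dv`. -/
theorem mapDomain_dv (hP : HasPrincipalDivisors K F) {u : F} (hu : S.IsGU u) (Q : Place k F') :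
    Finsupp.mapDomain S.r (dv hP u) Q = Q.ord (S.rd u) := by
  have h := S.DI ⟨u, hu.1⟩ (by rw [← S.rd_of_mem hu.1]; exact hu.2) (dv hP u)
    (fun P => dv_apply hP u P) Q
  rw [← S.rd_of_mem hu.1] at h
  exact h

/-- The reduction of `L(D) ∩ V` lies in `L(r_* D)`. -/
theorem Rsub_le (hP : HasPrincipalDivisors K F) (D : Divisor K F) :
    S.Rsub D ≤ L (Finsupp.mapDomain S.r D) := by
  rintro _ ⟨u, hu, huD, rfl⟩
  by_cases h0 : S.rd u = 0
  · rw [h0]
    exact Submodule.zero_mem _
  have hGU : S.IsGU u := ⟨hu, h0⟩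
  rw [mem_L_iff_ord]
  intro Q
  right
  have h1 := S.mapDomain_dv hP hGU Q
  have h2 := mapDomain_nonneg' S.r (D := dv hP u + D) (fun P => by
    rw [Finsupp.add_apply, dv_apply]
    have := ord_ge_of_mem_L huD hGU.ne_zero P
    omega) Q
  rw [Finsupp.mapDomain_add, Finsupp.add_apply, h1] at h2
  omega

/-- **Pivots at places**: the reduction of `L(D) ∩ V` has dimension at least `l(D)`. -/
theorem le_finrank_Rsub (H : FFHyp K F) (H' : FFHyp k F') [Infinite k] :
    ∀ (n : ℕ) (D : Divisor K F), Module.finrank K (L D) = n →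
      n ≤ Module.finrank k (S.Rsub D) := by
  intro n
  induction n with
  | zero => intro D _; exact Nat.zero_le _
  | succ n ih =>
    intro D hD
    have hP := H.principal
    haveI := H.finite D
    have hne : L D ≠ ⊥ := by
      intro hbot
      rw [hbot, finrank_bot] at hD
      omega
    obtain ⟨u₀, hu₀, hu₀0⟩ := (Submodule.ne_bot_iff _).mp hne
    obtain ⟨c, hc, hGU⟩ := S.exists_isGU_scale hu₀0
    set u := algebraMap K F c * u₀ with hu
    have huD : u ∈ L D := by
      rw [hu, ← Algebra.smul_def]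
      exact (L D).smul_mem c hu₀
    -- a place `Q` outside the image of the support of `D` where `rd u` is a unit
    obtain ⟨Q, hQ⟩ := H'.exists_notMem
      (D.support.image S.r ∪ (dv H'.principal (S.rd u)).support)
    rw [Finset.mem_union, not_or] at hQ
    have hQ1 : ∀ P, S.r P = Q → D P = 0 := by
      intro P hPQ
      by_contra hne
      apply hQ.1
      rw [Finset.mem_image]
      exact ⟨P, Finsupp.mem_support_iff.mpr hne, hPQ⟩
    have hQ2 : Q.ord (S.rd u) = 0 := by
      have := hQ.2
      rw [Finsupp.notMem_support_iff, dv_apply] at this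
      exact this
    obtain ⟨P, hPQ⟩ := S.r_surjective hP Q
    have hreg : ∀ P', S.r P' = Q → 0 ≤ P'.ord u := by
      intro P' hP'Q
      have := ord_ge_of_mem_L huD hGU.ne_zero P'
      rw [hQ1 P' hP'Q] at this
      omega
    have hPu : P.ord u = 0 := S.ord_eq_zero_of_ord_rd_eq_zero hP hGU Q hreg hQ2 hPQ
    -- the smaller divisor
    set D' : Divisor K F := D - Finsupp.single P 1 with hD'
    have hD'D : D' + Finsupp.single P 1 = D := sub_add_cancel _ _
    have hD'P : D' P = -1 := by
      rw [hD', Finsupp.sub_apply, Finsupp.single_eq_same, hQ1 P hPQ]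
      rfl
    have hD'le : ∀ v, D' v ≤ D v := by
      intro v
      rw [hD', Finsupp.sub_apply, Finsupp.single_apply]
      split_ifs <;> omega
    have hle : L D' ≤ L D := L_mono' hD'le
    have hnot : u ∉ L D' := by
      intro hmem
      have := ord_ge_of_mem_L hmem hGU.ne_zero P
      rw [hD'P, hPu] at this
      omega
    have hlt : L D' < L D := lt_of_le_of_ne hle (fun heq => hnot (heq ▸ huD))
    have h1 := Submodule.finrank_lt_finrank_of_lt hlt
    have h2 := H.finrank_add_single_le D' P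
    rw [hD'D] at h2
    have hn : Module.finrank K (L D') = n := by omega
    have h3 := ih D' hn
    -- the reductions
    have hRle : S.Rsub D' ≤ S.Rsub D := S.Rsub_mono hD'le
    have hRnot : S.rd u ∉ S.Rsub D' := by
      rintro ⟨w, hw, hwD', hwu⟩
      have hwGU : S.IsGU w := ⟨hw, by rw [hwu]; exact hGU.2⟩
      have hwreg : ∀ P', S.r P' = Q → 0 ≤ P'.ord w := by
        intro P' hP'Q
        have h5 := ord_ge_of_mem_L hwD' hwGU.ne_zero P'
        have h6 : D' P' ≤ 0 := by
          have := hD'le P'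
          rw [hQ1 P' hP'Q] at this
          exact this
        omega
      have h7 := S.ord_le_ord_rd hP hwGU Q hwreg hPQ
      have h8 := ord_ge_of_mem_L hwD' hwGU.ne_zero P
      rw [hD'P] at h8
      rw [hwu, hQ2] at h7
      omega
    have hRlt : S.Rsub D' < S.Rsub D :=
      lt_of_le_of_ne hRle (fun heq => hRnot (heq ▸ ⟨u, hGU.1, huD, rfl⟩))
    haveI : Module.Finite k (L (Finsupp.mapDomain S.r D)) := H'.finite _
    haveI : Module.Finite k (S.Rsub D) :=
      Submodule.finiteDimensional_of_le (S.Rsub_le hP D)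
    have h4 := Submodule.finrank_lt_finrank_of_lt hRlt
    omega

/-- If `l(r_* D) ≤ l(D)`, every element of `L(r_* D)` lifts to `L(D) ∩ V`. -/
theorem exists_lift (H : FFHyp K F) (H' : FFHyp k F') [Infinite k] {D : Divisor K F}
    (hle : Module.finrank k (L (Finsupp.mapDomain S.r D)) ≤ Module.finrank K (L D))
    {y : F'} (hy : y ∈ L (Finsupp.mapDomain S.r D)) :
    ∃ u : F, u ∈ S.V ∧ u ∈ L D ∧ S.rd u = y := by
  haveI : Module.Finite k (L (Finsupp.mapDomain S.r D)) := H'.finite _
  have heq : S.Rsub D = L (Finsupp.mapDomain S.r D) :=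
    Submodule.eq_of_le_of_finrank_le (S.Rsub_le H.principal D)
      (hle.trans (S.le_finrank_Rsub H H' _ D rfl))
  rw [← heq] at hy
  exact hy

/-- "The genus does not drop". -/
def GenusLE' : Prop :=
  ∃ c : ℤ, ∀ D : Divisor K F, c ≤ Divisor.degree D →
    Module.finrank k (L (Finsupp.mapDomain S.r D)) ≤ Module.finrank K (L D)

/-- **Lifting with control of the poles.** -/
theorem exists_good_lift (H : FFHyp K F) (H' : FFHyp k F') [Infinite k] (hG : S.GenusLE')
    (y : F') (T : Finset (Place k F')) (hT : ∀ Q ∈ T, 0 ≤ Q.ord y) :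
    ∃ u : F, u ∈ S.V ∧ S.rd u = y ∧ ∀ P, S.r P ∈ T → 0 ≤ P.ord u := by
  obtain ⟨c, hc⟩ := hG
  have hP := H.principal
  -- a section of `r`
  have hsur := S.r_surjective hP
  choose σ hσ using hsur
  have hσinj : Function.Injective σ := fun a b hab => by
    rw [← hσ a, ← hσ b, hab]
  -- the divisor of poles
  set D₀ : Divisor k F' :=
    (dv H'.principal y).mapRange (fun n : ℤ => max (-n) 0) (by simp) with hD₀
  have hD₀a : ∀ Q, D₀ Q = max (-Q.ord y) 0 := by
    intro Q
    rw [hD₀, Finsupp.mapRange_apply, dv_apply]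
  obtain ⟨Z₀, hZ₀⟩ := H'.exists_notMem T
  set N : ℕ := (c - Divisor.degree D₀).toNat with hN
  set Db : Divisor k F' := D₀ + Finsupp.single Z₀ (N : ℤ) with hDb
  set D : Divisor K F := Finsupp.mapDomain σ Db with hD
  have hrD : Finsupp.mapDomain S.r D = Db := by
    rw [hD, ← Finsupp.mapDomain_comp]
    have : S.r ∘ σ = id := funext hσ
    rw [this, Finsupp.mapDomain_id]
  have hdegD : c ≤ Divisor.degree D := by
    rw [← degree_mapDomain H.deg_one H'.deg_one S.r D, hrD, hDb, map_add,
      Divisor.degree_single, H'.deg_one, Nat.cast_one, mul_one]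
    omega
  have hy : y ∈ L (Finsupp.mapDomain S.r D) := by
    rw [hrD, mem_L_iff_ord]
    intro Q
    right
    rw [hDb, Finsupp.add_apply, hD₀a, Finsupp.single_apply]
    have : (0 : ℤ) ≤ N := Int.natCast_nonneg N
    split_ifs <;> omega
  obtain ⟨u, hu, huD, huy⟩ := S.exists_lift H H' (hc D hdegD) hy
  refine ⟨u, hu, huy, fun P hPT => ?_⟩
  by_cases hu0 : u = 0
  · rw [hu0, Place.ord_zero]
  have h1 := ord_ge_of_mem_L huD hu0 P
  have h2 : D P = 0 := by
    by_cases hPr : P ∈ Set.range σ
    · obtain ⟨Q, rfl⟩ := hPr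
      rw [hD, Finsupp.mapDomain_apply hσinj, hDb, Finsupp.add_apply, hD₀a,
        Finsupp.single_apply]
      rw [hσ Q] at hPT
      have h3 := hT Q hPT
      have h4 : Z₀ ≠ Q := fun h => hZ₀ (h ▸ hPT)
      rw [if_neg h4]
      omega
    · rw [hD]
      exact Finsupp.mapDomain_of_notMem_range _ _ hPr
  omega

end RedSetup

end Fermat.Agent.RED.H17
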