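import Fermat.Agent.RED.H33_Uni
import Fermat.Agent.Lib.InertiaBridge
import Fermat.Prelude.Def_ModularCurve_ArithmeticGalois

/-!
# G-RED package UNI, part 2 (helper33): Galois equivariance of the Deuring reduction map

`s : C ≃+* C` a ring automorphism preserving the valuation ring `O`.  It induces
`autO`, `autk` on `O` and on the residue field `k`, and acts on `C((q))`, `k((q))` through the
coefficients; the Gauss ring and its reduction map are compatible with these actions
(`coeffMap_mem_gaussRingV`, `gaussRedV_coeffMap`).  For a field `F ⊆ C((q))` stable under `s` and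
`s⁻¹` this gives a semilinear automorphism `redSemi` of the reduced field `F~`, and

* `isRed_coeffAut` : `r (g • P) = redSemi • r P` for every `r` with the conservation law;
* `isRed_decomposition`, `isRed_inertia` : the case of the arithmetic Galois action of the
  decomposition / inertia group of `A` on `F = laurentBaseChange L F₀`.
-/

set_option autoImplicit false
set_option linter.style.haveILetI false
set_option linter.unusedSectionVars false
set_option linter.unusedVariables false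
set_option synthInstance.maxHeartbeats 400000
set_option maxHeartbeats 1000000

noncomputable section

open AlgebraicCurve ModularCurve Fermat.Agent.S28 Fermat.Agent.S28.H73 Fermat.Agent.RED.H73

namespace Fermat.Agent.RED.H33

section CoeffAut

variable {C : Type} [Field C] (O : ValuationSubring C)

/-- The automorphism of `O` induced by `s`. -/
def autO (s : C ≃+* C) (hs : ∀ a : C, s a ∈ O ↔ a ∈ O) : ↥O ≃+* ↥O where
  toFun a := ⟨s (a : C), (hs a).mpr a.2⟩
  invFun a := ⟨s.symm (a : C), by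
    have := (hs (s.symm (a : C))).mp
    rw [RingEquiv.apply_symm_apply] at this
    exact this a.2⟩
  left_inv a := Subtype.ext (s.symm_apply_apply (a : C))
  right_inv a := Subtype.ext (s.apply_symm_apply (a : C))
  map_mul' a b := Subtype.ext (map_mul s (a : C) (b : C))
  map_add' a b := Subtype.ext (map_add s (a : C) (b : C))

@[simp]
theorem coe_autO (s : C ≃+* C) (hs : ∀ a : C, s a ∈ O ↔ a ∈ O) (a : ↥O) :
    ((autO O s hs a : ↥O) : C) = s (a : C) := rfl

/-- The automorphism of the residue field induced by `s`, as a ring homomorphism. -/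
def autkHom (s : C ≃+* C) (hs : ∀ a : C, s a ∈ O ↔ a ∈ O) : kV O →+* kV O :=
  (IsLocalRing.ResidueField.mapEquiv (autO O s hs) : kV O →+* kV O)

theorem autkHom_residue (s : C ≃+* C) (hs : ∀ a : C, s a ∈ O ↔ a ∈ O) (a : ↥O) :
    autkHom O s hs (resV O a) = resV O (autO O s hs a) := by
  show IsLocalRing.ResidueField.mapEquiv (autO O s hs) (IsLocalRing.residue _ a) = _
  rw [IsLocalRing.ResidueField.mapEquiv_apply]
  exact IsLocalRing.ResidueField.map_residue _ a

theorem autkHom_injective (s : C ≃+* C) (hs : ∀ a : C, s a ∈ O ↔ a ∈ O) :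
    Function.Injective (autkHom O s hs) :=
  (autkHom O s hs).injective

theorem coeffMap_iotaV (s : C ≃+* C) (hs : ∀ a : C, s a ∈ O ↔ a ∈ O) (g : LaurentSeries ↥O) :
    coeffMap (s : C →+* C) (iotaV O g) = iotaV O (coeffMap (autO O s hs : ↥O →+* ↥O) g) := by
  ext n
  rfl

theorem redV_coeffMap (s : C ≃+* C) (hs : ∀ a : C, s a ∈ O ↔ a ∈ O) (g : LaurentSeries ↥O) :
    redV O (coeffMap (autO O s hs : ↥O →+* ↥O) g) = coeffMap (autkHom O s hs) (redV O g) := by
  ext n
  simp only [redV_coeff, coeffMap_coeff, RingHom.coe_coe]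
  exact (autkHom_residue O s hs _).symm

theorem coeffMap_injective' {R S : Type*} [CommRing R] [CommRing S] (f : R →+* S)
    (hf : Function.Injective f) : Function.Injective (coeffMap f) := by
  intro x y hxy
  ext n
  have := congrArg (fun z : LaurentSeries S => z.coeff n) hxy
  exact hf (by simpa using this)

theorem redV_coeffMap_ne_zero (s : C ≃+* C) (hs : ∀ a : C, s a ∈ O ↔ a ∈ O)
    {g : LaurentSeries ↥O} (hg : redV O g ≠ 0) :
    redV O (coeffMap (autO O s hs : ↥O →+* ↥O) g) ≠ 0 := by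
  rw [redV_coeffMap]
  intro h0
  apply hg
  have h1 : coeffMap (autkHom O s hs) (redV O g) = coeffMap (autkHom O s hs) 0 := by
    rw [h0, map_zero]
  exact coeffMap_injective' _ (autkHom_injective O s hs) h1

/-- The Gauss ring is stable under the coefficientwise action of `s`. -/
theorem coeffMap_mem_gaussRingV (s : C ≃+* C) (hs : ∀ a : C, s a ∈ O ↔ a ∈ O)
    {x : LaurentSeries C} (hx : x ∈ gaussRingV O) :
    coeffMap (s : C →+* C) x ∈ gaussRingV O := by
  obtain ⟨g, h, hg, hgx⟩ := hx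
  refine ⟨coeffMap (autO O s hs : ↥O →+* ↥O) g, coeffMap (autO O s hs : ↥O →+* ↥O) h,
    redV_coeffMap_ne_zero O s hs hg, ?_⟩
  rw [← coeffMap_iotaV, ← coeffMap_iotaV, ← map_mul, hgx]

/-- The reduction map of the Gauss ring commutes with the coefficientwise action of `s`. -/
theorem gaussRedV_coeffMap (s : C ≃+* C) (hs : ∀ a : C, s a ∈ O ↔ a ∈ O)
    {x : LaurentSeries C} (hx : x ∈ gaussRingV O) :
    gaussRedV O ⟨coeffMap (s : C →+* C) x, coeffMap_mem_gaussRingV O s hs hx⟩ =
      coeffMap (autkHom O s hs) (gaussRedV O ⟨x, hx⟩) := by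
  have hx' := hx
  obtain ⟨g, h, hg, hgx⟩ := hx'
  have hg' := redV_coeffMap_ne_zero O s hs hg
  have hgx' : iotaV O (coeffMap (autO O s hs : ↥O →+* ↥O) g) * coeffMap (s : C →+* C) x =
      iotaV O (coeffMap (autO O s hs : ↥O →+* ↥O) h) := by
    rw [← coeffMap_iotaV, ← coeffMap_iotaV, ← map_mul, hgx]
  have e1 := gaussRedV_eq O ⟨coeffMap (s : C →+* C) x, coeffMap_mem_gaussRingV O s hs hx⟩ hg' hgx'
  have e2 := gaussRedV_eq O ⟨x, hx⟩ hg hgx
  rw [e1, e2, redV_coeffMap, redV_coeffMap, map_div₀]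

theorem hs_symm (s : C ≃+* C) (hs : ∀ a : C, s a ∈ O ↔ a ∈ O) :
    ∀ a : C, s.symm a ∈ O ↔ a ∈ O := fun a => by
  have := hs (s.symm a)
  rw [RingEquiv.apply_symm_apply] at this
  exact this.symm

theorem coeffMap_symm_coeffMap (s : C ≃+* C) (x : LaurentSeries C) :
    coeffMap (s : C →+* C) (coeffMap (s.symm : C →+* C) x) = x := by
  ext n
  simp

end CoeffAut

section RedSemi

variable {C : Type} [Field C] (O : ValuationSubring C)
variable {F : IntermediateField C (LaurentSeries C)} (h : HasScale O F)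

/-- The action of `s` on the Gauss valuation ring of `F`. -/
def gaussAct (s : C ≃+* C) (hs : ∀ a : C, s a ∈ O ↔ a ∈ O)
    (hF : ∀ x : LaurentSeries C, x ∈ F → coeffMap (s : C →+* C) x ∈ F)
    (x : ↥(gaussValSub O F h)) : ↥(gaussValSub O F h) :=
  ⟨⟨coeffMap (s : C →+* C) ((x : ↥F) : LaurentSeries C), hF _ (x : ↥F).2⟩,
    coeffMap_mem_gaussRingV O s hs x.2⟩

theorem gaussResF_gaussAct (s : C ≃+* C) (hs : ∀ a : C, s a ∈ O ↔ a ∈ O)
    (hF : ∀ x : LaurentSeries C, x ∈ F → coeffMap (s : C →+* C) x ∈ F)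
    (x : ↥(gaussValSub O F h)) :
    gaussResF O h (gaussAct O h s hs hF x) = coeffMap (autkHom O s hs) (gaussResF O h x) :=
  gaussRedV_coeffMap O s hs x.2

theorem coeffMap_autk_mem_redField (s : C ≃+* C) (hs : ∀ a : C, s a ∈ O ↔ a ∈ O)
    (hF : ∀ x : LaurentSeries C, x ∈ F → coeffMap (s : C →+* C) x ∈ F)
    {y : LaurentSeries (kV O)} (hy : y ∈ redField O F h) :
    coeffMap (autkHom O s hs) y ∈ redField O F h := by
  obtain ⟨x, rfl⟩ := hy
  exact ⟨gaussAct O h s hs hF x, gaussResF_gaussAct O h s hs hF x⟩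

/-- The ring homomorphism of the reduced field induced by `s`. -/
def redHom (s : C ≃+* C) (hs : ∀ a : C, s a ∈ O ↔ a ∈ O)
    (hF : ∀ x : LaurentSeries C, x ∈ F → coeffMap (s : C →+* C) x ∈ F) :
    ↥(redField O F h) →+* ↥(redField O F h) where
  toFun y := ⟨coeffMap (autkHom O s hs) (y : LaurentSeries (kV O)),
    coeffMap_autk_mem_redField O h s hs hF y.2⟩
  map_one' := Subtype.ext (by simp)
  map_mul' a b := Subtype.ext (by simp)
  map_zero' := Subtype.ext (by simp)
  map_add' a b := Subtype.ext (by simp)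

theorem redHom_surjective (s : C ≃+* C) (hs : ∀ a : C, s a ∈ O ↔ a ∈ O)
    (hF : ∀ x : LaurentSeries C, x ∈ F → coeffMap (s : C →+* C) x ∈ F)
    (hF' : ∀ x : LaurentSeries C, x ∈ F → coeffMap (s.symm : C →+* C) x ∈ F) :
    Function.Surjective (redHom O h s hs hF) := by
  rintro ⟨y, x, rfl⟩
  let x' : ↥(gaussValSub O F h) := gaussAct O h s.symm (hs_symm O s hs) hF' x
  refine ⟨⟨gaussResF O h x', gaussResF_mem_redField O h x'⟩, Subtype.ext ?_⟩
  show coeffMap (autkHom O s hs) (gaussResF O h x') = gaussResF O h x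
  rw [← gaussResF_gaussAct O h s hs hF x']
  congr 1
  apply Subtype.ext
  apply Subtype.ext
  exact coeffMap_symm_coeffMap s _

/-- The ring automorphism of the reduced field induced by `s`. -/
def redAut (s : C ≃+* C) (hs : ∀ a : C, s a ∈ O ↔ a ∈ O)
    (hF : ∀ x : LaurentSeries C, x ∈ F → coeffMap (s : C →+* C) x ∈ F)
    (hF' : ∀ x : LaurentSeries C, x ∈ F → coeffMap (s.symm : C →+* C) x ∈ F) :
    ↥(redField O F h) ≃+* ↥(redField O F h) :=
  RingEquiv.ofBijective (redHom O h s hs hF)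
    ⟨(redHom O h s hs hF).injective, redHom_surjective O h s hs hF hF'⟩

/-- The semilinear automorphism of the reduced field `F~ / k` induced by `s`. -/
def redSemi (s : C ≃+* C) (hs : ∀ a : C, s a ∈ O ↔ a ∈ O)
    (hF : ∀ x : LaurentSeries C, x ∈ F → coeffMap (s : C →+* C) x ∈ F)
    (hF' : ∀ x : LaurentSeries C, x ∈ F → coeffMap (s.symm : C →+* C) x ∈ F) :
    SemilinearAut (kV O) ↥(redField O F h) :=
  ⟨(redAut O h s hs hF hF', IsLocalRing.ResidueField.mapEquiv (autO O s hs)), fun a => by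
    apply Subtype.ext
    show coeffMap (autkHom O s hs) (algebraMap (kV O) (LaurentSeries (kV O)) a) = _
    exact coeffMap_algebraMap (autkHom O s hs) a⟩

theorem coe_redSemi_smul (s : C ≃+* C) (hs : ∀ a : C, s a ∈ O ↔ a ∈ O)
    (hF : ∀ x : LaurentSeries C, x ∈ F → coeffMap (s : C →+* C) x ∈ F)
    (hF' : ∀ x : LaurentSeries C, x ∈ F → coeffMap (s.symm : C →+* C) x ∈ F)
    (y : ↥(redField O F h)) :
    ((redSemi O h s hs hF hF' • y : ↥(redField O F h)) : LaurentSeries (kV O)) =
      coeffMap (autkHom O s hs) (y : LaurentSeries (kV O)) := rfl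

theorem redSemi_eq_one (s : C ≃+* C) (hs : ∀ a : C, s a ∈ O ↔ a ∈ O)
    (hF : ∀ x : LaurentSeries C, x ∈ F → coeffMap (s : C →+* C) x ∈ F)
    (hF' : ∀ x : LaurentSeries C, x ∈ F → coeffMap (s.symm : C →+* C) x ∈ F)
    (hk : ∀ a : kV O, autkHom O s hs a = a) : redSemi O h s hs hF hF' = 1 := by
  apply Subtype.ext
  refine Prod.ext (RingEquiv.ext fun y => Subtype.ext ?_) (RingEquiv.ext fun a => hk a)
  show coeffMap (autkHom O s hs) (y : LaurentSeries (kV O)) = _
  ext n
  exact hk _

variable [IsAlgClosed C] [IsAlgClosed (kV O)]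

/-- **EQ for coefficient automorphisms.** -/
theorem isRed_coeffAut (hFF : IsFF C ↥F) (hFt : IsFF (kV O) ↥(redField O F h))
    (hscal : H42.FracScalable O F)
    (s : C ≃+* C) (hs : ∀ a : C, s a ∈ O ↔ a ∈ O)
    (hF : ∀ x : LaurentSeries C, x ∈ F → coeffMap (s : C →+* C) x ∈ F)
    (hF' : ∀ x : LaurentSeries C, x ∈ F → coeffMap (s.symm : C →+* C) x ∈ F)
    (g : SemilinearAut C ↥F)
    (hg : ∀ x : ↥F, ((g • x : ↥F) : LaurentSeries C) = coeffMap (s : C →+* C) (x : LaurentSeries C))
    {r : Place C ↥F → Place (kV O) ↥(redField O F h)} (hr : IsRed O h r) (P : Place C ↥F) :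
    r (g • P) = redSemi O h s hs hF hF' • r P := by
  refine isRed_equivariant O h hFF hFt hscal g (redSemi O h s hs hF hF') (fun f => ?_) hr P
  have e : g • (f : ↥F) = ((gaussAct O h s hs hF f : ↥(gaussValSub O F h)) : ↥F) :=
    Subtype.ext (hg _)
  have hmem : g • (f : ↥F) ∈ gaussValSub O F h := by
    rw [e]; exact Subtype.mem _
  refine ⟨hmem, ?_⟩
  have e2 : (⟨g • (f : ↥F), hmem⟩ : ↥(gaussValSub O F h)) = gaussAct O h s hs hF f :=
    Subtype.ext e
  rw [e2]
  apply Subtype.ext
  exact gaussResF_gaussAct O h s hs hF f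

end RedSemi

section Galois

variable {L : Type} [Field L] [Algebra ℚ L] (A : ValuationSubring L)
variable (F₀ : IntermediateField ℚ (LaurentSeries ℚ)) (h : HasScale A (laurentBaseChange L F₀))

theorem mem_iff_of_mem_decompositionSubgroup {σ : L ≃ₐ[ℚ] L}
    (hσ : σ ∈ A.decompositionSubgroup ℚ) (a : L) : σ.toRingEquiv a ∈ A ↔ a ∈ A :=
  (Fermat.Agent.Lib.InertiaBridge.mem_decompositionSubgroup_iff_forall A σ).mp hσ a

theorem coeffMap_toRingEquiv_mem (σ : L ≃ₐ[ℚ] L) (x : LaurentSeries L)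
    (hx : x ∈ laurentBaseChange L F₀) :
    coeffMap (σ.toRingEquiv : L →+* L) x ∈ laurentBaseChange L F₀ :=
  coeffMap_mem_laurentBaseChange σ hx

theorem coeffMap_toRingEquiv_symm_mem (σ : L ≃ₐ[ℚ] L) (x : LaurentSeries L)
    (hx : x ∈ laurentBaseChange L F₀) :
    coeffMap (σ.toRingEquiv.symm : L →+* L) x ∈ laurentBaseChange L F₀ :=
  coeffMap_mem_laurentBaseChange σ.symm hx

/-- The semilinear automorphism of the reduced field induced by an element of the decomposition
group of `A`: the action of `σ` mod `A` on the coefficients of `q`-expansions. -/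
def redGalois (σ : L ≃ₐ[ℚ] L) (hσ : σ ∈ A.decompositionSubgroup ℚ) :
    SemilinearAut (kV A) ↥(redField A (laurentBaseChange L F₀) h) :=
  redSemi A h σ.toRingEquiv (mem_iff_of_mem_decompositionSubgroup A hσ)
    (coeffMap_toRingEquiv_mem F₀ σ) (coeffMap_toRingEquiv_symm_mem F₀ σ)

theorem coe_redGalois_smul (σ : L ≃ₐ[ℚ] L) (hσ : σ ∈ A.decompositionSubgroup ℚ)
    (y : ↥(redField A (laurentBaseChange L F₀) h)) :
    ((redGalois A F₀ h σ hσ • y : ↥(redField A (laurentBaseChange L F₀) h)) :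
        LaurentSeries (kV A)) =
      coeffMap (autkHom A σ.toRingEquiv (mem_iff_of_mem_decompositionSubgroup A hσ))
        (y : LaurentSeries (kV A)) := rfl

/-- The automorphism of the residue field induced by `σ` is the action of the decomposition
group. -/
theorem autkHom_eq_smul (σ : L ≃ₐ[ℚ] L) (hσ : σ ∈ A.decompositionSubgroup ℚ) (a : kV A) :
    autkHom A σ.toRingEquiv (mem_iff_of_mem_decompositionSubgroup A hσ) a =
      (⟨σ, hσ⟩ : A.decompositionSubgroup ℚ) • a := by
  obtain ⟨b, rfl⟩ := IsLocalRing.residue_surjective a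
  rw [autkHom_residue, ← IsLocalRing.ResidueField.residue_smul]
  rfl

theorem autkHom_frobenius {σ : L ≃ₐ[ℚ] L} {q : ℕ} (hσ : A.IsFrobeniusAt σ q) (a : kV A) :
    autkHom A σ.toRingEquiv
      (mem_iff_of_mem_decompositionSubgroup A hσ.mem_decompositionSubgroup) a = a ^ q := by
  rw [autkHom_eq_smul A σ hσ.mem_decompositionSubgroup]
  exact hσ.smul_residue_eq a

theorem autkHom_inertia {τ : L ≃ₐ[ℚ] L} (hτ : τ ∈ A.inertiaSubgroupIn ℚ)
    (hdec : τ ∈ A.decompositionSubgroup ℚ) (a : kV A) :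
    autkHom A τ.toRingEquiv (mem_iff_of_mem_decompositionSubgroup A hdec) a = a := by
  rw [autkHom_eq_smul A τ hdec]
  obtain ⟨g, hg, hgτ⟩ := hτ
  have hg' : g = ⟨τ, hdec⟩ := Subtype.ext hgτ
  rw [← hg']
  have := MonoidHom.mem_ker.mp hg
  exact congrArg (fun e : RingAut (IsLocalRing.ResidueField A) => e a) this

variable [IsAlgClosed L] [IsAlgClosed (kV A)]

/-- **EQ for the decomposition group**: `r (σ P) = σ~ (r P)`. -/
theorem isRed_decomposition (hFF : IsFF L ↥(laurentBaseChange L F₀))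
    (hFt : IsFF (kV A) ↥(redField A (laurentBaseChange L F₀) h))
    (hscal : H42.FracScalable A (laurentBaseChange L F₀))
    {σ : L ≃ₐ[ℚ] L} (hσ : σ ∈ A.decompositionSubgroup ℚ)
    {r : Place L ↥(laurentBaseChange L F₀) →
      Place (kV A) ↥(redField A (laurentBaseChange L F₀) h)}
    (hr : IsRed A h r) (P : Place L ↥(laurentBaseChange L F₀)) :
    r (arithmeticGalois F₀ σ • P) = redGalois A F₀ h σ hσ • r P :=
  isRed_coeffAut A h hFF hFt hscal σ.toRingEquiv (mem_iff_of_mem_decompositionSubgroup A hσ)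
    (coeffMap_toRingEquiv_mem F₀ σ) (coeffMap_toRingEquiv_symm_mem F₀ σ)
    (arithmeticGalois F₀ σ) (fun _ => rfl) hr P

/-- **(R2)**: the Deuring reduction of places is invariant under inertia. -/
theorem isRed_inertia (hFF : IsFF L ↥(laurentBaseChange L F₀))
    (hFt : IsFF (kV A) ↥(redField A (laurentBaseChange L F₀) h))
    (hscal : H42.FracScalable A (laurentBaseChange L F₀))
    {τ : L ≃ₐ[ℚ] L} (hτ : τ ∈ A.inertiaSubgroupIn ℚ)
    {r : Place L ↥(laurentBaseChange L F₀) →
      Place (kV A) ↥(redField A (laurentBaseChange L F₀) h)}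
    (hr : IsRed A h r) (P : Place L ↥(laurentBaseChange L F₀)) :
    r (arithmeticGalois F₀ τ • P) = r P := by
  have hdec : τ ∈ A.decompositionSubgroup ℚ := by
    obtain ⟨g, -, rfl⟩ := hτ
    exact g.2
  rw [isRed_decomposition A F₀ h hFF hFt hscal hdec hr P]
  have h1 : redGalois A F₀ h τ hdec = 1 :=
    redSemi_eq_one A h _ _ _ _ (autkHom_inertia A hτ hdec)
  rw [h1, one_smul]

end Galois

end Fermat.Agent.RED.H33
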