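import Fermat.Prelude.Def_ModularCurve_X0
import Fermat.Prelude.Def_ModularCurve_X0ModL
import Mathlib.RingTheory.PowerSeries.Expand
import Mathlib.Algebra.CharP.Lemmas
import Mathlib.Algebra.CharP.Reduced

/-!
# G-RED package ES, part K (helper10): Kronecker's congruence on `q`-expansions

Pure algebra of Laurent series.

* `rot u : R((q)) →+* R((q))`, `q ↦ u q` for a unit `u` (coefficient `n` is multiplied by `u ^ n`).
* `pow_char_eq` : in characteristic `ℓ`, `x ^ ℓ = (φ x)(q ^ ℓ)`, `φ` = Frobenius on coefficients.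
* `kronecker` : for `π : A →+* k`, `k` a domain of characteristic `ℓ`, `ζ ∈ Aˣ` with `ζ ^ ℓ = 1`,
  `y ∈ A((q))`, `c ∈ A`:
  `(c - y(q^(ℓ²))) ∏_{b < ℓ} (c - y(ζ^b q))` reduces to
  `[(c~ - y~(q^ℓ)) (c~^ℓ - φ y~)](q^ℓ)`.
* `kronecker_norm` : the form used for the Hecke correspondence: if `n ∈ K((q))` satisfies
  `n(q^ℓ) = (c - y(q^(ℓ²))) ∏_b (c - y(ζ^b q))` then `n` has coefficients in `A` and reduces to
  `(c~ - y~(q^ℓ)) (c~^ℓ - φ y~)`.
-/

set_option autoImplicit false

noncomputable section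

open HahnSeries ModularCurve

namespace Fermat.Agent.RED.H10

section Rot

variable {R : Type*} [CommRing R]

/-- The rotation `q ↦ u q` on Laurent series, as a function. -/
def rotFun (u : Rˣ) (x : LaurentSeries R) : LaurentSeries R :=
  HahnSeries.ofSuppBddBelow (fun n : ℤ => ((u ^ n : Rˣ) : R) * x.coeff n) (by
    refine ⟨x.order, fun n hn => ?_⟩
    by_contra h
    exact hn (by
      show ((u ^ n : Rˣ) : R) * x.coeff n = 0
      rw [HahnSeries.coeff_eq_zero_of_lt_order (not_le.mp h), mul_zero]))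

@[simp] theorem rotFun_coeff (u : Rˣ) (x : LaurentSeries R) (n : ℤ) :
    (rotFun u x).coeff n = ((u ^ n : Rˣ) : R) * x.coeff n := rfl

theorem rotFun_support (u : Rˣ) (x : LaurentSeries R) : (rotFun u x).support = x.support := by
  ext n
  simp only [HahnSeries.mem_support, rotFun_coeff, ne_eq, Units.mul_right_eq_zero]

theorem rotFun_mul (u : Rˣ) (x y : LaurentSeries R) :
    rotFun u (x * y) = rotFun u x * rotFun u y := by
  ext n
  rw [rotFun_coeff, HahnSeries.coeff_mul,
    HahnSeries.coeff_mul_left' (x := rotFun u x) x.isPWO_support (rotFun_support u x).le,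
    Finset.mul_sum]
  have hy : (rotFun u y).support = y.support := rotFun_support u y
  refine Finset.sum_congr ?_ fun ij hij => ?_
  · ext ij
    simp [hy]
  · have hn : ij.1 + ij.2 = n := by
      have := hij
      simp at this
      exact this.2.2
    rw [rotFun_coeff, rotFun_coeff, ← hn, zpow_add, Units.val_mul]
    ring

/-- The rotation `q ↦ u q` on Laurent series. -/
def rot (u : Rˣ) : LaurentSeries R →+* LaurentSeries R where
  toFun := rotFun u
  map_one' := by
    ext n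
    rw [rotFun_coeff, HahnSeries.coeff_one]
    split_ifs with h
    · subst h; simp
    · simp
  map_mul' := rotFun_mul u
  map_zero' := by
    ext n
    simp
  map_add' x y := by
    ext n
    simp [mul_add]

@[simp] theorem rot_coeff (u : Rˣ) (x : LaurentSeries R) (n : ℤ) :
    (rot u x).coeff n = ((u ^ n : Rˣ) : R) * x.coeff n := rfl

@[simp] theorem rot_one (x : LaurentSeries R) : rot (1 : Rˣ) x = x := by
  ext n
  simp

theorem rot_C (u : Rˣ) (c : R) : rot u (HahnSeries.C c) = HahnSeries.C c := by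
  ext n
  rw [rot_coeff]
  show ((u ^ n : Rˣ) : R) * (HahnSeries.single 0 c).coeff n = (HahnSeries.single 0 c).coeff n
  rcases eq_or_ne n 0 with rfl | h
  · simp
  · rw [HahnSeries.coeff_single_of_ne h, mul_zero]

theorem rot_single (u : Rˣ) (k : ℤ) (c : R) :
    rot u (HahnSeries.single k c) = HahnSeries.single k (((u ^ k : Rˣ) : R) * c) := by
  ext n
  rw [rot_coeff]
  rcases eq_or_ne n k with rfl | h
  · rw [HahnSeries.coeff_single_same, HahnSeries.coeff_single_same]
  · rw [HahnSeries.coeff_single_of_ne h, HahnSeries.coeff_single_of_ne h, mul_zero]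

theorem rot_mul (u v : Rˣ) (x : LaurentSeries R) : rot (u * v) x = rot u (rot v x) := by
  ext n
  simp only [rot_coeff, mul_zpow, Units.val_mul, mul_assoc]

/-- `rot u` fixes the series in `q ^ ℓ` when `u ^ ℓ = 1`. -/
theorem rot_qExpand (ℓ : ℕ) [NeZero ℓ] (u : Rˣ) (hu : u ^ ℓ = 1) (x : LaurentSeries R) :
    rot u (qExpand R ℓ x) = qExpand R ℓ x := by
  ext n
  rw [rot_coeff]
  by_cases hn : (ℓ : ℤ) ∣ n
  · obtain ⟨m, rfl⟩ := hn
    rw [zpow_mul, zpow_natCast, hu, one_zpow, Units.val_one, one_mul]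
  · rw [qExpand_coeff_of_not_dvd ℓ x hn, mul_zero]

theorem coeffMap_rot {S : Type*} [CommRing S] (f : R →+* S) (u : Rˣ) (x : LaurentSeries R) :
    coeffMap f (rot u x) = rot (Units.map (f : R →* S) u) (coeffMap f x) := by
  ext n
  simp only [coeffMap_coeff, rot_coeff, map_mul, ← map_zpow]
  rfl

end Rot

section Frobenius

variable {k : Type*} [CommRing k] (ℓ : ℕ) [Fact ℓ.Prime] [CharP k ℓ]

private theorem ell_ne_zero : ℓ ≠ 0 := (Fact.out : ℓ.Prime).ne_zero

theorem qExpand_ofPowerSeries {R : Type*} [CommRing R] (n : ℕ) [NeZero n] (p : PowerSeries R) :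
    qExpand R n (HahnSeries.ofPowerSeries ℤ R p)
      = HahnSeries.ofPowerSeries ℤ R (PowerSeries.expand n (NeZero.ne n) p) := by
  ext m
  rcases lt_or_ge m 0 with hm | hm
  · rw [ofPowerSeries_coeff_of_neg _ hm]
    by_cases hd : (n : ℤ) ∣ m
    · obtain ⟨a, rfl⟩ := hd
      rw [qExpand_coeff_mul]
      refine ofPowerSeries_coeff_of_neg _ ?_
      by_contra h
      push Not at h
      have : (0 : ℤ) ≤ (n : ℤ) * a := mul_nonneg (Int.natCast_nonneg n) h
      omega
    · exact qExpand_coeff_of_not_dvd n _ hd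
  · lift m to ℕ using hm
    rw [HahnSeries.ofPowerSeries_apply_coeff, PowerSeries.coeff_expand]
    split_ifs with hd
    · obtain ⟨a, rfl⟩ := hd
      rw [Nat.mul_div_cancel_left a (Nat.pos_of_ne_zero (NeZero.ne n))]
      have := qExpand_coeff_mul (R := R) n (HahnSeries.ofPowerSeries ℤ R p) (a : ℤ)
      rw [HahnSeries.ofPowerSeries_apply_coeff] at this
      rw [← this]
      push_cast
      rfl
    · refine qExpand_coeff_of_not_dvd n _ ?_
      rwa [Int.natCast_dvd_natCast]

/-- In characteristic `ℓ`, the `ℓ`-th power of a power series. -/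
theorem powerSeries_pow_char (p : PowerSeries k) :
    p ^ ℓ = PowerSeries.expand ℓ (ell_ne_zero ℓ) (p.map (frobenius k ℓ)) := by
  have : ExpChar k ℓ := ExpChar.prime (Fact.out : ℓ.Prime)
  have h : PowerSeries.map (frobenius k ℓ) (PowerSeries.expand ℓ (ell_ne_zero ℓ) p) = p ^ ℓ :=
    MvPowerSeries.map_frobenius_expand (σ := Unit) (R := k) ℓ (ell_ne_zero ℓ) (f := p)
  rw [← h, PowerSeries.map_expand]

/-- In characteristic `ℓ`: `x ^ ℓ = (φ x)(q ^ ℓ)`. -/
theorem pow_char_eq (x : LaurentSeries k) :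
    x ^ ℓ = qExpand k ℓ (coeffMap (frobenius k ℓ) x) := by
  conv_lhs => rw [← LaurentSeries.single_order_mul_powerSeriesPart x]
  conv_rhs => rw [← LaurentSeries.single_order_mul_powerSeriesPart x]
  have h1 : (HahnSeries.single x.order (1 : k)) ^ ℓ
      = qExpand k ℓ (coeffMap (frobenius k ℓ) (HahnSeries.single x.order (1 : k))) := by
    rw [HahnSeries.single_pow, one_pow, coeffMap_single, qExpand_single, nsmul_eq_mul,
      RingHom.map_one]
  have h2 : (HahnSeries.ofPowerSeries ℤ k x.powerSeriesPart) ^ ℓ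
      = qExpand k ℓ (coeffMap (frobenius k ℓ) (HahnSeries.ofPowerSeries ℤ k x.powerSeriesPart)) := by
    rw [coeffMap_ofPowerSeries, qExpand_ofPowerSeries, ← map_pow, powerSeries_pow_char]
  rw [mul_pow, map_mul, map_mul, h1, h2]

end Frobenius

section Kronecker

variable {A k : Type*} [CommRing A] [CommRing k] [IsDomain k]
variable (ℓ : ℕ) [Fact ℓ.Prime] [CharP k ℓ]

/-- A root of unity of order `ℓ` is `1` in a domain of characteristic `ℓ`. -/
theorem eq_one_of_pow_char_eq_one {x : k} (hx : x ^ ℓ = 1) : x = 1 := by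
  have h : (x - 1) ^ ℓ = 0 := by
    rw [sub_pow_char, hx, one_pow, sub_self]
  exact sub_eq_zero.1 (pow_eq_zero_iff (ell_ne_zero ℓ) |>.1 h)

/-- **Kronecker's congruence**, `q`-expansion form. -/
theorem kronecker (π : A →+* k) (ζ : Aˣ) (hζ : ζ ^ ℓ = 1) (y : LaurentSeries A) (c : A) :
    coeffMap π ((HahnSeries.C c - qExpand A ℓ (qExpand A ℓ y)) *
        ∏ b ∈ Finset.range ℓ, (HahnSeries.C c - rot (ζ ^ b) y))
      = qExpand k ℓ ((HahnSeries.C (π c) - qExpand k ℓ (coeffMap π y)) *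
          (HahnSeries.C (π c ^ ℓ) - coeffMap (frobenius k ℓ) (coeffMap π y))) := by
  have hone : ∀ b : ℕ, Units.map (π : A →* k) (ζ ^ b) = 1 := by
    intro b
    have h1 : ((Units.map (π : A →* k) ζ : kˣ) : k) ^ ℓ = 1 := by
      rw [← Units.val_pow_eq_pow_val, ← map_pow, hζ, map_one, Units.val_one]
    have h2 : Units.map (π : A →* k) ζ = 1 := Units.ext (eq_one_of_pow_char_eq_one ℓ h1)
    rw [map_pow, h2, one_pow]
  have hC : ∀ a : A, coeffMap π (HahnSeries.C a) = HahnSeries.C (π a) := fun a =>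
    coeffMap_single π 0 a
  have hq : ∀ (n : ℕ) [NeZero n] (x : LaurentSeries A),
      coeffMap π (qExpand A n x) = qExpand k n (coeffMap π x) := by
    intro n _ x
    ext m
    by_cases hm : (n : ℤ) ∣ m
    · obtain ⟨a, rfl⟩ := hm
      rw [coeffMap_coeff, qExpand_coeff_mul, qExpand_coeff_mul, coeffMap_coeff]
    · rw [coeffMap_coeff, qExpand_coeff_of_not_dvd n _ hm, qExpand_coeff_of_not_dvd n _ hm,
        map_zero]
  rw [map_mul, map_sub, hC, hq, hq, map_prod]
  have hprod : ∏ b ∈ Finset.range ℓ, coeffMap π (HahnSeries.C c - rot (ζ ^ b) y)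
      = (HahnSeries.C (π c) - coeffMap π y) ^ ℓ := by
    rw [Finset.prod_congr rfl (g := fun _ => HahnSeries.C (π c) - coeffMap π y)]
    · rw [Finset.prod_const, Finset.card_range]
    · intro b _
      rw [map_sub, hC, coeffMap_rot, hone, rot_one]
  have hCk : coeffMap (frobenius k ℓ) (HahnSeries.C (π c)) = HahnSeries.C (π c ^ ℓ) :=
    coeffMap_single (frobenius k ℓ) 0 (π c)
  rw [hprod, pow_char_eq ℓ, map_mul (qExpand k ℓ), map_sub (qExpand k ℓ), qExpand_C,
    map_sub (coeffMap (frobenius k ℓ)), hCk]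

variable {K : Type*} [CommRing K]

/-- **Kronecker's congruence for the norm**: if `n(q^ℓ) = (c - y(q^(ℓ²))) ∏_b (c - y(ζ^b q))`
with `y ∈ A((q))`, `c ∈ A`, then `n` has coefficients in `A` and reduces to
`(c~ - y~(q^ℓ)) (c~^ℓ - φ y~)`. -/
theorem kronecker_norm (ι : A →+* K) (hι : Function.Injective ι) (π : A →+* k) (ζ : Aˣ)
    (hζ : ζ ^ ℓ = 1) (y : LaurentSeries A) (c : A) (n : LaurentSeries K)
    (hn : qExpand K ℓ n = (HahnSeries.C (ι c) - qExpand K ℓ (qExpand K ℓ (coeffMap ι y))) *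
        ∏ b ∈ Finset.range ℓ,
          (HahnSeries.C (ι c) - rot (Units.map (ι : A →* K) ζ ^ b) (coeffMap ι y))) :
    ∃ z : LaurentSeries A, coeffMap ι z = n ∧
      coeffMap π z = (HahnSeries.C (π c) - qExpand k ℓ (coeffMap π y)) *
          (HahnSeries.C (π c ^ ℓ) - coeffMap (frobenius k ℓ) (coeffMap π y)) := by
  set Z : LaurentSeries A := (HahnSeries.C c - qExpand A ℓ (qExpand A ℓ y)) *
        ∏ b ∈ Finset.range ℓ, (HahnSeries.C c - rot (ζ ^ b) y) with hZ
  have hC : ∀ a : A, coeffMap ι (HahnSeries.C a) = HahnSeries.C (ι a) := fun a =>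
    coeffMap_single ι 0 a
  have hq : ∀ (m : ℕ) [NeZero m] (x : LaurentSeries A),
      coeffMap ι (qExpand A m x) = qExpand K m (coeffMap ι x) := by
    intro m _ x
    ext j
    by_cases hm : (m : ℤ) ∣ j
    · obtain ⟨a, rfl⟩ := hm
      rw [coeffMap_coeff, qExpand_coeff_mul, qExpand_coeff_mul, coeffMap_coeff]
    · rw [coeffMap_coeff, qExpand_coeff_of_not_dvd m _ hm, qExpand_coeff_of_not_dvd m _ hm,
        map_zero]
  have hιZ : coeffMap ι Z = qExpand K ℓ n := by
    rw [hn, hZ, map_mul, map_sub, hC, hq, hq, map_prod]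
    congr 1
    refine Finset.prod_congr rfl fun b _ => ?_
    rw [map_sub, hC, coeffMap_rot, map_pow]
  -- the coefficients of `Z` vanish outside the multiples of `ℓ`
  have hZ0 : ∀ j : ℤ, ¬ (ℓ : ℤ) ∣ j → Z.coeff j = 0 := by
    intro j hj
    apply hι
    rw [map_zero, ← coeffMap_coeff, hιZ, qExpand_coeff_of_not_dvd ℓ _ hj]
  -- contract
  let z : LaurentSeries A := HahnSeries.ofSuppBddBelow (fun m : ℤ => Z.coeff ((ℓ : ℤ) * m)) (by
    refine ⟨min Z.order 0, fun m hm => ?_⟩
    by_contra h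
    push Not at h
    apply hm
    show Z.coeff ((ℓ : ℤ) * m) = 0
    apply HahnSeries.coeff_eq_zero_of_lt_order
    have h1 : m < Z.order := lt_of_lt_of_le h (min_le_left _ _)
    have h2 : m < 0 := lt_of_lt_of_le h (min_le_right _ _)
    have hℓ : (1 : ℤ) ≤ (ℓ : ℤ) := by exact_mod_cast (Fact.out : ℓ.Prime).one_le
    nlinarith)
  have hzc : ∀ m : ℤ, z.coeff m = Z.coeff ((ℓ : ℤ) * m) := fun _ => rfl
  have hzZ : qExpand A ℓ z = Z := by
    ext j
    by_cases hj : (ℓ : ℤ) ∣ j
    · obtain ⟨m, rfl⟩ := hj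
      rw [qExpand_coeff_mul, hzc]
    · rw [qExpand_coeff_of_not_dvd ℓ _ hj, hZ0 j hj]
  refine ⟨z, ?_, ?_⟩
  · apply qExpand_injective (R := K) ℓ
    rw [← hq, hzZ, hιZ]
  · apply qExpand_injective (R := k) ℓ
    have hqk : coeffMap π (qExpand A ℓ z) = qExpand k ℓ (coeffMap π z) := by
      ext j
      by_cases hm : (ℓ : ℤ) ∣ j
      · obtain ⟨a, rfl⟩ := hm
        rw [coeffMap_coeff, qExpand_coeff_mul, qExpand_coeff_mul, coeffMap_coeff]
      · rw [coeffMap_coeff, qExpand_coeff_of_not_dvd ℓ _ hm, qExpand_coeff_of_not_dvd ℓ _ hm,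
          map_zero]
    rw [← hqk, hzZ, hZ, kronecker ℓ π ζ hζ y c]

end Kronecker

end Fermat.Agent.RED.H10
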