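import Mathlib.Tactic.LinearCombination
import Mathlib.Tactic.Ring
import Mathlib.Algebra.Ring.Basic
import Mathlib.Algebra.GroupWithZero.Basic
import Mathlib.Algebra.CharZero.Defs
import Mathlib.Tactic.NormNum

/-!
# G-RED, package IG-MOD23, `p = 3` (helper29): the algebra behind the Hauptmodul identities

Pure commutative algebra.  In a domain of characteristic zero, with
`α = 27 g³ - 36 e g - 16 f`, `β = 28 e g - 9 g³ + 16 f`, `γ = 7 g³ - 20 e g - 16 f`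
(`g = 3 E₂(3z) - E₂(z)`, `e = E₄`, `f = E₆`, `e' = E₄(3z)`, `a = ∏ (1 - qⁿ)`, `b = ∏ (1 - q³ⁿ)`), the relations
`α β = 442368 x a²⁴`, `9 β γ = 16384 · 177147 x³ b²⁴`, `α γ = β²`, `54 e' = 15 g² - 6 e` and
`α b⁶ = 128 a¹⁸` give
`e³ a¹² b¹² = (a¹² + 27 x b¹²) (a¹² + 243 x b¹²)³`,
`e'³ a¹² b¹² = (a¹² + 27 x b¹²) (a¹² + 3 x b¹²)³`.
-/

set_option autoImplicit false

namespace Fermat.Agent.RED.H29

section Domain

variable {R : Type*} [CommRing R] [IsDomain R]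

/-- `α⁴ b²⁴ = 2²⁸ a⁷²`. -/
theorem alg_fourth (α β γ a b x : R) (hx : x ≠ 0) (h2902 : (2902376448 : R) ≠ 0)
    (h1 : α * β = 442368 * (x * a ^ 24))
    (h2 : 9 * (β * γ) = 16384 * (177147 * (x ^ 3 * b ^ 24)))
    (h3 : α * γ = β * β) :
    (α * b ^ 6) ^ 4 = (128 * a ^ 18) ^ 4 := by
  have hK : (2902376448 : R) * x ^ 3 ≠ 0 := mul_ne_zero h2902 (pow_ne_zero 3 hx)
  apply mul_left_cancel₀ hK
  linear_combination (-(α ^ 4)) * h2 + (9 * α ^ 3 * β) * h3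
    + (9 * ((α * β) ^ 2 + (α * β) * (442368 * (x * a ^ 24)) + (442368 * (x * a ^ 24)) ^ 2)) * h1

/-- Fourth roots: `u⁴ = v⁴` and `(u + v)(u² + v²) ≠ 0` give `u = v`. -/
theorem alg_root (u v : R) (h : u ^ 4 = v ^ 4) (hne : (u + v) * (u ^ 2 + v ^ 2) ≠ 0) : u = v := by
  have h0 : (u - v) * ((u + v) * (u ^ 2 + v ^ 2)) = 0 := by linear_combination h
  rcases mul_eq_zero.mp h0 with h1 | h1
  · exact sub_eq_zero.mp h1
  · exact absurd h1 hne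

/-- `β = 3456 x a⁶ b⁶`. -/
theorem alg_beta (α β a b x : R) (ha : a ≠ 0) (h128 : (128 : R) ≠ 0)
    (h1 : α * β = 442368 * (x * a ^ 24)) (hu : α * b ^ 6 = 128 * a ^ 18) :
    β = 3456 * (x * (a ^ 6 * b ^ 6)) := by
  have hK : (128 : R) * a ^ 18 ≠ 0 := mul_ne_zero h128 (pow_ne_zero 18 ha)
  apply mul_left_cancel₀ hK
  linear_combination (-β) * hu + b ^ 6 * h1

/-- `a⁶ γ = 93312 x² b¹⁸`. -/
theorem alg_gamma (α β γ a b x : R) (ha : a ≠ 0) (h128 : (128 : R) ≠ 0)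
    (hβ : β = 3456 * (x * (a ^ 6 * b ^ 6))) (h3 : α * γ = β * β)
    (hu : α * b ^ 6 = 128 * a ^ 18) :
    a ^ 6 * γ = 93312 * (x ^ 2 * b ^ 18) := by
  have hK : (128 : R) * a ^ 12 ≠ 0 := mul_ne_zero h128 (pow_ne_zero 12 ha)
  apply mul_left_cancel₀ hK
  linear_combination (-γ) * hu + b ^ 6 * h3
    + (b ^ 6 * (β + 3456 * (x * (a ^ 6 * b ^ 6)))) * hβ

/-- `g³ a⁶ b⁶ = 8 (a¹² + 27 x b¹²)²`. -/
theorem alg_K1 (α β γ g a b x : R) (h16 : (16 : R) ≠ 0)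
    (hlin1 : 16 * g ^ 3 = α + 2 * β + γ)
    (hu : α * b ^ 6 = 128 * a ^ 18) (hβ : β = 3456 * (x * (a ^ 6 * b ^ 6)))
    (hγ : a ^ 6 * γ = 93312 * (x ^ 2 * b ^ 18)) :
    g ^ 3 * (a ^ 6 * b ^ 6) = 8 * (a ^ 12 + 27 * (x * b ^ 12)) ^ 2 := by
  apply mul_left_cancel₀ h16
  linear_combination (a ^ 6 * b ^ 6) * hlin1 + a ^ 6 * hu + (2 * a ^ 6 * b ^ 6) * hβ + b ^ 6 * hγ

/-- `e g a⁶ b⁶ = 2 (a¹² + 27 x b¹²) (a¹² + 243 x b¹²)`. -/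
theorem alg_K2 (α β γ g e a b x : R) (h64 : (64 : R) ≠ 0)
    (hlin2 : 64 * (e * g) = α + 10 * β + 9 * γ)
    (hu : α * b ^ 6 = 128 * a ^ 18) (hβ : β = 3456 * (x * (a ^ 6 * b ^ 6)))
    (hγ : a ^ 6 * γ = 93312 * (x ^ 2 * b ^ 18)) :
    e * g * (a ^ 6 * b ^ 6) = 2 * ((a ^ 12 + 27 * (x * b ^ 12)) * (a ^ 12 + 243 * (x * b ^ 12))) := by
  apply mul_left_cancel₀ h64
  linear_combination (a ^ 6 * b ^ 6) * hlin2 + a ^ 6 * hu + (10 * a ^ 6 * b ^ 6) * hβ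
    + (9 * b ^ 6) * hγ

/-- `e' g a⁶ b⁶ = 2 (a¹² + 27 x b¹²) (a¹² + 3 x b¹²)`. -/
theorem alg_K3 (g e e' a b x : R) (h54 : (54 : R) ≠ 0)
    (h4 : 54 * e' = 15 * (g * g) - 6 * e)
    (hK1 : g ^ 3 * (a ^ 6 * b ^ 6) = 8 * (a ^ 12 + 27 * (x * b ^ 12)) ^ 2)
    (hK2 : e * g * (a ^ 6 * b ^ 6)
      = 2 * ((a ^ 12 + 27 * (x * b ^ 12)) * (a ^ 12 + 243 * (x * b ^ 12)))) :
    e' * g * (a ^ 6 * b ^ 6) = 2 * ((a ^ 12 + 27 * (x * b ^ 12)) * (a ^ 12 + 3 * (x * b ^ 12))) := by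
  apply mul_left_cancel₀ h54
  linear_combination (g * (a ^ 6 * b ^ 6)) * h4 + 15 * hK1 - 6 * hK2

/-- The cancellation step: `y g A = 2 U V`, `g³ A = 8 U²`, `U ≠ 0` give `y³ A² = U V³`
(here `A = a⁶ b⁶`). -/
theorem alg_cube (y g A U V : R) (h8 : (8 : R) ≠ 0) (hU : U ≠ 0)
    (hK1 : g ^ 3 * A = 8 * U ^ 2) (hK : y * g * A = 2 * (U * V)) :
    y ^ 3 * A ^ 2 = U * V ^ 3 := by
  have hne : (8 : R) * U ^ 2 ≠ 0 := mul_ne_zero h8 (pow_ne_zero 2 hU)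
  apply mul_left_cancel₀ hne
  linear_combination (-(y ^ 3 * A ^ 2)) * hK1
    + ((y * g * A) ^ 2 + (y * g * A) * (2 * (U * V)) + (2 * (U * V)) ^ 2) * hK

/-- **The two Hauptmodul identities**, formal form. -/
theorem alg_main (α β γ g e e' a b x : R) (hx : x ≠ 0) (ha : a ≠ 0)
    (hU : a ^ 12 + 27 * (x * b ^ 12) ≠ 0)
    (hc : ∀ n : ℕ, n ≠ 0 → (n : R) ≠ 0)
    (hlin1 : 16 * g ^ 3 = α + 2 * β + γ)
    (hlin2 : 64 * (e * g) = α + 10 * β + 9 * γ)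
    (h1 : α * β = 442368 * (x * a ^ 24))
    (h2 : 9 * (β * γ) = 16384 * (177147 * (x ^ 3 * b ^ 24)))
    (h3 : α * γ = β * β)
    (h4 : 54 * e' = 15 * (g * g) - 6 * e)
    (hroot : (α * b ^ 6 + 128 * a ^ 18) * ((α * b ^ 6) ^ 2 + (128 * a ^ 18) ^ 2) ≠ 0) :
    e ^ 3 * (a ^ 12 * b ^ 12)
        = (a ^ 12 + 27 * (x * b ^ 12)) * (a ^ 12 + 243 * (x * b ^ 12)) ^ 3 ∧
      e' ^ 3 * (a ^ 12 * b ^ 12)
        = (a ^ 12 + 27 * (x * b ^ 12)) * (a ^ 12 + 3 * (x * b ^ 12)) ^ 3 := by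
  have c128 : (128 : R) ≠ 0 := by simpa using hc 128 (by norm_num)
  have c16 : (16 : R) ≠ 0 := by simpa using hc 16 (by norm_num)
  have c64 : (64 : R) ≠ 0 := by simpa using hc 64 (by norm_num)
  have c54 : (54 : R) ≠ 0 := by simpa using hc 54 (by norm_num)
  have c8 : (8 : R) ≠ 0 := by simpa using hc 8 (by norm_num)
  have cK : (2902376448 : R) ≠ 0 := by simpa using hc 2902376448 (by norm_num)
  have hu : α * b ^ 6 = 128 * a ^ 18 :=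
    alg_root _ _ (alg_fourth α β γ a b x hx cK h1 h2 h3) hroot
  have hβ := alg_beta α β a b x ha c128 h1 hu
  have hγ := alg_gamma α β γ a b x ha c128 hβ h3 hu
  have hK1 := alg_K1 α β γ g a b x c16 hlin1 hu hβ hγ
  have hK2 := alg_K2 α β γ g e a b x c64 hlin2 hu hβ hγ
  have hK3 := alg_K3 g e e' a b x c54 h4 hK1 hK2
  have e1 := alg_cube e g (a ^ 6 * b ^ 6) _ _ c8 hU hK1 hK2
  have e2 := alg_cube e' g (a ^ 6 * b ^ 6) _ _ c8 hU hK1 hK3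
  refine ⟨?_, ?_⟩
  · rw [← e1]; ring
  · rw [← e2]; ring

end Domain

/-! ### From power series to Laurent series -/

section Laurent

variable {R : Type*} [CommRing R]

/-- `j h³ = (h + 27)(h + 243)³` from the formal identity; `t = q⁻¹`. -/
theorem alg_laurent_one (t q e a b ai bi : R) (ht : t * q = 1) (ha : a ^ 24 * ai = 1)
    (hb : b ^ 12 * bi = 1)
    (hid : e ^ 3 * (a ^ 12 * b ^ 12)
      = (a ^ 12 + 27 * (q * b ^ 12)) * (a ^ 12 + 243 * (q * b ^ 12)) ^ 3) :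
    (t * (a ^ 12 * bi) + 27) * (t * (a ^ 12 * bi) + 243) ^ 3
      = t * (e ^ 3 * ai) * (t * (a ^ 12 * bi)) ^ 3 := by
  have e1 : t * (a ^ 12 * bi) + 27 = t * bi * (a ^ 12 + 27 * (q * b ^ 12)) := by
    linear_combination (-(27 : R)) * hb - (27 * (b ^ 12 * bi)) * ht
  have e2 : t * (a ^ 12 * bi) + 243 = t * bi * (a ^ 12 + 243 * (q * b ^ 12)) := by
    linear_combination (-(243 : R)) * hb - (243 * (b ^ 12 * bi)) * ht
  rw [e1, e2]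
  linear_combination (-(t ^ 4 * bi ^ 4)) * hid + (t ^ 4 * bi ^ 3 * e ^ 3 * a ^ 12) * hb
    - (t ^ 4 * bi ^ 3 * e ^ 3 * a ^ 12) * ha

/-- `j(q³) h = (h + 27)(h + 3)³` from the formal identity; `t = q⁻¹`. -/
theorem alg_laurent_two (t q e' a b bi bi' : R) (ht : t * q = 1)
    (hb : b ^ 12 * bi = 1) (hb' : b ^ 24 * bi' = 1)
    (hid : e' ^ 3 * (a ^ 12 * b ^ 12)
      = (a ^ 12 + 27 * (q * b ^ 12)) * (a ^ 12 + 3 * (q * b ^ 12)) ^ 3) :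
    (t * (a ^ 12 * bi) + 27) * (t * (a ^ 12 * bi) + 3) ^ 3
      = t ^ 3 * (e' ^ 3 * bi') * (t * (a ^ 12 * bi)) := by
  have e1 : t * (a ^ 12 * bi) + 27 = t * bi * (a ^ 12 + 27 * (q * b ^ 12)) := by
    linear_combination (-(27 : R)) * hb - (27 * (b ^ 12 * bi)) * ht
  have e2 : t * (a ^ 12 * bi) + 3 = t * bi * (a ^ 12 + 3 * (q * b ^ 12)) := by
    linear_combination (-(3 : R)) * hb - (3 * (b ^ 12 * bi)) * ht
  have e3 : bi ^ 2 = bi' := by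
    linear_combination (-(bi ^ 2)) * hb' + (bi' * (b ^ 12 * bi + 1)) * hb
  rw [e1, e2, ← e3]
  linear_combination (-(t ^ 4 * bi ^ 4)) * hid + (t ^ 4 * bi ^ 3 * e' ^ 3 * a ^ 12) * hb

end Laurent

end Fermat.Agent.RED.H29
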