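import Fermat.Agent.RED.H29_Mod3Forms
import Fermat.Agent.RED.H29_Mod3Alg
import Fermat.Agent.S28.H76_Bridge
import Fermat.Agent.S23.H96_LevelOne
import Fermat.Agent.RED.H10_Kronecker
import Mathlib.RingTheory.PowerSeries.Expand

/-!
# G-RED, package IG-MOD23, `p = 3` (helper29): the formal identities

With `a = etaProd = ∏ (1 - qⁿ)`, `b = a(q³)`, `e = eisenstein4` in `ℤ⟦q⟧`:
* `hauptPS_one : e³ (a¹² b¹²) = (a¹² + 27 q b¹²) (a¹² + 243 q b¹²)³`,
* `hauptPS_two : e(q³)³ (a¹² b¹²) = (a¹² + 27 q b¹²) (a¹² + 3 q b¹²)³`.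
-/

set_option autoImplicit false

open UpperHalfPlane ModularForm EisensteinSeries CongruenceSubgroup
open scoped MatrixGroups ModularForm Manifold

noncomputable section

namespace Fermat.Agent.RED.H29

open Fermat.Agent.S23.H22 Fermat.Agent.S23 PowerSeries

/-- `∏ (1 - qⁿ)` over `ℂ`. -/
abbrev aC : PowerSeries ℂ := ModularCurve.etaProd.map (Int.castRingHom ℂ)

/-- `∏ (1 - q³ⁿ)` over `ℂ`. -/
abbrev bC : PowerSeries ℂ := PowerSeries.expand 3 three_ne_zero aC

/-- `E₄(q³)` over `ℂ`. -/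
abbrev e4C3 : PowerSeries ℂ := PowerSeries.expand 3 three_ne_zero e4S

/-! ### Constant coefficients -/

theorem constantCoeff_aC : constantCoeff aC = 1 := by
  rw [← PowerSeries.coeff_zero_eq_constantCoeff_apply, PowerSeries.coeff_map,
    PowerSeries.coeff_zero_eq_constantCoeff_apply, ModularCurve.constantCoeff_etaProd]
  simp

theorem constantCoeff_bC : constantCoeff bC = 1 := by
  rw [PowerSeries.constantCoeff_expand, constantCoeff_aC]

theorem constantCoeff_of_pi5 {P Q : PowerSeries ℂ} (h : pi5 P = pi5 Q) :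
    constantCoeff P = constantCoeff Q := by
  rw [Ideal.Quotient.eq, Ideal.mem_span_singleton, PowerSeries.X_pow_dvd_iff] at h
  have := h 0 (by norm_num)
  rw [map_sub, PowerSeries.coeff_zero_eq_constantCoeff_apply,
    PowerSeries.coeff_zero_eq_constantCoeff_apply] at this
  exact sub_eq_zero.mp this

theorem constantCoeff_αS : constantCoeff αS = 128 := by
  rw [constantCoeff_of_pi5 pi5_αS]
  simp only [map_sub, map_add, map_mul, map_pow, map_ofNat, map_one, PowerSeries.constantCoeff_X]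
  norm_num

/-! ### Bridges -/

theorem e4S_cube_sub : e4S * e4S * e4S - e6S * e6S = 1728 * (X * aC ^ 24) := by
  have h1 : qExpansion 1 H96.e4CubeSubE6Sq = (1728 : ℂ) • qExpansion 1 ModularForm.discriminant := by
    rw [H96.e4CubeSubE6Sq_eq]
    exact ModularForm.qExpansion_smul one_pos one_mem_strictPeriods_SL (1728 : ℂ)
      CuspForm.discriminant
  rw [H96.qExpansion_e4CubeSubE6Sq, Fermat.Agent.S28.H76.qExpansion_disc_eq_etaProd,
    PowerSeries.smul_eq_C_mul, map_ofNat] at h1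
  rw [← h1]
  ring

theorem dtS_eq : dtS = 177147 * (X ^ 3 * bC ^ 24) := by
  have h : dtS = C (177147 : ℂ) * PowerSeries.expand 3 three_ne_zero
      (qExpansion 1 ModularForm.discriminant) := by
    ext n
    rw [PowerSeries.coeff_C_mul, PowerSeries.coeff_expand]
    have := coeff_qExp_Dt n
    rw [this]
    split_ifs <;> simp
  rw [h, Fermat.Agent.S28.H76.qExpansion_disc_eq_etaProd, map_mul, map_pow,
    PowerSeries.expand_X, map_ofNat]

theorem e4tS_eq : e4tS = 27 * e4C3 := by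
  have h : e4tS = C (27 : ℂ) * PowerSeries.expand 3 three_ne_zero e4S := by
    ext n
    rw [PowerSeries.coeff_C_mul, PowerSeries.coeff_expand]
    have := coeff_qExp_E4t n
    rw [this]
    split_ifs <;> simp
  rw [h, map_ofNat]

/-! ### The identities over `ℂ` -/

theorem natCast_ne_zero_ps (n : ℕ) (hn : n ≠ 0) : ((n : ℕ) : PowerSeries ℂ) ≠ 0 := by
  intro h
  have := congrArg constantCoeff h
  rw [map_natCast, map_zero] at this
  exact hn (Nat.cast_eq_zero.mp this)

theorem ne_zero_of_constantCoeff {P : PowerSeries ℂ} (h : constantCoeff P ≠ 0) : P ≠ 0 := by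
  rintro rfl
  exact h (map_zero _)

theorem hauptC : e4S ^ 3 * (aC ^ 12 * bC ^ 12)
        = (aC ^ 12 + 27 * (X * bC ^ 12)) * (aC ^ 12 + 243 * (X * bC ^ 12)) ^ 3 ∧
      e4C3 ^ 3 * (aC ^ 12 * bC ^ 12)
        = (aC ^ 12 + 27 * (X * bC ^ 12)) * (aC ^ 12 + 3 * (X * bC ^ 12)) ^ 3 := by
  refine alg_main αS βS γS gS e4S e4C3 aC bC X PowerSeries.X_ne_zero
    (ne_zero_of_constantCoeff (by rw [constantCoeff_aC]; exact one_ne_zero))
    (ne_zero_of_constantCoeff ?_) natCast_ne_zero_ps ?_ ?_ ?_ ?_ series_three ?_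
    (ne_zero_of_constantCoeff ?_)
  · simp only [map_add, map_mul, map_pow, map_ofNat, constantCoeff_aC, constantCoeff_bC,
      PowerSeries.constantCoeff_X]
    norm_num
  · simp only [αS, βS, γS]
    ring
  · simp only [αS, βS, γS]
    ring
  · rw [series_one, e4S_cube_sub]
    ring
  · rw [series_two, dtS_eq]
  · have h := series_four
    rw [e4tS_eq] at h
    linear_combination h
  · simp only [map_add, map_mul, map_pow, map_ofNat, constantCoeff_aC, constantCoeff_bC,
      constantCoeff_αS]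
    norm_num

/-! ### The identities over `ℤ` -/

/-- `∏ (1 - q³ⁿ)`. -/
abbrev bZ : PowerSeries ℤ := PowerSeries.expand 3 three_ne_zero ModularCurve.etaProd

/-- `E₄(q³)`. -/
abbrev e4Z3 : PowerSeries ℤ := PowerSeries.expand 3 three_ne_zero ModularCurve.eisenstein4

theorem hauptPS_one : ModularCurve.eisenstein4 ^ 3 * (ModularCurve.etaProd ^ 12 * bZ ^ 12)
    = (ModularCurve.etaProd ^ 12 + 27 * (X * bZ ^ 12))
      * (ModularCurve.etaProd ^ 12 + 243 * (X * bZ ^ 12)) ^ 3 := by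
  apply PowerSeries.map_injective (Int.castRingHom ℂ) Int.cast_injective
  simp only [map_mul, map_pow, map_add, map_ofNat, PowerSeries.map_X, PowerSeries.map_expand]
  rw [← Fermat.Agent.S28.H76.qExpansion_E4_eq_eisenstein4]
  exact hauptC.1

theorem hauptPS_two : e4Z3 ^ 3 * (ModularCurve.etaProd ^ 12 * bZ ^ 12)
    = (ModularCurve.etaProd ^ 12 + 27 * (X * bZ ^ 12))
      * (ModularCurve.etaProd ^ 12 + 3 * (X * bZ ^ 12)) ^ 3 := by
  apply PowerSeries.map_injective (Int.castRingHom ℂ) Int.cast_injective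
  simp only [map_mul, map_pow, map_add, map_ofNat, PowerSeries.map_X, PowerSeries.map_expand]
  rw [← Fermat.Agent.S28.H76.qExpansion_E4_eq_eisenstein4]
  exact hauptC.2

/-! ### The Hauptmodul `h₃ = η(q)¹² / η(q³)¹²` in `ℤ((q))` -/

theorem constantCoeff_bZ : constantCoeff bZ = 1 := by
  rw [PowerSeries.constantCoeff_expand, ModularCurve.constantCoeff_etaProd]

/-- The inverse of `∏ (1 - q³ⁿ)¹²`. -/
def bInv : PowerSeries ℤ := (bZ ^ 12).invOfUnit 1

theorem bZ_mul_bInv : bZ ^ 12 * bInv = 1 :=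
  PowerSeries.mul_invOfUnit _ _ (by rw [map_pow, constantCoeff_bZ, one_pow]; rfl)

theorem constantCoeff_bInv : constantCoeff bInv = 1 := by
  have h := congrArg (PowerSeries.constantCoeff (R := ℤ)) bZ_mul_bInv
  rwa [map_mul, map_pow, constantCoeff_bZ, one_pow, one_mul, map_one] at h

/-- The numerator of `h₃`: `∏ (1 - qⁿ)¹² / ∏ (1 - q³ⁿ)¹²`. -/
def hNum : PowerSeries ℤ := ModularCurve.etaProd ^ 12 * bInv

theorem constantCoeff_hNum : constantCoeff hNum = 1 := by
  rw [hNum, map_mul, map_pow, ModularCurve.constantCoeff_etaProd, constantCoeff_bInv, one_pow,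
    one_mul]

/-- The Hauptmodul `h₃ = η(q)¹² / η(q³)¹² = q⁻¹ ∏ (1 - qⁿ)¹² / ∏ (1 - q³ⁿ)¹²` of `X₀(3)`. -/
def hZ3 : LaurentSeries ℤ :=
  HahnSeries.single (-1 : ℤ) 1 * HahnSeries.ofPowerSeries ℤ ℤ hNum

theorem coeff_hZ3_neg_one : hZ3.coeff (-1 : ℤ) = 1 := by
  rw [hZ3, HahnSeries.coeff_single_mul, one_mul, sub_neg_eq_add, neg_add_cancel,
    show (0 : ℤ) = ((0 : ℕ) : ℤ) from rfl, HahnSeries.ofPowerSeries_apply_coeff,
    PowerSeries.coeff_zero_eq_constantCoeff_apply, constantCoeff_hNum]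

theorem coeff_hZ3_of_lt {m : ℤ} (hm : m < -1) : hZ3.coeff m = 0 := by
  rw [hZ3, HahnSeries.coeff_single_mul, one_mul]
  exact ModularCurve.ofPowerSeries_coeff_of_neg _ (by omega)

theorem hZ3_ne_zero : hZ3 ≠ 0 := by
  intro h
  have h1 := coeff_hZ3_neg_one
  rw [h, HahnSeries.coeff_zero] at h1
  exact zero_ne_one h1

theorem hZ3_order : hZ3.order = -1 := by
  refine le_antisymm (HahnSeries.order_le_of_coeff_ne_zero ?_) ?_
  · rw [coeff_hZ3_neg_one]
    exact one_ne_zero
  · by_contra hlt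
    rw [not_le] at hlt
    exact HahnSeries.coeff_order_eq_zero.not.mpr hZ3_ne_zero (coeff_hZ3_of_lt hlt)

theorem hZ3_order_neg : hZ3.order < 0 := by
  rw [hZ3_order]
  norm_num

theorem hZ3_leadingCoeff : hZ3.leadingCoeff = 1 := by
  rw [HahnSeries.leadingCoeff_eq, hZ3_order, coeff_hZ3_neg_one]

/-! ### The two identities in `ℤ((q))` -/

theorem single_neg_one_mul_X :
    (HahnSeries.single (-1 : ℤ) (1 : ℤ)) * HahnSeries.ofPowerSeries ℤ ℤ X = 1 := by
  rw [HahnSeries.ofPowerSeries_X, HahnSeries.single_mul_single]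
  simp

theorem jqModC_int_eq : ModularCurve.jqModC ℤ = HahnSeries.single (-1 : ℤ) 1
    * (HahnSeries.ofPowerSeries ℤ ℤ ModularCurve.eisenstein4 ^ 3
      * HahnSeries.ofPowerSeries ℤ ℤ ModularCurve.dedekindEtaUnitInv) := by
  have h : ModularCurve.jNum.map (Int.castRingHom ℤ) = ModularCurve.jNum := by
    ext n
    simp
  rw [ModularCurve.jqModC, h, ModularCurve.jNum, map_mul, map_pow]

theorem qExpand_jqModC_int_eq : ModularCurve.qExpand ℤ 3 (ModularCurve.jqModC ℤ)
    = HahnSeries.single (-1 : ℤ) 1 ^ 3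
      * (HahnSeries.ofPowerSeries ℤ ℤ e4Z3 ^ 3
        * HahnSeries.ofPowerSeries ℤ ℤ
          (PowerSeries.expand 3 three_ne_zero ModularCurve.dedekindEtaUnitInv)) := by
  rw [jqModC_int_eq, map_mul, map_mul, map_pow, ModularCurve.qExpand_single,
    Fermat.Agent.RED.H10.qExpand_ofPowerSeries, Fermat.Agent.RED.H10.qExpand_ofPowerSeries,
    HahnSeries.single_pow]
  simp

/-- **`j h³ = (h + 27)(h + 243)³`** in `ℤ((q))`. -/
theorem hZ3_one : (hZ3 + 27) * (hZ3 + 243) ^ 3 = ModularCurve.jqModC ℤ * hZ3 ^ 3 := by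
  rw [jqModC_int_eq, hZ3, hNum, map_mul, map_pow]
  refine alg_laurent_one _ (HahnSeries.ofPowerSeries ℤ ℤ X) _ _ (HahnSeries.ofPowerSeries ℤ ℤ bZ)
    _ _ single_neg_one_mul_X ?_ ?_ ?_
  · rw [← map_pow, ← map_mul]
    have := ModularCurve.dedekindEtaUnit_mul_inv
    rw [ModularCurve.dedekindEtaUnit] at this
    rw [this, map_one]
  · rw [← map_pow, ← map_mul, bZ_mul_bInv, map_one]
  · have h := congrArg (HahnSeries.ofPowerSeries ℤ ℤ) hauptPS_one
    simpa only [map_mul, map_pow, map_add, map_ofNat] using h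

/-- **`j(q³) h = (h + 27)(h + 3)³`** in `ℤ((q))`. -/
theorem hZ3_two : (hZ3 + 27) * (hZ3 + 3) ^ 3
    = ModularCurve.qExpand ℤ 3 (ModularCurve.jqModC ℤ) * hZ3 := by
  rw [qExpand_jqModC_int_eq, hZ3, hNum, map_mul, map_pow]
  refine alg_laurent_two _ (HahnSeries.ofPowerSeries ℤ ℤ X) _ _
    (HahnSeries.ofPowerSeries ℤ ℤ bZ) _ _ single_neg_one_mul_X ?_ ?_ ?_
  · rw [← map_pow, ← map_mul, bZ_mul_bInv, map_one]
  · rw [← map_pow, ← map_mul]
    have := congrArg (PowerSeries.expand 3 three_ne_zero) ModularCurve.dedekindEtaUnit_mul_inv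
    rw [ModularCurve.dedekindEtaUnit, map_mul, map_pow, map_one] at this
    rw [this, map_one]
  · have h := congrArg (HahnSeries.ofPowerSeries ℤ ℤ) hauptPS_two
    simpa only [map_mul, map_pow, map_add, map_ofNat] using h

end Fermat.Agent.RED.H29
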