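import Fermat.Agent.RED.H70_Mod2Forms
import Fermat.Agent.RED.H10_Kronecker
import Fermat.Prelude.Def_ModularCurve_JqCoeff

/-!
# G-RED, package IG-MOD23, `p = 2` (helper70): the Hauptmodul `h₂ = Δ(q)/Δ(q²)` over `ℤ`

* `hZ2 : LaurentSeries ℤ` : `q⁻¹ ∏ (1 - qⁿ)²⁴ / (1 - q²ⁿ)²⁴`;
* `hZ2_order`, `hZ2_leadingCoeff` : simple pole with leading coefficient `1`;
* `hZ2_ident`  : `(h + 256)³ = j · h²`;
* `hZ2_ident'` : `(h + 16)³ = j(q²) · h`.
-/

set_option autoImplicit false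

noncomputable section

namespace Fermat.Agent.RED.H70

open Fermat.Agent.S23.H96 (e4Series e6Series)

local notation "ι" => HahnSeries.ofPowerSeries ℤ ℤ
local notation "E2" => PowerSeries.expand 2 two_ne_zero'
local notation "deltaSeries" => Fermat.Agent.S23.H96.deltaSeries

theorem ofNat_ne_zero_ps (n : ℕ) [n.AtLeastTwo] : (OfNat.ofNat n : PowerSeries ℤ) ≠ 0 := by
  intro h
  have h1 := congrArg (PowerSeries.coeff 0) h
  rw [show (OfNat.ofNat n : PowerSeries ℤ) = PowerSeries.C ((OfNat.ofNat n : ℤ)) from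
    (map_ofNat _ _).symm, PowerSeries.coeff_zero_C, map_zero] at h1
  exact (OfNat.ofNat_ne_zero n) h1

/-- `(P1)`: `E₄³ Δ(q) Δ(q²) = (Δ(q) + 256 Δ(q²))³`. -/
theorem p1 : e4Series ^ 3 * deltaSeries * E2 deltaSeries
    = (deltaSeries + 256 * E2 deltaSeries) ^ 3 := by
  have ha : (1728 : PowerSeries ℤ) * deltaSeries
      = (4 * g2Series ^ 2 - e4Series) ^ 2 * (e4Series - g2Series ^ 2) := by
    linear_combination -w12a
  have hb : (110592 : PowerSeries ℤ) * E2 deltaSeries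
      = (4 * g2Series ^ 2 - e4Series) * (e4Series - g2Series ^ 2) ^ 2 := by
    linear_combination -w12b
  have key : (3 * e4Series) ^ 3 * ((1728 : PowerSeries ℤ) * deltaSeries)
      * ((110592 : PowerSeries ℤ) * E2 deltaSeries)
      = ((1728 : PowerSeries ℤ) * deltaSeries + 4 * ((110592 : PowerSeries ℤ) * E2 deltaSeries)) ^ 3 := by
    rw [ha, hb]
    ring
  have h0 : ((1728 : PowerSeries ℤ) ^ 3) ≠ 0 := pow_ne_zero _ (ofNat_ne_zero_ps 1728)
  apply mul_left_cancel₀ h0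
  linear_combination key

/-- `(P2)`: `E₄(q²)³ Δ(q) Δ(q²) = (Δ(q) + 16 Δ(q²))³`. -/
theorem p2 : (E2 e4Series) ^ 3 * deltaSeries * E2 deltaSeries
    = (deltaSeries + 16 * E2 deltaSeries) ^ 3 := by
  have ha : (1728 : PowerSeries ℤ) * deltaSeries
      = (4 * g2Series ^ 2 - e4Series) ^ 2 * (e4Series - g2Series ^ 2) := by
    linear_combination -w12a
  have hb : (110592 : PowerSeries ℤ) * E2 deltaSeries
      = (4 * g2Series ^ 2 - e4Series) * (e4Series - g2Series ^ 2) ^ 2 := by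
    linear_combination -w12b
  have hc : (12 : PowerSeries ℤ) * E2 e4Series
      = 4 * (4 * g2Series ^ 2 - e4Series) + (e4Series - g2Series ^ 2) := by
    linear_combination (-3 : PowerSeries ℤ) * w4
  have key : ((12 : PowerSeries ℤ) * E2 e4Series) ^ 3 * ((1728 : PowerSeries ℤ) * deltaSeries)
      * ((110592 : PowerSeries ℤ) * E2 deltaSeries)
      = (4 * ((1728 : PowerSeries ℤ) * deltaSeries) + ((110592 : PowerSeries ℤ) * E2 deltaSeries)) ^ 3 := by
    rw [ha, hb, hc]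
    ring
  have h0 : ((6912 : PowerSeries ℤ) ^ 3) ≠ 0 := pow_ne_zero _ (ofNat_ne_zero_ps 6912)
  apply mul_left_cancel₀ h0
  linear_combination key

/-! ### The Hauptmodul -/

/-- `∏ (1 - q²ⁿ)²⁴`. -/
def eta2Unit : PowerSeries ℤ := E2 ModularCurve.dedekindEtaUnit

theorem constantCoeff_eta2Unit : PowerSeries.constantCoeff eta2Unit = 1 := by
  rw [eta2Unit, PowerSeries.constantCoeff_expand, ModularCurve.constantCoeff_dedekindEtaUnit]

/-- The inverse of `∏ (1 - q²ⁿ)²⁴`. -/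
def eta2UnitInv : PowerSeries ℤ := eta2Unit.invOfUnit 1

theorem eta2Unit_mul_inv : eta2Unit * eta2UnitInv = 1 :=
  PowerSeries.mul_invOfUnit _ _ (by rw [constantCoeff_eta2Unit]; rfl)

theorem constantCoeff_eta2UnitInv : PowerSeries.constantCoeff eta2UnitInv = 1 := by
  have h := congrArg (PowerSeries.constantCoeff (R := ℤ)) eta2Unit_mul_inv
  rwa [map_mul, constantCoeff_eta2Unit, one_mul, map_one] at h

/-- The Hauptmodul `h₂ = Δ(q)/Δ(q²) = q⁻¹ ∏ (1 - qⁿ)²⁴/(1 - q²ⁿ)²⁴` of `X₀(2)`, over `ℤ`. -/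
def hZ2 : LaurentSeries ℤ :=
  HahnSeries.single (-1 : ℤ) 1 * ι (ModularCurve.dedekindEtaUnit * eta2UnitInv)

theorem delta_eq_X_mul : deltaSeries = PowerSeries.X * ModularCurve.dedekindEtaUnit :=
  deltaSeries_eq

theorem expand_delta : E2 deltaSeries = PowerSeries.X ^ 2 * eta2Unit := by
  rw [delta_eq_X_mul, map_mul, PowerSeries.expand_X, eta2Unit]

theorem single_neg_one_mul_X :
    (HahnSeries.single (-1 : ℤ) (1 : ℤ)) * ι PowerSeries.X = 1 := by
  rw [HahnSeries.ofPowerSeries_X, HahnSeries.single_mul_single]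
  simp

theorem jNum_map_int : ModularCurve.jNum.map (Int.castRingHom ℤ) = ModularCurve.jNum := by
  ext n
  simp

/-- `(a)`: `j Δ = E₄³`. -/
theorem jZ_mul_delta : ModularCurve.jqModC ℤ * ι deltaSeries = ι (e4Series ^ 3) := by
  rw [ModularCurve.jqModC, jNum_map_int, ModularCurve.jNum, delta_eq_X_mul, e4Series_eq]
  calc HahnSeries.single (-1 : ℤ) (1 : ℤ)
        * ι (ModularCurve.eisenstein4 ^ 3 * ModularCurve.dedekindEtaUnitInv)
        * ι (PowerSeries.X * ModularCurve.dedekindEtaUnit)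
      = (HahnSeries.single (-1 : ℤ) (1 : ℤ) * ι PowerSeries.X)
        * ι (ModularCurve.eisenstein4 ^ 3
          * (ModularCurve.dedekindEtaUnit * ModularCurve.dedekindEtaUnitInv)) := by
        simp only [map_mul, map_pow]
        ring
    _ = ι (ModularCurve.eisenstein4 ^ 3) := by
        rw [single_neg_one_mul_X, ModularCurve.dedekindEtaUnit_mul_inv, mul_one, one_mul]

/-- `(b)`: `h₂ Δ(q²) = Δ(q)`. -/
theorem hZ2_mul_delta2 : hZ2 * ι (E2 deltaSeries) = ι deltaSeries := by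
  rw [hZ2, expand_delta, delta_eq_X_mul]
  calc HahnSeries.single (-1 : ℤ) (1 : ℤ) * ι (ModularCurve.dedekindEtaUnit * eta2UnitInv)
        * ι (PowerSeries.X ^ 2 * eta2Unit)
      = (HahnSeries.single (-1 : ℤ) (1 : ℤ) * ι PowerSeries.X)
        * ι (PowerSeries.X * ModularCurve.dedekindEtaUnit * (eta2Unit * eta2UnitInv)) := by
        simp only [map_mul, map_pow]
        ring
    _ = ι (PowerSeries.X * ModularCurve.dedekindEtaUnit) := by
        rw [single_neg_one_mul_X, eta2Unit_mul_inv, mul_one, one_mul]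

/-- `(c)`: `j(q²) Δ(q²) = E₄(q²)³`. -/
theorem jZ2_mul_delta2 :
    ModularCurve.qExpand ℤ 2 (ModularCurve.jqModC ℤ) * ι (E2 deltaSeries)
      = ι ((E2 e4Series) ^ 3) := by
  have h := congrArg (ModularCurve.qExpand ℤ 2) jZ_mul_delta
  rw [map_mul, Fermat.Agent.RED.H10.qExpand_ofPowerSeries,
    Fermat.Agent.RED.H10.qExpand_ofPowerSeries, map_pow] at h
  exact h

theorem delta_ne_zero : ι deltaSeries ≠ 0 := by
  intro h
  have h1 : deltaSeries = 0 := HahnSeries.ofPowerSeries_injective (by rw [h, map_zero])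
  have h2 := congrArg (PowerSeries.coeff 1) h1
  rw [delta_eq_X_mul, show (1 : ℕ) = 0 + 1 from rfl, PowerSeries.coeff_succ_X_mul,
    PowerSeries.coeff_zero_eq_constantCoeff_apply,
    ModularCurve.constantCoeff_dedekindEtaUnit, map_zero] at h2
  exact one_ne_zero h2

theorem delta2_ne_zero : ι (E2 deltaSeries) ≠ 0 := by
  intro h
  have h1 : E2 deltaSeries = 0 := HahnSeries.ofPowerSeries_injective (by rw [h, map_zero])
  have h2 := congrArg (PowerSeries.coeff 2) h1
  rw [expand_delta, show (2 : ℕ) = 0 + 2 from rfl, PowerSeries.coeff_X_pow_mul,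
    PowerSeries.coeff_zero_eq_constantCoeff_apply, constantCoeff_eta2Unit, map_zero] at h2
  exact one_ne_zero h2

/-- **`(I2)`**: `(h₂ + 256)³ = j h₂²`. -/
theorem hZ2_ident : (hZ2 + 256) ^ 3 = ModularCurve.jqModC ℤ * hZ2 ^ 2 := by
  have ha := jZ_mul_delta
  have hb := hZ2_mul_delta2
  have hp : ι (e4Series ^ 3) * ι deltaSeries * ι (E2 deltaSeries)
      = (ι deltaSeries + 256 * ι (E2 deltaSeries)) ^ 3 := by
    have := congrArg ι p1
    simpa only [map_mul, map_pow, map_add, map_ofNat] using this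
  have hne : ι deltaSeries * ι (E2 deltaSeries) ^ 3 ≠ 0 :=
    mul_ne_zero delta_ne_zero (pow_ne_zero _ delta2_ne_zero)
  apply mul_right_cancel₀ hne
  calc (hZ2 + 256) ^ 3 * (ι deltaSeries * ι (E2 deltaSeries) ^ 3)
      = (hZ2 * ι (E2 deltaSeries) + 256 * ι (E2 deltaSeries)) ^ 3 * ι deltaSeries := by ring
    _ = (ι deltaSeries + 256 * ι (E2 deltaSeries)) ^ 3 * ι deltaSeries := by rw [hb]
    _ = ι (e4Series ^ 3) * ι deltaSeries * ι (E2 deltaSeries) * ι deltaSeries := by rw [hp]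
    _ = (ModularCurve.jqModC ℤ * ι deltaSeries) * (hZ2 * ι (E2 deltaSeries)) ^ 2
          * ι (E2 deltaSeries) := by rw [ha, hb]; ring
    _ = ModularCurve.jqModC ℤ * hZ2 ^ 2 * (ι deltaSeries * ι (E2 deltaSeries) ^ 3) := by ring

/-- **`(I2')`**: `(h₂ + 16)³ = j(q²) h₂`. -/
theorem hZ2_ident' :
    (hZ2 + 16) ^ 3 = ModularCurve.qExpand ℤ 2 (ModularCurve.jqModC ℤ) * hZ2 := by
  have hc := jZ2_mul_delta2
  have hb := hZ2_mul_delta2
  have hp : ι ((E2 e4Series) ^ 3) * ι deltaSeries * ι (E2 deltaSeries)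
      = (ι deltaSeries + 16 * ι (E2 deltaSeries)) ^ 3 := by
    have := congrArg ι p2
    simpa only [map_mul, map_pow, map_add, map_ofNat] using this
  have hne : ι (E2 deltaSeries) ^ 3 ≠ 0 := pow_ne_zero _ delta2_ne_zero
  apply mul_right_cancel₀ hne
  calc (hZ2 + 16) ^ 3 * ι (E2 deltaSeries) ^ 3
      = (hZ2 * ι (E2 deltaSeries) + 16 * ι (E2 deltaSeries)) ^ 3 := by ring
    _ = (ι deltaSeries + 16 * ι (E2 deltaSeries)) ^ 3 := by rw [hb]
    _ = ι ((E2 e4Series) ^ 3) * ι deltaSeries * ι (E2 deltaSeries) := by rw [hp]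
    _ = (ModularCurve.qExpand ℤ 2 (ModularCurve.jqModC ℤ) * ι (E2 deltaSeries))
          * (hZ2 * ι (E2 deltaSeries)) * ι (E2 deltaSeries) := by rw [hc, hb]
    _ = ModularCurve.qExpand ℤ 2 (ModularCurve.jqModC ℤ) * hZ2 * ι (E2 deltaSeries) ^ 3 := by
        ring

/-! ### The pole of `h₂` -/

theorem hZ2_coeff (k : ℤ) : hZ2.coeff (k + -1)
    = (ι (ModularCurve.dedekindEtaUnit * eta2UnitInv)).coeff k := by
  rw [hZ2, HahnSeries.coeff_single_mul_add, one_mul]

theorem hZ2_coeff_neg_one : hZ2.coeff (-1) = 1 := by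
  have h := hZ2_coeff 0
  rw [zero_add] at h
  rw [h]
  have h2 := HahnSeries.ofPowerSeries_apply_coeff (Γ := ℤ)
    (ModularCurve.dedekindEtaUnit * eta2UnitInv) 0
  rw [Nat.cast_zero] at h2
  rw [h2, PowerSeries.coeff_zero_eq_constantCoeff_apply, map_mul,
    ModularCurve.constantCoeff_dedekindEtaUnit, constantCoeff_eta2UnitInv, one_mul]

theorem hZ2_coeff_of_lt {k : ℤ} (hk : k < -1) : hZ2.coeff k = 0 := by
  have h := hZ2_coeff (k + 1)
  rw [show k + 1 + -1 = k by ring] at h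
  rw [h]
  exact ModularCurve.ofPowerSeries_coeff_of_neg _ (by omega)

theorem hZ2_ne_zero : hZ2 ≠ 0 := by
  intro h
  have := hZ2_coeff_neg_one
  rw [h] at this
  simp at this

theorem hZ2_order_eq : hZ2.order = -1 := by
  apply le_antisymm
  · exact HahnSeries.order_le_of_coeff_ne_zero (by rw [hZ2_coeff_neg_one]; exact one_ne_zero)
  · by_contra hcon
    rw [not_le] at hcon
    exact (HahnSeries.coeff_order_eq_zero.not.mpr hZ2_ne_zero) (hZ2_coeff_of_lt hcon)

/-- **`(H1)`**: `h₂` has a pole. -/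
theorem hZ2_order : hZ2.order < 0 := by
  rw [hZ2_order_eq]
  norm_num

/-- **`(H1)`**: the leading coefficient of `h₂` is `1`. -/
theorem hZ2_leadingCoeff : hZ2.leadingCoeff = 1 := by
  rw [HahnSeries.leadingCoeff_eq, hZ2_order_eq, hZ2_coeff_neg_one]

end Fermat.Agent.RED.H70
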