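import Fermat.Agent.RED.H76_DR2Haupt
import Fermat.Agent.RED.H70_Mod2Series
import Fermat.Agent.RED.H29_Mod3Series

/-!
# G-RED (helper76): package DR2, unconditional

`stmt_DR2 : Stmt_DR2` — the Deuring datum of `X₀(M)` at every place over `ℓ ∤ M` in the three
cases `ℓ ≥ 5`, `ℓ = 3 ∧ 2 ∣ M`, `ℓ = 2 ∧ 3 ∣ M`.  Assembled from `stmt_DR2_of` with the two
`q`-series inputs of IG-MOD23: helper70's `hZ2` (`(h+256)³ = j h²`, `(h+16)³ = j(q²) h`) and
helper29's `hZ3` (`(h+27)(h+243)³ = j h³`, `(h+27)(h+3)³ = j(q³) h`).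
-/

set_option autoImplicit false

noncomputable section

namespace Fermat.Agent.RED.H76

/-- The `q`-series input at `p = 2` (helper70). -/
theorem stmt_Haupt2 : Stmt_Haupt2 :=
  stmt_Haupt2_of_ring Fermat.Agent.RED.H70.hZ2 Fermat.Agent.RED.H70.hZ2_order
    Fermat.Agent.RED.H70.hZ2_leadingCoeff Fermat.Agent.RED.H70.hZ2_ident
    Fermat.Agent.RED.H70.hZ2_ident'

/-- The `q`-series input at `p = 3` (helper29). -/
theorem stmt_Haupt3 : Stmt_Haupt3 :=
  stmt_Haupt3_of_ring Fermat.Agent.RED.H29.hZ3 Fermat.Agent.RED.H29.hZ3_order_neg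
    Fermat.Agent.RED.H29.hZ3_leadingCoeff Fermat.Agent.RED.H29.hZ3_one
    Fermat.Agent.RED.H29.hZ3_two

/-- **Package DR2**, unconditional. -/
theorem stmt_DR2 : Fermat.Agent.RED.Stmt_DR2 :=
  stmt_DR2_of stmt_Haupt2 stmt_Haupt3

end Fermat.Agent.RED.H76
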