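import Fermat.Agent.RED.H73_GAScale
import Fermat.Prelude.Def_ModularCurve_X0ModL

/-!
# G-RED package GA, part 1b (helper73): the modular function fields have the scaling property

For every field `L ⊇ ℚ` (of `Type`) and EVERY valuation subring `A` of `L`, every nonzero element
of `laurentBaseChange L (modularFunctionFieldFull N) = L(j(q^d) : d ∣ N) ⊂ L((q))` has a scalar
multiple which is a unit of the Gauss ring.  Same for `modularFunctionFieldFullC k N`.
-/

set_option autoImplicit false

open ModularCurve Fermat.Agent.S28 Fermat.Agent.S28.H73

noncomputable section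

namespace Fermat.Agent.RED.H73

variable {L : Type} [Field L]

theorem qExpand_jqModC_mem_intSeries (d : ℕ) [NeZero d] :
    qExpand L d (jqModC L) ∈ intSeries L :=
  ⟨qExpand ℤ d (jqModC ℤ), by rw [coeffMap_qExpand, coeffMap_jqModC]⟩

theorem divisorExpansionsC_subset_intSpan (N : ℕ) :
    divisorExpansionsC L N ⊆ (IntSpan L : Set (LaurentSeries L)) := by
  rintro x ⟨d, hd, -, rfl⟩
  exact intSeries_le_intSpan (qExpand_jqModC_mem_intSeries d)

/-- **GA (scaling), characteristic-free form**: `k(j(q^d) : d ∣ N)` has the scaling property. -/
theorem hasScale_fullC (A : ValuationSubring L) (N : ℕ) :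
    HasScale A (modularFunctionFieldFullC L N) :=
  hasScale_adjoin A (divisorExpansionsC_subset_intSpan N)

variable [Algebra ℚ L]

theorem coeffEmb_qExpand_jq (d : ℕ) [NeZero d] :
    coeffEmb L (qExpand ℚ d jq) = qExpand L d (jqModC L) := by
  rw [coeffEmb, coeffMap_qExpand, ← jqModC_rat, coeffMap_jqModC]

/-- The base change of the modular function field is the field generated by the `j(q^d)`. -/
theorem laurentBaseChange_full_eq (N : ℕ) :
    laurentBaseChange L (modularFunctionFieldFull N) = modularFunctionFieldFullC L N := by
  apply le_antisymm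
  · rw [laurentBaseChange, IntermediateField.adjoin_le_iff]
    rintro x ⟨y, hy, rfl⟩
    -- the preimage of the target under `coeffEmb` is a subfield containing the generators
    let S : Subfield (LaurentSeries ℚ) := (modularFunctionFieldFullC L N).toSubfield.comap (coeffEmb L)
    have hS : ∀ r : ℚ, algebraMap ℚ (LaurentSeries ℚ) r ∈ S := by
      intro r
      show coeffEmb L (algebraMap ℚ (LaurentSeries ℚ) r) ∈ modularFunctionFieldFullC L N
      rw [algebraMap_laurentSeries_eq_single, coeffEmb, coeffMap_single,
        ← algebraMap_laurentSeries_eq_single]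
      exact (modularFunctionFieldFullC L N).algebraMap_mem _
    let S' : IntermediateField ℚ (LaurentSeries ℚ) := S.toIntermediateField hS
    have hle : modularFunctionFieldFull N ≤ S' := by
      rw [modularFunctionFieldFull, IntermediateField.adjoin_le_iff]
      rintro z ⟨d, hd0, hd, rfl⟩
      show coeffEmb L (qExpand ℚ d jq) ∈ modularFunctionFieldFullC L N
      rw [coeffEmb_qExpand_jq]
      exact jqModCd_mem_full L N hd
    exact hle hy
  · rw [modularFunctionFieldFullC, IntermediateField.adjoin_le_iff]
    rintro x ⟨d, hd0, hd, rfl⟩
    rw [← coeffEmb_qExpand_jq]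
    exact coeffEmb_mem_laurentBaseChange L (jqd_mem_full N hd)

/-- **GA (scaling)**: every nonzero element of `F_N · L` is a scalar times a Gauss unit, for
every valuation subring `A` of `L`. -/
theorem hasScale_laurentBaseChange (A : ValuationSubring L) (N : ℕ) :
    HasScale A (laurentBaseChange L (modularFunctionFieldFull N)) := by
  rw [laurentBaseChange_full_eq]
  exact hasScale_fullC A N

end Fermat.Agent.RED.H73
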