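import Fermat.Agent.RED.H42_Lat2
import Fermat.Agent.RED.H73_GAVal
import Fermat.Agent.RED.H73_GAModular

/-!
# G-RED package LAT (helper42), part 3: lattices in the function field `F`

Setting of package GA (helper73): `F : IntermediateField C (LaurentSeries C)`, `h : HasScale O F`,
`V = gaussValSub O F h`, `res = gaussResF' O h : V →+* redField O F h`.

If moreover `F` consists of fractions of a scalable subalgebra (`FracScalable O F`; true for
`F = C(S)`, `S ⊆ IntSpan C`, in particular for the modular function fields), then for every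
finite-dimensional `C`-subspace `W` of `F`:

* `exists_isOrthonormalF`: `W ∩ V` is a free `O`-module on a basis `e_i` whose reductions are
  linearly independent over `k`, and `res (Σ d_i e_i) = Σ res(d_i) res(e_i)`;
* `finrank_redSubF`: `dim_k res(W ∩ V) = dim_C W`.
-/

set_option autoImplicit false
set_option synthInstance.maxHeartbeats 400000
set_option maxHeartbeats 1000000

open ModularCurve Fermat.Agent.S28 Fermat.Agent.S28.H73 Fermat.Agent.RED.H73

noncomputable section

namespace Fermat.Agent.RED.H42

variable {C : Type} [Field C] (O : ValuationSubring C)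

/-! ## Fields of fractions of scalable algebras -/

/-- `F` consists of fractions of elements of a scalable subalgebra of `C((t))`. -/
def FracScalable (F : IntermediateField C (LaurentSeries C)) : Prop :=
  ∃ R : Subalgebra C (LaurentSeries C), ScalableAlg O R ∧
    ∀ x ∈ F, ∃ b ∈ R, b ≠ 0 ∧ b * x ∈ R

theorem scalableAlg_intSpan : ScalableAlg O (IntSpan C) :=
  fun _ hx hx0 => exists_primSeries_scale O hx hx0

theorem fracScalable_adjoin {S : Set (LaurentSeries C)}
    (hS : S ⊆ (IntSpan C : Set (LaurentSeries C))) :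
    FracScalable O (IntermediateField.adjoin C S) := by
  refine ⟨IntSpan C, scalableAlg_intSpan O, fun x hx => ?_⟩
  obtain ⟨a, ha, b, hb, rfl⟩ := IntermediateField.mem_adjoin_iff_div.1 hx
  have hle : Algebra.adjoin C S ≤ IntSpan C := Algebra.adjoin_le hS
  by_cases hb0 : b = 0
  · refine ⟨1, (IntSpan C).one_mem, one_ne_zero, ?_⟩
    rw [hb0, div_zero, mul_zero]
    exact (IntSpan C).zero_mem
  · refine ⟨b, hle hb, hb0, ?_⟩
    rw [mul_div_cancel₀ _ hb0]
    exact hle ha

theorem FracScalable.mono {F F' : IntermediateField C (LaurentSeries C)}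
    (h : FracScalable O F') (hle : F ≤ F') : FracScalable O F := by
  obtain ⟨R, hR, hF⟩ := h
  exact ⟨R, hR, fun x hx => hF x (hle hx)⟩

theorem fracScalable_fullC {L : Type} [Field L] (A : ValuationSubring L) (N : ℕ) :
    FracScalable A (modularFunctionFieldFullC L N) :=
  fracScalable_adjoin A (divisorExpansionsC_subset_intSpan N)

theorem fracScalable_laurentBaseChange {L : Type} [Field L] [Algebra ℚ L]
    (A : ValuationSubring L) (N : ℕ) :
    FracScalable A (laurentBaseChange L (modularFunctionFieldFull N)) := by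
  rw [laurentBaseChange_full_eq]
  exact fracScalable_fullC A N

/-! ## From `F` to series -/

/-- The inclusion of an intermediate field of `K((t))`, as a `K`-linear map. -/
def valL {K : Type} [Field K] (E : IntermediateField K (LaurentSeries K)) :
    ↥E →ₗ[K] LaurentSeries K where
  toFun x := (x : LaurentSeries K)
  map_add' _ _ := rfl
  map_smul' c x := by
    rw [RingHom.id_apply, ← HahnSeries.C_mul_eq_smul, C_eq_algebraMap, Algebra.smul_def]
    rfl

@[simp] theorem valL_apply {K : Type} [Field K] (E : IntermediateField K (LaurentSeries K))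
    (x : ↥E) : valL E x = (x : LaurentSeries K) := rfl

theorem valL_injective {K : Type} [Field K] (E : IntermediateField K (LaurentSeries K)) :
    Function.Injective (valL E) := fun _ _ hxy => Subtype.ext hxy

variable {F : IntermediateField C (LaurentSeries C)}

/-- The image of a subspace of `F` in `C((t))`. -/
def toSeries (W : Submodule C ↥F) : Submodule C (LaurentSeries C) := W.map (valL F)

theorem mem_toSeries {W : Submodule C ↥F} {y : LaurentSeries C} :
    y ∈ toSeries W ↔ ∃ x ∈ W, ((x : ↥F) : LaurentSeries C) = y := by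
  rw [toSeries, Submodule.mem_map]
  rfl

theorem finrank_toSeries (W : Submodule C ↥F) :
    Module.finrank C (toSeries W) = Module.finrank C W :=
  (Submodule.equivMapOfInjective _ (valL_injective F) W).finrank_eq.symm

instance finiteDimensional_toSeries (W : Submodule C ↥F) [FiniteDimensional C W] :
    FiniteDimensional C (toSeries W) := by
  unfold toSeries
  infer_instance

/-! ## Orthonormal bases in `F` -/

theorem IsOrthonormal.cast {W : Submodule C (LaurentSeries C)} {n m : ℕ} (hnm : m = n)
    {e : Fin n → gaussRingV O} (he : IsOrthonormal O W e) :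
    IsOrthonormal O W (fun i : Fin m => e (Fin.cast hnm i)) := by
  subst hnm
  exact he

/-- An **orthonormal basis** of the subspace `W` of `F` with respect to the Gauss valuation:
`e_i ∈ W ∩ V` with linearly independent reductions, such that every element of `W ∩ V` is an
`O`-combination `Σ d_i e_i`, with reduction `Σ res(d_i) res(e_i)`. -/
structure IsOrthonormalF (h : HasScale O F) (W : Submodule C ↥F) {n : ℕ}
    (e : Fin n → ↥(gaussValSub O F h)) : Prop where
  mem : ∀ i, ((e i : ↥(gaussValSub O F h)) : ↥F) ∈ W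
  indep : LinearIndependent (kV O) (fun i => gaussResF' O h (e i))
  repr : ∀ x : ↥(gaussValSub O F h), (x : ↥F) ∈ W → ∃ d : Fin n → ↥O,
    (x : ↥F) = ∑ i, ((d i : ↥O) : C) • ((e i : ↥(gaussValSub O F h)) : ↥F) ∧
    gaussResF' O h x = ∑ i, resV O (d i) • gaussResF' O h (e i)

theorem coe_sum_smul {n : ℕ} (c : Fin n → C) (w : Fin n → ↥F) :
    ((∑ i, c i • w i : ↥F) : LaurentSeries C) = ∑ i, c i • ((w i : ↥F) : LaurentSeries C) := by
  have := map_sum (valL F) (fun i => c i • w i) Finset.univ
  simp only [map_smul, valL_apply] at this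
  exact this

theorem coe_sum_smul_red (h : HasScale O F) {n : ℕ} (a : Fin n → kV O)
    (y : Fin n → ↥(redField O F h)) :
    ((∑ i, a i • y i : ↥(redField O F h)) : LaurentSeries (kV O))
      = ∑ i, a i • ((y i : ↥(redField O F h)) : LaurentSeries (kV O)) := by
  have := map_sum (valL (redField O F h)) (fun i => a i • y i) Finset.univ
  simp only [map_smul, valL_apply] at this
  exact this

/-- **LAT**: orthonormal bases of finite-dimensional subspaces of `F`. -/
theorem exists_isOrthonormalF (hF : FracScalable O F) (h : HasScale O F)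
    (W : Submodule C ↥F) [FiniteDimensional C W] :
    ∃ e : Fin (Module.finrank C W) → ↥(gaussValSub O F h), IsOrthonormalF O h W e := by
  obtain ⟨R, hR, hFR⟩ := hF
  have hW : ∀ x ∈ toSeries W, ∃ b ∈ R, b ≠ 0 ∧ b * x ∈ R := by
    intro x hx
    obtain ⟨w, -, rfl⟩ := mem_toSeries.mp hx
    exact hFR _ w.2
  obtain ⟨e', he'⟩ := exists_isOrthonormal_of_fractions O hR (toSeries W) hW
  have he'' := he'.cast O (finrank_toSeries W).symm
  set e'' : Fin (Module.finrank C W) → gaussRingV O :=
    fun i => e' (Fin.cast (finrank_toSeries W).symm i) with he''def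
  have hex : ∀ i, ∃ w : ↥F, w ∈ W ∧ ((w : ↥F) : LaurentSeries C) = (e'' i : LaurentSeries C) :=
    fun i => mem_toSeries.mp (he''.mem i)
  choose w hwW hw using hex
  have hwV : ∀ i, w i ∈ gaussValSub O F h := fun i => by
    rw [mem_gaussValSub_iff, hw i]
    exact (e'' i).2
  have hres : ∀ i, ((gaussResF' O h ⟨w i, hwV i⟩ : ↥(redField O F h)) : LaurentSeries (kV O))
      = gaussRedV O (e'' i) := by
    intro i
    show gaussResF O h ⟨w i, hwV i⟩ = gaussRedV O (e'' i)
    rw [gaussResF_apply]
    congr 1
    exact Subtype.ext (hw i)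
  refine ⟨fun i => ⟨w i, hwV i⟩, hwW, ?_, ?_⟩
  · refine LinearIndependent.of_comp (valL (redField O F h)) ?_
    have : (valL (redField O F h)) ∘ (fun i => gaussResF' O h ⟨w i, hwV i⟩)
        = fun i => gaussRedV O (e'' i) := funext hres
    rw [this]
    exact he''.indep
  · intro x hxW
    have hx1 : ((x : ↥F) : LaurentSeries C) ∈ toSeries W := mem_toSeries.mpr ⟨_, hxW, rfl⟩
    have hx2 : ((x : ↥F) : LaurentSeries C) ∈ gaussRingV O := x.2
    obtain ⟨d, hd⟩ := he''.repr _ hx1 hx2
    refine ⟨d, ?_, ?_⟩
    · apply valL_injective F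
      rw [valL_apply, valL_apply, coe_sum_smul, hd]
      refine Finset.sum_congr rfl fun i _ => ?_
      rw [hw i]
    · apply valL_injective (redField O F h)
      rw [valL_apply, valL_apply, coe_sum_smul_red]
      have h1 : ((gaussResF' O h x : ↥(redField O F h)) : LaurentSeries (kV O))
          = gaussRedV O ⟨((x : ↥F) : LaurentSeries C), hx2⟩ := rfl
      rw [h1]
      have h2 : (⟨((x : ↥F) : LaurentSeries C), hx2⟩ : gaussRingV O)
          = ⟨∑ i, ((d i : ↥O) : C) • ((e'' i : gaussRingV O) : LaurentSeries C), hd ▸ hx2⟩ :=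
        Subtype.ext hd
      rw [h2, gaussRedV_sum']
      refine Finset.sum_congr rfl fun i _ => ?_
      rw [hres i]


/-- The reductions of an orthonormal basis span the reduction of `W ∩ V`. -/
theorem IsOrthonormalF.exists_lift {h : HasScale O F} {W : Submodule C ↥F} {n : ℕ}
    {e : Fin n → ↥(gaussValSub O F h)} (he : IsOrthonormalF O h W e) (a : Fin n → kV O) :
    ∃ x : ↥(gaussValSub O F h), (x : ↥F) ∈ W ∧
      gaussResF' O h x = ∑ i, a i • gaussResF' O h (e i) := by
  choose d hd using fun i => IsLocalRing.residue_surjective (a i)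
  have hdV : ∀ i, algebraMap C ↥F ((d i : ↥O) : C) ∈ gaussValSub O F h := fun i =>
    (algebraMap_mem_gaussValSub_iff O h _).2 (d i).2
  refine ⟨∑ i, ⟨algebraMap C ↥F ((d i : ↥O) : C), hdV i⟩ * e i, ?_, ?_⟩
  · have hcoe : ((∑ i, (⟨algebraMap C ↥F ((d i : ↥O) : C), hdV i⟩ : ↥(gaussValSub O F h)) * e i
        : ↥(gaussValSub O F h)) : ↥F)
        = ∑ i, algebraMap C ↥F ((d i : ↥O) : C) * ((e i : ↥(gaussValSub O F h)) : ↥F) :=
      map_sum (gaussValSub O F h).subtype _ _
    rw [hcoe]
    refine Submodule.sum_mem _ fun i _ => ?_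
    rw [← Algebra.smul_def]
    exact W.smul_mem _ (he.mem i)
  · rw [map_sum]
    refine Finset.sum_congr rfl fun i _ => ?_
    rw [map_mul, Algebra.smul_def]
    congr 1
    apply Subtype.ext
    show gaussResF O h ⟨algebraMap C ↥F ((d i : ↥O) : C), hdV i⟩ = _
    rw [gaussResF_algebraMap, ← hd i, ← algebraMap_kV]
    rfl

/-- The reduction of `W ∩ V`, as a set. -/
def redSetF (h : HasScale O F) (W : Submodule C ↥F) : Set ↥(redField O F h) :=
  {y | ∃ x : ↥(gaussValSub O F h), (x : ↥F) ∈ W ∧ gaussResF' O h x = y}

/-- The reduction of `W ∩ V` is the `k`-span of the reductions of an orthonormal basis. -/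
theorem IsOrthonormalF.redSetF_eq {h : HasScale O F} {W : Submodule C ↥F} {n : ℕ}
    {e : Fin n → ↥(gaussValSub O F h)} (he : IsOrthonormalF O h W e) :
    redSetF O h W = (Submodule.span (kV O) (Set.range fun i => gaussResF' O h (e i)) : Set _) := by
  ext y
  constructor
  · rintro ⟨x, hxW, rfl⟩
    obtain ⟨d, -, hd⟩ := he.repr x hxW
    rw [hd]
    exact Submodule.sum_mem _ fun i _ =>
      Submodule.smul_mem _ _ (Submodule.subset_span ⟨i, rfl⟩)
  · intro hy
    obtain ⟨a, rfl⟩ := (Submodule.mem_span_range_iff_exists_fun (kV O)).mp hy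
    exact he.exists_lift O a

/-- **LAT, dimension form**: `res (W ∩ V)` is a `k`-subspace of `F~` of dimension `dim_C W`. -/
theorem exists_redSubF (hF : FracScalable O F) (h : HasScale O F)
    (W : Submodule C ↥F) [FiniteDimensional C W] :
    ∃ Wt : Submodule (kV O) ↥(redField O F h), (Wt : Set _) = redSetF O h W ∧
      Module.finrank (kV O) Wt = Module.finrank C W ∧ Module.Finite (kV O) Wt := by
  obtain ⟨e, he⟩ := exists_isOrthonormalF O hF h W
  refine ⟨Submodule.span (kV O) (Set.range fun i => gaussResF' O h (e i)),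
    (he.redSetF_eq O).symm, ?_, ?_⟩
  · rw [finrank_span_eq_card he.indep, Fintype.card_fin]
  · exact FiniteDimensional.span_of_finite _ (Set.finite_range _)

end Fermat.Agent.RED.H42
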