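import Fermat.Agent.RED.Core
import Fermat.Agent.RED.H42_Lat3
import Fermat.Prelude.Def_AlgebraicCurve_BaseChangeGalois
import Fermat.Prelude.Def_ModularCurve_HeckeOperator
import Fermat.Prelude.Def_EllipticCurve_FrobeniusTrace

/-!
# G-RED, v5 interfaces (helper36): LIFT, MOVE, UNIQ, EQ, NDESC, ES-3, RM

Plan: `NOTES/plan/G_RED.md`, section v5.  Setting as in `RED/Core.lean`: `C` a field, `O` a
valuation subring of `C`, `F ⊆ C((q))` with `h : HasScale O F`; `V = gaussValSub O F h`,
`res = gaussResF' O h : V → F~ = redField O F h`, `k = kV O`.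

* `HasLift O h r` : for `deg D` large, `res (L(D) ∩ V) = L~(r_* D)`.
* `HasMove O h r` : **moving lemma**: for a place `P` and a finite set `S` of places of `F~` there
  is a Gauss unit `f` with `div f = W - n P`, `n ≥ 1`, `W ≥ 0`, `r (supp W) ∩ (S ∪ {r P}) = ∅`.
* `HasRM O h` : there is `r` with the conservation law and the moving lemma.
* `Stmt_LIFT`, `Stmt_MOVE` : abstract, from `IsRed + GenusLE` (+ LAT of helper42, Riemann).
* `Stmt_UNIQ` : the conservation law determines `r` (NO genus hypothesis).
* `Stmt_EQabs` : `r` commutes with compatible pairs of semilinear automorphisms.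
* `Stmt_NDESC` : **norm descent**: if `F ⊆ F'`, `[F' : F] = [F~' : F~]` and `F'` has a Deuring
  datum, then `F` has `r` with the conservation law and the moving lemma.
* `Stmt_DR2` : the Deuring datum at the tame levels (`ℓ ≥ 5`; `ℓ = 3, 2 ∣ M`; `ℓ = 2, 3 ∣ M`).
* `Stmt_RM` : `HasRM` at every level `N` prime to `ℓ`.
* `Stmt_EQ` : equivariance of `r` under the decomposition group.
* `Stmt_ES3` : Eichler–Shimura on divisors: `r_* T_ℓ = (φ + ℓ φ⁻¹) r_*`.
This file contains no `sorry`.
-/

set_option autoImplicit false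
set_option synthInstance.maxHeartbeats 400000
set_option maxHeartbeats 1000000

noncomputable section

open AlgebraicCurve ModularCurve Fermat.Agent.S28.H73 Fermat.Agent.RED.H73

namespace Fermat.Agent.RED

section Abstract

variable {C : Type} [Field C] (O : ValuationSubring C)
variable {F : IntermediateField C (LaurentSeries C)} (h : HasScale O F)

/-- **LIFT**: for `deg D` large every element of `L~(r_* D)` is the reduction of an element of
`L(D) ∩ V`. -/
def HasLift (r : Place C ↥F → Place (kV O) ↥(redField O F h)) : Prop :=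
  ∃ c : ℤ, ∀ D : Divisor C ↥F, c ≤ Divisor.degree D →
    ∀ y : ↥(redField O F h), y ∈ riemannRochSpace (Finsupp.mapDomain r D) →
      ∃ f : ↥(gaussValSub O F h), (f : ↥F) ∈ riemannRochSpace D ∧ gaussResF' O h f = y

/-- **MOVE** (moving lemma with control of the reduction): for every place `P` and every finite
set `S` of places of the reduced field there is a Gauss unit `f` with a pole of order `n ≥ 1` at
`P`, no other pole, and whose zeros reduce outside `S ∪ {r P}`. -/
def HasMove (r : Place C ↥F → Place (kV O) ↥(redField O F h)) : Prop :=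
  ∀ (P : Place C ↥F) (S : Finset (Place (kV O) ↥(redField O F h))),
    ∃ (n : ℕ) (f : ↥(gaussValSub O F h)), 0 < n ∧ IsUnit f ∧ P.ord (f : ↥F) = -(n : ℤ) ∧
      ∀ P' : Place C ↥F, P' ≠ P →
        0 ≤ P'.ord (f : ↥F) ∧ (0 < P'.ord (f : ↥F) → r P' ∉ S ∧ r P' ≠ r P)

/-- A reduction map with the conservation law and the moving lemma. -/
def HasRM : Prop :=
  ∃ r : Place C ↥F → Place (kV O) ↥(redField O F h), IsRed O h r ∧ HasMove O h r

end Abstract

/-- **Package LIFT** (abstract): `IsRed + GenusLE ⇒ HasLift`.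
Proof: `W = L(D)`, `Wt = res (W ∩ V)` has `dim Wt = dim W` (`H42.exists_redSubF`),
`Wt ⊆ L~(r_* D)` (`IsRed`), `dim L~(r_* D) ≤ dim L(D)` (`GenusLE`). -/
def Stmt_LIFT : Prop :=
  ∀ (C : Type) [Field C] [IsAlgClosed C] (O : ValuationSubring C) [IsAlgClosed (kV O)]
    (F : IntermediateField C (LaurentSeries C)) (h : HasScale O F),
    H42.FracScalable O F → IsFF C ↥F → IsFF (kV O) ↥(redField O F h) →
    ∀ r : Place C ↥F → Place (kV O) ↥(redField O F h),
      IsRed O h r → GenusLE O h r → HasLift O h r

/-- **Package MOVE** (abstract): `IsRed + HasLift ⇒ HasMove`.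
Proof: for `n` large choose `y ∈ L~(n · r P)` with pole order exactly `n` at `r P` and no zero
in `S` (a vector space over an infinite field is not a finite union of proper subspaces), lift it
to `f ∈ L(n P) ∩ V`; `r_* (div f) = div y` forces `ord_P f = -n` and the zeros of `f` reduce to
zeros of `y`. -/
def Stmt_MOVE : Prop :=
  ∀ (C : Type) [Field C] [IsAlgClosed C] (O : ValuationSubring C) [IsAlgClosed (kV O)]
    (F : IntermediateField C (LaurentSeries C)) (h : HasScale O F),
    IsFF C ↥F → IsFF (kV O) ↥(redField O F h) →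
    ∀ r : Place C ↥F → Place (kV O) ↥(redField O F h),
      IsRed O h r → HasLift O h r → HasMove O h r

/-- **Package UNIQ** (abstract): the conservation law determines the reduction map.
Proof: `res (L(nP) ∩ V) ⊆ L~(n · r P) ∩ L~(n · r' P)`, of dimension `n + 1 - g` (LAT + Riemann);
if `r P ≠ r' P` the intersection is `L~(0) = k`. -/
def Stmt_UNIQ : Prop :=
  ∀ (C : Type) [Field C] [IsAlgClosed C] (O : ValuationSubring C) [IsAlgClosed (kV O)]
    (F : IntermediateField C (LaurentSeries C)) (h : HasScale O F),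
    H42.FracScalable O F → IsFF C ↥F → IsFF (kV O) ↥(redField O F h) →
    ∀ r r' : Place C ↥F → Place (kV O) ↥(redField O F h),
      IsRed O h r → IsRed O h r' → r = r'

/-- **Package EQ-abs** (abstract): the reduction map commutes with every pair `(g, gt)` of
semilinear automorphisms of `F` and of `F~` which is compatible with the reduction. -/
def Stmt_EQabs : Prop :=
  ∀ (C : Type) [Field C] [IsAlgClosed C] (O : ValuationSubring C) [IsAlgClosed (kV O)]
    (F : IntermediateField C (LaurentSeries C)) (h : HasScale O F),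
    H42.FracScalable O F → IsFF C ↥F → IsFF (kV O) ↥(redField O F h) →
    ∀ (g : SemilinearAut C ↥F) (gt : SemilinearAut (kV O) ↥(redField O F h)),
      (∀ (f : ↥(gaussValSub O F h)),
        ∃ hf : g • (f : ↥F) ∈ gaussValSub O F h,
          gaussResF' O h ⟨g • (f : ↥F), hf⟩ = gt • gaussResF' O h f) →
      ∀ r : Place C ↥F → Place (kV O) ↥(redField O F h), IsRed O h r →
        ∀ P : Place C ↥F, r (g • P) = gt • r P

/-- **Package NDESC** (abstract norm descent): `F ⊆ F'` with `[F' : F] = [F~' : F~]` finite; a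
Deuring datum on `F'` gives a reduction map on `F` with the conservation law and the moving
lemma. -/
def Stmt_NDESC : Prop :=
  ∀ (C : Type) [Field C] [IsAlgClosed C] [CharZero C] (O : ValuationSubring C)
    [IsAlgClosed (kV O)] (F F' : IntermediateField C (LaurentSeries C)) (_ : F ≤ F')
    (h : HasScale O F) (h' : HasScale O F'),
    H42.FracScalable O F' → IsFF C ↥F → IsFF C ↥F' →
    IsFF (kV O) ↥(redField O F h) → IsFF (kV O) ↥(redField O F' h') →
    F.relfinrank F' = (redField O F h).relfinrank (redField O F' h') →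
    HasDR O h' → HasRM O h

section Modular

/-- **Package DR2** (supersedes `Stmt_DR`): the Deuring datum at the levels with a tame chart:
`ℓ ≥ 5` (chart `j`), `ℓ = 3` and `2 ∣ M` (chart `h₂ = Δ(q)/Δ(q²)`), `ℓ = 2` and `3 ∣ M`
(chart `h₃ = q⁻¹ ∏ ((1 - qⁿ)/(1 - q³ⁿ))¹²`). -/
def Stmt_DR2 : Prop :=
  ∀ (M ℓ : ℕ) [NeZero M], ℓ.Prime → ¬ ℓ ∣ M → (5 ≤ ℓ ∨ (ℓ = 3 ∧ 2 ∣ M) ∨ (ℓ = 2 ∧ 3 ∣ M)) →
    ∀ A : ValuationSubring (AlgebraicClosure ℚ), A.LiesOverPrime ℓ →
      HasDR A (hasScale_laurentBaseChange A M)

/-- `DR2` implies `DR`. -/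
theorem stmt_DR_of_DR2 (H : Stmt_DR2) : Stmt_DR := by
  intro M ℓ _ hℓ hM hcase A hA
  refine H M ℓ hℓ hM ?_ A hA
  by_cases h5 : 5 ≤ ℓ
  · exact Or.inl h5
  right
  have hℓ2 : 2 ≤ ℓ := hℓ.two_le
  have h23 : ℓ = 2 ∨ ℓ = 3 ∨ ℓ = 4 := by omega
  rcases h23 with rfl | rfl | rfl
  · right
    refine ⟨rfl, ?_⟩
    rcases hcase with h | h | h
    · omega
    · exact absurd (Dvd.dvd.trans (by norm_num) h) hM
    · exact Dvd.dvd.trans (by norm_num) h
  · left
    refine ⟨rfl, ?_⟩
    rcases hcase with h | h | h
    · omega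
    · exact Dvd.dvd.trans (by norm_num) h
    · exact absurd (Dvd.dvd.trans (by norm_num) h) hM
  · exact absurd hℓ (by decide)

/-- **Package RM**: at every level `N` prime to `ℓ` there is a reduction map with the
conservation law and the moving lemma. -/
def Stmt_RM : Prop :=
  ∀ (N ℓ : ℕ) [NeZero N], ℓ.Prime → ¬ ℓ ∣ N →
    ∀ A : ValuationSubring (AlgebraicClosure ℚ), A.LiesOverPrime ℓ →
      HasRM A (hasScale_laurentBaseChange A N)

/-- **Package EQ**: the reduction map is equivariant under the decomposition group of `A`: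
for `σ` in it there is a semilinear automorphism `gt` of the reduced field, acting on the
coefficients by the residual action of `σ`, with `r (σ P) = gt (r P)`. -/
def Stmt_EQ : Prop :=
  ∀ (N ℓ : ℕ) [NeZero N], ℓ.Prime → ¬ ℓ ∣ N →
    ∀ A : ValuationSubring (AlgebraicClosure ℚ), A.LiesOverPrime ℓ →
    ∀ r : Place (AlgebraicClosure ℚ) ↥(modularFunctionFieldBar N) →
        Place (kV A) ↥(redField A (modularFunctionFieldBar N) (hasScale_laurentBaseChange A N)),
      IsRed A (hasScale_laurentBaseChange A N) r →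
    ∀ (σ : AlgebraicClosure ℚ ≃ₐ[ℚ] AlgebraicClosure ℚ) (hσ : σ ∈ A.decompositionSubgroup ℚ),
      ∃ gt : SemilinearAut (kV A)
          ↥(redField A (modularFunctionFieldBar N) (hasScale_laurentBaseChange A N)),
        (∀ (x : ↥(redField A (modularFunctionFieldBar N) (hasScale_laurentBaseChange A N)))
            (n : ℤ),
          ((gt • x : ↥(redField A (modularFunctionFieldBar N)
              (hasScale_laurentBaseChange A N))) : LaurentSeries (kV A)).coeff n
            = (⟨σ, hσ⟩ : A.decompositionSubgroup ℚ) • (x : LaurentSeries (kV A)).coeff n) ∧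
        ∀ P : Place (AlgebraicClosure ℚ) ↥(modularFunctionFieldBar N),
          r (arithmeticGalois (modularFunctionFieldFull N) σ • P) = gt • r P

/-- **Package ES-3** (Eichler–Shimura on divisors): for a reduction map `r` with the conservation
law and the moving lemma, and `φ` the coefficientwise Frobenius of the reduced field,
`r_* (T_ℓ D) = φ (r_* D) + ℓ φ⁻¹ (r_* D)`. -/
def Stmt_ES3 : Prop :=
  ∀ (N ℓ : ℕ) [NeZero N] [NeZero ℓ], ℓ.Prime → ¬ ℓ ∣ N →
    ∀ A : ValuationSubring (AlgebraicClosure ℚ), A.LiesOverPrime ℓ →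
    ∀ (hα : HeckeAlphaBarIntegral (AlgebraicClosure ℚ) N ℓ)
      (hβ : HeckeBetaBarIntegral (AlgebraicClosure ℚ) N ℓ)
      [HasPrincipalDivisors (AlgebraicClosure ℚ) ↥(modularFunctionFieldBar (N * ℓ))],
    ∀ r : Place (AlgebraicClosure ℚ) ↥(modularFunctionFieldBar N) →
        Place (kV A) ↥(redField A (modularFunctionFieldBar N) (hasScale_laurentBaseChange A N)),
      IsRed A (hasScale_laurentBaseChange A N) r →
      HasMove A (hasScale_laurentBaseChange A N) r →
    ∀ φ : SemilinearAut (kV A)
        ↥(redField A (modularFunctionFieldBar N) (hasScale_laurentBaseChange A N)),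
      (∀ (x : ↥(redField A (modularFunctionFieldBar N) (hasScale_laurentBaseChange A N)))
          (n : ℤ),
        ((φ • x : ↥(redField A (modularFunctionFieldBar N)
            (hasScale_laurentBaseChange A N))) : LaurentSeries (kV A)).coeff n
          = ((x : LaurentSeries (kV A)).coeff n) ^ ℓ) →
    ∀ D : Divisor (AlgebraicClosure ℚ) ↥(modularFunctionFieldBar N),
      Finsupp.mapDomain r (heckeDivBar hα hβ D)
        = φ • Finsupp.mapDomain r D + ℓ • (φ⁻¹ • Finsupp.mapDomain r D)

end Modular

end Fermat.Agent.RED
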