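import Fermat.Agent.RED.H17_Key

/-!
# G-RED / TI route C (helper17), part 8: the Kummer form of torsion injectivity, abstract form

`RedSetup.ticore`: let `S : RedSetup K F k F'` be reduction data with the divisor identity, `F / K`
and `F' / k` function fields (FF-B, FF-R) such that the genus does not drop (`GenusLE'`), `K`
algebraically closed.  If `m` is invertible in `k`, `f ∈ V` has reduction `1` and all orders of
`f` are divisible by `m`, then `f` is an `m`-th power in `F`.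
-/

set_option autoImplicit false
set_option linter.style.haveILetI false
set_option maxHeartbeats 1000000

noncomputable section

open AlgebraicCurve

attribute [local instance] Classical.propDecidable

namespace Fermat.Agent.RED.H17

local notation "L" => riemannRochSpace

/-- Push-forward along a section. -/
theorem mapDomain_section_apply {α β : Type*} {r : α → β} {σ : β → α}
    (hσ : ∀ b, r (σ b) = b) (D : β →₀ ℤ) (a : α) :
    Finsupp.mapDomain σ D a = if a = σ (r a) then D (r a) else 0 := by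
  have hinj : Function.Injective σ := fun x y hxy => by rw [← hσ x, ← hσ y, hxy]
  split_ifs with h
  · rw [h, Finsupp.mapDomain_apply hinj, hσ]
  · apply Finsupp.mapDomain_of_notMem_range
    rintro ⟨b, rfl⟩
    exact h (by rw [hσ])

namespace RedSetup

variable {K F k F' : Type*} [Field K] [Field F] [Algebra K F] [Field k] [Field F']
  [Algebra k F'] (S : RedSetup K F k F')

/-- The genus does not rise either. -/
theorem genus_le (H : FFHyp K F) (H' : FFHyp k F') [Infinite k] {g : ℕ} {c : ℤ}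
    (hR : IsGenus K F g c) {g' : ℕ} {c' : ℤ} (hR' : IsGenus k F' g' c') (hG : S.GenusLE') :
    g ≤ g' := by
  obtain ⟨Q₀, -⟩ := H'.exists_notMem ∅
  obtain ⟨P₀, -⟩ := S.r_surjective H.principal Q₀
  obtain ⟨cG, hcG⟩ := hG
  set N : ℕ := (max c cG).toNat with hN
  set D : Divisor K F := Finsupp.single P₀ (N : ℤ) with hD
  have hdeg : Divisor.degree D = N := by
    rw [hD, Divisor.degree_single, H.deg_one, Nat.cast_one, mul_one]
  have h1 := (hR D).2 (by rw [hdeg]; omega)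
  have h2 := hcG D (by rw [hdeg]; omega)
  have h3 := (hR' (Finsupp.mapDomain S.r D)).1
  rw [degree_mapDomain H.deg_one H'.deg_one] at h3
  rw [hdeg] at h1 h3
  have h4 : (Module.finrank k (L (Finsupp.mapDomain S.r D)) : ℤ)
      ≤ Module.finrank K (L D) := by exact_mod_cast h2
  omega

/-- **Kummer form of torsion injectivity** for reduction data with the divisor identity. -/
theorem ticore (H : FFHyp K F) (H' : FFHyp k F') [IsAlgClosed K] [Infinite k] {g : ℕ} {c : ℤ}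
    (hR : IsGenus K F g c) {g' : ℕ} {c' : ℤ} (hR' : IsGenus k F' g' c') (hG : S.GenusLE')
    (m : ℕ) (hm : (m : k) ≠ 0) (f : F) (hf : f ∈ S.V) (hf1 : S.rd f = 1)
    (hdiv : ∀ P : Place K F, (m : ℤ) ∣ P.ord f) : ∃ t : F, t ^ m = f := by
  have hP := H.principal
  have hP' := H'.principal
  have hm0 : m ≠ 0 := by
    rintro rfl
    exact hm Nat.cast_zero
  have hmZ : (m : ℤ) ≠ 0 := by exact_mod_cast hm0
  have hgg : g ≤ g' := S.genus_le H H' hR hR' hG
  have hfGU : S.IsGU f := ⟨hf, by rw [hf1]; exact one_ne_zero⟩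
  -- the non-special divisor and the place at infinity
  obtain ⟨A, hAcard, hA⟩ := H'.exists_nonspecial hR'
  obtain ⟨Qinf, hQinf⟩ := H'.exists_notMem A
  obtain ⟨Pinf, hPinf⟩ := S.r_surjective hP Qinf
  -- the coordinates
  have hsex : ∀ Q, ∃ s : F, Q ∈ A → S.IsCoord s Q ∧ (∀ P, S.r P ∈ A → 0 ≤ P.ord s) ∧
      ∀ Q' ∈ A, Q' ≠ Q → Q'.ord (S.rd s) = 0 := by
    intro Q
    by_cases hQ : Q ∈ A
    · obtain ⟨sb, hsb0, hsb⟩ := H51.exists_ord_eq_family A (fun v => if v = Q then 1 else 0)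
      obtain ⟨s, hsV, hsrd, hsreg⟩ := S.exists_good_lift H H' hG sb A (fun v hv => by
        rw [hsb v hv]; split_ifs <;> omega)
      refine ⟨s, fun _ => ⟨⟨⟨hsV, by rw [hsrd]; exact hsb0⟩, fun P hPQ =>
        hsreg P (by rw [hPQ]; exact hQ), by rw [hsrd, hsb Q hQ, if_pos rfl]⟩, hsreg, ?_⟩⟩
      intro Q' hQ' hne
      rw [hsrd, hsb Q' hQ', if_neg hne]
    · exact ⟨0, fun h => absurd h hQ⟩
  choose s hs using hsex
  have hsC : ∀ Q ∈ A, S.IsCoord (s Q) Q := fun Q hQ => (hs Q hQ).1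
  have hsreg : ∀ Q ∈ A, ∀ P, S.r P ∈ A → 0 ≤ P.ord (s Q) := fun Q hQ => (hs Q hQ).2.1
  have hs0 : ∀ Q ∈ A, ∀ Q' ∈ A, Q' ≠ Q → Q'.ord (S.rd (s Q)) = 0 := fun Q hQ Q' hQ' hne =>
    (hs Q hQ).2.2 Q' hQ' hne
  -- the section `Y`
  have hYex : ∀ Q, ∃ Y, S.r Y = Q ∧ (Q ∈ A → Y.ord (s Q) = 1 ∧
      ∀ P, S.r P = Q → P ≠ Y → P.ord (s Q) = 0) := by
    intro Q
    by_cases hQ : Q ∈ A
    · obtain ⟨Y, h1, h2, h3⟩ := (hsC Q hQ).exists_zero hP
      exact ⟨Y, h1, fun _ => ⟨h2, h3⟩⟩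
    · obtain ⟨Y, h1⟩ := S.r_surjective hP Q
      exact ⟨Y, h1, fun h => absurd h hQ⟩
  choose Y hY using hYex
  have hrY : ∀ Q, S.r (Y Q) = Q := fun Q => (hY Q).1
  -- the divisor `E'`
  set E' : Divisor K F := Finsupp.mapDomain Y (ptsDiv A) with hE'
  have hE'a : ∀ P, E' P = if P = Y (S.r P) then ptsDiv A (S.r P) else 0 := fun P =>
    mapDomain_section_apply hrY (ptsDiv A) P
  have hrE' : Finsupp.mapDomain S.r E' = ptsDiv A := by
    rw [hE', ← Finsupp.mapDomain_comp]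
    have : S.r ∘ Y = id := funext hrY
    rw [this, Finsupp.mapDomain_id]
  have hdegE' : Divisor.degree E' = g' := by
    rw [← degree_mapDomain H.deg_one H'.deg_one S.r E', hrE', degree_ptsDiv H'.deg_one, hAcard]
  -- the divisor `D₀ = (1/m) div f`
  set D₀ : Divisor K F := (dv hP f).mapRange (fun n : ℤ => n / (m : ℤ)) (by simp) with hD₀
  have hD₀a : ∀ P, (m : ℤ) * D₀ P = P.ord f := by
    intro P
    rw [hD₀, Finsupp.mapRange_apply, dv_apply]
    exact Int.mul_ediv_cancel' (hdiv P)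
  have hmD₀ : (m : ℤ) • D₀ = dv hP f := by
    ext P
    rw [Finsupp.smul_apply, smul_eq_mul, hD₀a, dv_apply]
  have hdegD₀ : Divisor.degree D₀ = 0 := by
    have h1 : Divisor.degree ((m : ℤ) • D₀) = 0 := by rw [hmD₀, degree_dv]
    rw [map_zsmul, smul_eq_mul] at h1
    exact (mul_eq_zero.mp h1).resolve_left hmZ
  have hrD₀ : Finsupp.mapDomain S.r D₀ = 0 := by
    have h1 : (m : ℤ) • Finsupp.mapDomain S.r D₀ = 0 := by
      rw [← Finsupp.mapDomain_smul, hmD₀]
      ext Q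
      rw [S.mapDomain_dv hP hfGU, hf1, Place.ord_one]
      rfl
    exact (smul_eq_zero.mp h1).resolve_left hmZ
  -- the function `u`
  have hex : ∃ u₀ : F, u₀ ∈ L (D₀ + E') ∧ u₀ ≠ 0 := by
    have h1 := (hR (D₀ + E')).1
    rw [map_add, hdegD₀, hdegE'] at h1
    have h2 : L (D₀ + E') ≠ ⊥ := by
      intro hbot
      rw [hbot, finrank_bot] at h1
      push_cast at h1
      omega
    exact (Submodule.ne_bot_iff _).mp h2
  obtain ⟨u₀, hu₀, hu₀0⟩ := hex
  obtain ⟨c₁, hc₁, huGU⟩ := S.exists_isGU_scale hu₀0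
  set u : F := algebraMap K F c₁ * u₀ with hu
  have huL : u ∈ L (D₀ + E') := by
    rw [hu, ← Algebra.smul_def]
    exact (L (D₀ + E')).smul_mem c₁ hu₀
  -- the divisor `E`
  set E : Divisor K F := dv hP u + D₀ + E' with hE
  have hEa : ∀ P, E P = P.ord u + D₀ P + E' P := fun P => by
    rw [hE, Finsupp.add_apply, Finsupp.add_apply, dv_apply]
  have hEnn : ∀ P, 0 ≤ E P := by
    intro P
    have := ord_ge_of_mem_L huL huGU.ne_zero P
    rw [Finsupp.add_apply] at this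
    rw [hEa]
    omega
  have hrE : ∀ Q, Finsupp.mapDomain S.r E Q = Q.ord (S.rd u) + ptsDiv A Q := by
    intro Q
    rw [hE, Finsupp.mapDomain_add, Finsupp.mapDomain_add, hrD₀, hrE', Finsupp.add_apply,
      Finsupp.add_apply, S.mapDomain_dv hP huGU]
    simp
  have hruL : S.rd u ∈ L (ptsDiv A) := by
    rw [mem_L_iff_ord]
    intro Q
    right
    have := mapDomain_nonneg' S.r hEnn Q
    rw [hrE] at this
    omega
  obtain ⟨cu, hcu⟩ := hA _ hruL
  have hcu0 : cu ≠ 0 := by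
    rintro rfl
    rw [map_zero] at hcu
    exact huGU.2 hcu
  have hrE2 : ∀ Q, Finsupp.mapDomain S.r E Q = ptsDiv A Q := by
    intro Q
    rw [hrE, hcu, ord_algebraMap, zero_add]
  -- the points `X`
  have hXex : ∀ Q, ∃ X, Q ∈ A → S.r X = Q ∧ E X = 1 ∧ ∀ P, S.r P = Q → P ≠ X → E P = 0 := by
    intro Q
    by_cases hQ : Q ∈ A
    · obtain ⟨X, h1, h2, h3⟩ := fibre_one S.r hEnn (b := Q) (by
        rw [hrE2, ptsDiv_apply, if_pos hQ])
      exact ⟨X, fun _ => ⟨h1, h2, h3⟩⟩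
    · exact ⟨Pinf, fun h => absurd h hQ⟩
  choose X hX using hXex
  have hE0 : ∀ P, S.r P ∉ A → E P = 0 := by
    intro P hPA
    exact fibre_zero S.r hEnn (b := S.r P) (by rw [hrE2, ptsDiv_apply, if_neg hPA]) rfl
  have hE'0 : ∀ P, S.r P ∉ A → E' P = 0 := by
    intro P hPA
    rw [hE'a, ptsDiv_apply, if_neg hPA]
    split_ifs <;> rfl
  -- the values `a`
  have haex : ∀ Q, ∃ a : K, Q ∈ A → algebraMap K F a ∈ S.V ∧ S.rd (algebraMap K F a) = 0 ∧
      VanAt (X Q) (s Q - algebraMap K F a) := by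
    intro Q
    by_cases hQ : Q ∈ A
    · obtain ⟨a, h1, h2, h3⟩ := (hsC Q hQ).exists_value hP H.deg_one (hX Q hQ).1
      exact ⟨a, fun _ => ⟨h1, h2, h3⟩⟩
    · exact ⟨0, fun h => absurd h hQ⟩
  choose a ha using haex
  -- the function `f₀ = f u ^ m`
  set f₀ : F := f * u ^ m with hf₀
  have hf₀GU : S.IsGU f₀ := hfGU.mul (huGU.pow m)
  have hf₀rd : S.rd f₀ = algebraMap k F' (cu ^ m) := by
    rw [hf₀, S.rd_mul hf (huGU.pow m).1, hf1, one_mul, S.rd_pow huGU.1, hcu, map_pow]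
  have hf₀ord : ∀ P, P.ord f₀ = m * (E P - E' P) := by
    intro P
    rw [hf₀, P.ord_mul hfGU.ne_zero (pow_ne_zero _ huGU.ne_zero), ord_pow, ← hD₀a, hEa]
    ring
  have hf₀ord0 : ∀ P, S.r P ∉ A → P.ord f₀ = 0 := by
    intro P hPA
    rw [hf₀ord, hE0 P hPA, hE'0 P hPA]
    simp
  -- the value of `f₀` at infinity
  have hPinfA : S.r Pinf ∉ A := by rw [hPinf]; exact hQinf
  obtain ⟨e₀, he₀⟩ := exists_value Pinf (H.deg_one Pinf)
    (regAt_of_ord_nonneg (le_of_eq (hf₀ord0 Pinf hPinfA).symm))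
  obtain ⟨he₀V, he₀rd⟩ := S.const_of_vanAt_of_rd_const hP hf₀GU.1 (Q := S.r Pinf)
    (fun P hPQ => le_of_eq (hf₀ord0 P (by rw [hPQ]; exact hPinfA)).symm) rfl he₀ hf₀rd
  have he₀GU : S.IsGU (algebraMap K F e₀) := ⟨he₀V, by rw [he₀rd]; exact hf₀GU.2⟩
  have he₀0 : e₀ ≠ 0 := by
    rintro rfl
    rw [map_zero] at he₀GU
    exact he₀GU.ne_zero rfl
  set f₁ : F := f₀ / algebraMap K F e₀ with hf₁
  have hf₁GU : S.IsGU f₁ := hf₀GU.div he₀GU
  have hf₁rd : S.rd f₁ = 1 := by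
    rw [hf₁, hf₀GU.rd_div he₀GU, he₀rd, div_self hf₀GU.2]
  have hf₁ord : ∀ P, P.ord f₁ = m * (E P - E' P) := by
    intro P
    rw [hf₁, ord_div P hf₀GU.ne_zero he₀GU.ne_zero, ord_algebraMap, sub_zero, hf₀ord]
  have hf₁inf : VanAt Pinf (f₁ - 1) := by
    have : f₁ - 1 = (f₀ - algebraMap K F e₀) * algebraMap K F e₀⁻¹ := by
      rw [hf₁, map_inv₀]
      field_simp [he₀GU.ne_zero]
    rw [this]
    exact he₀.mul_regAt (regAt_algebraMap Pinf _)
  -- the key lemma
  have hkey : f₁ = 1 := by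
    refine S.key H A hA s hsC hsreg hs0 m hm f₁ hf₁GU.1 hf₁rd Pinf hPinfA hf₁inf a
      (fun Q hQ => ⟨(ha Q hQ).1, (ha Q hQ).2.1⟩) ?_ ?_
    · intro P hPA
      rw [hf₁ord, hE0 P hPA, hE'0 P hPA]
      simp
    · intro Q hQ P hPQ
      have h1 : P.ord (s Q - algebraMap K F (a Q)) = if P = X Q then 1 else 0 :=
        (hsC Q hQ).ord_sub_eq hP (ha Q hQ).1 (ha Q hQ).2.1 (hX Q hQ).1 (ha Q hQ).2.2 hPQ
      have h2 : E P = if P = X Q then 1 else 0 := by
        split_ifs with hPX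
        · rw [hPX]; exact (hX Q hQ).2.1
        · exact (hX Q hQ).2.2 P hPQ hPX
      have h3 : P.ord (s Q) = if P = Y Q then 1 else 0 := by
        split_ifs with hPY
        · rw [hPY]; exact ((hY Q).2 hQ).1
        · exact ((hY Q).2 hQ).2 P hPQ hPY
      have h4 : E' P = if P = Y Q then 1 else 0 := by
        rw [hE'a, hPQ, ptsDiv_apply, if_pos hQ]
      rw [hf₁ord, h1, h2, h3, h4]
  -- conclusion
  obtain ⟨t₀, ht₀⟩ := IsAlgClosed.exists_pow_nat_eq e₀ (Nat.pos_of_ne_zero hm0)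
  refine ⟨algebraMap K F t₀ * u⁻¹, ?_⟩
  have h1 : f₀ = algebraMap K F e₀ := by
    have := hkey
    rw [hf₁, div_eq_one_iff_eq he₀GU.ne_zero] at this
    exact this
  have hum : u ^ m ≠ 0 := pow_ne_zero _ huGU.ne_zero
  rw [mul_pow, ← map_pow, ht₀, ← h1, hf₀, inv_pow, mul_assoc, mul_inv_cancel₀ hum, mul_one]

end RedSetup

end Fermat.Agent.RED.H17
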