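import Fermat.Agent.RED.Core
import Fermat.Agent.RED.H17_Main

/-!
# G-RED package TI-abs (helper17, route C): `Stmt_TIabs`

A Deuring reduction datum (`HasDR`: the reduced field is a function field, and there is a map `r`
of places with the conservation law `IsRed` such that the genus does not drop, `GenusLE`) gives
the Kummer form of torsion injectivity `TIcoreFor`.

Proof: `Fermat.Agent.RED.H17.RedSetup.ticore` (non-special divisor, coordinates on residue
discs, first order congruence), applied to the reduction data of the Gauss valuation.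
-/

set_option autoImplicit false
set_option linter.style.haveILetI false
set_option synthInstance.maxHeartbeats 400000
set_option maxHeartbeats 1000000

noncomputable section

open AlgebraicCurve ModularCurve Fermat.Agent.S28.H73 Fermat.Agent.RED.H73

namespace Fermat.Agent.RED.H17

section Bridge

variable {C : Type} [Field C] (O : ValuationSubring C)
variable {F : IntermediateField C (LaurentSeries C)} (h : HasScale O F)

theorem gaussResF'_eq_zero_iff (x : ↥(gaussValSub O F h)) :
    gaussResF' O h x = 0 ↔ x ∈ IsLocalRing.maximalIdeal ↥(gaussValSub O F h) := by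
  rw [← ker_gaussResF' O h, RingHom.mem_ker]

theorem gaussResF'_ne_zero_iff_isUnit (x : ↥(gaussValSub O F h)) :
    gaussResF' O h x ≠ 0 ↔ IsUnit x := by
  rw [Ne, gaussResF'_eq_zero_iff, IsLocalRing.mem_maximalIdeal, mem_nonunits_iff, not_not]

theorem gaussResF'_algebraMap (a : ↥O)
    (hm : algebraMap C F (a : C) ∈ gaussValSub O F h) :
    gaussResF' O h ⟨algebraMap C F (a : C), hm⟩ =
      algebraMap (kV O) ↥(redField O F h) (resV O a) := by
  apply Subtype.ext
  rw [coe_algebraMap_F]
  exact gaussResF_algebraMap O h a hm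

/-- The reduction data of a map of places with the conservation law. -/
def redSetupOf (r : Place C ↥F → Place (kV O) ↥(redField O F h)) (hr : IsRed O h r) :
    RedSetup C ↥F (kV O) ↥(redField O F h) where
  V := gaussValSub O F h
  red := gaussResF' O h
  red_eq_zero_iff := gaussResF'_eq_zero_iff O h
  red_surj := gaussResF'_surjective O h
  exists_scale := by
    intro f hf
    obtain ⟨c, u, hc, hfu⟩ := exists_unit_scale O h f hf
    refine ⟨c⁻¹, inv_ne_zero hc, ?_⟩
    have e : algebraMap C F c⁻¹ * f = ((u : ↥(gaussValSub O F h)) : F) := by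
      rw [hfu, ← mul_assoc, ← map_mul, inv_mul_cancel₀ hc, map_one, one_mul]
    have hmem : algebraMap C F c⁻¹ * f ∈ gaussValSub O F h := e ▸ (u : ↥(gaussValSub O F h)).2
    refine ⟨hmem, ?_⟩
    have e2 : (⟨_, hmem⟩ : ↥(gaussValSub O F h)) = u := Subtype.ext e
    rw [e2]
    exact (gaussResF'_ne_zero_iff_isUnit O h _).mpr u.isUnit
  red_const := by
    intro c hmem
    have hc : c ∈ O := (algebraMap_mem_gaussValSub_iff O h c).mp hmem
    exact ⟨resV O ⟨c, hc⟩, gaussResF'_algebraMap O h ⟨c, hc⟩ hmem⟩
  const_surj := by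
    intro c'
    obtain ⟨a, rfl⟩ := IsLocalRing.residue_surjective c'
    have hmem : algebraMap C F (a : C) ∈ gaussValSub O F h :=
      (algebraMap_mem_gaussValSub_iff O h _).mpr a.2
    exact ⟨(a : C), hmem, gaussResF'_algebraMap O h a hmem⟩
  r := r
  DI := fun u hu D hD Q => hr u ((gaussResF'_ne_zero_iff_isUnit O h u).mp hu) D hD Q

end Bridge

/-- The hypotheses on a function field, from the interface statements. -/
theorem ffHyp_of (h1 : Stmt_FFB_principal) (h2 : Stmt_FFB_deg) (h3 : Stmt_FFR_finite)
    (h4 : Stmt_FFR_le) (K F : Type) [Field K] [Field F] [Algebra K F] [IsAlgClosed K]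
    (hFF : IsFF K F) : FFHyp K F where
  principal := h1 K F hFF
  deg_one := h2 K F hFF
  finite := h3 K F hFF
  le := fun D => (h4 K F hFF D).2
  transc := by
    obtain ⟨x, hx, -⟩ := hFF
    exact ⟨x, hx⟩

/-- **Package TI-abs** (route C). -/
theorem stmt_TIabs : Stmt_TIabs := by
  intro h1 h2 h3 h4 h5 C _ _ O _ F h ℓ hℓ hℓ0 hFF hDR m hm f hf1 hdiv
  obtain ⟨hFF', r, hr, hG⟩ := hDR
  have H : FFHyp C ↥F := ffHyp_of h1 h2 h3 h4 C ↥F hFF
  have H' : FFHyp (kV O) ↥(redField O F h) := ffHyp_of h1 h2 h3 h4 _ _ hFF'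
  obtain ⟨g, c, hR⟩ := h5 C ↥F hFF
  obtain ⟨g', c', hR'⟩ := h5 (kV O) ↥(redField O F h) hFF'
  have hmk : (m : kV O) ≠ 0 := by
    intro h0
    have hcop : Nat.Coprime m ℓ :=
      Nat.Coprime.symm ((Nat.Prime.coprime_iff_not_dvd hℓ).mpr hm)
    obtain ⟨a, b, hab⟩ := Nat.isCoprime_iff_coprime.mpr hcop
    have := congrArg (Int.cast : ℤ → kV O) hab
    push_cast at this
    rw [h0, hℓ0, mul_zero, mul_zero, add_zero] at this
    exact zero_ne_one this
  set S := redSetupOf O h r hr with hS
  have hrd : S.rd (f : ↥F) = 1 := by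
    rw [S.rd_of_mem f.2]
    exact hf1
  exact S.ticore H H' hR hR' hG m hmk (f : ↥F) f.2 hrd hdiv

end Fermat.Agent.RED.H17
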