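import Mathlib
import Fermat.Agent.RED.H51_Approx

/-!
# FF-B, piece P3 (helper51): the core independence lemma

Let `w k` (`k : ι`, finite) be places of `F'` and `e k : ℕ`.  A *local basis* is a family
`y ⟨k, a⟩` (`a < e k`) of elements of `F'` with `w k (y ⟨k, a⟩) = a` and
`w j (y ⟨k, a⟩) ≥ e j` for `j ≠ k`.  It exists if the `w k` are pairwise distinct (weak
approximation).  If `E` is a subfield such that the orders of its elements at the `w j` are
`e j * m` for a common `m` (`Compat`), then a local basis is linearly independent over `E`, and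
the order of a linear combination is computed by its coefficients (`coords`).
-/

set_option autoImplicit false
set_option linter.style.haveILetI false

noncomputable section

open AlgebraicCurve

namespace Fermat.Agent.RED.H51

variable {K F' : Type*} [Field K] [Field F'] [Algebra K F']
variable {ι : Type*} [Fintype ι] (w : ι → Place K F') (e : ι → ℕ)

/-- A family of functions with prescribed orders at the places `w k`. -/
structure LocalBasis (y : (Σ k : ι, Fin (e k)) → F') : Prop where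
  ne_zero : ∀ i, y i ≠ 0
  ord_self : ∀ i, (w i.1).ord (y i) = ((i.2 : ℕ) : ℤ)
  ordGe_other : ∀ i j, j ≠ i.1 → OrdGe (w j) (e j) (y i)

/-- Local bases exist for pairwise distinct places. -/
theorem exists_localBasis (hw : Function.Injective w) :
    ∃ y : (Σ k : ι, Fin (e k)) → F', LocalBasis w e y := by
  classical
  have hex : ∀ i : (Σ k : ι, Fin (e k)), ∃ z : F', z ≠ 0 ∧
      (w i.1).ord z = ((i.2 : ℕ) : ℤ) ∧ ∀ j, j ≠ i.1 → OrdGe (w j) (e j) z := by
    intro i
    obtain ⟨t, ht0, ht⟩ := exists_ord_eq (w i.1) ((i.2 : ℕ) : ℤ)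
    set N : ℤ := ((i.2 : ℕ) : ℤ) + 1 + ∑ j, (e j : ℤ) with hN
    obtain ⟨z, hz⟩ := exists_approx_family w hw (fun j => if j = i.1 then t else 0) N
    have hsum : ∀ j, (e j : ℤ) ≤ ∑ j', (e j' : ℤ) := fun j =>
      Finset.single_le_sum (f := fun j' : ι => (e j' : ℤ))
        (fun _ _ => Int.natCast_nonneg _) (Finset.mem_univ j)
    have hpos : (0 : ℤ) ≤ ∑ j', (e j' : ℤ) :=
      Finset.sum_nonneg fun _ _ => Int.natCast_nonneg _
    have h1 := hz i.1
    rw [if_pos rfl] at h1
    have h2 := ord_add_eq (w i.1) ht0 (g := z - t) (h1.mono (by rw [ht]; omega))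
    rw [add_sub_cancel] at h2
    refine ⟨z, h2.1, h2.2.trans ht, fun j hj => ?_⟩
    have h3 := hz j
    rw [if_neg hj, sub_zero] at h3
    exact h3.mono (by have := hsum j; have := Int.natCast_nonneg (i.2 : ℕ); omega)
  choose y hy0 hy1 hy2 using hex
  exact ⟨y, ⟨hy0, hy1, hy2⟩⟩

variable {w e}

/-- The core computation: a combination of a local basis with coefficients that are either
units at all `w j` or divisible (order `≥ e j` at all `w j`), not all divisible, has order
`a < e k` at some `w k`; in particular it is not zero. -/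
theorem core {y : (Σ k : ι, Fin (e k)) → F'} (hy : LocalBasis w e y)
    (c : (Σ k : ι, Fin (e k)) → F')
    (hc : ∀ i, (c i ≠ 0 ∧ ∀ j, (w j).ord (c i) = 0) ∨ (∀ j, OrdGe (w j) (e j) (c i)))
    (hc1 : ∃ i, c i ≠ 0 ∧ ∀ j, (w j).ord (c i) = 0) :
    ∃ i : (Σ k : ι, Fin (e k)), (∑ i', c i' * y i') ≠ 0 ∧
      (w i.1).ord (∑ i', c i' * y i') = ((i.2 : ℕ) : ℤ) := by
  classical
  obtain ⟨⟨k, a₁⟩, ha₁⟩ := hc1
  -- the minimal `a` with `c ⟨k, a⟩` a unit
  let P : ℕ → Prop := fun a => ∃ h : a < e k, (c ⟨k, ⟨a, h⟩⟩ ≠ 0 ∧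
    ∀ j, (w j).ord (c ⟨k, ⟨a, h⟩⟩) = 0)
  have hP : ∃ a, P a := ⟨a₁, a₁.2, ha₁⟩
  obtain ⟨ha₀lt, ha₀⟩ := Nat.find_spec hP
  set a₀ : ℕ := Nat.find hP with ha₀def
  have hmin : ∀ b, b < a₀ → ¬ P b := fun b hb => Nat.find_min hP hb
  set i₀ : (Σ k : ι, Fin (e k)) := ⟨k, ⟨a₀, ha₀lt⟩⟩ with hi₀
  refine ⟨i₀, ?_⟩
  have hterm0 : c i₀ * y i₀ ≠ 0 := mul_ne_zero ha₀.1 (hy.ne_zero i₀)
  have hterm : (w k).ord (c i₀ * y i₀) = (a₀ : ℤ) := by
    rw [(w k).ord_mul ha₀.1 (hy.ne_zero i₀), ha₀.2 k, zero_add]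
    exact hy.ord_self i₀
  -- every coefficient is integral at `w k`
  have hc0 : ∀ i, OrdGe (w k) 0 (c i) := by
    intro i
    rcases hc i with h | h
    · exact Or.inr (h.2 k).ge
    · exact (h k).mono (Int.natCast_nonneg _)
  have hrest : OrdGe (w k) ((a₀ : ℤ) + 1) (∑ i ∈ Finset.univ.erase i₀, c i * y i) := by
    refine ordGe_sum _ _ _ _ fun i hi => ?_
    have hne : i ≠ i₀ := Finset.ne_of_mem_erase hi
    obtain ⟨j, b⟩ := i
    by_cases hjk : j = k
    · subst hjk
      have hba : (b : ℕ) ≠ a₀ := by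
        intro h
        apply hne
        rw [hi₀]
        congr 1
        exact Fin.ext h
      have hyb : OrdGe (w j) ((b : ℕ) : ℤ) (y ⟨j, b⟩) := Or.inr (hy.ord_self ⟨j, b⟩).ge
      rcases lt_or_gt_of_ne hba with hlt | hgt
      · -- `b < a₀`: the coefficient is divisible
        have hdiv : OrdGe (w j) (e j) (c ⟨j, b⟩) := by
          rcases hc ⟨j, b⟩ with h | h
          · exact absurd ⟨b.2, h⟩ (hmin b hlt)
          · exact h j
        have := hdiv.mul hyb
        exact this.mono (by have := Int.natCast_nonneg (b : ℕ); omega)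
      · have := (hc0 ⟨j, b⟩).mul hyb
        exact this.mono (by omega)
    · have hyj : OrdGe (w k) (e k) (y ⟨j, b⟩) :=
        hy.ordGe_other ⟨j, b⟩ k (fun h => hjk h.symm)
      have := (hc0 ⟨j, b⟩).mul hyj
      exact this.mono (by omega)
  have hsplit : ∑ i', c i' * y i' = c i₀ * y i₀ + ∑ i ∈ Finset.univ.erase i₀, c i * y i :=
    (Finset.add_sum_erase Finset.univ (fun i => c i * y i) (Finset.mem_univ i₀)).symm
  rw [hsplit]
  have key := ord_add_eq (w k) hterm0 (g := ∑ i ∈ Finset.univ.erase i₀, c i * y i)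
    (by rw [hterm]; exact hrest)
  exact ⟨key.1, key.2.trans hterm⟩

section Base

variable {E : Type*} [Field E] [Algebra E F']

variable (E w e) in
/-- The orders at the `w j` of an element of the subfield `E` are `e j * m` with a common `m`,
and `m = 1` occurs. -/
def Compat : Prop :=
  (∃ t : E, t ≠ 0 ∧ ∀ j, (w j).ord (algebraMap E F' t) = (e j : ℤ)) ∧
    ∀ c : E, c ≠ 0 → ∃ m : ℤ, ∀ j, (w j).ord (algebraMap E F' c) = (e j : ℤ) * m

/-- The order of a linear combination of a local basis with coefficients in `E`: if `m` is the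
minimal normalized order of the coefficients, the combination has order `a + e k * m` at some
`w k`, with `a < e k`. -/
theorem coords (H : Compat w e E) {y : (Σ k : ι, Fin (e k)) → F'} (hy : LocalBasis w e y)
    (g : (Σ k : ι, Fin (e k)) → E) (m : ℤ)
    (hg : ∀ i, g i = 0 ∨ ∃ m' : ℤ, m ≤ m' ∧
      ∀ j, (w j).ord (algebraMap E F' (g i)) = (e j : ℤ) * m')
    (hg1 : ∃ i, g i ≠ 0 ∧ ∀ j, (w j).ord (algebraMap E F' (g i)) = (e j : ℤ) * m) :
    ∃ i : (Σ k : ι, Fin (e k)), (∑ i', g i' • y i') ≠ 0 ∧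
      (w i.1).ord (∑ i', g i' • y i') = ((i.2 : ℕ) : ℤ) + (e i.1 : ℤ) * m := by
  obtain ⟨⟨t, ht0, ht⟩, -⟩ := H
  set τ : F' := algebraMap E F' t with hτ
  have hτ0 : τ ≠ 0 := by
    rw [hτ]
    exact (map_ne_zero (algebraMap E F')).mpr ht0
  have hτm0 : τ ^ (-m) ≠ 0 := zpow_ne_zero _ hτ0
  have hτm : ∀ j, (w j).ord (τ ^ (-m)) = -((e j : ℤ) * m) := fun j => by
    rw [(w j).ord_zpow, ht j]
    ring
  -- the normalized coefficients
  set c : (Σ k : ι, Fin (e k)) → F' := fun i => τ ^ (-m) * algebraMap E F' (g i) with hcdef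
  have hc : ∀ i, (c i ≠ 0 ∧ ∀ j, (w j).ord (c i) = 0) ∨ (∀ j, OrdGe (w j) (e j) (c i)) := by
    intro i
    rcases hg i with h0 | ⟨m', hm', hord⟩
    · right
      intro j
      simp only [hcdef, h0, map_zero, mul_zero]
      exact ordGe_zero _ _
    · rcases eq_or_ne (g i) 0 with h0 | h0
      · right
        intro j
        simp only [hcdef, h0, map_zero, mul_zero]
        exact ordGe_zero _ _
      have hgi0 : algebraMap E F' (g i) ≠ 0 := (map_ne_zero (algebraMap E F')).mpr h0
      have hci : ∀ j, (w j).ord (c i) = (e j : ℤ) * (m' - m) := fun j => by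
        simp only [hcdef]
        rw [(w j).ord_mul hτm0 hgi0, hτm j, hord j]
        ring
      rcases eq_or_lt_of_le hm' with heq | hlt
      · left
        refine ⟨mul_ne_zero hτm0 hgi0, fun j => ?_⟩
        rw [hci j, ← heq, sub_self, mul_zero]
      · right
        intro j
        refine Or.inr ?_
        rw [hci j]
        have h1 : (1 : ℤ) ≤ m' - m := by omega
        have := mul_le_mul_of_nonneg_left h1 (Int.natCast_nonneg (e j))
        linarith
  have hc1 : ∃ i, c i ≠ 0 ∧ ∀ j, (w j).ord (c i) = 0 := by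
    obtain ⟨i, hi0, hi⟩ := hg1
    have hgi0 : algebraMap E F' (g i) ≠ 0 := (map_ne_zero (algebraMap E F')).mpr hi0
    refine ⟨i, mul_ne_zero hτm0 hgi0, fun j => ?_⟩
    simp only [hcdef]
    rw [(w j).ord_mul hτm0 hgi0, hτm j, hi j]
    ring
  obtain ⟨i, hne, hord⟩ := core hy c hc hc1
  have hsum : ∑ i', c i' * y i' = τ ^ (-m) * ∑ i', g i' • y i' := by
    rw [Finset.mul_sum]
    refine Finset.sum_congr rfl fun i' _ => ?_
    simp only [hcdef]
    rw [Algebra.smul_def, mul_assoc]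
  rw [hsum] at hne hord
  have hz0 : (∑ i', g i' • y i') ≠ 0 := right_ne_zero_of_mul hne
  refine ⟨i, hz0, ?_⟩
  rw [(w i.1).ord_mul hτm0 hz0, hτm] at hord
  omega

/-- A nonzero family of coefficients has a minimal normalized order. -/
theorem exists_min_order (H : Compat w e E) (g : (Σ k : ι, Fin (e k)) → E)
    (hg0 : ∃ i, g i ≠ 0) :
    ∃ m : ℤ, (∀ i, g i = 0 ∨ ∃ m' : ℤ, m ≤ m' ∧
        ∀ j, (w j).ord (algebraMap E F' (g i)) = (e j : ℤ) * m') ∧
      ∃ i, g i ≠ 0 ∧ ∀ j, (w j).ord (algebraMap E F' (g i)) = (e j : ℤ) * m := by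
  classical
  have hex : ∀ i, ∃ m : ℤ, g i ≠ 0 →
      ∀ j, (w j).ord (algebraMap E F' (g i)) = (e j : ℤ) * m := by
    intro i
    by_cases h : g i = 0
    · exact ⟨0, fun h' => absurd h h'⟩
    · obtain ⟨m, hm⟩ := H.2 (g i) h
      exact ⟨m, fun _ => hm⟩
  choose μ hμ using hex
  obtain ⟨i₁, hi₁⟩ := hg0
  have hne : (Finset.univ.filter fun i => g i ≠ 0).Nonempty :=
    ⟨i₁, Finset.mem_filter.mpr ⟨Finset.mem_univ _, hi₁⟩⟩
  obtain ⟨i₀, hi₀mem, hi₀⟩ := Finset.exists_min_image _ μ hne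
  have hi₀ne : g i₀ ≠ 0 := (Finset.mem_filter.mp hi₀mem).2
  refine ⟨μ i₀, fun i => ?_, i₀, hi₀ne, hμ i₀ hi₀ne⟩
  by_cases h : g i = 0
  · exact Or.inl h
  · exact Or.inr ⟨μ i, hi₀ i (Finset.mem_filter.mpr ⟨Finset.mem_univ _, h⟩), hμ i h⟩

/-- A local basis is linearly independent over a compatible subfield. -/
theorem linearIndependent_localBasis (H : Compat w e E) {y : (Σ k : ι, Fin (e k)) → F'}
    (hy : LocalBasis w e y) : LinearIndependent E y := by
  rw [Fintype.linearIndependent_iff]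
  intro g hg
  by_contra hcon
  push Not at hcon
  obtain ⟨m, hm, hm1⟩ := exists_min_order H g hcon
  obtain ⟨i, hne, -⟩ := coords H hy g m hm hm1
  exact hne hg

/-- The sum of the `e k` is at most the degree. -/
theorem sum_le_finrank [Module.Finite E F'] (H : Compat w e E) (hw : Function.Injective w) :
    ∑ k, e k ≤ Module.finrank E F' := by
  obtain ⟨y, hy⟩ := exists_localBasis w e hw
  have := (linearIndependent_localBasis H hy).fintype_card_le_finrank
  rwa [Fintype.card_sigma, Finset.sum_congr rfl fun k _ => Fintype.card_fin (e k)] at this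

end Base

end Fermat.Agent.RED.H51
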