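import Fermat.Agent.RED.H12_ZeroAll
import Fermat.Agent.RED.H51_ZerosLe
import Fermat.Agent.RED.H42_PoleDegree

/-!
# G-RED, packages FF-R and FF-B (zeros theorem): unconditional statements

Inputs: `H12.existsZeroAll` (helper12, existence of zeros), `H51.zerosLeAll` (helper51, the `≤`
half of the zeros theorem).  Output: the zeros theorem `zerosAll`, principal divisors
(`stmt_FFB_principal`) and Riemann's theorem (`stmt_FFR_finite`, `stmt_FFR_le`,
`stmt_FFR_riemann`) for all function fields of one variable over algebraically closed fields of
any characteristic.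
-/

set_option autoImplicit false

namespace Fermat.Agent.RED.H42

/-- **The zeros theorem** (any characteristic): a non-constant function `x` has finitely many
zeros and their orders sum to `[F : K(x)]`. -/
theorem zerosAll : ZerosAll :=
  zerosAll_of Fermat.Agent.RED.H12.existsZeroAll Fermat.Agent.RED.H51.zerosLeAll

/-- Principal divisors exist and have degree zero. -/
theorem stmt_FFB_principal : Stmt_FFB_principal := stmt_FFB_principal_of zerosAll

/-- `L(D)` is finite dimensional. -/
theorem stmt_FFR_finite : Stmt_FFR_finite := stmt_FFR_finite_of zerosAll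

/-- `l(D) ≤ deg D + 1`, and `L(D) = 0` if `deg D < 0`. -/
theorem stmt_FFR_le : Stmt_FFR_le := stmt_FFR_le_of zerosAll

/-- **Riemann's theorem.** -/
theorem stmt_FFR_riemann : Stmt_FFR_riemann := stmt_FFR_riemann_of zerosAll

end Fermat.Agent.RED.H42
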