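import Fermat.Prelude.Def_AlgebraicCurve_Repartitions
import Fermat.Prelude.Def_ModularCurve_HeckeOperatorTotal
import Mathlib.FieldTheory.IsAlgClosed.Basic
import Mathlib.RingTheory.Algebraic.Basic
import Mathlib.RingTheory.Norm.Basic
import Mathlib.LinearAlgebra.Charpoly.Basic

/-!
# Cluster G, part RED (S37 + S18): interface statements, layer 0 (function fields) and Hecke inputs

Coordinator of G-RED: helper36.  Plan: `NOTES/plan/G_RED.md`.
All `Stmt_*` are `Prop`s.  Owners prove them in their own files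
`Fermat/Agent/RED/H<seat>_<Name>.lean` (namespace `Fermat.Agent.RED.H<seat>`), as
`theorem stmt_xxx : Fermat.Agent.RED.Stmt_xxx`.  This file contains no `sorry`.
-/

set_option autoImplicit false

noncomputable section

open AlgebraicCurve IntermediateField

namespace Fermat.Agent.RED

/-- `F / K` is a function field of one variable: finite over `K(x)` for a transcendental `x`. -/
def IsFF (K F : Type) [Field K] [Field F] [Algebra K F] : Prop :=
  ∃ x : F, Transcendental K x ∧ Module.Finite K⟮x⟯ F

/-! ## FF-B (helper51): basic theory of places, ANY characteristic, `K` algebraically closed -/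

/-- Every nonzero function has a divisor, of degree `0`. -/
def Stmt_FFB_principal : Prop :=
  ∀ (K F : Type) [Field K] [Field F] [Algebra K F] [IsAlgClosed K], IsFF K F →
    HasPrincipalDivisors K F

/-- Every place has degree one. -/
def Stmt_FFB_deg : Prop :=
  ∀ (K F : Type) [Field K] [Field F] [Algebra K F] [IsAlgClosed K], IsFF K F →
    ∀ v : Place K F, v.deg = 1

/-- A `K`-algebra hom between function fields is finite. -/
def Stmt_FFB_finite : Prop :=
  ∀ (K F F' : Type) [Field K] [Field F] [Field F'] [Algebra K F] [Algebra K F'] [IsAlgClosed K],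
    IsFF K F → IsFF K F' → ∀ φ : F →ₐ[K] F',
      φ.toRingHom.IsIntegral ∧ FiniteAlong K φ

/-- The fundamental identity `Σ e(w|v) deg w = [F' : F] deg v` along `φ`. -/
def Stmt_FFB_fundamental : Prop :=
  ∀ (K F F' : Type) [Field K] [Field F] [Field F'] [Algebra K F] [Algebra K F'] [IsAlgClosed K],
    IsFF K F → IsFF K F' → ∀ (φ : F →ₐ[K] F') (hφ : φ.toRingHom.IsIntegral)
      (_ : HasPrincipalDivisors K F'), FundamentalIdentityAlong K φ hφ

/-- The norm formula `φ_* (div f) = div (N f)` along `φ`. -/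
def Stmt_FFB_norm : Prop :=
  ∀ (K F F' : Type) [Field K] [Field F] [Field F'] [Algebra K F] [Algebra K F'] [IsAlgClosed K],
    IsFF K F → IsFF K F' → ∀ (φ : F →ₐ[K] F') (hfin : FiniteAlong K φ),
      NormFormulaAlong K φ hfin

/-- Strong approximation, weak form: functions separate finitely many places and can be chosen
regular on a given finite set: for pairwise distinct places `v i` and values `c i` there is `f`
with `f - c i` vanishing at `v i`. -/
def Stmt_FFB_separate : Prop :=
  ∀ (K F : Type) [Field K] [Field F] [Algebra K F] [IsAlgClosed K], IsFF K F →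
    ∀ (ι : Type) [Fintype ι] (v : ι → Place K F), Function.Injective v → ∀ c : ι → K,
      ∃ f : F, ∀ i, 0 < (v i).ord (f - algebraMap K F (c i)) ∨ f = algebraMap K F (c i)

/-! ## FF-R (helper42): Riemann's theorem, ANY characteristic, `K` algebraically closed -/

/-- `L(D)` is finite dimensional. -/
def Stmt_FFR_finite : Prop :=
  ∀ (K F : Type) [Field K] [Field F] [Algebra K F] [IsAlgClosed K], IsFF K F →
    ∀ D : Divisor K F, Module.Finite K (riemannRochSpace D)

/-- `l(D) ≤ deg D + 1` if `deg D ≥ 0`, and `L(D) = 0` if `deg D < 0`. -/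
def Stmt_FFR_le : Prop :=
  ∀ (K F : Type) [Field K] [Field F] [Algebra K F] [IsAlgClosed K], IsFF K F →
    ∀ D : Divisor K F,
      (Divisor.degree D < 0 → riemannRochSpace D = ⊥) ∧
      (0 ≤ Divisor.degree D →
        (Module.finrank K (riemannRochSpace D) : ℤ) ≤ Divisor.degree D + 1)

/-- **Riemann's theorem**: there is `g` with `l(D) ≥ deg D + 1 - g` for all `D` and equality
for all `D` of large degree. -/
def Stmt_FFR_riemann : Prop :=
  ∀ (K F : Type) [Field K] [Field F] [Algebra K F] [IsAlgClosed K], IsFF K F →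
    ∃ (g : ℕ) (c : ℤ), ∀ D : Divisor K F,
      Divisor.degree D + 1 - g ≤ (Module.finrank K (riemannRochSpace D) : ℤ) ∧
      (c ≤ Divisor.degree D →
        (Module.finrank K (riemannRochSpace D) : ℤ) = Divisor.degree D + 1 - g)

/-! ## HK-A: the Hecke correspondence of the prelude is the real one -/

/-- The modular function field over `ℚ̄` is a function field of one variable. -/
def Stmt_HKA_isFF : Prop :=
  ∀ (N : ℕ) [NeZero N],
    IsFF (AlgebraicClosure ℚ) ↥(ModularCurve.modularFunctionFieldBar N)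

/-- **HK-A**: `HeckeInputsAlong ℚ̄ N ℓ` holds, so that `heckeOperatorAlong` is `α_* β^*`. -/
def Stmt_HKA : Prop :=
  ∀ (N ℓ : ℕ) [NeZero N] [NeZero ℓ],
    ModularCurve.HeckeInputsAlong (AlgebraicClosure ℚ) N ℓ

/-- `HK-A` follows from `FF-B` and `Stmt_HKA_isFF` (pure plumbing, proved below). -/
theorem stmt_HKA_of (h1 : Stmt_HKA_isFF) (h2 : Stmt_FFB_principal) (h3 : Stmt_FFB_finite)
    (h4 : Stmt_FFB_fundamental) (h5 : Stmt_FFB_norm) : Stmt_HKA := by
  intro N ℓ _ _
  have : NeZero (N * ℓ) := ⟨Nat.mul_ne_zero (NeZero.ne N) (NeZero.ne ℓ)⟩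
  have hF := h1 N
  have hF' := h1 (N * ℓ)
  have hP := h2 _ _ hF'
  obtain ⟨hα, hfin⟩ := h3 _ _ _ hF hF' (ModularCurve.heckeAlphaBar (AlgebraicClosure ℚ) N ℓ)
  obtain ⟨hβ, -⟩ := h3 _ _ _ hF hF' (ModularCurve.heckeBetaBar (AlgebraicClosure ℚ) N ℓ)
  exact ⟨hα, hβ, hP, hfin, h4 _ _ _ hF hF' _ hβ hP, h5 _ _ _ hF hF' _ hfin⟩

end Fermat.Agent.RED
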