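import Fermat.Agent.RED.H73_GAData
import Fermat.Agent.S28.H30_CAStrong
import Fermat.Prelude.Thm_ModularCurve_coeffMap_qExpand

/-!
# G-RED package GA: transfer of the conjugate data from `ℂ` to `ℚ̄` (helper30)

`stmt_CAL : Fermat.Agent.RED.H73.Stmt_CAL`.

* Part A: descent of Laurent series along a field embedding `ι : K → L` (coefficientwise).
* Part B: `ℤ[ζ_N, 1/N] ⊂ L` is the image of `ℤ[ζ_N, 1/N] ⊂ K` when `K` is algebraically closed.
* Part D: descent of membership in `L[J]` to `K[J]` by a `K`-linear retraction `L → K`.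
* Part C: the data.
-/

set_option autoImplicit false
set_option linter.unusedSectionVars false
set_option linter.unusedVariables false

open ModularCurve Polynomial

noncomputable section

namespace Fermat.Agent.RED.H30

open Fermat.Agent.S28 (CAData coeffRing iotaN)
open Fermat.Agent.RED.H73 (CADataL coeffRingL Stmt_CAL)

/-! ### Part A: coefficientwise descent of series -/

section Series

variable {K L : Type} [Field K] [Field L] (ι : K →+* L)

lemma coeffMap_injective : Function.Injective (coeffMap ι) := by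
  intro f g h
  ext n
  have := congrArg (fun x : LaurentSeries L => x.coeff n) h
  simp only [coeffMap_coeff] at this
  exact ι.injective this

lemma coeffMap_eq_zero_iff (f : LaurentSeries K) : coeffMap ι f = 0 ↔ f = 0 := by
  constructor
  · intro h
    exact coeffMap_injective ι (by rw [h, map_zero])
  · rintro rfl
    exact map_zero _

lemma coeffMap_C (c : K) :
    coeffMap ι (HahnSeries.C c : LaurentSeries K) = HahnSeries.C (ι c) := by
  show coeffMap ι (HahnSeries.single 0 c) = HahnSeries.single 0 (ι c)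
  exact coeffMap_single ι 0 c

lemma coeffMap_order (f : LaurentSeries K) : (coeffMap ι f).order = f.order := by
  by_cases hf : f = 0
  · subst hf; simp
  · have hne : coeffMap ι f ≠ 0 := fun h => hf ((coeffMap_eq_zero_iff ι f).mp h)
    refine le_antisymm ?_ ?_
    · refine HahnSeries.order_le_of_coeff_ne_zero ?_
      rw [coeffMap_coeff]
      intro h0
      exact HahnSeries.coeff_order_eq_zero.not.mpr hf (ι.injective (by rw [h0, map_zero]))
    · refine HahnSeries.order_le_of_coeff_ne_zero ?_
      intro h0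
      have := HahnSeries.coeff_order_eq_zero.not.mpr hne
      apply this
      rw [coeffMap_coeff, h0, map_zero]

lemma coeffMap_leadingCoeff (f : LaurentSeries K) :
    (coeffMap ι f).leadingCoeff = ι f.leadingCoeff := by
  by_cases hf : f = 0
  · subst hf; simp
  · rw [HahnSeries.leadingCoeff_eq, HahnSeries.leadingCoeff_eq, coeffMap_order, coeffMap_coeff]

/-- A series with coefficients in the range of `ι` comes from `K((t))`. -/
lemma exists_coeffMap_eq {f : LaurentSeries L} (hf : ∀ n, f.coeff n ∈ ι.range) :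
    ∃ g : LaurentSeries K, coeffMap ι g = f := by
  choose c hc using hf
  have hsupp : Function.support c ⊆ f.support := by
    intro n hn
    show f.coeff n ≠ 0
    intro h0
    apply hn
    apply ι.injective
    rw [hc, h0, map_zero]
  refine ⟨⟨c, f.isPWO_support.mono hsupp⟩, ?_⟩
  ext n
  rw [coeffMap_coeff]
  exact hc n

end Series

/-! ### Part B: the coefficient rings -/

section CoeffRing

variable {K : Type} [Field K] [IsAlgClosed K] (ι : K →+* ℂ) (N : ℕ) [NeZero N]

lemma rootOfUnity_mem_range {z : ℂ} (hz : z ^ N = 1) : ∃ w : K, w ^ N = 1 ∧ ι w = z := by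
  have hsplit : (X ^ N - 1 : K[X]).Splits := IsAlgClosed.splits _
  have hmap : (X ^ N - 1 : K[X]).map ι = X ^ N - 1 := by simp
  have hne : (X ^ N - 1 : ℂ[X]) ≠ 0 := X_pow_sub_C_ne_zero (Nat.pos_of_ne_zero (NeZero.ne N)) 1
  have hroot : z ∈ ((X ^ N - 1 : K[X]).map ι).roots := by
    rw [hmap, mem_roots hne]
    simp [hz]
  rw [hsplit.roots_map ι, Multiset.mem_map] at hroot
  obtain ⟨w, hw, hwz⟩ := hroot
  refine ⟨w, ?_, hwz⟩
  have hne' : (X ^ N - 1 : K[X]) ≠ 0 := X_pow_sub_C_ne_zero (Nat.pos_of_ne_zero (NeZero.ne N)) 1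
  have := (mem_roots hne').mp hw
  simpa [sub_eq_zero] using this

lemma coeffRing_le_map : coeffRing N ≤ (coeffRingL K N).map ι := by
  unfold coeffRing
  rw [Subring.closure_le]
  rintro z (hz | hz)
  · obtain ⟨w, hw, rfl⟩ := rootOfUnity_mem_range ι N hz
    exact ⟨w, Subring.subset_closure (Or.inl hw), rfl⟩
  · refine ⟨((N : K))⁻¹, Subring.subset_closure (Or.inr rfl), ?_⟩
    rw [Set.mem_singleton_iff] at hz
    rw [hz]
    simp

lemma mem_coeffRingL_of_map_mem {x : K} (hx : ι x ∈ coeffRing N) : x ∈ coeffRingL K N := by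
  obtain ⟨y, hy, hyx⟩ := coeffRing_le_map ι N hx
  have : y = x := ι.injective hyx
  rwa [← this]

lemma mem_range_of_mem_coeffRing {z : ℂ} (hz : z ∈ coeffRing N) : z ∈ ι.range := by
  obtain ⟨y, hy, hyx⟩ := coeffRing_le_map ι N hz
  exact ⟨y, hyx⟩

end CoeffRing

/-! ### Part D: descent of `L[J]` to `K[J]` -/

section Descent

variable {K L : Type} [Field K] [Field L] (ι : K →+* L)

/-- Apply a map coefficientwise (for a map sending `0` to `0`). -/
def piS (π : L → K) (h0 : π 0 = 0) (f : LaurentSeries L) : LaurentSeries K :=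
  ⟨fun n => π (f.coeff n), f.isPWO_support.mono (by
    intro n hn
    show f.coeff n ≠ 0
    intro h
    apply hn
    show π (f.coeff n) = 0
    rw [h, h0])⟩

lemma piS_coeff (π : L → K) (h0 : π 0 = 0) (f : LaurentSeries L) (n : ℤ) :
    (piS π h0 f).coeff n = π (f.coeff n) := rfl

/-- **Descent lemma**: if `ι P ∈ L[ι J]` then `P ∈ K[J]`. -/
theorem mem_adjoin_of_coeffMap_mem (P J : LaurentSeries K)
    (h : coeffMap ι P ∈ Algebra.adjoin L ({coeffMap ι J} : Set (LaurentSeries L))) :
    P ∈ Algebra.adjoin K ({J} : Set (LaurentSeries K)) := by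
  let _ : Algebra K L := ι.toAlgebra
  have hinj : LinearMap.ker (Algebra.linearMap K L) = ⊥ := by
    rw [LinearMap.ker_eq_bot]
    exact ι.injective
  obtain ⟨π, hπ⟩ := LinearMap.exists_leftInverse_of_injective (Algebra.linearMap K L) hinj
  have hπι : ∀ x : K, π (ι x) = x := fun x => by
    have := LinearMap.congr_fun hπ x
    exact this
  have hπmul : ∀ (a : L) (x : K), π (a * ι x) = π a * x := fun a x => by
    have : a * ι x = x • a := by
      rw [Algebra.smul_def, mul_comm]; rfl
    rw [this, map_smul, smul_eq_mul, mul_comm]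
  rw [Algebra.adjoin_singleton_eq_range_aeval] at h ⊢
  obtain ⟨p, hp⟩ := h
  have key : ∀ p : L[X], ∃ p' : K[X],
      piS π (map_zero π) (aeval (coeffMap ι J) p) = aeval J p' := by
    intro p
    induction p using Polynomial.induction_on' with
    | add p q hp hq =>
      obtain ⟨p', hp'⟩ := hp
      obtain ⟨q', hq'⟩ := hq
      refine ⟨p' + q', ?_⟩
      rw [map_add, map_add, ← hp', ← hq']
      ext n
      simp only [piS_coeff, HahnSeries.coeff_add, map_add]
    | monomial n a =>
      refine ⟨monomial n (π a), ?_⟩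
      rw [aeval_monomial, aeval_monomial, ← map_pow]
      ext m
      rw [piS_coeff]
      have h1 : (algebraMap L (LaurentSeries L) a * coeffMap ι (J ^ n)).coeff m
          = a * ι ((J ^ n).coeff m) := by
        rw [algebraMap_laurentSeries_eq_single, HahnSeries.coeff_single_mul, sub_zero,
          coeffMap_coeff]
      have h2 : (algebraMap K (LaurentSeries K) (π a) * J ^ n).coeff m
          = π a * (J ^ n).coeff m := by
        rw [algebraMap_laurentSeries_eq_single, HahnSeries.coeff_single_mul, sub_zero]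
      rw [h1, h2, hπmul]
  obtain ⟨p', hp'⟩ := key p
  refine ⟨p', ?_⟩
  show aeval J p' = P
  rw [← hp']
  have hp2 : (aeval (coeffMap ι J)) p = coeffMap ι P := hp
  rw [hp2]
  ext n
  rw [piS_coeff, coeffMap_coeff, hπι]

end Descent

/-! ### Part C: the data -/

section Data

lemma coeffMap_jqModC {K K' : Type} [Field K] [Field K'] (f : K →+* K') :
    coeffMap f (jqModC K) = jqModC K' :=
  map_jqModC f

lemma iotaN_qExpand_jq (N : ℕ) [NeZero N] (d : ℕ) [NeZero d] :
    iotaN N (qExpand ℚ d jq) = qExpand ℂ N (qExpand ℂ d (jqModC ℂ)) := by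
  rw [iotaN, RingHom.comp_apply, ModularCurve.coeffMap_qExpand, ← jqModC_rat, coeffMap_jqModC]

lemma coeffMap_qExpand_jqModC {K : Type} [Field K] (ι : K →+* ℂ) (N : ℕ) [NeZero N]
    (d : ℕ) [NeZero d] :
    coeffMap ι (qExpand K N (qExpand K d (jqModC K))) = iotaN N (qExpand ℚ d jq) := by
  rw [iotaN_qExpand_jq, ModularCurve.coeffMap_qExpand, ModularCurve.coeffMap_qExpand,
    coeffMap_jqModC]

lemma coeffMap_qExpand_jqModC_one {K : Type} [Field K] (ι : K →+* ℂ) (N : ℕ) [NeZero N] :
    coeffMap ι (qExpand K N (jqModC K)) = iotaN N jq := by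
  have := coeffMap_qExpand_jqModC ι N 1
  rwa [qExpand_one_apply, qExpand_one_apply] at this

/-- **Transfer**: the conjugate data over any algebraically closed subfield of `ℂ`. -/
theorem nonempty_caDataL {K : Type} [Field K] [IsAlgClosed K] (ι : K →+* ℂ) (N : ℕ) [NeZero N] :
    Nonempty (CADataL K N) := by
  obtain ⟨D, hXc, hXtop⟩ := Fermat.Agent.S28.H30.exists_caData_strong N
  have hU : ∀ q, ∃ g : LaurentSeries K, coeffMap ι g = D.U q := fun q =>
    exists_coeffMap_eq ι fun n => mem_range_of_mem_coeffRing ι N (D.U_coeff q n)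
  choose U' hU' using hU
  have hX : ∀ (d : ℕ) (q : D.Q), ∃ g : LaurentSeries K, d ∣ N → coeffMap ι g = D.X d q := by
    intro d q
    by_cases hd : d ∣ N
    · obtain ⟨g, hg⟩ :=
        exists_coeffMap_eq ι fun n => mem_range_of_mem_coeffRing ι N (hXc d q n hd)
      exact ⟨g, fun _ => hg⟩
    · exact ⟨0, fun h => absurd h hd⟩
  choose X' hX' using hX
  exact ⟨{
    Q := D.Q
    instFintype := D.instFintype
    q₀ := D.q₀
    D := D.D
    D_pos := D.D_pos
    U := U'
    X := X'
    U_coeff := fun q n => mem_coeffRingL_of_map_mem ι N (by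
      rw [← coeffMap_coeff, hU']; exact D.U_coeff q n)
    U_ne := fun q h => D.U_ne q (by rw [← hU', h, map_zero])
    U_lead := fun q => mem_coeffRingL_of_map_mem ι N (by
      rw [map_inv₀, ← coeffMap_leadingCoeff, hU']; exact D.U_lead q)
    U_order₀ := by rw [← coeffMap_order ι, hU']; exact D.U_order₀
    U_order_pos := fun q hq => by rw [← coeffMap_order ι, hU']; exact D.U_order_pos q hq
    X_coeff := fun d q n hd => mem_coeffRingL_of_map_mem ι N (by
      rw [← coeffMap_coeff, hX' d q hd]; exact hXc d q n hd)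
    X_q₀ := fun d _ hd => coeffMap_injective ι (by
      rw [hX' d _ hd, D.X_q₀ d hd, coeffMap_qExpand_jqModC])
    X_top := fun q hq => ι.injective (by
      rw [← coeffMap_coeff, hX' N q dvd_rfl, map_zero]; exact hXtop q hq)
    sym := fun d hd c s => mem_adjoin_of_coeffMap_mem ι _ _ (by
      rw [coeffMap_qExpand_jqModC_one, map_prod]
      have := D.sym d hd (ι c) (ι s)
      convert this using 2
      rename_i q _
      rw [map_sub, map_sub, map_mul, coeffMap_C, coeffMap_C, hU', hX' d q hd]) }⟩

end Data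

/-- **Stmt_CAL**: the conjugate data exist over `ℚ̄`. -/
theorem stmt_CAL : Stmt_CAL := fun N _ =>
  haveI : Algebra.IsAlgebraic ℚ (AlgebraicClosure ℚ) := AlgebraicClosure.isAlgebraic ℚ
  nonempty_caDataL ((IsAlgClosed.lift : AlgebraicClosure ℚ →ₐ[ℚ] ℂ) : AlgebraicClosure ℚ →+* ℂ) N

end Fermat.Agent.RED.H30
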