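import Fermat.Agent.RED.H73_GAChart
import Fermat.Agent.RED.H30_CAL

/-!
# G-RED package GA (helper73): the unconditional statements

* `stmt_GA      : Stmt_GA`      — the residue field of the Gauss valuation on `F_N · ℚ̄` is
                                  `modularFunctionFieldFullC k N`  (`ℓ ∤ N`);
* `stmt_GA_deg  : Stmt_GA_deg`  — `[F_{N,k} : k(j~)] = [F_N ℚ̄ : ℚ̄(j)]`, separable;
* `goodChart_pre`, `isFF_redField_bar` — Type-level forms for the chart `x = j`.
(Conjugate data over `ℚ̄`: helper30, `RED/H30_CAL.lean`.)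
-/

set_option autoImplicit false
set_option synthInstance.maxHeartbeats 400000
set_option maxHeartbeats 1000000

open ModularCurve Fermat.Agent.S28 Fermat.Agent.S28.H73
open IntermediateField

noncomputable section

namespace Fermat.Agent.RED.H73

/-- **GA**: `redField = modularFunctionFieldFullC k N`. -/
theorem stmt_GA : Stmt_GA := stmt_GA_of_CAL Fermat.Agent.RED.H30.stmt_CAL

/-- **GA, degrees**. -/
theorem stmt_GA_deg : Stmt_GA_deg := stmt_GA_deg_of_CAL Fermat.Agent.RED.H30.stmt_CAL

/-- The first five fields of `GoodChart` for the chart `x = j` at level `N`. -/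
theorem goodChart_pre (N ℓ : ℕ) [NeZero N] (hℓ : ℓ.Prime) (hℓN : ¬ ℓ ∣ N)
    (A : ValuationSubring (AlgebraicClosure ℚ)) (hA : A.LiesOverPrime ℓ) :
    Transcendental (kV A)
      ((redSetting A (hasScale_laurentBaseChange A N)).red ⟨jF N, jF_mem A N⟩) ∧
    FiniteDimensional ↥((AlgebraicClosure ℚ)⟮jF (L := AlgebraicClosure ℚ) N⟯)
      ↥(laurentBaseChange (AlgebraicClosure ℚ) (modularFunctionFieldFull N)) ∧
    Algebra.IsSeparable ↥((AlgebraicClosure ℚ)⟮jF (L := AlgebraicClosure ℚ) N⟯)
      ↥(laurentBaseChange (AlgebraicClosure ℚ) (modularFunctionFieldFull N)) ∧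
    Module.finrank
      ↥((kV A)⟮(redSetting A (hasScale_laurentBaseChange A N)).red ⟨jF N, jF_mem A N⟩⟯)
      ↥(redField A (laurentBaseChange (AlgebraicClosure ℚ) (modularFunctionFieldFull N))
        (hasScale_laurentBaseChange A N))
      = Module.finrank ↥((AlgebraicClosure ℚ)⟮jF (L := AlgebraicClosure ℚ) N⟯)
        ↥(laurentBaseChange (AlgebraicClosure ℚ) (modularFunctionFieldFull N)) ∧
    Algebra.IsSeparable
      ↥((kV A)⟮(redSetting A (hasScale_laurentBaseChange A N)).red ⟨jF N, jF_mem A N⟩⟯)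
      ↥(redField A (laurentBaseChange (AlgebraicClosure ℚ) (modularFunctionFieldFull N))
        (hasScale_laurentBaseChange A N)) :=
  goodChart_pre_of_CAL Fermat.Agent.RED.H30.stmt_CAL N ℓ hℓ hℓN A hA

/-- The residue field of the Gauss valuation on `F_N · ℚ̄` is a function field over `k`. -/
theorem isFF_redField_bar (N ℓ : ℕ) [NeZero N] (hℓ : ℓ.Prime) (hℓN : ¬ ℓ ∣ N)
    (A : ValuationSubring (AlgebraicClosure ℚ)) (hA : A.LiesOverPrime ℓ) :
    IsFF (kV A) ↥(redField A (laurentBaseChange (AlgebraicClosure ℚ) (modularFunctionFieldFull N))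
      (hasScale_laurentBaseChange A N)) :=
  isFF_redField_of_CAL Fermat.Agent.RED.H30.stmt_CAL N ℓ hℓ hℓN A hA

/-- The conjugate data over `ℚ̄` (helper30). -/
def caDataBar (N : ℕ) [NeZero N] : CADataL (AlgebraicClosure ℚ) N :=
  (Fermat.Agent.RED.H30.stmt_CAL N).some

end Fermat.Agent.RED.H73
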