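import Fermat.Agent.RED.Defs
import Fermat.Agent.S24.Closure.Final
import Fermat.Agent.S24.Asm.Degree

/-!
# G-RED, package HK-A, first half: the modular function field is a function field

`stmt_HKA_isFF : Stmt_HKA_isFF`: for every `N ≠ 0` the field `F_N·Q̄` is finite over `Q̄(j)` and
`j` is transcendental over `Q̄`.  Pure wiring from the S24 closure layer (`modClosure N`) and the
S24 assembly layer (`asm_transcendental_jF`, `asm_finiteDimensional`).
-/

set_option autoImplicit false

noncomputable section

namespace Fermat.Agent.RED.H95

open Fermat.Agent.S24 IntermediateField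

/-- `j` is transcendental over `Q̄` and `F_N·Q̄` is finite over `Q̄(j)`. -/
theorem isFF_FN (N : ℕ) [NeZero N] : IsFF Kbar (FN N) :=
  ⟨jF N, asm_transcendental_jF (modClosure N), asm_finiteDimensional (modClosure N)⟩

/-- **HK-A, first half.** -/
theorem stmt_HKA_isFF : Stmt_HKA_isFF := fun N _ => isFF_FN N

end Fermat.Agent.RED.H95
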