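import Fermat.Agent.RED.H73_GAVal
import Fermat.Agent.RED.H73_GAModular

/-!
# G-RED package GA, part 3 (helper73): the residue field of the Gauss valuation, first facts

* `fullC_le_redField` : the residue field `F~ ⊂ k((q))` of the Gauss valuation on
  `F = L(j(q^d) : d ∣ N)` contains `k(j~(q^d) : d ∣ N) = modularFunctionFieldFullC k N`.
* `linearIndependent_of_gaussResF` (`f ≤ n`): elements of the Gauss valuation ring of `F` whose
  reductions are linearly independent over the residue field of a subfield `E` are linearly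
  independent over `E`.
-/

set_option autoImplicit false

open ModularCurve Fermat.Agent.S28 Fermat.Agent.S28.H73

noncomputable section

namespace Fermat.Agent.RED.H73

section Modular

variable {L : Type} [Field L] (A : ValuationSubring L)

theorem iotaV_qExpand_jqModC (d : ℕ) [NeZero d] :
    iotaV A (qExpand ↥A d (jqModC ↥A)) = qExpand L d (jqModC L) := by
  rw [iotaV, coeffMap_qExpand, coeffMap_jqModC]

theorem redV_qExpand_jqModC (d : ℕ) [NeZero d] :
    redV A (qExpand ↥A d (jqModC ↥A)) = qExpand (kV A) d (jqModC (kV A)) := by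
  rw [redV, coeffMap_qExpand, coeffMap_jqModC]

/-- `j(q^d)` lies in the Gauss valuation ring and reduces to `j~(q^d)`. -/
theorem qExpand_jqModC_mem_gaussRingV (d : ℕ) [NeZero d] :
    qExpand L d (jqModC L) ∈ gaussRingV A := by
  rw [← iotaV_qExpand_jqModC A d]
  exact iotaV_mem_gaussRingV A _

theorem gaussRedV_qExpand_jqModC (d : ℕ) [NeZero d]
    (h : qExpand L d (jqModC L) ∈ gaussRingV A) :
    gaussRedV A ⟨qExpand L d (jqModC L), h⟩ = qExpand (kV A) d (jqModC (kV A)) := by
  have e : (⟨qExpand L d (jqModC L), h⟩ : gaussRingV A)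
      = ⟨iotaV A (qExpand ↥A d (jqModC ↥A)), iotaV_mem_gaussRingV A _⟩ :=
    Subtype.ext (iotaV_qExpand_jqModC A d).symm
  rw [e, gaussRedV_iotaV, redV_qExpand_jqModC]

/-- **GA (3a)**: the residue field of the Gauss valuation contains `k(j~(q^d) : d ∣ N)`. -/
theorem fullC_le_redField (N : ℕ) :
    modularFunctionFieldFullC (kV A) N ≤
      redField A (modularFunctionFieldFullC L N) (hasScale_fullC A N) := by
  rw [modularFunctionFieldFullC, IntermediateField.adjoin_le_iff]
  rintro x ⟨d, hd0, hd, rfl⟩
  have hF : qExpand L d (jqModC L) ∈ modularFunctionFieldFullC L N := jqModCd_mem_full L N hd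
  have hV : (⟨qExpand L d (jqModC L), hF⟩ : ↥(modularFunctionFieldFullC L N)) ∈
      gaussValSub A (modularFunctionFieldFullC L N) (hasScale_fullC A N) :=
    qExpand_jqModC_mem_gaussRingV A d
  refine ⟨⟨⟨qExpand L d (jqModC L), hF⟩, hV⟩, ?_⟩
  rw [gaussResF_apply]
  exact gaussRedV_qExpand_jqModC A d _

end Modular

end Fermat.Agent.RED.H73
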