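import Fermat.Agent.RED.H34_FibA

/-!
# G-RED / BAD_q (helper34): (FIB) fibre cardinalities are preserved by reduction

`RedSetting.ncard_ptsOver_red` : under the hypotheses of the chart theorem, for `ρ ∈ O` such that
every branch value of `x` in `O` congruent to `ρ` is equal to `ρ`, the number of points of the
reduced chart over `γ = ρ mod m` equals the number of points of the chart over `ρ`.
-/

set_option autoImplicit false

noncomputable section

open Polynomial IntermediateField Module Matrix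
open scoped IntermediateField.algebraAdjoinAdjoin nonZeroDivisors

namespace Fermat.Agent.RED.H34

variable {C F k Ft : Type} [Field C] [Field F] [Algebra C F] [Field k] [Field Ft] [Algebra k Ft]

namespace RedSetting

variable {S : RedSetting C F k Ft} {x : F} (hx : x ∈ S.V)

/-- **(FIB ≥)** -/
theorem ncard_ptsOver_red_ge [IsAlgClosed C] [CharZero C] [IsAlgClosed k]
    (hxt : Transcendental k (S.red ⟨x, hx⟩)) [FiniteDimensional ↥C⟮x⟯ F]
    (hdeg : Module.finrank ↥k⟮S.red ⟨x, hx⟩⟯ Ft = Module.finrank ↥C⟮x⟯ F)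
    [Algebra.IsSeparable ↥k⟮S.red ⟨x, hx⟩⟯ Ft]
    (ρ : ↥S.O)
    (hρ : ∀ ρ' : ↥S.O, IsBranchValue x (ρ' : C) → S.resO ρ' = S.resO ρ → ρ' = ρ) :
    (ptsOver x (ρ : C)).ncard ≤ (ptsOver (S.red ⟨x, hx⟩) (S.resO ρ)).ncard := by
  classical
  have hxC := transcendental_x hx hxt
  have hfdt := finiteDimensional_red hx hdeg
  have hpidt : IsPrincipalIdealRing ↥(Algebra.adjoin k {S.red ⟨x, hx⟩}) :=
    isPrincipalIdealRing_adjoin hxt
  have hpid : IsPrincipalIdealRing ↥(Algebra.adjoin C {x}) := isPrincipalIdealRing_adjoin hxC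
  have hcz : CharZero ↥C⟮x⟯ := charZero_of_injective_algebraMap (algebraMap C ↥C⟮x⟯).injective
  have hsepC : Algebra.IsSeparable ↥C⟮x⟯ F := inferInstance
  obtain ⟨m, bF, hbV, bt, hbB, hbt, hspan⟩ := exists_good_basis hx hxt hdeg
  obtain ⟨c, P, hP, hdisc⟩ :=
    exists_transition (R := ↥(Algebra.adjoin C {x})) (K := ↥C⟮x⟯) (L := F) bF hbB
  obtain ⟨D₀, hD₀, hd, hD₀ne⟩ := exists_discr_lift hx hxt bF hbV bt hbt _ hdisc
  have hm : Module.finrank ↥C⟮x⟯ F = m := by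
    rw [Module.finrank_eq_card_basis bF, Fintype.card_fin]
  have hdet : ∀ ρ : ↥S.O, ¬ piRho x (ρ : C) ∣ P.det := fun ρ =>
    stmt_notDvdDet C F k Ft S x hx hxt hdeg m bF hbV hbB bt hbt hspan c P hP ρ ρ.2
  have hD₀0 : D₀ ≠ 0 := by
    rintro rfl
    exact hD₀ne (Polynomial.map_zero _)
  have hroot_dvd : ∀ (ρ : ↥S.O) (N : ℕ), (Polynomial.X - Polynomial.C ρ) ^ N ∣ D₀ →
      piRho x (ρ : C) ^ N ∣ Algebra.discr ↥(Algebra.adjoin C {x}) c := by
    intro ρ N hN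
    have h1 : piRho x (ρ : C) ^ N ∣ P.det ^ 2 * Algebra.discr ↥(Algebra.adjoin C {x}) c := by
      rw [← hD₀, psiR_eq, pow_dvd_polyEquiv_iff]
      have h2 := Polynomial.map_dvd S.O.subtype hN
      rwa [Polynomial.map_pow, Polynomial.map_sub, Polynomial.map_X, Polynomial.map_C] at h2
    refine (prime_piRho hxC (ρ : C)).pow_dvd_of_dvd_mul_left N ?_ h1
    intro h3
    exact hdet ρ ((prime_piRho hxC (ρ : C)).dvd_of_dvd_pow h3)
  have hbranch : ∀ ρ : ↥S.O, D₀.IsRoot ρ → IsBranchValue x (ρ : C) := by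
    intro ρ hρ
    have h1 := hroot_dvd ρ 1 (by rw [pow_one]; exact Polynomial.dvd_iff_isRoot.2 hρ)
    have h2 := not_pow_dvd_discr hxC c (ρ : C)
    unfold IsBranchValue
    rw [hm]
    by_contra hlt
    rw [not_lt] at hlt
    rw [Nat.sub_eq_zero_of_le hlt, zero_add] at h2
    exact h2 h1
  have hbtint : ∀ i, IsIntegral ↥(Algebra.adjoin k {S.red ⟨x, hx⟩}) (bt i) := by
    intro i
    rw [hbt i]
    exact red_isIntegral hx hxt hdeg _ (hbB i) (hbV i)
  obtain ⟨ct, Pt, hPt, hdisct⟩ :=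
    exists_transition (R := ↥(Algebra.adjoin k {S.red ⟨x, hx⟩})) (K := ↥k⟮S.red ⟨x, hx⟩⟯)
      (L := Ft) bt hbtint
  set γ := S.resO ρ with hγ
  set r := (ptsOver x (ρ : C)).ncard with hr
  set rt := (ptsOver (S.red ⟨x, hx⟩) γ).ncard with hrt
  have hrm : r ≤ m := ncard_ptsOver_le hxC c (ρ : C)
  have hrtm : rt ≤ m := ncard_ptsOver_le hxt ct γ
  -- Dedekind's bound on the reduced side
  have h1 : piRho (S.red ⟨x, hx⟩) γ ^ (m - rt) ∣ S.psiT hx D₀ := by
    have h2 := pow_dvd_discr_ptsOver hxt ct γ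
    have h3 : Pt.det ^ 2 * Algebra.discr ↥(Algebra.adjoin k {S.red ⟨x, hx⟩}) ct = S.psiT hx D₀ := by
      apply IsFractionRing.injective ↥(Algebra.adjoin k {S.red ⟨x, hx⟩}) ↥k⟮S.red ⟨x, hx⟩⟯
      rw [hdisct, hd]
    rw [← h3]
    exact h2.mul_left _
  by_contra hlt
  rw [not_le] at hlt
  have hpos : 1 ≤ m - rt := by omega
  rw [psiT_eq hx hxt, pow_dvd_polyEquiv_iff, ← Polynomial.le_rootMultiplicity_iff hD₀ne] at h1
  have hγroot : (D₀.map S.resO).IsRoot γ := by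
    rw [← Polynomial.rootMultiplicity_pos hD₀ne]
    omega
  obtain ⟨ρ₀, hρ₀, hρroot, hmult⟩ := H82.stmt_rootRed C k S.O S.resO S.resO_surj
    S.resO_eq_zero_iff D₀ hD₀ne γ hγroot
  have hρ₀eq : ρ₀ = ρ := hρ ρ₀ (hbranch ρ₀ hρroot) hρ₀
  subst hρ₀eq
  have hmult' := hmult (fun ρ' hρ' hroot' => hρ ρ' (hbranch ρ' hroot') hρ')
  rw [hmult', Polynomial.le_rootMultiplicity_iff hD₀0] at h1
  have h4 := hroot_dvd ρ₀ _ h1
  have h5 := not_pow_dvd_discr hxC c (ρ₀ : C)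
  apply h5
  refine (pow_dvd_pow _ ?_).trans h4
  omega

/-- **(FIB)** the number of points of the reduced chart over `γ = ρ mod m` equals the number of
points of the chart over `ρ`, if `ρ` is the only possible branch value in its residue class. -/
theorem ncard_ptsOver_red [IsAlgClosed C] [CharZero C] [IsAlgClosed k]
    (hxt : Transcendental k (S.red ⟨x, hx⟩)) [FiniteDimensional ↥C⟮x⟯ F]
    (hdeg : Module.finrank ↥k⟮S.red ⟨x, hx⟩⟯ Ft = Module.finrank ↥C⟮x⟯ F)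
    [Algebra.IsSeparable ↥k⟮S.red ⟨x, hx⟩⟯ Ft]
    (hD : ∀ ρ ρ' : ↥(S.V.comap (algebraMap C F)), IsBranchValue x (ρ : C) →
      IsBranchValue x (ρ' : C) → S.resO ρ = S.resO ρ' → ρ = ρ')
    (ρ : ↥S.O)
    (hρ : ∀ ρ' : ↥S.O, IsBranchValue x (ρ' : C) → S.resO ρ' = S.resO ρ → ρ' = ρ) :
    (ptsOver (S.red ⟨x, hx⟩) (S.resO ρ)).ncard = (ptsOver x (ρ : C)).ncard :=
  le_antisymm
    (ncard_ptsOver_red_le hx hxt hdeg
      (stmt_chartNormal C F k Ft S x hx hxt inferInstance hdeg inferInstance hD) ρ)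
    (ncard_ptsOver_red_ge hx hxt hdeg ρ hρ)

end RedSetting

end Fermat.Agent.RED.H34
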