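/-
Cluster G-RED, FF-B piece P1 (helper12): existence of zeros, any characteristic.

`exists_place_ord_pos`: `K` algebraically closed, `F/K` a function field (finite over `K(y)` for
every transcendental `y`), `x ∈ F` transcendental.  Then some place `v` of `F/K` has
`0 < v.ord x`.

Route (Stichtenoth 1.1.6): take a valuation subring `B ⊇ K[x]` of `F` in which `x` is a nonunit
(Mathlib `Ideal.image_subset_nonunits_valuationSubring`); elements with pairwise distinct values
in `[v t, 1)` are linearly independent over `K(t)`, so there are at most `[F : K(t)]` such values;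
hence the maximal ideal is principal and every nonzero element is `unit * π ^ n`: `B` is a
discrete valuation ring.
-/
import Mathlib
import Fermat.Prelude.Def_AlgebraicCurve_DivisorClassGroup

set_option autoImplicit false

namespace Fermat.Agent.RED.H12

open Polynomial IntermediateField AlgebraicCurve

variable {K F : Type*} [Field K] [Field F] [Algebra K F]

section Val

variable (B : ValuationSubring F)

lemma val_algebraMap (hK : ∀ a : K, algebraMap K F a ∈ B) {a : K} (ha : a ≠ 0) :
    B.valuation (algebraMap K F a) = 1 := by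
  have h1 : B.valuation (algebraMap K F a) ≤ 1 := (B.valuation_le_one_iff _).mpr (hK a)
  have h2 : B.valuation (algebraMap K F a⁻¹) ≤ 1 := (B.valuation_le_one_iff _).mpr (hK a⁻¹)
  have h3 : B.valuation (algebraMap K F a) * B.valuation (algebraMap K F a⁻¹) = 1 := by
    rw [← map_mul, ← map_mul, mul_inv_cancel₀ ha, map_one, map_one]
  by_contra hne
  have hlt : B.valuation (algebraMap K F a) < 1 := lt_of_le_of_ne h1 hne
  have : B.valuation (algebraMap K F a) * B.valuation (algebraMap K F a⁻¹) < 1 :=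
    mul_lt_one_of_lt_of_le hlt h2
  rw [h3] at this
  exact lt_irrefl _ this

lemma aeval_mem (hK : ∀ a : K, algebraMap K F a ∈ B) {t : F} (ht : t ∈ B) (p : K[X]) :
    aeval t p ∈ B := by
  induction p using Polynomial.induction_on' with
  | add p q hp hq => rw [map_add]; exact B.add_mem _ _ hp hq
  | monomial n a =>
    rw [aeval_monomial]
    exact B.mul_mem _ _ (hK a) (B.pow_mem ht n)

lemma val_aeval_eq_one (hK : ∀ a : K, algebraMap K F a ∈ B) {t : F} (ht : B.valuation t < 1)
    (q : K[X]) (hq : q.coeff 0 ≠ 0) : B.valuation (aeval t q) = 1 := by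
  have htB : t ∈ B := (B.valuation_le_one_iff _).mp ht.le
  have e : aeval t q = aeval t q.divX * t + algebraMap K F (q.coeff 0) := by
    conv_lhs => rw [← Polynomial.divX_mul_X_add q]
    simp
  rw [e]
  have h1 : B.valuation (aeval t q.divX * t) < 1 := by
    rw [map_mul]
    calc B.valuation (aeval t q.divX) * B.valuation t
        ≤ 1 * B.valuation t :=
          mul_le_mul_left ((B.valuation_le_one_iff _).mpr (aeval_mem B hK htB _)) _
      _ = B.valuation t := one_mul _
      _ < 1 := ht
  have h2 := val_algebraMap B hK hq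
  rw [← h2] at h1
  rw [Valuation.map_add_eq_of_lt_right _ h1, h2]

lemma val_aeval (hK : ∀ a : K, algebraMap K F a ∈ B) {t : F} (ht : B.valuation t < 1)
    (p : K[X]) (hp : p ≠ 0) :
    B.valuation (aeval t p) = B.valuation t ^ (p.rootMultiplicity 0) := by
  obtain ⟨q, hpq, hq⟩ := Polynomial.exists_eq_pow_rootMultiplicity_mul_and_not_dvd p hp 0
  rw [map_zero, sub_zero] at hpq hq
  have hq0 : q.coeff 0 ≠ 0 := fun h => hq (Polynomial.X_dvd_iff.mpr h)
  conv_lhs => rw [hpq]
  rw [map_mul, map_pow, aeval_X, map_mul, map_pow, val_aeval_eq_one B hK ht q hq0, mul_one]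

end Val

/-- A finite sum of terms with pairwise distinct valuations (among the nonzero ones), not all
zero, is nonzero. -/
lemma sum_ne_zero_of_val_injOn {Γ : Type*} [LinearOrderedCommGroupWithZero Γ]
    (v : Valuation F Γ) {ι : Type*} (s : Finset ι) (f : ι → F)
    (hne : ∃ i ∈ s, f i ≠ 0)
    (hinj : ∀ i ∈ s, ∀ j ∈ s, f i ≠ 0 → f j ≠ 0 → v (f i) = v (f j) → i = j) :
    ∑ i ∈ s, f i ≠ 0 := by
  classical
  obtain ⟨i₀, hi₀, hfi₀⟩ := hne
  obtain ⟨j, hj, hmax⟩ := Finset.exists_max_image s (fun i => v (f i)) ⟨i₀, hi₀⟩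
  have hfj : f j ≠ 0 := by
    intro h
    have := hmax i₀ hi₀
    rw [h, map_zero] at this
    exact hfi₀ ((Valuation.zero_iff v).mp (le_antisymm this zero_le))
  have hvj : v (f j) ≠ 0 := (Valuation.ne_zero_iff v).mpr hfj
  have hlt : ∀ i ∈ s.erase j, v (f i) < v (f j) := by
    intro i hi
    have hij : i ≠ j := Finset.ne_of_mem_erase hi
    have his : i ∈ s := Finset.mem_of_mem_erase hi
    by_cases hfi : f i = 0
    · rw [hfi, map_zero]; exact zero_lt_iff.mpr hvj
    · exact lt_of_le_of_ne (hmax i his) (fun h => hij (hinj i his j hj hfi hfj h))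
  have hsum : v (∑ i ∈ s.erase j, f i) < v (f j) := Valuation.map_sum_lt v hvj hlt
  rw [← Finset.add_sum_erase s f hj]
  intro h0
  have := Valuation.map_add_eq_of_lt_left v hsum
  rw [h0, map_zero] at this
  exact hvj this.symm


section Order

variable {Γ : Type*} [LinearOrderedCommGroupWithZero Γ]

lemma pow_lt_one_of_lt {a : Γ} (ha : a < 1) {n : ℕ} (hn : n ≠ 0) : a ^ n < 1 :=
  pow_lt_one₀ zero_le ha hn

lemma pow_mul_lt_aux {a b c : Γ} (ha0 : a ≠ 0) (ha : a < 1) (hb : a ≤ b) (hc : c < 1)
    {k l : ℕ} (hkl : k < l) : a ^ k * b ≠ a ^ l * c := by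
  intro h
  obtain ⟨d, rfl⟩ := Nat.exists_eq_add_of_lt hkl
  have h1 : a ^ (k + d + 1) = a ^ k * (a ^ d * a) := by
    rw [pow_succ, pow_add, mul_assoc]
  rw [h1, mul_assoc] at h
  have h2 : b = a ^ d * a * c := mul_left_cancel₀ (pow_ne_zero k ha0) h
  have h3 : a ^ d ≤ 1 := pow_le_one₀ zero_le ha.le
  have h4 : a ^ d * a * c ≤ a * c := by
    calc a ^ d * a * c = a ^ d * (a * c) := mul_assoc _ _ _
      _ ≤ 1 * (a * c) := mul_le_mul_left h3 _
      _ = a * c := one_mul _
  have h5 : a * c < a := by
    calc a * c < a * 1 := by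
          rcases eq_or_ne c 0 with rfl | hc0
          · rw [mul_zero, mul_one]; exact zero_lt_iff.mpr ha0
          · exact mul_lt_mul_of_pos_left hc (zero_lt_iff.mpr ha0)
      _ = a := mul_one a
  have : b < a := h2 ▸ lt_of_le_of_lt h4 h5
  exact absurd hb (not_le.mpr this)

lemma pow_mul_inj {a b c : Γ} (ha0 : a ≠ 0) (ha : a < 1) (hb : a ≤ b) (hb1 : b < 1)
    (hc : a ≤ c) (hc1 : c < 1) {k l : ℕ} (h : a ^ k * b = a ^ l * c) : b = c := by
  rcases lt_trichotomy k l with hkl | hkl | hkl
  · exact absurd h (pow_mul_lt_aux ha0 ha hb hc1 hkl)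
  · subst hkl
    exact mul_left_cancel₀ (pow_ne_zero k ha0) h
  · exact absurd h.symm (pow_mul_lt_aux ha0 ha hc hb1 hkl)

end Order

section LinIndep

open scoped IntermediateField.algebraAdjoinAdjoin

variable (B : ValuationSubring F)

lemma exists_val_eq_pow (hK : ∀ a : K, algebraMap K F a ∈ B) {t : F} (ht : B.valuation t < 1)
    (g : Algebra.adjoin K {t}) (hg : g ≠ 0) :
    ∃ k : ℕ, B.valuation (g : F) = B.valuation t ^ k := by
  have hmem : (g : F) ∈ (aeval (R := K) t).range := by
    rw [← Algebra.adjoin_singleton_eq_range_aeval]; exact g.2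
  obtain ⟨p, hp⟩ := hmem
  have hp0 : p ≠ 0 := by
    rintro rfl
    apply hg
    apply Subtype.ext
    rw [← hp]; simp
  exact ⟨p.rootMultiplicity 0, by rw [← hp]; exact val_aeval B hK ht p hp0⟩

lemma linearIndependent_of_val (hK : ∀ a : K, algebraMap K F a ∈ B) {t : F} (ht0 : t ≠ 0)
    (ht : B.valuation t < 1) {ι : Type*} (y : ι → F)
    (hy1 : ∀ i, B.valuation t ≤ B.valuation (y i)) (hy2 : ∀ i, B.valuation (y i) < 1)
    (hinj : Function.Injective (fun i => B.valuation (y i))) :
    LinearIndependent K⟮t⟯ y := by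
  rw [← LinearIndependent.iff_fractionRing (Algebra.adjoin K {t}) K⟮t⟯]
  rw [linearIndependent_iff']
  intro s g hsum i hi
  by_contra hgi
  have hvt0 : B.valuation t ≠ 0 := (Valuation.ne_zero_iff _).mpr ht0
  have hy0 : ∀ j, y j ≠ 0 := fun j h => by
    have := hy1 j
    rw [h, map_zero] at this
    exact hvt0 (le_antisymm this zero_le)
  have hsmul : ∀ j, g j • y j = (g j : F) * y j := fun j => rfl
  have hne0 : ∀ j, g j • y j ≠ 0 ↔ g j ≠ 0 := by
    intro j
    rw [hsmul]
    constructor
    · intro h h0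
      apply h
      rw [h0]; simp
    · intro h
      refine mul_ne_zero ?_ (hy0 j)
      exact fun h0 => h (Subtype.ext h0)
  refine sum_ne_zero_of_val_injOn B.valuation s (fun j => g j • y j)
    ⟨i, hi, (hne0 i).mpr hgi⟩ ?_ hsum
  intro j _ l _ hj hl hjl
  obtain ⟨k, hk⟩ := exists_val_eq_pow B hK ht (g j) ((hne0 j).mp hj)
  obtain ⟨m, hm⟩ := exists_val_eq_pow B hK ht (g l) ((hne0 l).mp hl)
  simp only [hsmul, map_mul, hk, hm] at hjl
  exact hinj (pow_mul_inj hvt0 ht (hy1 j) (hy2 j) (hy1 l) (hy2 l) hjl)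

end LinIndep


section Finite

variable (B : ValuationSubring F)

/-- The values in `[v t, 1)`. -/
def valSet (t : F) : Set B.ValueGroup :=
  {γ | ∃ y : F, B.valuation y = γ ∧ B.valuation t ≤ γ ∧ γ < 1}

lemma valSet_finite (hK : ∀ a : K, algebraMap K F a ∈ B) {t : F} (ht0 : t ≠ 0)
    (ht : B.valuation t < 1) [FiniteDimensional K⟮t⟯ F] : (valSet B t).Finite := by
  classical
  by_contra hinf
  have hinf' : (valSet B t).Infinite := hinf
  obtain ⟨T, hT, hcard⟩ := hinf'.exists_subset_card_eq (Module.finrank K⟮t⟯ F + 1)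
  have hch : ∀ γ : T, ∃ y : F, B.valuation y = γ ∧ B.valuation t ≤ γ ∧ (γ : B.ValueGroup) < 1 :=
    fun γ => hT γ.2
  choose y hy using hch
  have hli : LinearIndependent K⟮t⟯ y := by
    apply linearIndependent_of_val B hK ht0 ht y
    · intro i; rw [(hy i).1]; exact (hy i).2.1
    · intro i; rw [(hy i).1]; exact (hy i).2.2
    · intro i j hij
      simp only [(hy i).1, (hy j).1] at hij
      exact Subtype.ext hij
  have := hli.fintype_card_le_finrank
  rw [Fintype.card_coe, hcard] at this
  omega

end Finite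


section DVR

variable (B : ValuationSubring F)

/-- Nonzero nonunits of a valuation ring containing the algebraically closed field `K` are
transcendental over `K`. -/
lemma transcendental_of_val_lt_one [IsAlgClosed K] (hK : ∀ a : K, algebraMap K F a ∈ B)
    {y : F} (hy0 : y ≠ 0) (hy : B.valuation y < 1) : Transcendental K y := by
  intro halg
  have hint : IsIntegral K y := halg.isIntegral
  have hdeg : (minpoly K y).degree = 1 :=
    IsAlgClosed.degree_eq_one_of_irreducible K (minpoly.irreducible hint)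
  obtain ⟨a, ha⟩ := minpoly.mem_range_of_degree_eq_one K y hdeg
  have ha0 : a ≠ 0 := by
    rintro rfl
    exact hy0 (by rw [← ha, map_zero])
  have := val_algebraMap B hK ha0
  rw [ha] at this
  exact absurd this (ne_of_lt hy)

theorem exists_generator [IsAlgClosed K] (hK : ∀ a : K, algebraMap K F a ∈ B)
    (hfin : ∀ y : F, Transcendental K y → FiniteDimensional K⟮y⟯ F)
    {x : F} (hx0 : x ≠ 0) (hx : B.valuation x < 1) :
    ∃ π : F, B.valuation π < 1 ∧ π ≠ 0 ∧
      (∀ y, B.valuation y < 1 → B.valuation y ≤ B.valuation π) ∧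
      ∀ y, y ≠ 0 → B.valuation y ≤ 1 → ∃ n : ℕ, B.valuation y = B.valuation π ^ n := by
  have := hfin x (transcendental_of_val_lt_one B hK hx0 hx)
  have hV := valSet_finite B hK hx0 hx
  have hne : (valSet B x).Nonempty := ⟨B.valuation x, x, rfl, le_rfl, hx⟩
  obtain ⟨γ, hγmem, hγmax⟩ := Set.exists_max_image (valSet B x) id hV hne
  obtain ⟨π, hπv, hπ1, hπ2⟩ := hγmem
  have hvx0 : B.valuation x ≠ 0 := (Valuation.ne_zero_iff _).mpr hx0
  have hγ0 : γ ≠ 0 := fun h => hvx0 (le_antisymm (h ▸ hπ1) zero_le)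
  have hπ0 : π ≠ 0 := (Valuation.ne_zero_iff _).mp (hπv ▸ hγ0)
  have hγpos : 0 < γ := zero_lt_iff.mpr hγ0
  have E1 : ∀ y, B.valuation y < 1 → B.valuation y ≤ γ := by
    intro y hy
    by_contra h
    rw [not_le] at h
    have hm : B.valuation y ∈ valSet B x := ⟨y, rfl, le_trans hπ1 h.le, hy⟩
    exact absurd (hγmax _ hm) (not_le.mpr h)
  refine ⟨π, hπv ▸ hπ2, hπ0, fun y hy => hπv ▸ E1 y hy, ?_⟩
  intro y hy0 hy1
  rw [hπv]
  rcases eq_or_lt_of_le hy1 with h1 | hlt
  · exact ⟨0, by rw [h1, pow_zero]⟩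
  have := hfin y (transcendental_of_val_lt_one B hK hy0 hlt)
  have hVy := valSet_finite B hK hy0 hlt
  have hex : ∃ n : ℕ, γ ^ n ≤ B.valuation y := by
    by_contra hno
    push Not at hno
    have hinj : Function.Injective (fun n : ℕ => γ ^ (n + 1)) := by
      intro a b hab
      have := (pow_right_strictAnti₀ hγpos hπ2).injective hab
      omega
    have hmem : ∀ n : ℕ, (fun n : ℕ => γ ^ (n + 1)) n ∈ valSet B y := by
      intro n
      refine ⟨π ^ (n + 1), by rw [map_pow, hπv], (hno (n + 1)).le, ?_⟩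
      exact pow_lt_one₀ zero_le hπ2 (Nat.succ_ne_zero n)
    exact (Set.infinite_of_injective_forall_mem hinj hmem) hVy
  classical
  have hspec := Nat.find_spec hex
  have hmin := fun m (hm : m < Nat.find hex) => Nat.find_min hex hm
  rcases hn : Nat.find hex with _ | m
  · rw [hn, pow_zero] at hspec
    exact absurd hlt (not_lt.mpr hspec)
  · rw [hn] at hspec
    have hm : ¬ γ ^ m ≤ B.valuation y := hmin m (by rw [hn]; exact Nat.lt_succ_self m)
    rw [not_le] at hm
    have hγm : 0 < γ ^ m := pow_pos hγpos m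
    have hz : B.valuation (y / π ^ m) < 1 := by
      rw [map_div₀, map_pow, hπv]
      exact (div_lt_one₀ hγm).mpr hm
    have hz2 := E1 _ hz
    rw [map_div₀, map_pow, hπv, div_le_iff₀ hγm] at hz2
    refine ⟨m + 1, le_antisymm ?_ hspec⟩
    rw [pow_succ, mul_comm]
    exact hz2

theorem hasUnitMulPowIrreducibleFactorization [IsAlgClosed K]
    (hK : ∀ a : K, algebraMap K F a ∈ B)
    (hfin : ∀ y : F, Transcendental K y → FiniteDimensional K⟮y⟯ F)
    {x : F} (hx0 : x ≠ 0) (hx : B.valuation x < 1) :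
    IsDiscreteValuationRing.HasUnitMulPowIrreducibleFactorization B := by
  obtain ⟨π, hπ1, hπ0, hmax, hpow⟩ := exists_generator B hK hfin hx0 hx
  have hπB : π ∈ B := (B.valuation_le_one_iff π).mp hπ1.le
  have hγpos : 0 < B.valuation π := zero_lt_iff.mpr ((Valuation.ne_zero_iff _).mpr hπ0)
  refine ⟨⟨π, hπB⟩, ?_, ?_⟩
  · rw [irreducible_iff]
    refine ⟨fun hu => ?_, fun a b hab => ?_⟩
    · have := (B.valuation_eq_one_iff ⟨π, hπB⟩).mp hu
      exact absurd this (ne_of_lt hπ1)
    · by_contra hno
      push Not at hno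
      have ha : B.valuation (a : F) < 1 :=
        (B.valuation_lt_one_or_eq_one a).resolve_right
          (fun h => hno.1 ((B.valuation_eq_one_iff a).mpr h))
      have hb : B.valuation (b : F) < 1 :=
        (B.valuation_lt_one_or_eq_one b).resolve_right
          (fun h => hno.2 ((B.valuation_eq_one_iff b).mpr h))
      have hπab : π = (a : F) * (b : F) := congrArg Subtype.val hab
      have h1 : B.valuation π ≤ B.valuation π * B.valuation π := by
        conv_lhs => rw [hπab, map_mul]
        exact mul_le_mul' (hmax _ ha) (hmax _ hb)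
      have h2 : B.valuation π * B.valuation π < B.valuation π := by
        calc B.valuation π * B.valuation π < B.valuation π * 1 :=
              mul_lt_mul_of_pos_left hπ1 hγpos
          _ = B.valuation π := mul_one _
      exact absurd h1 (not_le.mpr h2)
  · intro y hy
    have hyF : (y : F) ≠ 0 := fun h => hy (Subtype.ext h)
    obtain ⟨n, hn⟩ := hpow (y : F) hyF (B.valuation_le_one y)
    refine ⟨n, associated_of_dvd_dvd ?_ ?_⟩
    · have h1 : B.valuation (y : F) ≤ B.valuation (π ^ n) := by rw [map_pow, hn]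
      obtain ⟨a, ha⟩ := (B.valuation_le_iff _ _).mp h1
      exact ⟨a, Subtype.ext (by rw [mul_comm]; exact ha.symm)⟩
    · have h1 : B.valuation (π ^ n) ≤ B.valuation (y : F) := by rw [map_pow, hn]
      obtain ⟨a, ha⟩ := (B.valuation_le_iff _ _).mp h1
      exact ⟨a, Subtype.ext (by rw [mul_comm]; exact ha.symm)⟩

end DVR


section Exists

/-- A valuation subring of `F` containing `K` in which the transcendental element `x` is a
nonunit. -/
theorem exists_valuationSubring (x : F) (hx : Transcendental K x) :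
    ∃ B : ValuationSubring F, (∀ a : K, algebraMap K F a ∈ B) ∧ B.valuation x < 1 := by
  let A : Subring F := (Algebra.adjoin K {x}).toSubring
  have hxA : x ∈ A := Algebra.self_mem_adjoin_singleton K x
  have hI : Ideal.span {(⟨x, hxA⟩ : A)} ≠ ⊤ := by
    intro htop
    rw [Ideal.span_singleton_eq_top] at htop
    obtain ⟨g, hg⟩ := htop.exists_right_inv
    have hgm : (g : F) ∈ (aeval (R := K) x).range := by
      rw [← Algebra.adjoin_singleton_eq_range_aeval]; exact g.2
    obtain ⟨p, hp⟩ := hgm
    have h1 : x * (g : F) = 1 := congrArg Subtype.val hg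
    have hp' : aeval x p = (g : F) := hp
    have h2 : aeval x (X * p - 1 : K[X]) = 0 := by
      rw [map_sub, map_mul, aeval_X, hp', h1, map_one, sub_self]
    have h3 := (transcendental_iff.mp hx) _ h2
    have h4 := congrArg (fun q : K[X] => q.coeff 0) h3
    simp at h4
  obtain ⟨B, hAB, hIB⟩ := Ideal.image_subset_nonunits_valuationSubring _ hI
  refine ⟨B, fun a => hAB (Subalgebra.algebraMap_mem (Algebra.adjoin K {x}) a), ?_⟩
  rw [← ValuationSubring.mem_nonunits_iff]
  exact hIB ⟨⟨x, hxA⟩, Ideal.subset_span rfl, rfl⟩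

theorem ord_pos_of_val_lt_one (v : Place K F) {f : F} (hf : f ≠ 0)
    (h : v.toValuationSubring.valuation f < 1) : 0 < v.ord f := by
  have hfB : f ∈ v.toValuationSubring := (v.toValuationSubring.valuation_le_one_iff f).mp h.le
  have hm : (⟨f, hfB⟩ : v.toValuationSubring) ∈ IsLocalRing.maximalIdeal v.toValuationSubring :=
    (v.toValuationSubring.valuation_lt_one_iff ⟨f, hfB⟩).mpr h
  have h1 : v.adicValuation f < 1 := by
    have := v.adicValuation_coe ⟨f, hfB⟩
    rw [show ((⟨f, hfB⟩ : v.toValuationSubring) : F) = f from rfl] at this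
    rw [this]
    exact (IsDedekindDomain.HeightOneSpectrum.intValuation_lt_one_iff_mem _ _).mpr hm
  have h2 : WithZero.log (v.adicValuation f) < 0 := by
    rw [← WithZero.log_one]
    exact (WithZero.log_lt_log (v.adicValuation_ne_zero hf) one_ne_zero).mpr h1
  simp only [Place.ord]
  omega

/-- **Existence of zeros** (Stichtenoth 1.1.6 + 1.1.19): in a function field over an
algebraically closed field, every transcendental element has a zero. -/
theorem exists_place_ord_pos [IsAlgClosed K]
    (hfin : ∀ y : F, Transcendental K y → FiniteDimensional K⟮y⟯ F)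
    (x : F) (hx : Transcendental K x) : ∃ v : Place K F, 0 < v.ord x := by
  obtain ⟨B, hK, hxv⟩ := exists_valuationSubring x hx
  have hx0 : x ≠ 0 := fun h => hx (h ▸ isAlgebraic_zero)
  have hfact := hasUnitMulPowIrreducibleFactorization B hK hfin hx0 hxv
  have hdvr : IsDiscreteValuationRing B :=
    IsDiscreteValuationRing.ofHasUnitMulPowIrreducibleFactorization hfact
  have hne : B ≠ ⊤ := by
    rintro rfl
    have h1 : (⊤ : ValuationSubring F).valuation x⁻¹ ≤ 1 :=
      (ValuationSubring.valuation_le_one_iff _ _).mpr (ValuationSubring.mem_top _)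
    rw [map_inv₀] at h1
    have h2 : 1 < ((⊤ : ValuationSubring F).valuation x)⁻¹ :=
      (one_lt_inv₀ (zero_lt_iff.mpr ((Valuation.ne_zero_iff _).mpr hx0))).mpr hxv
    exact absurd h1 (not_le.mpr h2)
  let v : Place K F := ⟨B, hK, hne, inferInstance⟩
  exact ⟨v, ord_pos_of_val_lt_one v hx0 hxv⟩

end Exists

end Fermat.Agent.RED.H12
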