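import Mathlib
import Fermat.Agent.RED.H51_ZerosLe
import Fermat.Agent.RED.H51_Basic
import Fermat.Prelude.Def_AlgebraicCurve_Correspondence

/-!
# FF-B, piece P7 (helper51): the fundamental identity `∑_{w | v} e(w | v) = [F' : F]`

* `sum_ramificationIndex_le` : the inequality `≤`, for any finite set of places over `v`
  (core independence lemma);
* `fundamentalIdentity_of_zeros` : equality, from the zeros theorem in `F` and in `F'`;
* `stmt_FFB_fundamental_of : H42.ZerosAll → Stmt_FFB_fundamental`.
-/

set_option autoImplicit false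
set_option linter.style.haveILetI false

noncomputable section

open AlgebraicCurve IntermediateField

namespace Fermat.Agent.RED.H51

section Rel

variable {K F F' : Type*} [Field K] [Field F] [Field F'] [Algebra K F] [Algebra K F']
  [Algebra F F'] [IsScalarTower K F F'] [Algebra.IsIntegral F F']

/-- The places over `v` are compatible with the base field `F`. -/
theorem compat_of_restrict (v : Place K F) {ι : Type*} [Fintype ι] (w : ι → Place K F')
    (hw : ∀ j, (w j).restrict F = v) :
    Compat w (fun j => (w j).ramificationIndex F) F := by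
  obtain ⟨t, ht0, ht⟩ := exists_uniformizer v
  refine ⟨⟨t, ht0, fun j => ?_⟩, fun c _ => ⟨v.ord c, fun j => ?_⟩⟩
  · rw [(w j).ord_restrict t, hw j, ht, mul_one]
  · rw [(w j).ord_restrict c, hw j]

/-- `∑ e(w | v) ≤ [F' : F]` for every finite set of places over `v`. -/
theorem sum_ramificationIndex_le [Module.Finite F F'] (v : Place K F)
    (S : Finset (Place K F')) (hS : ∀ w ∈ S, w.restrict F = v) :
    ∑ w ∈ S, w.ramificationIndex F ≤ Module.finrank F F' := by
  have h := sum_le_finrank
    (compat_of_restrict v (fun w : S => (w : Place K F')) (fun w => hS w w.2))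
    Subtype.val_injective
  rwa [Finset.sum_coe_sort S (fun w => w.ramificationIndex F)] at h

/-- An element of nonzero order at some place is transcendental over the algebraically closed
field of constants. -/
theorem transcendental_of_ord_ne_zero [IsAlgClosed K] (v : Place K F) {x : F}
    (hx : v.ord x ≠ 0) : Transcendental K x := by
  intro halg
  have hint : IsIntegral K x := halg.isIntegral
  have hdeg1 : (minpoly K x).degree = 1 :=
    IsAlgClosed.degree_eq_one_of_irreducible K (minpoly.irreducible hint)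
  obtain ⟨a, ha⟩ := minpoly.mem_range_of_degree_eq_one K x hdeg1
  apply hx
  rw [← ha]
  exact ord_algebraMap v a

omit [Algebra.IsIntegral F F'] in
/-- `[F' : K(x')] = [F : K(x)] [F' : F]` for the image `x'` of `x`. -/
theorem finrank_adjoin_algebraMap (x : F) :
    Module.finrank K⟮algebraMap F F' x⟯ F' = Module.finrank K⟮x⟯ F * Module.finrank F F' := by
  rw [Module.finrank_mul_finrank K⟮x⟯ F F']
  symm
  have hmap : K⟮x⟯.map (IsScalarTower.toAlgHom K F F') = K⟮algebraMap F F' x⟯ := by
    rw [adjoin_map, Set.image_singleton]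
    rfl
  let i : K⟮x⟯ ≃ₐ[K] K⟮algebraMap F F' x⟯ :=
    (equivMap K⟮x⟯ (IsScalarTower.toAlgHom K F F')).trans (equivOfEq hmap)
  refine Algebra.finrank_eq_of_equiv_equiv (i : K⟮x⟯ ≃+* K⟮algebraMap F F' x⟯)
    (RingEquiv.refl F') ?_
  ext c
  rfl

end Rel

section Main

variable {K F F' : Type*} [Field K] [Field F] [Field F'] [Algebra K F] [Algebra K F']
  [Algebra F F'] [IsScalarTower K F F'] [Algebra.IsIntegral F F']

open Fermat.Agent.S24 in
/-- The fundamental identity at `v`, in the form `∑_{w | v} e(w | v) = [F' : F]`, for every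
finite set `T` containing all the places over `v`. -/
theorem sum_ramificationIndex_eq [IsAlgClosed K] [Module.Finite F F']
    (hzF : H59.ZerosStmt K F) (hzF' : H59.ZerosStmt K F')
    {x₀ : F} (hx₀ : Transcendental K x₀) [FiniteDimensional K⟮x₀⟯ F]
    {x₀' : F'} (hx₀' : Transcendental K x₀') [FiniteDimensional K⟮x₀'⟯ F']
    (v : Place K F) (T : Finset (Place K F')) (hT : ∀ w, w ∈ T ↔ w.restrict F = v) :
    ∑ w ∈ T, w.ramificationIndex F = Module.finrank F F' := by
  classical
  obtain ⟨x, hx0, hxv⟩ := exists_uniformizer v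
  have hxtr : Transcendental K x := transcendental_of_ord_ne_zero v (by omega)
  haveI : FiniteDimensional K⟮x⟯ F := ff_finite_of_transcendental x₀ hx₀ x hxtr
  set x' : F' := algebraMap F F' x with hx'
  have hx'tr : Transcendental K x' :=
    (transcendental_algebraMap_iff (algebraMap F F').injective).mpr hxtr
  haveI : FiniteDimensional K⟮x'⟯ F' := ff_finite_of_transcendental x₀' hx₀' x' hx'tr
  obtain ⟨hZfin, hZsum⟩ := hzF x hxtr
  obtain ⟨hZ'fin, hZ'sum⟩ := hzF' x' hx'tr
  rw [finsum_mem_eq_finite_toFinset_sum _ hZfin] at hZsum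
  rw [finsum_mem_eq_finite_toFinset_sum _ hZ'fin] at hZ'sum
  set Z := hZfin.toFinset with hZdef
  set Z' := hZ'fin.toFinset with hZ'def
  have hmemZ : ∀ u, u ∈ Z ↔ 0 < u.ord x := fun u => by
    rw [hZdef, Set.Finite.mem_toFinset]; rfl
  have hmemZ' : ∀ w, w ∈ Z' ↔ 0 < w.ord x' := fun w => by
    rw [hZ'def, Set.Finite.mem_toFinset]; rfl
  have hepos : ∀ w : Place K F', 0 < w.ramificationIndex F := fun w =>
    w.ramificationIndex_pos (F := F)
  have hordw : ∀ w : Place K F', w.ord x' = w.ramificationIndex F * (w.restrict F).ord x :=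
    fun w => w.ord_restrict x
  have hmaps : ∀ w ∈ Z', w.restrict F ∈ Z := by
    intro w hw
    rw [hmemZ'] at hw
    rw [hmemZ]
    rw [hordw w] at hw
    have := hepos w
    by_contra hcon
    have h1 : (w.restrict F).ord x ≤ 0 := not_lt.mp hcon
    have h2 : (w.ramificationIndex F : ℤ) * (w.restrict F).ord x ≤ 0 :=
      mul_nonpos_of_nonneg_of_nonpos (Int.natCast_nonneg _) h1
    omega
  -- the degree
  set N : ℕ := Module.finrank F F' with hN
  have hdegree : (Module.finrank K⟮x'⟯ F' : ℤ) = (Module.finrank K⟮x⟯ F : ℤ) * (N : ℤ) := by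
    rw [hx', finrank_adjoin_algebraMap x]
    push_cast
    rfl
  -- the partial sums
  set E : Place K F → ℕ := fun u =>
    ∑ w ∈ Z' with w.restrict F = u, w.ramificationIndex F with hE
  have hEle : ∀ u, E u ≤ N := fun u =>
    sum_ramificationIndex_le u _ fun w hw => (Finset.mem_filter.mp hw).2
  have hsplit : ∑ w ∈ Z', w.ord x' = ∑ u ∈ Z, u.ord x * (E u : ℤ) := by
    rw [← Finset.sum_fiberwise_of_maps_to hmaps]
    refine Finset.sum_congr rfl fun u _ => ?_
    rw [hE]
    push_cast
    rw [Finset.mul_sum]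
    refine Finset.sum_congr rfl fun w hw => ?_
    rw [hordw w, (Finset.mem_filter.mp hw).2]
    ring
  have hvZ : v ∈ Z := (hmemZ v).mpr (by omega)
  have hEv : E v = N := by
    by_contra hne
    have hlt : E v < N := lt_of_le_of_ne (hEle v) hne
    have hstrict : ∑ u ∈ Z, u.ord x * (E u : ℤ) < ∑ u ∈ Z, u.ord x * (N : ℤ) := by
      refine Finset.sum_lt_sum (fun u hu => ?_) ⟨v, hvZ, ?_⟩
      · have h1 : (E u : ℤ) ≤ (N : ℤ) := by exact_mod_cast hEle u
        exact mul_le_mul_of_nonneg_left h1 ((hmemZ u).mp hu).le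
      · have h1 : (E v : ℤ) < (N : ℤ) := by exact_mod_cast hlt
        rw [hxv]
        omega
    rw [← hsplit, hZ'sum, hdegree, ← Finset.sum_mul, hZsum] at hstrict
    exact lt_irrefl _ hstrict
  have hTeq : T = Z'.filter fun w => w.restrict F = v := by
    ext w
    rw [hT, Finset.mem_filter, hmemZ', hordw w]
    constructor
    · intro h
      refine ⟨?_, h⟩
      rw [h, hxv, mul_one]
      exact_mod_cast hepos w
    · exact fun h => h.2
  rw [hTeq]
  exact hEv

/-- The fundamental identity from the zeros theorem. -/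
theorem fundamentalIdentity_of_zeros [IsAlgClosed K] [Module.Finite F F']
    [HasPrincipalDivisors K F']
    (hzF : Fermat.Agent.S24.H59.ZerosStmt K F) (hzF' : Fermat.Agent.S24.H59.ZerosStmt K F')
    {x₀ : F} (hx₀ : Transcendental K x₀) [FiniteDimensional K⟮x₀⟯ F]
    {x₀' : F'} (hx₀' : Transcendental K x₀') [FiniteDimensional K⟮x₀'⟯ F'] :
    FundamentalIdentity K F F' := by
  refine ⟨fun v => ?_⟩
  have h := sum_ramificationIndex_eq hzF hzF' hx₀ hx₀' v (v.fiber F') (fun w => Place.mem_fiber)
  have hdeg : ∀ w : Place K F', w.deg = 1 := fun w => Fermat.Agent.S24.ff_deg_eq_one x₀' hx₀' w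
  rw [Fermat.Agent.S24.ff_deg_eq_one x₀ hx₀ v, Nat.cast_one, mul_one, ← h, Nat.cast_sum]
  refine Finset.sum_congr rfl fun w _ => ?_
  rw [hdeg w, Nat.cast_one, mul_one]

end Main

/-- `Stmt_FFB_fundamental` from the zeros theorem. -/
theorem stmt_FFB_fundamental_of (hz : Fermat.Agent.RED.H42.ZerosAll) :
    Fermat.Agent.RED.Stmt_FFB_fundamental := by
  intro K F F' _ _ _ _ _ _ hFF hFF' φ hφ _
  have hzF := hz K F hFF
  have hzF' := hz K F' hFF'
  obtain ⟨hint, hfin⟩ := stmt_FFB_finite K F F' hFF hFF' φ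
  obtain ⟨x₀, hx₀, hfin₀⟩ := hFF
  obtain ⟨x₀', hx₀', hfin₀'⟩ := hFF'
  haveI : FiniteDimensional K⟮x₀⟯ F := hfin₀
  haveI : FiniteDimensional K⟮x₀'⟯ F' := hfin₀'
  unfold FundamentalIdentityAlong
  letI := algebraAlong φ
  haveI := isScalarTower_along φ
  haveI := isIntegral_along φ hφ
  haveI : Module.Finite F F' := hfin
  exact fundamentalIdentity_of_zeros hzF hzF' hx₀ hx₀'

end Fermat.Agent.RED.H51
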