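import Mathlib
import Fermat.Agent.RED.H51_Ord

/-!
# FF-B, piece P8b (helper51): determinants modulo the maximal ideal of a place

`det_cong`: a matrix with entries integral at `v` which is, modulo the maximal ideal, lower
triangular inside blocks and zero outside of the diagonal blocks, has determinant congruent to
the product of its diagonal entries.
-/

set_option autoImplicit false
set_option linter.style.haveILetI false

noncomputable section

open AlgebraicCurve

namespace Fermat.Agent.RED.H51

variable {K F : Type*} [Field K] [Field F] [Algebra K F]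

theorem ordGe_prod {ι : Type*} (v : Place K F) (s : Finset ι) (a : ι → F)
    (h : ∀ i ∈ s, OrdGe v 0 (a i)) : OrdGe v 0 (∏ i ∈ s, a i) := by
  classical
  induction s using Finset.induction_on with
  | empty => simpa using ordGe_one v
  | insert x s hx ih =>
    rw [Finset.prod_insert hx]
    have := (h x (Finset.mem_insert_self x s)).mul
      (ih fun i hi => h i (Finset.mem_insert_of_mem hi))
    simpa using this

/-- A product of integral elements, one of which is divisible, is divisible. -/
theorem ordGe_prod_of_mem {ι : Type*} (v : Place K F) (s : Finset ι) (a : ι → F)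
    (h : ∀ i ∈ s, OrdGe v 0 (a i)) {i₀ : ι} (hi₀ : i₀ ∈ s) (h1 : OrdGe v 1 (a i₀)) :
    OrdGe v 1 (∏ i ∈ s, a i) := by
  classical
  rw [← Finset.mul_prod_erase s a hi₀]
  have := h1.mul (ordGe_prod v (s.erase i₀) a fun i hi => h i (Finset.mem_of_mem_erase hi))
  simpa using this

/-- Products of congruent integral elements are congruent. -/
theorem ordGe_prod_sub_prod {ι : Type*} (v : Place K F) (s : Finset ι) (a a' : ι → F)
    (h : ∀ i ∈ s, OrdGe v 0 (a i)) (h' : ∀ i ∈ s, OrdGe v 1 (a' i - a i)) :
    OrdGe v 1 (∏ i ∈ s, a' i - ∏ i ∈ s, a i) := by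
  classical
  induction s using Finset.induction_on with
  | empty => simp
  | insert x s hx ih =>
    rw [Finset.prod_insert hx, Finset.prod_insert hx]
    have hs : ∀ i ∈ s, OrdGe v 0 (a i) := fun i hi => h i (Finset.mem_insert_of_mem hi)
    have hs' : ∀ i ∈ s, OrdGe v 1 (a' i - a i) := fun i hi => h' i (Finset.mem_insert_of_mem hi)
    have hx0 : OrdGe v 0 (a x) := h x (Finset.mem_insert_self x s)
    have hx1 : OrdGe v 1 (a' x - a x) := h' x (Finset.mem_insert_self x s)
    have ha' : ∀ i ∈ s, OrdGe v 0 (a' i) := fun i hi => by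
      have h1 : a' i = a i + (a' i - a i) := by ring
      rw [h1]
      exact (hs i hi).add ((hs' i hi).mono (by omega))
    have hdecomp : a' x * ∏ i ∈ s, a' i - a x * ∏ i ∈ s, a i
        = (a' x - a x) * ∏ i ∈ s, a' i + a x * (∏ i ∈ s, a' i - ∏ i ∈ s, a i) := by ring
    rw [hdecomp]
    refine OrdGe.add ?_ ?_
    · have := hx1.mul (ordGe_prod v s a' ha')
      simpa using this
    · have := hx0.mul (ih hs hs')
      simpa using this

/-- A permutation which does not decrease a rank function is the identity; here in the form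
needed for determinants. -/
theorem exists_of_perm_ne_one {I β : Type*} [Fintype I] (blk : I → β) (rk : I → ℕ)
    (σ : Equiv.Perm I) (hσ : σ ≠ 1) :
    ∃ i, σ i ≠ i ∧ (blk (σ i) ≠ blk i ∨ rk (σ i) ≤ rk i) := by
  classical
  by_contra hcon
  push Not at hcon
  apply hσ
  have hle : ∀ i, rk i ≤ rk (σ i) := by
    intro i
    by_cases hi : σ i = i
    · rw [hi]
    · exact (hcon i hi).2.le
  have hsum : ∑ i, rk (σ i) = ∑ i, rk i := Equiv.sum_comp σ rk
  ext i
  by_contra hi
  have hi' : σ i ≠ i := hi
  have : ∑ i, rk i < ∑ i, rk (σ i) :=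
    Finset.sum_lt_sum (fun i _ => hle i) ⟨i, Finset.mem_univ i, (hcon i hi').2⟩
  omega

/-- The determinant of a matrix which is block lower triangular modulo the maximal ideal of `v`
is congruent to the product of the diagonal entries. -/
theorem det_cong {I β : Type*} [Fintype I] [DecidableEq I] (v : Place K F) (blk : I → β)
    (rk : I → ℕ) (M : Matrix I I F) (d : I → F)
    (h0 : ∀ i j, OrdGe v 0 (M i j))
    (h1 : ∀ i j, i ≠ j → (blk i ≠ blk j ∨ rk i ≤ rk j) → OrdGe v 1 (M i j))
    (h2 : ∀ i, OrdGe v 1 (M i i - d i)) (hd : ∀ i, OrdGe v 0 (d i)) :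
    OrdGe v 1 (M.det - ∏ i, d i) := by
  rw [Matrix.det_apply', ← Finset.add_sum_erase Finset.univ _ (Finset.mem_univ (1 : Equiv.Perm I))]
  have hone : ((((Equiv.Perm.sign (1 : Equiv.Perm I) : ℤˣ) : ℤ) : F)) *
      ∏ i, M ((1 : Equiv.Perm I) i) i = ∏ i, M i i := by
    simp
  rw [hone, add_sub_right_comm]
  refine OrdGe.add (ordGe_prod_sub_prod v Finset.univ d (fun i => M i i) (fun i _ => hd i)
    fun i _ => h2 i) ?_
  refine ordGe_sum v 1 _ _ fun σ hσ => ?_
  have hσ1 : σ ≠ 1 := Finset.ne_of_mem_erase hσ
  obtain ⟨i, hi, hcase⟩ := exists_of_perm_ne_one blk rk σ hσ1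
  have hprod : OrdGe v 1 (∏ i', M (σ i') i') :=
    ordGe_prod_of_mem v Finset.univ (fun i' => M (σ i') i') (fun i' _ => h0 _ _)
      (Finset.mem_univ i) (h1 (σ i) i hi hcase)
  rcases Int.units_eq_one_or (Equiv.Perm.sign σ) with hs | hs
  · rw [hs]
    simpa using hprod
  · rw [hs]
    simpa using hprod.neg

/-- The order of a finite product. -/
theorem ord_prod {ι : Type*} (v : Place K F) (s : Finset ι) (a : ι → F)
    (h : ∀ i ∈ s, a i ≠ 0) : v.ord (∏ i ∈ s, a i) = ∑ i ∈ s, v.ord (a i) := by
  classical
  induction s using Finset.induction_on with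
  | empty => simp
  | insert x s hx ih =>
    rw [Finset.prod_insert hx, Finset.sum_insert hx,
      v.ord_mul (h x (Finset.mem_insert_self x s))
        (Finset.prod_ne_zero_iff.mpr fun i hi => h i (Finset.mem_insert_of_mem hi)),
      ih fun i hi => h i (Finset.mem_insert_of_mem hi)]

/-- An integral element has a value in the residue field `K`, at a place of degree one. -/
theorem exists_value (v : Place K F) (hdeg : v.deg = 1) {h : F} (hh : OrdGe v 0 h) :
    ∃ c : K, OrdGe v 1 (h - algebraMap K F c) := by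
  have hmem : h ∈ v.toValuationSubring := (ordGe_zero_iff_mem v h).mp hh
  have hbij : Function.Bijective (algebraMap K v.ResidueField) :=
    Algebra.finrank_eq_one_iff_bijective_algebraMap.mp hdeg
  obtain ⟨c, hc⟩ := hbij.2 (IsLocalRing.residue v.toValuationSubring ⟨h, hmem⟩)
  refine ⟨c, ?_⟩
  set a : v.toValuationSubring := ⟨h, hmem⟩ - algebraMap K v.toValuationSubring c with ha
  have hres : IsLocalRing.residue v.toValuationSubring a = 0 := by
    rw [ha, map_sub, ← hc]
    exact sub_eq_zero.mpr rfl
  have hnu : ¬ IsUnit a := (IsLocalRing.residue_eq_zero_iff _).mp hres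
  have hcoe : (a : F) = h - algebraMap K F c := rfl
  rw [← hcoe]
  by_contra hcon
  apply hnu
  rw [← v.adicValuation_coe_eq_one_iff]
  have ha0 : (a : F) ≠ 0 := fun h0 => hcon (Or.inl h0)
  have h0 : 0 ≤ v.ord (a : F) := ((ordGe_zero_iff_mem v _).mpr a.2).le ha0
  have h1 : ¬ (1 ≤ v.ord (a : F)) := fun h1 => hcon (Or.inr h1)
  have h2 : v.ord (a : F) = 0 := by omega
  rw [v.adicValuation_eq_exp_neg_ord ha0, h2, neg_zero, WithZero.exp_zero]

end Fermat.Agent.RED.H51
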