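import Mathlib
import Fermat.Agent.RED.H51_Coords
import Fermat.Agent.RED.H51_Det

/-!
# FF-B, piece P8 (helper51): the local norm formula

Relative situation: `F'` finite over `F`, `v` a place of `F`, `T` the (finite) set of places of
`F'` over `v`, with `∑_{w ∈ T} e(w | v) = [F' : F]` (the fundamental identity).

* `norm_value` : if `h` has the value `c w` at `w ∈ T`, then `N(h)` has the value
  `∏ (c w) ^ e(w | v)` at `v` (local norm formula for values);
* `norm_ord` : `v (N f) = ∑_{w ∈ T} w (f)`.
-/

set_option autoImplicit false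
set_option linter.style.haveILetI false

noncomputable section

open AlgebraicCurve

namespace Fermat.Agent.RED.H51

section Rel

variable {K F F' : Type*} [Field K] [Field F] [Field F'] [Algebra K F] [Algebra K F']
  [Algebra F F'] [IsScalarTower K F F'] [Module.Finite F F']

/-- **Local norm formula for values.** -/
theorem norm_value (v : Place K F) (T : Finset (Place K F'))
    (hT : ∀ w ∈ T, w.restrict F = v)
    (hsum : ∑ w ∈ T, w.ramificationIndex F = Module.finrank F F')
    (h : F') (c : Place K F' → K) (hc : ∀ w ∈ T, OrdGe w 1 (h - algebraMap K F' (c w))) :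
    OrdGe v 1 (Algebra.norm F h - algebraMap K F (∏ w ∈ T, c w ^ w.ramificationIndex F)) := by
  classical
  set w : T → Place K F' := fun j => (j : Place K F') with hwdef
  have hw : ∀ j : T, (w j).restrict F = v := fun j => hT j j.2
  obtain ⟨y, hy⟩ := exists_localBasis w (fun j => (w j).ramificationIndex F)
    Subtype.val_injective
  have hli : LinearIndependent F y :=
    linearIndependent_localBasis (compat_of_restrict v w hw) hy
  have hcard : Fintype.card (Σ j : T, Fin ((w j).ramificationIndex F))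
      = Module.finrank F F' := by
    rw [Fintype.card_sigma, ← hsum, ← Finset.sum_coe_sort T]
    exact Finset.sum_congr rfl fun j _ => Fintype.card_fin _
  set b : Module.Basis (Σ j : T, Fin ((w j).ramificationIndex F)) F F' :=
    basisOfLinearIndependentOfCardEqFinrank' y hli hcard with hbdef
  have hb : ∀ i, b i = y i := fun i => by
    rw [hbdef, coe_basisOfLinearIndependentOfCardEqFinrank']
  -- integrality of `h - c` at all places of `T`
  have hint : ∀ (j k : T), OrdGe (w j) 0 (h - algebraMap K F' (c (w k))) := by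
    intro j k
    have h1 : h - algebraMap K F' (c (w k)) = (h - algebraMap K F' (c (w j)))
        + (algebraMap K F' (c (w j)) - algebraMap K F' (c (w k))) := by ring
    rw [h1]
    exact ((hc (w j) j.2).mono (by omega)).add
      ((ordGe_algebraMap _ _).sub (ordGe_algebraMap _ _))
  -- analysis of the columns of the matrix of `h`
  have hcol : ∀ (j₀ i : Σ j : T, Fin ((w j).ramificationIndex F)),
      ∃ gi : F, Algebra.leftMulMatrix b h i j₀
          = gi + (if i = j₀ then algebraMap K F (c (w j₀.1)) else 0) ∧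
        OrdGe v 0 gi ∧ ((i.1 ≠ j₀.1 ∨ (i.2 : ℕ) ≤ (j₀.2 : ℕ)) → OrdGe v 1 gi) := by
    intro j₀ i
    set z' : F' := (h - algebraMap K F' (c (w j₀.1))) * y j₀ with hz'
    set g : (Σ j : T, Fin ((w j).ramificationIndex F)) → F := fun i' => b.repr z' i' with hg
    have hsumg : ∑ i', g i' • y i' = z' := by
      have := b.sum_repr z'
      simp only [hb] at this
      exact this
    have hzk : OrdGe (w j₀.1) (((j₀.2 : ℕ) + 1 : ℕ) : ℤ) (∑ i', g i' • y i') := by
      rw [hsumg, hz']
      have h1 : OrdGe (w j₀.1) ((j₀.2 : ℕ) : ℤ) (y j₀) := Or.inr (hy.ord_self j₀).ge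
      have := (hc (w j₀.1) j₀.1.2).mul h1
      exact this.mono (by push_cast; omega)
    have hz : ∀ j, j ≠ j₀.1 →
        OrdGe (w j) ((w j).ramificationIndex F) (∑ i', g i' • y i') := by
      intro j hj
      rw [hsumg, hz']
      have := (hint j j₀.1).mul (hy.ordGe_other j₀ j hj)
      simpa using this
    have hz0 : ∀ j, OrdGe (w j) 0 (∑ i', g i' • y i') := by
      intro j
      by_cases hjk : j = j₀.1
      · rw [hjk]
        exact hzk.mono (Int.natCast_nonneg _)
      · exact (hz j hjk).mono (Int.natCast_nonneg _)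
    refine ⟨g i, ?_, coords_integral hw hy g hz0 i, fun hcase => ?_⟩
    · rw [Algebra.leftMulMatrix_eq_repr_mul, hb]
      have h1 : h * y j₀ = z' + algebraMap K F (c (w j₀.1)) • b j₀ := by
        rw [hz', hb, Algebra.smul_def, ← IsScalarTower.algebraMap_apply K F F']
        ring
      rw [h1, map_add, map_smul, Module.Basis.repr_self, Finsupp.add_apply,
        Finsupp.smul_apply, Finsupp.single_apply, smul_eq_mul]
      by_cases hij : i = j₀
      · rw [if_pos hij, if_pos hij.symm, mul_one]
      · rw [if_neg hij, if_neg (fun h' => hij h'.symm), mul_zero]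
    · refine coords_divisible hw hy g j₀.1 ((j₀.2 : ℕ) + 1) hzk hz i ?_
      rcases hcase with h1 | h1
      · exact Or.inl h1
      · exact Or.inr (by omega)
  choose G hG1 hG2 hG3 using hcol
  have key := det_cong v (fun i : (Σ j : T, Fin ((w j).ramificationIndex F)) => i.1)
    (fun i => (i.2 : ℕ)) (Algebra.leftMulMatrix b h) (fun i => algebraMap K F (c (w i.1)))
    (fun i j => by
      rw [hG1 j i]
      refine (hG2 j i).add ?_
      by_cases hij : i = j
      · rw [if_pos hij]; exact ordGe_algebraMap v _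
      · rw [if_neg hij]; exact ordGe_zero v _)
    (fun i j hij hcase => by
      rw [hG1 j i, if_neg hij, add_zero]
      exact hG3 j i hcase)
    (fun i => by
      rw [hG1 i i, if_pos rfl, add_sub_cancel_right]
      exact hG3 i i (Or.inr le_rfl))
    (fun i => ordGe_algebraMap v _)
  rw [Algebra.norm_eq_matrix_det b h]
  have hprod : ∏ i : (Σ j : T, Fin ((w j).ramificationIndex F)), algebraMap K F (c (w i.1))
      = algebraMap K F (∏ w' ∈ T, c w' ^ w'.ramificationIndex F) := by
    rw [← map_prod]
    congr 1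
    rw [Fintype.prod_sigma, ← Finset.prod_coe_sort T]
    refine Finset.prod_congr rfl fun j _ => ?_
    show ∏ _y : Fin ((w j).ramificationIndex F), c (w j) = _
    rw [Finset.prod_const, Finset.card_univ, Fintype.card_fin]
  rw [← hprod]
  exact key

omit [IsScalarTower K F F'] [Algebra K F] [Algebra K F'] [Module.Finite F F'] in
/-- The norm commutes with integer powers. -/
theorem norm_zpow {x : F'} (hx : x ≠ 0) (n : ℤ) :
    Algebra.norm F (x ^ n) = (Algebra.norm F x) ^ n := by
  have h := map_zpow (Units.map (Algebra.norm F : F' →* F)) (Units.mk0 x hx) n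
  have h' : ((Units.map (Algebra.norm F : F' →* F) (Units.mk0 x hx ^ n) : Fˣ) : F)
      = (((Units.map (Algebra.norm F : F' →* F) (Units.mk0 x hx)) ^ n : Fˣ) : F) :=
    congrArg (fun u : Fˣ => (u : F)) h
  rw [Units.coe_map, Units.val_zpow_eq_zpow_val, Units.val_zpow_eq_zpow_val, Units.coe_map,
    Units.val_mk0] at h'
  exact h'

/-- The norm of an element which is a unit at all places over `v` is a unit at `v`. -/
theorem norm_ord_of_unit (v : Place K F) (T : Finset (Place K F'))
    (hT : ∀ w ∈ T, w.restrict F = v)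
    (hsum : ∑ w ∈ T, w.ramificationIndex F = Module.finrank F F')
    (hdeg : ∀ w : Place K F', w.deg = 1)
    {h : F'} (hh0 : h ≠ 0) (hh : ∀ w ∈ T, w.ord h = 0) :
    v.ord (Algebra.norm F h) = 0 := by
  classical
  have hex : ∀ w : Place K F', ∃ c : K, w ∈ T → (c ≠ 0 ∧ OrdGe w 1 (h - algebraMap K F' c)) := by
    intro w
    by_cases hw : w ∈ T
    · obtain ⟨c, hc⟩ := exists_value w (hdeg w) (h := h) (Or.inr (hh w hw).ge)
      refine ⟨c, fun _ => ⟨?_, hc⟩⟩
      rintro rfl
      rw [map_zero, sub_zero] at hc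
      have := hc.le hh0
      rw [hh w hw] at this
      omega
    · exact ⟨0, fun h' => absurd h' hw⟩
  choose c hc using hex
  have hval := norm_value v T hT hsum h c fun w hw => (hc w hw).2
  set C : K := ∏ w ∈ T, c w ^ w.ramificationIndex F with hC
  have hC0 : C ≠ 0 := Finset.prod_ne_zero_iff.mpr fun w hw => pow_ne_zero _ (hc w hw).1
  have hCF : algebraMap K F C ≠ 0 := (map_ne_zero (algebraMap K F)).mpr hC0
  have h1 := ord_add_eq v hCF (g := Algebra.norm F h - algebraMap K F C)
    (by rw [ord_algebraMap, zero_add]; exact hval)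
  rw [add_sub_cancel] at h1
  rw [h1.2, ord_algebraMap]

/-- The norm of an integral element with a zero over `v` has a zero at `v`. -/
theorem norm_ordGe_one (v : Place K F) (T : Finset (Place K F'))
    (hT : ∀ w ∈ T, w.restrict F = v)
    (hsum : ∑ w ∈ T, w.ramificationIndex F = Module.finrank F F')
    (hdeg : ∀ w : Place K F', w.deg = 1)
    {h : F'} (hh : ∀ w ∈ T, OrdGe w 0 h) {w₀ : Place K F'} (hw₀ : w₀ ∈ T)
    (hh₀ : OrdGe w₀ 1 h) : OrdGe v 1 (Algebra.norm F h) := by
  classical
  have hex : ∀ w : Place K F', ∃ c : K, w ∈ T →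
      ((w = w₀ → c = 0) ∧ OrdGe w 1 (h - algebraMap K F' c)) := by
    intro w
    by_cases hw : w ∈ T
    · by_cases hww : w = w₀
      · refine ⟨0, fun _ => ⟨fun _ => rfl, ?_⟩⟩
        rw [map_zero, sub_zero, hww]
        exact hh₀
      · obtain ⟨c, hc⟩ := exists_value w (hdeg w) (hh w hw)
        exact ⟨c, fun _ => ⟨fun h' => absurd h' hww, hc⟩⟩
    · exact ⟨0, fun h' => absurd h' hw⟩
  choose c hc using hex
  have hval := norm_value v T hT hsum h c fun w hw => (hc w hw).2
  have hC : ∏ w ∈ T, c w ^ w.ramificationIndex F = 0 := by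
    refine Finset.prod_eq_zero hw₀ ?_
    rw [(hc w₀ hw₀).1 rfl]
    exact zero_pow (w₀.ramificationIndex_pos (F := F)).ne'
  rwa [hC, map_zero, sub_zero] at hval

/-- **The local norm formula**: `v (N f) = ∑_{w | v} w (f)`. -/
theorem norm_ord (v : Place K F) (T : Finset (Place K F'))
    (hT : ∀ w ∈ T, w.restrict F = v)
    (hsum : ∑ w ∈ T, w.ramificationIndex F = Module.finrank F F')
    (hdeg : ∀ w : Place K F', w.deg = 1)
    {f : F'} (hf : f ≠ 0) :
    v.ord (Algebra.norm F f) = ∑ w ∈ T, w.ord f := by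
  classical
  -- functions with a simple zero at exactly one place of `T`
  have hex : ∀ j : Place K F', ∃ g : F', g ≠ 0 ∧
      ∀ w ∈ T, w.ord g = if w = j then 1 else 0 :=
    fun j => exists_ord_eq_family T fun w => if w = j then 1 else 0
  choose g hg0 hg using hex
  have hN0 : ∀ x : F', x ≠ 0 → Algebra.norm F x ≠ 0 := fun x hx =>
    Algebra.norm_ne_zero_iff.mpr hx
  set ν : Place K F' → ℤ := fun j => v.ord (Algebra.norm F (g j)) with hν
  have hν1 : ∀ j ∈ T, 1 ≤ ν j := by
    intro j hj
    have h1 : OrdGe v 1 (Algebra.norm F (g j)) := by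
      refine norm_ordGe_one v T hT hsum hdeg (w₀ := j) (fun w hw => Or.inr ?_) hj (Or.inr ?_)
      · rw [hg j w hw]
        split_ifs <;> omega
      · rw [hg j j hj, if_pos rfl]
    exact h1.le (hN0 _ (hg0 j))
  -- the general formula with multiplicities `ν`
  have hgen : ∀ x : F', x ≠ 0 → v.ord (Algebra.norm F x) = ∑ j ∈ T, j.ord x * ν j := by
    intro x hx
    set u : F' := x * ∏ j ∈ T, (g j) ^ (-(j.ord x)) with hu
    have hpow0 : ∀ j ∈ T, (g j) ^ (-(j.ord x)) ≠ 0 := fun j _ => zpow_ne_zero _ (hg0 j)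
    have hprod0 : ∏ j ∈ T, (g j) ^ (-(j.ord x)) ≠ 0 := Finset.prod_ne_zero_iff.mpr hpow0
    have hu0 : u ≠ 0 := mul_ne_zero hx hprod0
    have huord : ∀ w ∈ T, w.ord u = 0 := by
      intro w hw
      rw [hu, w.ord_mul hx hprod0, ord_prod w T _ hpow0]
      have h1 : ∑ j ∈ T, w.ord ((g j) ^ (-(j.ord x))) = -(w.ord x) := by
        rw [Finset.sum_eq_single_of_mem w hw]
        · rw [w.ord_zpow, hg w w hw, if_pos rfl, mul_one]
        · intro j _ hjw
          rw [w.ord_zpow, hg j w hw, if_neg (fun h' => hjw h'.symm), mul_zero]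
      rw [h1]
      ring
    have h0 := norm_ord_of_unit v T hT hsum hdeg hu0 huord
    have hNu : Algebra.norm F u
        = Algebra.norm F x * ∏ j ∈ T, (Algebra.norm F (g j)) ^ (-(j.ord x)) := by
      rw [hu, map_mul, map_prod]
      congr 1
      refine Finset.prod_congr rfl fun j _ => ?_
      exact norm_zpow (hg0 j) _
    have hNpow0 : ∀ j ∈ T, (Algebra.norm F (g j)) ^ (-(j.ord x)) ≠ 0 :=
      fun j _ => zpow_ne_zero _ (hN0 _ (hg0 j))
    rw [hNu, v.ord_mul (hN0 x hx) (Finset.prod_ne_zero_iff.mpr hNpow0),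
      ord_prod v T _ hNpow0] at h0
    have h2 : ∑ j ∈ T, v.ord ((Algebra.norm F (g j)) ^ (-(j.ord x)))
        = -∑ j ∈ T, j.ord x * ν j := by
      rw [← Finset.sum_neg_distrib]
      refine Finset.sum_congr rfl fun j _ => ?_
      rw [v.ord_zpow]
      ring
    rw [h2] at h0
    linarith
  -- apply it to a uniformizer of `v`
  obtain ⟨t, ht0, ht⟩ := exists_uniformizer v
  have ht' : algebraMap F F' t ≠ 0 := (map_ne_zero (algebraMap F F')).mpr ht0
  have h1 := hgen (algebraMap F F' t) ht'
  rw [Algebra.norm_algebraMap, ord_pow, ht, mul_one] at h1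
  have he : ∀ j ∈ T, j.ord (algebraMap F F' t) = (j.ramificationIndex F : ℤ) := by
    intro j hj
    rw [j.ord_restrict t, hT j hj, ht, mul_one]
  have h2 : ∑ j ∈ T, (j.ramificationIndex F : ℤ) * (ν j - 1) = 0 := by
    have h3 : ∑ j ∈ T, j.ord (algebraMap F F' t) * ν j
        = ∑ j ∈ T, (j.ramificationIndex F : ℤ) * ν j :=
      Finset.sum_congr rfl fun j hj => by rw [he j hj]
    rw [h3] at h1
    have h4 : ((Module.finrank F F' : ℕ) : ℤ) = ∑ j ∈ T, (j.ramificationIndex F : ℤ) := by
      rw [← hsum]
      push_cast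
      rfl
    simp only [mul_sub, mul_one, Finset.sum_sub_distrib]
    linarith
  have h5 : ∀ j ∈ T, (j.ramificationIndex F : ℤ) * (ν j - 1) = 0 :=
    (Finset.sum_eq_zero_iff_of_nonneg fun j hj =>
      mul_nonneg (Int.natCast_nonneg _) (by have := hν1 j hj; omega)).mp h2
  have hν_eq : ∀ j ∈ T, ν j = 1 := by
    intro j hj
    have hpos : 0 < j.ramificationIndex F := j.ramificationIndex_pos (F := F)
    rcases mul_eq_zero.mp (h5 j hj) with h6 | h6
    · omega
    · omega
  rw [hgen f hf]
  refine Finset.sum_congr rfl fun j hj => ?_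
  rw [hν_eq j hj, mul_one]

end Rel

end Fermat.Agent.RED.H51
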