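import Mathlib
import Fermat.Agent.RED.H51_Norm

/-!
# FF-B (helper51): the norm formula `φ_* (div f) = div (N f)`

* `stmt_FFB_norm_of : H42.ZerosAll → Stmt_FFB_norm`;
* `norm_value_fiber` : the local norm formula for values, over function fields.
-/

set_option autoImplicit false
set_option linter.style.haveILetI false

noncomputable section

open AlgebraicCurve IntermediateField

namespace Fermat.Agent.RED.H51

section Main

variable {K F F' : Type*} [Field K] [Field F] [Field F'] [Algebra K F] [Algebra K F']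
  [Algebra F F'] [IsScalarTower K F F'] [Module.Finite F F']

open Fermat.Agent.S24 in
/-- The norm formula from the zeros theorem. -/
theorem pushforwardNormFormula_of_zeros [IsAlgClosed K] [HasPrincipalDivisors K F']
    (hzF : H59.ZerosStmt K F) (hzF' : H59.ZerosStmt K F')
    {x₀ : F} (hx₀ : Transcendental K x₀) [FiniteDimensional K⟮x₀⟯ F]
    {x₀' : F'} (hx₀' : Transcendental K x₀') [FiniteDimensional K⟮x₀'⟯ F'] :
    Divisor.PushforwardNormFormula K F F' := by
  classical
  intro f hf D hD v
  have hdegF : ∀ u : Place K F, u.deg = 1 := fun u => ff_deg_eq_one x₀ hx₀ u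
  have hdegF' : ∀ w : Place K F', w.deg = 1 := fun w => ff_deg_eq_one x₀' hx₀' w
  have hsum := sum_ramificationIndex_eq hzF hzF' hx₀ hx₀' v (v.fiber F')
    (fun w => Place.mem_fiber)
  rw [norm_ord v (v.fiber F') (fun w hw => Place.mem_fiber.mp hw) hsum hdegF' hf,
    Divisor.pushforward_apply]
  have hin : ∀ w : Place K F', w.inertiaDeg F = 1 := by
    intro w
    have h := w.deg_restrict_mul_inertiaDeg (F := F)
    rw [hdegF, hdegF', one_mul] at h
    exact h
  have h1 : ∑ w ∈ D.support, (if w.restrict F = v then D w * (w.inertiaDeg F : ℤ) else 0)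
      = ∑ w ∈ D.support.filter (fun w => w.restrict F = v), w.ord f := by
    rw [Finset.sum_filter]
    refine Finset.sum_congr rfl fun w _ => ?_
    rw [hin w, Nat.cast_one, mul_one, hD w]
  rw [h1]
  refine Finset.sum_subset ?_ ?_
  · intro w hw
    exact Place.mem_fiber.mpr (Finset.mem_filter.mp hw).2
  · intro w hw hnot
    have hw' : w.restrict F = v := Place.mem_fiber.mp hw
    have : w ∉ D.support := fun h' => hnot (Finset.mem_filter.mpr ⟨h', hw'⟩)
    rw [Finsupp.notMem_support_iff, hD w] at this
    exact this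

open Fermat.Agent.S24 in
/-- **Local norm formula for values** over function fields: if `h` has the value `c w` at every
place `w` over `v`, then `N(h)` has the value `∏_{w | v} (c w) ^ e(w | v)` at `v`. -/
theorem norm_value_fiber [IsAlgClosed K] [HasPrincipalDivisors K F']
    (hzF : H59.ZerosStmt K F) (hzF' : H59.ZerosStmt K F')
    {x₀ : F} (hx₀ : Transcendental K x₀) [FiniteDimensional K⟮x₀⟯ F]
    {x₀' : F'} (hx₀' : Transcendental K x₀') [FiniteDimensional K⟮x₀'⟯ F']
    (v : Place K F) (h : F') (c : Place K F' → K)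
    (hc : ∀ w : Place K F', w.restrict F = v → OrdGe w 1 (h - algebraMap K F' (c w))) :
    OrdGe v 1 (Algebra.norm F h
      - algebraMap K F (∏ w ∈ v.fiber F', c w ^ w.ramificationIndex F)) :=
  norm_value v (v.fiber F') (fun _ hw => Place.mem_fiber.mp hw)
    (sum_ramificationIndex_eq hzF hzF' hx₀ hx₀' v (v.fiber F') (fun _ => Place.mem_fiber))
    h c fun w hw => hc w (Place.mem_fiber.mp hw)

end Main

/-- `Stmt_FFB_norm` from the zeros theorem. -/
theorem stmt_FFB_norm_of (hz : Fermat.Agent.RED.H42.ZerosAll) :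
    Fermat.Agent.RED.Stmt_FFB_norm := by
  intro K F F' _ _ _ _ _ _ hFF hFF' φ hfin
  have hzF := hz K F hFF
  have hzF' := hz K F' hFF'
  haveI : HasPrincipalDivisors K F' := Fermat.Agent.RED.H42.stmt_FFB_principal_of hz K F' hFF'
  obtain ⟨x₀, hx₀, hfin₀⟩ := hFF
  obtain ⟨x₀', hx₀', hfin₀'⟩ := hFF'
  haveI : FiniteDimensional K⟮x₀⟯ F := hfin₀
  haveI : FiniteDimensional K⟮x₀'⟯ F' := hfin₀'
  unfold NormFormulaAlong
  letI := algebraAlong φ
  haveI := isScalarTower_along φ
  haveI : Module.Finite F F' := hfin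
  exact pushforwardNormFormula_of_zeros hzF hzF' hx₀ hx₀'

end Fermat.Agent.RED.H51
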