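import Fermat.Agent.RED.H34_Bbar

/-!
# G-RED package IG, lemma (S5) of the chart theorem (helper82 for helper34): `not_dvd_det`

`bF` a `C(x)`-basis of `F` of integral elements of `V` reducing to a basis `bt` that spans
`Bbar = red (B ∩ V)` over `k[xt]`, `c` a `C[x]`-basis of `B`, `bF = P c`.  Then `det P` has no
root `ρ ∈ O`: a root gives `y = Σ μ_i b_i = (x - ρ) y'` with `μ_i ∈ O`, `μ_{i₀} = 1`, `y' ∈ B ∩ V`,
and comparing the `bt`-coordinates of `red y` at `i₀` makes `xt - γ` a unit of `k[xt]`.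
-/

set_option autoImplicit false
set_option linter.unusedVariables false

noncomputable section

open Polynomial IntermediateField Module Matrix
open scoped IntermediateField.algebraAdjoinAdjoin nonZeroDivisors
open Fermat.Agent.RED.H34 Fermat.Agent.RED.H34.RedSetting

namespace Fermat.Agent.RED.H82

variable {C F k Ft : Type} [Field C] [Field F] [Algebra C F] [Field k] [Field Ft] [Algebra k Ft]
variable {S : RedSetting C F k Ft} {x : F} (hx : x ∈ S.V)

theorem evAt_algebraMap (hxC : Transcendental C x) (ρ a : C) :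
    evAt hxC ρ (algebraMap C ↥(Algebra.adjoin C {x}) a) = a := by
  rw [← polyEquiv_C hxC, evAt_polyEquiv, Polynomial.eval_C]

/-- `x - ρ` as an element of `V`, for `ρ ∈ O`. -/
theorem coe_psi_X_sub_C (ρ : C) (hρ : ρ ∈ S.O) :
    ((psi hx (Polynomial.X - Polynomial.C (⟨ρ, hρ⟩ : ↥S.O)) : ↥S.V) : F)
      = x - algebraMap C F ρ := by
  rw [coe_psi]
  simp

theorem isUnit_psi_X_sub_C (hxt : Transcendental k (S.red ⟨x, hx⟩)) (ρ : C) (hρ : ρ ∈ S.O) :
    IsUnit (psi hx (Polynomial.X - Polynomial.C (⟨ρ, hρ⟩ : ↥S.O))) := by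
  apply isUnit_psi hx hxt
  rw [Polynomial.map_sub, Polynomial.map_X, Polynomial.map_C]
  exact Polynomial.X_sub_C_ne_zero _

theorem not_dvd_det [CharZero C] (hxt : Transcendental k (S.red ⟨x, hx⟩))
    [FiniteDimensional ↥C⟮x⟯ F]
    (hdeg : Module.finrank ↥k⟮S.red ⟨x, hx⟩⟯ Ft = Module.finrank ↥C⟮x⟯ F)
    {m : ℕ} (bF : Module.Basis (Fin m) ↥C⟮x⟯ F) (hbV : ∀ i, bF i ∈ S.V)
    (hbB : ∀ i, IsIntegral ↥(Algebra.adjoin C {x}) (bF i))
    (bt : Module.Basis (Fin m) ↥k⟮S.red ⟨x, hx⟩⟯ Ft) (hbt : ∀ i, bt i = S.red ⟨bF i, hbV i⟩)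
    (hspan : ∀ y ∈ S.Bbar hx,
      y ∈ Submodule.span ↥(Algebra.adjoin k {S.red ⟨x, hx⟩}) (Set.range bt))
    (c : Module.Basis (Fin m) ↥(Algebra.adjoin C {x}) ↥(Bx (C := C) x))
    (P : Matrix (Fin m) (Fin m) ↥(Algebra.adjoin C {x}))
    (hP : ∀ i, (⟨bF i, hbB i⟩ : ↥(Bx (C := C) x)) = ∑ j, P i j • c j)
    (ρ : C) (hρ : ρ ∈ S.O) : ¬ piRho x ρ ∣ P.det := by
  classical
  intro hdvd
  have hxC := transcendental_x hx hxt
  -- Step 1: a nonzero vector in the left kernel of `P(ρ)`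
  have hev : evAt hxC ρ P.det = 0 := (evAt_eq_zero_iff hxC ρ _).2 hdvd
  have hdet0 : (P.map (evAt hxC ρ)).det = 0 := by
    rw [← RingHom.mapMatrix_apply, ← RingHom.map_det, hev]
  obtain ⟨lam, hlam0, hlam⟩ := Matrix.exists_vecMul_eq_zero_iff.2 hdet0
  -- Step 2: scaling
  have hne : ∃ i, lam i ≠ 0 := by
    by_contra h
    push Not at h
    exact hlam0 (funext h)
  obtain ⟨i₁, hi₁⟩ := hne
  obtain ⟨i₀, -, hi₀⟩ := Finset.exists_max_image Finset.univ
    (fun i => S.O.valuation (lam i)) ⟨i₁, Finset.mem_univ _⟩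
  have hlam_i₀ : lam i₀ ≠ 0 := by
    intro h0
    have h1 := hi₀ i₁ (Finset.mem_univ _)
    simp only [h0, map_zero] at h1
    exact hi₁ ((map_eq_zero _).1 (le_antisymm h1 zero_le))
  set μ : Fin m → C := fun i => lam i / lam i₀ with hμ
  have hμi₀ : μ i₀ = 1 := div_self hlam_i₀
  have hμO : ∀ i, μ i ∈ S.O := by
    intro i
    rw [← ValuationSubring.valuation_le_one_iff, hμ]
    simp only [map_div₀]
    have hpos : 0 < S.O.valuation (lam i₀) := by
      rw [pos_iff_ne_zero]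
      exact fun h => hlam_i₀ ((map_eq_zero _).1 h)
    exact (div_le_one₀ hpos).2 (hi₀ i (Finset.mem_univ _))
  have hμker : ∀ j, ∑ i, μ i * evAt hxC ρ (P i j) = 0 := by
    intro j
    have h1 := congrFun hlam j
    simp only [Matrix.vecMul, dotProduct, Matrix.map_apply, Pi.zero_apply] at h1
    simp only [hμ, div_mul_eq_mul_div]
    rw [← Finset.sum_div, h1, zero_div]
  -- Step 3: divide by `x - ρ` inside `B`
  have hr : ∀ j, piRho x ρ ∣ ∑ i, algebraMap C ↥(Algebra.adjoin C {x}) (μ i) * P i j := by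
    intro j
    rw [← evAt_eq_zero_iff hxC ρ, map_sum]
    simp only [map_mul, evAt_algebraMap]
    exact hμker j
  choose q hq using hr
  set y' : ↥(Bx (C := C) x) := ∑ j, q j • c j with hy'
  have hyB : ∑ i, algebraMap C ↥(Algebra.adjoin C {x}) (μ i) • (⟨bF i, hbB i⟩ : ↥(Bx (C := C) x))
      = piRho x ρ • y' := by
    simp only [hP, Finset.smul_sum, smul_smul]
    rw [Finset.sum_comm]
    rw [hy', Finset.smul_sum]
    refine Finset.sum_congr rfl fun j _ => ?_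
    rw [← Finset.sum_smul, hq j, smul_smul]
  have hyF : ∑ i, algebraMap C F (μ i) * bF i = (x - algebraMap C F ρ) * (y' : F) := by
    have hsm : ∀ (a : ↥(Algebra.adjoin C {x})) (b : ↥(Bx (C := C) x)),
        ((a • b : ↥(Bx (C := C) x)) : F) = (a : F) * (b : F) := fun a b => rfl
    have h1 := congrArg (fun z : ↥(Bx (C := C) x) => (z : F)) hyB
    simp only [AddSubmonoidClass.coe_finsetSum, hsm] at h1
    exact h1
  -- Step 4: `y'` lies in `V`
  set u : ↥S.V := psi hx (Polynomial.X - Polynomial.C (⟨ρ, hρ⟩ : ↥S.O)) with hu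
  have huu : IsUnit u := isUnit_psi_X_sub_C hx hxt ρ hρ
  have hucoe : (u : F) = x - algebraMap C F ρ := coe_psi_X_sub_C hx ρ hρ
  have hu0 : (x - algebraMap C F ρ) ≠ 0 := by
    rw [← hucoe]
    intro h0
    have : u = 0 := Subtype.ext h0
    rw [this] at huu
    exact not_isUnit_zero huu
  set yV : ↥S.V := ∑ i, S.inclO ⟨μ i, hμO i⟩ * ⟨bF i, hbV i⟩ with hyV
  have hyVcoe : (yV : F) = ∑ i, algebraMap C F (μ i) * bF i := by
    rw [hyV, AddSubmonoidClass.coe_finsetSum]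
    rfl
  obtain ⟨w, hw⟩ := huu.exists_right_inv
  have hy'V : (y' : F) = ((w * yV : ↥S.V) : F) := by
    apply mul_left_cancel₀ hu0
    rw [← hyF, ← hyVcoe, ← hucoe]
    have : u * (w * yV) = yV := by rw [← mul_assoc, hw, one_mul]
    exact (congrArg (fun z : ↥S.V => (z : F)) this).symm
  have hy'mem : (y' : F) ∈ S.V := by rw [hy'V]; exact (w * yV).2
  have hredy' : S.red ⟨(y' : F), hy'mem⟩ ∈ S.Bbar hx :=
    (mem_Bbar hx _).2 ⟨(y' : F), hy'mem, y'.2, rfl⟩
  obtain ⟨β, hβ⟩ := (Submodule.mem_span_range_iff_exists_fun _).1 (hspan _ hredy')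
  -- Step 5: compare coordinates at `i₀`
  set γ : k := S.resO ⟨ρ, hρ⟩ with hγ
  have hredu : S.red u = S.red ⟨x, hx⟩ - algebraMap k Ft γ := by
    rw [hu, red_psi]
    simp [hγ]
  have hyVfac : yV = u * ⟨(y' : F), hy'mem⟩ := by
    apply Subtype.ext
    show (yV : F) = (u : F) * (y' : F)
    rw [hyVcoe, hyF, hucoe]
  have hred1 : S.red yV = ∑ i, algebraMap k Ft (S.resO ⟨μ i, hμO i⟩) * bt i := by
    rw [hyV, map_sum]
    refine Finset.sum_congr rfl fun i _ => ?_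
    rw [map_mul, red_inclO, hbt i]
  have hred2 : S.red yV = (S.red ⟨x, hx⟩ - algebraMap k Ft γ) * ∑ i, β i • bt i := by
    rw [hyVfac, map_mul, hredu, hβ]
  -- coefficients in `k(xt)`
  set a : Fin m → ↥k⟮S.red ⟨x, hx⟩⟯ :=
    fun i => algebraMap k ↥k⟮S.red ⟨x, hx⟩⟯ (S.resO ⟨μ i, hμO i⟩) with ha
  set b : Fin m → ↥k⟮S.red ⟨x, hx⟩⟯ :=
    fun i => algebraMap ↥(Algebra.adjoin k {S.red ⟨x, hx⟩}) ↥k⟮S.red ⟨x, hx⟩⟯
      (piRho (S.red ⟨x, hx⟩) γ * β i) with hb
  have hsum : ∑ i, a i • bt i = ∑ i, b i • bt i := by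
    have h1 : ∑ i, a i • bt i = S.red yV := by
      rw [hred1]
      refine Finset.sum_congr rfl fun i _ => ?_
      rw [IntermediateField.smul_def, smul_eq_mul]
      rfl
    have h2 : ∑ i, b i • bt i = S.red yV := by
      rw [hred2, Finset.mul_sum]
      refine Finset.sum_congr rfl fun i _ => ?_
      rw [IntermediateField.smul_def, smul_eq_mul]
      show ((piRho (S.red ⟨x, hx⟩) γ * β i : ↥(Algebra.adjoin k {S.red ⟨x, hx⟩})) : Ft) * bt i
        = (S.red ⟨x, hx⟩ - algebraMap k Ft γ) * (((β i : ↥(Algebra.adjoin k {S.red ⟨x, hx⟩})) : Ft) * bt i)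
      rw [Subalgebra.coe_mul, mul_assoc]
      rfl
    rw [h1, h2]
  have hab : a = b := by
    have h1 := congrArg (fun z => (bt.repr z : Fin m → ↥k⟮S.red ⟨x, hx⟩⟯)) hsum
    simp only [Module.Basis.repr_sum_self] at h1
    exact h1
  have hai₀ : a i₀ = 1 := by
    rw [ha]
    have : (⟨μ i₀, hμO i₀⟩ : ↥S.O) = 1 := Subtype.ext hμi₀
    simp only [this, map_one]
  have h1 : piRho (S.red ⟨x, hx⟩) γ * β i₀ = 1 := by
    have h2 : b i₀ = 1 := by rw [← hab]; exact hai₀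
    apply Subtype.ext
    have h3 := congrArg (fun z : ↥k⟮S.red ⟨x, hx⟩⟯ => (z : Ft)) h2
    exact h3
  exact (prime_piRho hxt γ).not_isUnit (IsUnit.of_mul_eq_one _ h1)

end Fermat.Agent.RED.H82
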