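import Fermat.Agent.RED.H34_Chart
import Fermat.Agent.RED.H82_NotDvdDet

/-!
# G-RED package IG (helper34 + helper82): the chart theorem, unconditional

`stmt_chartNormal : Stmt_chartNormal` — the reduction of the integral closure of `C[x]` in `F`
is the integral closure of `k[xt]` in `Ft`, when `[Ft : k(xt)] = [F : C(x)]`, `Ft / k(xt)` is
separable and the branch values of `x` lying in `O` are pairwise distinct modulo `m_O`.
-/

set_option autoImplicit false

namespace Fermat.Agent.RED.H34

theorem stmt_notDvdDet : Stmt_notDvdDet := by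
  intro C F k Ft _ _ _ _ _ _ _ S x hx hxt _ hdeg m bF hbV hbB bt hbt hspan c P hP ρ hρ
  exact H82.not_dvd_det hx hxt hdeg bF hbV hbB bt hbt hspan c P hP ρ hρ

/-- **Chart theorem.** -/
theorem stmt_chartNormal : Stmt_chartNormal :=
  stmt_chartNormal_of_notDvdDet stmt_notDvdDet

end Fermat.Agent.RED.H34
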