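import Fermat.Agent.RED.Defs
import Fermat.Agent.RED.H73_GAModular
import Fermat.Agent.RED.H73_GAVal
import Fermat.Prelude.Def_ModularCurve_ReductionModL
import Fermat.Prelude.Def_FLTPrelim_Ramification

/-!
# Cluster G, part RED: interface statements, layer 1 (Deuring reduction), version 4

Plan: `NOTES/plan/G_RED.md`, sections "v2", "v4".  Setting (helper73's package GA):
`C` a field, `O : ValuationSubring C`, `F : IntermediateField C (LaurentSeries C)` with
`h : HasScale O F`; `V = gaussValSub O F h`, `res = gaussResF' O h : V →+* redField O F h`,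
`redField O F h ⊂ k((q))` the reduced function field.

* `IsRed O h r` : **conservation law** `r_* (div f) = div (res f)` for every Gauss unit `f`.
* `GenusLE O h r` : `l(r_* D) ≤ l(D)` for all `D` of large degree ("the genus does not drop").
* `HasDR O h` : a **Deuring reduction datum** exists (`r` with `IsRed` and `GenusLE`, and the
  reduced field is a function field).
* `TIcoreFor O h ℓ` : **the Kummer form of torsion injectivity**.
* `Stmt_DR`, `Stmt_TIcore`, `Stmt_TIabs`, `Stmt_KD` : the packages.

`Stmt_TIabs` is proved by helper17's ROUTE C (non-special divisor, valuations only); the cusp,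
the residue disc, Weierstrass preparation and orthonormal `q`-bases of v3 are NOT needed.
This file contains no `sorry`.
-/

set_option autoImplicit false
set_option synthInstance.maxHeartbeats 400000
set_option maxHeartbeats 1000000

noncomputable section

open AlgebraicCurve ModularCurve Fermat.Agent.S28.H73 Fermat.Agent.RED.H73

namespace Fermat.Agent.RED

section Abstract

variable {C : Type} [Field C] (O : ValuationSubring C)
variable {F : IntermediateField C (LaurentSeries C)} (h : HasScale O F)

/-- **Conservation law** (Deuring): `r_* (div f) = div (res f)` for every Gauss unit `f`. -/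
def IsRed (r : Place C ↥F → Place (kV O) ↥(redField O F h)) : Prop :=
  ∀ f : ↥(gaussValSub O F h), IsUnit f →
    ∀ D : Divisor C ↥F, (∀ P, D P = P.ord (f : ↥F)) →
      ∀ Q : Place (kV O) ↥(redField O F h),
        Finsupp.mapDomain r D Q = Q.ord (gaussResF' O h f)

/-- The place is the `q`-order (the cusp `∞`). -/
def IsCuspPlace {k : Type} [Field k] {E : IntermediateField k (LaurentSeries k)}
    (P : Place k ↥E) : Prop :=
  ∀ f : ↥E, f ≠ 0 → P.ord f = (f : LaurentSeries k).order

/-- "The genus does not drop": `l(r_* D) ≤ l(D)` for all divisors `D` of large degree. -/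
def GenusLE (r : Place C ↥F → Place (kV O) ↥(redField O F h)) : Prop :=
  ∃ c : ℤ, ∀ D : Divisor C ↥F, c ≤ Divisor.degree D →
    Module.finrank (kV O) (riemannRochSpace (Finsupp.mapDomain r D)) ≤
      Module.finrank C (riemannRochSpace D)

/-- `(F, V)` has good reduction in the sense of Deuring: the reduced field is a function field
and there is a map `r` of places with the conservation law such that the genus does not drop. -/
def HasDR : Prop :=
  IsFF (kV O) ↥(redField O F h) ∧
  ∃ r : Place C ↥F → Place (kV O) ↥(redField O F h), IsRed O h r ∧ GenusLE O h r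

/-- **Kummer form of torsion injectivity.** -/
def TIcoreFor (ℓ : ℕ) : Prop :=
  ∀ m : ℕ, ¬ ℓ ∣ m → ∀ f : ↥(gaussValSub O F h), gaussResF' O h f = 1 →
    (∀ P : Place C ↥F, (m : ℤ) ∣ P.ord (f : ↥F)) → ∃ t : ↥F, t ^ m = (f : ↥F)

end Abstract

/-- **Package TI-abs** (abstract; helper17, Route C): a Deuring reduction datum gives the Kummer
form of torsion injectivity.  Inputs from the function field layer: FF-B and Riemann's theorem,
for `F / C` and for the reduced field. -/
def Stmt_TIabs : Prop :=
  Stmt_FFB_principal → Stmt_FFB_deg → Stmt_FFR_finite → Stmt_FFR_le → Stmt_FFR_riemann →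
  ∀ (C : Type) [Field C] [IsAlgClosed C] (O : ValuationSubring C) [IsAlgClosed (kV O)]
    (F : IntermediateField C (LaurentSeries C)) (h : HasScale O F) (ℓ : ℕ),
    ℓ.Prime → ((ℓ : ℕ) : kV O) = 0 → IsFF C ↥F → HasDR O h → TIcoreFor O h ℓ

/-- **Package DR** (existence of the Deuring reduction datum at the levels where the Igusa
crux IG is proved): `ℓ ≥ 5` (base = `j`-line), or levels `M` divisible by `4` (for odd `ℓ`) or by
`9` (for `ℓ = 2`) (base = `X₀(4)`, `X₀(9)`). -/
def Stmt_DR : Prop :=
  ∀ (M ℓ : ℕ) [NeZero M], ℓ.Prime → ¬ ℓ ∣ M → (5 ≤ ℓ ∨ 4 ∣ M ∨ 9 ∣ M) →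
    ∀ A : ValuationSubring (AlgebraicClosure ℚ), A.LiesOverPrime ℓ →
      HasDR A (hasScale_laurentBaseChange A M)

/-- **Package TIcore** at every level `N` prime to `ℓ`. -/
def Stmt_TIcore : Prop :=
  ∀ (N ℓ : ℕ) [NeZero N], ℓ.Prime → ¬ ℓ ∣ N →
    ∀ A : ValuationSubring (AlgebraicClosure ℚ), A.LiesOverPrime ℓ →
      TIcoreFor A (hasScale_laurentBaseChange A N) ℓ

/-- **Package KD** (Kummer descent from level `M` to level `N ∣ M`, `M ∣ 36 N`): an element of
`F_N` whose divisor on `F_N` is divisible by `m` and which is an `m`-th power in `F_M` is an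
`m`-th power in `F_N` (the cover `X₀(M) → X₀(N)` has no unramified abelian subcover: a cusp of
ramification index `4` resp. `9` lies in a fibre with unramified cusps). -/
def Stmt_KD : Prop :=
  ∀ (N M m : ℕ) [NeZero N] [NeZero M], N ∣ M → M ∣ 36 * N → 0 < m →
    ∀ f : ↥(modularFunctionFieldBar N),
      (∀ P : Place (AlgebraicClosure ℚ) ↥(modularFunctionFieldBar N), (m : ℤ) ∣ P.ord f) →
      (∃ t : LaurentSeries (AlgebraicClosure ℚ), t ∈ modularFunctionFieldBar M ∧
        t ^ m = (f : LaurentSeries (AlgebraicClosure ℚ))) →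
      ∃ t : ↥(modularFunctionFieldBar N), t ^ m = f

end Fermat.Agent.RED
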