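import Fermat.Agent.RED.H73_GAVal
import Fermat.Agent.RED.H34_IGDefs

/-!
# G-RED package GA (helper73): the Gauss valuation as a `RedSetting` of helper34

`redSetting O F h : H34.RedSetting C F (kV O) (redField O F h)` for every field
`F ⊂ C((q))` with the scaling property.
-/

set_option autoImplicit false
set_option synthInstance.maxHeartbeats 400000
set_option maxHeartbeats 1000000

open ModularCurve Fermat.Agent.S28 Fermat.Agent.S28.H73

noncomputable section

namespace Fermat.Agent.RED.H73

variable {C : Type} [Field C] (O : ValuationSubring C)
variable {F : IntermediateField C (LaurentSeries C)}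

/-- The constants of the Gauss valuation ring, as elements of `O`. -/
def constToO (h : HasScale O F) :
    ↥((gaussValSub O F h).comap (algebraMap C ↥F)) →+* ↥O where
  toFun a := ⟨(a : C), (algebraMap_mem_gaussValSub_iff O h _).1 a.2⟩
  map_one' := rfl
  map_mul' _ _ := rfl
  map_zero' := rfl
  map_add' _ _ := rfl

theorem constToO_coe (h : HasScale O F)
    (a : ↥((gaussValSub O F h).comap (algebraMap C ↥F))) : ((constToO O h a : ↥O) : C) = a := rfl

theorem constToO_surjective (h : HasScale O F) : Function.Surjective (constToO O h) := by
  intro a
  exact ⟨⟨(a : C), (algebraMap_mem_gaussValSub_iff O h _).2 a.2⟩, rfl⟩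

/-- The Gauss valuation on `F` as a reduction setting. -/
def redSetting (h : HasScale O F) :
    Fermat.Agent.RED.H34.RedSetting C ↥F (kV O) ↥(redField O F h) where
  V := gaussValSub O F h
  red := gaussResF' O h
  red_surj := gaussResF'_surjective O h
  resO := (resV O).comp (constToO O h)
  resO_surj := (IsLocalRing.residue_surjective).comp (constToO_surjective O h)
  red_algebraMap := by
    intro a
    apply Subtype.ext
    show gaussResF O h ⟨algebraMap C ↥F (a : C), a.2⟩ = _
    have := gaussResF_algebraMap O h (constToO O h a) a.2
    refine this.trans ?_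
    show _ = algebraMap (kV O) (LaurentSeries (kV O)) _
    rw [algebraMap_kV]
    rfl
  scale := by
    intro f hf
    obtain ⟨c, u, hc, hu⟩ := exists_unit_scale O h f hf
    exact ⟨c, hc, u, hu⟩

theorem redSetting_V (h : HasScale O F) : (redSetting O h).V = gaussValSub O F h := rfl

theorem redSetting_red (h : HasScale O F) (x : ↥(gaussValSub O F h)) :
    (redSetting O h).red x = gaussResF' O h x := rfl

end Fermat.Agent.RED.H73
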