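import Fermat.Agent.RED.H42_Gen9
import Fermat.Agent.RED.Core
import Fermat.Agent.RED.H73_GARedSetting

/-!
# G-RED package GEN (helper42), part 10: `GenusLE` of `RED/Core.lean` from normal charts

Setting of helper73's package GA: `O : ValuationSubring C`, `F ⊂ C((q))` with `h : HasScale O F`,
`S = H73.redSetting O h`.  If `x` is a unit of the Gauss valuation ring with transcendental
reduction, both charts `x` and `x⁻¹` are normal (conclusion of helper34's `Stmt_chartNormal`),
`F~ / k(xt)` is separable of degree `[F : C(x)]` and `char C = 0`, then `GenusLE O h r` holds for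
EVERY map `r` of places.
-/

set_option autoImplicit false
set_option synthInstance.maxHeartbeats 400000
set_option maxHeartbeats 1000000

noncomputable section

open AlgebraicCurve IntermediateField ModularCurve Fermat.Agent.S28.H73 Fermat.Agent.RED.H73

namespace Fermat.Agent.RED.H42

variable {C : Type} [Field C] (O : ValuationSubring C)
variable {F : IntermediateField C (LaurentSeries C)} (h : HasScale O F)

/-- **Package GEN**: the genus does not drop under reduction. -/
theorem genusLE_of_charts_GA [IsAlgClosed C] [CharZero C] [IsAlgClosed (kV O)]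
    (hFF : IsFF C ↥F) (hFFt : IsFF (kV O) ↥(redField O F h))
    {x : ↥F} (hx : x ∈ (redSetting O h).V) (hx' : x⁻¹ ∈ (redSetting O h).V)
    (hxt : Transcendental (kV O) ((redSetting O h).red ⟨x, hx⟩)) [FiniteDimensional ↥C⟮x⟯ ↥F]
    (hdeg : Module.finrank ↥(kV O)⟮(redSetting O h).red ⟨x, hx⟩⟯ ↥(redField O F h) =
      Module.finrank ↥C⟮x⟯ ↥F)
    [Algebra.IsSeparable ↥(kV O)⟮(redSetting O h).red ⟨x, hx⟩⟯ ↥(redField O F h)]
    (hcn : ∀ y : ↥(redField O F h),
      IsIntegral ↥(Algebra.adjoin (kV O) {(redSetting O h).red ⟨x, hx⟩}) y →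
      ∃ f : ↥(redSetting O h).V, IsIntegral ↥(Algebra.adjoin C {x}) (f : ↥F) ∧
        (redSetting O h).red f = y)
    (hcn' : ∀ y : ↥(redField O F h),
      IsIntegral ↥(Algebra.adjoin (kV O) {(redSetting O h).red ⟨x⁻¹, hx'⟩}) y →
      ∃ f : ↥(redSetting O h).V, IsIntegral ↥(Algebra.adjoin C {x⁻¹}) (f : ↥F) ∧
        (redSetting O h).red f = y)
    (r : Place C ↥F → Place (kV O) ↥(redField O F h)) : GenusLE O h r :=
  genusLE_of_charts hFF hFFt (redSetting O h) hx hx' hxt hdeg hcn hcn' r

end Fermat.Agent.RED.H42
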