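import Fermat.Agent.RED.H79_ConsC4
import Fermat.Agent.RED.H51_Det

/-!
# G-RED package CONS, C5 (helper79): the pointwise inequality

`stmt_C5 : Stmt_C5`: for a Gauss unit `f ∈ R = B ∩ V` with divisor `D` and a place `Q` of `Ft`
finite over `xt`:  `ord_Q (red f) ≤ Σ_{P in the chart, r P = Q} ord_P f`.

Proof (helper10's C5): for every zero `P` of `f` finite over `x` choose `g_P ∈ R` vanishing at `P`
with `ord_Q (red g_P) = 1` if `P` is in the chart and `r P = Q`, and `= 0` otherwise.  Then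
`g = Π g_P ^ ord_P f` is divisible by `f` in `R`.
-/

set_option autoImplicit false
set_option linter.style.haveILetI false

noncomputable section

open AlgebraicCurve IsDedekindDomain WithZero IntermediateField
open scoped IntermediateField.algebraAdjoinAdjoin

namespace Fermat.Agent.RED.H79

open Fermat.Agent.RED.H34 Fermat.Agent.RED.H51

section C5

variable {C F k Ft : Type} [Field C] [Field F] [Algebra C F] [Field k] [Field Ft] [Algebra k Ft]
variable (S : RedSetting C F k Ft) {x : F} (hx : x ∈ S.V)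

/-- A constant outside `O` has its inverse in the maximal ideal of `O`. -/
theorem exists_inv_of_not_mem {a : C} (ha : algebraMap C F a ∉ S.V) :
    ∃ b : ↥S.O, (b : C) = a⁻¹ ∧ S.resO b = 0 := by
  have hinv : algebraMap C F a⁻¹ ∈ S.V := by
    rw [map_inv₀]
    exact (S.V.mem_or_inv_mem _).resolve_left ha
  refine ⟨⟨a⁻¹, hinv⟩, rfl, ?_⟩
  rw [S.resO_eq_zero_iff]
  rintro ⟨u, hu⟩
  apply ha
  have ha0 : a ≠ 0 := by
    rintro rfl
    apply ha
    rw [map_zero]
    exact zero_mem _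
  have h1 : ((u⁻¹ : (↥S.O)ˣ) : ↥S.O) * ⟨a⁻¹, hinv⟩ = 1 := by
    rw [← hu]
    exact u.inv_mul
  have h2 : (((u⁻¹ : (↥S.O)ˣ) : ↥S.O) : C) * a⁻¹ = 1 := congrArg Subtype.val h1
  have h3 : (((u⁻¹ : (↥S.O)ˣ) : ↥S.O) : C) = a := (mul_inv_eq_one₀ ha0).1 h2
  have h4 := ((u⁻¹ : (↥S.O)ˣ) : ↥S.O).2
  rw [h3] at h4
  exact h4

/-- Case (i): a place finite over `x` outside the chart: `g = 1 - x / x(P)`. -/
theorem exists_g_out [IsAlgClosed C] (hx : x ∈ S.V) (hxC : Transcendental C x)
    [FiniteDimensional C⟮x⟯ F] (P : Place C F) (hxP : x ∈ P.toValuationSubring) (hP : ¬ InChart S x P) :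
    ∃ g : ↥S.V, IsIntegral ↥(Algebra.adjoin C {x}) (g : F) ∧ OrdGe P 1 (g : F) ∧
      S.red g = 1 := by
  have hdeg : P.deg = 1 := Fermat.Agent.S24.ff_deg_eq_one x hxC P
  obtain ⟨a, ha⟩ := exists_value P hdeg ((ordGe_zero_iff_mem P x).2 hxP)
  have haV : algebraMap C F a ∉ S.V := fun h => hP ⟨a, h, ha⟩
  obtain ⟨b, hb, hb0⟩ := exists_inv_of_not_mem S haV
  have ha0 : a ≠ 0 := by
    rintro rfl
    apply haV
    rw [map_zero]
    exact zero_mem _
  refine ⟨1 - S.inclO b * ⟨x, hx⟩, ?_, ?_, ?_⟩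
  · have : ((1 - S.inclO b * ⟨x, hx⟩ : ↥S.V) : F) = 1 - algebraMap C F (b : C) * x := rfl
    rw [this]
    exact isIntegral_one.sub ((isIntegral_const x _).mul (isIntegral_gen x))
  · have : ((1 - S.inclO b * ⟨x, hx⟩ : ↥S.V) : F)
        = algebraMap C F (-a⁻¹) * (x - algebraMap C F a) := by
      show 1 - algebraMap C F (b : C) * x = _
      rw [hb, map_neg, map_inv₀]
      have : algebraMap C F a ≠ 0 := by
        rwa [ne_eq, map_eq_zero_iff _ (algebraMap C F).injective]
      field_simp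
      ring
    rw [this]
    have := (ordGe_algebraMap P (-a⁻¹)).mul ha
    simpa using this
  · rw [map_sub, map_mul, S.red_inclO, hb0, map_one, map_zero, zero_mul, sub_zero]

/-- Cases (ii), (iii): lift of an element of `Bt` vanishing at the reduction of `P`. -/
theorem exists_g_lift (hN : ChartNormal S x hx) (hI : ChartIntegral S x hx)
    (P : Place C F) (hP : InChart S x P) (Q' : Place k Ft) (hPQ : RedTo S x hx P Q')
    (b : Ft) (hb : IsIntegral ↥(Algebra.adjoin k {S.red ⟨x, hx⟩}) b) (hbQ : OrdGe Q' 1 b) :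
    ∃ g : ↥S.V, IsIntegral ↥(Algebra.adjoin C {x}) (g : F) ∧ OrdGe P 1 (g : F) ∧
      S.red g = b := by
  obtain ⟨t, ht, htb⟩ := hN b hb
  obtain ⟨a, ha⟩ := (hI t ht).2 P hP
  have h1 := hPQ.2 t ht a ha
  rw [htb] at h1
  have h2 : OrdGe Q' 1 (algebraMap k Ft (S.resO a)) := by
    have := hbQ.sub h1
    rwa [sub_sub_cancel] at this
  have h3 : S.resO a = 0 := const_eq_zero_of_ordGe_one Q' _ h2
  refine ⟨t - S.inclO a, ?_, ha, ?_⟩
  · have : ((t - S.inclO a : ↥S.V) : F) = (t : F) - algebraMap C F (a : C) := rfl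
    rw [this]
    exact ht.sub (isIntegral_const x _)
  · rw [map_sub, S.red_inclO, h3, map_zero, sub_zero, htb]

open Classical in
/-- The functions `g_P`. -/
theorem exists_gP [IsAlgClosed C] (G : GoodChart S x hx) (hI : ChartIntegral S x hx)
    (r : Place C F → Place k Ft) (hr : ∀ P, InChart S x P → RedTo S x hx P (r P))
    (Q : Place k Ft) (hQ : S.red ⟨x, hx⟩ ∈ Q.toValuationSubring)
    (P : Place C F) (hxP : x ∈ P.toValuationSubring) :
    ∃ g : ↥S.V, IsIntegral ↥(Algebra.adjoin C {x}) (g : F) ∧ OrdGe P 1 (g : F) ∧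
      S.red g ≠ 0 ∧ Q.ord (S.red g) = if InChart S x P ∧ r P = Q then 1 else 0 := by
  haveI := G.fin
  haveI := G.sep
  haveI := G.finite_red
  haveI := G.sept
  have hxC : Transcendental C x := RedSetting.transcendental_x hx G.transc
  haveI := isDedekind_Bx (K := k) (S.red ⟨x, hx⟩) G.transc
  haveI := isFractionRing_Bx (K := k) (F := Ft) (S.red ⟨x, hx⟩)
  obtain ⟨wQ, hwQ⟩ := exists_eq_ofH_of_mem (S.red ⟨x, hx⟩) G.transc Q hQ
  by_cases hP : InChart S x P
  · by_cases hrQ : r P = Q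
    · obtain ⟨b, -, hb1⟩ := exists_ord_eq_one (K := k) (F := Ft) wQ
      rw [← hwQ] at hb1
      have hrP : RedTo S x hx P Q := hrQ ▸ hr P hP
      obtain ⟨g, hg1, hg2, hg3⟩ := exists_g_lift S hx G.normal hI P hP Q hrP
        (algebraMap _ Ft b) b.2 (Or.inr hb1.ge)
      refine ⟨g, hg1, hg2, ?_, ?_⟩
      · rw [hg3]
        exact ne_zero_of_ord_ne_zero Q (by rw [hb1]; norm_num)
      · rw [hg3, if_pos ⟨hP, hrQ⟩]
        exact hb1
    · have hrP := hr P hP
      obtain ⟨w', hw'⟩ := exists_eq_ofH_of_mem (S.red ⟨x, hx⟩) G.transc (r P) hrP.1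
      have hne : wQ ≠ w' := by
        rintro rfl
        exact hrQ (hw'.trans hwQ.symm)
      obtain ⟨b, hb', hbQ⟩ := exists_mem_not_mem_of_ne hne
      have h1 : OrdGe (r P) 1 (algebraMap _ Ft b) := by
        rw [hw']
        exact (ordGe_one_algebraMap_iff (K := k) (F := Ft) w' b).2 hb'
      obtain ⟨g, hg1, hg2, hg3⟩ := exists_g_lift S hx G.normal hI P hP (r P) hrP
        (algebraMap _ Ft b) b.2 h1
      have h0 : Q.ord (algebraMap _ Ft b) = 0 := by
        rw [hwQ]
        exact ord_eq_zero_of_not_mem (K := k) (F := Ft) wQ hbQ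
      refine ⟨g, hg1, hg2, ?_, ?_⟩
      · rw [hg3]
        intro h
        apply hbQ
        have : b = 0 := Subtype.ext h
        rw [this]
        exact zero_mem _
      · rw [hg3, if_neg (fun h => hrQ h.2)]
        exact h0
  · obtain ⟨g, hg1, hg2, hg3⟩ := exists_g_out S hx hxC P hxP hP
    refine ⟨g, hg1, hg2, by rw [hg3]; exact one_ne_zero, ?_⟩
    rw [hg3, if_neg (fun h => hP h.1)]
    exact Q.ord_one

open Classical in
/-- **C5**: the pointwise inequality. -/
theorem stmt_C5 : Stmt_C5 := by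
  intro C F k Ft _ _ _ _ _ _ _ _ S x hx G hI r hr f hfu hfint D hD Q hQ
  haveI := G.fin
  haveI := G.sep
  have hxC : Transcendental C x := RedSetting.transcendental_x hx G.transc
  have hf0 : (f : F) ≠ 0 := by
    intro h
    have : f = 0 := Subtype.ext h
    rw [this] at hfu
    exact not_isUnit_zero hfu
  choose! g hg1 hg2 hg3 hg4 using exists_gP S hx G hI r hr Q hQ
  -- the finite zeros of `f`
  set Zf : Finset (Place C F) := D.support.filter (fun P => x ∈ P.toValuationSubring) with hZf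
  have hZfin : ∀ P ∈ Zf, x ∈ P.toValuationSubring := fun P hP => (Finset.mem_filter.1 hP).2
  -- orders of `f` at finite places are nonnegative
  have hDnn : ∀ P : Place C F, x ∈ P.toValuationSubring → 0 ≤ D P := by
    intro P hxP
    rw [hD P]
    exact (mem_iff_ord_nonneg P hf0).1 (mem_of_isIntegral P hxP hfint)
  set Gp : ↥S.V := ∏ P ∈ Zf, g P ^ (D P).toNat with hGp
  have hGpF : ∀ T : Finset (Place C F),
      ((∏ P ∈ T, g P ^ (D P).toNat : ↥S.V) : F) = ∏ P ∈ T, (g P : F) ^ (D P).toNat := by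
    intro T
    simp
  have hintT : ∀ T : Finset (Place C F), (∀ P ∈ T, x ∈ P.toValuationSubring) →
      IsIntegral ↥(Algebra.adjoin C {x}) (∏ P ∈ T, (g P : F) ^ (D P).toNat) := by
    intro T hT
    exact IsIntegral.prod _ fun P hP => (hg1 P (hT P hP)).pow _
  have hGint : IsIntegral ↥(Algebra.adjoin C {x}) (Gp : F) := by
    rw [hGp, hGpF]
    exact hintT Zf hZfin
  have hredG : S.red Gp = ∏ P ∈ Zf, S.red (g P) ^ (D P).toNat := by
    rw [hGp, map_prod]
    exact Finset.prod_congr rfl fun P _ => map_pow _ _ _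
  have hredG0 : S.red Gp ≠ 0 := by
    rw [hredG, Finset.prod_ne_zero_iff]
    exact fun P hP => pow_ne_zero _ (hg3 P (hZfin P hP))
  have hGp0 : (Gp : F) ≠ 0 := by
    intro h
    have : Gp = 0 := Subtype.ext h
    rw [this, map_zero] at hredG0
    exact hredG0 rfl
  -- (d) `ord_P G ≥ ord_P f` at finite places
  have hord : ∀ P : Place C F, x ∈ P.toValuationSubring → OrdGe P (D P) (Gp : F) := by
    intro P hxP
    by_cases hPD : P ∈ D.support
    · have hPZ : P ∈ Zf := Finset.mem_filter.2 ⟨hPD, hxP⟩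
      rw [hGp, hGpF, ← Finset.mul_prod_erase Zf _ hPZ]
      have h1 : OrdGe P (((D P).toNat : ℤ) * 1) ((g P : F) ^ (D P).toNat) :=
        ordGe_pow (hg2 P hxP) _
      have h2 : OrdGe P 0 (∏ P' ∈ Zf.erase P, (g P' : F) ^ (D P').toNat) :=
        (ordGe_zero_iff_mem P _).2 (mem_of_isIntegral P hxP
          (hintT _ fun P' hP' => hZfin P' (Finset.mem_of_mem_erase hP')))
      have h3 := h1.mul h2
      refine h3.mono ?_
      have := Int.self_le_toNat (D P)
      omega
    · have : D P = 0 := Finsupp.notMem_support_iff.1 hPD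
      rw [this]
      exact (ordGe_zero_iff_mem P _).2 (mem_of_isIntegral P hxP hGint)
  -- (e) `h = G / f ∈ R`
  set h : ↥S.V := Gp * ((hfu.unit⁻¹ : (↥S.V)ˣ) : ↥S.V) with hh
  have hGhf : Gp = h * f := by
    rw [hh, mul_assoc]
    have : ((hfu.unit⁻¹ : (↥S.V)ˣ) : ↥S.V) * f = 1 := by
      have := hfu.unit.inv_mul
      rwa [IsUnit.unit_spec] at this
    rw [this, mul_one]
  have hhF : (h : F) = (Gp : F) * (f : F)⁻¹ := by
    have : (Gp : F) = (h : F) * (f : F) := congrArg Subtype.val hGhf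
    rw [this, mul_assoc, mul_inv_cancel₀ hf0, mul_one]
  have hhint : IsIntegral ↥(Algebra.adjoin C {x}) (h : F) := by
    apply isIntegral_of_forall_ordGe x hxC
    intro P hxP
    rw [hhF]
    refine Or.inr ?_
    rw [P.ord_mul hGp0 (inv_ne_zero hf0), P.ord_inv, ← hD P]
    have := (hord P hxP).le hGp0
    omega
  -- (f) orders at `Q`
  have hredh0 : S.red h ≠ 0 := by
    intro h0
    rw [hGhf, map_mul, h0, zero_mul] at hredG0
    exact hredG0 rfl
  have hredf0 : S.red f ≠ 0 := (hfu.map S.red).ne_zero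
  have hQh : 0 ≤ Q.ord (S.red h) :=
    (mem_iff_ord_nonneg Q hredh0).1 (mem_of_isIntegral Q hQ (hI h hhint).1)
  have hQG : Q.ord (S.red Gp) = Q.ord (S.red h) + Q.ord (S.red f) := by
    rw [hGhf, map_mul, Q.ord_mul hredh0 hredf0]
  have hQG' : Q.ord (S.red Gp)
      = ∑ P ∈ Zf, ((D P).toNat : ℤ) * (if InChart S x P ∧ r P = Q then 1 else 0) := by
    rw [hredG, ord_prod Q Zf _ fun P hP => pow_ne_zero _ (hg3 P (hZfin P hP))]
    refine Finset.sum_congr rfl fun P hP => ?_
    rw [ord_pow, hg4 P (hZfin P hP)]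
  -- (g) the sum
  have hsum : ∑ P ∈ Zf, ((D P).toNat : ℤ) * (if InChart S x P ∧ r P = Q then 1 else 0)
      = ∑ P ∈ D.support.filter (fun P => InChart S x P ∧ r P = Q), D P := by
    have hfilt : D.support.filter (fun P => InChart S x P ∧ r P = Q)
        = Zf.filter (fun P => InChart S x P ∧ r P = Q) := by
      ext P
      simp only [Finset.mem_filter, hZf]
      constructor
      · rintro ⟨h1, h2⟩
        exact ⟨⟨h1, InChart.mem S h2.1⟩, h2⟩
      · rintro ⟨⟨h1, -⟩, h2⟩
        exact ⟨h1, h2⟩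
    rw [hfilt, Finset.sum_filter (s := Zf) (p := fun P => InChart S x P ∧ r P = Q)]
    refine Finset.sum_congr rfl fun P hP => ?_
    have := Int.toNat_of_nonneg (hDnn P (hZfin P hP))
    split_ifs <;> simp [this]
  rw [← hsum, ← hQG', hQG]
  omega

end C5

end Fermat.Agent.RED.H79
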