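import Fermat.Agent.RED.H79_ConsGlueDefs
import Fermat.Agent.RED.H79_ConsC5

/-!
# G-RED package CONS, C7 (helper79): glueing of two charts

Charts `x` and `x'` with `x' * (x - c₀) = 1`, `c₀ ∈ O`.  Given reductions `r₁`, `r₂` on the two
charts (`RedTo`) with conservation on each chart (`ChartCons`), the map
`r P := if InChart S x P then r₁ P else r₂ P` satisfies the conservation law `IsRedAbs S r`.
No consistency on the overlap is needed.
-/

set_option autoImplicit false
set_option linter.style.haveILetI false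

noncomputable section

open AlgebraicCurve IsDedekindDomain WithZero IntermediateField

namespace Fermat.Agent.RED.H79

open Fermat.Agent.RED.H34 Fermat.Agent.RED.H51

open Classical in
theorem mapDomain_apply_eq_sum {α β : Type*} (r : α → β) (D : α →₀ ℤ) (Q : β) :
    Finsupp.mapDomain r D Q = ∑ P ∈ D.support, if r P = Q then D P else 0 := by
  classical
  rw [Finsupp.mapDomain, Finsupp.sum, Finsupp.finsetSum_apply]
  refine Finset.sum_congr rfl fun P _ => ?_
  rw [Finsupp.single_apply]

section Glue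

variable {C F k Ft : Type} [Field C] [Field F] [Algebra C F] [Field k] [Field Ft] [Algebra k Ft]
variable (S : RedSetting C F k Ft) {x x' : F} (hx : x ∈ S.V) (hx' : x' ∈ S.V) (c₀ : ↥S.O)

/-- (A) A place outside the chart `x` lies in the chart `x'`, with value in `m_O`. -/
theorem inChart_inv_of_not_inChart [IsAlgClosed C] (hxC : Transcendental C x)
    [FiniteDimensional C⟮x⟯ F] (hxx' : x' * (x - algebraMap C F (c₀ : C)) = 1)
    (P : Place C F) (hP : ¬ InChart S x P) :
    ∃ a' : ↥S.O, S.resO a' = 0 ∧ OrdGe P 1 (x' - algebraMap C F (a' : C)) := by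
  have hx'inv : x' = (x - algebraMap C F (c₀ : C))⁻¹ := eq_inv_of_mul_eq_one_left hxx'
  have hne : x - algebraMap C F (c₀ : C) ≠ 0 := by
    intro h
    rw [h, mul_zero] at hxx'
    exact zero_ne_one hxx'
  by_cases hxP : x ∈ P.toValuationSubring
  · have hdeg : P.deg = 1 := Fermat.Agent.S24.ff_deg_eq_one x hxC P
    obtain ⟨a, ha⟩ := exists_value P hdeg ((ordGe_zero_iff_mem P x).2 hxP)
    have haV : algebraMap C F a ∉ S.V := fun h => hP ⟨a, h, ha⟩
    have haV' : algebraMap C F (a - c₀) ∉ S.V := by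
      intro h
      apply haV
      have : algebraMap C F a = algebraMap C F (a - c₀) + algebraMap C F (c₀ : C) := by
        rw [← map_add, sub_add_cancel]
      rw [this]
      exact add_mem h c₀.2
    obtain ⟨b, hb, hb0⟩ := exists_inv_of_not_mem S haV'
    have hac : a - (c₀ : C) ≠ 0 := by
      intro h
      apply haV'
      rw [h, map_zero]
      exact zero_mem _
    have hacF : algebraMap C F (a - c₀) ≠ 0 := by
      rwa [ne_eq, map_eq_zero_iff _ (algebraMap C F).injective]
    refine ⟨b, hb0, ?_⟩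
    -- `ord_P (x - c₀) = 0`
    have h0 : P.ord (x - algebraMap C F (c₀ : C)) = 0 := by
      have e : x - algebraMap C F (c₀ : C)
          = algebraMap C F (a - c₀) + (x - algebraMap C F a) := by
        rw [map_sub]; ring
      rw [e, (ord_add_eq P hacF (by rw [ord_algebraMap]; simpa using ha)).2, ord_algebraMap]
    have h1 : OrdGe P 0 x' := by
      refine Or.inr ?_
      rw [hx'inv, P.ord_inv, h0]
      simp
    have e : x' - algebraMap C F (b : C)
        = (algebraMap C F (-(b : C)) * x') * (x - algebraMap C F a) := by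
      have hb' : algebraMap C F (b : C) * algebraMap C F (a - c₀) = 1 := by
        rw [hb, ← map_mul, inv_mul_cancel₀ hac, map_one]
      rw [map_sub] at hb'
      rw [map_neg]
      linear_combination (algebraMap C F (b : C)) * hxx' - x' * hb'
    rw [e]
    have := ((ordGe_algebraMap P (-(b : C))).mul h1).mul ha
    simpa using this
  · refine ⟨0, map_zero _, ?_⟩
    have h1 : x - algebraMap C F (c₀ : C) ∉ P.toValuationSubring := by
      intro h
      apply hxP
      have : x = (x - algebraMap C F (c₀ : C)) + algebraMap C F (c₀ : C) := by ring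
      rw [this]
      exact add_mem h (P.algebraMap_mem' _)
    have h2 := (not_mem_iff_ord_neg P).1 h1
    refine Or.inr ?_
    simp only [ZeroMemClass.coe_zero, map_zero, sub_zero]
    rw [hx'inv, P.ord_inv]
    omega

/-- `red x' * (xt - c₀~) = 1`. -/
theorem red_mul_eq_one (hxx' : x' * (x - algebraMap C F (c₀ : C)) = 1) :
    S.red ⟨x', hx'⟩ * (S.red ⟨x, hx⟩ - algebraMap k Ft (S.resO c₀)) = 1 := by
  have h : (⟨x', hx'⟩ : ↥S.V) * (⟨x, hx⟩ - S.inclO c₀) = 1 := Subtype.ext hxx'
  have := congrArg S.red h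
  rwa [map_mul, map_sub, S.red_inclO, map_one] at this

/-- (C) If `Q` is not finite over `xt`, then `red x'` vanishes at `Q`. -/
theorem ordGe_red_inv (hxx' : x' * (x - algebraMap C F (c₀ : C)) = 1) (Q : Place k Ft)
    (hQ : S.red ⟨x, hx⟩ ∉ Q.toValuationSubring) : OrdGe Q 1 (S.red ⟨x', hx'⟩) := by
  have h1 : S.red ⟨x, hx⟩ - algebraMap k Ft (S.resO c₀) ∉ Q.toValuationSubring := by
    intro h
    apply hQ
    have : S.red ⟨x, hx⟩ = (S.red ⟨x, hx⟩ - algebraMap k Ft (S.resO c₀))
        + algebraMap k Ft (S.resO c₀) := by ring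
    rw [this]
    exact add_mem h (Q.algebraMap_mem' _)
  have h2 := (not_mem_iff_ord_neg Q).1 h1
  have h3 : S.red ⟨x', hx'⟩ = (S.red ⟨x, hx⟩ - algebraMap k Ft (S.resO c₀))⁻¹ :=
    eq_inv_of_mul_eq_one_left (red_mul_eq_one S hx hx' c₀ hxx')
  refine Or.inr ?_
  rw [h3, Q.ord_inv]
  omega

/-- (B) If `red x'` vanishes at `Q`, then `Q` is not finite over `xt`. -/
theorem not_mem_of_ordGe_red_inv (hxx' : x' * (x - algebraMap C F (c₀ : C)) = 1)
    (Q : Place k Ft) (hQ : OrdGe Q 1 (S.red ⟨x', hx'⟩)) :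
    S.red ⟨x, hx⟩ ∉ Q.toValuationSubring := by
  intro h
  have h1 : OrdGe Q 0 (S.red ⟨x, hx⟩ - algebraMap k Ft (S.resO c₀)) :=
    ((ordGe_zero_iff_mem Q _).2 h).sub (ordGe_algebraMap Q _)
  have h2 := hQ.mul h1
  rw [red_mul_eq_one S hx hx' c₀ hxx'] at h2
  rcases h2 with h2 | h2
  · exact one_ne_zero h2
  · rw [Q.ord_one] at h2
    omega

/-- (B') The reduction on the chart `x'` of a place outside the chart `x` is not finite
over `xt`. -/
theorem not_mem_of_redTo [IsAlgClosed C] (hxC : Transcendental C x)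
    [FiniteDimensional C⟮x⟯ F] (hxx' : x' * (x - algebraMap C F (c₀ : C)) = 1)
    (P : Place C F) (hP : ¬ InChart S x P) (Q : Place k Ft) (hPQ : RedTo S x' hx' P Q) :
    S.red ⟨x, hx⟩ ∉ Q.toValuationSubring := by
  obtain ⟨a', ha'0, ha'⟩ := inChart_inv_of_not_inChart S c₀ hxC hxx' P hP
  have h1 := hPQ.2 ⟨x', hx'⟩ (isIntegral_gen x') a' ha'
  rw [ha'0, map_zero, sub_zero] at h1
  exact not_mem_of_ordGe_red_inv S hx hx' c₀ hxx' Q h1

/-- (D) A place in both charts does not reduce, on the chart `x'`, to a place which is not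
finite over `xt`. -/
theorem mem_of_redTo_of_inChart (hxx' : x' * (x - algebraMap C F (c₀ : C)) = 1)
    (P : Place C F) (hP : InChart S x P) (hP' : InChart S x' P) (Q : Place k Ft)
    (hPQ : RedTo S x' hx' P Q) : S.red ⟨x, hx⟩ ∈ Q.toValuationSubring := by
  by_contra hQ
  obtain ⟨a, haV, ha⟩ := hP
  obtain ⟨a', haV', ha'⟩ := hP'
  -- `a' (a - c₀) = 1`
  have h1 : OrdGe P 1 (algebraMap C F (1 - a' * (a - (c₀ : C)))) := by
    have e : algebraMap C F (1 - a' * (a - (c₀ : C)))
        = (x' - algebraMap C F a') * (x - algebraMap C F (c₀ : C))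
          + algebraMap C F a' * (x - algebraMap C F a) := by
      rw [map_sub, map_one, map_mul, map_sub]
      linear_combination (-1 : F) * hxx'
    rw [e]
    have hx0 : OrdGe P 0 (x - algebraMap C F (c₀ : C)) := by
      have h1 : OrdGe P 0 (x - algebraMap C F a) := ha.mono (by norm_num)
      have h2 : OrdGe P 0 (algebraMap C F (a - (c₀ : C))) := ordGe_algebraMap P _
      have := h1.add h2
      rw [map_sub] at this
      have e2 : x - algebraMap C F a + (algebraMap C F a - algebraMap C F (c₀ : C))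
          = x - algebraMap C F (c₀ : C) := by ring
      rwa [e2] at this
    have t1 := ha'.mul hx0
    have t2 := (ordGe_algebraMap P a').mul ha
    have := t1.add (t2.mono (by norm_num : (1 : ℤ) + 0 ≤ 0 + 1))
    simpa using this
  have h2 := const_eq_zero_of_ordGe_one P _ h1
  have h3 := hPQ.2 ⟨x', hx'⟩ (isIntegral_gen x') ⟨a', haV'⟩ ha'
  have h4 := ordGe_red_inv S hx hx' c₀ hxx' Q hQ
  have h5 : OrdGe Q 1 (algebraMap k Ft (S.resO ⟨a', haV'⟩)) := by
    have := h4.sub h3
    rwa [sub_sub_cancel] at this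
  have h6 := const_eq_zero_of_ordGe_one Q _ h5
  have h7 : (⟨a', haV'⟩ : ↥S.O) * (⟨a, haV⟩ - c₀) = 1 := by
    apply Subtype.ext
    show a' * (a - (c₀ : C)) = 1
    linear_combination -h2
  have h8 := congrArg S.resO h7
  rw [map_mul, h6, zero_mul, map_one] at h8
  exact zero_ne_one h8

open Classical in
/-- **C7**: glueing of the charts `x` and `x'`, `x' (x - c₀) = 1`. -/
theorem isRedAbs_glue [IsAlgClosed C] (hxC : Transcendental C x)
    [FiniteDimensional C⟮x⟯ F] (hxx' : x' * (x - algebraMap C F (c₀ : C)) = 1)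
    (r₁ r₂ : Place C F → Place k Ft)
    (hr₁ : ∀ P, InChart S x P → RedTo S x hx P (r₁ P))
    (hr₂ : ∀ P, InChart S x' P → RedTo S x' hx' P (r₂ P))
    (hc₁ : ChartCons S x hx r₁) (hc₂ : ChartCons S x' hx' r₂) :
    IsRedAbs S (fun P => if InChart S x P then r₁ P else r₂ P) := by
  intro f hfu D hD Q
  rw [mapDomain_apply_eq_sum, ← Finset.sum_filter]
  have hin2 : ∀ P, ¬ InChart S x P → InChart S x' P := by
    intro P hP
    obtain ⟨a', -, ha'⟩ := inChart_inv_of_not_inChart S c₀ hxC hxx' P hP
    exact ⟨a', a'.2, ha'⟩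
  by_cases hQ : S.red ⟨x, hx⟩ ∈ Q.toValuationSubring
  · rw [← hc₁ f hfu D hD Q hQ]
    refine Finset.sum_congr ?_ fun _ _ => rfl
    ext P
    simp only [Finset.mem_filter]
    constructor
    · rintro ⟨h1, h2⟩
      by_cases hP : InChart S x P
      · rw [if_pos hP] at h2
        exact ⟨h1, hP, h2⟩
      · rw [if_neg hP] at h2
        exfalso
        have := not_mem_of_redTo S hx hx' c₀ hxC hxx' P hP (r₂ P) (hr₂ P (hin2 P hP))
        rw [h2] at this
        exact this hQ
    · rintro ⟨h1, hP, h2⟩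
      exact ⟨h1, by rw [if_pos hP]; exact h2⟩
  · have hQ' : S.red ⟨x', hx'⟩ ∈ Q.toValuationSubring :=
      (ordGe_zero_iff_mem Q _).1 ((ordGe_red_inv S hx hx' c₀ hxx' Q hQ).mono (by norm_num))
    rw [← hc₂ f hfu D hD Q hQ']
    refine Finset.sum_congr ?_ fun _ _ => rfl
    ext P
    simp only [Finset.mem_filter]
    constructor
    · rintro ⟨h1, h2⟩
      by_cases hP : InChart S x P
      · rw [if_pos hP] at h2
        exfalso
        have := (hr₁ P hP).1
        rw [h2] at this
        exact hQ this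
      · rw [if_neg hP] at h2
        exact ⟨h1, hin2 P hP, h2⟩
    · rintro ⟨h1, hP', h2⟩
      refine ⟨h1, ?_⟩
      by_cases hP : InChart S x P
      · exfalso
        have := mem_of_redTo_of_inChart S hx hx' c₀ hxx' P hP hP' (r₂ P) (hr₂ P hP')
        rw [h2] at this
        exact hQ this
      · rw [if_neg hP]
        exact h2

end Glue

end Fermat.Agent.RED.H79
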