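import Fermat.Agent.RED.H10_ConsC6
import Fermat.Agent.RED.H79_ConsGlue
import Fermat.Agent.RED.H12_Zero
import Fermat.Agent.RED.Core
import Fermat.Agent.RED.H73_GARedSetting
import Fermat.Agent.RED.H42_Gen10

/-!
# G-RED package CONS, assembly (helper79): two good charts give the conservation law

* `exists_isRedAbs` : abstract form, for a `RedSetting` with charts `x`, `x'`, `x' (x - c₀) = 1`.
* `exists_isRed` : for the Gauss valuation of `F ⊆ C((q))`: `∃ r, IsRed O h r`.
* `hasDR_of_charts` : `HasDR O h` from two good charts, `IsFF` of the reduced field and `GenusLE`.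

Inputs: C2, C3, C6 (helper10: `H10.chartIntegral`, `H10.chart_conservation`), C4, C5, C7
(helper79).
-/

set_option autoImplicit false
set_option linter.style.haveILetI false
set_option synthInstance.maxHeartbeats 400000
set_option maxHeartbeats 1000000

noncomputable section

open AlgebraicCurve IntermediateField

namespace Fermat.Agent.RED.H79

open Fermat.Agent.RED.H34 Fermat.Agent.RED.H51 Fermat.Agent.RED.H34.RedSetting

section Abs

variable {C F k Ft : Type} [Field C] [Field F] [Algebra C F] [Field k] [Field Ft] [Algebra k Ft]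

/-- **CONS** (abstract): two good charts `x`, `x'` with `x' (x - c₀) = 1`, `c₀ ∈ O`, give a
reduction map of places with the conservation law. -/
theorem exists_isRedAbs [IsAlgClosed C] [CharZero C] [IsAlgClosed k]
    (hFF : IsFF C F) (hFFt : IsFF k Ft)
    (S : RedSetting C F k Ft) (x x' : F) (hx : x ∈ S.V) (hx' : x' ∈ S.V) (c₀ : ↥S.O)
    (hxx' : x' * (x - algebraMap C F (c₀ : C)) = 1)
    (G : GoodChart S x hx) (G' : GoodChart S x' hx') :
    ∃ r : Place C F → Place k Ft, IsRedAbs S r := by
  classical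
  haveI := G.fin
  have hxC : Transcendental C x := transcendental_x hx G.transc
  have hI : ChartIntegral S x hx := Fermat.Agent.RED.H10.chartIntegral hx hFF G
  have hI' : ChartIntegral S x' hx' := Fermat.Agent.RED.H10.chartIntegral hx' hFF G'
  -- a place of `Ft`
  obtain ⟨P₀, hP₀⟩ := Fermat.Agent.RED.H12.exists_place_ord_pos
    (fun y hy => Fermat.Agent.S24.ff_finite_of_transcendental x hxC y hy) x hxC
  have hP₀in : InChart S x P₀ := by
    refine ⟨0, ?_, ?_⟩
    · rw [map_zero]; exact zero_mem _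
    · rw [map_zero, sub_zero]; exact Or.inr hP₀
  obtain ⟨Q₀, -⟩ := stmt_C4 C F k Ft S x hx G hI P₀ hP₀in
  haveI : Nonempty (Place k Ft) := ⟨Q₀⟩
  choose! r₁ hr₁ using stmt_C4 C F k Ft S x hx G hI
  choose! r₂ hr₂ using stmt_C4 C F k Ft S x' hx' G' hI'
  refine ⟨_, isRedAbs_glue S hx hx' c₀ hxC hxx' r₁ r₂ hr₁ hr₂ ?_ ?_⟩
  · intro f hfu D hD Q hQ
    exact Fermat.Agent.RED.H10.chart_conservation hx hFF hFFt G r₁ hr₁ f hfu D hD Q hQ
  · intro f hfu D hD Q hQ
    exact Fermat.Agent.RED.H10.chart_conservation hx' hFF hFFt G' r₂ hr₂ f hfu D hD Q hQ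

end Abs

section Gauss

open ModularCurve Fermat.Agent.S28.H73 Fermat.Agent.RED.H73

variable {C : Type} [Field C] (O : ValuationSubring C)
variable {F : IntermediateField C (LaurentSeries C)} (h : HasScale O F)

/-- `IsRed` of `RED/Core.lean` is `IsRedAbs` for the Gauss valuation. -/
theorem isRed_iff_isRedAbs (r : Place C ↥F → Place (kV O) ↥(redField O F h)) :
    IsRed O h r ↔ IsRedAbs (redSetting O h) r := Iff.rfl

/-- **CONS**: two good charts `x`, `x'` with `x' (x - c₀) = 1`, `c₀ ∈ O`, of the Gauss valuation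
of `F ⊆ C((q))` give a reduction map of places with the conservation law. -/
theorem exists_isRed [IsAlgClosed C] [CharZero C] [IsAlgClosed (kV O)]
    (hFF : IsFF C ↥F) (hFFt : IsFF (kV O) ↥(redField O F h))
    (x x' : ↥F) (hx : x ∈ gaussValSub O F h) (hx' : x' ∈ gaussValSub O F h) (c₀ : C)
    (hc₀ : c₀ ∈ O) (hxx' : x' * (x - algebraMap C ↥F c₀) = 1)
    (G : GoodChart (redSetting O h) x hx) (G' : GoodChart (redSetting O h) x' hx') :
    ∃ r : Place C ↥F → Place (kV O) ↥(redField O F h), IsRed O h r := by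
  have hc₀' : algebraMap C ↥F c₀ ∈ (redSetting O h).V :=
    (algebraMap_mem_gaussValSub_iff O h c₀).2 hc₀
  exact exists_isRedAbs hFF hFFt (redSetting O h) x x' hx hx' ⟨c₀, hc₀'⟩ hxx' G G'

/-- **DR-abs**: the Deuring reduction datum from two good charts, given that the reduced field is
a function field and that the genus does not drop (package GEN). -/
theorem hasDR_of_charts [IsAlgClosed C] [CharZero C] [IsAlgClosed (kV O)]
    (hFF : IsFF C ↥F) (hFFt : IsFF (kV O) ↥(redField O F h))
    (x x' : ↥F) (hx : x ∈ gaussValSub O F h) (hx' : x' ∈ gaussValSub O F h) (c₀ : C)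
    (hc₀ : c₀ ∈ O) (hxx' : x' * (x - algebraMap C ↥F c₀) = 1)
    (G : GoodChart (redSetting O h) x hx) (G' : GoodChart (redSetting O h) x' hx')
    (hGEN : ∀ r : Place C ↥F → Place (kV O) ↥(redField O F h), IsRed O h r → GenusLE O h r) :
    HasDR O h := by
  obtain ⟨r, hr⟩ := exists_isRed O h hFF hFFt x x' hx hx' c₀ hc₀ hxx' G G'
  exact ⟨hFFt, r, hr, hGEN r hr⟩

/-- **DR-abs** (unconditional): two good charts `x`, `1/x` of the Gauss valuation of
`F ⊆ C((q))` give the Deuring reduction datum (`IsRed` by CONS, `GenusLE` by helper42's GEN). -/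
theorem hasDR_of_goodCharts [IsAlgClosed C] [CharZero C] [IsAlgClosed (kV O)]
    (hFF : IsFF C ↥F) (hFFt : IsFF (kV O) ↥(redField O F h))
    (x : ↥F) (hx : x ∈ gaussValSub O F h) (hx' : x⁻¹ ∈ gaussValSub O F h)
    (G : GoodChart (redSetting O h) x hx) (G' : GoodChart (redSetting O h) x⁻¹ hx') :
    HasDR O h := by
  haveI := G.fin
  haveI := G.sept
  have hxC : Transcendental C x := transcendental_x hx G.transc
  have hx0 : x ≠ 0 := fun h0 => hxC (h0 ▸ isAlgebraic_zero)
  refine hasDR_of_charts O h hFF hFFt x x⁻¹ hx hx' 0 (zero_mem _) ?_ G G' ?_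
  · rw [map_zero, sub_zero, inv_mul_cancel₀ hx0]
  · intro r _
    exact Fermat.Agent.RED.H42.genusLE_of_charts_GA O h hFF hFFt hx hx' G.transc G.deg
      G.normal G'.normal r

end Gauss

end Fermat.Agent.RED.H79
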