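import Fermat.Agent.RED.H76_IGModj
import Fermat.Agent.RED.H73_GAFinal
import Fermat.Agent.RED.H34_ChartFinal
import Fermat.Agent.RED.H79_DRabs
import Fermat.Agent.RED.H42_Gen10
import Fermat.Agent.RED.H95_IsFF
import Fermat.Agent.RED.Core2

/-!
# G-RED (helper76): the charts `j` and `1/j` are good for `ℓ ≥ 5`; `HasDR` for `ℓ ≥ 5`

Abstract part (any `RedSetting`, reusable for the charts `h₂`, `h₃` of IG-MOD23):
* `ker_red`, `inv_mem_of_red_ne_zero`, `red_inv` : units of `S.V` and the reduction map;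
* `goodChart_of` : `GoodChart S x hx` from the five "pre" fields and the distinctness of the
  branch values modulo the maximal ideal (`H34.stmt_chartNormal`);
* `goodChart_inv_of` : the same for the chart `x⁻¹`, from the pre fields of the chart `x`;

Modular part:
* `goodChart_jF`, `goodChart_jF_inv` : the charts `j`, `1/j` at level `N`, `ℓ ≥ 5`, `ℓ ∤ N`;
* `hasDR_of_five_le` : the case `5 ≤ ℓ` of `Stmt_DR2` (and of `Stmt_DR`), by helper79's
  `H79.hasDR_of_goodCharts`.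
-/

set_option autoImplicit false
set_option linter.style.haveILetI false
set_option synthInstance.maxHeartbeats 400000
set_option maxHeartbeats 1000000

noncomputable section

open AlgebraicCurve IntermediateField

namespace Fermat.Agent.RED.H76

open Fermat.Agent.RED.H34 Fermat.Agent.RED.H79

section Abs

variable {C F k Ft : Type} [Field C] [Field F] [Algebra C F] [Field k] [Field Ft] [Algebra k Ft]

/-- The kernel of the reduction map is the maximal ideal of the valuation ring. -/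
theorem ker_red (S : RedSetting C F k Ft) :
    RingHom.ker S.red = IsLocalRing.maximalIdeal ↥S.V :=
  IsLocalRing.eq_maximalIdeal (RingHom.ker_isMaximal_of_surjective S.red S.red_surj)

/-- An element of `V` with nonzero reduction is a unit of `V`. -/
theorem inv_mem_of_red_ne_zero (S : RedSetting C F k Ft) {x : F} (hx : x ∈ S.V)
    (h : S.red ⟨x, hx⟩ ≠ 0) : x⁻¹ ∈ S.V := by
  by_contra hinv
  apply h
  have hmem : (⟨x, hx⟩ : ↥S.V) ∈ IsLocalRing.maximalIdeal ↥S.V := by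
    rw [IsLocalRing.mem_maximalIdeal, mem_nonunits_iff]
    rintro ⟨u, hu⟩
    apply hinv
    have h1 : ((u : ↥S.V) : F) * (((u⁻¹ : (↥S.V)ˣ) : ↥S.V) : F) = 1 :=
      congrArg Subtype.val u.mul_inv
    rw [hu] at h1
    have h2 : x⁻¹ = (((u⁻¹ : (↥S.V)ˣ) : ↥S.V) : F) := inv_eq_of_mul_eq_one_right h1
    rw [h2]
    exact Subtype.mem _
  rw [← ker_red S] at hmem
  exact hmem

theorem red_inv (S : RedSetting C F k Ft) {x : F} (hx : x ∈ S.V) (hx' : x⁻¹ ∈ S.V)
    (hx0 : x ≠ 0) : S.red ⟨x⁻¹, hx'⟩ = (S.red ⟨x, hx⟩)⁻¹ := by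
  have h1 : (⟨x, hx⟩ : ↥S.V) * ⟨x⁻¹, hx'⟩ = 1 := Subtype.ext (mul_inv_cancel₀ hx0)
  have h2 := congrArg S.red h1
  rw [map_mul, map_one] at h2
  exact eq_inv_of_mul_eq_one_right h2

theorem ne_zero_of_transcendental_red (S : RedSetting C F k Ft) {x : F} (hx : x ∈ S.V)
    (h : Transcendental k (S.red ⟨x, hx⟩)) : x ≠ 0 := by
  rintro rfl
  apply h
  have : S.red ⟨0, hx⟩ = 0 := map_zero S.red
  rw [this]
  exact isAlgebraic_zero

theorem red_ne_zero_of_transcendental (S : RedSetting C F k Ft) {x : F} (hx : x ∈ S.V)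
    (h : Transcendental k (S.red ⟨x, hx⟩)) : S.red ⟨x, hx⟩ ≠ 0 := by
  intro h0
  apply h
  rw [h0]
  exact isAlgebraic_zero

/-- Transport of `finrank` along an equality of intermediate fields. -/
theorem finrank_congr_intermediateField {K E : Type} [Field K] [Field E] [Algebra K E]
    {M M' : IntermediateField K E} (h : M = M') :
    Module.finrank ↥M E = Module.finrank ↥M' E := by
  subst h
  rfl

theorem isSeparable_congr_intermediateField {K E : Type} [Field K] [Field E] [Algebra K E]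
    {M M' : IntermediateField K E} (h : M = M') (hs : Algebra.IsSeparable ↥M E) :
    Algebra.IsSeparable ↥M' E := by
  subst h
  exact hs

theorem finiteDimensional_congr_intermediateField {K E : Type} [Field K] [Field E] [Algebra K E]
    {M M' : IntermediateField K E} (h : M = M') (hs : FiniteDimensional ↥M E) :
    FiniteDimensional ↥M' E := by
  subst h
  exact hs

/-- `GoodChart` from the five "pre" fields and the distinctness of the branch values. -/
theorem goodChart_of [IsAlgClosed C] [CharZero C] [IsAlgClosed k] (S : RedSetting C F k Ft)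
    {x : F} (hx : x ∈ S.V)
    (h1 : Transcendental k (S.red ⟨x, hx⟩))
    (h2 : FiniteDimensional C⟮x⟯ F)
    (h3 : Algebra.IsSeparable C⟮x⟯ F)
    (h4 : Module.finrank k⟮S.red ⟨x, hx⟩⟯ Ft = Module.finrank C⟮x⟯ F)
    (h5 : Algebra.IsSeparable k⟮S.red ⟨x, hx⟩⟯ Ft)
    (hD : ∀ ρ ρ' : ↥(S.V.comap (algebraMap C F)), IsBranchValue x (ρ : C) →
      IsBranchValue x (ρ' : C) → S.resO ρ = S.resO ρ' → ρ = ρ') :
    GoodChart S x hx :=
  ⟨h1, h2, h3, h4, h5, stmt_chartNormal C F k Ft S x hx h1 h2 h4 h5 hD⟩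

/-- `GoodChart` for the chart `x⁻¹` from the five "pre" fields of the chart `x` and the
distinctness of the branch values of `x⁻¹`. -/
theorem goodChart_inv_of [IsAlgClosed C] [CharZero C] [IsAlgClosed k] (S : RedSetting C F k Ft)
    {x : F} (hx : x ∈ S.V) (hx' : x⁻¹ ∈ S.V)
    (h1 : Transcendental k (S.red ⟨x, hx⟩))
    (h2 : FiniteDimensional C⟮x⟯ F)
    (h3 : Algebra.IsSeparable C⟮x⟯ F)
    (h4 : Module.finrank k⟮S.red ⟨x, hx⟩⟯ Ft = Module.finrank C⟮x⟯ F)
    (h5 : Algebra.IsSeparable k⟮S.red ⟨x, hx⟩⟯ Ft)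
    (hD : ∀ ρ ρ' : ↥(S.V.comap (algebraMap C F)), IsBranchValue x⁻¹ (ρ : C) →
      IsBranchValue x⁻¹ (ρ' : C) → S.resO ρ = S.resO ρ' → ρ = ρ') :
    GoodChart S x⁻¹ hx' := by
  have hx0 : x ≠ 0 := ne_zero_of_transcendental_red S hx h1
  have hred : S.red ⟨x⁻¹, hx'⟩ = (S.red ⟨x, hx⟩)⁻¹ := red_inv S hx hx' hx0
  have hC : C⟮x⁻¹⟯ = C⟮x⟯ := adjoin_simple_inv x
  have hk : k⟮S.red ⟨x⁻¹, hx'⟩⟯ = k⟮S.red ⟨x, hx⟩⟯ := by
    rw [hred]
    exact adjoin_simple_inv _
  refine goodChart_of S hx' ?_ ?_ ?_ ?_ ?_ hD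
  · rw [hred]
    exact transcendental_inv h1
  · exact finiteDimensional_congr_intermediateField hC.symm h2
  · exact isSeparable_congr_intermediateField hC.symm h3
  · rw [finrank_congr_intermediateField hk, finrank_congr_intermediateField hC]
    exact h4
  · exact isSeparable_congr_intermediateField hk.symm h5

end Abs

section Modular

open ModularCurve Fermat.Agent.S28.H73 Fermat.Agent.RED.H73 Fermat.Agent.S24

variable (N : ℕ) [NeZero N]

/-- `1/j` lies in the Gauss valuation ring. -/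
theorem jF_inv_mem {ℓ : ℕ} (hℓ : ℓ.Prime) (hℓN : ¬ ℓ ∣ N)
    (A : ValuationSubring Kbar) (hA : A.LiesOverPrime ℓ) :
    (Fermat.Agent.RED.H73.jF (L := Kbar) N)⁻¹
      ∈ (redSetting A (hasScale_laurentBaseChange A N)).V :=
  inv_mem_of_red_ne_zero _ (jF_mem A N)
    (red_ne_zero_of_transcendental _ _ (goodChart_pre N ℓ hℓ hℓN A hA).1)

/-- **The chart `j` is good** for `ℓ ≥ 5`, `ℓ ∤ N`. -/
theorem goodChart_jF {ℓ : ℕ} (hℓ : ℓ.Prime) (hℓN : ¬ ℓ ∣ N) (h5 : 5 ≤ ℓ)
    (A : ValuationSubring Kbar) (hA : A.LiesOverPrime ℓ) :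
    GoodChart (redSetting A (hasScale_laurentBaseChange A N))
      (Fermat.Agent.RED.H73.jF (L := Kbar) N) (jF_mem A N) := by
  haveI : IsAlgClosed (kV A) := isAlgClosed_kV A
  obtain ⟨h1, h2, h3, h4, h5'⟩ := goodChart_pre N ℓ hℓ hℓN A hA
  exact goodChart_of _ (jF_mem A N) h1 h2 h3 h4 h5' (branch_distinct_jF N hℓ h5 A hA)

/-- **The chart `1/j` is good** for `ℓ ∤ N`. -/
theorem goodChart_jF_inv {ℓ : ℕ} (hℓ : ℓ.Prime) (hℓN : ¬ ℓ ∣ N)
    (A : ValuationSubring Kbar) (hA : A.LiesOverPrime ℓ) :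
    GoodChart (redSetting A (hasScale_laurentBaseChange A N))
      (Fermat.Agent.RED.H73.jF (L := Kbar) N)⁻¹ (jF_inv_mem N hℓ hℓN A hA) := by
  haveI : IsAlgClosed (kV A) := isAlgClosed_kV A
  obtain ⟨h1, h2, h3, h4, h5'⟩ := goodChart_pre N ℓ hℓ hℓN A hA
  exact goodChart_inv_of _ (jF_mem A N) (jF_inv_mem N hℓ hℓN A hA) h1 h2 h3 h4 h5'
    (branch_distinct_jF_inv N A)

/-- **DR for `ℓ ≥ 5`** (first case of `Stmt_DR2`): the Deuring reduction datum at every level
`N` prime to `ℓ`. -/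
theorem hasDR_of_five_le {ℓ : ℕ} (hℓ : ℓ.Prime) (hℓN : ¬ ℓ ∣ N) (h5 : 5 ≤ ℓ)
    (A : ValuationSubring Kbar) (hA : A.LiesOverPrime ℓ) :
    HasDR A (hasScale_laurentBaseChange A N) := by
  haveI : IsAlgClosed (kV A) := isAlgClosed_kV A
  exact hasDR_of_goodCharts A (hasScale_laurentBaseChange A N)
    (Fermat.Agent.RED.H95.isFF_FN N) (isFF_redField_bar N ℓ hℓ hℓN A hA)
    (Fermat.Agent.RED.H73.jF (L := Kbar) N) (jF_mem A N) (jF_inv_mem N hℓ hℓN A hA)
    (goodChart_jF N hℓ hℓN h5 A hA) (goodChart_jF_inv N hℓ hℓN A hA)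

end Modular

end Fermat.Agent.RED.H76
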