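import Fermat.Agent.RED.H73_GAConj
import Mathlib.FieldTheory.Relrank
import Mathlib.FieldTheory.Separable
import Mathlib.FieldTheory.IntermediateField.Adjoin.Algebra
import Mathlib.FieldTheory.Minpoly.IsIntegrallyClosed

/-!
# G-RED package GA (helper73): degree and separability of `K(u, J) / K(J)`

Abstract setting `ConjHyp q₀ J U` over an infinite field `K` (any characteristic):
* `ConjHyp.natDegree_minpoly_field` : the minimal polynomial of `u` over the FIELD `K(J)` has
  degree `card Q`;
* `ConjHyp.relfinrank_eq` : `[K(u, J) : K(J)] = card Q`;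
* `ConjHyp.isSeparable_u`, `ConjHyp.isSeparable_of_mem` : `K(u, J) / K(J)` is separable.
-/

set_option autoImplicit false

open Polynomial ModularCurve Fermat.Agent.S28 Fermat.Agent.S28.H73 Fermat.Agent.S28.H90
open IntermediateField
open scoped IntermediateField.algebraAdjoinAdjoin

noncomputable section

namespace Fermat.Agent.RED.H73

variable {K : Type} [Field K] [Infinite K] {Q : Type} [Fintype Q] {q₀ : Q}
  {J : LaurentSeries K} {U : Q → LaurentSeries K}

/-- Gauss's lemma: the minimal polynomial of `u` over the field `K(J)` is the one over `K[J]`. -/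
theorem ConjHyp.minpoly_field (h : ConjHyp q₀ J U) :
    minpoly ↥(adjoin K ({J} : Set (LaurentSeries K))) (U q₀)
      = (minpoly ↥(Algebra.adjoin K ({J} : Set (LaurentSeries K))) (U q₀)).map
          (algebraMap ↥(Algebra.adjoin K ({J} : Set (LaurentSeries K)))
            ↥(adjoin K ({J} : Set (LaurentSeries K)))) := by
  have := h.isIntegrallyClosed
  exact minpoly.isIntegrallyClosed_eq_field_fractions' _ h.isIntegral_u

theorem ConjHyp.natDegree_minpoly_field (h : ConjHyp q₀ J U) :
    (minpoly ↥(adjoin K ({J} : Set (LaurentSeries K))) (U q₀)).natDegree = Fintype.card Q := by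
  rw [h.minpoly_field, (minpoly.monic h.isIntegral_u).natDegree_map, h.natDegree_minpoly]

theorem ConjHyp.isIntegral_u_field (h : ConjHyp q₀ J U) :
    IsIntegral ↥(adjoin K ({J} : Set (LaurentSeries K))) (U q₀) :=
  h.isIntegral_u.tower_top

omit [Infinite K] in
theorem ConjHyp.adjoin_le (_h : ConjHyp q₀ J U) :
    adjoin K ({J} : Set (LaurentSeries K)) ≤ adjoin K ({U q₀, J} : Set (LaurentSeries K)) :=
  IntermediateField.adjoin.mono _ _ _ (by intro x hx; right; exact hx)

/-- **Degree**: `[K(u, J) : K(J)] = card Q`. -/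
theorem ConjHyp.relfinrank_eq (h : ConjHyp q₀ J U) :
    (adjoin K ({J} : Set (LaurentSeries K))).relfinrank
      (adjoin K ({U q₀, J} : Set (LaurentSeries K))) = Fintype.card Q := by
  rw [relfinrank_eq_finrank_of_le h.adjoin_le]
  have e : extendScalars h.adjoin_le
      = adjoin ↥(adjoin K ({J} : Set (LaurentSeries K))) ({U q₀} : Set (LaurentSeries K)) := by
    apply restrictScalars_injective K
    rw [extendScalars_restrictScalars, adjoin_adjoin_left]
    congr 1
    ext x
    simp [or_comm]
  rw [e, adjoin.finrank h.isIntegral_u_field, h.natDegree_minpoly_field]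

/-- `u` is a simple root of its minimal polynomial: `K(J)(u) / K(J)` is separable. -/
theorem ConjHyp.isSeparable_u (h : ConjHyp q₀ J U) :
    IsSeparable ↥(adjoin K ({J} : Set (LaurentSeries K))) (U q₀) := by
  classical
  unfold IsSeparable
  rw [separable_iff_derivative_ne_zero (minpoly.irreducible h.isIntegral_u_field)]
  intro h0
  -- map everything to `K((t))`
  have hmap : (minpoly ↥(adjoin K ({J} : Set (LaurentSeries K))) (U q₀)).map
      (algebraMap ↥(adjoin K ({J} : Set (LaurentSeries K))) (LaurentSeries K)) = chi U := by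
    rw [h.minpoly_field, Polynomial.map_map, h.minpoly_eq_chiR, ← h.map_chiR]
    rfl
  have h1 : derivative (chi U) = 0 := by
    rw [← hmap, derivative_map, h0, Polynomial.map_zero]
  have h2 : (derivative (chi U)).eval (U q₀) = ∏ q ∈ Finset.univ.erase q₀, (U q₀ - U q) := by
    rw [chi, derivative_prod_finset, eval_finsetSum]
    rw [Finset.sum_eq_single q₀]
    · simp [eval_prod]
    · intro q _ hq
      rw [eval_mul, eval_prod]
      have : ∏ j ∈ Finset.univ.erase q, eval (U q₀) (X - C (U j)) = 0 := by
        refine Finset.prod_eq_zero (i := q₀) (Finset.mem_erase.2 ⟨hq.symm, Finset.mem_univ _⟩) ?_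
        simp
      rw [this, zero_mul]
    · intro hq
      exact absurd (Finset.mem_univ q₀) hq
  rw [h1, eval_zero] at h2
  have h3 : (∏ q ∈ Finset.univ.erase q₀, (U q₀ - U q)) ≠ 0 := by
    rw [Finset.prod_ne_zero_iff]
    intro q hq
    rw [Finset.mem_erase] at hq
    exact sub_ne_zero.2 (h.U_ne_u q hq.1).symm
  exact h3 h2.symm

/-- **Separability**: every element of `K(u, J)` is separable over `K(J)`. -/
theorem ConjHyp.isSeparable_of_mem (h : ConjHyp q₀ J U) {y : LaurentSeries K}
    (hy : y ∈ adjoin K ({U q₀, J} : Set (LaurentSeries K))) :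
    IsSeparable ↥(adjoin K ({J} : Set (LaurentSeries K))) y := by
  have hy' : y ∈ adjoin ↥(adjoin K ({J} : Set (LaurentSeries K)))
      ({U q₀} : Set (LaurentSeries K)) := by
    have e : (adjoin ↥(adjoin K ({J} : Set (LaurentSeries K)))
        ({U q₀} : Set (LaurentSeries K))).restrictScalars K
        = adjoin K ({U q₀, J} : Set (LaurentSeries K)) := by
      rw [adjoin_adjoin_left]
      congr 1
      ext x
      simp [or_comm]
    have : y ∈ (adjoin ↥(adjoin K ({J} : Set (LaurentSeries K)))
        ({U q₀} : Set (LaurentSeries K))).restrictScalars K := by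
      rw [e]; exact hy
    exact this
  have hsep : Algebra.IsSeparable ↥(adjoin K ({J} : Set (LaurentSeries K)))
      ↥(adjoin ↥(adjoin K ({J} : Set (LaurentSeries K))) ({U q₀} : Set (LaurentSeries K))) :=
    (isSeparable_adjoin_simple_iff_isSeparable _ _).2 h.isSeparable_u
  have := Algebra.IsSeparable.isSeparable ↥(adjoin K ({J} : Set (LaurentSeries K)))
    (⟨y, hy'⟩ : ↥(adjoin ↥(adjoin K ({J} : Set (LaurentSeries K)))
      ({U q₀} : Set (LaurentSeries K))))
  unfold IsSeparable at this ⊢
  rwa [IntermediateField.minpoly_eq] at this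

end Fermat.Agent.RED.H73
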