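import Fermat.Agent.RED.H73_GAMainC
import Fermat.Agent.RED.H73_GADeg

/-!
# G-RED package GA (helper73): degrees of the modular function fields over `j`

For conjugate data `D : CADataL L N`, `L` algebraically closed, `N` invertible in `A`:
* `map_fullC_eq_coreField`   : `(q ↦ t^N)(F_N L) = L(u, J)`;
* `map_fullC_eq_coreRed`     : `(q ↦ t^N)(F_{N,k}) = k(u~, J~)`;
* `relfinrank_fullC`         : `[F_N L : L(j)] = card Q`;
* `relfinrank_fullC_red`     : `[F_{N,k} : k(j~)] = card Q`;
* `isSeparable_fullC_red`    : `F_{N,k} / k(j~)` is separable;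
* `stmt_GA_deg_of_CAL : Stmt_CAL → Stmt_GA_deg`.
-/

set_option autoImplicit false

open Polynomial ModularCurve Fermat.Agent.S28 Fermat.Agent.S28.H73
open IntermediateField

noncomputable section

namespace Fermat.Agent.RED.H73

/-! ### Field theory: separability and injective algebra maps -/

/-- Separability can be tested after an injective algebra map. -/
theorem isSeparable_of_map {F E E' : Type*} [Field F] [Field E] [Field E'] [Algebra F E]
    [Algebra F E'] (φ : E →ₐ[F] E') (A₀ : IntermediateField F E) (x : E)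
    (hsep : IsSeparable ↥(A₀.map φ) (φ x)) : IsSeparable ↥A₀ x := by
  unfold IsSeparable at hsep ⊢
  set ψ : ↥A₀ ≃ₐ[F] ↥(A₀.map φ) := A₀.equivMap φ with hψ
  set m := minpoly ↥(A₀.map φ) (φ x) with hm
  set m₀ : (↥A₀)[X] := m.map (ψ.symm : ↥(A₀.map φ) →+* ↥A₀) with hm₀
  have hsep₀ : m₀.Separable := hsep.map
  have hback : m₀.map (ψ : ↥A₀ →+* ↥(A₀.map φ)) = m := by
    rw [hm₀, Polynomial.map_map]
    have : ((ψ : ↥A₀ →+* ↥(A₀.map φ)).comp (ψ.symm : ↥(A₀.map φ) →+* ↥A₀))
        = RingHom.id _ := by
      ext a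
      simp
    rw [this, Polynomial.map_id]
  have hcomp : (φ : E →+* E').comp (algebraMap ↥A₀ E)
      = (algebraMap ↥(A₀.map φ) E').comp (ψ : ↥A₀ →+* ↥(A₀.map φ)) := by
    ext a
    rfl
  have hroot : aeval x m₀ = 0 := by
    apply φ.injective
    rw [map_zero, aeval_def]
    show (φ : E →+* E') (eval₂ (algebraMap (↥A₀) E) x m₀) = 0
    rw [Polynomial.hom_eval₂, hcomp, ← Polynomial.eval₂_map, hback]
    exact minpoly.aeval _ _
  exact hsep₀.of_dvd (minpoly.dvd _ _ hroot)

section Data

variable {L : Type} [Field L] {N : ℕ} [NeZero N] (D : CADataL L N)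

/-- The conjugate data satisfy `ConjHyp`. -/
theorem conjHyp_of_caDataL : ConjHyp D.q₀ (JL L N) D.U where
  J_order := by
    rw [JL_order]
    have h3 : (0 : ℤ) < (N : ℤ) := by exact_mod_cast Nat.pos_of_ne_zero (NeZero.ne N)
    omega
  U_order₀ := by
    rw [D.U_order₀]
    have h2 := D.D_pos
    have h3 : (0 : ℤ) < (N : ℤ) := by exact_mod_cast Nat.pos_of_ne_zero (NeZero.ne N)
    have : (0 : ℤ) < (D.D : ℤ) * (N : ℤ) := by positivity
    omega
  U_ne := D.U_ne
  U_order_pos := D.U_order_pos
  sym := fun c => by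
    have h := D.sym N dvd_rfl c 0
    have e : (∏ q, (HahnSeries.C c - D.U q - HahnSeries.C 0 * D.X N q))
        = ∏ q, (HahnSeries.C c - D.U q) :=
      Finset.prod_congr rfl fun q _ => by rw [map_zero, zero_mul, sub_zero]
    rw [e] at h
    exact h

theorem caDataL_X_q₀_coeff : (D.X N D.q₀).coeff (-(N : ℤ) ^ 2) = 1 := by
  rw [D.X_q₀ N dvd_rfl]
  have e : (-(N : ℤ) ^ 2) = (N : ℤ) * ((N : ℤ) * (-1)) := by ring
  rw [e, qExpand_coeff_mul, qExpand_coeff_mul, coeff_jqModC_neg_one]

theorem caDataL_X_ne (q : D.Q) (hq : q ≠ D.q₀) : D.X N q ≠ D.X N D.q₀ := by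
  intro h
  have h1 := D.X_top q hq
  rw [h, caDataL_X_q₀_coeff] at h1
  exact one_ne_zero h1

variable [Infinite L]

/-- **Lagrange with exchanged roles over `L`**: `u ∈ L(j(t^{N²}), J)`. -/
theorem caDataL_U_mem :
    D.U D.q₀ ∈ IntermediateField.adjoin L ({D.X N D.q₀, JL L N} : Set (LaurentSeries L)) := by
  refine lagrange_swap (F := L) (L := LaurentSeries L) D.q₀
    (Algebra.adjoin L ({JL L N} : Set (LaurentSeries L))) _ ?_ D.U (D.X N) ?_
    (caDataL_X_ne D) ?_
  · intro a ha
    have hle : Algebra.adjoin L ({JL L N} : Set (LaurentSeries L))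
        ≤ (IntermediateField.adjoin L ({D.X N D.q₀, JL L N} :
            Set (LaurentSeries L))).toSubalgebra := by
      refine Algebra.adjoin_le ?_
      intro x hx
      rw [Set.mem_singleton_iff] at hx
      subst hx
      exact IntermediateField.subset_adjoin L _ (by simp)
    exact hle ha
  · exact IntermediateField.subset_adjoin L _ (by simp)
  · intro c s
    have := D.sym N dvd_rfl c s
    simp only [Fermat.Agent.S28.H92.hahnC_eq_algebraMap] at this
    exact this

theorem coreField_le_map_fullC :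
    coreField D ≤ (modularFunctionFieldFullC L N).map (qExpandAlgHomC L N) := by
  have hJ : JL L N ∈ (modularFunctionFieldFullC L N).map (qExpandAlgHomC L N) :=
    ⟨jqModC L, jqModC_mem_full L N, rfl⟩
  have hX : D.X N D.q₀ ∈ (modularFunctionFieldFullC L N).map (qExpandAlgHomC L N) := by
    rw [D.X_q₀ N dvd_rfl]
    exact ⟨qExpand L N (jqModC L), jqModCd_mem_full L N dvd_rfl, rfl⟩
  have hle : IntermediateField.adjoin L ({D.X N D.q₀, JL L N} : Set (LaurentSeries L))
      ≤ (modularFunctionFieldFullC L N).map (qExpandAlgHomC L N) := by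
    rw [IntermediateField.adjoin_le_iff]
    rintro x (rfl | hx)
    · exact hX
    · rw [Set.mem_singleton_iff] at hx
      subst hx
      exact hJ
  rw [coreField, IntermediateField.adjoin_le_iff]
  rintro x (rfl | hx)
  · exact hle (caDataL_U_mem D)
  · rw [Set.mem_singleton_iff] at hx
    subst hx
    exact hJ

end Data

section DataL

variable {L : Type} [Field L] [IsAlgClosed L] {N : ℕ} [NeZero N] (D : CADataL L N)

/-- `(q ↦ t^N)(F_N L) = L(u, J)`. -/
theorem map_fullC_eq_coreField :
    (modularFunctionFieldFullC L N).map (qExpandAlgHomC L N) = coreField D :=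
  le_antisymm (map_fullC_le_coreField D) (coreField_le_map_fullC D)

theorem map_adjoin_j (K : Type) [Field K] (N : ℕ) [NeZero N] :
    (IntermediateField.adjoin K ({jqModC K} : Set (LaurentSeries K))).map (qExpandAlgHomC K N)
      = IntermediateField.adjoin K ({JL K N} : Set (LaurentSeries K)) := by
  rw [IntermediateField.adjoin_map, Set.image_singleton]
  rfl

/-- **Degree over `L`**: `[F_N L : L(j)] = card Q`. -/
theorem relfinrank_fullC :
    (IntermediateField.adjoin L ({jqModC L} : Set (LaurentSeries L))).relfinrank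
      (modularFunctionFieldFullC L N) = Fintype.card D.Q := by
  rw [← relfinrank_map_map (f := qExpandAlgHomC L N), map_adjoin_j, map_fullC_eq_coreField D]
  exact (conjHyp_of_caDataL D).relfinrank_eq

end DataL

section DataK

variable {L : Type} [Field L] [IsAlgClosed L] (A : ValuationSubring L) [Infinite (kV A)]
  {N : ℕ} [NeZero N] (hN : ((N : L))⁻¹ ∈ A) (D : CADataL L N)

omit [Infinite (kV A)] in
include hN in
theorem map_fullC_le_coreRed :
    (modularFunctionFieldFullC (kV A) N).map (qExpandAlgHomC (kV A) N)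
      ≤ IntermediateField.adjoin (kV A)
        ({Ured (coreHyp_of_caDataL A hN D) D.q₀, Jred (coreHyp_of_caDataL A hN D)} :
          Set (LaurentSeries (kV A))) := by
  rw [modularFunctionFieldFullC, IntermediateField.adjoin_map, IntermediateField.adjoin_le_iff]
  rintro x ⟨y, ⟨d, hd0, hd, rfl⟩, rfl⟩
  have := hd0
  set h := coreHyp_of_caDataL A hN D with hh
  have hV : qExpand L d (jqModC L) ∈ gaussRingV A := qExpand_jqModC_mem_gaussRingV A d
  have hV' : qExpand L N (qExpand L d (jqModC L)) ∈ gaussRingV A :=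
    qExpand_mem_gaussRingV A N hV
  have hmem : qExpand L N (qExpand L d (jqModC L)) ∈ coreField D :=
    qExpand_jd_mem_coreField D hd
  have h1 : gaussRedV A ⟨qExpand L N (qExpand L d (jqModC L)), hV'⟩ ∈
      redField A (IntermediateField.adjoin L ({D.U D.q₀, JL L N} : Set (LaurentSeries L)))
        (hasScale_core h) :=
    ⟨⟨⟨qExpand L N (qExpand L d (jqModC L)), hmem⟩, hV'⟩, rfl⟩
  rw [redField_core h] at h1
  have h2 := gaussRedV_qExpand A N ⟨qExpand L d (jqModC L), hV⟩ hV'
  rw [gaussRedV_qExpand_jqModC A d hV] at h2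
  show qExpand (kV A) N (qExpand (kV A) d (jqModC (kV A))) ∈ _
  rw [← h2]
  exact h1

include hN in
/-- `(q ↦ t^N)(F_{N,k}) = k(u~, J~)`. -/
theorem map_fullC_eq_coreRed :
    (modularFunctionFieldFullC (kV A) N).map (qExpandAlgHomC (kV A) N)
      = IntermediateField.adjoin (kV A)
        ({Ured (coreHyp_of_caDataL A hN D) D.q₀, Jred (coreHyp_of_caDataL A hN D)} :
          Set (LaurentSeries (kV A))) :=
  le_antisymm (map_fullC_le_coreRed A hN D) (coreRed_le_map_fullC A hN D)

omit [IsAlgClosed L] [Infinite (kV A)] in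
include hN in
theorem map_adjoin_j_red :
    (IntermediateField.adjoin (kV A) ({jqModC (kV A)} : Set (LaurentSeries (kV A)))).map
        (qExpandAlgHomC (kV A) N)
      = IntermediateField.adjoin (kV A)
          ({Jred (coreHyp_of_caDataL A hN D)} : Set (LaurentSeries (kV A))) := by
  rw [map_adjoin_j, Jred_eq A hN D]
  rfl

include hN D in
/-- **Degree over the residue field**: `[F_{N,k} : k(j~)] = card Q`. -/
theorem relfinrank_fullC_red :
    (IntermediateField.adjoin (kV A) ({jqModC (kV A)} : Set (LaurentSeries (kV A)))).relfinrank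
      (modularFunctionFieldFullC (kV A) N) = Fintype.card D.Q := by
  rw [← relfinrank_map_map (f := qExpandAlgHomC (kV A) N), map_adjoin_j_red A hN D,
    map_fullC_eq_coreRed A hN D]
  exact (conjHyp_red (coreHyp_of_caDataL A hN D)).relfinrank_eq

include hN D in
/-- **Separability over the residue field**: `F_{N,k} / k(j~)` is separable. -/
theorem isSeparable_fullC_red {x : LaurentSeries (kV A)}
    (hx : x ∈ modularFunctionFieldFullC (kV A) N) :
    IsSeparable ↥(IntermediateField.adjoin (kV A)
      ({jqModC (kV A)} : Set (LaurentSeries (kV A)))) x := by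
  apply isSeparable_of_map (qExpandAlgHomC (kV A) N)
  have hmem : qExpandAlgHomC (kV A) N x ∈ IntermediateField.adjoin (kV A)
      ({Ured (coreHyp_of_caDataL A hN D) D.q₀, Jred (coreHyp_of_caDataL A hN D)} :
        Set (LaurentSeries (kV A))) := by
    rw [← map_fullC_eq_coreRed A hN D]
    exact ⟨x, hx, rfl⟩
  have hsep := (conjHyp_red (coreHyp_of_caDataL A hN D)).isSeparable_of_mem hmem
  rw [map_adjoin_j_red A hN D]
  exact hsep

end DataK

/-- **`Stmt_GA_deg` from the conjugate data over `ℚ̄`.** -/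
theorem stmt_GA_deg_of_CAL (h : Stmt_CAL) : Stmt_GA_deg := by
  intro N ℓ _ hℓ hℓN A hA
  obtain ⟨D⟩ := h N
  have : IsAlgClosed (kV A) := isAlgClosed_kV A
  have : Infinite (kV A) := IsAlgClosed.instInfinite
  have hN := inv_natCast_mem_of_liesOver A N hℓ hℓN hA
  refine ⟨?_, fun x hx => isSeparable_fullC_red A hN D hx⟩
  rw [relfinrank_fullC_red A hN D, relfinrank_fullC D]

end Fermat.Agent.RED.H73
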