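import Fermat.Agent.RED.H73_GAMainB
import Mathlib.RingTheory.Valuation.Integral
import Mathlib.Algebra.Polynomial.Lifts
import Mathlib.FieldTheory.IsAlgClosed.Basic

/-!
# G-RED package GA (helper73): `Stmt_GA` from the conjugate data over `ℚ̄`

`stmt_GA_of_CAL : Stmt_CAL → Stmt_GA`.
-/

set_option autoImplicit false

open Polynomial ModularCurve Fermat.Agent.S28 Fermat.Agent.S28.H73

noncomputable section

namespace Fermat.Agent.RED.H73

/-- The residue field of a valuation subring of an algebraically closed field is algebraically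
closed. -/
theorem isAlgClosed_kV {F : Type} [Field F] [IsAlgClosed F] (A : ValuationSubring F) :
    IsAlgClosed (kV A) := by
  apply IsAlgClosed.of_exists_root
  intro p hp hirr
  obtain ⟨q, hq, hqdeg, hqm⟩ := lifts_and_natDegree_eq_and_monic
    (mem_lifts_of_surjective (IsLocalRing.residue_surjective (R := A)) p) hp
  have hdeg : (q.map (algebraMap A F)).degree ≠ 0 := by
    rw [degree_map_eq_of_injective (FaithfulSMul.algebraMap_injective A F),
      degree_eq_natDegree hqm.ne_zero, hqdeg]
    have := hirr.natDegree_pos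
    exact_mod_cast this.ne'
  obtain ⟨x, hx⟩ := IsAlgClosed.exists_root (q.map (algebraMap A F)) hdeg
  have hxA : x ∈ A := by
    have hint : IsIntegral A x := ⟨q, hqm, by rw [eval₂_eq_eval_map]; exact hx⟩
    obtain ⟨a, ha⟩ := IsIntegrallyClosed.isIntegral_iff.mp hint
    rw [← ha]
    exact a.2
  refine ⟨IsLocalRing.residue A ⟨x, hxA⟩, ?_⟩
  have h1 : q.eval (⟨x, hxA⟩ : A) = 0 := by
    apply FaithfulSMul.algebraMap_injective A F
    rw [map_zero, ← hx, eval_map, ← eval₂_hom]
    rfl
  rw [← hq, eval_map, eval₂_hom, h1, map_zero]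

/-- **GA, main theorem**, for every algebraically closed `L` with conjugate data. -/
theorem redField_laurentBaseChange_eq {L : Type} [Field L] [IsAlgClosed L] [Algebra ℚ L]
    (A : ValuationSubring L) {N : ℕ} [NeZero N] (hN : ((N : L))⁻¹ ∈ A) (D : CADataL L N) :
    redField A (laurentBaseChange L (modularFunctionFieldFull N)) (hasScale_laurentBaseChange A N)
      = modularFunctionFieldFullC (kV A) N := by
  have : IsAlgClosed (kV A) := isAlgClosed_kV A
  have : Infinite (kV A) := IsAlgClosed.instInfinite
  rw [redField_congr A (laurentBaseChange_full_eq N) (hasScale_laurentBaseChange A N)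
    (hasScale_fullC A N)]
  exact redField_fullC_eq A hN D

/-- **`Stmt_GA` from the conjugate data over `ℚ̄`.** -/
theorem stmt_GA_of_CAL (h : Stmt_CAL) : Stmt_GA := by
  intro N ℓ _ hℓ hℓN A hA
  obtain ⟨D⟩ := h N
  exact redField_laurentBaseChange_eq A (inv_natCast_mem_of_liesOver A N hℓ hℓN hA) D

end Fermat.Agent.RED.H73
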