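import Fermat.Agent.RED.H73_GAFinal
import Fermat.Agent.S20.H19_Index

/-!
# G-RED package GA (helper73): the degree `[F_N · ℚ̄ : ℚ̄(j)] = ψ(N)`

The conjugate data are indexed by the cosets of `Γ₀(N)` in `SL₂(ℤ)`, so that
`card D.Q = ψ(N)` (Dedekind's `ψ`), for every `D : CADataL ℚ̄ N`; hence
* `relfinrank_fullC_bar`     : `[F_N · ℚ̄ : ℚ̄(j)] = ψ(N)`;
* `relfinrank_fullC_red_bar` : `[F_{N,k} : k(j~)] = ψ(N)` for the residue field `k` of a
  valuation subring of `ℚ̄` in which `N` is invertible.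
-/

set_option autoImplicit false
set_option synthInstance.maxHeartbeats 400000
set_option maxHeartbeats 1000000

open Polynomial ModularCurve Fermat.Agent.S28 Fermat.Agent.S28.H73
open IntermediateField MatrixGroups CongruenceSubgroup

noncomputable section

namespace Fermat.Agent.RED.H73

/-- The number of cosets of `Γ₀(N)` in `SL₂(ℤ)`, in helper22's model, is `ψ(N)`. -/
theorem card_cosets_eq_psi (N : ℕ) [NeZero N] :
    Fintype.card (Fermat.Agent.S23.H22.Q N) = dedekindPsi N := by
  rw [← Nat.card_eq_fintype_card, ← Subgroup.index_eq_card]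
  rw [← Fermat.Agent.S20.H19.G1 N]
  show ((Fermat.Agent.S23.H22.G0 N).subgroupOf 𝒮ℒ).index = _
  have h1 : ((Fermat.Agent.S23.H22.G0 N).subgroupOf 𝒮ℒ).index
      = (Fermat.Agent.S23.H22.G0 N).relIndex 𝒮ℒ := rfl
  rw [h1]
  have h2 : (𝒮ℒ : Subgroup (GL (Fin 2) ℝ))
      = (⊤ : Subgroup SL(2, ℤ)).map (Matrix.SpecialLinearGroup.mapGL ℝ) := by
    rw [← MonoidHom.range_eq_map]
  have h3 : Fermat.Agent.S23.H22.G0 N
      = (Gamma0 N).map (Matrix.SpecialLinearGroup.mapGL ℝ) := rfl
  rw [h2, h3, Subgroup.relIndex_map_map_of_injective _ _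
    (Matrix.SpecialLinearGroup.mapGL_injective), Subgroup.relIndex_top_right]

/-- **Transfer with the index set kept** (helper30's `nonempty_caDataL`, same proof): the
conjugate data over an algebraically closed subfield of `ℂ`, with the same number of conjugates. -/
theorem exists_caDataL_of_caData {K : Type} [Field K] [IsAlgClosed K] (ι : K →+* ℂ) (N : ℕ)
    [NeZero N] (D : CAData N)
    (hXc : ∀ (d : ℕ) (q : D.Q) (n : ℤ), d ∣ N → (D.X d q).coeff n ∈ coeffRing N)
    (hXtop : ∀ q : D.Q, q ≠ D.q₀ → (D.X N q).coeff (-((N : ℤ) ^ 2)) = 0) :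
    ∃ D' : CADataL K N, Fintype.card D'.Q = Fintype.card D.Q := by
  have hU : ∀ q, ∃ g : LaurentSeries K, coeffMap ι g = D.U q := fun q =>
    Fermat.Agent.RED.H30.exists_coeffMap_eq ι fun n =>
      Fermat.Agent.RED.H30.mem_range_of_mem_coeffRing ι N (D.U_coeff q n)
  choose U' hU' using hU
  have hX : ∀ (d : ℕ) (q : D.Q), ∃ g : LaurentSeries K, d ∣ N → coeffMap ι g = D.X d q := by
    intro d q
    by_cases hd : d ∣ N
    · obtain ⟨g, hg⟩ :=
        Fermat.Agent.RED.H30.exists_coeffMap_eq ι fun n =>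
          Fermat.Agent.RED.H30.mem_range_of_mem_coeffRing ι N (hXc d q n hd)
      exact ⟨g, fun _ => hg⟩
    · exact ⟨0, fun h => absurd h hd⟩
  choose X' hX' using hX
  refine ⟨{
    Q := D.Q
    instFintype := D.instFintype
    q₀ := D.q₀
    D := D.D
    D_pos := D.D_pos
    U := U'
    X := X'
    U_coeff := fun q n => Fermat.Agent.RED.H30.mem_coeffRingL_of_map_mem ι N (by
      rw [← coeffMap_coeff, hU']; exact D.U_coeff q n)
    U_ne := fun q h => D.U_ne q (by rw [← hU', h, map_zero])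
    U_lead := fun q => Fermat.Agent.RED.H30.mem_coeffRingL_of_map_mem ι N (by
      rw [map_inv₀, ← Fermat.Agent.RED.H30.coeffMap_leadingCoeff, hU']; exact D.U_lead q)
    U_order₀ := by rw [← Fermat.Agent.RED.H30.coeffMap_order ι, hU']; exact D.U_order₀
    U_order_pos := fun q hq => by
      rw [← Fermat.Agent.RED.H30.coeffMap_order ι, hU']; exact D.U_order_pos q hq
    X_coeff := fun d q n hd => Fermat.Agent.RED.H30.mem_coeffRingL_of_map_mem ι N (by
      rw [← coeffMap_coeff, hX' d q hd]; exact hXc d q n hd)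
    X_q₀ := fun d _ hd => Fermat.Agent.RED.H30.coeffMap_injective ι (by
      rw [hX' d _ hd, D.X_q₀ d hd, Fermat.Agent.RED.H30.coeffMap_qExpand_jqModC])
    X_top := fun q hq => ι.injective (by
      rw [← coeffMap_coeff, hX' N q dvd_rfl, map_zero]; exact hXtop q hq)
    sym := fun d hd c s => Fermat.Agent.RED.H30.mem_adjoin_of_coeffMap_mem ι _ _ (by
      rw [Fermat.Agent.RED.H30.coeffMap_qExpand_jqModC_one, map_prod]
      have := D.sym d hd (ι c) (ι s)
      convert this using 2
      rename_i q _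
      rw [map_sub, map_sub, map_mul, Fermat.Agent.RED.H30.coeffMap_C,
        Fermat.Agent.RED.H30.coeffMap_C, hU', hX' d q hd]) }, rfl⟩

/-- Conjugate data over an algebraically closed subfield of `ℂ` with `card Q = ψ(N)`. -/
theorem exists_caDataL_card {K : Type} [Field K] [IsAlgClosed K] (ι : K →+* ℂ) (N : ℕ)
    [NeZero N] : ∃ D : CADataL K N, Fintype.card D.Q = dedekindPsi N := by
  rcases Nat.lt_or_ge N 2 with h | h
  · have hN0 : N ≠ 0 := NeZero.ne N
    have h1 : N = 1 := by omega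
    subst h1
    obtain ⟨D', hD'⟩ := exists_caDataL_of_caData ι 1 Fermat.Agent.S28.H10.caDataOne
      (fun d q n hd => Fermat.Agent.S28.iotaN_jq_coeffsIn 1 (coeffRing 1) n)
      (fun q hq => absurd (Subsingleton.elim (α := Unit) q ()) hq)
    refine ⟨D', ?_⟩
    rw [hD', dedekindPsi_one]
    rfl
  · obtain ⟨D', hD'⟩ := exists_caDataL_of_caData ι N (Fermat.Agent.S28.H30.caDataEta N h)
      (fun d q n hd => Fermat.Agent.S28.H30.Xfam_coeff_mem N hd q n)
      (fun q hq => Fermat.Agent.S28.H30.Xfam_coeff_neg_sq N q hq)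
    refine ⟨D', ?_⟩
    rw [hD']
    exact card_cosets_eq_psi N

section Bar

variable (N : ℕ) [NeZero N]

/-- `[F_N · ℚ̄ : ℚ̄(j)] = ψ(N)`. -/
theorem relfinrank_fullC_bar :
    (IntermediateField.adjoin (AlgebraicClosure ℚ)
        ({jqModC (AlgebraicClosure ℚ)} : Set (LaurentSeries (AlgebraicClosure ℚ)))).relfinrank
      (modularFunctionFieldFullC (AlgebraicClosure ℚ) N) = dedekindPsi N := by
  have : Algebra.IsAlgebraic ℚ (AlgebraicClosure ℚ) := AlgebraicClosure.isAlgebraic ℚ
  obtain ⟨D, hD⟩ := exists_caDataL_card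
    ((IsAlgClosed.lift : AlgebraicClosure ℚ →ₐ[ℚ] ℂ) : AlgebraicClosure ℚ →+* ℂ) N
  rw [relfinrank_fullC D, hD]

variable {N}

/-- Every system of conjugate data over `ℚ̄` has `ψ(N)` conjugates. -/
theorem card_Q_eq_psi (D : CADataL (AlgebraicClosure ℚ) N) :
    Fintype.card D.Q = dedekindPsi N := by
  rw [← relfinrank_fullC D, relfinrank_fullC_bar]

/-- `[F_{N,k} : k(j~)] = ψ(N)` over the residue field of a valuation subring of `ℚ̄` in which
`N` is invertible. -/
theorem relfinrank_fullC_red_bar (A : ValuationSubring (AlgebraicClosure ℚ))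
    (hN : ((N : AlgebraicClosure ℚ))⁻¹ ∈ A) :
    (IntermediateField.adjoin (kV A) ({jqModC (kV A)} : Set (LaurentSeries (kV A)))).relfinrank
      (modularFunctionFieldFullC (kV A) N) = dedekindPsi N := by
  have : IsAlgClosed (kV A) := isAlgClosed_kV A
  have : Infinite (kV A) := IsAlgClosed.instInfinite
  rw [relfinrank_fullC_red A hN (caDataBar N), card_Q_eq_psi]

end Bar

theorem dedekindPsi_prime {p : ℕ} (hp : p.Prime) : dedekindPsi p = p + 1 := by
  rw [dedekindPsi, Nat.Prime.divisors hp]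
  have h1 : (1 : ℕ) ≠ p := hp.one_lt.ne
  rw [Finset.filter_true_of_mem]
  · rw [Finset.sum_pair h1, Nat.div_one, Nat.div_self hp.pos]
  · intro d hd
    rcases Finset.mem_insert.1 hd with rfl | hd
    · exact squarefree_one
    · rw [Finset.mem_singleton.1 hd]
      exact hp.squarefree

end Fermat.Agent.RED.H73
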