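import Fermat.Agent.RED.H17_Local

/-!
# G-RED / TI route C (helper17), part 6: the pole analysis on the reduced curve

`pole_analysis`: on a function field with a non-special reduced divisor `A`, let `s̄_Q` (`Q ∈ A`)
have a simple zero at `Q` and no zero at the other points of `A`.  If
`φ̄ = ᾱ - m ∑_Q b_Q / s̄_Q` (`b_Q` constants, `ᾱ` regular on `A`, `m ≠ 0`) is regular outside `A`
and vanishes at some place outside `A`, then `ᾱ = 0` and all `b_Q = 0`.

`RedSetup.exists_scale_max`: a common scale for finitely many elements of the maximal ideal.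
-/

set_option autoImplicit false
set_option linter.style.haveILetI false

noncomputable section

open AlgebraicCurve

attribute [local instance] Classical.propDecidable

namespace Fermat.Agent.RED.H17

local notation "L" => riemannRochSpace

section Pole

variable {k F' : Type*} [Field k] [Field F'] [Algebra k F']

theorem pole_analysis (A : Finset (Place k F'))
    (hA : ∀ y ∈ L (ptsDiv A), ∃ a : k, y = algebraMap k F' a)
    (sb : Place k F' → F') (hsb1 : ∀ Q ∈ A, Q.ord (sb Q) = 1)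
    (hsb0 : ∀ Q ∈ A, ∀ Q' ∈ A, Q' ≠ Q → Q'.ord (sb Q) = 0)
    (m : ℕ) (hm : (m : k) ≠ 0) (b : Place k F' → k) (αb : F')
    (hα : ∀ Q ∈ A, RegAt Q αb) (φb : F')
    (hφ : φb = αb - (m : F') * ∑ Q ∈ A, algebraMap k F' (b Q) / sb Q)
    (hφreg : ∀ Q, Q ∉ A → RegAt Q φb) (Qinf : Place k F')
    (hφinf : VanAt Qinf φb) :
    αb = 0 ∧ ∀ Q ∈ A, b Q = 0 := by
  have hsbne : ∀ Q ∈ A, sb Q ≠ 0 := by
    intro Q hQ h0
    have := hsb1 Q hQ
    rw [h0, Place.ord_zero] at this
    omega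
  have hmF : (m : F') = algebraMap k F' (m : k) := (map_natCast (algebraMap k F') m).symm
  -- the regular part of the sum
  set T : Place k F' → F' := fun Q =>
    ∑ Q' ∈ A.erase Q, algebraMap k F' (b Q') * (sb Q * (sb Q')⁻¹) with hT
  have hTvan : ∀ Q ∈ A, VanAt Q (T Q) := by
    intro Q hQ
    apply VanAt.sum
    intro Q' hQ'
    have hQ'A : Q' ∈ A := Finset.mem_of_mem_erase hQ'
    have hne : Q' ≠ Q := Finset.ne_of_mem_erase hQ'
    have h1 : VanAt Q (sb Q) := vanAt_of_ord_pos (by rw [hsb1 Q hQ]; exact one_pos)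
    have h2 : RegAt Q (sb Q')⁻¹ := regAt_inv_of_ord_eq_zero (hsb0 Q' hQ'A Q hQ (Ne.symm hne))
    exact (regAt_algebraMap Q _).mul_vanAt (h1.mul_regAt h2)
  have hid : ∀ Q ∈ A, sb Q * φb =
      sb Q * αb - algebraMap k F' ((m : k) * b Q) - (m : F') * T Q := by
    intro Q hQ
    have hne := hsbne Q hQ
    have e1 : sb Q * ∑ Q' ∈ A.erase Q, algebraMap k F' (b Q') / sb Q' = T Q := by
      rw [hT, Finset.mul_sum]
      apply Finset.sum_congr rfl
      intro Q' _
      rw [div_eq_mul_inv]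
      ring
    have e2 : sb Q * (algebraMap k F' (b Q) / sb Q) = algebraMap k F' (b Q) :=
      mul_div_cancel₀ _ hne
    rw [hφ, ← Finset.add_sum_erase A _ hQ, map_mul, ← hmF]
    linear_combination (-(m : F')) * e2 + (-(m : F')) * e1
  -- `φb` lies in `L(A)`
  have hreg : ∀ Q ∈ A, RegAt Q (sb Q * φb) := by
    intro Q hQ
    rw [hid Q hQ]
    have h1 : RegAt Q (sb Q) := regAt_of_ord_nonneg (by rw [hsb1 Q hQ]; exact zero_le_one)
    refine ((h1.mul (hα Q hQ)).sub (regAt_algebraMap Q _)).sub ?_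
    rw [hmF]
    exact (regAt_algebraMap Q _).mul (hTvan Q hQ).regAt
  have hmem : φb ∈ L (ptsDiv A) := by
    rw [mem_L_iff_ord]
    intro Q
    by_cases h0 : φb = 0
    · exact Or.inl h0
    right
    rw [ptsDiv_apply]
    split_ifs with hQ
    · have h1 := (hreg Q hQ).ord_nonneg
      rw [Q.ord_mul (hsbne Q hQ) h0, hsb1 Q hQ] at h1
      omega
    · have := (hφreg Q hQ).ord_nonneg
      omega
  obtain ⟨c₀, hc₀⟩ := hA φb hmem
  have hφ0 : φb = 0 := by
    rw [hc₀] at hφinf
    rw [hc₀, const_eq_zero_of_vanAt hφinf, map_zero]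
  have hb : ∀ Q ∈ A, b Q = 0 := by
    intro Q hQ
    have h1 := hid Q hQ
    rw [hφ0, mul_zero] at h1
    have h2 : algebraMap k F' ((m : k) * b Q) = sb Q * αb - (m : F') * T Q := by
      linear_combination h1
    have h3 : VanAt Q (algebraMap k F' ((m : k) * b Q)) := by
      rw [h2]
      have h4 : VanAt Q (sb Q) := vanAt_of_ord_pos (by rw [hsb1 Q hQ]; exact one_pos)
      refine (h4.mul_regAt (hα Q hQ)).sub ?_
      rw [hmF]
      exact (regAt_algebraMap Q _).mul_vanAt (hTvan Q hQ)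
    have h5 := const_eq_zero_of_vanAt h3
    exact (mul_eq_zero.mp h5).resolve_left hm
  refine ⟨?_, hb⟩
  have h6 : ∑ Q ∈ A, algebraMap k F' (b Q) / sb Q = 0 :=
    Finset.sum_eq_zero fun Q hQ => by rw [hb Q hQ, map_zero, zero_div]
  rw [hφ0, h6, mul_zero, sub_zero] at hφ
  exact hφ.symm

end Pole

namespace RedSetup

variable {K F k F' : Type*} [Field K] [Field F] [Algebra K F] [Field k] [Field F']
  [Algebra k F'] (S : RedSetup K F k F')

theorem natCast_mem_V (n : ℕ) : (n : F) ∈ S.V := natCast_mem S.V n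

theorem rd_natCast (n : ℕ) : S.rd (n : F) = (n : F') := by
  rw [S.rd_of_mem (S.natCast_mem_V n)]
  have : (⟨(n : F), S.natCast_mem_V n⟩ : S.V) = (n : S.V) := rfl
  rw [this, map_natCast]

/-- A common scale for finitely many elements of the maximal ideal, not all zero. -/
theorem exists_scale_max (I : Finset F) (hI : ∀ z ∈ I, z ∈ S.V ∧ S.rd z = 0)
    (hne : ∃ z ∈ I, z ≠ 0) :
    ∃ c : K, c ≠ 0 ∧ algebraMap K F c⁻¹ ∈ S.V ∧ S.rd (algebraMap K F c⁻¹) = 0 ∧
      (∀ z ∈ I, algebraMap K F c * z ∈ S.V) ∧ ∃ z ∈ I, S.IsGU (algebraMap K F c * z) := by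
  obtain ⟨z₁, hz₁, hz₁0⟩ := hne
  obtain ⟨z₀, hz₀, hmax⟩ := I.exists_max_image S.V.valuation ⟨z₁, hz₁⟩
  have hz₀0 : z₀ ≠ 0 := by
    rintro rfl
    have := hmax z₁ hz₁
    rw [map_zero, le_zero_iff, Valuation.zero_iff] at this
    exact hz₁0 this
  obtain ⟨c, hc, hGU⟩ := S.exists_isGU_scale hz₀0
  have hcF : algebraMap K F c ≠ 0 := (map_ne_zero_iff _ (algebraMap K F).injective).mpr hc
  have hd : algebraMap K F c⁻¹ = z₀ * (algebraMap K F c * z₀)⁻¹ := by
    rw [map_inv₀]
    field_simp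
  refine ⟨c, hc, ?_, ?_, ?_, z₀, hz₀, hGU⟩
  · rw [hd]
    exact S.V.mul_mem _ _ (hI z₀ hz₀).1 hGU.inv_mem
  · rw [hd, S.rd_mul (hI z₀ hz₀).1 hGU.inv_mem, (hI z₀ hz₀).2, zero_mul]
  · intro z hz
    rw [← ValuationSubring.valuation_le_one_iff, map_mul]
    calc S.V.valuation (algebraMap K F c) * S.V.valuation z
        ≤ S.V.valuation (algebraMap K F c) * S.V.valuation z₀ :=
          mul_le_mul_right (hmax z hz) _
      _ = S.V.valuation (algebraMap K F c * z₀) := (map_mul _ _ _).symm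
      _ ≤ 1 := (ValuationSubring.valuation_le_one_iff _ _).mpr hGU.1

end RedSetup

end Fermat.Agent.RED.H17
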