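import Fermat.Agent.RED.H76_IGOrd
import Fermat.Agent.RED.H51_ZerosLe
import Fermat.Agent.S24.H72_FF1b

/-!
# G-RED package IG-MOD (helper76): branch values of a chart `h` with `P(h) = j · Q(h)`

Generic part (any function field `F / K`, `K` algebraically closed of characteristic `0`):
* `exists_two_le_ord_of_isBranchValue` : over a branch value `ρ` of `x` there is a place `v`
  with `ord_v (x - ρ) ≥ 2`;
* `ord_aeval_sub` : `ord_v (p(h)) = mult_ρ(p) · ord_v (h - ρ)` at a zero `v` of `h - ρ`;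
* `mul_ord_le_ord_sub` : if `P(h) = x Q(h)`, `Q(ρ) ≠ 0`, `(X - ρ)^m ∣ P - a Q` then
  `m · ord_v (h - ρ) ≤ ord_v (x - a)`;
* `isBranchValue_inv_iff` : `ρ ≠ 0` is a branch value of `1/x` iff `1/ρ` is a branch value of `x`.

Modular part (`F = F_N · ℚ̄`, `x = j`, ramification bounds of `RED/H76_IGOrd.lean`):
* `branch_haupt` : a branch value `ρ` of `h` with `Q(ρ) ≠ 0` is a simple root of `P` or a
  simple root of `P - 1728 Q`.
-/

set_option autoImplicit false
set_option linter.style.haveILetI false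
set_option synthInstance.maxHeartbeats 400000
set_option maxHeartbeats 1000000

noncomputable section

open AlgebraicCurve IsDedekindDomain IntermediateField Polynomial

namespace Fermat.Agent.RED.H76

open Fermat.Agent.RED.H34 Fermat.Agent.RED.H51 Fermat.Agent.RED.H79

section Generic

variable {K F : Type} [Field K] [Field F] [Algebra K F]

theorem adjoin_simple_sub_algebraMap (x : F) (ρ : K) : K⟮x - algebraMap K F ρ⟯ = K⟮x⟯ := by
  apply le_antisymm
  · rw [adjoin_simple_le_iff]
    exact sub_mem (mem_adjoin_simple_self K x) (IntermediateField.algebraMap_mem _ ρ)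
  · rw [adjoin_simple_le_iff]
    have h := add_mem (mem_adjoin_simple_self K (x - algebraMap K F ρ))
      (IntermediateField.algebraMap_mem K⟮x - algebraMap K F ρ⟯ ρ)
    rwa [sub_add_cancel] at h

theorem transcendental_sub_algebraMap {x : F} (hx : Transcendental K x) (ρ : K) :
    Transcendental K (x - algebraMap K F ρ) := by
  intro h
  apply hx
  have h2 := h.add (isAlgebraic_algebraMap (R := K) (A := F) ρ)
  rwa [sub_add_cancel] at h2

/-- Over a branch value there is a ramified place. -/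
theorem exists_two_le_ord_of_isBranchValue [IsAlgClosed K] [CharZero K] (x : F)
    (hx : Transcendental K x) [FiniteDimensional K⟮x⟯ F] (ρ : K) (h : IsBranchValue x ρ) :
    ∃ v : Place K F, 2 ≤ v.ord (x - algebraMap K F ρ) := by
  classical
  haveI := isSeparable_adjoin_simple (K := K) x
  by_contra hcon
  push Not at hcon
  rw [isBranchValue_iff x hx ρ] at h
  set y : F := x - algebraMap K F ρ with hy
  have hyt : Transcendental K y := transcendental_sub_algebraMap hx ρ
  have hKy : K⟮y⟯ = K⟮x⟯ := adjoin_simple_sub_algebraMap x ρ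
  haveI : FiniteDimensional K⟮y⟯ F := by
    rw [hKy]
    infer_instance
  obtain ⟨hfin, hsum⟩ := Fermat.Agent.S24.ff_zeros y hyt
  have hrank : Module.finrank K⟮y⟯ F = Module.finrank K⟮x⟯ F :=
    congrArg (fun E : IntermediateField K F => Module.finrank E F) hKy
  have hone : ∀ v ∈ {v : Place K F | 0 < v.ord y}, v.ord y = 1 := by
    intro v hv
    have h1 : 0 < v.ord y := hv
    have h2 := hcon v
    omega
  rw [finsum_mem_congr rfl hone, finsum_mem_eq_finite_toFinset_sum _ hfin, Finset.sum_const,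
    nsmul_eq_mul, mul_one, hrank] at hsum
  have hcard : Nat.card {v : Place K F // 0 < v.ord y} = hfin.toFinset.card := by
    rw [← Set.ncard_eq_toFinset_card _ hfin]
    exact Nat.card_coe_set_eq _
  rw [hcard] at h
  have : (hfin.toFinset.card : ℤ) < (Module.finrank K⟮x⟯ F : ℤ) := by exact_mod_cast h
  omega

/-- The order of `p(h)` at a zero of `h - ρ`. -/
theorem ord_aeval_sub (v : Place K F) {h : F} {ρ : K}
    (hv : 0 < v.ord (h - algebraMap K F ρ)) {p : K[X]} (hp : p ≠ 0) :
    aeval h p ≠ 0 ∧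
      v.ord (aeval h p) = (p.rootMultiplicity ρ : ℤ) * v.ord (h - algebraMap K F ρ) := by
  have hcomp : aeval (h - algebraMap K F ρ) (p.comp (X + C ρ)) = aeval h p := by
    rw [aeval_comp]
    congr 1
    simp
  have hp' : p.comp (X + C ρ) ≠ 0 := by
    intro h0
    apply hp
    have := congrArg (fun q : K[X] => q.comp (X - C ρ)) h0
    simpa [Polynomial.comp_assoc] using this
  have := ord_aeval v hv hp'
  rw [hcomp, ← rootMultiplicity_eq_rootMultiplicity] at this
  exact this

/-- If `P(h) = x Q(h)`, `Q(ρ) ≠ 0` and `(X - ρ)^m` divides `P - a Q`, then the order of `x - a`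
at a zero of `h - ρ` is at least `m` times the order of `h - ρ`. -/
theorem mul_ord_le_ord_sub (v : Place K F) {h x : F} {P Q : K[X]}
    (hPQ : aeval h P = x * aeval h Q) {ρ a : K} (hQρ : Q.eval ρ ≠ 0) {m : ℕ}
    (hdvd : (X - C ρ) ^ m ∣ P - C a * Q) (hPa : P - C a * Q ≠ 0)
    (hv : 0 < v.ord (h - algebraMap K F ρ)) :
    x - algebraMap K F a ≠ 0 ∧
      (m : ℤ) * v.ord (h - algebraMap K F ρ) ≤ v.ord (x - algebraMap K F a) := by
  have hQ0 : Q ≠ 0 := by
    rintro rfl
    simp at hQρ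
  obtain ⟨hQne, hQord⟩ := ord_aeval_sub v hv hQ0
  have hQm : Q.rootMultiplicity ρ = 0 := rootMultiplicity_eq_zero hQρ
  rw [hQm, Nat.cast_zero, zero_mul] at hQord
  obtain ⟨hPne, hPord⟩ := ord_aeval_sub v hv hPa
  have hle : m ≤ (P - C a * Q).rootMultiplicity ρ := (le_rootMultiplicity_iff hPa).mpr hdvd
  have hrel : aeval h (P - C a * Q) = (x - algebraMap K F a) * aeval h Q := by
    rw [map_sub, map_mul, aeval_C, hPQ]
    ring
  have hxa : x - algebraMap K F a ≠ 0 := by
    intro h0
    rw [h0, zero_mul] at hrel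
    exact hPne hrel
  refine ⟨hxa, ?_⟩
  rw [hrel, v.ord_mul hxa hQne, hQord, add_zero] at hPord
  rw [hPord]
  have hpos : (0 : ℤ) ≤ v.ord (h - algebraMap K F ρ) := hv.le
  have : (m : ℤ) ≤ ((P - C a * Q).rootMultiplicity ρ : ℤ) := by exact_mod_cast hle
  exact mul_le_mul_of_nonneg_right this hpos

/-- `ρ ≠ 0` is a branch value of `1/x` iff `1/ρ` is a branch value of `x`. -/
theorem isBranchValue_inv_iff [CharZero K] (x : F) (hx : Transcendental K x)
    [FiniteDimensional K⟮x⟯ F] {ρ : K} (hρ : ρ ≠ 0) :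
    IsBranchValue x⁻¹ ρ ↔ IsBranchValue x ρ⁻¹ := by
  haveI := finiteDimensional_adjoin_simple_inv (K := K) x
  haveI := isSeparable_adjoin_simple (K := K) x
  haveI := isSeparable_adjoin_simple (K := K) x⁻¹
  rw [isBranchValue_iff _ (transcendental_inv hx), isBranchValue_iff _ hx,
    finrank_adjoin_simple_inv]
  have e : Nat.card {v : Place K F // 0 < v.ord (x⁻¹ - algebraMap K F ρ)}
      = Nat.card {v : Place K F // 0 < v.ord (x - algebraMap K F ρ⁻¹)} :=
    Nat.card_congr (Equiv.subtypeEquivRight fun v => pos_ord_inv_sub_iff v _ hρ)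
  rw [e]

end Generic

section Modular

open Fermat.Agent.S24 (Kbar FN)

variable (N : ℕ) [NeZero N]

/-- **Branch values of a chart `h` with `P(h) = j Q(h)`**: a branch value `ρ` of `h` with
`Q(ρ) ≠ 0` is a simple root of `P` or of `P - 1728 Q`. -/
theorem branch_haupt (h : FN N) (hh : Transcendental Kbar h) [FiniteDimensional Kbar⟮h⟯ (FN N)]
    (P Q : Kbar[X])
    (hPQ : aeval h P = Fermat.Agent.RED.H73.jF (L := Kbar) N * aeval h Q)
    (hne : ∀ a : Kbar, P - C a * Q ≠ 0)
    {ρ : Kbar} (hQρ : Q.eval ρ ≠ 0) (hbr : IsBranchValue h ρ) :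
    (P.eval ρ = 0 ∧ ¬ (X - C ρ) ^ 2 ∣ P) ∨
      (P.eval ρ = 1728 * Q.eval ρ ∧ ¬ (X - C ρ) ^ 2 ∣ P - C 1728 * Q) := by
  obtain ⟨v, hv⟩ := exists_two_le_ord_of_isBranchValue h hh ρ hbr
  have hv0 : 0 < v.ord (h - algebraMap Kbar (FN N) ρ) := by omega
  set a : Kbar := P.eval ρ / Q.eval ρ with ha
  have haQ : a * Q.eval ρ = P.eval ρ := div_mul_cancel₀ _ hQρ
  have hroot : (X - C ρ) ^ 1 ∣ P - C a * Q := by
    rw [pow_one, dvd_iff_isRoot, IsRoot, eval_sub, eval_mul, eval_C, haQ, sub_self]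
  obtain ⟨-, h1⟩ := mul_ord_le_ord_sub v hPQ hQρ hroot (hne a) hv0
  rw [Nat.cast_one, one_mul] at h1
  have h2 : 2 ≤ v.ord (Fermat.Agent.RED.H73.jF (L := Kbar) N - algebraMap Kbar (FN N) a) := by
    omega
  by_cases ha0 : a = 0
  · left
    have hP0 : P.eval ρ = 0 := by rw [← haQ, ha0, zero_mul]
    refine ⟨hP0, fun hd => ?_⟩
    have hd' : (X - C ρ) ^ 2 ∣ P - C (0 : Kbar) * Q := by simpa using hd
    obtain ⟨-, h3⟩ := mul_ord_le_ord_sub v hPQ hQρ hd' (hne 0) hv0
    have h4 := ord_jF_le_three' N v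
    rw [map_zero, sub_zero] at h3
    push_cast at h3
    omega
  by_cases ha1 : a = 1728
  · right
    have hP1 : P.eval ρ = 1728 * Q.eval ρ := by rw [← haQ, ha1]
    refine ⟨hP1, fun hd => ?_⟩
    obtain ⟨-, h3⟩ := mul_ord_le_ord_sub v hPQ hQρ hd (hne 1728) hv0
    have h4 := ord_jF_sub_1728_le_two' N v
    push_cast at h3
    omega
  · exfalso
    have h4 := ord_jF_sub_le_one' N a ha0 ha1 v
    omega

end Modular

end Fermat.Agent.RED.H76
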