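import Fermat.Agent.RED.H73_GAHauptField

/-!
# G-RED package GA-H (helper73): the charts from identities over `ℤ`

`hZ : LaurentSeries ℤ` with a pole and leading coefficient `1`, and two identities in
`LaurentSeries ℤ`
  `P(hZ) = j · Q(hZ)`,   `P'(hZ) = j(q^p) · Q'(hZ)`
(`P, Q, P', Q' ∈ ℤ[X]`, `P, Q, Q'` monic, `deg P = p + 1 > deg Q`).  Then for every valuation
subring `A` of `ℚ̄` in which `M` is invertible, `p ∣ M`, the image `x` of `hZ` in `ℚ̄((q))` lies in
the Gauss ring, its reduction is the image of `hZ` in `k((q))`, and `x`, `1/x` satisfy the five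
chart fields `ChartPre` at level `M`:  `chartPre_haupt_int`.
-/

set_option autoImplicit false
set_option synthInstance.maxHeartbeats 400000
set_option maxHeartbeats 1000000

open Polynomial ModularCurve Fermat.Agent.S28 Fermat.Agent.S28.H73
open IntermediateField

noncomputable section

namespace Fermat.Agent.RED.H73

section CoeffMap

variable {R S T : Type*} [CommRing R] [CommRing S] [CommRing T]

theorem algebraMap_laurentSeries_single (c : R) :
    algebraMap R (LaurentSeries R) c = HahnSeries.single 0 c := by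
  have h1 : algebraMap R (PowerSeries R) c = PowerSeries.C c := by simp
  rw [HahnSeries.algebraMap_apply', h1, HahnSeries.ofPowerSeries_C]
  rfl

theorem coeffMap_algebraMap' (f : R →+* S) (r : R) :
    coeffMap f (algebraMap R (LaurentSeries R) r) = algebraMap S (LaurentSeries S) (f r) := by
  rw [algebraMap_laurentSeries_single, coeffMap_single, algebraMap_laurentSeries_single]

/-- `coeffMap` commutes with polynomial evaluation. -/
theorem coeffMap_aeval (f : R →+* S) (x : LaurentSeries R) (P : R[X]) :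
    coeffMap f (aeval x P) = aeval (coeffMap f x) (P.map f) := by
  rw [aeval_def, aeval_def, Polynomial.hom_eval₂, Polynomial.eval₂_map]
  congr 1
  ext r : 1
  exact coeffMap_algebraMap' f r

theorem coeffMap_coeffMap (f : R →+* S) (g : S →+* T) (x : LaurentSeries R) :
    coeffMap g (coeffMap f x) = coeffMap (g.comp f) x := by
  ext n
  rfl

theorem coeffMap_jqModC' (f : R →+* S) : coeffMap f (jqModC R) = jqModC S :=
  map_jqModC f

/-- The image of a series with a pole and leading coefficient `1` has a pole. -/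
theorem coeffMap_order_neg [Nontrivial S] (f : R →+* S) {x : LaurentSeries R}
    (hord : x.order < 0) (hlead : x.leadingCoeff = 1) : (coeffMap f x).order < 0 := by
  have hx0 : x ≠ 0 := by
    rintro rfl
    rw [HahnSeries.order_zero] at hord
    exact lt_irrefl _ hord
  have hc : (coeffMap f x).coeff x.order ≠ 0 := by
    rw [coeffMap_coeff, ← HahnSeries.leadingCoeff_eq, hlead, map_one]
    exact one_ne_zero
  exact lt_of_le_of_lt (HahnSeries.order_le_of_coeff_ne_zero hc) hord

end CoeffMap

section Int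

variable {p : ℕ} [NeZero p]

/-- The image of an integral series in `ℚ̄((q))` lies in the Gauss ring and reduces to the image
in `k((q))`. -/
theorem coeffMap_int_mem_gaussRingV {L : Type} [Field L] (A : ValuationSubring L)
    (hZ : LaurentSeries ℤ) :
    ∃ hx : coeffMap (Int.castRingHom L) hZ ∈ gaussRingV A,
      gaussRedV A ⟨coeffMap (Int.castRingHom L) hZ, hx⟩
        = coeffMap (Int.castRingHom (kV A)) hZ := by
  have e1 : coeffMap (Int.castRingHom L) hZ = iotaV A (coeffMap (Int.castRingHom ↥A) hZ) := by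
    rw [iotaV, coeffMap_coeffMap]
    congr 1
  have e2 : redV A (coeffMap (Int.castRingHom ↥A) hZ) = coeffMap (Int.castRingHom (kV A)) hZ := by
    rw [redV, coeffMap_coeffMap]
    congr 1
  have hx : coeffMap (Int.castRingHom L) hZ ∈ gaussRingV A := by
    rw [e1]; exact iotaV_mem_gaussRingV A _
  refine ⟨hx, ?_⟩
  have e3 : (⟨coeffMap (Int.castRingHom L) hZ, hx⟩ : gaussRingV A)
      = ⟨iotaV A (coeffMap (Int.castRingHom ↥A) hZ), iotaV_mem_gaussRingV A _⟩ :=
    Subtype.ext e1
  rw [e3, gaussRedV_iotaV, e2]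

/-- The identities over a field `K`, from the identities over `ℤ`. -/
theorem haupt_identities_map (K : Type) [Field K] (hZ : LaurentSeries ℤ) (P Q P' Q' : ℤ[X])
    (hPQ : aeval hZ P = jqModC ℤ * aeval hZ Q)
    (hPQ' : aeval hZ P' = qExpand ℤ p (jqModC ℤ) * aeval hZ Q') :
    aeval (coeffMap (Int.castRingHom K) hZ) (P.map (Int.castRingHom K))
        = jqModC K * aeval (coeffMap (Int.castRingHom K) hZ) (Q.map (Int.castRingHom K)) ∧
    aeval (coeffMap (Int.castRingHom K) hZ) (P'.map (Int.castRingHom K))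
        = qExpand K p (jqModC K)
          * aeval (coeffMap (Int.castRingHom K) hZ) (Q'.map (Int.castRingHom K)) := by
  constructor
  · rw [← coeffMap_aeval, hPQ, map_mul, coeffMap_aeval, coeffMap_jqModC']
  · rw [← coeffMap_aeval, hPQ', map_mul, coeffMap_aeval, coeffMap_qExpand, coeffMap_jqModC']

/-- **GA-H from identities over `ℤ`**: both charts `x`, `1/x` at level `M`, for the image `x`
of `hZ` in `ℚ̄((q))`. -/
theorem chartPre_haupt_int (hp : p.Prime) {M : ℕ} [NeZero M] (hpM : p ∣ M)
    (A : ValuationSubring (AlgebraicClosure ℚ)) (hM : ((M : AlgebraicClosure ℚ))⁻¹ ∈ A)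
    (hZ : LaurentSeries ℤ) (hord : hZ.order < 0) (hlead : hZ.leadingCoeff = 1)
    (P Q P' Q' : ℤ[X]) (hP : P.Monic) (hPd : P.natDegree = p + 1)
    (hQ : Q.Monic) (hQd : Q.natDegree < p + 1) (hQ' : Q'.Monic)
    (hPQ : aeval hZ P = jqModC ℤ * aeval hZ Q)
    (hPQ' : aeval hZ P' = qExpand ℤ p (jqModC ℤ) * aeval hZ Q') :
    ∃ (X : ↥(laurentBaseChange (AlgebraicClosure ℚ) (modularFunctionFieldFull M)))
      (hX : X ∈ (redSetting A (hasScale_laurentBaseChange A M)).V)
      (hX' : X⁻¹ ∈ (redSetting A (hasScale_laurentBaseChange A M)).V),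
      (X : LaurentSeries (AlgebraicClosure ℚ)) = coeffMap (Int.castRingHom _) hZ ∧
      (((redSetting A (hasScale_laurentBaseChange A M)).red ⟨X, hX⟩ :
          ↥(redField A (laurentBaseChange (AlgebraicClosure ℚ) (modularFunctionFieldFull M))
            (hasScale_laurentBaseChange A M))) : LaurentSeries (kV A))
        = coeffMap (Int.castRingHom (kV A)) hZ ∧
      ChartPre (redSetting A (hasScale_laurentBaseChange A M)) X hX ∧
      ChartPre (redSetting A (hasScale_laurentBaseChange A M)) X⁻¹ hX' := by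
  obtain ⟨hx, hred⟩ := coeffMap_int_mem_gaussRingV A hZ
  obtain ⟨i1, i2⟩ := haupt_identities_map (p := p) (AlgebraicClosure ℚ) hZ P Q P' Q' hPQ hPQ'
  obtain ⟨k1, k2⟩ := haupt_identities_map (p := p) (kV A) hZ P Q P' Q' hPQ hPQ'
  have o1 := coeffMap_order_neg (Int.castRingHom (AlgebraicClosure ℚ)) hord hlead
  have o2 := coeffMap_order_neg (Int.castRingHom (kV A)) hord hlead
  rw [← hred] at k1 k2 o2
  have hpA : ((p : AlgebraicClosure ℚ))⁻¹ ∈ A := inv_natCast_mem_of_dvd A hpM (NeZero.ne M) hM
  have H2 := haupt_H2_bar hp _ _ _ _ (hP.map (Int.castRingHom (AlgebraicClosure ℚ)))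
    (by rw [hP.natDegree_map, hPd]) (by rw [hQ.natDegree_map]; exact hQd) i1
    (aeval_ne_zero_of_order_neg o1 (hQ.map _).ne_zero) i2
    (aeval_ne_zero_of_order_neg o1 (hQ'.map _).ne_zero)
  have H3 := haupt_H3_bar hp A hpA _ _ _ _ (hP.map (Int.castRingHom (kV A)))
    (by rw [hP.natDegree_map, hPd]) (by rw [hQ.natDegree_map]; exact hQd) k1
    (aeval_ne_zero_of_order_neg o2 (hQ.map _).ne_zero) k2
    (aeval_ne_zero_of_order_neg o2 (hQ'.map _).ne_zero)
  have hxF := haupt_mem hpM H2
  have h := chartPre_haupt hpM hM (caDataBar p) (caDataBar M) hx H2 H3 hxF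
  exact ⟨⟨_, hxF⟩, hx, h.inv_mem, rfl, hred, h, h.inv_chart⟩

end Int

end Fermat.Agent.RED.H73
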