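import Fermat.Agent.RED.H76_IGBranch
import Fermat.Agent.RED.H76_GoodChartJ
import Fermat.Agent.RED.H73_GAHauptInt

/-!
# G-RED (helper76): `HasDR` at the levels with a Hauptmodul chart (`ℓ = 3, 2 ∣ M`; `ℓ = 2, 3 ∣ M`)

* `hasDR_of_haupt_int` : generic assembly.  Input: `hZ : LaurentSeries ℤ` with a pole and
  leading coefficient `1`, the two identities `P(hZ) = j Q(hZ)`, `P'(hZ) = j(q^p) Q'(hZ)` over
  `ℤ` (helper73's `chartPre_haupt_int`), and the root analysis of `P`, `P - 1728 Q`: every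
  candidate branch value `ρ ≠ 0` equals a fixed unit `c` of `A`.
* `Stmt_Haupt2`, `Stmt_Haupt3` : the `q`-series inputs (packages IG-MOD23 of helper70, helper29).
* `hasDR_haupt2`, `hasDR_haupt3` : cases 2 and 3 of `Stmt_DR2`.
* `stmt_DR2_of : Stmt_Haupt2 → Stmt_Haupt3 → Stmt_DR2`.
-/

set_option autoImplicit false
set_option linter.style.haveILetI false
set_option synthInstance.maxHeartbeats 400000
set_option maxHeartbeats 1000000

noncomputable section

open AlgebraicCurve IntermediateField Polynomial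

namespace Fermat.Agent.RED.H76

open Fermat.Agent.RED.H34 Fermat.Agent.RED.H79
open ModularCurve Fermat.Agent.S28.H73 Fermat.Agent.RED.H73 Fermat.Agent.S24

section Generic

/-- **Generic assembly**: the Deuring datum at level `M` from a Hauptmodul of the sublevel
`p ∣ M` given by identities over `ℤ`, when the candidate branch values are `0` and a unit `c`. -/
theorem hasDR_of_haupt_int {p ℓ : ℕ} [NeZero p] (hp : p.Prime) {M : ℕ} [NeZero M] (hpM : p ∣ M)
    (hℓ : ℓ.Prime) (hℓM : ¬ ℓ ∣ M)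
    (A : ValuationSubring Kbar) (hA : A.LiesOverPrime ℓ)
    (hZ : LaurentSeries ℤ) (hord : hZ.order < 0) (hlead : hZ.leadingCoeff = 1)
    (P Q P' Q' : ℤ[X]) (hP : P.Monic) (hPd : P.natDegree = p + 1)
    (hQ : Q.Monic) (hQd : Q.natDegree < p + 1) (hQ' : Q'.Monic)
    (hPQ : aeval hZ P = jqModC ℤ * aeval hZ Q)
    (hPQ' : aeval hZ P' = qExpand ℤ p (jqModC ℤ) * aeval hZ Q')
    (c : Kbar) (hc : c ≠ 0) (hcA : c ∈ A) (hcinvA : c⁻¹ ∈ A)
    (hQroot : ∀ ρ : Kbar, (Q.map (Int.castRingHom Kbar)).eval ρ = 0 → ρ = 0)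
    (hbr : ∀ ρ : Kbar, ρ ≠ 0 →
      (((P.map (Int.castRingHom Kbar)).eval ρ = 0 ∧
          ¬ (X - C ρ) ^ 2 ∣ P.map (Int.castRingHom Kbar)) ∨
        ((P.map (Int.castRingHom Kbar)).eval ρ = 1728 * (Q.map (Int.castRingHom Kbar)).eval ρ ∧
          ¬ (X - C ρ) ^ 2 ∣
            P.map (Int.castRingHom Kbar) - C 1728 * Q.map (Int.castRingHom Kbar))) →
      ρ = c) :
    HasDR A (hasScale_laurentBaseChange A M) := by
  haveI : IsAlgClosed (kV A) := isAlgClosed_kV A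
  have hM : ((M : Kbar))⁻¹ ∈ A := inv_natCast_mem_of_liesOver A M hℓ hℓM hA
  obtain ⟨x, hx, hx', hxcoe, -, G, G'⟩ :=
    chartPre_haupt_int hp hpM A hM hZ hord hlead P Q P' Q' hP hPd hQ hQd hQ' hPQ hPQ'
  obtain ⟨i1, -⟩ := haupt_identities_map (p := p) Kbar hZ P Q P' Q' hPQ hPQ'
  -- the identity in `F_M`
  have hid : aeval x (P.map (Int.castRingHom Kbar))
      = Fermat.Agent.RED.H73.jF (L := Kbar) M * aeval x (Q.map (Int.castRingHom Kbar)) := by
    apply Subtype.ext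
    have e : ∀ q : Kbar[X], ((aeval x q : ↥(laurentBaseChange Kbar (modularFunctionFieldFull M)))
        : LaurentSeries Kbar) = aeval (x : LaurentSeries Kbar) q := fun q =>
      (Polynomial.aeval_algHom_apply
        (laurentBaseChange Kbar (modularFunctionFieldFull M)).val x q).symm
    rw [MulMemClass.coe_mul, e, e, hxcoe]
    exact i1
  have hxt : Transcendental Kbar x :=
    Fermat.Agent.RED.H34.RedSetting.transcendental_x hx G.transc
  haveI := G.fin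
  -- `P - a Q ≠ 0`
  have hne : ∀ a : Kbar, P.map (Int.castRingHom Kbar) - C a * Q.map (Int.castRingHom Kbar)
      ≠ 0 := by
    intro a
    have hPm : (P.map (Int.castRingHom Kbar)).Monic := hP.map _
    have hdeg : (C a * Q.map (Int.castRingHom Kbar)).degree
        < (P.map (Int.castRingHom Kbar)).degree := by
      refine degree_lt_degree (lt_of_le_of_lt (natDegree_C_mul_le a _) ?_)
      rw [hQ.natDegree_map, hP.natDegree_map, hPd]
      exact hQd
    exact (hPm.sub_of_left hdeg).ne_zero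
  -- branch values of `x`
  have hbrx : ∀ ρ : Kbar, IsBranchValue x ρ → ρ = 0 ∨ ρ = c := by
    intro ρ hρ
    by_cases h0 : ρ = 0
    · exact Or.inl h0
    · right
      have hQρ : (Q.map (Int.castRingHom Kbar)).eval ρ ≠ 0 := fun h => h0 (hQroot ρ h)
      exact hbr ρ h0 (branch_haupt M x hxt _ _ hid hne hQρ hρ)
  -- branch values of `1/x`
  have hbrx' : ∀ σ : Kbar, IsBranchValue x⁻¹ σ → σ = 0 ∨ σ = c⁻¹ := by
    intro σ hσ
    by_cases h0 : σ = 0
    · exact Or.inl h0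
    · right
      have h1 := (isBranchValue_inv_iff x hxt h0).mp hσ
      rcases hbrx σ⁻¹ h1 with h2 | h2
      · exact absurd h2 (inv_ne_zero h0)
      · rw [← h2, inv_inv]
  have GC : GoodChart (redSetting A (hasScale_laurentBaseChange A M)) x hx :=
    goodChart_of _ hx G.transc G.fin G.sep G.deg G.sept (fun ρ ρ' hρ hρ' hres =>
      eq_of_resO_eq_of_mem_pair A _ c hc hcinvA ρ ρ' (hbrx _ hρ) (hbrx _ hρ') hres)
  have GC' : GoodChart (redSetting A (hasScale_laurentBaseChange A M)) x⁻¹ hx' :=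
    goodChart_of _ hx' G'.transc G'.fin G'.sep G'.deg G'.sept (fun ρ ρ' hρ hρ' hres =>
      eq_of_resO_eq_of_mem_pair A _ c⁻¹ (inv_ne_zero hc) (by rw [inv_inv]; exact hcA) ρ ρ'
        (hbrx' _ hρ) (hbrx' _ hρ') hres)
  exact hasDR_of_goodCharts A (hasScale_laurentBaseChange A M)
    (Fermat.Agent.RED.H95.isFF_FN M) (isFF_redField_bar M ℓ hℓ hℓM A hA) x hx hx' GC GC'

end Generic

/-! ### Root analysis for `p = 2` and `p = 3` -/

section Roots

variable {K : Type} [Field K]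

theorem haupt2_case0 (ρ : K) (h0 : (ρ + 256) ^ 3 = 0)
    (hd : ¬ (X - C ρ) ^ 2 ∣ ((X + C 256) ^ 3 : K[X])) : False := by
  have h1 : ρ = -256 := eq_neg_of_add_eq_zero_left (pow_eq_zero_iff (by norm_num) |>.mp h0)
  apply hd
  rw [h1, C_neg, sub_neg_eq_add]
  exact pow_dvd_pow _ (by norm_num)

theorem haupt2_case1728 [CharZero K] (ρ : K) (h1 : (ρ + 256) ^ 3 = 1728 * ρ ^ 2)
    (hd : ¬ (X - C ρ) ^ 2 ∣ ((X + C 256) ^ 3 - C 1728 * X ^ 2 : K[X])) : ρ = -64 := by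
  have hfac : (ρ + 64) * (ρ - 512) ^ 2 = 0 := by linear_combination h1
  rcases mul_eq_zero.mp hfac with h | h
  · exact eq_neg_of_add_eq_zero_left h
  · exfalso
    have h512 : ρ = 512 := sub_eq_zero.mp (pow_eq_zero_iff (by norm_num) |>.mp h)
    apply hd
    refine ⟨X + C 64, ?_⟩
    rw [h512]
    simp only [map_ofNat]
    ring

theorem haupt3_case0 (ρ : K) (h0 : (ρ + 27) * (ρ + 243) ^ 3 = 0)
    (hd : ¬ (X - C ρ) ^ 2 ∣ ((X + C 27) * (X + C 243) ^ 3 : K[X])) : ρ = -27 := by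
  rcases mul_eq_zero.mp h0 with h | h
  · exact eq_neg_of_add_eq_zero_left h
  · exfalso
    have h1 : ρ = -243 := eq_neg_of_add_eq_zero_left (pow_eq_zero_iff (by norm_num) |>.mp h)
    apply hd
    rw [h1, C_neg, sub_neg_eq_add]
    exact Dvd.dvd.mul_left (pow_dvd_pow _ (by norm_num)) _

theorem haupt3_case1728 (ρ : K) (h1 : (ρ + 27) * (ρ + 243) ^ 3 = 1728 * ρ ^ 3)
    (hd : ¬ (X - C ρ) ^ 2 ∣ ((X + C 27) * (X + C 243) ^ 3 - C 1728 * X ^ 3 : K[X])) :
    False := by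
  have hfac : (ρ ^ 2 - 486 * ρ - 19683) ^ 2 = 0 := by linear_combination h1
  have hroot : ρ ^ 2 - 486 * ρ - 19683 = 0 := pow_eq_zero_iff (by norm_num) |>.mp hfac
  have hdvd : (X - C ρ) ∣ (X ^ 2 - C 486 * X - C 19683 : K[X]) := by
    rw [dvd_iff_isRoot, IsRoot]
    simp only [eval_sub, eval_mul, eval_pow, eval_X, eval_C]
    exact hroot
  apply hd
  have hsq : ((X + C 27) * (X + C 243) ^ 3 - C 1728 * X ^ 3 : K[X])
      = (X ^ 2 - C 486 * X - C 19683) ^ 2 := by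
    simp only [map_ofNat]
    ring
  rw [hsq]
  exact pow_dvd_pow_of_dvd hdvd 2

end Roots

/-! ### The two cases -/

section Cases

/-- **Input of IG-MOD23, `p = 2`** (helper70): the Hauptmodul `h₂ = Δ(q)/Δ(q²)` over `ℤ` with
`j h₂² = (h₂ + 256)³` and one identity for `j(q²)`. -/
def Stmt_Haupt2 : Prop :=
  ∃ (hZ : LaurentSeries ℤ) (P' Q' : ℤ[X]), hZ.order < 0 ∧ hZ.leadingCoeff = 1 ∧ Q'.Monic ∧
    aeval hZ ((X + C 256) ^ 3 : ℤ[X]) = jqModC ℤ * aeval hZ (X ^ 2 : ℤ[X]) ∧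
    aeval hZ P' = qExpand ℤ 2 (jqModC ℤ) * aeval hZ Q'

/-- **Input of IG-MOD23, `p = 3`** (helper29): the Hauptmodul `h₃ = (η(q)/η(q³))¹²` over `ℤ`
with `j h₃³ = (h₃ + 27)(h₃ + 243)³` and one identity for `j(q³)`. -/
def Stmt_Haupt3 : Prop :=
  ∃ (hZ : LaurentSeries ℤ) (P' Q' : ℤ[X]), hZ.order < 0 ∧ hZ.leadingCoeff = 1 ∧ Q'.Monic ∧
    aeval hZ ((X + C 27) * (X + C 243) ^ 3 : ℤ[X]) = jqModC ℤ * aeval hZ (X ^ 3 : ℤ[X]) ∧
    aeval hZ P' = qExpand ℤ 3 (jqModC ℤ) * aeval hZ Q'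

/-- `Stmt_Haupt2` from the two identities written in the ring `ℤ((q))`. -/
theorem stmt_Haupt2_of_ring (hZ : LaurentSeries ℤ) (hord : hZ.order < 0)
    (hlead : hZ.leadingCoeff = 1) (h1 : (hZ + 256) ^ 3 = jqModC ℤ * hZ ^ 2)
    (h2 : (hZ + 16) ^ 3 = qExpand ℤ 2 (jqModC ℤ) * hZ) : Stmt_Haupt2 := by
  refine ⟨hZ, (X + C 16) ^ 3, X, hord, hlead, monic_X, ?_, ?_⟩
  · simp only [map_pow, map_add, aeval_X, aeval_C]
    simp only [eq_intCast, Int.cast_ofNat]
    exact h1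
  · simp only [map_pow, map_add, aeval_X, aeval_C]
    simp only [eq_intCast, Int.cast_ofNat]
    exact h2

/-- `Stmt_Haupt3` from the two identities written in the ring `ℤ((q))`. -/
theorem stmt_Haupt3_of_ring (hZ : LaurentSeries ℤ) (hord : hZ.order < 0)
    (hlead : hZ.leadingCoeff = 1) (h1 : (hZ + 27) * (hZ + 243) ^ 3 = jqModC ℤ * hZ ^ 3)
    (h2 : (hZ + 27) * (hZ + 3) ^ 3 = qExpand ℤ 3 (jqModC ℤ) * hZ) : Stmt_Haupt3 := by
  refine ⟨hZ, (X + C 27) * (X + C 3) ^ 3, X, hord, hlead, monic_X, ?_, ?_⟩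
  · simp only [map_pow, map_add, map_mul, aeval_X, aeval_C]
    simp only [eq_intCast, Int.cast_ofNat]
    exact h1
  · simp only [map_pow, map_add, map_mul, aeval_X, aeval_C]
    simp only [eq_intCast, Int.cast_ofNat]
    exact h2

theorem neg_natCast_inv_mem {ℓ : ℕ} (hℓ : ℓ.Prime) (A : ValuationSubring Kbar)
    (hA : A.LiesOverPrime ℓ) (n : ℕ) (hn : ¬ ℓ ∣ n) : (-(n : Kbar))⁻¹ ∈ A := by
  rw [inv_neg]
  exact A.neg_mem _ (inv_natCast_mem_of_liesOver A n hℓ hn hA)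

/-- **DR2, case `ℓ = 3`, `2 ∣ M`** (chart `h₂`). -/
theorem hasDR_haupt2 (H : Stmt_Haupt2) {M : ℕ} [NeZero M] (h2M : 2 ∣ M) (h3M : ¬ 3 ∣ M)
    (A : ValuationSubring Kbar) (hA : A.LiesOverPrime 3) :
    HasDR A (hasScale_laurentBaseChange A M) := by
  obtain ⟨hZ, P', Q', hord, hlead, hQ', hPQ, hPQ'⟩ := H
  have hPmap : ((X + C 256) ^ 3 : ℤ[X]).map (Int.castRingHom Kbar) = (X + C 256) ^ 3 := by
    simp only [Polynomial.map_pow, Polynomial.map_add, Polynomial.map_X, Polynomial.map_C]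
    simp only [eq_intCast, Int.cast_ofNat]
  have hQmap : ((X ^ 2 : ℤ[X])).map (Int.castRingHom Kbar) = X ^ 2 := by
    simp [Polynomial.map_pow]
  refine hasDR_of_haupt_int (p := 2) Nat.prime_two h2M Nat.prime_three h3M A hA hZ hord hlead
    ((X + C 256) ^ 3) (X ^ 2) P' Q' ((monic_X_add_C 256).pow 3) ?_ (monic_X_pow 2) ?_ hQ'
    hPQ hPQ' (-64) (by norm_num) ?_ ?_ ?_ ?_
  · rw [(monic_X_add_C (256 : ℤ)).natDegree_pow, natDegree_X_add_C]
  · rw [natDegree_X_pow]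
    norm_num
  · have : ((64 : ℕ) : Kbar) ∈ A := natCast_mem A 64
    have h2 := A.neg_mem _ this
    exact_mod_cast h2
  · have := neg_natCast_inv_mem Nat.prime_three A hA 64 (by decide)
    exact_mod_cast this
  · intro ρ hρ
    rw [hQmap] at hρ
    simpa using hρ
  · intro ρ _ h
    rw [hPmap, hQmap] at h
    simp only [eval_pow, eval_add, eval_X, eval_C] at h
    rcases h with ⟨h0, hd⟩ | ⟨h1, hd⟩
    · exact (haupt2_case0 ρ h0 hd).elim
    · exact haupt2_case1728 ρ h1 hd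

/-- **DR2, case `ℓ = 2`, `3 ∣ M`** (chart `h₃`). -/
theorem hasDR_haupt3 (H : Stmt_Haupt3) {M : ℕ} [NeZero M] (h3M : 3 ∣ M) (h2M : ¬ 2 ∣ M)
    (A : ValuationSubring Kbar) (hA : A.LiesOverPrime 2) :
    HasDR A (hasScale_laurentBaseChange A M) := by
  obtain ⟨hZ, P', Q', hord, hlead, hQ', hPQ, hPQ'⟩ := H
  have hPmap : ((X + C 27) * (X + C 243) ^ 3 : ℤ[X]).map (Int.castRingHom Kbar)
      = (X + C 27) * (X + C 243) ^ 3 := by
    simp only [Polynomial.map_pow, Polynomial.map_add, Polynomial.map_mul, Polynomial.map_X,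
      Polynomial.map_C]
    simp only [eq_intCast, Int.cast_ofNat]
  have hQmap : ((X ^ 3 : ℤ[X])).map (Int.castRingHom Kbar) = X ^ 3 := by
    simp [Polynomial.map_pow]
  refine hasDR_of_haupt_int (p := 3) Nat.prime_three h3M Nat.prime_two h2M A hA hZ hord hlead
    ((X + C 27) * (X + C 243) ^ 3) (X ^ 3) P' Q'
    ((monic_X_add_C 27).mul ((monic_X_add_C 243).pow 3)) ?_ (monic_X_pow 3) ?_ hQ'
    hPQ hPQ' (-27) (by norm_num) ?_ ?_ ?_ ?_
  · rw [(monic_X_add_C (27 : ℤ)).natDegree_mul ((monic_X_add_C (243 : ℤ)).pow 3),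
      (monic_X_add_C (243 : ℤ)).natDegree_pow, natDegree_X_add_C, natDegree_X_add_C]
  · rw [natDegree_X_pow]
    norm_num
  · have : ((27 : ℕ) : Kbar) ∈ A := natCast_mem A 27
    have h2 := A.neg_mem _ this
    exact_mod_cast h2
  · have := neg_natCast_inv_mem Nat.prime_two A hA 27 (by decide)
    exact_mod_cast this
  · intro ρ hρ
    rw [hQmap] at hρ
    simpa using hρ
  · intro ρ _ h
    rw [hPmap, hQmap] at h
    simp only [eval_pow, eval_add, eval_mul, eval_X, eval_C] at h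
    rcases h with ⟨h0, hd⟩ | ⟨h1, hd⟩
    · exact haupt3_case0 ρ h0 hd
    · exact (haupt3_case1728 ρ h1 hd).elim

/-- **Package DR2** from the two `q`-series inputs of IG-MOD23. -/
theorem stmt_DR2_of (H2 : Stmt_Haupt2) (H3 : Stmt_Haupt3) : Stmt_DR2 := by
  intro M ℓ _ hℓ hM hcase A hA
  rcases hcase with h5 | ⟨rfl, h2M⟩ | ⟨rfl, h3M⟩
  · exact hasDR_of_five_le M hℓ hM h5 A hA
  · exact hasDR_haupt2 H2 h2M hM A hA
  · exact hasDR_haupt3 H3 h3M hM A hA

end Cases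

end Fermat.Agent.RED.H76
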