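import Fermat.Agent.RED.H51_Final
import Fermat.Agent.RED.H95_IsFF

/-!
# HK-A (helper51 assembly): the Hecke correspondence inputs over `ℚ̄`, unconditional

`stmt_HKA : Stmt_HKA`, from FF-B (`H51_Final.lean`) and helper95's `Stmt_HKA_isFF`.
-/

set_option autoImplicit false

noncomputable section

namespace Fermat.Agent.RED.H51

/-- **HK-A**: `HeckeInputsAlong ℚ̄ N ℓ` holds for all `N`, `ℓ`. -/
theorem stmt_HKA : Fermat.Agent.RED.Stmt_HKA :=
  Fermat.Agent.RED.stmt_HKA_of Fermat.Agent.RED.H95.stmt_HKA_isFF stmt_FFB_principal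
    stmt_FFB_finite stmt_FFB_fundamental stmt_FFB_norm

end Fermat.Agent.RED.H51
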