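import Fermat.Agent.S28.Defs
import Fermat.Prelude.Def_ModularCurve_X0ModL

/-!
# G-RED package GA (helper73): the conjugate data over an arbitrary field `L`

`CADataL L N` is the analogue of `Fermat.Agent.S28.CAData N` (which lives over `ℂ`) over a field
`L` (in the application `L = ℚ̄`), with the two extra properties of
`Fermat.Agent.S28.H30.exists_caData_strong`.  `t = q^(1/N)`.

`Stmt_CAL` : such data exist over `ℚ̄` (transfer from `ℂ`).
-/

set_option autoImplicit false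

open ModularCurve

noncomputable section

namespace Fermat.Agent.RED.H73

/-- The coefficient ring `ℤ[ζ_N, 1/N] ⊂ L`. -/
def coeffRingL (L : Type) [Field L] (N : ℕ) : Subring L :=
  Subring.closure ({z : L | z ^ N = 1} ∪ {(N : L)⁻¹})

/-- The `t`-expansions over `L` of the conjugates `u ∘ γ_q`, `j(d γ_q z)` over the cosets `q` of
`Γ₀(N)` in `SL₂(ℤ)`. -/
structure CADataL (L : Type) [Field L] (N : ℕ) [NeZero N] where
  Q : Type
  instFintype : Fintype Q
  q₀ : Q
  D : ℕ
  D_pos : 0 < D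
  U : Q → LaurentSeries L
  X : ℕ → Q → LaurentSeries L
  U_coeff : ∀ q n, (U q).coeff n ∈ coeffRingL L N
  U_ne : ∀ q, U q ≠ 0
  U_lead : ∀ q, ((U q).leadingCoeff)⁻¹ ∈ coeffRingL L N
  U_order₀ : (U q₀).order = -((D : ℤ) * (N : ℤ))
  U_order_pos : ∀ q, q ≠ q₀ → 0 < (U q).order
  X_coeff : ∀ d q n, d ∣ N → (X d q).coeff n ∈ coeffRingL L N
  X_q₀ : ∀ (d : ℕ) [NeZero d], d ∣ N → X d q₀ = qExpand L N (qExpand L d (jqModC L))
  X_top : ∀ q, q ≠ q₀ → (X N q).coeff (-(N : ℤ) ^ 2) = 0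
  sym : ∀ d : ℕ, d ∣ N → ∀ c s : L,
    (∏ q, (HahnSeries.C c - U q - HahnSeries.C s * X d q)) ∈
      Algebra.adjoin L ({qExpand L N (jqModC L)} : Set (LaurentSeries L))

attribute [instance] CADataL.instFintype

/-- **Transfer**: the conjugate data exist over `ℚ̄`. -/
def Stmt_CAL : Prop :=
  ∀ (N : ℕ) [NeZero N], Nonempty (CADataL (AlgebraicClosure ℚ) N)

end Fermat.Agent.RED.H73
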