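import Fermat.Agent.RED.H73_GACore
import Fermat.Agent.RED.H73_GAData
import Fermat.Agent.RED.H73_GARes
import Fermat.Agent.S28.H48_ValSub

/-!
# G-RED package GA (helper73): from `CADataL` to the S28 core hypotheses over `(L, A)`

* `coeffRingL_le`        : `ℤ[ζ_N, 1/N] ⊂ A` when `N` is invertible in `A`.
* `JL L N`               : `J = j(t^N) ∈ L((t))`; order, leading coefficient.
* `coreHyp_of_caDataL`   : `CADataL L N` gives `CoreHyp A q₀ J U N D`.
* `qExpand_mem_gaussRingV`, `gaussRedV_qExpand` : `q ↦ t^N` commutes with Gauss reduction.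
-/

set_option autoImplicit false

open Polynomial ModularCurve Fermat.Agent.S28 Fermat.Agent.S28.H73

noncomputable section

namespace Fermat.Agent.RED.H73

section CoeffRing

variable {L : Type} [Field L] (A : ValuationSubring L) (N : ℕ) [NeZero N]

/-- `ℤ[ζ_N, 1/N] ⊂ A` as soon as `1/N ∈ A`. -/
theorem coeffRingL_le (hN : ((N : L))⁻¹ ∈ A) : coeffRingL L N ≤ A.toSubring := by
  unfold coeffRingL
  rw [Subring.closure_le]
  rintro z (hz | hz)
  · exact Fermat.Agent.S28.H48.mem_of_pow_eq_one A (NeZero.ne N) hz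
  · rw [Set.mem_singleton_iff] at hz
    subst hz
    exact hN

omit [NeZero N] in
/-- `1/N ∈ A` if `A` lies over a prime `ℓ ∤ N`. -/
theorem inv_natCast_mem_of_liesOver {ℓ : ℕ} (hℓ : ℓ.Prime) (hℓN : ¬ ℓ ∣ N)
    (hA : A.LiesOverPrime ℓ) : ((N : L))⁻¹ ∈ A := by
  refine Fermat.Agent.S28.H48.inv_natCast_mem A (ℓ := ℓ) ?_ ?_
  · exact (ValuationSubring.mem_nonunits_iff (A := A)).1 hA
  · exact (Nat.Coprime.symm ((Nat.Prime.coprime_iff_not_dvd hℓ).mpr hℓN))

end CoeffRing

section JSeries

variable (L : Type) [Field L] (N : ℕ) [NeZero N]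

/-- `J = j(t^N)`. -/
def JL : LaurentSeries L := qExpand L N (jqModC L)

theorem JL_coeff_neg : (JL L N).coeff (-(N : ℤ)) = 1 := by
  have h := qExpand_coeff_mul N (jqModC L) (-1)
  rw [mul_neg_one] at h
  rw [JL, h, coeff_jqModC_neg_one]

theorem JL_coeff_of_lt {k : ℤ} (hk : k < -(N : ℤ)) : (JL L N).coeff k = 0 := by
  by_cases hn : (N : ℤ) ∣ k
  · obtain ⟨m, rfl⟩ := hn
    rw [JL, qExpand_coeff_mul]
    have hN : (0 : ℤ) < N := by exact_mod_cast Nat.pos_of_ne_zero (NeZero.ne N)
    have hm : m < -1 := by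
      by_contra hcon
      rw [not_lt] at hcon
      have : -(N : ℤ) ≤ (N : ℤ) * m := by nlinarith
      omega
    exact coeff_jqModC_of_lt L hm
  · exact qExpand_coeff_of_not_dvd N _ hn

theorem JL_ne_zero : JL L N ≠ 0 := by
  intro h
  have := JL_coeff_neg L N
  rw [h] at this
  simp at this

theorem JL_order : (JL L N).order = -(N : ℤ) := by
  have hne := JL_ne_zero L N
  apply le_antisymm
  · exact HahnSeries.order_le_of_coeff_ne_zero (by rw [JL_coeff_neg]; exact one_ne_zero)
  · by_contra hcon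
    rw [not_le] at hcon
    have := JL_coeff_of_lt L N hcon
    exact (HahnSeries.coeff_order_eq_zero.not.mpr hne) this

theorem JL_leadingCoeff : (JL L N).leadingCoeff = 1 := by
  rw [HahnSeries.leadingCoeff_eq, JL_order, JL_coeff_neg]

theorem JL_coeffsIn (O : Subring L) : CoeffsIn O (JL L N) := by
  intro n
  by_cases hn : (N : ℤ) ∣ n
  · obtain ⟨k, rfl⟩ := hn
    rw [JL, qExpand_coeff_mul, coeff_jqModC_eq_intCast]
    exact intCast_mem O _
  · rw [JL, qExpand_coeff_of_not_dvd N _ hn]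
    exact zero_mem _

theorem JL_unitLead (O : Subring L) : UnitLead O (JL L N) :=
  ⟨JL_coeffsIn L N O, JL_ne_zero L N, by rw [JL_leadingCoeff, inv_one]; exact O.one_mem⟩

end JSeries

section Core

variable {L : Type} [Field L] (A : ValuationSubring L) {N : ℕ} [NeZero N]

/-- The S28 core hypotheses over `(L, A)` from the conjugate data over `L`. -/
theorem coreHyp_of_caDataL (hN : ((N : L))⁻¹ ∈ A) (D : CADataL L N) :
    CoreHyp A D.q₀ (JL L N) D.U N D.D where
  nJ_pos := Nat.pos_of_ne_zero (NeZero.ne N)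
  D_pos := D.D_pos
  J_unitLead := JL_unitLead L N _
  J_order := JL_order L N
  U_unitLead := fun q =>
    ⟨fun n => coeffRingL_le A N hN (D.U_coeff q n), D.U_ne q, coeffRingL_le A N hN (D.U_lead q)⟩
  U_order₀ := D.U_order₀
  U_order_pos := D.U_order_pos
  sym := fun c => by
    have h := D.sym N dvd_rfl c 0
    have e : (∏ q, (HahnSeries.C c - D.U q - HahnSeries.C 0 * D.X N q))
        = ∏ q, (HahnSeries.C c - D.U q) :=
      Finset.prod_congr rfl fun q _ => by rw [map_zero, zero_mul, sub_zero]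
    rw [e] at h
    exact h

end Core

section QExpandGauss

variable {C : Type} [Field C] (O : ValuationSubring C) (N : ℕ) [NeZero N]

theorem iotaV_qExpand (g : LaurentSeries ↥O) :
    iotaV O (qExpand ↥O N g) = qExpand C N (iotaV O g) := by
  rw [iotaV, coeffMap_qExpand]

theorem redV_qExpand (g : LaurentSeries ↥O) :
    redV O (qExpand ↥O N g) = qExpand (kV O) N (redV O g) := by
  rw [redV, coeffMap_qExpand]

theorem qExpand_ne_zero {R : Type} [CommRing R] {f : LaurentSeries R} (hf : f ≠ 0) :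
    qExpand R N f ≠ 0 := fun h => hf (qExpand_injective N (h.trans (map_zero _).symm))

/-- `q ↦ t^N` preserves the Gauss ring. -/
theorem qExpand_mem_gaussRingV {x : LaurentSeries C} (hx : x ∈ gaussRingV O) :
    qExpand C N x ∈ gaussRingV O := by
  obtain ⟨g, h, hg, hgx⟩ := hx
  refine ⟨qExpand ↥O N g, qExpand ↥O N h, ?_, ?_⟩
  · rw [redV_qExpand]
    exact qExpand_ne_zero N hg
  · rw [iotaV_qExpand, iotaV_qExpand, ← map_mul, hgx]

/-- `q ↦ t^N` commutes with the Gauss reduction. -/
theorem gaussRedV_qExpand (x : gaussRingV O) (h' : qExpand C N (x : LaurentSeries C) ∈ gaussRingV O) :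
    gaussRedV O ⟨qExpand C N (x : LaurentSeries C), h'⟩ = qExpand (kV O) N (gaussRedV O x) := by
  obtain ⟨g, h, hg, hgx⟩ := x.2
  have hg' : redV O (qExpand ↥O N g) ≠ 0 := by
    rw [redV_qExpand]
    exact qExpand_ne_zero N hg
  have hgx' : iotaV O (qExpand ↥O N g) * qExpand C N (x : LaurentSeries C)
      = iotaV O (qExpand ↥O N h) := by
    rw [iotaV_qExpand, iotaV_qExpand, ← map_mul, hgx]
  rw [gaussRedV_eq O x hg hgx, gaussRedV_eq O ⟨_, h'⟩ hg' hgx', map_div₀, redV_qExpand,
    redV_qExpand]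

end QExpandGauss

end Fermat.Agent.RED.H73
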