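import Fermat.Prelude.Def_AlgebraicCurve_Repartitions

/-!
# G-RED / TI route C (helper17), part 1: elementary facts on places

Regularity and vanishing at a place in terms of `Place.adicValuation`, orders of constants, the
value of a regular function at a place of degree one.
-/

set_option autoImplicit false

noncomputable section

open AlgebraicCurve WithZero

namespace Fermat.Agent.RED.H17

variable {K F : Type*} [Field K] [Field F] [Algebra K F]

/-! ### Regular / vanishing at a place -/

/-- `f` is regular at `v`. -/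
def RegAt (v : Place K F) (f : F) : Prop := v.adicValuation f ≤ 1

/-- `f` vanishes at `v`. -/
def VanAt (v : Place K F) (f : F) : Prop := v.adicValuation f < 1

theorem VanAt.regAt {v : Place K F} {f : F} (h : VanAt v f) : RegAt v f := le_of_lt h

theorem regAt_iff_mem (v : Place K F) (f : F) : RegAt v f ↔ f ∈ v.toValuationSubring := by
  constructor
  · intro h
    rcases eq_or_ne f 0 with rfl | hf
    · exact v.toValuationSubring.zero_mem
    have h0 : 0 ≤ v.ord f := by
      rcases (v.adicValuation_le_one_iff).mp h with h1 | h1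
      · exact absurd h1 hf
      · exact h1
    obtain ⟨π, hπ⟩ := IsDiscreteValuationRing.exists_irreducible v.toValuationSubring
    obtain ⟨u, hu⟩ := v.exists_unit_mul_zpow hf hπ
    obtain ⟨n, hn⟩ := Int.eq_ofNat_of_zero_le h0
    rw [hu, hn, zpow_natCast]
    exact v.toValuationSubring.mul_mem _ _ (Subtype.mem _)
      (v.toValuationSubring.pow_mem (Subtype.mem _) n)
  · exact fun h => v.adicValuation_le_one_of_mem h

theorem regAt_iff_ord (v : Place K F) (f : F) : RegAt v f ↔ f = 0 ∨ 0 ≤ v.ord f :=
  v.adicValuation_le_one_iff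

theorem regAt_of_ord_nonneg {v : Place K F} {f : F} (h : 0 ≤ v.ord f) : RegAt v f :=
  (regAt_iff_ord v f).mpr (Or.inr h)

theorem RegAt.ord_nonneg {v : Place K F} {f : F} (h : RegAt v f) : 0 ≤ v.ord f := by
  rcases (regAt_iff_ord v f).mp h with rfl | h1
  · simp
  · exact h1

theorem vanAt_iff_ord (v : Place K F) (f : F) : VanAt v f ↔ f = 0 ∨ 0 < v.ord f := by
  unfold VanAt
  rcases eq_or_ne f 0 with rfl | hf
  · simp
  · rw [v.adicValuation_eq_exp_neg_ord hf, ← exp_zero, exp_lt_exp, or_iff_right hf]
    omega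

theorem vanAt_of_ord_pos {v : Place K F} {f : F} (h : 0 < v.ord f) : VanAt v f :=
  (vanAt_iff_ord v f).mpr (Or.inr h)

theorem VanAt.ord_pos {v : Place K F} {f : F} (h : VanAt v f) (hf : f ≠ 0) : 0 < v.ord f := by
  rcases (vanAt_iff_ord v f).mp h with h1 | h1
  · exact absurd h1 hf
  · exact h1

theorem not_regAt_iff_ord (v : Place K F) (f : F) : ¬ RegAt v f ↔ v.ord f < 0 :=
  v.not_adicValuation_le_one_iff

theorem regAt_zero (v : Place K F) : RegAt v (0 : F) := by simp [RegAt]

theorem vanAt_zero (v : Place K F) : VanAt v (0 : F) := by simp [VanAt]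

theorem regAt_one (v : Place K F) : RegAt v (1 : F) := by simp [RegAt]

theorem regAt_algebraMap (v : Place K F) (c : K) : RegAt v (algebraMap K F c) :=
  v.adicValuation_algebraMap_le_one c

theorem RegAt.add {v : Place K F} {f g : F} (hf : RegAt v f) (hg : RegAt v g) :
    RegAt v (f + g) :=
  (Valuation.map_add _ _ _).trans (max_le hf hg)

theorem RegAt.neg {v : Place K F} {f : F} (hf : RegAt v f) : RegAt v (-f) := by
  unfold RegAt at *
  rwa [Valuation.map_neg]

theorem RegAt.sub {v : Place K F} {f g : F} (hf : RegAt v f) (hg : RegAt v g) :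
    RegAt v (f - g) := by
  rw [sub_eq_add_neg]
  exact hf.add hg.neg

theorem RegAt.mul {v : Place K F} {f g : F} (hf : RegAt v f) (hg : RegAt v g) :
    RegAt v (f * g) := by
  unfold RegAt at *
  rw [map_mul]
  exact mul_le_one' hf hg

theorem RegAt.pow {v : Place K F} {f : F} (hf : RegAt v f) (n : ℕ) : RegAt v (f ^ n) := by
  unfold RegAt at *
  rw [map_pow]
  exact pow_le_one₀ zero_le hf

theorem VanAt.add {v : Place K F} {f g : F} (hf : VanAt v f) (hg : VanAt v g) :
    VanAt v (f + g) :=
  (Valuation.map_add _ _ _).trans_lt (max_lt hf hg)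

theorem VanAt.neg {v : Place K F} {f : F} (hf : VanAt v f) : VanAt v (-f) := by
  unfold VanAt at *
  rwa [Valuation.map_neg]

theorem VanAt.sub {v : Place K F} {f g : F} (hf : VanAt v f) (hg : VanAt v g) :
    VanAt v (f - g) := by
  rw [sub_eq_add_neg]
  exact hf.add hg.neg

theorem VanAt.mul_regAt {v : Place K F} {f g : F} (hf : VanAt v f) (hg : RegAt v g) :
    VanAt v (f * g) := by
  unfold VanAt RegAt at *
  rw [map_mul]
  exact mul_lt_one_of_lt_of_le hf hg

theorem RegAt.mul_vanAt {v : Place K F} {f g : F} (hf : RegAt v f) (hg : VanAt v g) :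
    VanAt v (f * g) := by
  rw [mul_comm]
  exact hg.mul_regAt hf

/-! ### Constants -/

theorem adicValuation_algebraMap (v : Place K F) {c : K} (hc : c ≠ 0) :
    v.adicValuation (algebraMap K F c) = 1 := by
  apply le_antisymm (v.adicValuation_algebraMap_le_one c)
  have h1 := v.adicValuation_algebraMap_le_one c⁻¹
  have h2 : v.adicValuation (algebraMap K F c) * v.adicValuation (algebraMap K F c⁻¹) = 1 := by
    rw [← map_mul, ← map_mul, mul_inv_cancel₀ hc, map_one, map_one]
  calc (1 : ℤᵐ⁰) = v.adicValuation (algebraMap K F c) * v.adicValuation (algebraMap K F c⁻¹) :=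
        h2.symm
    _ ≤ v.adicValuation (algebraMap K F c) * 1 := by gcongr
    _ = v.adicValuation (algebraMap K F c) := mul_one _

theorem ord_algebraMap (v : Place K F) (c : K) : v.ord (algebraMap K F c) = 0 := by
  rcases eq_or_ne c 0 with rfl | hc
  · simp
  · simp [Place.ord, adicValuation_algebraMap v hc]

theorem not_vanAt_algebraMap (v : Place K F) {c : K} (hc : c ≠ 0) :
    ¬ VanAt v (algebraMap K F c) := by
  unfold VanAt
  rw [adicValuation_algebraMap v hc]
  exact lt_irrefl _

theorem ord_algebraMap_mul (v : Place K F) {c : K} (hc : c ≠ 0) (f : F) :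
    v.ord (algebraMap K F c * f) = v.ord f := by
  rcases eq_or_ne f 0 with rfl | hf
  · simp
  · rw [v.ord_mul ((map_ne_zero_iff _ (algebraMap K F).injective).mpr hc) hf, ord_algebraMap,
      zero_add]

/-! ### Orders and the ultrametric inequality -/

theorem le_ord_iff (v : Place K F) {f : F} (hf : f ≠ 0) (n : ℤ) :
    n ≤ v.ord f ↔ v.adicValuation f ≤ exp (-n) := by
  rw [v.adicValuation_le_exp_iff, or_iff_right hf, neg_neg]

theorem le_ord_add (v : Place K F) {f g : F} {n : ℤ} (hf : f = 0 ∨ n ≤ v.ord f)
    (hg : g = 0 ∨ n ≤ v.ord g) : f + g = 0 ∨ n ≤ v.ord (f + g) := by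
  have h1 : v.adicValuation f ≤ exp (-n) := by
    rw [v.adicValuation_le_exp_iff, neg_neg]; exact hf
  have h2 : v.adicValuation g ≤ exp (-n) := by
    rw [v.adicValuation_le_exp_iff, neg_neg]; exact hg
  have h3 : v.adicValuation (f + g) ≤ exp (-n) :=
    (Valuation.map_add _ _ _).trans (max_le h1 h2)
  rw [v.adicValuation_le_exp_iff, neg_neg] at h3
  exact h3

/-- Poles dominate: if `f` has a pole at `v` and `g` is regular, then `ord (f + g) = ord f`. -/
theorem ord_add_of_lt (v : Place K F) {f g : F} (hf : f ≠ 0) (hg : g = 0 ∨ v.ord f < v.ord g) :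
    v.ord (f + g) = v.ord f := by
  rcases eq_or_ne g 0 with rfl | hg0
  · rw [add_zero]
  have hlt : v.ord f < v.ord g := hg.resolve_left hg0
  have h1 : v.adicValuation g < v.adicValuation f := by
    rw [v.adicValuation_eq_exp_neg_ord hf, v.adicValuation_eq_exp_neg_ord hg0, exp_lt_exp]
    omega
  have h2 : v.adicValuation (f + g) = v.adicValuation f := by
    rw [add_comm]
    exact Valuation.map_add_eq_of_lt_right _ h1
  have hfg : f + g ≠ 0 := by
    intro h0
    rw [h0, map_zero] at h2
    exact v.adicValuation_ne_zero hf h2.symm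
  simp only [Place.ord, h2]

theorem ord_div (v : Place K F) {f g : F} (hf : f ≠ 0) (hg : g ≠ 0) :
    v.ord (f / g) = v.ord f - v.ord g := by
  rw [div_eq_mul_inv, v.ord_mul hf (inv_ne_zero hg), v.ord_inv]
  ring

theorem ord_pow (v : Place K F) (f : F) (n : ℕ) : v.ord (f ^ n) = n * v.ord f := by
  have := v.ord_zpow f n
  rwa [zpow_natCast] at this

/-! ### The value at a place of degree one -/

/-- At a place of degree one, a regular function takes a value in `K`. -/
theorem exists_value (v : Place K F) (hdeg : v.deg = 1) {f : F} (hf : RegAt v f) :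
    ∃ c : K, VanAt v (f - algebraMap K F c) := by
  have hmem : f ∈ v.toValuationSubring := (regAt_iff_mem v f).mp hf
  have h1 : (⊥ : Subalgebra K v.ResidueField) = ⊤ :=
    Subalgebra.bot_eq_top_of_finrank_eq_one hdeg
  have h2 : IsLocalRing.residue v.toValuationSubring ⟨f, hmem⟩ ∈
      (⊥ : Subalgebra K v.ResidueField) := by
    rw [h1]
    exact Algebra.mem_top
  obtain ⟨a, ha⟩ := Algebra.mem_bot.mp h2
  refine ⟨a, ?_⟩
  have hmem' : f - algebraMap K F a ∈ v.toValuationSubring :=
    v.toValuationSubring.sub_mem hmem (v.algebraMap_mem' a)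
  have hmax : (⟨f - algebraMap K F a, hmem'⟩ : v.toValuationSubring) ∈
      IsLocalRing.maximalIdeal v.toValuationSubring := by
    rw [← IsLocalRing.residue_eq_zero_iff]
    have h3 : (⟨f - algebraMap K F a, hmem'⟩ : v.toValuationSubring)
        = ⟨f, hmem⟩ - algebraMap K v.toValuationSubring a := by
      ext
      rfl
    rw [h3, map_sub, sub_eq_zero, ← ha]
    rfl
  unfold VanAt
  have h4 := v.adicValuation_coe ⟨f - algebraMap K F a, hmem'⟩
  rw [show ((⟨f - algebraMap K F a, hmem'⟩ : v.toValuationSubring) : F)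
    = f - algebraMap K F a from rfl] at h4
  rw [h4]
  exact (IsDedekindDomain.HeightOneSpectrum.intValuation_lt_one_iff_mem _ _).mpr hmax

theorem value_unique (v : Place K F) {f : F} {a b : K}
    (ha : VanAt v (f - algebraMap K F a)) (hb : VanAt v (f - algebraMap K F b)) : a = b := by
  by_contra hab
  have h := ha.sub hb
  have h2 : f - algebraMap K F a - (f - algebraMap K F b) = algebraMap K F (b - a) := by
    rw [map_sub]; ring
  rw [h2] at h
  exact not_vanAt_algebraMap v (sub_ne_zero.mpr (Ne.symm hab)) h

/-- A function with a pole has no value. -/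
theorem RegAt.of_vanAt_sub {v : Place K F} {f : F} {a : K}
    (h : VanAt v (f - algebraMap K F a)) : RegAt v f := by
  have := h.regAt.add (regAt_algebraMap v a)
  rwa [sub_add_cancel] at this

end Fermat.Agent.RED.H17
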