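import Fermat.Agent.RED.H51_NDDefs

/-!
# G-RED package NDESC, leaf NORMRED (helper10): the norm commutes with reduction

`F ⊆ F'` finite, valuation rings `V = V' ∩ F`, residue maps `red : V → Ft`, `red' : V' → Ft'`
(`red'` surjective with kernel the non-units), compatible, and `[F' : F] = [Ft' : Ft]`.

* `nraInc`        : the inclusion `V → V'`;
* `nra_aux`       : the scaling argument (a relation scaled by its largest coefficient reduces
                    to a relation with a coefficient `1`);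
* `nra_li`        : lifts of an `Ft`-independent family are `F`-independent;
* `nra_coord`     : the coordinates of an element of `V'` in such a family lie in `V`;
* `stmt_NormRedAbs` : `H51.Stmt_NormRedAbs`.
-/

set_option autoImplicit false

noncomputable section

namespace Fermat.Agent.RED.H10

section NormRedAbs

variable {F F' Ft Ft' : Type} [Field F] [Field F'] [Field Ft] [Field Ft'] [Algebra F F']
  [Algebra Ft Ft']
variable {V : ValuationSubring F} {V' : ValuationSubring F'}
variable {red : ↥V →+* Ft} {red' : ↥V' →+* Ft'}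

/-- The inclusion `V → V'`. -/
def nraInc (hV : ∀ a : F, a ∈ V ↔ algebraMap F F' a ∈ V') : ↥V →+* ↥V' :=
  ((algebraMap F F').comp V.subtype).codRestrict V' (fun a => (hV a).1 a.2)

@[simp] theorem coe_nraInc (hV : ∀ a : F, a ∈ V ↔ algebraMap F F' a ∈ V') (a : ↥V) :
    ((nraInc hV a : ↥V') : F') = algebraMap F F' (a : F) := rfl

theorem red'_nraInc (hV : ∀ a : F, a ∈ V ↔ algebraMap F F' a ∈ V')
    (hcompat : ∀ (a : ↥V) (ha : algebraMap F F' (a : F) ∈ V'),
      red' ⟨algebraMap F F' (a : F), ha⟩ = algebraMap Ft Ft' (red a)) (a : ↥V) :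
    red' (nraInc hV a) = algebraMap Ft Ft' (red a) :=
  hcompat a _

theorem red'_sum (hV : ∀ a : F, a ∈ V ↔ algebraMap F F' a ∈ V')
    (hcompat : ∀ (a : ↥V) (ha : algebraMap F F' (a : F) ∈ V'),
      red' ⟨algebraMap F F' (a : F), ha⟩ = algebraMap Ft Ft' (red a))
    {ι : Type} [Fintype ι] (B : ι → ↥V') (a : ι → ↥V) :
    red' (∑ i, nraInc hV (a i) * B i) = ∑ i, red (a i) • red' (B i) := by
  rw [map_sum]
  refine Finset.sum_congr rfl fun i _ => ?_
  rw [map_mul, red'_nraInc hV hcompat, Algebra.smul_def]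

/-- The scaling argument. -/
theorem nra_aux (hV : ∀ a : F, a ∈ V ↔ algebraMap F F' a ∈ V')
    (hcompat : ∀ (a : ↥V) (ha : algebraMap F F' (a : F) ∈ V'),
      red' ⟨algebraMap F F' (a : F), ha⟩ = algebraMap Ft Ft' (red a))
    {ι : Type} [Fintype ι] (B : ι → ↥V')
    (hli : LinearIndependent Ft (fun i => red' (B i)))
    (c : ι → F) (j : ι) (hj : c j ≠ 0) (hmax : ∀ i, V.valuation (c i) ≤ V.valuation (c j))
    (h : (c j)⁻¹ • ∑ i, c i • ((B i : ↥V') : F') ∈ V') :
    red' ⟨(c j)⁻¹ • ∑ i, c i • ((B i : ↥V') : F'), h⟩ ≠ 0 := by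
  intro h0
  have hvj : V.valuation (c j) ≠ 0 := (Valuation.ne_zero_iff _).2 hj
  have hmem : ∀ i, c i / c j ∈ V := by
    intro i
    rw [← ValuationSubring.valuation_le_one_iff, map_div₀]
    exact (div_le_one₀ (zero_lt_iff.2 hvj)).2 (hmax i)
  let a : ι → ↥V := fun i => ⟨c i / c j, hmem i⟩
  have hsum : (∑ i, nraInc hV (a i) * B i : ↥V') =
      ⟨(c j)⁻¹ • ∑ i, c i • ((B i : ↥V') : F'), h⟩ := by
    apply Subtype.ext
    simp only [AddSubmonoidClass.coe_finsetSum, MulMemClass.coe_mul, coe_nraInc]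
    rw [Finset.smul_sum]
    refine Finset.sum_congr rfl fun i _ => ?_
    simp only [a, Algebra.smul_def, map_div₀, map_inv₀]
    field_simp
  have h1 : ∑ i, red (a i) • red' (B i) = 0 := by
    rw [← red'_sum hV hcompat, hsum, h0]
  have h2 := Fintype.linearIndependent_iff.1 hli _ h1 j
  have h3 : a j = 1 := Subtype.ext (div_self hj)
  rw [h3, map_one] at h2
  exact one_ne_zero h2

theorem exists_max_val {ι : Type} [Fintype ι] [Nonempty ι] (V : ValuationSubring F)
    (c : ι → F) : ∃ j, ∀ i, V.valuation (c i) ≤ V.valuation (c j) := by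
  obtain ⟨j, -, hj⟩ := Finset.exists_max_image Finset.univ (fun i => V.valuation (c i))
    Finset.univ_nonempty
  exact ⟨j, fun i => hj i (Finset.mem_univ i)⟩

/-- Lifts of an `Ft`-independent family are `F`-independent. -/
theorem nra_li (hV : ∀ a : F, a ∈ V ↔ algebraMap F F' a ∈ V')
    (hcompat : ∀ (a : ↥V) (ha : algebraMap F F' (a : F) ∈ V'),
      red' ⟨algebraMap F F' (a : F), ha⟩ = algebraMap Ft Ft' (red a))
    {ι : Type} [Fintype ι] (B : ι → ↥V')
    (hli : LinearIndependent Ft (fun i => red' (B i))) :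
    LinearIndependent F (fun i => ((B i : ↥V') : F')) := by
  rw [Fintype.linearIndependent_iff]
  intro c hc
  by_contra hne
  push Not at hne
  obtain ⟨i₀, hi₀⟩ := hne
  have : Nonempty ι := ⟨i₀⟩
  obtain ⟨j, hj⟩ := exists_max_val V c
  have hcj : c j ≠ 0 := by
    intro h0
    have := hj i₀
    rw [h0, map_zero, le_zero_iff, Valuation.zero_iff] at this
    exact hi₀ this
  have h : (c j)⁻¹ • ∑ i, c i • ((B i : ↥V') : F') ∈ V' := by
    rw [hc, smul_zero]; exact zero_mem _
  refine nra_aux hV hcompat B hli c j hcj hj h ?_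
  have : (⟨(c j)⁻¹ • ∑ i, c i • ((B i : ↥V') : F'), h⟩ : ↥V') = 0 := by
    apply Subtype.ext
    simp [hc]
  rw [this, map_zero]

/-- The coordinates of an element of `V'` in a lifted independent family lie in `V`. -/
theorem nra_coord (hV : ∀ a : F, a ∈ V ↔ algebraMap F F' a ∈ V')
    (hker : ∀ a : ↥V', red' a = 0 ↔ ¬ IsUnit a)
    (hcompat : ∀ (a : ↥V) (ha : algebraMap F F' (a : F) ∈ V'),
      red' ⟨algebraMap F F' (a : F), ha⟩ = algebraMap Ft Ft' (red a))
    {ι : Type} [Fintype ι] (B : ι → ↥V')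
    (hli : LinearIndependent Ft (fun i => red' (B i)))
    (c : ι → F) (g : F') (hg : g ∈ V') (hsum : ∑ i, c i • ((B i : ↥V') : F') = g) (i : ι) :
    c i ∈ V := by
  by_contra hne
  have : Nonempty ι := ⟨i⟩
  obtain ⟨j, hj⟩ := exists_max_val V c
  have hcjV : c j ∉ V := by
    intro hmem
    apply hne
    rw [← ValuationSubring.valuation_le_one_iff] at hmem ⊢
    exact (hj i).trans hmem
  have hcj : c j ≠ 0 := by
    intro h0
    exact hcjV (h0 ▸ zero_mem _)
  have hinv : (c j)⁻¹ ∈ V := (V.mem_or_inv_mem (c j)).resolve_left hcjV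
  have hinv' : algebraMap F F' (c j)⁻¹ ∈ V' := (hV _).1 hinv
  have h : (c j)⁻¹ • ∑ i, c i • ((B i : ↥V') : F') ∈ V' := by
    rw [hsum, Algebra.smul_def]
    exact mul_mem hinv' hg
  refine nra_aux hV hcompat B hli c j hcj hj h ?_
  rw [hker]
  rintro ⟨u, hu⟩
  apply hcjV
  rw [hV]
  have h1 : (((u : ↥V') : F') * ((u⁻¹ : (↥V')ˣ) : ↥V')) = 1 := by
    rw [← MulMemClass.coe_mul, Units.mul_inv]; rfl
  have h2 : ((u : ↥V') : F') = algebraMap F F' (c j)⁻¹ * g := by
    rw [hu]
    show (c j)⁻¹ • ∑ i, c i • ((B i : ↥V') : F') = _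
    rw [hsum, Algebra.smul_def]
  have h3 : algebraMap F F' (c j) = g * ((u⁻¹ : (↥V')ˣ) : ↥V') := by
    rw [h2, map_inv₀] at h1
    have hne' : algebraMap F F' (c j) ≠ 0 := by
      rwa [Ne, map_eq_zero]
    field_simp at h1
    exact h1.symm
  rw [h3]
  exact mul_mem hg (SetLike.coe_mem _)

end NormRedAbs

/-- **The norm commutes with reduction**, when the residue degree equals the degree. -/
theorem stmt_NormRedAbs : Fermat.Agent.RED.H51.Stmt_NormRedAbs := by
  intro F F' Ft Ft' _ _ _ _ _ _ _ V V' red red' hV hsurj hker hcompat hrank f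
  classical
  have hpos : 0 < Module.finrank Ft Ft' := by
    rw [← hrank]; exact Module.finrank_pos
  have : Module.Finite Ft Ft' := Module.finite_of_finrank_pos hpos
  let b := Module.finBasis Ft Ft'
  choose B hB using fun i => hsurj (b i)
  have hli : LinearIndependent Ft (fun i => red' (B i)) := by
    have : (fun i => red' (B i)) = b := funext hB
    rw [this]; exact b.linearIndependent
  have hliF := nra_li hV hcompat B hli
  have : Nonempty (Fin (Module.finrank Ft Ft')) := ⟨⟨0, hpos⟩⟩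
  let BF : Module.Basis (Fin (Module.finrank Ft Ft')) F F' :=
    basisOfLinearIndependentOfCardEqFinrank hliF (by rw [Fintype.card_fin, hrank])
  have hBF : ∀ i, BF i = ((B i : ↥V') : F') := fun i => by
    simp [BF]
  have hcoord : ∀ g : F', g ∈ V' → ∀ i, BF.repr g i ∈ V := by
    intro g hg i
    refine nra_coord hV hker hcompat B hli (fun i => BF.repr g i) g hg ?_ i
    have := BF.sum_repr g
    simpa only [hBF] using this
  let M₀ : Matrix (Fin (Module.finrank Ft Ft')) (Fin (Module.finrank Ft Ft')) ↥V :=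
    Matrix.of fun i j => ⟨BF.repr ((f : F') * BF j) i,
      hcoord _ (by rw [hBF]; exact mul_mem f.2 (B j).2) i⟩
  have hM1 : V.subtype.mapMatrix M₀ = Algebra.leftMulMatrix BF (f : F') := by
    refine Matrix.ext fun i j => ?_
    rw [Algebra.leftMulMatrix_eq_repr_mul]
    rfl
  have hM2 : red.mapMatrix M₀ = Algebra.leftMulMatrix b (red' f) := by
    refine Matrix.ext fun i j => ?_
    rw [Algebra.leftMulMatrix_eq_repr_mul]
    have h1 : f * B j = ∑ i, nraInc hV (M₀ i j) * B i := by
      apply Subtype.ext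
      simp only [AddSubmonoidClass.coe_finsetSum, MulMemClass.coe_mul, coe_nraInc]
      have := (BF.sum_repr ((f : F') * BF j)).symm
      simp only [hBF] at this
      rw [this]
      refine Finset.sum_congr rfl fun i _ => ?_
      rw [Algebra.smul_def]
      simp only [M₀, Matrix.of_apply, hBF]
    have h2 : red' f * b j = ∑ i, red (M₀ i j) • b i := by
      rw [← hB j, ← map_mul, h1, red'_sum hV hcompat]
      simp only [hB]
    rw [h2, Module.Basis.repr_sum_self]
    rfl
  have hd : ((M₀.det : ↥V) : F) = Algebra.norm F (f : F') := by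
    rw [Algebra.norm_eq_matrix_det BF, ← hM1, ← RingHom.map_det]
    rfl
  have hmem : Algebra.norm F (f : F') ∈ V := hd ▸ SetLike.coe_mem _
  refine ⟨hmem, ?_⟩
  have hd' : (⟨Algebra.norm F (f : F'), hmem⟩ : ↥V) = M₀.det := Subtype.ext hd.symm
  rw [hd', Algebra.norm_eq_matrix_det b, ← hM2, ← RingHom.map_det]

end Fermat.Agent.RED.H10
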