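import Fermat.Agent.RED.H36_FinAbs
import Fermat.Agent.RED.H73_GAFinal
import Fermat.Agent.RED.H42_RiemannFinal
import Fermat.Agent.S37.H36_Wiring
import Fermat.Agent.Lib.FrobExists

/-!
# G-RED, FIN (helper36): `RedPackage` (hence S37) from the packages

`redPackage_of` : `Stmt_RM → Stmt_EQ → Stmt_ES3 → Stmt_TIcore → Stmt_HKA →`
`∀ N p ℓ A, ℓ ∤ N p → RedPackage N p ℓ A`.

`red : J₀(N) → Pic(F~_N)`, `[D] ↦ [r_* D]`; inertia invariance and stability of the kernel under
Frobenius by equivariance of `r` (`Stmt_EQ`), injectivity on `p`-power torsion by `TIcoreFor`,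
Eichler–Shimura by `Stmt_ES3`.
-/

set_option autoImplicit false
set_option synthInstance.maxHeartbeats 400000
set_option maxHeartbeats 1000000

noncomputable section

open AlgebraicCurve ModularCurve Fermat.Agent.S28.H73 Fermat.Agent.RED.H73

namespace Fermat.Agent.RED.H36

section Abs

variable {K F : Type*} [Field K] [Field F] [Algebra K F]

/-- A semilinear automorphism acting trivially on the field fixes every place. -/
theorem smul_place_eq_of_forall (gt : SemilinearAut K F) (hgt : ∀ x : F, gt • x = x)
    (Q : Place K F) : gt • Q = Q := by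
  apply Place.ext
  rw [SemilinearAut.smul_toValuationSubring]
  ext x
  rw [ValuationSubring.mem_pointwise_smul_iff_inv_smul_mem]
  have : gt⁻¹ • x = x := by rw [inv_smul_eq_iff, hgt]
  rw [this]

/-- A semilinear automorphism acting trivially on the field fixes every divisor. -/
theorem smul_divisor_eq_of_forall (gt : SemilinearAut K F) (hgt : ∀ x : F, gt • x = x)
    (D : Divisor K F) : gt • D = D := by
  rw [SemilinearAut.divisor_smul_def]
  have : (fun Q : Place K F => gt • Q) = id := funext fun Q => smul_place_eq_of_forall gt hgt Q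
  rw [this, Finsupp.mapDomain_id]

end Abs

section Abs2

variable {C : Type} [Field C] (O : ValuationSubring C)
variable {F : IntermediateField C (LaurentSeries C)} (h : HasScale O F)
variable {r : Place C ↥F → Place (kV O) ↥(redField O F h)}

/-- Equivariance of `r` on divisors. -/
theorem mapDomain_smul_eq (g : SemilinearAut C ↥F) (gt : SemilinearAut (kV O) ↥(redField O F h))
    (hgr : ∀ P : Place C ↥F, r (g • P) = gt • r P) (D : Divisor C ↥F) :
    Finsupp.mapDomain r (g • D) = gt • Finsupp.mapDomain r D := by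
  rw [SemilinearAut.divisor_smul_def, SemilinearAut.divisor_smul_def,
    ← Finsupp.mapDomain_comp, ← Finsupp.mapDomain_comp]
  congr 1
  funext P
  exact hgr P

/-- Functions without zeros and poles on a function field over an algebraically closed field
are constant. -/
theorem const_of_ord_eq_zero {k E : Type} [Field k] [Field E] [Algebra k E] [IsAlgClosed k]
    (hE : IsFF k E) (g : E) (_hg : g ≠ 0) (hord : ∀ Q : Place k E, Q.ord g = 0) :
    ∃ c : k, g = algebraMap k E c := by
  have hle := (H42.stmt_FFR_le k E hE (0 : Divisor k E)).2 (by simp)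
  haveI := H42.stmt_FFR_finite k E hE (0 : Divisor k E)
  have h1 : (1 : E) ∈ riemannRochSpace (0 : Divisor k E) := by
    rw [mem_riemannRochSpace_iff]
    intro v
    right
    simp
  have hgm : g ∈ riemannRochSpace (0 : Divisor k E) := by
    rw [mem_riemannRochSpace_iff]
    intro v
    right
    simp [hord v]
  have hfr : Module.finrank k (riemannRochSpace (0 : Divisor k E)) ≤ 1 := by
    have : (Module.finrank k (riemannRochSpace (0 : Divisor k E)) : ℤ) ≤ 0 + 1 := by
      simpa using hle
    omega
  -- `1` spans `L(0)`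
  have h10 : (⟨1, h1⟩ : riemannRochSpace (0 : Divisor k E)) ≠ 0 := by
    intro h0
    exact one_ne_zero (congrArg Subtype.val h0)
  obtain ⟨c, hc⟩ := (finrank_le_one_iff (K := k)
    (V := riemannRochSpace (0 : Divisor k E))).1 hfr
  obtain ⟨a, ha⟩ := hc ⟨1, h1⟩
  obtain ⟨b, hb⟩ := hc ⟨g, hgm⟩
  have ha0 : a ≠ 0 := by
    rintro rfl
    rw [zero_smul] at ha
    exact h10 ha.symm
  refine ⟨b * a⁻¹, ?_⟩
  have e1 : (1 : E) = a • (c : E) := by
    have := congrArg Subtype.val ha
    simpa using this.symm
  have e2 : g = b • (c : E) := by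
    have := congrArg Subtype.val hb
    simpa using this.symm
  have e3 : (c : E) = a⁻¹ • (1 : E) := by
    rw [e1, smul_smul, inv_mul_cancel₀ ha0, one_smul]
  rw [e2, e3, smul_smul, Algebra.algebraMap_eq_smul_one]

end Abs2

section Main

open Fermat.Agent.S37

/-- Coefficientwise description of equality in the reduced field. -/
theorem redField_ext {C : Type} [Field C] {O : ValuationSubring C}
    {F : IntermediateField C (LaurentSeries C)} {h : HasScale O F}
    {x y : ↥(redField O F h)}
    (hxy : ∀ n : ℤ, (x : LaurentSeries (kV O)).coeff n = (y : LaurentSeries (kV O)).coeff n) :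
    x = y :=
  Subtype.ext (HahnSeries.ext (funext hxy))

/-- **FIN**: the reduction package `RedPackage N p ℓ A` from the G-RED packages. -/
theorem redPackage_of (hRM : Stmt_RM) (hEQ : Stmt_EQ) (hES : Stmt_ES3) (hTI : Stmt_TIcore)
    (hHKA : Stmt_HKA) (N p ℓ : ℕ) [NeZero N] [NeZero ℓ] (hℓ : ℓ.Prime) (hNp : ¬ ℓ ∣ N * p)
    (A : ValuationSubring (AlgebraicClosure ℚ)) (hA : A.LiesOverPrime ℓ) :
    RedPackage N p ℓ A := by
  classical
  have hN : ¬ ℓ ∣ N := fun hd => hNp (Dvd.dvd.mul_right hd p)
  have hp : ¬ ℓ ∣ p := fun hd => hNp (Dvd.dvd.mul_left hd N)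
  obtain ⟨r, hr, hmove⟩ := hRM N ℓ hℓ hN A hA
  obtain ⟨σ₀, hσ₀⟩ := Fermat.Agent.Lib.FrobExists.exists_isFrobeniusAt ℓ hℓ A hA
  haveI : IsAlgClosed (kV A) := isAlgClosed_kV A
  have hFt := isFF_redField_bar N ℓ hℓ hN A hA
  obtain ⟨hα, hβ, hP, hfin, hFI, hNF⟩ := hHKA N ℓ
  -- the Frobenius
  obtain ⟨gt, hgt_coeff, hgt_r⟩ := hEQ N ℓ hℓ hN A hA r hr σ₀ hσ₀.mem_decompositionSubgroup
  have hφ : ∀ (x : ↥(redField A (modularFunctionFieldBar N) (hasScale_laurentBaseChange A N)))
      (n : ℤ),
      ((gt • x : ↥(redField A (modularFunctionFieldBar N)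
          (hasScale_laurentBaseChange A N))) : LaurentSeries (kV A)).coeff n
        = ((x : LaurentSeries (kV A)).coeff n) ^ ℓ := by
    intro x n
    rw [hgt_coeff x n, hσ₀.smul_residue_eq]
  have hES' := @hES N ℓ _ _ hℓ hN A hA hα hβ hP r hr hmove gt hφ
  refine ⟨Pic (kV A) ↥(redField A (modularFunctionFieldBar N) (hasScale_laurentBaseChange A N)),
    inferInstance, redPic A (hasScale_laurentBaseChange A N) hr, σ₀, hσ₀, ?_, ?_, ?_, ?_⟩
  · -- inertia invariance
    intro τ hτ x
    obtain ⟨D, rfl⟩ := Pic0.mk_surjective x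
    obtain ⟨τ', hτ', rfl⟩ := Subgroup.mem_map.1 hτ
    have hker : ∀ c : kV A, τ' • c = c := by
      intro c
      have h1 := MonoidHom.mem_ker.1 hτ'
      have h2 := DFunLike.congr_fun h1 c
      exact h2
    obtain ⟨gτ, hgτ_coeff, hgτ_r⟩ := hEQ N ℓ hℓ hN A hA r hr τ'.1 τ'.2
    have hgτ : ∀ x : ↥(redField A (modularFunctionFieldBar N)
        (hasScale_laurentBaseChange A N)), gτ • x = x := by
      intro x
      refine redField_ext fun n => ?_
      rw [hgτ_coeff x n]
      exact hker _
    have e : Finsupp.mapDomain r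
        (arithmeticGalois (modularFunctionFieldFull N) (τ' : AlgebraicClosure ℚ ≃ₐ[ℚ] AlgebraicClosure ℚ)
          • (D : Divisor (AlgebraicClosure ℚ) ↥(modularFunctionFieldBar N)))
        = Finsupp.mapDomain r (D : Divisor (AlgebraicClosure ℚ) ↥(modularFunctionFieldBar N)) := by
      rw [mapDomain_smul_eq A (hasScale_laurentBaseChange A N) _ gτ hgτ_r,
        smul_divisor_eq_of_forall gτ hgτ]
    show (QuotientAddGroup.mk (Finsupp.mapDomain r
        (arithmeticGalois (modularFunctionFieldFull N) (τ' : AlgebraicClosure ℚ ≃ₐ[ℚ] AlgebraicClosure ℚ)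
          • (D : Divisor (AlgebraicClosure ℚ) ↥(modularFunctionFieldBar N)))) :
        Pic (kV A) ↥(redField A (modularFunctionFieldBar N) (hasScale_laurentBaseChange A N)))
      = QuotientAddGroup.mk (Finsupp.mapDomain r
          (D : Divisor (AlgebraicClosure ℚ) ↥(modularFunctionFieldBar N)))
    rw [e]
  · -- the kernel is stable under Frobenius
    intro x hx
    obtain ⟨D, rfl⟩ := Pic0.mk_surjective x
    rw [redPic_mk_eq_zero_iff] at hx
    have e : Finsupp.mapDomain r
        (arithmeticGalois (modularFunctionFieldFull N) σ₀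
          • (D : Divisor (AlgebraicClosure ℚ) ↥(modularFunctionFieldBar N)))
        = gt • Finsupp.mapDomain r
            (D : Divisor (AlgebraicClosure ℚ) ↥(modularFunctionFieldBar N)) :=
      mapDomain_smul_eq A (hasScale_laurentBaseChange A N) _ gt hgt_r _
    show (QuotientAddGroup.mk (Finsupp.mapDomain r
        (arithmeticGalois (modularFunctionFieldFull N) σ₀
          • (D : Divisor (AlgebraicClosure ℚ) ↥(modularFunctionFieldBar N)))) :
        Pic (kV A) ↥(redField A (modularFunctionFieldBar N) (hasScale_laurentBaseChange A N)))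
      = 0
    rw [e, QuotientAddGroup.eq_zero_iff]
    exact SemilinearAut.smul_mem_principal gt hx
  · -- injectivity on `p`-power torsion
    rintro x ⟨n, hn⟩ hx
    refine redPic_eq_zero_of_TIcore A (hasScale_laurentBaseChange A N) hr
      (hTI N ℓ hℓ hN A hA) (fun g hg hord => const_of_ord_eq_zero hFt g hg hord)
      (p ^ n) (fun hd => hp (hℓ.dvd_of_dvd_pow hd)) x hn hx
  · -- Eichler–Shimura
    intro x
    obtain ⟨D, rfl⟩ := Pic0.mk_surjective x
    rw [heckeOperatorAlong_eq hα hβ hFI hfin hNF]
    show redPic A (hasScale_laurentBaseChange A N) hr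
      (Pic0.mk (SemilinearAut.degZeroSMulHom (arithmeticGalois (modularFunctionFieldFull N) σ₀)
          (SemilinearAut.degZeroSMulHom (arithmeticGalois (modularFunctionFieldFull N) σ₀) D))
        - Pic0.mk (Pic0.degZeroCorrespondence (heckeBetaBar (AlgebraicClosure ℚ) N ℓ)
            (heckeAlphaBar (AlgebraicClosure ℚ) N ℓ) hβ hα hFI
            (SemilinearAut.degZeroSMulHom (arithmeticGalois (modularFunctionFieldFull N) σ₀) D))
        + ℓ • Pic0.mk D) = 0
    rw [map_add, map_sub, map_nsmul]
    show (QuotientAddGroup.mk (Finsupp.mapDomain r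
          (arithmeticGalois (modularFunctionFieldFull N) σ₀ •
            arithmeticGalois (modularFunctionFieldFull N) σ₀ •
              (D : Divisor (AlgebraicClosure ℚ) ↥(modularFunctionFieldBar N)))) :
        Pic (kV A) ↥(redField A (modularFunctionFieldBar N) (hasScale_laurentBaseChange A N)))
      - QuotientAddGroup.mk (Finsupp.mapDomain r
          (Divisor.correspondence (heckeBetaBar (AlgebraicClosure ℚ) N ℓ)
            (heckeAlphaBar (AlgebraicClosure ℚ) N ℓ) hβ hα
            (arithmeticGalois (modularFunctionFieldFull N) σ₀ •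
              (D : Divisor (AlgebraicClosure ℚ) ↥(modularFunctionFieldBar N)))))
      + ℓ • QuotientAddGroup.mk (Finsupp.mapDomain r
          (D : Divisor (AlgebraicClosure ℚ) ↥(modularFunctionFieldBar N))) = 0
    have e1 := mapDomain_smul_eq A (hasScale_laurentBaseChange A N)
      (arithmeticGalois (modularFunctionFieldFull N) σ₀) gt hgt_r (D : Divisor _ _)
    have e2 := mapDomain_smul_eq A (hasScale_laurentBaseChange A N)
      (arithmeticGalois (modularFunctionFieldFull N) σ₀) gt hgt_r
      (arithmeticGalois (modularFunctionFieldFull N) σ₀ • (D : Divisor _ _))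
    have e3 := hES' (arithmeticGalois (modularFunctionFieldFull N) σ₀ • (D : Divisor _ _))
    rw [e1] at e2 e3
    rw [inv_smul_smul] at e3
    have e3' : Finsupp.mapDomain r
        (Divisor.correspondence (heckeBetaBar (AlgebraicClosure ℚ) N ℓ)
          (heckeAlphaBar (AlgebraicClosure ℚ) N ℓ) hβ hα
          (arithmeticGalois (modularFunctionFieldFull N) σ₀ • (D : Divisor _ _)))
        = gt • gt • Finsupp.mapDomain r (D : Divisor _ _)
          + ℓ • Finsupp.mapDomain r (D : Divisor _ _) := e3
    rw [e2, e3']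
    rw [← QuotientAddGroup.mk_sub, ← QuotientAddGroup.mk_nsmul, ← QuotientAddGroup.mk_add]
    rw [QuotientAddGroup.eq_zero_iff]
    have : gt • gt • Finsupp.mapDomain r (D : Divisor _ _)
        - (gt • gt • Finsupp.mapDomain r (D : Divisor _ _)
          + ℓ • Finsupp.mapDomain r (D : Divisor _ _))
        + ℓ • Finsupp.mapDomain r (D : Divisor _ _) = 0 := by abel
    rw [this]
    exact AddSubgroup.zero_mem _

end Main

end Fermat.Agent.RED.H36
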