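/-
G-RED, package ES-3 (helper52): the Frobenius side `Ψ = φ r_* + ℓ φ⁻¹ r_*` of Eichler-Shimura on
divisors: additivity, values on points, positivity, degree, locality (hypotheses `(pos)`,
`(deg)`, `(loc)` of ES-3b, `Fermat.Agent.RED.Stmt_ES3b`).
-/
import Fermat.Prelude.Def_AlgebraicCurve_BaseChangeGalois

set_option autoImplicit false

noncomputable section

open AlgebraicCurve

namespace Fermat.Agent.RED.H52

variable {K F : Type*} [Field K] [Field F] [Algebra K F] {X : Type*}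

/-- `Ψ D = φ (r_* D) + ℓ φ⁻¹ (r_* D)` as an additive map. -/
def psiHom (r : X → Place K F) (φ : SemilinearAut K F) (ℓ : ℕ) : (X →₀ ℤ) →+ Divisor K F where
  toFun D := φ • Finsupp.mapDomain r D + ℓ • (φ⁻¹ • Finsupp.mapDomain r D)
  map_zero' := by simp
  map_add' D E := by
    simp only [Finsupp.mapDomain_add, smul_add]
    abel

theorem psiHom_apply (r : X → Place K F) (φ : SemilinearAut K F) (ℓ : ℕ) (D : X →₀ ℤ) :
    psiHom r φ ℓ D = φ • Finsupp.mapDomain r D + ℓ • (φ⁻¹ • Finsupp.mapDomain r D) := rfl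

theorem psiHom_single (r : X → Place K F) (φ : SemilinearAut K F) (ℓ : ℕ) (P : X) (n : ℤ) :
    psiHom r φ ℓ (Finsupp.single P n)
      = Finsupp.single (φ • r P) n + ℓ • Finsupp.single (φ⁻¹ • r P) n := by
  rw [psiHom_apply, Finsupp.mapDomain_single, SemilinearAut.smul_single,
    SemilinearAut.smul_single]

/-- `(pos)` for `Ψ`. -/
theorem psiHom_nonneg (r : X → Place K F) (φ : SemilinearAut K F) (ℓ : ℕ) (P : X)
    (Q : Place K F) : 0 ≤ psiHom r φ ℓ (Finsupp.single P 1) Q := by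
  classical
  rw [psiHom_single, Finsupp.add_apply, Finsupp.smul_apply, Finsupp.single_apply,
    Finsupp.single_apply]
  split_ifs <;> simp <;> positivity

/-- The support of `Ψ P`. -/
theorem psiHom_ne_zero (r : X → Place K F) (φ : SemilinearAut K F) (ℓ : ℕ) (P : X)
    (Q : Place K F) (h : psiHom r φ ℓ (Finsupp.single P 1) Q ≠ 0) :
    Q = φ • r P ∨ Q = φ⁻¹ • r P := by
  classical
  rw [psiHom_single, Finsupp.add_apply, Finsupp.smul_apply, Finsupp.single_apply,
    Finsupp.single_apply] at h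
  by_cases h1 : φ • r P = Q
  · exact Or.inl h1.symm
  · by_cases h2 : φ⁻¹ • r P = Q
    · exact Or.inr h2.symm
    · rw [if_neg h1, if_neg h2] at h
      simp at h

/-- `(deg)` for `Ψ`: the degree of `Ψ P` is `(ℓ + 1) deg (r P)`. -/
theorem psiHom_degree (r : X → Place K F) (φ : SemilinearAut K F) (ℓ : ℕ) (P : X) :
    Divisor.degree (psiHom r φ ℓ (Finsupp.single P 1)) = (ℓ + 1 : ℤ) * ((r P).deg : ℤ) := by
  rw [psiHom_single, map_add, map_nsmul, Divisor.degree_single, Divisor.degree_single,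
    SemilinearAut.deg_smul, SemilinearAut.deg_smul]
  simp only [nsmul_eq_mul, one_mul]
  ring

/-- `(deg)` for `Ψ` when all places have degree one. -/
theorem psiHom_degree_of_deg_one (r : X → Place K F) (φ : SemilinearAut K F) (ℓ : ℕ) (P : X)
    (hdeg : ∀ Q : Place K F, Q.deg = 1) :
    Divisor.degree (psiHom r φ ℓ (Finsupp.single P 1)) = (ℓ + 1 : ℤ) := by
  rw [psiHom_degree, hdeg]
  simp

/-- `(loc)` for `Ψ`, with `S = {φ² r P, φ⁻² r P}`. -/
theorem psiHom_loc (r : X → Place K F) (φ : SemilinearAut K F) (ℓ : ℕ) (P : X) :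
    ∃ S : Finset (Place K F), ∀ P' : X, r P' ∉ S → r P' ≠ r P →
      ∀ Q, psiHom r φ ℓ (Finsupp.single P 1) Q ≠ 0 →
        psiHom r φ ℓ (Finsupp.single P' 1) Q = 0 := by
  classical
  refine ⟨{(φ * φ) • r P, (φ⁻¹ * φ⁻¹) • r P}, fun P' hS hne Q hQ => ?_⟩
  by_contra hQ'
  have hS1 : r P' ≠ (φ * φ) • r P := fun h => hS (by rw [h]; simp)
  have hS2 : r P' ≠ (φ⁻¹ * φ⁻¹) • r P := fun h => hS (by rw [h]; simp)
  rcases psiHom_ne_zero r φ ℓ P Q hQ with h1 | h1 <;>
    rcases psiHom_ne_zero r φ ℓ P' Q hQ' with h2 | h2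
  · -- φ rP = φ rP'
    exact hne (MulAction.injective φ (h2.symm.trans h1))
  · -- φ rP = φ⁻¹ rP'
    apply hS1
    have : φ⁻¹ • r P' = φ • r P := h2.symm.trans h1
    rw [mul_smul, ← this, smul_inv_smul]
  · -- φ⁻¹ rP = φ rP'
    apply hS2
    have : φ • r P' = φ⁻¹ • r P := h2.symm.trans h1
    rw [mul_smul, ← this, inv_smul_smul]
  · exact hne (MulAction.injective φ⁻¹ (h2.symm.trans h1))

/-! ### The names asked for by helper95 (ES-3a wiring) -/

/-- The sum of the coefficients of a divisor. -/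
def massHom {Q : Type*} : (Q →₀ ℤ) →+ ℤ :=
  Finsupp.liftAddHom fun _ => AddMonoidHom.id ℤ

@[simp] theorem massHom_single {Q : Type*} (q : Q) (n : ℤ) :
    massHom (Finsupp.single q n) = n := by
  simp [massHom]

theorem massHom_single_one_pos {Q : Type*} (q : Q) :
    0 < massHom (Finsupp.single q (1 : ℤ)) := by
  rw [massHom_single]; exact one_pos

theorem massHom_mapDomain {P Q : Type*} (r : P → Q) (D : P →₀ ℤ) :
    massHom (Finsupp.mapDomain r D) = massHom D := by
  induction D using Finsupp.induction_linear with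
  | zero => simp
  | add f g hf hg => rw [Finsupp.mapDomain_add, map_add, map_add, hf, hg]
  | single p n => rw [Finsupp.mapDomain_single, massHom_single, massHom_single]

theorem massHom_smul (φ : SemilinearAut K F) (D : Divisor K F) :
    massHom (φ • D) = massHom D := by
  rw [SemilinearAut.divisor_smul_def, massHom_mapDomain]

/-- `Ψ D = φ (r_* D) + ℓ φ⁻¹ (r_* D)`. -/
abbrev PsiES (r : X → Place K F) (φ : SemilinearAut K F) (ℓ : ℕ) : (X →₀ ℤ) →+ Divisor K F :=
  psiHom r φ ℓ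

theorem PsiES_apply (r : X → Place K F) (φ : SemilinearAut K F) (ℓ : ℕ) (D : X →₀ ℤ) :
    PsiES r φ ℓ D = φ • Finsupp.mapDomain r D + ℓ • (φ⁻¹ • Finsupp.mapDomain r D) := rfl

theorem massHom_PsiES_single (r : X → Place K F) (φ : SemilinearAut K F) (ℓ : ℕ) (p : X) :
    massHom (PsiES r φ ℓ (Finsupp.single p 1)) = (ℓ : ℤ) + 1 := by
  rw [PsiES, psiHom_single, map_add, map_nsmul, massHom_single, massHom_single]
  simp only [nsmul_eq_mul, mul_one]
  ring

theorem massHom_PsiES (r : X → Place K F) (φ : SemilinearAut K F) (ℓ : ℕ) (D : X →₀ ℤ) :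
    massHom (PsiES r φ ℓ D) = ((ℓ : ℤ) + 1) * massHom D := by
  rw [PsiES_apply, map_add, map_nsmul, massHom_smul, massHom_smul, massHom_mapDomain]
  simp only [nsmul_eq_mul]
  ring

theorem PsiES_loc (r : X → Place K F) (φ : SemilinearAut K F) (ℓ : ℕ) (p : X) :
    ∃ S : Finset (Place K F), ∀ p' : X, r p' ∉ S → r p' ≠ r p →
      ∀ q, PsiES r φ ℓ (Finsupp.single p 1) q ≠ 0 → PsiES r φ ℓ (Finsupp.single p' 1) q = 0 :=
  psiHom_loc r φ ℓ p

theorem PsiES_nonneg (r : X → Place K F) (φ : SemilinearAut K F) (ℓ : ℕ) (p : X)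
    (q : Place K F) : 0 ≤ PsiES r φ ℓ (Finsupp.single p 1) q :=
  psiHom_nonneg r φ ℓ p q

end Fermat.Agent.RED.H52
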