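/-
G-RED, package ES-3b (helper52), abstract core: two positive additive maps between divisor
groups which have the same degree on points and agree on enough "moving" divisors are equal.
Pure `Finsupp` algebra (Mathlib only).
-/
import Mathlib.Data.Finsupp.Basic
import Mathlib.Algebra.BigOperators.Finsupp.Basic
import Mathlib.Algebra.Order.BigOperators.Group.Finset
import Mathlib.Data.Finsupp.SMul
import Mathlib.Algebra.Order.Ring.Int
import Mathlib.Tactic.Linarith
import Mathlib.Tactic.Ring
import Mathlib.Tactic.Abel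

set_option autoImplicit false

namespace Fermat.Agent.RED.H52

variable {P Q : Type*}

/-- An additive map on finitely supported functions is the sum of its values on points. -/
theorem map_eq_sum (Φ : (P →₀ ℤ) →+ (Q →₀ ℤ)) (W : P →₀ ℤ) (q : Q) :
    Φ W q = W.sum (fun p n => n * Φ (Finsupp.single p 1) q) := by
  induction W using Finsupp.induction_linear with
  | zero => simp
  | add f g hf hg =>
    rw [map_add, Finsupp.add_apply, hf, hg, Finsupp.sum_add_index']
    · intro p; simp
    · intro p m n; ring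
  | single p n =>
    rw [Finsupp.sum_single_index (by simp)]
    have : Finsupp.single p n = n • Finsupp.single p (1 : ℤ) := by
      rw [Finsupp.smul_single, smul_eq_mul, mul_one]
    rw [this, map_zsmul, Finsupp.smul_apply, smul_eq_mul]

/-- A positive map sends effective divisors to effective divisors. -/
theorem map_nonneg (Φ : (P →₀ ℤ) →+ (Q →₀ ℤ)) (hΦ : ∀ p q, 0 ≤ Φ (Finsupp.single p 1) q)
    (W : P →₀ ℤ) (hW : ∀ p, 0 ≤ W p) (q : Q) : 0 ≤ Φ W q := by
  rw [map_eq_sum]
  exact Finset.sum_nonneg fun p _ => mul_nonneg (hW p) (hΦ p q)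

/-- If every point of the support of `W` is sent to a divisor vanishing at `q`, then `Ψ W`
vanishes at `q`. -/
theorem map_eq_zero_at (Ψ : (P →₀ ℤ) →+ (Q →₀ ℤ)) (W : P →₀ ℤ) (q : Q)
    (h : ∀ p, W p ≠ 0 → Ψ (Finsupp.single p 1) q = 0) : Ψ W q = 0 := by
  rw [map_eq_sum]
  refine Finset.sum_eq_zero fun p hp => ?_
  show W p * Ψ (Finsupp.single p 1) q = 0
  rw [h p (Finsupp.mem_support_iff.1 hp), mul_zero]

/-- Pointwise inequality and equal (positively weighted) degree force equality. -/
theorem eq_of_le_of_deg_eq (deg : (Q →₀ ℤ) →+ ℤ) (hdeg : ∀ q, 0 < deg (Finsupp.single q 1))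
    (f g : Q →₀ ℤ) (hle : ∀ q, g q ≤ f q) (h : deg f = deg g) : f = g := by
  have hsum : ∀ e : Q →₀ ℤ, deg e = e.sum (fun q n => n * deg (Finsupp.single q 1)) := by
    intro e
    induction e using Finsupp.induction_linear with
    | zero => simp
    | add a b ha hb =>
      rw [map_add, ha, hb, Finsupp.sum_add_index']
      · intro p; simp
      · intro p m n; ring
    | single q n =>
      rw [Finsupp.sum_single_index (by simp)]
      have : Finsupp.single q n = n • Finsupp.single q (1 : ℤ) := by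
        rw [Finsupp.smul_single, smul_eq_mul, mul_one]
      rw [this, map_zsmul, smul_eq_mul]
  have he : deg (f - g) = 0 := by rw [map_sub, h, sub_self]
  rw [hsum] at he
  have hterm : ∀ q ∈ (f - g).support, 0 ≤ (f - g) q * deg (Finsupp.single q 1) := fun q _ =>
    mul_nonneg (by rw [Finsupp.sub_apply]; linarith [hle q]) (hdeg q).le
  have hz := (Finset.sum_eq_zero_iff_of_nonneg hterm).1 he
  ext q
  by_contra hne
  have hq : q ∈ (f - g).support := by
    rw [Finsupp.mem_support_iff, Finsupp.sub_apply]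
    intro h0
    exact hne (sub_eq_zero.1 h0)
  have := hz q hq
  rcases mul_eq_zero.1 this with h1 | h1
  · exact (Finsupp.mem_support_iff.1 hq) h1
  · exact (hdeg q).ne' h1

/-- **ES-3b, abstract core.**  `Φ, Ψ` positive, of the same degree on points, `Ψ` "local" with
respect to `r`, and `Φ = Ψ` on moving divisors `D = W - n p` (`W ≥ 0` with support reducing
outside any given finite set and outside `r p`).  Then `Φ = Ψ`. -/
theorem eq_of_pos_of_move (r : P → Q) (deg : (Q →₀ ℤ) →+ ℤ)
    (hdeg1 : ∀ q, 0 < deg (Finsupp.single q 1)) (Φ Ψ : (P →₀ ℤ) →+ (Q →₀ ℤ))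
    (hΦ : ∀ p q, 0 ≤ Φ (Finsupp.single p 1) q)
    (hdeg : ∀ p, deg (Φ (Finsupp.single p 1)) = deg (Ψ (Finsupp.single p 1)))
    (hloc : ∀ p, ∃ S : Finset Q, ∀ p', r p' ∉ S → r p' ≠ r p →
      ∀ q, Ψ (Finsupp.single p 1) q ≠ 0 → Ψ (Finsupp.single p' 1) q = 0)
    (hmove : ∀ (p : P) (S : Finset Q), ∃ (n : ℕ) (D : P →₀ ℤ), 0 < n ∧ D p = -(n : ℤ) ∧
      (∀ p', p' ≠ p → 0 ≤ D p' ∧ (0 < D p' → r p' ∉ S ∧ r p' ≠ r p)) ∧ Φ D = Ψ D) :
    Φ = Ψ := by
  refine Finsupp.addHom_ext fun p m => ?_
  have key : Φ (Finsupp.single p 1) = Ψ (Finsupp.single p 1) := by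
    obtain ⟨S, hS⟩ := hloc p
    obtain ⟨n, D, hn, hDp, hD, hΦΨ⟩ := hmove p S
    set W : P →₀ ℤ := D + (n : ℤ) • Finsupp.single p 1 with hW
    have hWp : W p = 0 := by
      rw [hW, Finsupp.add_apply, Finsupp.smul_apply, Finsupp.single_eq_same, hDp]; simp
    have hWp' : ∀ p', p' ≠ p → W p' = D p' := by
      intro p' hp'
      rw [hW, Finsupp.add_apply, Finsupp.smul_apply, Finsupp.single_eq_of_ne (Ne.symm hp').symm]
      simp
    have hWnn : ∀ p', 0 ≤ W p' := by
      intro p'
      by_cases hp' : p' = p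
      · rw [hp', hWp]
      · rw [hWp' p' hp']; exact (hD p' hp').1
    have hDW : D = W - (n : ℤ) • Finsupp.single p 1 := by rw [hW]; abel
    have hrel : ∀ q, Φ W q - n * Φ (Finsupp.single p 1) q
        = Ψ W q - n * Ψ (Finsupp.single p 1) q := by
      intro q
      have := congrArg (fun E : Q →₀ ℤ => E q) hΦΨ
      simp only [hDW, map_sub, map_zsmul, Finsupp.sub_apply, Finsupp.smul_apply,
        smul_eq_mul] at this
      exact this
    refine eq_of_le_of_deg_eq deg hdeg1 _ _ (fun q => ?_) (hdeg p)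
    by_cases hq : Ψ (Finsupp.single p 1) q = 0
    · rw [hq]; exact hΦ p q
    · have hΨW : Ψ W q = 0 := by
        refine map_eq_zero_at Ψ W q fun p' hp' => ?_
        have hp'p : p' ≠ p := fun h => hp' (h ▸ hWp)
        have hpos : 0 < D p' := by
          rw [← hWp' p' hp'p]
          exact lt_of_le_of_ne (hWnn p') (Ne.symm hp')
        obtain ⟨h1, h2⟩ := (hD p' hp'p).2 hpos
        exact hS p' h1 h2 q hq
      have h1 := hrel q
      rw [hΨW] at h1
      have h2 := map_nonneg Φ hΦ W hWnn q
      have hn' : (0 : ℤ) < n := by exact_mod_cast hn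
      nlinarith
  have h1 : Finsupp.single p m = m • Finsupp.single p (1 : ℤ) := by
    rw [Finsupp.smul_single, smul_eq_mul, mul_one]
  show Φ (Finsupp.single p m) = Ψ (Finsupp.single p m)
  rw [h1, map_zsmul, map_zsmul, key]

end Fermat.Agent.RED.H52
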