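import Fermat.Agent.RED.Core2
import Fermat.Agent.RED.H33_UniGal
import Fermat.Agent.RED.H73_GACard
import Fermat.Agent.RED.H95_IsFF

/-!
# G-RED, package EQ (helper36, from helper33's `isRed_decomposition`)

`stmt_EQ : Stmt_EQ` : the reduction map at level `N` is equivariant under the decomposition
group of `A`, the semilinear automorphism of the reduced field being the coefficientwise
residual action (`H33.redGalois`).
-/

set_option autoImplicit false
set_option linter.style.haveILetI false
set_option synthInstance.maxHeartbeats 400000
set_option maxHeartbeats 1000000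

noncomputable section

open AlgebraicCurve ModularCurve Fermat.Agent.S28.H73 Fermat.Agent.RED.H73

namespace Fermat.Agent.RED.H36

/-- **Package EQ**. -/
theorem stmt_EQ : Stmt_EQ := by
  intro N ℓ _ hℓ hℓN A hA r hr σ hσ
  haveI : IsAlgClosed (kV A) := isAlgClosed_kV A
  refine ⟨H33.redGalois A (modularFunctionFieldFull N) (hasScale_laurentBaseChange A N) σ hσ,
    ?_, ?_⟩
  · intro x n
    rw [H33.coe_redGalois_smul]
    rw [← H33.autkHom_eq_smul A σ hσ]
    rfl
  · intro P
    exact H33.isRed_decomposition A (modularFunctionFieldFull N)
      (hasScale_laurentBaseChange A N) (H95.stmt_HKA_isFF N)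
      (isFF_redField_bar N ℓ hℓ hℓN A hA) (H42.fracScalable_laurentBaseChange A N) hσ hr P

end Fermat.Agent.RED.H36
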