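import Mathlib
import Fermat.Agent.RED.H51_Final

/-!
# G-RED package NDESC (helper51), part 1: bounded functionals on divisors

A homomorphism `L : Div(F) → ℤ` which vanishes on principal divisors and is bounded on the
places takes the same value on all places (Riemann: `n (P₁ - P₂) + g P₀` is linearly equivalent
to a positive divisor of degree `g`, for every `n`).
-/

set_option autoImplicit false
set_option linter.style.haveILetI false

noncomputable section

open AlgebraicCurve

namespace Fermat.Agent.RED.H51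

section Const

variable {K F : Type} [Field K] [Field F] [Algebra K F]

/-- The value of an additive functional on a divisor. -/
theorem addHom_apply_eq_sum (L : Divisor K F →+ ℤ) (D : Divisor K F) :
    L D = D.sum fun P n => n * L (Finsupp.single P 1) := by
  conv_lhs => rw [← Finsupp.sum_single D]
  rw [map_finsuppSum]
  refine Finsupp.sum_congr fun P _ => ?_
  have h : (Finsupp.single P (D P) : Divisor K F) = (D P) • Finsupp.single P 1 := by
    rw [Finsupp.smul_single, smul_eq_mul, mul_one]
  rw [h, map_zsmul, smul_eq_mul]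

theorem degree_eq_sum (hdeg : ∀ v : Place K F, v.deg = 1) (D : Divisor K F) :
    Divisor.degree D = D.sum fun _ n => n := by
  rw [addHom_apply_eq_sum]
  refine Finsupp.sum_congr fun P _ => ?_
  rw [Divisor.degree_single, hdeg, Nat.cast_one, mul_one, mul_one]

/-- A bounded functional is bounded by the degree on positive divisors. -/
theorem abs_addHom_le (hdeg : ∀ v : Place K F, v.deg = 1) (L : Divisor K F →+ ℤ) (B : ℤ)
    (hB : ∀ P : Place K F, |L (Finsupp.single P 1)| ≤ B) (E : Divisor K F)
    (hE : ∀ P, 0 ≤ E P) : |L E| ≤ B * Divisor.degree E := by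
  rw [addHom_apply_eq_sum L E, degree_eq_sum hdeg E, Finsupp.sum, Finsupp.sum, Finset.mul_sum]
  refine (Finset.abs_sum_le_sum_abs _ _).trans (Finset.sum_le_sum fun P _ => ?_)
  rw [abs_mul, abs_of_nonneg (hE P), mul_comm]
  exact mul_le_mul_of_nonneg_right (hB P) (hE P)

/-- **Bounded functionals are constant on places.** -/
theorem addHom_const_of_bounded [IsAlgClosed K] (hFF : IsFF K F)
    (L : Divisor K F →+ ℤ) (B : ℤ) (hB : ∀ P : Place K F, |L (Finsupp.single P 1)| ≤ B)
    (hL : ∀ D : Divisor K F, D.IsPrincipal → L D = 0) (P₁ P₂ : Place K F) :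
    L (Finsupp.single P₁ 1) = L (Finsupp.single P₂ 1) := by
  classical
  haveI : HasPrincipalDivisors K F := stmt_FFB_principal K F hFF
  have hdeg : ∀ v : Place K F, v.deg = 1 := stmt_FFB_deg K F hFF
  obtain ⟨g, c, hR⟩ := stmt_FFR_riemann K F hFF
  have hB0 : 0 ≤ B := (abs_nonneg _).trans (hB P₁)
  set c₁ := L (Finsupp.single P₁ 1) with hc₁
  set c₂ := L (Finsupp.single P₂ 1) with hc₂
  -- the key estimate, for every `n`
  have key : ∀ n : ℕ, |(n : ℤ) * (c₁ - c₂)| ≤ 2 * (g * B) := by
    intro n
    set D : Divisor K F := (n : ℤ) • Finsupp.single P₁ 1 - (n : ℤ) • Finsupp.single P₂ 1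
      + (g : ℤ) • Finsupp.single P₁ 1 with hD
    have hdegD : Divisor.degree D = g := by
      rw [hD, map_add, map_sub, map_zsmul, map_zsmul, map_zsmul, Divisor.degree_single,
        Divisor.degree_single, hdeg, hdeg]
      simp
    have hLD : L D = n * (c₁ - c₂) + g * c₁ := by
      rw [hD, map_add, map_sub, map_zsmul, map_zsmul, map_zsmul]
      simp only [smul_eq_mul]
      ring
    have hfr : 0 < Module.finrank K (riemannRochSpace D) := by
      have := (hR D).1
      rw [hdegD] at this
      omega
    haveI : Module.Finite K ↥(riemannRochSpace D) := stmt_FFR_finite K F hFF D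
    haveI : Nontrivial ↥(riemannRochSpace D) := Module.finrank_pos_iff.mp hfr
    obtain ⟨⟨f, hfm⟩, hf0⟩ := exists_ne (0 : ↥(riemannRochSpace D))
    have hf : f ≠ 0 := fun h => hf0 (Subtype.ext h)
    rw [mem_riemannRochSpace_iff] at hfm
    obtain ⟨Df, hDf, hDfdeg⟩ := HasPrincipalDivisors.exists_divisor (K := K) f hf
    have hE : ∀ P, 0 ≤ (Df + D) P := by
      intro P
      rw [Finsupp.add_apply, hDf]
      rcases hfm P with h | h
      · exact absurd h hf
      · omega
    have h1 := abs_addHom_le hdeg L B hB (Df + D) hE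
    have e1 : L (Df + D) = n * (c₁ - c₂) + g * c₁ := by
      rw [map_add L Df D, hL Df ⟨f, hf, hDf⟩, zero_add, hLD]
    have e2 : Divisor.degree (Df + D) = g := by
      rw [map_add Divisor.degree Df D, hDfdeg, zero_add, hdegD]
    rw [e1, e2] at h1
    have h2 : |(g : ℤ) * c₁| ≤ g * B := by
      rw [abs_mul, abs_of_nonneg (Int.natCast_nonneg g)]
      exact mul_le_mul_of_nonneg_left (hB P₁) (Int.natCast_nonneg g)
    have h3 : |(n : ℤ) * (c₁ - c₂)| ≤ |(n : ℤ) * (c₁ - c₂) + g * c₁| + |(g : ℤ) * c₁| := by
      have := abs_sub ((n : ℤ) * (c₁ - c₂) + g * c₁) ((g : ℤ) * c₁)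
      simpa using this
    rw [mul_comm B] at h1
    omega
  by_contra hne
  have hpos : 1 ≤ |c₁ - c₂| := by
    have : c₁ - c₂ ≠ 0 := sub_ne_zero.mpr hne
    exact Int.one_le_abs this
  have hk := key (2 * (g * B).toNat + 1)
  rw [abs_mul] at hk
  have hgB : 0 ≤ (g : ℤ) * B := mul_nonneg (Int.natCast_nonneg g) hB0
  have h4 : |((2 * (g * B).toNat + 1 : ℕ) : ℤ)| = 2 * (g * B) + 1 := by
    rw [abs_of_nonneg (Int.natCast_nonneg _)]
    push_cast
    rw [Int.toNat_of_nonneg hgB]
  rw [h4] at hk
  nlinarith

end Const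

end Fermat.Agent.RED.H51
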