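import Mathlib

/-!
# G-RED package NDESC (helper51): norm descent of the reduction map, interface

`F ⊆ F'` fields with valuation rings `V = V' ∩ F`, residue fields `Ft ⊆ Ft'`.

* `Stmt_NormRedAbs` : **the norm commutes with reduction** if `[F' : F] = [Ft' : Ft]`:
  for `f ∈ V'`, `N_{F'/F} f ∈ V` and `red (N f) = N_{Ft'/Ft} (red' f)`.
  (Proof: lift a basis `b` of `Ft'/Ft` to `B ⊂ V'`; `B` is a basis of `F'/F`; coordinates of
  elements of `V'` lie in `V` (scale by the largest coordinate and reduce); so the matrix of
  `f` has entries in `V` and reduces to the matrix of `red' f`.)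
This file contains no `sorry`.
-/

set_option autoImplicit false

noncomputable section

namespace Fermat.Agent.RED.H51

/-- **The norm commutes with reduction**, when the residue degree equals the degree. -/
def Stmt_NormRedAbs : Prop :=
  ∀ (F F' Ft Ft' : Type) [Field F] [Field F'] [Field Ft] [Field Ft'] [Algebra F F']
    [Algebra Ft Ft'] [Module.Finite F F']
    (V : ValuationSubring F) (V' : ValuationSubring F')
    (red : ↥V →+* Ft) (red' : ↥V' →+* Ft'),
    (∀ a : F, a ∈ V ↔ algebraMap F F' a ∈ V') →
    Function.Surjective red' →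
    (∀ a : ↥V', red' a = 0 ↔ ¬ IsUnit a) →
    (∀ (a : ↥V) (ha : algebraMap F F' (a : F) ∈ V'),
      red' ⟨algebraMap F F' (a : F), ha⟩ = algebraMap Ft Ft' (red a)) →
    Module.finrank F F' = Module.finrank Ft Ft' →
    ∀ f : ↥V', ∃ hN : Algebra.norm F (f : F') ∈ V,
      red ⟨Algebra.norm F (f : F'), hN⟩ = Algebra.norm Ft (red' f)

end Fermat.Agent.RED.H51
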