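import Mathlib
import Fermat.Agent.RED.H51_NDConst
import Fermat.Agent.RED.H51_NDDefs

/-!
# G-RED package NDESC (helper51), part 2: the abstract norm descent

`F'/F` and `Ft'/Ft` finite extensions of function fields (over algebraically closed `K`, `k`),
`V = V' ∩ F` valuation rings with residue fields `Ft ⊆ Ft'`, `[F' : F] = [Ft' : Ft]`, and
`r' : Place K F' → Place k Ft'` with the conservation law.  Then `ρ = restrict ∘ r'` factors
through the restriction of places, the induced `r` has the conservation law, and the moving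
lemma descends.
-/

set_option autoImplicit false
set_option linter.style.haveILetI false
set_option linter.unusedSectionVars false

noncomputable section

open AlgebraicCurve IntermediateField

namespace Fermat.Agent.RED.H51

/-! ### Generic facts on extensions of function fields -/

section Generic

variable {K F F' : Type} [Field K] [Field F] [Field F'] [Algebra K F] [Algebra K F']
  [Algebra F F'] [IsScalarTower K F F'] [Module.Finite F F']

theorem inertiaDeg_eq_one (hdeg : ∀ v : Place K F, v.deg = 1)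
    (hdeg' : ∀ w : Place K F', w.deg = 1) (w : Place K F') : w.inertiaDeg F = 1 := by
  have h := w.deg_restrict_mul_inertiaDeg (F := F)
  rw [hdeg, hdeg', one_mul] at h
  exact h

theorem pushforward_eq_mapDomain (hdeg : ∀ v : Place K F, v.deg = 1)
    (hdeg' : ∀ w : Place K F', w.deg = 1) (D : Divisor K F') :
    Divisor.pushforward F D = Finsupp.mapDomain (fun w : Place K F' => w.restrict F) D := by
  induction D using Finsupp.induction with
  | zero => simp
  | single_add w n D _ _ ih =>
    rw [map_add, Finsupp.mapDomain_add, ih, Divisor.pushforward_single,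
      inertiaDeg_eq_one hdeg hdeg' w, Nat.cast_one, mul_one, Finsupp.mapDomain_single]

variable [HasPrincipalDivisors K F']

theorem mapDomain_restrict_pullback
    (hsum : ∀ v : Place K F, ∑ w ∈ v.fiber F', w.ramificationIndex F = Module.finrank F F')
    (D : Divisor K F) :
    Finsupp.mapDomain (fun w : Place K F' => w.restrict F) (Divisor.pullback F' D)
      = (Module.finrank F F' : ℤ) • D := by
  induction D using Finsupp.induction with
  | zero => simp
  | single_add v n D _ _ ih =>
    rw [map_add, Finsupp.mapDomain_add, ih, smul_add]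
    congr 1
    rw [Divisor.pullback_single, ← Finsupp.mapDomain.addMonoidHom_apply, map_sum]
    have h1 : ∀ w ∈ v.fiber F', Finsupp.mapDomain.addMonoidHom (fun w : Place K F' => w.restrict F)
        (Finsupp.single w (n * (w.ramificationIndex F : ℤ)))
        = Finsupp.single v (n * (w.ramificationIndex F : ℤ)) := by
      intro w hw
      rw [Finsupp.mapDomain.addMonoidHom_apply, Finsupp.mapDomain_single, Place.mem_fiber.mp hw]
    rw [Finset.sum_congr rfl h1, ← Finsupp.single_finsetSum, ← Finset.mul_sum, ← Nat.cast_sum,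
      hsum v, Finsupp.smul_single, smul_eq_mul, mul_comm]

theorem fiber_nonempty
    (hsum : ∀ v : Place K F, ∑ w ∈ v.fiber F', w.ramificationIndex F = Module.finrank F F')
    (v : Place K F) : ∃ w : Place K F', w.restrict F = v := by
  have hpos : 0 < Module.finrank F F' := Module.finrank_pos
  have h := hsum v
  by_contra hcon
  have hempty : v.fiber F' = ∅ := by
    rw [Finset.eq_empty_iff_forall_notMem]
    intro w hw
    exact hcon ⟨w, Place.mem_fiber.mp hw⟩
  rw [hempty, Finset.sum_empty] at h
  omega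

end Generic

/-! ### The abstract reduction setting -/

/-- A pair of compatible valuation rings `V = V' ∩ F` with reduction maps onto `Ft ⊆ Ft'`,
of Gauss type (constants scale every element to a unit), with `[F' : F] = [Ft' : Ft]`. -/
structure RedPair (K F F' Ft Ft' : Type) [Field K] [Field F] [Field F'] [Field Ft] [Field Ft']
    [Algebra K F'] [Algebra F F'] [Algebra Ft Ft'] where
  /-- the valuation ring of `F` -/
  V : ValuationSubring F
  /-- the valuation ring of `F'` -/
  V' : ValuationSubring F'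
  /-- the reduction map of `F` -/
  red : ↥V →+* Ft
  /-- the reduction map of `F'` -/
  red' : ↥V' →+* Ft'
  mem_iff : ∀ a : F, a ∈ V ↔ algebraMap F F' a ∈ V'
  red_compat : ∀ (a : ↥V) (ha : algebraMap F F' (a : F) ∈ V'),
    red' ⟨algebraMap F F' (a : F), ha⟩ = algebraMap Ft Ft' (red a)
  red'_surj : Function.Surjective red'
  red'_eq_zero : ∀ a : ↥V', red' a = 0 ↔ ¬ IsUnit a
  scale' : ∀ f : F', f ≠ 0 →
    ∃ c : K, c ≠ 0 ∧ ∃ u : (↥V')ˣ, f = algebraMap K F' c * ((u : ↥V') : F')
  finrank_eq : Module.finrank F F' = Module.finrank Ft Ft'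

section Red

variable {K k F F' Ft Ft' : Type} [Field K] [Field k] [Field F] [Field F'] [Field Ft] [Field Ft']
  [Algebra K F] [Algebra K F'] [Algebra F F'] [IsScalarTower K F F'] [Module.Finite F F']
  [Algebra k Ft] [Algebra k Ft'] [Algebra Ft Ft'] [IsScalarTower k Ft Ft'] [Module.Finite Ft Ft']

/-- The conservation law for `(V, red, r)`. -/
def IsRedAbs (V : ValuationSubring F) (red : ↥V →+* Ft) (r : Place K F → Place k Ft) : Prop :=
  ∀ f : ↥V, IsUnit f → ∀ D : Divisor K F, (∀ P, D P = P.ord (f : F)) →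
    ∀ Q : Place k Ft, Finsupp.mapDomain r D Q = Q.ord (red f)

/-- The moving lemma for `(V, r)`. -/
def HasMoveAbs (V : ValuationSubring F) (r : Place K F → Place k Ft) : Prop :=
  ∀ (P : Place K F) (S : Finset (Place k Ft)),
    ∃ (n : ℕ) (f : ↥V), 0 < n ∧ IsUnit f ∧ P.ord (f : F) = -(n : ℤ) ∧
      ∀ P' : Place K F, P' ≠ P →
        0 ≤ P'.ord (f : F) ∧ (0 < P'.ord (f : F) → r P' ∉ S ∧ r P' ≠ r P)

namespace RedPair

variable (S : RedPair K F F' Ft Ft')

/-- The inclusion `V → V'`. -/
def incl (a : ↥S.V) : ↥S.V' := ⟨algebraMap F F' (a : F), (S.mem_iff a).1 a.2⟩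

theorem coe_incl (a : ↥S.V) : ((S.incl a : ↥S.V') : F') = algebraMap F F' (a : F) := rfl

theorem red'_incl (a : ↥S.V) : S.red' (S.incl a) = algebraMap Ft Ft' (S.red a) :=
  S.red_compat a _

theorem isUnit_iff_of_valuationSubring {L : Type} [Field L] (A : ValuationSubring L) (x : ↥A) :
    IsUnit x ↔ (x : L) ≠ 0 ∧ (x : L)⁻¹ ∈ A := by
  constructor
  · intro hx
    obtain ⟨y, hy⟩ := hx.exists_right_inv
    have hxy : (x : L) * (y : L) = 1 := congrArg Subtype.val hy
    have hx0 : (x : L) ≠ 0 := left_ne_zero_of_mul_eq_one hxy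
    refine ⟨hx0, ?_⟩
    rw [← eq_inv_of_mul_eq_one_right hxy]
    exact y.2
  · rintro ⟨hx0, hinv⟩
    exact IsUnit.of_mul_eq_one ⟨(x : L)⁻¹, hinv⟩ (Subtype.ext (mul_inv_cancel₀ hx0))

theorem isUnit_incl_iff (a : ↥S.V) : IsUnit (S.incl a) ↔ IsUnit a := by
  rw [isUnit_iff_of_valuationSubring, isUnit_iff_of_valuationSubring, coe_incl,
    ← map_inv₀, ← S.mem_iff, Ne, map_eq_zero]

theorem red_eq_zero (a : ↥S.V) : S.red a = 0 ↔ ¬ IsUnit a := by
  rw [← S.isUnit_incl_iff, ← S.red'_eq_zero, S.red'_incl]
  exact (map_eq_zero_iff _ (algebraMap Ft Ft').injective).symm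

theorem red_ne_zero {a : ↥S.V} (ha : IsUnit a) : S.red a ≠ 0 := fun h =>
  (S.red_eq_zero a).1 h ha

theorem red'_ne_zero {a : ↥S.V'} (ha : IsUnit a) : S.red' a ≠ 0 := fun h =>
  (S.red'_eq_zero a).1 h ha

theorem ne_zero_of_isUnit' {a : ↥S.V'} (ha : IsUnit a) : (a : F') ≠ 0 :=
  ((isUnit_iff_of_valuationSubring S.V' a).1 ha).1

/-- The norm of an element of `V'`, as an element of `V`. -/
theorem exists_norm (hNR : Stmt_NormRedAbs) (f : ↥S.V') :
    ∃ g : ↥S.V, (g : F) = Algebra.norm F (f : F') ∧ S.red g = Algebra.norm Ft (S.red' f) := by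
  obtain ⟨hN, h⟩ := hNR F F' Ft Ft' S.V S.V' S.red S.red' S.mem_iff S.red'_surj S.red'_eq_zero
    S.red_compat S.finrank_eq f
  exact ⟨⟨_, hN⟩, rfl, h⟩

theorem exists_norm_unit (hNR : Stmt_NormRedAbs) {f : ↥S.V'} (hf : IsUnit f) :
    ∃ g : ↥S.V, IsUnit g ∧ (g : F) = Algebra.norm F (f : F') ∧
      S.red g = Algebra.norm Ft (S.red' f) := by
  obtain ⟨g, hg, hred⟩ := S.exists_norm hNR f
  refine ⟨g, ?_, hg, hred⟩
  by_contra hcon
  have h0 := (S.red_eq_zero g).2 hcon
  rw [hred, Algebra.norm_eq_zero_iff] at h0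
  exact S.red'_ne_zero hf h0

end RedPair

end Red

/-! ### The facts on function fields which are used -/

section Facts

variable (K F F' : Type) [Field K] [Field F] [Field F'] [Algebra K F] [Algebra K F']
  [Algebra F F'] [IsScalarTower K F F'] [Module.Finite F F'] [HasPrincipalDivisors K F']

/-- The facts on a finite extension `F'/F` of function fields used in the descent. -/
structure FFFacts : Prop where
  deg : ∀ v : Place K F, v.deg = 1
  deg' : ∀ w : Place K F', w.deg = 1
  sum_e : ∀ v : Place K F, ∑ w ∈ v.fiber F', w.ramificationIndex F = Module.finrank F F'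
  norm : Divisor.PushforwardNormFormula K F F'

variable {K F F'}

open Fermat.Agent.S24 in
theorem ffFacts_of_isFF [IsAlgClosed K] (hF : IsFF K F) (hF' : IsFF K F') : FFFacts K F F' := by
  have hzF := zerosAll K F hF
  have hzF' := zerosAll K F' hF'
  have hdeg := stmt_FFB_deg K F hF
  have hdeg' := stmt_FFB_deg K F' hF'
  obtain ⟨x₀, hx₀, hfin₀⟩ := hF
  obtain ⟨x₀', hx₀', hfin₀'⟩ := hF'
  haveI : FiniteDimensional K⟮x₀⟯ F := hfin₀
  haveI : FiniteDimensional K⟮x₀'⟯ F' := hfin₀'
  exact ⟨hdeg, hdeg',
    fun v => sum_ramificationIndex_eq hzF hzF' hx₀ hx₀' v (v.fiber F') (fun _ => Place.mem_fiber),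
    pushforwardNormFormula_of_zeros hzF hzF' hx₀ hx₀'⟩

end Facts

end Fermat.Agent.RED.H51
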