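import Mathlib
import Fermat.Agent.RED.H51_NDCore

/-!
# G-RED package NDESC (helper51), part 3: the descent

Setting of `H51_NDCore`.  `ρ = restrict ∘ r'`.

* `rho_eq_of_restrict_eq` : `ρ` factors through the restriction of places;
* `isRedAbs_of_compat`    : the induced `r` has the conservation law;
* `hasMoveAbs_of_compat`  : the moving lemma descends (norms);
* `ndesc_abs`             : the abstract norm descent.
-/

set_option autoImplicit false
set_option linter.style.haveILetI false
set_option linter.unusedSectionVars false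

noncomputable section

open AlgebraicCurve IntermediateField

namespace Fermat.Agent.RED.H51

section Descent

variable {K k F F' Ft Ft' : Type} [Field K] [Field k] [Field F] [Field F'] [Field Ft] [Field Ft']
  [Algebra K F] [Algebra K F'] [Algebra F F'] [IsScalarTower K F F'] [Module.Finite F F']
  [Algebra k Ft] [Algebra k Ft'] [Algebra Ft Ft'] [IsScalarTower k Ft Ft'] [Module.Finite Ft Ft']
  [HasPrincipalDivisors K F'] [HasPrincipalDivisors k Ft']

variable (S : RedPair K F F' Ft Ft') (r' : Place K F' → Place k Ft')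

variable (Ft) in
/-- `ρ = restrict ∘ r'`. -/
def rho : Place K F' → Place k Ft := fun P' => (r' P').restrict Ft

theorem rho_apply (P' : Place K F') : rho Ft r' P' = (r' P').restrict Ft := rfl

/-- `(ρ_* div u)(Q) = ord_Q (N (red' u))` for units `u` of `V'`. -/
theorem mapDomain_rho_apply (hFt : FFFacts k Ft Ft') (hred : IsRedAbs S.V' S.red' r')
    {u : ↥S.V'} (hu : IsUnit u) (D' : Divisor K F') (hD' : ∀ P, D' P = P.ord (u : F'))
    (Q : Place k Ft) :
    Finsupp.mapDomain (rho Ft r') D' Q = Q.ord (Algebra.norm Ft (S.red' u)) := by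
  have hE := hred u hu D' hD'
  have h := hFt.norm (S.red' u) (S.red'_ne_zero hu) (Finsupp.mapDomain r' D') hE Q
  rw [pushforward_eq_mapDomain hFt.deg hFt.deg', ← Finsupp.mapDomain_comp] at h
  exact h

/-- `(ρ_* π^* div a)(Q) = d ord_Q (red a)` for units `a` of `V`. -/
theorem mapDomain_rho_pullback (hFt : FFFacts k Ft Ft') (hred : IsRedAbs S.V' S.red' r')
    {a : ↥S.V} (ha : IsUnit a) (D : Divisor K F) (hD : ∀ P, D P = P.ord (a : F))
    (Q : Place k Ft) :
    Finsupp.mapDomain (rho Ft r') (Divisor.pullback F' D) Q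
      = (Module.finrank F F' : ℤ) * Q.ord (S.red a) := by
  have hu : IsUnit (S.incl a) := (S.isUnit_incl_iff a).2 ha
  have hD' : ∀ P, Divisor.pullback F' D P = P.ord ((S.incl a : ↥S.V') : F') :=
    fun P => Divisor.pullback_apply_eq_ord hD P
  rw [mapDomain_rho_apply S r' hFt hred hu _ hD' Q, S.red'_incl, Algebra.norm_algebraMap,
    ord_pow, S.finrank_eq]

variable (F) in
/-- The functional `D' ↦ (ρ_* π^* π_* D')(Q) - d (ρ_* D')(Q)`. -/
def ndFun (Q : Place k Ft) : Divisor K F' →+ ℤ :=
  ((Finsupp.applyAddHom Q).comp (Finsupp.mapDomain.addMonoidHom (rho Ft r'))).comp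
      ((Divisor.pullback F').comp (Divisor.pushforward F))
    - (Module.finrank F F' : ℤ) •
      ((Finsupp.applyAddHom Q).comp (Finsupp.mapDomain.addMonoidHom (rho Ft r')))

theorem ndFun_apply (Q : Place k Ft) (D' : Divisor K F') :
    ndFun F r' Q D'
      = Finsupp.mapDomain (rho Ft r') (Divisor.pullback F' (Divisor.pushforward F D')) Q
        - (Module.finrank F F' : ℤ) * Finsupp.mapDomain (rho Ft r') D' Q := rfl

/-- The functional vanishes on principal divisors. -/
theorem ndFun_principal (hNR : Stmt_NormRedAbs) (hF : FFFacts K F F')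
    (hFt : FFFacts k Ft Ft') (hred : IsRedAbs S.V' S.red' r') (Q : Place k Ft)
    (D' : Divisor K F') (hD' : D'.IsPrincipal) : ndFun F r' Q D' = 0 := by
  obtain ⟨f, hf, hDf⟩ := hD'
  obtain ⟨c, hc, u, rfl⟩ := S.scale' f hf
  have hu0 : ((u : ↥S.V') : F') ≠ 0 := S.ne_zero_of_isUnit' u.isUnit
  have hc0 : algebraMap K F' c ≠ 0 := by
    rw [Ne, map_eq_zero]
    exact hc
  have hDu : ∀ P, D' P = P.ord ((u : ↥S.V') : F') := by
    intro P
    rw [hDf P, P.ord_mul hc0 hu0, ord_algebraMap, zero_add]
  obtain ⟨g, hgu, hg, hgred⟩ := S.exists_norm_unit hNR u.isUnit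
  have hDg : ∀ v : Place K F, Divisor.pushforward F D' v = v.ord (g : F) := by
    intro v
    rw [hg]
    exact hF.norm _ hu0 D' hDu v
  rw [ndFun_apply, mapDomain_rho_pullback S r' hFt hred hgu _ hDg Q,
    mapDomain_rho_apply S r' hFt hred u.isUnit D' hDu Q, hgred, sub_self]

open Classical in
/-- The value of the functional on a place. -/
theorem ndFun_single (hF : FFFacts K F F') (Q : Place k Ft) (P' : Place K F') :
    ndFun F r' Q (Finsupp.single P' 1)
      = (∑ w ∈ (P'.restrict F).fiber F',
          if rho Ft r' w = Q then (w.ramificationIndex F : ℤ) else 0)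
        - (Module.finrank F F' : ℤ) * (if rho Ft r' P' = Q then 1 else 0) := by
  rw [ndFun_apply, Divisor.pushforward_single, inertiaDeg_eq_one hF.deg hF.deg', Nat.cast_one,
    mul_one, Divisor.pullback_single, Finsupp.mapDomain_single, Finsupp.single_apply]
  congr 1
  rw [← Finsupp.mapDomain.addMonoidHom_apply, map_sum, Finsupp.finsetSum_apply]
  refine Finset.sum_congr rfl fun w _ => ?_
  rw [Finsupp.mapDomain.addMonoidHom_apply, Finsupp.mapDomain_single, Finsupp.single_apply,
    one_mul]

/-- The functional is bounded on the places. -/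
theorem abs_ndFun_single_le (hF : FFFacts K F F') (Q : Place k Ft) (P' : Place K F') :
    |ndFun F r' Q (Finsupp.single P' 1)| ≤ (Module.finrank F F' : ℤ) := by
  classical
  rw [ndFun_single r' hF Q P']
  have h0 : 0 ≤ ∑ w ∈ (P'.restrict F).fiber F',
      (if rho Ft r' w = Q then (w.ramificationIndex F : ℤ) else 0) := by
    refine Finset.sum_nonneg fun w _ => ?_
    split_ifs
    · exact Int.natCast_nonneg _
    · exact le_rfl
  have h1 : ∑ w ∈ (P'.restrict F).fiber F',
      (if rho Ft r' w = Q then (w.ramificationIndex F : ℤ) else 0) ≤ Module.finrank F F' := by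
    have h2 : ∑ w ∈ (P'.restrict F).fiber F',
        (if rho Ft r' w = Q then (w.ramificationIndex F : ℤ) else 0)
        ≤ ∑ w ∈ (P'.restrict F).fiber F', (w.ramificationIndex F : ℤ) := by
      refine Finset.sum_le_sum fun w _ => ?_
      split_ifs
      · exact le_rfl
      · exact Int.natCast_nonneg _
    refine h2.trans (le_of_eq ?_)
    exact_mod_cast hF.sum_e (P'.restrict F)
  have hd : (0 : ℤ) ≤ Module.finrank F F' := Int.natCast_nonneg _
  rw [abs_le]
  split_ifs <;> constructor <;> linarith

/-- **`ρ` factors through the restriction of places.** -/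
theorem rho_eq_of_restrict_eq (hNR : Stmt_NormRedAbs) [IsAlgClosed K] (hFF' : IsFF K F')
    (hF : FFFacts K F F') (hFt : FFFacts k Ft Ft') (hred : IsRedAbs S.V' S.red' r')
    {P' P'' : Place K F'} (h : P'.restrict F = P''.restrict F) : rho Ft r' P' = rho Ft r' P'' := by
  classical
  have hc := addHom_const_of_bounded hFF' (ndFun F r' (rho Ft r' P')) (Module.finrank F F')
    (abs_ndFun_single_le r' hF (rho Ft r' P'))
    (fun D hD => ndFun_principal S r' hNR hF hFt hred (rho Ft r' P') D hD) P' P''
  rw [ndFun_single r' hF (rho Ft r' P') P', ndFun_single r' hF (rho Ft r' P') P'', h, if_pos rfl] at hc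
  have hd : (0 : ℤ) < Module.finrank F F' := by exact_mod_cast Module.finrank_pos
  by_contra hne
  rw [if_neg (fun h' => hne h'.symm)] at hc
  linarith

/-- **The conservation law descends.** -/
theorem isRedAbs_of_compat (hF : FFFacts K F F') (hFt : FFFacts k Ft Ft')
    (hred : IsRedAbs S.V' S.red' r') (r : Place K F → Place k Ft)
    (hr : ∀ P' : Place K F', r (P'.restrict F) = rho Ft r' P') : IsRedAbs S.V S.red r := by
  intro a ha D hD Q
  have h1 := mapDomain_rho_pullback S r' hFt hred ha D hD Q
  have e : rho Ft r' = r ∘ (fun w : Place K F' => w.restrict F) := funext fun P' => (hr P').symm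
  rw [e, Finsupp.mapDomain_comp, mapDomain_restrict_pullback hF.sum_e, Finsupp.mapDomain_smul,
    Finsupp.smul_apply, smul_eq_mul] at h1
  have hd : (Module.finrank F F' : ℤ) ≠ 0 := by
    have : 0 < Module.finrank F F' := Module.finrank_pos
    exact_mod_cast this.ne'
  exact mul_left_cancel₀ hd h1

/-- **The moving lemma descends.** -/
theorem hasMoveAbs_of_compat (hNR : Stmt_NormRedAbs) (hF : FFFacts K F F')
    (hmove : HasMoveAbs S.V' r') (r : Place K F → Place k Ft)
    (hr : ∀ P' : Place K F', r (P'.restrict F) = rho Ft r' P') : HasMoveAbs S.V r := by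
  classical
  intro P T
  obtain ⟨P', hP'⟩ := fiber_nonempty hF.sum_e P
  set T' : Finset (Place k Ft') := (insert (r P) T).biUnion (fun Q => Q.fiber Ft') with hT'
  have hmemT' : ∀ w : Place k Ft', w ∈ T' ↔ w.restrict Ft ∈ insert (r P) T := by
    intro w
    rw [hT', Finset.mem_biUnion]
    constructor
    · rintro ⟨Q, hQ, hw⟩
      rw [Place.mem_fiber.mp hw]
      exact hQ
    · intro h
      exact ⟨_, h, Place.mem_fiber.mpr rfl⟩
  obtain ⟨n, f', hn, hu, hord, hother⟩ := hmove P' T'
  obtain ⟨g, hgu, hg, -⟩ := S.exists_norm_unit hNR hu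
  have hf0 : (f' : F') ≠ 0 := S.ne_zero_of_isUnit' hu
  have hnorm : ∀ v : Place K F, v.ord (g : F) = ∑ w ∈ v.fiber F', w.ord (f' : F') := by
    intro v
    rw [hg]
    exact norm_ord v (v.fiber F') (fun w hw => Place.mem_fiber.mp hw) (hF.sum_e v) hF.deg' hf0
  -- the zeros of `f'` reduce outside `T ∪ {r P}`
  have hzero : ∀ w : Place K F', w ≠ P' → 0 < w.ord (f' : F') →
      r (w.restrict F) ∉ T ∧ r (w.restrict F) ≠ r P := by
    intro w hw hpos
    have h1 := ((hother w hw).2 hpos).1
    rw [hmemT', ← rho_apply, ← hr w, Finset.mem_insert, not_or] at h1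
    exact ⟨h1.2, h1.1⟩
  refine ⟨n, g, hn, hgu, ?_, ?_⟩
  · rw [hnorm P, Finset.sum_eq_single_of_mem P' (Place.mem_fiber.mpr hP') ?_, hord]
    intro w hw hne
    have hw' := Place.mem_fiber.mp hw
    have h0 := (hother w hne).1
    by_contra hcon
    have hpos : 0 < w.ord (f' : F') := lt_of_le_of_ne h0 (Ne.symm hcon)
    have := (hzero w hne hpos).2
    rw [hw'] at this
    exact this rfl
  · intro v hv
    have hne : ∀ w ∈ v.fiber F', w ≠ P' := by
      intro w hw h
      subst h
      exact hv ((Place.mem_fiber.mp hw).symm.trans hP')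
    constructor
    · rw [hnorm v]
      exact Finset.sum_nonneg fun w hw => (hother w (hne w hw)).1
    · intro hpos
      rw [hnorm v] at hpos
      obtain ⟨w, hw, hwpos⟩ : ∃ w ∈ v.fiber F', 0 < w.ord (f' : F') := by
        by_contra hcon
        push Not at hcon
        exact absurd hpos (not_lt.mpr (Finset.sum_nonpos hcon))
      have := hzero w (hne w hw) hwpos
      rwa [Place.mem_fiber.mp hw] at this

/-- **Abstract norm descent.** -/
theorem ndesc_abs (hNR : Stmt_NormRedAbs) [IsAlgClosed K] [IsAlgClosed k]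
    (hFF : IsFF K F) (hFF' : IsFF K F') (hFFt : IsFF k Ft) (hFFt' : IsFF k Ft')
    (hred : IsRedAbs S.V' S.red' r') (hmove : HasMoveAbs S.V' r') :
    ∃ r : Place K F → Place k Ft,
      (∀ P' : Place K F', r (P'.restrict F) = (r' P').restrict Ft) ∧
      IsRedAbs S.V S.red r ∧ HasMoveAbs S.V r := by
  have hF : FFFacts K F F' := ffFacts_of_isFF hFF hFF'
  have hFt : FFFacts k Ft Ft' := ffFacts_of_isFF hFFt hFFt'
  have hex : ∀ P : Place K F, ∃ P' : Place K F', P'.restrict F = P := fiber_nonempty hF.sum_e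
  choose s hs using hex
  have hr : ∀ P' : Place K F', rho Ft r' (s (P'.restrict F)) = rho Ft r' P' := fun P' =>
    rho_eq_of_restrict_eq S r' hNR hFF' hF hFt hred (hs _)
  exact ⟨fun P => rho Ft r' (s P), hr, isRedAbs_of_compat S r' hF hFt hred _ hr,
    hasMoveAbs_of_compat S r' hNR hF hmove _ hr⟩

end Descent

end Fermat.Agent.RED.H51
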