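import Mathlib
import Fermat.Agent.RED.H51_NDDescent
import Fermat.Agent.RED.Core2
import Fermat.Agent.RED.H17_LiftMove

/-!
# G-RED package NDESC (helper51), part 4: norm descent for the Gauss valuation

* `ndesc_compat` : for `F ≤ F'` with `[F' : F] = [F~' : F~]` and `r'` on `F'` with the
  conservation law and the moving lemma, there is `r` on `F` with both, and
  `r (P' | F) = (r' P') | F~` for all places `P'` of `F'`.
* `stmt_NDESC_of : Stmt_NormRedAbs → Stmt_NDESC`.
-/

set_option autoImplicit false
set_option linter.style.haveILetI false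
set_option linter.unusedSectionVars false
set_option synthInstance.maxHeartbeats 400000
set_option maxHeartbeats 1000000

noncomputable section

open AlgebraicCurve IntermediateField ModularCurve Fermat.Agent.S28.H73 Fermat.Agent.RED.H73

namespace Fermat.Agent.RED.H51

section Gauss

variable {C : Type} [Field C] (O : ValuationSubring C)
variable {F F' : IntermediateField C (LaurentSeries C)} (hle : F ≤ F')
variable (h : HasScale O F) (h' : HasScale O F')

include hle in
/-- The reduced field of a subfield is contained in the reduced field. -/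
theorem redField_mono : redField O F h ≤ redField O F' h' := by
  rintro y ⟨x, rfl⟩
  exact ⟨⟨⟨(x : ↥F), hle (x : ↥F).2⟩, x.2⟩, rfl⟩

/-- `[F' : F]` along the inclusion is the relative degree. -/
theorem finrank_along_inclusion {L E : Type} [Field L] [Field E] [Algebra L E]
    {A B : IntermediateField L E} (hAB : A ≤ B) :
    @Module.finrank ↥A ↥B _ _ (algebraAlong (IntermediateField.inclusion hAB)).toModule
      = A.relfinrank B := by
  rw [relfinrank_eq_finrank_of_le hAB]
  letI := algebraAlong (IntermediateField.inclusion hAB)
  let e : ↥B ≃ₗ[↥A] ↥(extendScalars hAB) :=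
    { toFun := fun x => ⟨(x : E), x.2⟩
      invFun := fun y => ⟨(y : E), y.2⟩
      map_add' := fun _ _ => rfl
      map_smul' := fun c x => by
        apply Subtype.ext
        show ((c • x : ↥B) : E) = (c : E) * (x : E)
        rw [Algebra.smul_def]
        rfl
      left_inv := fun _ => rfl
      right_inv := fun _ => rfl }
  exact e.finrank_eq

/-- **Norm descent for the Gauss valuation**, with the compatibility
`r (P' | F) = (r' P') | F~`. -/
theorem ndesc_compat (hNR : Stmt_NormRedAbs) [IsAlgClosed C] [IsAlgClosed (kV O)]
    (hFF : IsFF C ↥F) (hFF' : IsFF C ↥F')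
    (hFFt : IsFF (kV O) ↥(redField O F h)) (hFFt' : IsFF (kV O) ↥(redField O F' h'))
    (hdeg : F.relfinrank F' = (redField O F h).relfinrank (redField O F' h'))
    (r' : Place C ↥F' → Place (kV O) ↥(redField O F' h'))
    (hred' : IsRed O h' r') (hmove' : HasMove O h' r')
    (hφ : (IntermediateField.inclusion hle).toRingHom.IsIntegral)
    (hφt : (IntermediateField.inclusion (redField_mono O hle h h')).toRingHom.IsIntegral) :
    ∃ r : Place C ↥F → Place (kV O) ↥(redField O F h), IsRed O h r ∧ HasMove O h r ∧
      ∀ P' : Place C ↥F', r (P'.restrictAlong (IntermediateField.inclusion hle) hφ)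
        = (r' P').restrictAlong (IntermediateField.inclusion (redField_mono O hle h h')) hφt := by
  letI := algebraAlong (IntermediateField.inclusion hle)
  haveI := isScalarTower_along (IntermediateField.inclusion hle)
  letI := algebraAlong (IntermediateField.inclusion (redField_mono O hle h h'))
  haveI := isScalarTower_along (IntermediateField.inclusion (redField_mono O hle h h'))
  haveI : Module.Finite ↥F ↥F' :=
    (stmt_FFB_finite C ↥F ↥F' hFF hFF' (IntermediateField.inclusion hle)).2
  haveI : Module.Finite ↥(redField O F h) ↥(redField O F' h') :=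
    (stmt_FFB_finite (kV O) _ _ hFFt hFFt'
      (IntermediateField.inclusion (redField_mono O hle h h'))).2
  haveI : HasPrincipalDivisors C ↥F' := stmt_FFB_principal C ↥F' hFF'
  haveI : HasPrincipalDivisors (kV O) ↥(redField O F' h') := stmt_FFB_principal (kV O) _ hFFt'
  let S : RedPair C ↥F ↥F' ↥(redField O F h) ↥(redField O F' h') :=
    { V := gaussValSub O F h
      V' := gaussValSub O F' h'
      red := gaussResF' O h
      red' := gaussResF' O h'
      mem_iff := fun a => Iff.rfl
      red_compat := fun a ha => Subtype.ext rfl
      red'_surj := gaussResF'_surjective O h'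
      red'_eq_zero := fun a => by
        rw [isUnit_iff_gaussResF_ne_zero O h', not_not]
        constructor
        · intro h0
          exact congrArg Subtype.val h0
        · intro h0
          exact Subtype.ext h0
      scale' := fun f hf => by
        obtain ⟨c, u, hc, hu⟩ := exists_unit_scale O h' f hf
        exact ⟨c, hc, u, hu⟩
      finrank_eq := by
        rw [finrank_along_inclusion hle, finrank_along_inclusion (redField_mono O hle h h'),
          hdeg] }
  obtain ⟨r, hcompat, hred, hmove⟩ := ndesc_abs S r' hNR hFF hFF' hFFt hFFt' hred' hmove'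
  exact ⟨r, hred, hmove, hcompat⟩

end Gauss

/-- **Package NDESC**, from the norm–reduction lemma. -/
theorem stmt_NDESC_of (hNR : Stmt_NormRedAbs) : Fermat.Agent.RED.Stmt_NDESC := by
  intro C _ _ _ O _ F F' hle h h' hfrac hFF hFF' hFFt hFFt' hdeg hDR
  obtain ⟨-, r', hred', hgen'⟩ := hDR
  have hlift := Fermat.Agent.RED.H17.stmt_LIFT C O F' h' hfrac hFF' hFFt' r' hred' hgen'
  have hmove' := Fermat.Agent.RED.H17.stmt_MOVE C O F' h' hFF' hFFt' r' hred' hlift
  obtain ⟨r, hred, hmove, -⟩ := ndesc_compat O hle h h' hNR hFF hFF' hFFt hFFt' hdeg r' hred'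
    hmove' (stmt_FFB_finite C ↥F ↥F' hFF hFF' (IntermediateField.inclusion hle)).1
    (stmt_FFB_finite (kV O) _ _ hFFt hFFt'
      (IntermediateField.inclusion (redField_mono O hle h h'))).1
  exact ⟨r, hred, hmove⟩

end Fermat.Agent.RED.H51
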