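import Mathlib
import Fermat.Agent.RED.H51_NDFinal
import Fermat.Agent.RED.H10_NormRedAbs

/-!
# G-RED package NDESC (helper51): the final statements

* `stmt_NDESC : Stmt_NDESC` (unconditional);
* `ndesc` : the same with the compatibility `r (P' | F) = (r' P') | F~` exported.
Uses helper10's `H10.stmt_NormRedAbs` and helper17's `H17.stmt_LIFT`, `H17.stmt_MOVE`.
-/

set_option autoImplicit false
set_option linter.style.haveILetI false
set_option synthInstance.maxHeartbeats 400000
set_option maxHeartbeats 1000000

noncomputable section

open AlgebraicCurve IntermediateField ModularCurve Fermat.Agent.S28.H73 Fermat.Agent.RED.H73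

namespace Fermat.Agent.RED.H51

/-- **Package NDESC** (norm descent of the reduction map). -/
theorem stmt_NDESC : Fermat.Agent.RED.Stmt_NDESC :=
  stmt_NDESC_of Fermat.Agent.RED.H10.stmt_NormRedAbs

/-- **Norm descent with compatibility**: for `F ≤ F'` with `[F' : F] = [F~' : F~]` and a
reduction map `r'` of `F'` with the conservation law and the moving lemma there is a reduction
map `r` of `F` with the conservation law and the moving lemma such that
`r (P' | F) = (r' P') | F~` for every place `P'` of `F'`. -/
theorem ndesc {C : Type} [Field C] [IsAlgClosed C] (O : ValuationSubring C) [IsAlgClosed (kV O)]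
    {F F' : IntermediateField C (LaurentSeries C)} (hle : F ≤ F')
    (h : HasScale O F) (h' : HasScale O F')
    (hFF : IsFF C ↥F) (hFF' : IsFF C ↥F')
    (hFFt : IsFF (kV O) ↥(redField O F h)) (hFFt' : IsFF (kV O) ↥(redField O F' h'))
    (hdeg : F.relfinrank F' = (redField O F h).relfinrank (redField O F' h'))
    (r' : Place C ↥F' → Place (kV O) ↥(redField O F' h'))
    (hred' : IsRed O h' r') (hmove' : HasMove O h' r')
    (hφ : (IntermediateField.inclusion hle).toRingHom.IsIntegral)
    (hφt : (IntermediateField.inclusion (redField_mono O hle h h')).toRingHom.IsIntegral) :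
    ∃ r : Place C ↥F → Place (kV O) ↥(redField O F h), IsRed O h r ∧ HasMove O h r ∧
      ∀ P' : Place C ↥F', r (P'.restrictAlong (IntermediateField.inclusion hle) hφ)
        = (r' P').restrictAlong (IntermediateField.inclusion (redField_mono O hle h h')) hφt :=
  ndesc_compat O hle h h' Fermat.Agent.RED.H10.stmt_NormRedAbs hFF hFF' hFFt hFFt' hdeg r'
    hred' hmove' hφ hφt

end Fermat.Agent.RED.H51
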