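import Fermat.Agent.RED.H36_RM
import Fermat.Agent.RED.H36_EQ
import Fermat.Agent.RED.H51_NDESC
import Fermat.Agent.RED.KD.H22_KD
import Fermat.Agent.RED.ES.H95_ES3a
import Fermat.Agent.RED.H76_DR2

/-!
# G-RED, unconditional outputs (helper36)

* `stmt_RM : Stmt_RM` : reduction map with conservation law and moving lemma at every level.
* `stmt_TIcore : Stmt_TIcore`.
* `allRed` : `RedPackage N p ℓ A` for every level `N`, every `p` and every place `A` over a prime
  `ℓ ∤ N p` (the input `AllRed` of G-TOR, S30, S17, S44).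
-/

set_option autoImplicit false

noncomputable section

namespace Fermat.Agent.RED.H36

/-- **Package RM**, unconditional. -/
theorem stmt_RM : Stmt_RM := stmt_RM_of H76.stmt_DR2 H51.stmt_NDESC

/-- **Package TIcore**, unconditional. -/
theorem stmt_TIcore : Stmt_TIcore :=
  Fermat.Agent.S18.stmt_TIcore_of H76.stmt_DR2 Fermat.Agent.RED.KD.H22.stmt_KD

/-- **All reduction packages**, unconditional. -/
theorem allRed (N p ℓ : ℕ) [NeZero N] [NeZero ℓ] (hℓ : ℓ.Prime) (hNp : ¬ ℓ ∣ N * p)
    (A : ValuationSubring (AlgebraicClosure ℚ)) (hA : A.LiesOverPrime ℓ) :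
    Fermat.Agent.S37.RedPackage N p ℓ A :=
  allRed_of H76.stmt_DR2 H51.stmt_NDESC Fermat.Agent.RED.KD.H22.stmt_KD stmt_EQ H95.stmt_ES3
    N p ℓ hℓ hNp A hA

end Fermat.Agent.RED.H36
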