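import Fermat.Agent.RED.H76_IGModj

/-!
# G-RED package IG-MODj (helper76): bounds for the ramification of `j`

For every place `v` of `F_N · ℚ̄` (any level `N`):
* `ord_jF_sub_le` : `0 < ord_v (j - a)` and `a = j(τ)` imply `ord_v (j - a) ≤ jOrd τ`;
* `ord_jF_le_three` : `ord_v j ≤ 3`;
* `ord_jF_sub_1728_le_two` : `ord_v (j - 1728) ≤ 2`;
* `ord_jF_sub_eq_one` : `ord_v (j - a) = 1` for `a ≠ 0, 1728` (when it is positive);
* `neg_le_ord_jF` : `-N ≤ ord_v j` (pole order at most `N`).

Abstract form: `gc_ord_le` (same setting as `Fermat.Agent.S24.gc_card_zeros`): if `L / K(t)` is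
a finite Galois extension with a valuation `w`, trivial on `K`, with `exp (-n) ≤ w t < 1`, then
`ord_v t ≤ n` at every place `v` of an intermediate field `F` with `ord_v t > 0`.
(All primes of `L` over `t = 0` are conjugate and `t` is fixed by the Galois group.)
-/

set_option autoImplicit false
set_option linter.style.haveILetI false
set_option synthInstance.maxHeartbeats 400000
set_option maxHeartbeats 1000000

noncomputable section

open WithZero IsDedekindDomain AlgebraicCurve
open scoped Pointwise

namespace Fermat.Agent.RED.H76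

open Fermat.Agent.S24

section Abstract

theorem ord_le_aux {K A : Type*} (E : Type*) {F L : Type*} [Field K] [IsAlgClosed K] [CharZero K]
    [CommRing A] [IsDedekindDomain A] [Algebra K A]
    [Field E] [Field F] [Field L]
    [Algebra A E] [IsFractionRing A E]
    [Algebra E F] [Algebra E L] [Algebra F L] [IsScalarTower E F L]
    [Algebra A F] [IsScalarTower A E F] [Algebra A L] [IsScalarTower A E L] [IsScalarTower A F L]
    [Algebra K F] [IsScalarTower K A F]
    [FiniteDimensional E L] [IsGalois E L]
    (t : A) (ht : (Ideal.span {t}).IsMaximal) (ht0 : t ≠ 0)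
    (hplace : ∀ v : Place K F, 0 < v.ord (algebraMap A F t) →
      ∀ a : A, algebraMap A F a ∈ v.toValuationSubring)
    (w : Valuation L ℤᵐ⁰) (hwA : ∀ a : A, w (algebraMap A L a) ≤ 1)
    (hwt : w (algebraMap A L t) < 1)
    (n : ℕ) (hord : exp (-(n : ℤ)) ≤ w (algebraMap A L t))
    (v : Place K F) (hv : 0 < v.ord (algebraMap A F t)) :
    v.ord (algebraMap A F t) ≤ n := by
  have : CharZero A := charZero_of_injective_algebraMap (algebraMap K A).injective
  have : CharZero E := charZero_of_injective_algebraMap (IsFractionRing.injective A E)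
  have : FiniteDimensional E F := FiniteDimensional.left E F L
  have : Algebra.IsSeparable E F := inferInstance
  let B := integralClosure A F
  let C := integralClosure A L
  have : IsDedekindDomain B := IsIntegralClosure.isDedekindDomain A E F B
  have : IsDedekindDomain C := IsIntegralClosure.isDedekindDomain A E L C
  have : IsFractionRing B F := IsIntegralClosure.isFractionRing_of_finite_extension A E F B
  have : IsFractionRing C L := IsIntegralClosure.isFractionRing_of_finite_extension A E L C
  have : Module.Finite A C := IsIntegralClosure.finite A E L C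
  have : Algebra.IsIntegral A B := IsIntegralClosure.isIntegral_algebra A F
  have : Algebra.IsIntegral A C := IsIntegralClosure.isIntegral_algebra A L
  let i1 : Algebra B L := inferInstance
  have : IsScalarTower B F L := inferInstance
  have : IsScalarTower A B L := inferInstance
  let i2 : Algebra K B := inferInstance
  have : IsScalarTower K B F := inferInstance
  let i3 : Algebra B C := (IsIntegralClosure.lift A C L : B →ₐ[A] C).toRingHom.toAlgebra
  have : IsScalarTower A B C := by
    refine IsScalarTower.of_algebraMap_eq fun a => ?_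
    exact ((IsIntegralClosure.lift A C L : B →ₐ[A] C).commutes a).symm
  have : IsScalarTower B C L := by
    refine IsScalarTower.of_algebraMap_eq fun b => ?_
    exact (IsIntegralClosure.algebraMap_lift A C L b).symm
  have : Algebra.IsIntegral B C := Algebra.IsIntegral.tower_top (R := A)
  let i4 : MulSemiringAction (L ≃ₐ[E] L) C := IsIntegralClosure.MulSemiringAction A E L C
  have : IsGaloisGroup (L ≃ₐ[E] L) A C := IsGaloisGroup.of_isFractionRing _ _ _ E L
  have hAL : Function.Injective (algebraMap A L) := by
    rw [IsScalarTower.algebraMap_eq A E L]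
    exact (algebraMap E L).injective.comp (IsFractionRing.injective A E)
  have hBC : Function.Injective (algebraMap B C) := by
    intro x y hxy
    have h1 := congrArg (algebraMap C L) hxy
    rw [← IsScalarTower.algebraMap_apply B C L, ← IsScalarTower.algebraMap_apply B C L,
      IsScalarTower.algebraMap_apply B F L, IsScalarTower.algebraMap_apply B F L] at h1
    exact (IsFractionRing.injective B F) ((algebraMap F L).injective h1)
  have hAB : Function.Injective (algebraMap A B) := by
    intro x y hxy
    apply hAL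
    rw [IsScalarTower.algebraMap_apply A B L, IsScalarTower.algebraMap_apply A B L, hxy]
  have htB : algebraMap A B t ≠ 0 := fun h => ht0 (hAB (h.trans (map_zero _).symm))
  -- the valuation is `≤ 1` on `C`
  have hwC : ∀ c : C, w (algebraMap C L c) ≤ 1 := by
    intro c
    have hint : IsIntegral A (algebraMap C L c) :=
      (IsIntegralClosure.isIntegral_iff (A := C)).mpr ⟨c, rfl⟩
    have := h95_mem_valuationSubring_of_isIntegral (A := A) w.valuationSubring
      (fun a => (Valuation.mem_valuationSubring_iff _ _).mpr (hwA a)) hint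
    exact (Valuation.mem_valuationSubring_iff _ _).mp this
  -- the prime `P` of `w`
  set P : Ideal C := h95_valLT w hwC with hP
  have hPprime : P.IsPrime := h95_valLT_isPrime w hwC
  set p : Ideal A := Ideal.span {t} with hp
  have htP : algebraMap A C t ∈ P := by
    rw [hP, h95_mem_valLT, ← IsScalarTower.algebraMap_apply A C L]
    exact hwt
  have hPp : P.LiesOver p := by
    refine ⟨?_⟩
    have hle : p ≤ P.under A := by
      rw [hp, Ideal.span_singleton_le_iff_mem]
      exact htP
    exact Ideal.IsMaximal.eq_of_le ht (Ideal.IsPrime.under A P).ne_top hle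
  -- the prime `Q` of `B` of the place `v`
  have hB : ∀ b : B, algebraMap B F b ∈ v.toValuationSubring := by
    intro b
    exact h95_mem_valuationSubring_of_isIntegral (A := A) v.toValuationSubring (hplace v hv)
      ((IsIntegralClosure.isIntegral_iff (A := B)).mpr ⟨b, rfl⟩)
  obtain ⟨Q, hQ⟩ := exists_heightOneSpectrum_of_le v hB
  have htF : algebraMap A F t ≠ 0 := by
    rw [IsScalarTower.algebraMap_apply A B F]
    exact fun h => htB ((IsFractionRing.injective B F) (h.trans (map_zero _).symm))
  have hordQ : v.ord (algebraMap A F t) = -(WithZero.log (Q.valuation F (algebraMap A F t))) :=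
    ord_eq_of_valuationSubring_eq v Q hQ htF
  -- `m = ord_v t`
  obtain ⟨m, hm⟩ : ∃ m : ℕ, v.ord (algebraMap A F t) = (m : ℤ) :=
    ⟨(v.ord (algebraMap A F t)).toNat, (Int.toNat_of_nonneg hv.le).symm⟩
  rw [hm]
  have hmQ : algebraMap A B t ∈ Q.asIdeal ^ m := by
    rw [← HeightOneSpectrum.intValuation_le_pow_iff_mem,
      ← HeightOneSpectrum.valuation_of_algebraMap (K := F)]
    change Q.valuation F (algebraMap B F (algebraMap A B t)) ≤ _
    rw [← IsScalarTower.algebraMap_apply A B F]
    have hne : Q.valuation F (algebraMap A F t) ≠ 0 := (Valuation.ne_zero_iff _).mpr htF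
    rw [← exp_log hne, exp_le_exp]
    omega
  -- a prime `P'` of `C` over `Q`
  have hker : (⊥ : Ideal C).comap (algebraMap B C) ≤ Q.asIdeal := by
    intro b hb
    rw [Ideal.mem_comap, Ideal.mem_bot] at hb
    have : b = 0 := hBC (hb.trans (map_zero _).symm)
    rw [this]
    exact Q.asIdeal.zero_mem
  obtain ⟨P', -, hP'prime, hP'Q⟩ :=
    Ideal.exists_ideal_over_prime_of_isIntegral (S := C) Q.asIdeal (⊥ : Ideal C) hker
  have hmP' : algebraMap A C t ∈ P' ^ m := by
    rw [IsScalarTower.algebraMap_apply A B C]
    have h1 : algebraMap B C (algebraMap A B t) ∈ (Q.asIdeal ^ m).map (algebraMap B C) :=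
      Ideal.mem_map_of_mem _ hmQ
    rw [Ideal.map_pow] at h1
    refine Ideal.pow_right_mono ?_ m h1
    rw [Ideal.map_le_iff_le_comap, hP'Q]
  have hm0 : 0 < m := by
    have := hv
    rw [hm] at this
    exact_mod_cast this
  have htP' : algebraMap A C t ∈ P' := Ideal.pow_le_self hm0.ne' hmP'
  have hP'p : P'.LiesOver p := by
    refine ⟨?_⟩
    have hle : p ≤ P'.under A := by
      rw [hp, Ideal.span_singleton_le_iff_mem]
      exact htP'
    exact Ideal.IsMaximal.eq_of_le ht (Ideal.IsPrime.under A P').ne_top hle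
  -- conjugacy
  obtain ⟨g, hg⟩ := Ideal.exists_smul_eq_of_isGaloisGroup p P P' (L ≃ₐ[E] L)
  have hmP : algebraMap A C t ∈ P ^ m := by
    rw [← hg, ← smul_pow', Ideal.mem_pointwise_smul_iff_inv_smul_mem, smul_algebraMap] at hmP'
    exact hmP'
  have h2 := h95_le_exp_of_mem_pow w hwC m hmP
  rw [← IsScalarTower.algebraMap_apply A C L] at h2
  have h3 := hord.trans h2
  rw [exp_le_exp] at h3
  omega

end Abstract

section Concrete

open Polynomial

/-- **Ramification bound** (abstract): in the setting of `Fermat.Agent.S24.gc_card_zeros`, the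
order of `t` at a place of `F` is at most `n` if `exp (-n) ≤ w t`. -/
theorem gc_ord_le
    {K E F L : Type*} [Field K] [IsAlgClosed K] [CharZero K] [Field E] [Field F] [Field L]
    [Algebra K E] [Algebra K F] [Algebra K L] [Algebra E F] [Algebra E L] [Algebra F L]
    [IsScalarTower K E F] [IsScalarTower K E L] [IsScalarTower E F L] [IsScalarTower K F L]
    [FiniteDimensional E L] [IsGalois E L]
    (t : E) (ht : Transcendental K t)
    (hE : ∀ y : E, ∃ p q : Polynomial K, Polynomial.aeval t q ≠ 0 ∧
      y = Polynomial.aeval t p / Polynomial.aeval t q)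
    (w : Valuation L ℤᵐ⁰) (hwK : ∀ c : K, c ≠ 0 → w (algebraMap K L c) = 1)
    (hwt : w (algebraMap E L t) < 1)
    (n : ℕ) (hord : exp (-(n : ℤ)) ≤ w (algebraMap E L t))
    (v : Place K F) (hv : 0 < v.ord (algebraMap E F t)) :
    v.ord (algebraMap E F t) ≤ n := by
  let iAE : Algebra K[X] E := (Polynomial.aeval t : K[X] →ₐ[K] E).toRingHom.toAlgebra
  have hAE : ∀ p : K[X], algebraMap K[X] E p = Polynomial.aeval t p := fun p => rfl
  have : IsScalarTower K K[X] E := by
    refine IsScalarTower.of_algebraMap_eq fun k => ?_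
    rw [hAE, Polynomial.algebraMap_apply, Algebra.algebraMap_self, RingHom.id_apply,
      Polynomial.aeval_C]
  let iAF : Algebra K[X] F := ((algebraMap E F).comp (algebraMap K[X] E)).toAlgebra
  let iAL : Algebra K[X] L := ((algebraMap E L).comp (algebraMap K[X] E)).toAlgebra
  have : IsScalarTower K[X] E F := IsScalarTower.of_algebraMap_eq' rfl
  have : IsScalarTower K[X] E L := IsScalarTower.of_algebraMap_eq' rfl
  have : IsScalarTower K[X] F L := by
    refine IsScalarTower.of_algebraMap_eq fun p => ?_
    rw [IsScalarTower.algebraMap_apply K[X] E L, IsScalarTower.algebraMap_apply K[X] E F,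
      ← IsScalarTower.algebraMap_apply E F L]
  have : IsScalarTower K K[X] F := by
    refine IsScalarTower.of_algebraMap_eq fun k => ?_
    rw [IsScalarTower.algebraMap_apply K[X] E F, ← IsScalarTower.algebraMap_apply K K[X] E,
      ← IsScalarTower.algebraMap_apply K E F]
  have hinj : Function.Injective (algebraMap K[X] E) := transcendental_iff_injective.mp ht
  have : FaithfulSMul K[X] E := (faithfulSMul_iff_algebraMap_injective K[X] E).mpr hinj
  have : IsFractionRing K[X] E := by
    refine IsFractionRing.of_field K[X] E fun y => ?_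
    obtain ⟨p, q, -, hy⟩ := hE y
    exact ⟨p, q, hy⟩
  have hXF : algebraMap K[X] F X = algebraMap E F t := by
    rw [IsScalarTower.algebraMap_apply K[X] E F, hAE, Polynomial.aeval_X]
  have hXL : algebraMap K[X] L X = algebraMap E L t := by
    rw [IsScalarTower.algebraMap_apply K[X] E L, hAE, Polynomial.aeval_X]
  have hmemF : ∀ (V : ValuationSubring F), (∀ k : K, algebraMap K F k ∈ V) →
      algebraMap E F t ∈ V → ∀ a : K[X], algebraMap K[X] F a ∈ V := by
    intro V hVK hVt a
    induction a using Polynomial.induction_on' with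
    | add p q hp hq => rw [map_add]; exact V.add_mem _ _ hp hq
    | monomial n k =>
      rw [← Polynomial.C_mul_X_pow_eq_monomial, map_mul, map_pow, hXF,
        ← Polynomial.algebraMap_eq, ← IsScalarTower.algebraMap_apply K K[X] F]
      exact V.mul_mem _ _ (hVK k) (V.pow_mem hVt n)
  have hwA : ∀ a : K[X], w (algebraMap K[X] L a) ≤ 1 := by
    intro a
    induction a using Polynomial.induction_on' with
    | add p q hp hq => rw [map_add]; exact (w.map_add _ _).trans (max_le hp hq)
    | monomial n k =>
      have hk : w (algebraMap K L k) ≤ 1 := by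
        rcases eq_or_ne k 0 with rfl | hk
        · simp
        · exact (hwK k hk).le
      have hkL : algebraMap K[X] L (Polynomial.C k) = algebraMap K L k := by
        rw [IsScalarTower.algebraMap_apply K[X] E L, hAE, Polynomial.aeval_C,
          ← IsScalarTower.algebraMap_apply K E L]
      rw [← Polynomial.C_mul_X_pow_eq_monomial, map_mul, map_pow, hXL, hkL, map_mul, map_pow]
      exact mul_le_one' hk (pow_le_one' hwt.le n)
  have key := ord_le_aux (K := K) (A := K[X]) E (F := F) (L := L)
    (X : K[X]) h95_span_X_isMaximal Polynomial.X_ne_zero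
    (fun v hv => hmemF v.toValuationSubring v.algebraMap_mem'
      (h95_mem_of_ord_nonneg v (by rw [← hXF]; exact hv.le)))
    w hwA (by rw [hXL]; exact hwt) n (by rw [hXL]; exact hord) v (by rw [hXF]; exact hv)
  rw [hXF] at key
  exact key

end Concrete

section Modular

open CongruenceSubgroup ModularGroup ModularCurve IntermediateField
open scoped MatrixGroups

attribute [local instance] ModClosure.instFieldE ModClosure.instField ModClosure.instAlgKE
  ModClosure.instAlgK ModClosure.instAlgEF ModClosure.instAlgF ModClosure.instAlgE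
  ModClosure.towerKEF ModClosure.towerKFL ModClosure.towerEFL ModClosure.towerKEL
  ModClosure.finite ModClosure.galois

variable {N : ℕ} [NeZero N]

/-- The order of `j - a` at a place of `F_N · ℚ̄` is at most the order of `j - j(τ)` at `τ`,
`a = j(τ)`. -/
theorem ord_jF_sub_le_of_closure (M : ModClosure N) (a : Kbar) (τ : UpperHalfPlane)
    (hτ : iotaC a = jAn τ) (hpos : 0 < jOrd τ)
    (v : Place Kbar (FN N)) (hv : 0 < v.ord (Fermat.Agent.S24.jF N - algebraMap Kbar (FN N) a)) :
    v.ord (Fermat.Agent.S24.jF N - algebraMap Kbar (FN N) a) ≤ jOrd τ := by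
  have h := gc_ord_le (K := Kbar) (E := M.E) (F := FN N) (L := M.L)
    (M.t - algebraMap Kbar M.E a) (h85_transcendental_sub M.t_transcendental a)
    (h85_gen_sub M.t_gen a) (M.w τ) (M.w_algebraMap τ)
    (by
      rw [M.w_j τ a hτ, ← exp_zero, exp_lt_exp]
      omega)
    (jOrd τ) (by rw [M.w_j τ a hτ]) v
    (by rw [map_sub, M.t_map, ← IsScalarTower.algebraMap_apply]; exact hv)
  rw [map_sub, M.t_map, ← IsScalarTower.algebraMap_apply] at h
  exact h

/-- The pole order of `j` at a place of `F_N · ℚ̄` is at most `N`. -/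
theorem neg_le_ord_jF_of_closure (M : ModClosure N) (v : Place Kbar (FN N)) :
    -(N : ℤ) ≤ v.ord (Fermat.Agent.S24.jF N) := by
  have ht0 : M.t ≠ 0 := fun h0 => M.t_transcendental (h0 ▸ isAlgebraic_zero)
  have hNpos : 0 < N := Nat.pos_of_ne_zero (NeZero.ne N)
  by_cases hv : v.ord (Fermat.Agent.S24.jF N) < 0
  · have hv' : 0 < v.ord (algebraMap M.E (FN N) (M.t)⁻¹) := by
      rw [map_inv₀, M.t_map, Place.ord_inv]
      omega
    have h := gc_ord_le (K := Kbar) (E := M.E) (F := FN N) (L := M.L)
      (M.t)⁻¹ (h85_transcendental_inv M.t_transcendental)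
      (h85_gen_inv ht0 M.t_gen) M.winf M.winf_algebraMap
      (by
        rw [M.winf_j, ← exp_zero, exp_lt_exp]
        omega)
      N (by rw [M.winf_j]) v hv'
    rw [map_inv₀, M.t_map, Place.ord_inv] at h
    omega
  · omega

variable (N)

theorem ord_jF_sub_le (a : Kbar) (τ : UpperHalfPlane) (hτ : iotaC a = jAn τ) (hpos : 0 < jOrd τ)
    (v : Place Kbar (FN N)) (hv : 0 < v.ord (Fermat.Agent.S24.jF N - algebraMap Kbar (FN N) a)) :
    v.ord (Fermat.Agent.S24.jF N - algebraMap Kbar (FN N) a) ≤ jOrd τ :=
  ord_jF_sub_le_of_closure (modClosure N) a τ hτ hpos v hv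

/-- **`e(P | j) ≤ 3` over `j = 0`.** -/
theorem ord_jF_le_three (v : Place Kbar (FN N)) : v.ord (Fermat.Agent.S24.jF N) ≤ 3 := by
  by_cases hv : 0 < v.ord (Fermat.Agent.S24.jF N)
  · have h := ord_jF_sub_le N 0 UpperHalfPlane.ρ (by rw [map_zero, jAn_rho])
      (by rw [jOrd_rho]; norm_num) v (by rw [map_zero, sub_zero]; exact hv)
    rw [map_zero, sub_zero, jOrd_rho] at h
    exact_mod_cast h
  · omega

/-- **`e(P | j) ≤ 2` over `j = 1728`.** -/
theorem ord_jF_sub_1728_le_two (v : Place Kbar (FN N)) :
    v.ord (Fermat.Agent.S24.jF N - algebraMap Kbar (FN N) 1728) ≤ 2 := by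
  by_cases hv : 0 < v.ord (Fermat.Agent.S24.jF N - algebraMap Kbar (FN N) 1728)
  · have h := ord_jF_sub_le N 1728 UpperHalfPlane.I (by rw [map_ofNat, jAn_I])
      (by rw [jOrd_I]; norm_num) v hv
    rw [jOrd_I] at h
    exact_mod_cast h
  · omega

/-- **`e(P | j) = 1` over `j = a`, `a ≠ 0, 1728`.** -/
theorem ord_jF_sub_le_one (a : Kbar) (h0 : a ≠ 0) (h1728 : a ≠ 1728) (v : Place Kbar (FN N)) :
    v.ord (Fermat.Agent.S24.jF N - algebraMap Kbar (FN N) a) ≤ 1 := by
  by_cases hv : 0 < v.ord (Fermat.Agent.S24.jF N - algebraMap Kbar (FN N) a)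
  · obtain ⟨τ, hτ⟩ := jAn_surjective (iotaC a)
    have h0' : jAn τ ≠ 0 := by
      rw [hτ]
      exact (map_ne_zero iotaC).mpr h0
    have h1' : jAn τ ≠ 1728 := by
      rw [hτ]
      intro h
      apply h1728
      apply iotaC.injective
      rw [h, map_ofNat]
    have hj : jOrd τ = 1 := jOrd_eq_one τ h0' h1'
    have h := ord_jF_sub_le N a τ hτ.symm (by rw [hj]; norm_num) v hv
    rw [hj] at h
    exact_mod_cast h
  · omega

theorem ord_jF_sub_eq_one (a : Kbar) (h0 : a ≠ 0) (h1728 : a ≠ 1728) (v : Place Kbar (FN N))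
    (hv : 0 < v.ord (Fermat.Agent.S24.jF N - algebraMap Kbar (FN N) a)) :
    v.ord (Fermat.Agent.S24.jF N - algebraMap Kbar (FN N) a) = 1 := by
  have := ord_jF_sub_le_one N a h0 h1728 v
  omega

/-- **Pole order of `j` at most `N`.** -/
theorem neg_le_ord_jF (v : Place Kbar (FN N)) : -(N : ℤ) ≤ v.ord (Fermat.Agent.S24.jF N) :=
  neg_le_ord_jF_of_closure (modClosure N) v

/-! ### The same statements for `H73.jF` -/

theorem ord_jF_le_three' (v : Place Kbar (FN N)) :
    v.ord (Fermat.Agent.RED.H73.jF (L := Kbar) N) ≤ 3 := by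
  rw [← jF_eq]
  exact ord_jF_le_three N v

theorem ord_jF_sub_1728_le_two' (v : Place Kbar (FN N)) :
    v.ord (Fermat.Agent.RED.H73.jF (L := Kbar) N - algebraMap Kbar (FN N) 1728) ≤ 2 := by
  rw [← jF_eq]
  exact ord_jF_sub_1728_le_two N v

theorem ord_jF_sub_le_one' (a : Kbar) (h0 : a ≠ 0) (h1728 : a ≠ 1728) (v : Place Kbar (FN N)) :
    v.ord (Fermat.Agent.RED.H73.jF (L := Kbar) N - algebraMap Kbar (FN N) a) ≤ 1 := by
  rw [← jF_eq]
  exact ord_jF_sub_le_one N a h0 h1728 v

theorem neg_le_ord_jF' (v : Place Kbar (FN N)) :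
    -(N : ℤ) ≤ v.ord (Fermat.Agent.RED.H73.jF (L := Kbar) N) := by
  rw [← jF_eq]
  exact neg_le_ord_jF N v

end Modular

end Fermat.Agent.RED.H76
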