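import Fermat.Agent.RED.H33_UniGal
import Fermat.Agent.RED.Core2
import Fermat.Agent.RED.H73_GAFinal
import Fermat.Agent.RED.H95_IsFF

/-!
# G-RED, package EQ (helper33): `stmt_EQ : Stmt_EQ`

The Deuring reduction of places of `F_N · ℚ̄` is equivariant under the decomposition group of
`A`: for `σ ∈ D_A` the semilinear automorphism `redGalois σ` of the reduced field (the residual
action of `σ` on the coefficients of `q`-expansions) satisfies `r (σ P) = redGalois σ • r P`.

This is `H33.isRed_decomposition` (uniqueness of the reduction map, `RED/H33_Uni.lean`) with the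
function-field hypotheses supplied by helper95 (`IsFF` for `F_N · ℚ̄`), helper73 (`IsFF` for the
reduced field) and helper42 (`FracScalable`).
-/

set_option autoImplicit false
set_option synthInstance.maxHeartbeats 400000
set_option maxHeartbeats 1000000

noncomputable section

open AlgebraicCurve ModularCurve Fermat.Agent.S28 Fermat.Agent.S28.H73 Fermat.Agent.RED.H73

namespace Fermat.Agent.RED.H33

/-- **Package EQ**: equivariance of the reduction map under the decomposition group. -/
theorem stmt_EQ : Stmt_EQ := by
  intro N ℓ _ hℓ hℓN A hA r hr σ hσ
  haveI : IsAlgClosed (kV A) := isAlgClosed_kV A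
  refine ⟨redGalois A (modularFunctionFieldFull N) (hasScale_laurentBaseChange A N) σ hσ,
    fun x n => ?_, fun P => ?_⟩
  · rw [coe_redGalois_smul, coeffMap_coeff, autkHom_eq_smul A σ hσ]
  · exact isRed_decomposition A (modularFunctionFieldFull N) (hasScale_laurentBaseChange A N)
      (H95.stmt_HKA_isFF N) (isFF_redField_bar N ℓ hℓ hℓN A hA)
      (H42.fracScalable_laurentBaseChange A N) hσ hr P

end Fermat.Agent.RED.H33
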