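import Fermat.Agent.RED.H36_Fin
import Fermat.Agent.RED.H17_LiftMove
import Fermat.Agent.RED.H73_GACard
import Fermat.Agent.RED.H95_IsFF
import Fermat.Agent.RED.H51_HKA
import Fermat.Agent.S18.Final

/-!
# G-RED, FIN (helper36): `Stmt_RM` and the final wiring of S37

* `relfinrank_level_eq` : `[F_M : F_N] = [F~_M : F~_N]` for `N ∣ M`, `ℓ ∤ M` (helper73's GA).
* `stmt_RM_of` : `Stmt_DR2 → Stmt_NDESC → Stmt_RM` (tame levels: LIFT + MOVE of helper17;
  `ℓ = 2, 3`: norm descent from `3 N`, `2 N`).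
* `allRed_of` : `Stmt_DR2 → Stmt_NDESC → Stmt_KD → Stmt_EQ → Stmt_ES3 → ∀ N p ℓ A, RedPackage`.
* `s37_of` : the frozen statement of S37 from the same five packages.
-/

set_option autoImplicit false
set_option linter.style.haveILetI false
set_option synthInstance.maxHeartbeats 400000
set_option maxHeartbeats 1000000

noncomputable section

open AlgebraicCurve ModularCurve Fermat.Agent.S28.H73 Fermat.Agent.RED.H73

namespace Fermat.Agent.RED.H36

/-- `F_{N,K} ≤ F_{M,K}` for `N ∣ M`. -/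
theorem fullC_mono (K : Type) [Field K] {N M : ℕ} (h : N ∣ M) :
    modularFunctionFieldFullC K N ≤ modularFunctionFieldFullC K M := by
  apply IntermediateField.adjoin.mono
  rintro x ⟨d, hd0, hd, hx⟩
  exact ⟨d, hd0, hd.trans h, hx⟩

theorem adjoin_jq_le_fullC (K : Type) [Field K] (N : ℕ) :
    IntermediateField.adjoin K ({jqModC K} : Set (LaurentSeries K))
      ≤ modularFunctionFieldFullC K N := by
  rw [IntermediateField.adjoin_le_iff]
  rintro x hx
  rw [Set.mem_singleton_iff] at hx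
  subst hx
  exact jqModC_mem_full K N

theorem dedekindPsi_ne_zero (N : ℕ) [NeZero N] : dedekindPsi N ≠ 0 := by
  rw [dedekindPsi]
  have h1 : (1 : ℕ) ∈ (N.divisors).filter (fun d => Squarefree d) := by
    rw [Finset.mem_filter]
    exact ⟨Nat.one_mem_divisors.mpr (NeZero.ne N), squarefree_one⟩
  have h2 : N / 1 ≤ ∑ d ∈ (N.divisors).filter (fun d => Squarefree d), N / d :=
    Finset.single_le_sum (f := fun d => N / d) (fun _ _ => Nat.zero_le _) h1
  have h3 : 0 < N := Nat.pos_of_ne_zero (NeZero.ne N)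
  rw [Nat.div_one] at h2
  omega

/-- `[F_M : F_N] = [F~_M : F~_N]`. -/
theorem relfinrank_level_eq {N M ℓ : ℕ} [NeZero N] [NeZero M] (hNM : N ∣ M) (hℓ : ℓ.Prime)
    (hℓM : ¬ ℓ ∣ M) (A : ValuationSubring (AlgebraicClosure ℚ)) (hA : A.LiesOverPrime ℓ) :
    (modularFunctionFieldBar N).relfinrank (modularFunctionFieldBar M)
      = (redField A (modularFunctionFieldBar N) (hasScale_laurentBaseChange A N)).relfinrank
          (redField A (modularFunctionFieldBar M) (hasScale_laurentBaseChange A M)) := by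
  have hℓN : ¬ ℓ ∣ N := fun hd => hℓM (hd.trans hNM)
  have e1 : redField A (modularFunctionFieldBar N) (hasScale_laurentBaseChange A N)
      = modularFunctionFieldFullC (kV A) N := stmt_GA N ℓ hℓ hℓN A hA
  have e2 : redField A (modularFunctionFieldBar M) (hasScale_laurentBaseChange A M)
      = modularFunctionFieldFullC (kV A) M := stmt_GA M ℓ hℓ hℓM A hA
  have e3 : modularFunctionFieldBar N = modularFunctionFieldFullC (AlgebraicClosure ℚ) N :=
    laurentBaseChange_full_eq N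
  have e4 : modularFunctionFieldBar M = modularFunctionFieldFullC (AlgebraicClosure ℚ) M :=
    laurentBaseChange_full_eq M
  rw [e1, e2, e3, e4]
  have d1 := (stmt_GA_deg N ℓ hℓ hℓN A hA).1
  have d2 := (stmt_GA_deg M ℓ hℓ hℓM A hA).1
  have c1 := relfinrank_fullC_bar N
  have c2 := relfinrank_fullC_bar M
  have t1 := IntermediateField.relfinrank_mul_relfinrank
    (adjoin_jq_le_fullC (AlgebraicClosure ℚ) N) (fullC_mono (AlgebraicClosure ℚ) hNM)
  have t2 := IntermediateField.relfinrank_mul_relfinrank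
    (adjoin_jq_le_fullC (kV A) N) (fullC_mono (kV A) hNM)
  rw [d1, c1] at t2
  rw [d2, c2] at t2
  rw [c1, c2] at t1
  have h0 : 0 < dedekindPsi N := Nat.pos_of_ne_zero (dedekindPsi_ne_zero N)
  exact Nat.eq_of_mul_eq_mul_left h0 (t1.trans t2.symm)

/-- **Package RM** from the Deuring datum at the tame levels and norm descent. -/
theorem stmt_RM_of (hDR2 : Stmt_DR2) (hND : Stmt_NDESC) : Stmt_RM := by
  intro N ℓ _ hℓ hℓN A hA
  haveI : IsAlgClosed (kV A) := isAlgClosed_kV A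
  -- the tame levels
  have tame : ∀ (M : ℕ) [NeZero M], ¬ ℓ ∣ M → (5 ≤ ℓ ∨ (ℓ = 3 ∧ 2 ∣ M) ∨ (ℓ = 2 ∧ 3 ∣ M)) →
      HasRM A (hasScale_laurentBaseChange A M) := fun M _ hℓM hcase => by
    obtain ⟨hFt, r, hr, hG⟩ := hDR2 M ℓ hℓ hℓM hcase A hA
    have hL := H17.stmt_LIFT (AlgebraicClosure ℚ) A (modularFunctionFieldBar M)
      (hasScale_laurentBaseChange A M) (H42.fracScalable_laurentBaseChange A M)
      (H95.stmt_HKA_isFF M) hFt r hr hG
    exact ⟨r, hr, H17.stmt_MOVE (AlgebraicClosure ℚ) A (modularFunctionFieldBar M)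
      (hasScale_laurentBaseChange A M) (H95.stmt_HKA_isFF M) hFt r hr hL⟩
  -- descent from a tame level `M`, `N ∣ M`
  have desc : ∀ (M : ℕ) [NeZero M], N ∣ M → ¬ ℓ ∣ M →
      (5 ≤ ℓ ∨ (ℓ = 3 ∧ 2 ∣ M) ∨ (ℓ = 2 ∧ 3 ∣ M)) →
      HasRM A (hasScale_laurentBaseChange A N) := fun M _ hNM hℓM hcase =>
    hND (AlgebraicClosure ℚ) A (modularFunctionFieldBar N) (modularFunctionFieldBar M)
      (Fermat.Agent.S18.modularFunctionFieldBar_mono hNM) (hasScale_laurentBaseChange A N)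
      (hasScale_laurentBaseChange A M) (H42.fracScalable_laurentBaseChange A M)
      (H95.stmt_HKA_isFF N) (H95.stmt_HKA_isFF M) (isFF_redField_bar N ℓ hℓ hℓN A hA)
      (isFF_redField_bar M ℓ hℓ hℓM A hA) (relfinrank_level_eq hNM hℓ hℓM A hA)
      (hDR2 M ℓ hℓ hℓM hcase A hA)
  by_cases h5 : 5 ≤ ℓ
  · exact tame N hℓN (Or.inl h5)
  have hℓ2 : 2 ≤ ℓ := hℓ.two_le
  have h23 : ℓ = 2 ∨ ℓ = 3 ∨ ℓ = 4 := by omega
  have hN0 : N ≠ 0 := NeZero.ne N
  rcases h23 with rfl | rfl | rfl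
  · haveI : NeZero (3 * N) := ⟨Nat.mul_ne_zero (by norm_num) hN0⟩
    have h1 : ¬ 2 ∣ 3 * N := by
      intro h
      rcases (Nat.Prime.dvd_mul Nat.prime_two).mp h with h | h
      · omega
      · exact hℓN h
    exact desc (3 * N) (Dvd.intro_left 3 rfl) h1 (Or.inr (Or.inr ⟨rfl, Dvd.intro N rfl⟩))
  · haveI : NeZero (2 * N) := ⟨Nat.mul_ne_zero (by norm_num) hN0⟩
    have h1 : ¬ 3 ∣ 2 * N := by
      intro h
      rcases (Nat.Prime.dvd_mul Nat.prime_three).mp h with h | h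
      · omega
      · exact hℓN h
    exact desc (2 * N) (Dvd.intro_left 2 rfl) h1 (Or.inr (Or.inl ⟨rfl, Dvd.intro N rfl⟩))
  · exact absurd hℓ (by decide)

/-- All reduction packages, from the five open packages. -/
theorem allRed_of (hDR2 : Stmt_DR2) (hND : Stmt_NDESC) (hKD : Stmt_KD) (hEQ : Stmt_EQ)
    (hES : Stmt_ES3) (N p ℓ : ℕ) [NeZero N] [NeZero ℓ] (hℓ : ℓ.Prime) (hNp : ¬ ℓ ∣ N * p)
    (A : ValuationSubring (AlgebraicClosure ℚ)) (hA : A.LiesOverPrime ℓ) :
    Fermat.Agent.S37.RedPackage N p ℓ A :=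
  redPackage_of (stmt_RM_of hDR2 hND) hEQ hES (Fermat.Agent.S18.stmt_TIcore_of hDR2 hKD)
    H51.stmt_HKA N p ℓ hℓ hNp A hA

/-- **S37** (frozen shape) from the five open packages. -/
theorem s37_of (hDR2 : Stmt_DR2) (hND : Stmt_NDESC) (hKD : Stmt_KD) (hEQ : Stmt_EQ)
    (hES : Stmt_ES3) (N p : ℕ) [NeZero N] (hcomm : ModularCurve.HeckeOperatorsCommuteBar N) :
    letI := ModularCurve.heckeModuleBar N
    ∀ (_ : SMulCommClass (AlgebraicClosure ℚ ≃ₐ[ℚ] AlgebraicClosure ℚ) ModularCurve.HeckeAlg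
      (ModularCurve.JZero N)),
      ModularCurve.SpecializationExists (K := ℚ) (L := AlgebraicClosure ℚ) N p
        (ModularCurve.JZero N) :=
  Fermat.Agent.S37.specializationExists_JZero_of_red N p hcomm
    (fun ℓ hℓ hNp A hA =>
      haveI : NeZero ℓ := ⟨hℓ.ne_zero⟩
      allRed_of hDR2 hND hKD hEQ hES N p ℓ hℓ hNp A hA)

end Fermat.Agent.RED.H36
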