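import Fermat.Agent.RED.H17_Place

/-!
# G-RED / TI route C (helper17), part 2: abstract reduction data and the divisor identity

`RedSetup K F k F'`: a valuation ring `V` of the function field `F / K` with residue map
`red : V → F'` onto a function field `F' / k`, and a map `r` on places with the **divisor
identity** `r_* (div u) = div (red u)` for Gauss units `u`.

Consequences of the divisor identity alone: counting in the fibres of `r`.
-/

set_option autoImplicit false

noncomputable section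

open AlgebraicCurve

attribute [local instance] Classical.propDecidable

namespace Fermat.Agent.RED.H17

/-! ### Divisors of functions -/

section Dv

variable {K F : Type*} [Field K] [Field F] [Algebra K F]

open Classical in
/-- The divisor of a function (`0` for the zero function). -/
def dv (hP : HasPrincipalDivisors K F) (f : F) : Divisor K F :=
  if h : f ≠ 0 then (hP.exists_divisor f h).choose else 0

theorem dv_apply (hP : HasPrincipalDivisors K F) (f : F) (P : Place K F) :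
    dv hP f P = P.ord f := by
  unfold dv
  split_ifs with h
  · exact (hP.exists_divisor f h).choose_spec.1 P
  · rw [not_not] at h
    subst h
    simp

theorem degree_dv (hP : HasPrincipalDivisors K F) (f : F) : Divisor.degree (dv hP f) = 0 := by
  unfold dv
  split_ifs with h
  · exact (hP.exists_divisor f h).choose_spec.2
  · simp

theorem eq_dv (hP : HasPrincipalDivisors K F) {f : F} {D : Divisor K F}
    (hD : ∀ P, D P = P.ord f) : D = dv hP f := by
  ext P
  rw [hD, dv_apply]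

theorem dv_mem_principal (hP : HasPrincipalDivisors K F) {f : F} (hf : f ≠ 0) :
    dv hP f ∈ Divisor.principal (K := K) (F := F) :=
  ⟨f, hf, fun v => dv_apply hP f v⟩

/-- Only finitely many places are zeros or poles of `f`. -/
theorem finite_ord_ne_zero (hP : HasPrincipalDivisors K F) (f : F) :
    {P : Place K F | P.ord f ≠ 0}.Finite := by
  refine (dv hP f).support.finite_toSet.subset fun P hPf => ?_
  rw [Finset.mem_coe, Finsupp.mem_support_iff, dv_apply]
  exact hPf

theorem mapDomain_apply_eq_sum {α β : Type*} (r : α → β) (D : α →₀ ℤ) (Q : β) :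
    Finsupp.mapDomain r D Q = ∑ P ∈ D.support, if r P = Q then D P else 0 := by
  classical
  rw [Finsupp.mapDomain, Finsupp.sum, Finsupp.finsetSum_apply]
  refine Finset.sum_congr rfl fun P _ => ?_
  rw [Finsupp.single_apply]

end Dv

/-! ### Sums of non-negative integers -/

section Sums

variable {α : Type*}

theorem le_sum_of_nonneg (s : Finset α) (a : α → ℤ) (h : ∀ x ∈ s, 0 ≤ a x) {x : α}
    (hx : x ∈ s) : a x ≤ ∑ y ∈ s, a y :=
  Finset.single_le_sum h hx

theorem eq_zero_of_sum_eq_zero (s : Finset α) (a : α → ℤ) (h : ∀ x ∈ s, 0 ≤ a x)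
    (hs : ∑ y ∈ s, a y = 0) {x : α} (hx : x ∈ s) : a x = 0 :=
  (Finset.sum_eq_zero_iff_of_nonneg h).mp hs x hx

end Sums

/-! ### Reduction data -/

/-- Abstract reduction data for a function field `F / K` with reduction `F' / k`. -/
structure RedSetup (K F k F' : Type*) [Field K] [Field F] [Algebra K F] [Field k] [Field F']
    [Algebra k F'] where
  /-- the Gauss valuation ring -/
  V : ValuationSubring F
  /-- reduction of Gauss-integral functions -/
  red : V →+* F'
  red_eq_zero_iff : ∀ u : V, red u = 0 ↔ u ∈ IsLocalRing.maximalIdeal V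
  red_surj : Function.Surjective red
  /-- every non-zero function is a constant times a Gauss unit -/
  exists_scale : ∀ f : F, f ≠ 0 → ∃ c : K, c ≠ 0 ∧
    ∃ h : algebraMap K F c * f ∈ V, red ⟨_, h⟩ ≠ 0
  /-- integral constants reduce to constants -/
  red_const : ∀ (c : K) (h : algebraMap K F c ∈ V), ∃ c' : k, red ⟨_, h⟩ = algebraMap k F' c'
  /-- every constant of the residue field lifts -/
  const_surj : ∀ c' : k, ∃ (c : K) (h : algebraMap K F c ∈ V),
    red ⟨_, h⟩ = algebraMap k F' c'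
  /-- reduction of places -/
  r : Place K F → Place k F'
  /-- the divisor identity -/
  DI : ∀ u : V, red u ≠ 0 → ∀ D : Divisor K F, (∀ P, D P = P.ord (u : F)) →
    ∀ Q, Finsupp.mapDomain r D Q = Q.ord (red u)

namespace RedSetup

variable {K F k F' : Type*} [Field K] [Field F] [Algebra K F] [Field k] [Field F']
  [Algebra k F'] (S : RedSetup K F k F')

open Classical in
/-- Reduction as a total function on `F` (junk value `0` outside `V`). -/
def rd (f : F) : F' := if h : f ∈ S.V then S.red ⟨f, h⟩ else 0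

theorem rd_of_mem {f : F} (h : f ∈ S.V) : S.rd f = S.red ⟨f, h⟩ := by
  unfold rd
  rw [dif_pos h]

theorem rd_of_not_mem {f : F} (h : f ∉ S.V) : S.rd f = 0 := by
  unfold rd
  rw [dif_neg h]

@[simp] theorem rd_zero : S.rd (0 : F) = 0 := by
  rw [S.rd_of_mem S.V.zero_mem]
  exact map_zero S.red

@[simp] theorem rd_one : S.rd (1 : F) = 1 := by
  rw [S.rd_of_mem S.V.one_mem]
  exact map_one S.red

theorem rd_add {f g : F} (hf : f ∈ S.V) (hg : g ∈ S.V) : S.rd (f + g) = S.rd f + S.rd g := by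
  rw [S.rd_of_mem hf, S.rd_of_mem hg, S.rd_of_mem (S.V.add_mem _ _ hf hg), ← map_add]
  rfl

theorem rd_mul {f g : F} (hf : f ∈ S.V) (hg : g ∈ S.V) : S.rd (f * g) = S.rd f * S.rd g := by
  rw [S.rd_of_mem hf, S.rd_of_mem hg, S.rd_of_mem (S.V.mul_mem _ _ hf hg), ← map_mul]
  rfl

theorem rd_neg {f : F} (hf : f ∈ S.V) : S.rd (-f) = -S.rd f := by
  rw [S.rd_of_mem hf, S.rd_of_mem (S.V.neg_mem _ hf), ← map_neg]
  rfl

theorem rd_sub {f g : F} (hf : f ∈ S.V) (hg : g ∈ S.V) : S.rd (f - g) = S.rd f - S.rd g := by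
  rw [S.rd_of_mem hf, S.rd_of_mem hg, S.rd_of_mem (S.V.sub_mem hf hg), ← map_sub]
  rfl

theorem rd_pow {f : F} (hf : f ∈ S.V) (n : ℕ) : S.rd (f ^ n) = S.rd f ^ n := by
  rw [S.rd_of_mem hf, S.rd_of_mem (S.V.pow_mem hf n), ← map_pow]
  rfl

/-- `f` is a Gauss unit. -/
def IsGU (f : F) : Prop := f ∈ S.V ∧ S.rd f ≠ 0

variable {S}

theorem IsGU.mem {f : F} (h : S.IsGU f) : f ∈ S.V := h.1

theorem IsGU.rd_ne_zero {f : F} (h : S.IsGU f) : S.rd f ≠ 0 := h.2

theorem IsGU.ne_zero {f : F} (h : S.IsGU f) : f ≠ 0 := by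
  rintro rfl
  exact h.2 S.rd_zero

variable (S) in
theorem isGU_one : S.IsGU (1 : F) := ⟨S.V.one_mem, by rw [S.rd_one]; exact one_ne_zero⟩

variable (S) in
theorem isGU_iff_isUnit {f : F} (hf : f ∈ S.V) : S.IsGU f ↔ IsUnit (⟨f, hf⟩ : S.V) := by
  unfold IsGU
  rw [S.rd_of_mem hf]
  constructor
  · rintro ⟨-, h⟩
    by_contra hu
    exact h ((S.red_eq_zero_iff _).mpr ((IsLocalRing.mem_maximalIdeal _).mpr hu))
  · intro hu
    refine ⟨hf, fun h0 => ?_⟩
    have := (S.red_eq_zero_iff _).mp h0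
    exact (IsLocalRing.mem_maximalIdeal _).mp this hu

theorem IsGU.inv_mem {f : F} (h : S.IsGU f) : f⁻¹ ∈ S.V := by
  have hu := (S.isGU_iff_isUnit h.1).mp h
  obtain ⟨u, hu⟩ := hu
  have h1 : ((u⁻¹ : S.Vˣ) : S.V) * ⟨f, h.1⟩ = 1 := by rw [← hu]; exact u.inv_mul
  have h2 : (((u⁻¹ : S.Vˣ) : S.V) : F) * f = 1 := congrArg Subtype.val h1
  have h3 : f⁻¹ = (((u⁻¹ : S.Vˣ) : S.V) : F) := by
    rw [eq_comm, ← mul_eq_one_iff_eq_inv₀ h.ne_zero]
    exact h2
  rw [h3]
  exact Subtype.mem _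

theorem IsGU.mul {f g : F} (hf : S.IsGU f) (hg : S.IsGU g) : S.IsGU (f * g) :=
  ⟨S.V.mul_mem _ _ hf.1 hg.1, by rw [S.rd_mul hf.1 hg.1]; exact mul_ne_zero hf.2 hg.2⟩

theorem IsGU.rd_inv {f : F} (h : S.IsGU f) : S.rd f⁻¹ = (S.rd f)⁻¹ := by
  have h1 : S.rd (f * f⁻¹) = S.rd f * S.rd f⁻¹ := S.rd_mul h.1 h.inv_mem
  rw [mul_inv_cancel₀ h.ne_zero, S.rd_one] at h1
  exact eq_inv_of_mul_eq_one_right h1.symm

theorem IsGU.inv {f : F} (h : S.IsGU f) : S.IsGU f⁻¹ :=
  ⟨h.inv_mem, by rw [h.rd_inv]; exact inv_ne_zero h.2⟩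

theorem IsGU.div {f g : F} (hf : S.IsGU f) (hg : S.IsGU g) : S.IsGU (f / g) := by
  rw [div_eq_mul_inv]
  exact hf.mul hg.inv

theorem IsGU.rd_div {f g : F} (hf : S.IsGU f) (hg : S.IsGU g) :
    S.rd (f / g) = S.rd f / S.rd g := by
  rw [div_eq_mul_inv, S.rd_mul hf.1 hg.inv_mem, hg.rd_inv, div_eq_mul_inv]

theorem IsGU.pow {f : F} (h : S.IsGU f) (n : ℕ) : S.IsGU (f ^ n) :=
  ⟨S.V.pow_mem h.1 n, by rw [S.rd_pow h.1]; exact pow_ne_zero _ h.2⟩

variable (S)

/-- Adding an element of the maximal ideal does not change the reduction. -/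
theorem rd_add_of_rd_eq_zero {f g : F} (hf : f ∈ S.V) (hg : g ∈ S.V) (h0 : S.rd g = 0) :
    S.rd (f + g) = S.rd f := by
  rw [S.rd_add hf hg, h0, add_zero]

variable {S} in
theorem IsGU.add_of_rd_eq_zero {f g : F} (hf : S.IsGU f) (hg : g ∈ S.V) (h0 : S.rd g = 0) :
    S.IsGU (f + g) :=
  ⟨S.V.add_mem _ _ hf.1 hg, by rw [S.rd_add_of_rd_eq_zero hf.1 hg h0]; exact hf.2⟩

/-- Scaling to a Gauss unit. -/
theorem exists_isGU_scale {f : F} (hf : f ≠ 0) :
    ∃ c : K, c ≠ 0 ∧ S.IsGU (algebraMap K F c * f) := by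
  obtain ⟨c, hc, h, hr⟩ := S.exists_scale f hf
  exact ⟨c, hc, h, by rw [S.rd_of_mem h]; exact hr⟩

/-! ### Constants -/

theorem rd_algebraMap_mem_range {c : K} (h : algebraMap K F c ∈ S.V) :
    ∃ c' : k, S.rd (algebraMap K F c) = algebraMap k F' c' := by
  obtain ⟨c', hc'⟩ := S.red_const c h
  exact ⟨c', by rw [S.rd_of_mem h]; exact hc'⟩

theorem exists_const_lift (c' : k) :
    ∃ c : K, algebraMap K F c ∈ S.V ∧ S.rd (algebraMap K F c) = algebraMap k F' c' := by
  obtain ⟨c, h, hc⟩ := S.const_surj c'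
  exact ⟨c, h, by rw [S.rd_of_mem h]; exact hc⟩

/-- For a constant `c ≠ 0`, either `c` or `c⁻¹` is integral. -/
theorem const_mem_or_inv_mem (c : K) :
    algebraMap K F c ∈ S.V ∨ algebraMap K F c⁻¹ ∈ S.V := by
  rw [map_inv₀]
  exact S.V.mem_or_inv_mem _

/-! ### The divisor identity in the fibres of `r` -/

/-- The divisor identity as a sum over the support of `div f`. -/
theorem ord_rd_eq_sum (hP : HasPrincipalDivisors K F) {f : F} (hf : S.IsGU f) (Q : Place k F') :
    Q.ord (S.rd f) = ∑ P ∈ (dv hP f).support, if S.r P = Q then P.ord f else 0 := by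
  have h := S.DI ⟨f, hf.1⟩ (by rw [← S.rd_of_mem hf.1]; exact hf.2) (dv hP f)
    (fun P => dv_apply hP f P) Q
  rw [← S.rd_of_mem hf.1] at h
  rw [← h, mapDomain_apply_eq_sum]
  refine Finset.sum_congr rfl fun P _ => ?_
  rw [dv_apply]

/-- If `f` is regular on the fibre of `Q`, then `ord_P f ≤ ord_Q (rd f)` on the fibre. -/
theorem ord_le_ord_rd (hP : HasPrincipalDivisors K F) {f : F} (hf : S.IsGU f) (Q : Place k F')
    (hreg : ∀ P, S.r P = Q → 0 ≤ P.ord f) {P : Place K F} (hPQ : S.r P = Q) :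
    P.ord f ≤ Q.ord (S.rd f) := by
  rw [S.ord_rd_eq_sum hP hf Q]
  have hnn : ∀ P' ∈ (dv hP f).support, 0 ≤ (if S.r P' = Q then P'.ord f else 0) := by
    intro P' _
    split_ifs with h
    · exact hreg P' h
    · exact le_rfl
  by_cases hmem : P ∈ (dv hP f).support
  · have := le_sum_of_nonneg _ _ hnn hmem
    rwa [if_pos hPQ] at this
  · rw [Finsupp.notMem_support_iff, dv_apply] at hmem
    rw [hmem]
    exact Finset.sum_nonneg hnn

theorem ord_rd_nonneg (hP : HasPrincipalDivisors K F) {f : F} (hf : S.IsGU f) (Q : Place k F')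
    (hreg : ∀ P, S.r P = Q → 0 ≤ P.ord f) : 0 ≤ Q.ord (S.rd f) := by
  rw [S.ord_rd_eq_sum hP hf Q]
  refine Finset.sum_nonneg fun P' _ => ?_
  split_ifs with h
  · exact hreg P' h
  · exact le_rfl

/-- If `f` is regular on the fibre of `Q` and `rd f` does not vanish at `Q`, then `f` has no zero
on the fibre. -/
theorem ord_eq_zero_of_ord_rd_eq_zero (hP : HasPrincipalDivisors K F) {f : F} (hf : S.IsGU f) (Q : Place k F')
    (hreg : ∀ P, S.r P = Q → 0 ≤ P.ord f) (hQ : Q.ord (S.rd f) = 0) {P : Place K F}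
    (hPQ : S.r P = Q) : P.ord f = 0 :=
  le_antisymm (hQ ▸ S.ord_le_ord_rd hP hf Q hreg hPQ) (hreg P hPQ)

/-- If all orders of `f` on the fibre of `Q` vanish, `rd f` is a unit at `Q`. -/
theorem ord_rd_eq_zero (hP : HasPrincipalDivisors K F) {f : F} (hf : S.IsGU f) (Q : Place k F')
    (h0 : ∀ P, S.r P = Q → P.ord f = 0) : Q.ord (S.rd f) = 0 := by
  rw [S.ord_rd_eq_sum hP hf Q]
  refine Finset.sum_eq_zero fun P' _ => ?_
  split_ifs with h
  · exact h0 P' h
  · rfl

/-- A zero of the reduction lifts to a zero in the fibre (if there is no pole in the fibre). -/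
theorem exists_zero_of_ord_rd_pos (hP : HasPrincipalDivisors K F) {f : F} (hf : S.IsGU f) (Q : Place k F')
    (hQ : 0 < Q.ord (S.rd f)) : ∃ P, S.r P = Q ∧ 0 < P.ord f := by
  by_contra hcon
  push Not at hcon
  have : Q.ord (S.rd f) ≤ 0 := by
    rw [S.ord_rd_eq_sum hP hf Q]
    refine Finset.sum_nonpos fun P' _ => ?_
    split_ifs with h
    · exact hcon P' h
    · exact le_rfl
  omega

/-- A simple zero of the reduction: exactly one zero in the fibre, and it is simple. -/
theorem exists_unique_zero_of_ord_rd_eq_one (hP : HasPrincipalDivisors K F) {f : F} (hf : S.IsGU f) (Q : Place k F')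
    (hreg : ∀ P, S.r P = Q → 0 ≤ P.ord f) (hQ : Q.ord (S.rd f) = 1) :
    ∃ P, S.r P = Q ∧ P.ord f = 1 ∧ ∀ P', S.r P' = Q → P' ≠ P → P'.ord f = 0 := by
  classical
  obtain ⟨P, hPQ, hpos⟩ := S.exists_zero_of_ord_rd_pos hP hf Q (by omega)
  have hle := S.ord_le_ord_rd hP hf Q hreg hPQ
  have h1 : P.ord f = 1 := by omega
  refine ⟨P, hPQ, h1, fun P' hP'Q hne => ?_⟩
  by_contra h0
  have hpos' : 0 < P'.ord f := lt_of_le_of_ne (hreg P' hP'Q) (Ne.symm h0)
  -- the sum over the support contains both `P` and `P'`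
  have hsum := S.ord_rd_eq_sum hP hf Q
  have hmemP : P ∈ (dv hP f).support := by
    rw [Finsupp.mem_support_iff, dv_apply]; omega
  have hmemP' : P' ∈ (dv hP f).support := by
    rw [Finsupp.mem_support_iff, dv_apply]; omega
  have hnn : ∀ P'' ∈ (dv hP f).support, 0 ≤ (if S.r P'' = Q then P''.ord f else 0) := by
    intro P'' _
    split_ifs with h
    · exact hreg P'' h
    · exact le_rfl
  have h2 : (∑ P'' ∈ ({P, P'} : Finset (Place K F)), if S.r P'' = Q then P''.ord f else 0)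
      ≤ ∑ P'' ∈ (dv hP f).support, if S.r P'' = Q then P''.ord f else 0 := by
    refine Finset.sum_le_sum_of_subset_of_nonneg ?_ fun x hx _ => hnn x hx
    intro x hx
    rw [Finset.mem_insert, Finset.mem_singleton] at hx
    rcases hx with rfl | rfl
    · exact hmemP
    · exact hmemP'
  rw [Finset.sum_pair (Ne.symm hne), if_pos hPQ, if_pos hP'Q, ← hsum, hQ] at h2
  omega

end RedSetup

end Fermat.Agent.RED.H17
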