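import Mathlib.FieldTheory.Minpoly.IsIntegrallyClosed
import Mathlib.Algebra.Polynomial.Splits
import Mathlib.RingTheory.Valuation.Basic

/-!
# G-RED package GA (helper73): an irreducibility criterion from pole orders

`R ⊂ S` an integrally closed domain inside a field with a valuation `w` which is `≥ 1` on
`R \ {0}` (think `R = K[J]`, `S = K((t))`, `w` the `t`-adic valuation, `J` with a pole).
If a monic `P ∈ R[X]` splits in `S` as `∏_q (X - U q)` where all roots except `u = U q₀` are
nonzero of valuation `< 1`, and `u` is a simple root, then `P` is the minimal polynomial of `u`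
over `R` (hence irreducible): a complementary monic factor would have a nonzero constant term
of valuation `< 1` in `R`.
-/

set_option autoImplicit false

open Polynomial

namespace Fermat.Agent.RED.H73

theorem prod_neg_roots_lt_one {S Γ : Type*} [Field S] [LinearOrderedCommGroupWithZero Γ]
    (w : Valuation S Γ) (m : Multiset S) (hm : ∀ r ∈ m, r ≠ 0 ∧ w r < 1) (h0 : m ≠ 0) :
    (m.map (fun r => (0 : S) - r)).prod ≠ 0 ∧ w (m.map (fun r => (0 : S) - r)).prod < 1 := by
  induction m using Multiset.induction_on with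
  | empty => exact absurd rfl h0
  | cons a m ih =>
    have ha := hm a (Multiset.mem_cons_self a m)
    have ha' : (0 : S) - a ≠ 0 ∧ w ((0 : S) - a) < 1 := by
      rw [zero_sub]
      exact ⟨neg_ne_zero.2 ha.1, by rw [Valuation.map_neg]; exact ha.2⟩
    rw [Multiset.map_cons, Multiset.prod_cons]
    by_cases hm0 : m = 0
    · subst hm0
      simpa using ha'
    · have h := ih (fun r hr => hm r (Multiset.mem_cons_of_mem hr)) hm0
      refine ⟨mul_ne_zero ha'.1 h.1, ?_⟩
      rw [map_mul]
      calc w ((0 : S) - a) * w (m.map (fun r => (0 : S) - r)).prod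
          ≤ w ((0 : S) - a) * 1 := mul_le_mul' le_rfl h.2.le
        _ = w ((0 : S) - a) := mul_one _
        _ < 1 := ha'.2

/-- **Irreducibility from pole orders.** -/
theorem minpoly_eq_of_roots {R S Γ : Type*} [CommRing R] [IsDomain R] [IsIntegrallyClosed R]
    [Field S] [Algebra R S] [Module.IsTorsionFree R S]
    [LinearOrderedCommGroupWithZero Γ] (w : Valuation S Γ)
    (hw : ∀ r : R, r ≠ 0 → 1 ≤ w (algebraMap R S r))
    {Q : Type*} [Fintype Q] (U : Q → S) (q₀ : Q)
    (hne : ∀ q, q ≠ q₀ → U q ≠ 0) (hlt : ∀ q, q ≠ q₀ → w (U q) < 1)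
    (hu : ∀ q, q ≠ q₀ → U q ≠ U q₀)
    (P : R[X]) (hmonic : P.Monic)
    (hP : P.map (algebraMap R S) = ∏ q, (X - C (U q))) :
    minpoly R (U q₀) = P := by
  classical
  have hroot : (P.map (algebraMap R S)).eval (U q₀) = 0 := by
    rw [hP, eval_prod]
    exact Finset.prod_eq_zero (Finset.mem_univ q₀) (by simp)
  have haeval : aeval (U q₀) P = 0 := by
    rw [aeval_def, ← eval_map]; exact hroot
  have hint : IsIntegral R (U q₀) := ⟨P, hmonic, by rw [← aeval_def]; exact haeval⟩
  obtain ⟨g, hg⟩ := minpoly.isIntegrallyClosed_dvd hint haeval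
  have hf : (minpoly R (U q₀)).Monic := minpoly.monic hint
  have hgm : g.Monic := hf.of_mul_monic_left (hg ▸ hmonic)
  have hgm' : (g.map (algebraMap R S)).Monic := hgm.map _
  have hfg : (minpoly R (U q₀)).map (algebraMap R S) * g.map (algebraMap R S)
      = ∏ q, (X - C (U q)) := by
    rw [← hP, hg, Polynomial.map_mul]
  have hf'root : ((minpoly R (U q₀)).map (algebraMap R S)).eval (U q₀) = 0 := by
    rw [eval_map, ← aeval_def]; exact minpoly.aeval R _
  have hprod0 : (∏ q, (X - C (U q)) : S[X]) ≠ 0 :=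
    Finset.prod_ne_zero_iff.2 fun q _ => X_sub_C_ne_zero _
  -- `u` is not a root of the complementary factor
  have hg'u : (g.map (algebraMap R S)).eval (U q₀) ≠ 0 := by
    intro h0
    have h1 : (X - C (U q₀)) ∣ (minpoly R (U q₀)).map (algebraMap R S) :=
      dvd_iff_isRoot.2 hf'root
    have h2 : (X - C (U q₀)) ∣ g.map (algebraMap R S) := dvd_iff_isRoot.2 h0
    have h3 : (X - C (U q₀)) * (X - C (U q₀)) ∣ ∏ q, (X - C (U q)) := hfg ▸ mul_dvd_mul h1 h2
    rw [← Finset.mul_prod_erase Finset.univ _ (Finset.mem_univ q₀)] at h3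
    have h4 := (mul_dvd_mul_iff_left (X_sub_C_ne_zero (U q₀))).1 h3
    have h5 := dvd_iff_isRoot.1 h4
    rw [IsRoot, eval_prod] at h5
    obtain ⟨q, hq, hq0⟩ := Finset.prod_eq_zero_iff.1 h5
    rw [eval_sub, eval_X, eval_C, sub_eq_zero] at hq0
    exact hu q (Finset.ne_of_mem_erase hq) hq0.symm
  have hsplit : Splits (g.map (algebraMap R S)) :=
    Splits.of_dvd (Splits.prod fun q _ => Splits.X_sub_C _) hprod0
      ⟨(minpoly R (U q₀)).map (algebraMap R S), by rw [← hfg, mul_comm]⟩
  have hroots : ∀ r ∈ (g.map (algebraMap R S)).roots, r ≠ 0 ∧ w r < 1 := by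
    intro r hr
    have hr0 : (g.map (algebraMap R S)).eval r = 0 := (mem_roots hgm'.ne_zero).1 hr
    have h1 : (∏ q, (X - C (U q)) : S[X]).eval r = 0 := by
      rw [← hfg, eval_mul, hr0, mul_zero]
    rw [eval_prod] at h1
    obtain ⟨q, -, hq⟩ := Finset.prod_eq_zero_iff.1 h1
    rw [eval_sub, eval_X, eval_C, sub_eq_zero] at hq
    have hq0 : q ≠ q₀ := by
      rintro rfl
      exact hg'u (hq ▸ hr0)
    rw [hq]
    exact ⟨hne q hq0, hlt q hq0⟩
  by_contra hPne
  have hgdeg : (g.map (algebraMap R S)).roots ≠ 0 := by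
    intro h0
    have h1 : (g.map (algebraMap R S)).natDegree = 0 := by
      rw [hsplit.natDegree_eq_card_roots, h0, Multiset.card_zero]
    have h2 : g.natDegree = 0 := by
      rw [← h1, hgm.natDegree_map]
    have h3 : g = 1 := hgm.natDegree_eq_zero.1 h2
    exact hPne (by rw [hg, h3, mul_one])
  have hconst := hsplit.eval_eq_prod_roots_of_monic hgm' 0
  obtain ⟨hc0, hclt⟩ := prod_neg_roots_lt_one w _ hroots hgdeg
  rw [← hconst] at hc0 hclt
  have hev : (g.map (algebraMap R S)).eval 0 = algebraMap R S (g.eval 0) := by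
    exact eval_zero_map _ _
  rw [hev] at hc0 hclt
  have hr0 : g.eval 0 ≠ 0 := by
    intro h0
    exact hc0 (by rw [h0, map_zero])
  exact absurd (hw _ hr0) (not_le.2 hclt)

end Fermat.Agent.RED.H73
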