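import Fermat.Agent.RED.H10_ConsChart
import Fermat.Agent.RED.H79_ConsC5

/-!
# G-RED package CONS (helper10), part C6: conservation on a chart

`S : RedSetting C F k Ft`, `x` a good chart, `r` a map on places with `RedTo P (r P)` for the
places `P` of the chart.

* `chart_conservation_int` : for a Gauss unit `f ∈ R = B ∩ V` and `Q` finite over `xt`:
  `∑_{P in the chart, r P = Q} ord_P f = ord_Q (red f)`   (C3 + helper79's C5);
* `chart_conservation` : the same for every Gauss unit `f`.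
-/

set_option autoImplicit false

noncomputable section

open AlgebraicCurve Polynomial IntermediateField

namespace Fermat.Agent.RED.H10

open Fermat.Agent.RED.H34 Fermat.Agent.RED.H34.RedSetting Fermat.Agent.RED.H51
  Fermat.Agent.RED.H79

open scoped IntermediateField.algebraAdjoinAdjoin

variable {C F k Ft : Type} [Field C] [Field F] [Algebra C F] [Field k] [Field Ft] [Algebra k Ft]
variable {S : RedSetting C F k Ft} {x : F} (hx : x ∈ S.V)

/-- For a place of the chart, `RedTo` gives the value of `xt` at the reduction. -/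
theorem RedTo.ordGe_x {P : Place C F} {Q : Place k Ft} (h : RedTo S x hx P Q) (a : ↥S.O)
    (ha : OrdGe P 1 (x - algebraMap C F (a : C))) :
    OrdGe Q 1 (S.red ⟨x, hx⟩ - algebraMap k Ft (S.resO a)) :=
  h.2 ⟨x, hx⟩ (isIntegral_gen x) a ha

open Classical in
/-- **(C6)** for Gauss units of `R = B ∩ V`. -/
theorem chart_conservation_int [IsAlgClosed C] [CharZero C] [IsAlgClosed k]
    (hFF : IsFF C F) (hFFt : IsFF k Ft) (gc : GoodChart S x hx)
    (r : Place C F → Place k Ft) (hr : ∀ P, InChart S x P → RedTo S x hx P (r P))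
    (f : ↥S.V) (hfu : IsUnit f) (hfi : IsIntegral ↥(Algebra.adjoin C {x}) (f : F))
    (D : Divisor C F) (hD : ∀ P, D P = P.ord (f : F))
    (Q : Place k Ft) (hQ : S.red ⟨x, hx⟩ ∈ Q.toValuationSubring) :
    ∑ P ∈ D.support.filter (fun P => InChart S x P ∧ r P = Q), D P = Q.ord (S.red f) := by
  have hxt := gc.transc
  have hfin := gc.fin
  have hI : ChartIntegral S x hx := chartIntegral hx hFF gc
  have hQdeg : Q.deg = 1 := H51.stmt_FFB_deg k Ft hFFt Q
  set γ : k := valHom Q hQdeg ⟨S.red ⟨x, hx⟩, hQ⟩ with hγ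
  have hQγ : OrdGe Q 1 (S.red ⟨x, hx⟩ - algebraMap k Ft γ) :=
    ordGe_sub_valHom Q hQdeg ⟨S.red ⟨x, hx⟩, hQ⟩
  have hfinT : FiniteDimensional ↥k⟮S.red ⟨x, hx⟩⟯ Ft :=
    Module.finite_of_finrank_pos (gc.deg ▸ Module.finrank_pos)
  obtain ⟨T', hT', -⟩ := fibre_norm hFFt (S.red ⟨x, hx⟩) hxt γ
  have hC3 := fibre_conservation hx hFF hFFt hxt gc.deg f hfu hfi D hD γ T' hT'
  have hC5 : ∀ Q' ∈ T', Q'.ord (S.red f) ≤
      ∑ P ∈ D.support.filter (fun P => InChart S x P ∧ r P = Q'), D P := by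
    intro Q' hQ'
    exact stmt_C5 C F k Ft S x hx gc hI r hr f hfu hfi D hD Q'
      (mem_of_ordGe_one_sub Q' ((hT' Q').mp hQ'))
  -- fibrewise decomposition of the left hand side of C3
  set φ : Place C F → Prop := fun P => ∃ a : ↥S.O, S.resO a = γ ∧
    OrdGe P 1 (x - algebraMap C F (a : C)) with hφ
  have hφin : ∀ P, φ P → InChart S x P := fun P ⟨a, _, ha⟩ => ⟨(a : C), a.2, ha⟩
  have hmaps : ∀ P ∈ D.support.filter φ, r P ∈ T' := by
    intro P hP
    rw [Finset.mem_filter] at hP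
    obtain ⟨a, ha1, ha2⟩ := hP.2
    rw [hT', ← ha1]
    exact RedTo.ordGe_x hx (hr P (hφin P hP.2)) a ha2
  have hfib : ∀ Q' ∈ T', (D.support.filter φ).filter (fun P => r P = Q') =
      D.support.filter (fun P => InChart S x P ∧ r P = Q') := by
    intro Q' hQ'
    ext P
    simp only [Finset.mem_filter]
    constructor
    · rintro ⟨⟨h1, h2⟩, h3⟩
      exact ⟨h1, hφin P h2, h3⟩
    · rintro ⟨h1, h2, h3⟩
      refine ⟨⟨h1, ?_⟩, h3⟩
      obtain ⟨a, haV, ha⟩ := h2
      have h4 := RedTo.ordGe_x hx (hr P ⟨a, haV, ha⟩) ⟨a, haV⟩ ha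
      rw [h3] at h4
      have h5 := value_unique_ordGe Q' h4 ((hT' Q').mp hQ')
      exact ⟨⟨a, haV⟩, h5, ha⟩
  have hsum : ∑ Q' ∈ T', ∑ P ∈ D.support.filter (fun P => InChart S x P ∧ r P = Q'), D P =
      ∑ Q' ∈ T', Q'.ord (S.red f) := by
    rw [← hC3, ← Finset.sum_fiberwise_of_maps_to hmaps]
    exact Finset.sum_congr rfl fun Q' hQ' => by rw [hfib Q' hQ']
  have hQT : Q ∈ T' := (hT' Q).mpr hQγ
  have hzero : ∀ Q' ∈ T', (∑ P ∈ D.support.filter (fun P => InChart S x P ∧ r P = Q'), D P) -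
      Q'.ord (S.red f) = 0 := by
    refine (Finset.sum_eq_zero_iff_of_nonneg ?_).mp ?_
    · intro Q' hQ'
      have := hC5 Q' hQ'
      omega
    · rw [Finset.sum_sub_distrib, hsum, sub_self]
  have := hzero Q hQT
  omega

/-- Sums over the support of a divisor can be taken over any larger finite set. -/
theorem sum_support_filter_eq {α : Type} (D : α →₀ ℤ) (U : Finset α) (hU : D.support ⊆ U)
    (ψ : α → Prop) [DecidablePred ψ] :
    ∑ P ∈ D.support.filter ψ, D P = ∑ P ∈ U.filter ψ, D P := by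
  refine Finset.sum_subset (Finset.filter_subset_filter ψ hU) ?_
  intro P hP hPn
  rw [Finset.mem_filter] at hP hPn
  by_contra hne
  exact hPn ⟨Finsupp.mem_support_iff.mpr hne, hP.2⟩

open Classical in
/-- **(C6)** conservation on a chart, for every Gauss unit. -/
theorem chart_conservation [IsAlgClosed C] [CharZero C] [IsAlgClosed k]
    (hFF : IsFF C F) (hFFt : IsFF k Ft) (gc : GoodChart S x hx)
    (r : Place C F → Place k Ft) (hr : ∀ P, InChart S x P → RedTo S x hx P (r P))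
    (f : ↥S.V) (hfu : IsUnit f)
    (D : Divisor C F) (hD : ∀ P, D P = P.ord (f : F))
    (Q : Place k Ft) (hQ : S.red ⟨x, hx⟩ ∈ Q.toValuationSubring) :
    ∑ P ∈ D.support.filter (fun P => InChart S x P ∧ r P = Q), D P = Q.ord (S.red f) := by
  have hxt := gc.transc
  have hfin := gc.fin
  have hxC := transcendental_x hx hxt
  -- a denominator
  have halgK : IsAlgebraic ↥C⟮x⟯ (f : F) := Algebra.IsAlgebraic.isAlgebraic _
  have halg : IsAlgebraic ↥(Algebra.adjoin C {x}) (f : F) :=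
    (IsFractionRing.isAlgebraic_iff ↥(Algebra.adjoin C {x}) ↥C⟮x⟯ F).mpr halgK
  obtain ⟨y, hy0, hyint⟩ := halg.exists_integral_multiple
  obtain ⟨p, rfl⟩ := (polyEquiv hxC).surjective y
  have hp : p ≠ 0 := fun h => hy0 (by rw [h, map_zero])
  obtain ⟨c, hc, p₀, hp₀, hu₂, -, he⟩ := exists_decomp hx hxt p hp
  set f₂ : ↥S.V := psi hx p₀ with hf₂
  have hf₂i : IsIntegral ↥(Algebra.adjoin C {x}) (f₂ : F) := by
    have h1 : (f₂ : F) = algebraMap ↥(Algebra.adjoin C {x}) F
        (polyEquiv hxC (p₀.map S.O.subtype)) := by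
      rw [hf₂, coe_psi]
      exact (coe_polyEquiv hxC _).symm
    rw [h1]
    exact isIntegral_algebraMap
  have hyF : ((polyEquiv hxC p : ↥(Algebra.adjoin C {x})) : F) =
      algebraMap C F c * (f₂ : F) := by
    rw [coe_polyEquiv, he]
  have hf₁u : IsUnit (f * f₂) := hfu.mul hu₂
  have hf₁i : IsIntegral ↥(Algebra.adjoin C {x}) ((f * f₂ : ↥S.V) : F) := by
    have h1 : ((f * f₂ : ↥S.V) : F) = algebraMap C F c⁻¹ * (polyEquiv hxC p • (f : F)) := by
      rw [Algebra.smul_def]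
      show (f : F) * (f₂ : F) = algebraMap C F c⁻¹ *
        (((polyEquiv hxC p : ↥(Algebra.adjoin C {x})) : F) * (f : F))
      rw [hyF, map_inv₀]
      have hc' : algebraMap C F c ≠ 0 := (map_ne_zero (algebraMap C F)).mpr hc
      field_simp
    rw [h1]
    exact (isIntegral_const x c⁻¹).mul hyint
  -- the divisors
  have hne : ∀ g : ↥S.V, IsUnit g → (g : F) ≠ 0 := by
    intro g hg h0
    have : g = 0 := Subtype.ext h0
    rw [this] at hg
    exact not_isUnit_zero hg
  have hP : HasPrincipalDivisors C F := stmt_FFB_principal C F hFF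
  obtain ⟨D₁, hD₁, -⟩ := hP.exists_divisor _ (hne _ hf₁u)
  obtain ⟨D₂, hD₂, -⟩ := hP.exists_divisor _ (hne _ hu₂)
  have h1 := chart_conservation_int hx hFF hFFt gc r hr (f * f₂) hf₁u hf₁i D₁ hD₁ Q hQ
  have h2 := chart_conservation_int hx hFF hFFt gc r hr f₂ hu₂ hf₂i D₂ hD₂ Q hQ
  have hDD : ∀ P, D P = D₁ P - D₂ P := by
    intro P
    rw [hD, hD₁, hD₂]
    show P.ord (f : F) = P.ord ((f : F) * (f₂ : F)) - P.ord (f₂ : F)
    rw [P.ord_mul (hne _ hfu) (hne _ hu₂)]
    ring
  set U : Finset (Place C F) := D.support ∪ D₁.support ∪ D₂.support with hU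
  rw [sum_support_filter_eq D U (by rw [hU]; intro a ha; simp [ha])
    (fun P => InChart S x P ∧ r P = Q)]
  rw [sum_support_filter_eq D₁ U (by rw [hU]; intro a ha; simp [ha])
    (fun P => InChart S x P ∧ r P = Q)] at h1
  rw [sum_support_filter_eq D₂ U (by rw [hU]; intro a ha; simp [ha])
    (fun P => InChart S x P ∧ r P = Q)] at h2
  have h3 : S.red (f * f₂) = S.red f * S.red f₂ := map_mul _ _ _
  have hr0 : S.red f ≠ 0 := (hfu.map S.red).ne_zero
  have hr2 : S.red f₂ ≠ 0 := (hu₂.map S.red).ne_zero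
  rw [h3, Q.ord_mul hr0 hr2] at h1
  have h4 : ∑ P ∈ U.filter (fun P => InChart S x P ∧ r P = Q), D P =
      ∑ P ∈ U.filter (fun P => InChart S x P ∧ r P = Q), D₁ P -
        ∑ P ∈ U.filter (fun P => InChart S x P ∧ r P = Q), D₂ P := by
    rw [← Finset.sum_sub_distrib]
    exact Finset.sum_congr rfl fun P _ => hDD P
  rw [h4, h1, h2]
  ring

end Fermat.Agent.RED.H10
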