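import Fermat.Agent.RED.H51_Final
import Fermat.Agent.RED.H51_ZerosLe

/-!
# G-RED package CONS (helper10), DICT (a): the norm formula on the fibres of a coordinate

`F / K` a function field over an algebraically closed field (any characteristic), `x ∈ F`
transcendental with `[F : K(x)] < ∞`.

* `adjoin_gen_eq_top` : `K(x)` is generated by `x`, as a field of its own;
* `exists_unique_zero_of_top` : a generator of a rational function field has exactly one zero,
  and it is simple (char-free version of helper72's `h72_exists_unique_zero`);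
* `fibre_norm` : for `ρ ∈ K` there is a finite set `T` of places, `P ∈ T ↔ x(P) = ρ`, with
  `∑_{P ∈ T} ord_P f = rootMultiplicity ρ p` whenever `N_{F/K(x)} f = p(x)`.
-/

set_option autoImplicit false

noncomputable section

open AlgebraicCurve Polynomial IntermediateField

namespace Fermat.Agent.RED.H10

open Fermat.Agent.RED.H51 Fermat.Agent.S24

section Gen

variable {K F : Type} [Field K] [Field F] [Algebra K F]

theorem adjoin_gen_eq_top (x : F) :
    K⟮AdjoinSimple.gen K x⟯ = (⊤ : IntermediateField K ↥K⟮x⟯) := by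
  have h1 : (K⟮AdjoinSimple.gen K x⟯ : IntermediateField K ↥K⟮x⟯).map (K⟮x⟯.val) =
      (⊤ : IntermediateField K ↥K⟮x⟯).map (K⟮x⟯.val) := by
    rw [IntermediateField.adjoin_map, Set.image_singleton]
    rw [← AlgHom.fieldRange_eq_map, IntermediateField.fieldRange_val]
    rfl
  exact IntermediateField.map_injective _ h1

theorem finrank_of_eq_top (S : IntermediateField K F) (hS : S = ⊤) :
    FiniteDimensional ↥S F ∧ Module.finrank ↥S F = 1 := by
  subst hS
  exact ⟨Module.finite_of_finrank_pos (by rw [IntermediateField.finrank_top]; exact one_pos),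
    IntermediateField.finrank_top⟩

/-- A generator of a rational function field has exactly one zero, and it is simple. -/
theorem exists_unique_zero_of_top (hz : H59.ZerosStmt K F) (y : F) (hy : Transcendental K y)
    (htop : K⟮y⟯ = ⊤) :
    ∃ v : Place K F, v.ord y = 1 ∧ ∀ v' : Place K F, 0 < v'.ord y → v' = v := by
  classical
  obtain ⟨hfd, hrank⟩ := finrank_of_eq_top K⟮y⟯ htop
  obtain ⟨hfin, hsum⟩ := hz y hy
  rw [hrank, finsum_mem_eq_finite_toFinset_sum _ hfin] at hsum
  have hpos : ∀ v ∈ hfin.toFinset, 0 < v.ord y := fun v hv => by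
    simpa using hv
  have hne : hfin.toFinset.Nonempty := by
    by_contra hemp
    rw [Finset.not_nonempty_iff_eq_empty] at hemp
    rw [hemp, Finset.sum_empty] at hsum
    norm_num at hsum
  obtain ⟨v, hv⟩ := hne
  have hle : ∀ v' ∈ hfin.toFinset, v' ≠ v → False := by
    intro v' hv' hne'
    have h2 : v.ord y + v'.ord y ≤ ∑ u ∈ hfin.toFinset, u.ord y := by
      have hsub : ({v, v'} : Finset (Place K F)) ⊆ hfin.toFinset := by
        intro u hu
        rcases Finset.mem_insert.mp hu with rfl | hu
        · exact hv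
        · rw [Finset.mem_singleton.mp hu]; exact hv'
      calc v.ord y + v'.ord y = ∑ u ∈ ({v, v'} : Finset (Place K F)), u.ord y := by
            rw [Finset.sum_pair (Ne.symm hne')]
        _ ≤ ∑ u ∈ hfin.toFinset, u.ord y :=
            Finset.sum_le_sum_of_subset_of_nonneg hsub
              (fun u hu _ => (hpos u hu).le)
    have := hpos v hv
    have := hpos v' hv'
    rw [hsum] at h2
    push_cast at h2
    omega
  refine ⟨v, ?_, ?_⟩
  · have h1 : v.ord y ≤ ∑ u ∈ hfin.toFinset, u.ord y :=
      Finset.single_le_sum (f := fun u : Place K F => u.ord y)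
        (fun u hu => (hpos u hu).le) hv
    have := hpos v hv
    rw [hsum] at h1
    push_cast at h1
    omega
  · intro v' hv'
    by_contra hne'
    exact hle v' (by simpa using hv') hne'

/-- **The norm formula on the fibre `x = ρ`.** -/
theorem fibre_norm [IsAlgClosed K] (hFF : IsFF K F) (x : F) (hx : Transcendental K x)
    [FiniteDimensional ↥K⟮x⟯ F] (ρ : K) :
    ∃ T : Finset (Place K F), (∀ P, P ∈ T ↔ OrdGe P 1 (x - algebraMap K F ρ)) ∧
      ∀ (f : F) (p : K[X]), f ≠ 0 →
        ((Algebra.norm ↥K⟮x⟯ f : ↥K⟮x⟯) : F) = Polynomial.aeval x p →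
        ∑ P ∈ T, P.ord f = (p.rootMultiplicity ρ : ℤ) := by
  classical
  -- the rational function field `E = K(x)` and its generator `y = x - ρ`
  set g : ↥K⟮x⟯ := AdjoinSimple.gen K x with hg
  have hgx : algebraMap ↥K⟮x⟯ F g = x := rfl
  have hgtr : Transcendental K g :=
    (transcendental_algebraMap_iff (algebraMap ↥K⟮x⟯ F).injective).mp (by rw [hgx]; exact hx)
  have hgtop : K⟮g⟯ = (⊤ : IntermediateField K ↥K⟮x⟯) := adjoin_gen_eq_top x
  have hfinE : FiniteDimensional ↥K⟮g⟯ ↥K⟮x⟯ := (finrank_of_eq_top K⟮g⟯ hgtop).1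
  have hFFE : IsFF K ↥K⟮x⟯ := ⟨g, hgtr, hfinE⟩
  have hzE : H59.ZerosStmt K ↥K⟮x⟯ := zerosAll K ↥K⟮x⟯ hFFE
  have hzF : H59.ZerosStmt K F := zerosAll K F hFF
  have : HasPrincipalDivisors K F := stmt_FFB_principal K F hFF
  set y : ↥K⟮x⟯ := g - algebraMap K ↥K⟮x⟯ ρ with hy
  have hytr : Transcendental K y := by
    intro halg
    apply hgtr
    have h1 : g = y + algebraMap K ↥K⟮x⟯ ρ := by rw [hy]; ring
    rw [h1]
    exact halg.add (isAlgebraic_algebraMap ρ)
  have hytop : K⟮y⟯ = (⊤ : IntermediateField K ↥K⟮x⟯) := by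
    rw [eq_top_iff, ← hgtop, adjoin_simple_le_iff]
    have h1 : g = y + algebraMap K ↥K⟮x⟯ ρ := by rw [hy]; ring
    rw [h1]
    exact add_mem (mem_adjoin_simple_self K y) (IntermediateField.algebraMap_mem _ ρ)
  obtain ⟨v₀, hv₀, huniq⟩ := exists_unique_zero_of_top hzE y hytr hytop
  have hyx : algebraMap ↥K⟮x⟯ F y = x - algebraMap K F ρ := by
    rw [hy, map_sub, hgx, ← IsScalarTower.algebraMap_apply]
  have hxρ : x - algebraMap K F ρ ≠ 0 := by
    rw [← hyx]
    intro h0
    have : y = 0 := (map_eq_zero (algebraMap ↥K⟮x⟯ F)).mp h0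
    rw [this] at hv₀
    simp at hv₀
  refine ⟨v₀.fiber F, ?_, ?_⟩
  · intro P
    rw [Place.mem_fiber]
    constructor
    · intro hP
      refine Or.inr ?_
      rw [← hyx, P.ord_restrict y, hP, hv₀, mul_one]
      have := P.ramificationIndex_pos (F := ↥K⟮x⟯)
      omega
    · rintro (h0 | h1)
      · exact absurd h0 hxρ
      · apply huniq
        rw [← hyx, P.ord_restrict y] at h1
        have hepos := P.ramificationIndex_pos (F := ↥K⟮x⟯)
        by_contra hneg
        rw [not_lt] at hneg
        have : (P.ramificationIndex ↥K⟮x⟯ : ℤ) * (P.restrict ↥K⟮x⟯).ord y ≤ 0 :=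
          mul_nonpos_of_nonneg_of_nonpos (by omega) hneg
        omega
  · intro f p hf hN
    have hdegF : ∀ w : Place K F, w.deg = 1 := fun w => ff_deg_eq_one x hx w
    have hsum := sum_ramificationIndex_eq hzE hzF hgtr hx v₀ (v₀.fiber F)
      (fun w => Place.mem_fiber)
    rw [← norm_ord v₀ (v₀.fiber F) (fun w hw => Place.mem_fiber.mp hw) hsum hdegF hf]
    have hNE : Algebra.norm ↥K⟮x⟯ f = Polynomial.aeval g p := by
      apply (algebraMap ↥K⟮x⟯ F).injective
      rw [← Polynomial.aeval_algebraMap_apply, hgx]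
      exact hN
    have hp : p ≠ 0 := by
      rintro rfl
      rw [map_zero] at hNE
      exact hf (Algebra.norm_eq_zero_iff.mp hNE)
    have hcomp : Polynomial.aeval g p = Polynomial.aeval y (p.comp (X + C ρ)) := by
      rw [Polynomial.aeval_comp, map_add, Polynomial.aeval_X, Polynomial.aeval_C, hy,
        sub_add_cancel]
    have hp' : p.comp (X + C ρ) ≠ 0 := by
      intro h0
      apply hp
      have := congrArg (fun q : K[X] => q.comp (X - C ρ)) h0
      simpa [Polynomial.comp_assoc] using this
    rw [hNE, hcomp, (ord_aeval v₀ (by omega) hp').2, hv₀, mul_one,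
      ← Polynomial.rootMultiplicity_eq_rootMultiplicity]

end Gen

end Fermat.Agent.RED.H10
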