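import Mathlib

/-!
# IG-core (helper34): a discriminant criterion for an order to be the full integral closure

Pure commutative algebra, no modular input.

* `H34.pow_card_dvd_det_of_cols` : if the columns `j ∈ J` of a square matrix are divisible by `π`,
  then `π ^ #J ∣ det`.
* `H34.pow_dvd_det_of_subspace` : if the reduction of `M` modulo a prime `π` kills a subspace of
  dimension `≥ s`, then `π ^ s ∣ det M`.
* `H34.dvd_trace_of_pow_mem` : trace of an element nilpotent mod `π` is divisible by `π`.
* `H34.pow_dvd_discr_of_linearMap` : `π ^ (n - r) ∣ disc` if `B/rad(πB)` has dimension `≤ r`.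
* `H34.span_eq_of_discr_bound` : the criterion (IG-core).
* `H34.span_eq_of_discr_bound_order` : the criterion with functionals on the order only.
-/

namespace Fermat.Agent.RED.H34

open Matrix Module

section MatrixLemmas

variable {R : Type*} [CommRing R] {ι : Type*} [Fintype ι] [DecidableEq ι]

/-- If all columns `j ∈ J` of `A` are divisible by `π`, then `π ^ #J ∣ det A`. -/
theorem pow_card_dvd_det_of_cols (π : R) (A : Matrix ι ι R) (J : Finset ι)
    (h : ∀ i, ∀ j ∈ J, π ∣ A i j) : π ^ J.card ∣ A.det := by
  classical
  choose! q hq using h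
  let A' : Matrix ι ι R := Matrix.of fun i j => if j ∈ J then q i j else A i j
  let v : ι → R := fun j => if j ∈ J then π else 1
  have hA : A = Matrix.of fun i j => v j * A' i j := by
    ext i j
    by_cases hj : j ∈ J
    · simp [v, A', hj, hq i j hj]
    · simp [v, A', hj]
  have hv : ∏ j, v j = π ^ J.card := by
    simp only [v]
    rw [Finset.prod_ite, Finset.prod_const, Finset.prod_const_one, mul_one]
    congr 1
    congr 1
    ext j
    simp
  rw [hA, Matrix.det_mul_row, hv]
  exact Dvd.intro _ rfl

end MatrixLemmas

section MatrixLemmas2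

variable {R : Type*} [CommRing R] [IsDomain R] {ι : Type*} [Fintype ι] [DecidableEq ι]

/-- If the reduction of `M` modulo the prime `π` kills a subspace `N` of dimension `≥ s`,
then `π ^ s ∣ det M`. -/
theorem pow_dvd_det_of_subspace {κ : Type*} [Field κ] (φ : R →+* κ)
    (hφ : Function.Surjective φ) (π : R) (hπ : Prime π) (hker : ∀ x, φ x = 0 ↔ π ∣ x)
    (M : Matrix ι ι R) (N : Submodule κ (ι → κ)) (hN : ∀ v ∈ N, (M.map φ) *ᵥ v = 0)
    (s : ℕ) (hs : s ≤ Module.finrank κ N) : π ^ s ∣ M.det := by
  classical
  set d := Module.finrank κ N with hd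
  let bN : Basis (Fin d) κ N := Module.finBasis κ N
  let v : Fin d → (ι → κ) := fun i => (bN i : ι → κ)
  have hv : LinearIndependent κ v :=
    bN.linearIndependent.map' N.subtype (Submodule.ker_subtype N)
  have hS : LinearIndepOn κ id (Set.range v) := hv.linearIndepOn_id
  let bE := Basis.extend hS
  have hfin : Fintype (hS.extend (Set.subset_univ _)) := FiniteDimensional.fintypeBasisIndex bE
  have hcard : Fintype.card ι = Fintype.card (hS.extend (Set.subset_univ _)) := by
    rw [← Module.finrank_eq_card_basis bE, Module.finrank_pi]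
  let e : ι ≃ hS.extend (Set.subset_univ _) := Fintype.equivOfCardEq hcard
  let bE' : Basis ι κ (ι → κ) := bE.reindex e.symm
  let Ubar : Matrix ι ι κ := (Pi.basisFun κ ι).toMatrix bE'
  have hUbar : IsUnit Ubar.det := by
    have := (Pi.basisFun κ ι).invertibleToMatrix bE'
    exact Matrix.isUnit_det_of_invertible Ubar
  choose U hU using fun i j => hφ (Ubar i j)
  let Um : Matrix ι ι R := Matrix.of U
  have hUm : Um.map φ = Ubar := by
    ext i j
    simp [Um, hU]
  have hdetU : ¬ π ∣ Um.det := by
    intro h
    have := (hker _).2 h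
    rw [RingHom.map_det, RingHom.mapMatrix_apply, hUm] at this
    exact hUbar.ne_zero this
  -- the set of "kernel" columns
  let x : Fin d → hS.extend (Set.subset_univ _) := fun k =>
    ⟨v k, hS.subset_extend _ (Set.mem_range_self k)⟩
  have hx : Function.Injective x := by
    intro k k' h
    have h' : v k = v k' := congrArg (fun z : hS.extend (Set.subset_univ _) => (z : ι → κ)) h
    exact hv.injective h'
  let J : Finset ι := Finset.univ.map ⟨fun k => e.symm (x k), e.symm.injective.comp hx⟩
  have hJcard : J.card = d := by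
    simp [J]
  have hcols : ∀ i, ∀ j ∈ J, π ∣ (M * Um) i j := by
    intro i j hj
    rw [← hker]
    obtain ⟨k, -, rfl⟩ := Finset.mem_map.1 hj
    have hcol : (fun i' => Ubar i' (e.symm (x k))) = v k := by
      ext i'
      simp [Ubar, bE', bE, Basis.toMatrix_apply, x]
    have hmem : v k ∈ N := (bN k).2
    have h0 := hN _ hmem
    have : φ ((M * Um) i (e.symm (x k))) = ((M.map φ) *ᵥ (v k)) i := by
      rw [← hcol]
      simp only [Matrix.mul_apply, map_sum, map_mul, Matrix.mulVec, dotProduct, Matrix.map_apply,
        ← hUm]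
    simpa [h0] using this
  have h1 : π ^ d ∣ (M * Um).det := hJcard ▸ pow_card_dvd_det_of_cols π (M * Um) J hcols
  rw [Matrix.det_mul] at h1
  exact (pow_dvd_pow π hs).trans (hπ.pow_dvd_of_dvd_mul_right d hdetU h1)

end MatrixLemmas2

section TraceLemma

/-- An element of a finite free `R`-algebra which is nilpotent modulo the prime `π` has trace
divisible by `π`. -/
theorem dvd_trace_of_pow_mem {R B ι : Type*} [CommRing R] [CommRing B] [Algebra R B]
    [Fintype ι] [DecidableEq ι] (c : Basis ι R B) (π : R) (hπ : Prime π) (y : B) (m : ℕ)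
    (hy : y ^ m ∈ Ideal.span {algebraMap R B π}) : π ∣ Algebra.trace R B y := by
  obtain ⟨z, hz⟩ := Ideal.mem_span_singleton'.1 hy
  have hprime : (Ideal.span {π}).IsPrime := (Ideal.span_singleton_prime hπ.ne_zero).2 hπ
  let φ : R →+* R ⧸ Ideal.span {π} := Ideal.Quotient.mk _
  set Y := Algebra.leftMulMatrix c y with hY
  have h1 : Y ^ m = π • Algebra.leftMulMatrix c z := by
    rw [hY, ← map_pow, ← hz, mul_comm, ← Algebra.smul_def, map_smul]
  have h2 : (φ.mapMatrix Y) ^ m = 0 := by
    rw [← map_pow, h1]
    ext i j
    simp [φ]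
  have h3 : Matrix.trace (φ.mapMatrix Y) = 0 :=
    (Matrix.isNilpotent_trace_of_isNilpotent ⟨m, h2⟩).eq_zero
  have h4 : φ (Matrix.trace Y) = 0 := by
    rw [← h3]
    exact AddMonoidHom.map_trace φ.toAddMonoidHom Y
  rw [Algebra.trace_eq_matrix_trace c y, ← Ideal.mem_span_singleton, ← Ideal.Quotient.eq_zero_iff_mem]
  exact h4

end TraceLemma

section Count

variable {R B ι : Type*} [CommRing R] [IsDomain R] [CommRing B] [Algebra R B]
  [Fintype ι] [DecidableEq ι]

/-- Discriminant bound, module form: if `g : B → κ ^ r` (`κ = R/π`) is `R`-linear and every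
element of `ker g` is nilpotent modulo `π`, then `π ^ (n - r)` divides the discriminant of any
`R`-basis of `B`. -/
theorem pow_dvd_discr_of_linearMap (c : Basis ι R B) (π : R) (hπ : Prime π)
    [hmax : (Ideal.span {π}).IsMaximal] {r : ℕ}
    (g : B →ₗ[R] (Fin r → R ⧸ Ideal.span {π}))
    (hg : ∀ y, g y = 0 → ∃ m, y ^ m ∈ Ideal.span {algebraMap R B π}) :
    π ^ (Fintype.card ι - r) ∣ Algebra.discr R c := by
  classical
  let _ : Field (R ⧸ Ideal.span {π}) := Ideal.Quotient.field _
  let κ := R ⧸ Ideal.span {π}
  let φ : R →+* κ := Ideal.Quotient.mk _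
  have hφ : Function.Surjective φ := Ideal.Quotient.mk_surjective
  have hker : ∀ x, φ x = 0 ↔ π ∣ x := fun x => by
    rw [Ideal.Quotient.eq_zero_iff_mem, Ideal.mem_span_singleton]
  -- the induced κ-linear map
  let gbar : (ι → κ) →ₗ[κ] (Fin r → κ) :=
    (Pi.basisFun κ ι).constr κ (fun i => g (c i))
  have hNdim : Fintype.card ι - r ≤ Module.finrank κ (LinearMap.ker gbar) := by
    have h1 := LinearMap.finrank_range_add_finrank_ker gbar
    have h2 : Module.finrank κ (LinearMap.range gbar) ≤ r := by
      have := Submodule.finrank_le (LinearMap.range gbar)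
      simpa using this
    rw [Module.finrank_pi] at h1
    omega
  rw [Algebra.discr_def]
  refine pow_dvd_det_of_subspace φ hφ π hπ hker _ (LinearMap.ker gbar) ?_ _ hNdim
  intro vbar hv
  choose v hvφ using fun i => hφ (vbar i)
  let y : B := ∑ i, v i • c i
  have hgy : g y = 0 := by
    have : gbar vbar = 0 := hv
    rw [← this]
    simp only [y, map_sum, map_smul, gbar, Basis.constr_apply_fintype, Pi.basisFun_equivFun,
      LinearEquiv.refl_apply]
    refine Finset.sum_congr rfl fun i _ => ?_
    rw [← hvφ i]
    rfl
  obtain ⟨m, hm⟩ := hg y hgy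
  ext i
  have hi : π ∣ Algebra.trace R B (c i * y) := by
    refine dvd_trace_of_pow_mem c π hπ (c i * y) m ?_
    rw [mul_pow]
    exact Ideal.mul_mem_left _ _ hm
  have hexp : Algebra.trace R B (c i * y) = ∑ j, Algebra.traceMatrix R c i j * v j := by
    simp only [y, Finset.mul_sum, map_sum, Algebra.traceMatrix_apply, Algebra.traceForm_apply,
      mul_smul_comm, map_smul, smul_eq_mul, mul_comm]
  rw [hexp, ← hker, map_sum] at hi
  simp only [Matrix.mulVec, dotProduct, Matrix.map_apply, Pi.zero_apply]
  rw [← hi]
  refine Finset.sum_congr rfl fun j _ => ?_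
  rw [map_mul, hvφ j]

end Count

section Main

open scoped nonZeroDivisors

variable {R K L : Type*} [CommRing R] [IsDomain R] [IsPrincipalIdealRing R]
    [Field K] [Field L] [Algebra R K] [IsFractionRing R K] [Algebra K L] [Algebra R L]
    [IsScalarTower R K L] [FiniteDimensional K L] [Algebra.IsSeparable K L]
    {ι : Type*} [Fintype ι] [DecidableEq ι]

/-- **IG-core.**  `R` a PID, `K = Frac R`, `L/K` finite separable, `b` a `K`-basis of `L`
consisting of `R`-integral elements, `d ∈ R` its discriminant.  Suppose that for every prime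
`π ∣ d` there are `r` and an `R`-linear map `g : B → (R/π)^r` on the integral closure `B` of `R`
in `L`, all of whose kernel elements are nilpotent modulo `π` (e.g. `g` = evaluation at the `r`
points of `B` above `π`, when the residue degrees are `1`), and that `π ^ (n - r + 1) ∤ d`.
Then the `R`-span of `b` is the whole integral closure. -/
theorem span_eq_of_discr_bound (b : Basis ι K L) (hb : ∀ i, IsIntegral R (b i))
    (d : R) (hd : algebraMap R K d = Algebra.discr K b)
    (h : ∀ π : R, Prime π → π ∣ d →
      ∃ (r : ℕ) (g : integralClosure R L →ₗ[R] (Fin r → R ⧸ Ideal.span {π})),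
        (∀ y, g y = 0 → ∃ m, y ^ m ∈ Ideal.span {algebraMap R (integralClosure R L) π}) ∧
        ¬ π ^ (Fintype.card ι - r + 1) ∣ d) :
    ∀ y : L, IsIntegral R y → y ∈ Submodule.span R (Set.range b) := by
  classical
  have hinj : Function.Injective (algebraMap R L) := by
    rw [IsScalarTower.algebraMap_eq R K L]
    exact (algebraMap K L).injective.comp (IsFractionRing.injective R K)
  have htf : Module.IsTorsionFree R L := by
    rw [Module.isTorsionFree_iff_algebraMap_injective]
    exact hinj
  have hfree : Module.Free R (integralClosure R L) :=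
    IsIntegralClosure.module_free R K L (integralClosure R L)
  have hfin : Module.Finite R (integralClosure R L) :=
    IsIntegralClosure.finite R K L (integralClosure R L)
  have hrank : Module.finrank R (integralClosure R L) = Fintype.card ι := by
    rw [IsIntegralClosure.rank R K L (integralClosure R L), Module.finrank_eq_card_basis b]
  let c : Basis ι R (integralClosure R L) :=
    (Module.finBasisOfFinrankEq R (integralClosure R L) hrank).reindex (Fintype.equivFin ι).symm
  have hloc : IsLocalization (Algebra.algebraMapSubmonoid (integralClosure R L) R⁰) L :=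
    IsIntegralClosure.isLocalization R K L (integralClosure R L)
  let cK : Basis ι K L := c.localizationLocalization K R⁰ L
  have hcK : ∀ i, cK i = (c i : L) := fun i => by
    simp [cK, Basis.localizationLocalization_apply]
  -- the transition matrix
  let P : Matrix ι ι R := Matrix.of fun i j => c.repr ⟨b i, hb i⟩ j
  have hbP : ∀ i, b i = ∑ j, P i j • (c j : L) := by
    intro i
    have h1 := c.sum_repr ⟨b i, hb i⟩
    have h2 := congrArg (fun z : integralClosure R L => (z : L)) h1
    simp only [AddSubmonoidClass.coe_finsetSum, Subalgebra.coe_smul] at h2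
    exact h2.symm
  have hbP' : (b : ι → L) = ((P.map (algebraMap R K)).map (algebraMap K L)) *ᵥ (cK : ι → L) := by
    ext i
    rw [hbP i]
    simp only [Matrix.mulVec, dotProduct, Matrix.map_apply, hcK]
    refine Finset.sum_congr rfl fun j _ => ?_
    rw [← IsScalarTower.algebraMap_apply, Algebra.smul_def]
  have hdisc : d = P.det ^ 2 * Algebra.discr R c := by
    apply IsFractionRing.injective R K
    rw [hd, hbP', Algebra.discr_of_matrix_mulVec, Algebra.discr_localizationLocalization R R⁰ L c,
      map_mul, map_pow, RingHom.map_det, RingHom.mapMatrix_apply]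
  have hd0 : d ≠ 0 := by
    intro h0
    rw [h0, map_zero] at hd
    exact Algebra.discr_not_zero_of_basis K b hd.symm
  have hP0 : P.det ≠ 0 := by
    intro h0
    rw [hdisc, h0] at hd0
    simp at hd0
  have hunit : IsUnit P.det := by
    by_contra hnu
    obtain ⟨π, hπirr, hπdvd⟩ := WfDvdMonoid.exists_irreducible_factor hnu hP0
    have hπ : Prime π := hπirr.prime
    have hπd : π ∣ d := by
      rw [hdisc]
      exact Dvd.dvd.mul_right (Dvd.dvd.pow hπdvd two_ne_zero) _
    obtain ⟨r, g, hg, hnot⟩ := h π hπ hπd
    have : (Ideal.span {π}).IsMaximal := PrincipalIdealRing.isMaximal_of_irreducible hπirr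
    have h1 : π ^ (Fintype.card ι - r) ∣ Algebra.discr R c := pow_dvd_discr_of_linearMap c π hπ g hg
    apply hnot
    rw [hdisc]
    have h2 : π ^ 2 ∣ P.det ^ 2 := pow_dvd_pow_of_dvd hπdvd 2
    have h3 : π ^ (2 + (Fintype.card ι - r)) ∣ P.det ^ 2 * Algebra.discr R c := by
      rw [pow_add]
      exact mul_dvd_mul h2 h1
    exact (pow_dvd_pow π (by omega)).trans h3
  -- conclude
  have hPinv : P⁻¹ * P = 1 := Matrix.nonsing_inv_mul P hunit
  have hc : ∀ j, (c j : L) ∈ Submodule.span R (Set.range b) := by
    intro j
    have : (c j : L) = ∑ i, (P⁻¹) j i • b i := by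
      simp_rw [hbP, Finset.smul_sum, smul_smul]
      rw [Finset.sum_comm]
      simp_rw [← Finset.sum_smul, ← Matrix.mul_apply, hPinv, Matrix.one_apply]
      simp
    rw [this]
    exact Submodule.sum_mem _ fun i _ => Submodule.smul_mem _ _ (Submodule.subset_span ⟨i, rfl⟩)
  intro y hy
  have h1 := c.sum_repr ⟨y, hy⟩
  have h2 := congrArg (fun z : integralClosure R L => (z : L)) h1
  simp only [AddSubmonoidClass.coe_finsetSum, Subalgebra.coe_smul] at h2
  rw [← h2]
  exact Submodule.sum_mem _ fun j _ => Submodule.smul_mem _ _ (hc j)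

end Main

section Order

open scoped nonZeroDivisors

variable {R K L : Type*} [CommRing R] [IsDomain R] [IsPrincipalIdealRing R]
    [Field K] [Field L] [Algebra R K] [IsFractionRing R K] [Algebra K L] [Algebra R L]
    [IsScalarTower R K L] [FiniteDimensional K L] [Algebra.IsSeparable K L]
    {ι : Type*} [Fintype ι] [DecidableEq ι]

/-- **IG-core, order version.**  Same as `span_eq_of_discr_bound`, but the `r` functionals
(given by the rows of a matrix `Λ` over `R`) are only defined on the lattice spanned by `b`:
if `π` divides all `Λ_t(v)` then `∑ v_i b_i` is nilpotent modulo `π` (in the integral closure). -/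
theorem span_eq_of_discr_bound_order (b : Basis ι K L) (hb : ∀ i, IsIntegral R (b i))
    (d : R) (hd : algebraMap R K d = Algebra.discr K b)
    (h : ∀ π : R, Prime π → π ∣ d →
      ∃ (r : ℕ) (Λ : Matrix (Fin r) ι R),
        (∀ v : ι → R, (∀ t, π ∣ (Λ *ᵥ v) t) →
          ∃ (m : ℕ) (z : L), IsIntegral R z ∧ (∑ i, v i • b i) ^ m = π • z) ∧
        ¬ π ^ (Fintype.card ι - r + 1) ∣ d) :
    ∀ y : L, IsIntegral R y → y ∈ Submodule.span R (Set.range b) := by
  classical
  have hinj : Function.Injective (algebraMap R L) := by
    rw [IsScalarTower.algebraMap_eq R K L]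
    exact (algebraMap K L).injective.comp (IsFractionRing.injective R K)
  have htf : Module.IsTorsionFree R L := by
    rw [Module.isTorsionFree_iff_algebraMap_injective]
    exact hinj
  have hfree : Module.Free R (integralClosure R L) :=
    IsIntegralClosure.module_free R K L (integralClosure R L)
  have hfin : Module.Finite R (integralClosure R L) :=
    IsIntegralClosure.finite R K L (integralClosure R L)
  have hrank : Module.finrank R (integralClosure R L) = Fintype.card ι := by
    rw [IsIntegralClosure.rank R K L (integralClosure R L), Module.finrank_eq_card_basis b]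
  let c : Basis ι R (integralClosure R L) :=
    (Module.finBasisOfFinrankEq R (integralClosure R L) hrank).reindex (Fintype.equivFin ι).symm
  have hloc : IsLocalization (Algebra.algebraMapSubmonoid (integralClosure R L) R⁰) L :=
    IsIntegralClosure.isLocalization R K L (integralClosure R L)
  let cK : Basis ι K L := c.localizationLocalization K R⁰ L
  have hcK : ∀ i, cK i = (c i : L) := fun i => by
    simp [cK, Basis.localizationLocalization_apply]
  -- the transition matrix
  let bB : ι → integralClosure R L := fun i => ⟨b i, hb i⟩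
  let P : Matrix ι ι R := Matrix.of fun i j => c.repr (bB i) j
  have hbB : ∀ i, bB i = ∑ j, P i j • c j := fun i => (c.sum_repr (bB i)).symm
  have hbP : ∀ i, b i = ∑ j, P i j • (c j : L) := by
    intro i
    have h2 := congrArg (fun z : integralClosure R L => (z : L)) (hbB i)
    simp only [AddSubmonoidClass.coe_finsetSum, Subalgebra.coe_smul] at h2
    exact h2
  have hbP' : (b : ι → L) = ((P.map (algebraMap R K)).map (algebraMap K L)) *ᵥ (cK : ι → L) := by
    ext i
    rw [hbP i]
    simp only [Matrix.mulVec, dotProduct, Matrix.map_apply, hcK]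
    refine Finset.sum_congr rfl fun j _ => ?_
    rw [← IsScalarTower.algebraMap_apply, Algebra.smul_def]
  have hdisc : d = P.det ^ 2 * Algebra.discr R c := by
    apply IsFractionRing.injective R K
    rw [hd, hbP', Algebra.discr_of_matrix_mulVec, Algebra.discr_localizationLocalization R R⁰ L c,
      map_mul, map_pow, RingHom.map_det, RingHom.mapMatrix_apply]
  have hd0 : d ≠ 0 := by
    intro h0
    rw [h0, map_zero] at hd
    exact Algebra.discr_not_zero_of_basis K b hd.symm
  have hP0 : P.det ≠ 0 := by
    intro h0
    rw [hdisc, h0] at hd0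
    simp at hd0
  -- the mixed trace matrix `M' i j = Tr (b_i c_j) = (P * traceMatrix c) i j`
  have hmixed : ∀ i j, (P * Algebra.traceMatrix R c) i j = Algebra.trace R _ (bB i * c j) := by
    intro i j
    rw [hbB i, Finset.sum_mul, map_sum, Matrix.mul_apply]
    refine Finset.sum_congr rfl fun k _ => ?_
    rw [smul_mul_assoc, map_smul, smul_eq_mul, Algebra.traceMatrix_apply, Algebra.traceForm_apply]
  have hunit : IsUnit P.det := by
    by_contra hnu
    obtain ⟨π, hπirr, hπdvd⟩ := WfDvdMonoid.exists_irreducible_factor hnu hP0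
    have hπ : Prime π := hπirr.prime
    have hπd : π ∣ d := by
      rw [hdisc]
      exact Dvd.dvd.mul_right (Dvd.dvd.pow hπdvd two_ne_zero) _
    obtain ⟨r, Λ, hΛ, hnot⟩ := h π hπ hπd
    have hmax : (Ideal.span {π}).IsMaximal := PrincipalIdealRing.isMaximal_of_irreducible hπirr
    let _ : Field (R ⧸ Ideal.span {π}) := Ideal.Quotient.field _
    let κ := R ⧸ Ideal.span {π}
    let φ : R →+* κ := Ideal.Quotient.mk _
    have hφ : Function.Surjective φ := Ideal.Quotient.mk_surjective
    have hker : ∀ x, φ x = 0 ↔ π ∣ x := fun x => by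
      rw [Ideal.Quotient.eq_zero_iff_mem, Ideal.mem_span_singleton]
    let Λbar : (ι → κ) →ₗ[κ] (Fin r → κ) := Matrix.mulVecLin (Λ.map φ)
    have hNdim : Fintype.card ι - r ≤ Module.finrank κ (LinearMap.ker Λbar) := by
      have h1 := LinearMap.finrank_range_add_finrank_ker Λbar
      have h2 : Module.finrank κ (LinearMap.range Λbar) ≤ r := by
        have := Submodule.finrank_le (LinearMap.range Λbar)
        simpa using this
      rw [Module.finrank_pi] at h1
      omega
    have h1 : π ^ (Fintype.card ι - r) ∣ (P * Algebra.traceMatrix R c)ᵀ.det := by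
      refine pow_dvd_det_of_subspace φ hφ π hπ hker _ (LinearMap.ker Λbar) ?_ _ hNdim
      intro vbar hv
      choose v hvφ using fun i => hφ (vbar i)
      have hΛv : ∀ t, π ∣ (Λ *ᵥ v) t := by
        intro t
        rw [← hker]
        have : Λbar vbar t = 0 := by
          have : Λbar vbar = 0 := hv
          rw [this]; rfl
        rw [← this]
        simp only [Λbar, Matrix.mulVecLin_apply, Matrix.mulVec, dotProduct, Matrix.map_apply,
          map_sum, map_mul, hvφ]
      obtain ⟨m, z, hz, hm⟩ := hΛ v hΛv
      let y : integralClosure R L := ∑ i, v i • bB i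
      have hy : (y : L) = ∑ i, v i • b i := by
        simp [y, bB, AddSubmonoidClass.coe_finsetSum]
      have hym : y ^ m ∈ Ideal.span {algebraMap R (integralClosure R L) π} := by
        rw [Ideal.mem_span_singleton']
        refine ⟨⟨z, hz⟩, ?_⟩
        apply Subtype.ext
        simp only [Subalgebra.coe_mul, Subalgebra.coe_algebraMap, SubmonoidClass.coe_pow]
        rw [hy, hm, Algebra.smul_def, mul_comm]
      ext j
      have hj : π ∣ Algebra.trace R _ (y * c j) := by
        refine dvd_trace_of_pow_mem c π hπ (y * c j) m ?_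
        rw [mul_pow]
        exact Ideal.mul_mem_right _ _ hym
      have hexp : Algebra.trace R _ (y * c j) = ∑ i, (P * Algebra.traceMatrix R c) i j * v i := by
        have e1 : y * c j = ∑ i, v i • (bB i * c j) := by
          simp only [y, Finset.sum_mul, smul_mul_assoc]
        rw [e1, map_sum]
        refine Finset.sum_congr rfl fun i _ => ?_
        rw [map_smul, smul_eq_mul, hmixed, mul_comm]
      rw [hexp, ← hker, map_sum] at hj
      simp only [Matrix.mulVec, dotProduct, Matrix.map_apply, Pi.zero_apply, Matrix.transpose_apply]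
      rw [← hj]
      refine Finset.sum_congr rfl fun i _ => ?_
      rw [map_mul, hvφ i]
    rw [Matrix.det_transpose, Matrix.det_mul] at h1
    apply hnot
    rw [hdisc, ← Algebra.discr_def] at *
    have h3 : π ^ (1 + (Fintype.card ι - r)) ∣ P.det ^ 2 * Algebra.discr R c := by
      rw [pow_add, pow_one, pow_two, mul_assoc]
      exact mul_dvd_mul hπdvd h1
    exact (pow_dvd_pow π (by omega)).trans h3
  -- conclude
  have hPinv : P⁻¹ * P = 1 := Matrix.nonsing_inv_mul P hunit
  have hc : ∀ j, (c j : L) ∈ Submodule.span R (Set.range b) := by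
    intro j
    have : (c j : L) = ∑ i, (P⁻¹) j i • b i := by
      simp_rw [hbP, Finset.smul_sum, smul_smul]
      rw [Finset.sum_comm]
      simp_rw [← Finset.sum_smul, ← Matrix.mul_apply, hPinv, Matrix.one_apply]
      simp
    rw [this]
    exact Submodule.sum_mem _ fun i _ => Submodule.smul_mem _ _ (Submodule.subset_span ⟨i, rfl⟩)
  intro y hy
  have h1 := c.sum_repr ⟨y, hy⟩
  have h2 := congrArg (fun z : integralClosure R L => (z : L)) h1
  simp only [AddSubmonoidClass.coe_finsetSum, Subalgebra.coe_smul] at h2
  rw [← h2]
  exact Submodule.sum_mem _ fun j _ => Submodule.smul_mem _ _ (hc j)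

end Order

end Fermat.Agent.RED.H34
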