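import Fermat.Agent.RED.H34_Lattice
import Fermat.Agent.RED.H34_Adjoin
import Fermat.Agent.RED.H34_IGCore

/-!
# G-RED package IG (helper34): the chart theorem, part 1 (integrality over `O[x]`)

* `exists_ortho_basis` : orthonormal bases exist when `[Ft : k(xt)] = [F : C(x)]`.
* `exists_monic_of_mem` (INT) : elements of `B ∩ V` are integral over `O[x]`.
-/

set_option autoImplicit false

noncomputable section

open Polynomial IntermediateField Module
open scoped IntermediateField.algebraAdjoinAdjoin nonZeroDivisors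

namespace Fermat.Agent.RED.H34

variable {C F k Ft : Type} [Field C] [Field F] [Algebra C F] [Field k] [Field Ft] [Algebra k Ft]

/-- The characteristic polynomial over `R` of an element of the integral closure `B` maps to its
characteristic polynomial over `K`. -/
theorem charpoly_intClosure {R K L : Type} [CommRing R] [IsDomain R] [IsPrincipalIdealRing R]
    [Field K] [Field L] [Algebra R K] [IsFractionRing R K] [Algebra K L] [Algebra R L]
    [IsScalarTower R K L] [FiniteDimensional K L] [Algebra.IsSeparable K L]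
    (f : ↥(integralClosure R L)) :
    ∃ Φ : R[X], Φ.Monic ∧ Polynomial.aeval f Φ = 0 ∧
      Φ.map (algebraMap R K) = LinearMap.charpoly (Algebra.lmul K L (f : L)) := by
  classical
  have hinj : Function.Injective (algebraMap R L) := by
    rw [IsScalarTower.algebraMap_eq R K L]
    exact (algebraMap K L).injective.comp (IsFractionRing.injective R K)
  have htf : Module.IsTorsionFree R L := by
    rw [Module.isTorsionFree_iff_algebraMap_injective]
    exact hinj
  have hfree : Module.Free R (integralClosure R L) :=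
    IsIntegralClosure.module_free R K L (integralClosure R L)
  have hfin : Module.Finite R (integralClosure R L) :=
    IsIntegralClosure.finite R K L (integralClosure R L)
  let c := Module.Free.chooseBasis R (integralClosure R L)
  have hloc : IsLocalization (Algebra.algebraMapSubmonoid (integralClosure R L) R⁰) L :=
    IsIntegralClosure.isLocalization R K L (integralClosure R L)
  refine ⟨(Algebra.leftMulMatrix c f).charpoly, Matrix.charpoly_monic _, ?_, ?_⟩
  · apply Algebra.leftMulMatrix_injective c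
    rw [map_zero, ← Polynomial.aeval_algHom_apply]
    exact Matrix.aeval_self_charpoly _
  · have hb := Algebra.map_leftMulMatrix_localization R (Rₘ := K) (Sₘ := L) R⁰ c f
    rw [← Matrix.charpoly_map, ← RingHom.mapMatrix_apply, hb, Algebra.leftMulMatrix_apply,
      LinearMap.charpoly_toMatrix]
    rfl

namespace RedSetting

variable {S : RedSetting C F k Ft} {x : F} (hx : x ∈ S.V)

/-- Existence of an orthonormal basis: a `C(x)`-basis of `F` in `V` reducing to a basis. -/
theorem exists_ortho_basis (hxt : Transcendental k (S.red ⟨x, hx⟩)) [FiniteDimensional ↥C⟮x⟯ F]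
    (hdeg : Module.finrank ↥k⟮S.red ⟨x, hx⟩⟯ Ft = Module.finrank ↥C⟮x⟯ F) :
    ∃ (βF : Module.Basis (Fin (Module.finrank ↥C⟮x⟯ F)) ↥C⟮x⟯ F) (hβV : ∀ i, βF i ∈ S.V)
      (βt : Module.Basis (Fin (Module.finrank ↥C⟮x⟯ F)) ↥k⟮S.red ⟨x, hx⟩⟯ Ft),
      ∀ i, βt i = S.red ⟨βF i, hβV i⟩ := by
  have hpos : 0 < Module.finrank ↥C⟮x⟯ F := Module.finrank_pos
  have hfin : FiniteDimensional ↥k⟮S.red ⟨x, hx⟩⟯ Ft :=
    Module.finite_of_finrank_pos (hdeg ▸ hpos)
  let βt : Module.Basis (Fin (Module.finrank ↥C⟮x⟯ F)) ↥k⟮S.red ⟨x, hx⟩⟯ Ft :=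
    Module.finBasisOfFinrankEq _ _ hdeg
  choose β hβ using fun i => S.red_surj (βt i)
  have hlin : LinearIndependent ↥k⟮S.red ⟨x, hx⟩⟯
      (fun i => S.red ⟨((β i : ↥S.V) : F), (β i).2⟩) := by
    have : (fun i => S.red ⟨((β i : ↥S.V) : F), (β i).2⟩) = βt := by
      funext i
      exact hβ i
    rw [this]
    exact βt.linearIndependent
  have hlinF := linearIndependent_lift hx (fun i => ((β i : ↥S.V) : F)) (fun i => (β i).2)
    hxt hlin
  have : Nonempty (Fin (Module.finrank ↥C⟮x⟯ F)) := ⟨⟨0, hpos⟩⟩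
  refine ⟨basisOfLinearIndependentOfCardEqFinrank hlinF (by simp), ?_, βt, ?_⟩
  · intro i
    rw [coe_basisOfLinearIndependentOfCardEqFinrank]
    exact (β i).2
  · intro i
    simp only [coe_basisOfLinearIndependentOfCardEqFinrank]
    exact (hβ i).symm

/-- The ring hom `O[X] → C[x]`. -/
def psiR (S : RedSetting C F k Ft) (hxC : Transcendental C x) :
    (↥S.O)[X] →+* ↥(Algebra.adjoin C {x}) :=
  (polyEquiv hxC).toRingEquiv.toRingHom.comp (Polynomial.mapRingHom S.O.subtype)

theorem coe_psiR (hxC : Transcendental C x) (p₀ : (↥S.O)[X]) :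
    ((S.psiR hxC p₀ : ↥(Algebra.adjoin C {x})) : F) = ((psi hx p₀ : ↥S.V) : F) := by
  rw [coe_psi]
  exact coe_polyEquiv hxC _

/-- Elements of `C[x] ∩ V` come from `O[X]`. -/
theorem exists_psiR_eq (hxt : Transcendental k (S.red ⟨x, hx⟩)) (hxC : Transcendental C x)
    (r : ↥(Algebra.adjoin C {x})) (hr : (r : F) ∈ S.V) :
    ∃ p₀ : (↥S.O)[X], S.psiR hxC p₀ = r := by
  obtain ⟨p, rfl⟩ := (polyEquiv hxC).surjective r
  rw [coe_polyEquiv] at hr
  obtain ⟨p₀, hp₀⟩ := exists_lift_of_aeval_mem hx hxt p hr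
  exact ⟨p₀, by rw [← hp₀]; rfl⟩

/-- Coefficients of the characteristic polynomial of an element of `V` lie in `Vx`. -/
theorem charpoly_coeff_mem (hxt : Transcendental k (S.red ⟨x, hx⟩)) [FiniteDimensional ↥C⟮x⟯ F]
    (hdeg : Module.finrank ↥k⟮S.red ⟨x, hx⟩⟯ Ft = Module.finrank ↥C⟮x⟯ F)
    (f : F) (hf : f ∈ S.V) (i : ℕ) :
    (LinearMap.charpoly (Algebra.lmul ↥C⟮x⟯ F f)).coeff i ∈ S.Vx x := by
  classical
  obtain ⟨βF, hβV, βt, hβt⟩ := exists_ortho_basis hx hxt hdeg
  have hmem : ∀ j, f * βF j ∈ S.V := fun j => mul_mem hf (hβV j)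
  let MV : Matrix (Fin (Module.finrank ↥C⟮x⟯ F)) (Fin (Module.finrank ↥C⟮x⟯ F)) ↥(S.Vx x) :=
    Matrix.of fun i j => ⟨βF.repr (f * βF j) i, repr_mem_V hx βF hβV βt hβt hxt _ (hmem j) i⟩
  have h1 : Algebra.leftMulMatrix βF f = (S.Vx x).subtype.mapMatrix MV := by
    ext i j
    rw [Algebra.leftMulMatrix_eq_repr_mul]
    rfl
  rw [← LinearMap.charpoly_toMatrix (Algebra.lmul ↥C⟮x⟯ F f) βF, ← Algebra.leftMulMatrix_apply, h1,
    RingHom.mapMatrix_apply, Matrix.charpoly_map, Polynomial.coeff_map]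
  exact Subtype.mem _

/-- **(INT)** An element of `B ∩ V` is integral over `O[x]`. -/
theorem exists_monic_of_mem [CharZero C] (hxt : Transcendental k (S.red ⟨x, hx⟩))
    [FiniteDimensional ↥C⟮x⟯ F]
    (hdeg : Module.finrank ↥k⟮S.red ⟨x, hx⟩⟯ Ft = Module.finrank ↥C⟮x⟯ F)
    (f : ↥(Bx (C := C) x)) (hf : (f : F) ∈ S.V) :
    ∃ Φ : ((↥S.O)[X])[X], Φ.Monic ∧
      Polynomial.eval₂ ((algebraMap ↥(Algebra.adjoin C {x}) ↥(Bx (C := C) x)).comp
        (S.psiR (transcendental_x hx hxt))) f Φ = 0 := by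
  classical
  have hxC := transcendental_x hx hxt
  have hpid : IsPrincipalIdealRing ↥(Algebra.adjoin C {x}) := isPrincipalIdealRing_adjoin hxC
  have hcz : CharZero ↥C⟮x⟯ := charZero_of_injective_algebraMap (algebraMap C ↥C⟮x⟯).injective
  obtain ⟨Φc, hmonic, hzero, hmap⟩ :=
    charpoly_intClosure (R := ↥(Algebra.adjoin C {x})) (K := ↥C⟮x⟯) (L := F) f
  -- coefficients lie in `V`
  have hcoeff : ∀ i, ((Φc.coeff i : ↥(Algebra.adjoin C {x})) : F) ∈ S.V := by
    intro i
    have h2 := charpoly_coeff_mem hx hxt hdeg (f : F) hf i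
    rw [← hmap, Polynomial.coeff_map] at h2
    exact h2
  have hlifts : Φc ∈ Polynomial.lifts (S.psiR hxC) := by
    rw [Polynomial.lifts_iff_coeff_lifts]
    intro i
    obtain ⟨p₀, hp₀⟩ := exists_psiR_eq hx hxt hxC (Φc.coeff i) (hcoeff i)
    exact ⟨p₀, hp₀⟩
  obtain ⟨Φ, hΦ, -, hΦm⟩ := Polynomial.lifts_and_degree_eq_and_monic hlifts hmonic
  refine ⟨Φ, hΦm, ?_⟩
  rw [← Polynomial.eval₂_map, hΦ]
  exact hzero

end RedSetting

end Fermat.Agent.RED.H34
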