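import Fermat.Agent.RED.H79_ConsDefs
import Fermat.Agent.RED.H34_Int
import Fermat.Agent.RED.H17_Place
import Fermat.Agent.RED.H51_Basic

/-!
# G-RED package CONS (helper10), part C2: integrality on a chart

* `valHom P hdeg : O_P →+* K` : the value of a regular function at a place of degree one, as a
  ring homomorphism; `ordGe_sub_valHom`, `valHom_eq_of_ordGe`.
* `mem_of_isIntegral_adjoin` : `B ⊂ O_P` if `x ∈ O_P`.
* `chartIntegral` : `GoodChart S x hx → ChartIntegral S x hx` (C2), from helper34's (INT)
  `H34.RedSetting.exists_monic_of_mem`.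
-/

set_option autoImplicit false

noncomputable section

open AlgebraicCurve Polynomial IntermediateField

namespace Fermat.Agent.RED.H10

open Fermat.Agent.RED.H34 Fermat.Agent.RED.H34.RedSetting Fermat.Agent.RED.H51
  Fermat.Agent.RED.H79

section ValHom

variable {K F : Type*} [Field K] [Field F] [Algebra K F]

theorem ordGe_one_iff_vanAt (v : Place K F) (f : F) : OrdGe v 1 f ↔ H17.VanAt v f := by
  rw [H17.vanAt_iff_ord]
  unfold OrdGe
  constructor
  · rintro (h | h)
    · exact Or.inl h
    · exact Or.inr (by omega)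
  · rintro (h | h)
    · exact Or.inl h
    · exact Or.inr (by omega)

theorem ordGe_one_iff_mem_maximalIdeal (v : Place K F) (a : ↥v.toValuationSubring) :
    OrdGe v 1 (a : F) ↔ a ∈ IsLocalRing.maximalIdeal ↥v.toValuationSubring := by
  rw [ordGe_one_iff_vanAt]
  unfold H17.VanAt
  rw [v.adicValuation_coe]
  exact IsDedekindDomain.HeightOneSpectrum.intValuation_lt_one_iff_mem _ _

/-- The value at a place of degree one, as a ring homomorphism `O_P → K`. -/
def valHom (v : Place K F) (hdeg : v.deg = 1) : ↥v.toValuationSubring →+* K :=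
  ((RingEquiv.ofBijective (algebraMap K v.ResidueField)
    (Algebra.finrank_eq_one_iff_bijective_algebraMap.mp hdeg)).symm : v.ResidueField →+* K).comp
    (IsLocalRing.residue ↥v.toValuationSubring)

theorem algebraMap_valHom (v : Place K F) (hdeg : v.deg = 1) (a : ↥v.toValuationSubring) :
    algebraMap K v.ResidueField (valHom v hdeg a) = IsLocalRing.residue _ a := by
  unfold valHom
  exact (RingEquiv.ofBijective (algebraMap K v.ResidueField)
    (Algebra.finrank_eq_one_iff_bijective_algebraMap.mp hdeg)).apply_symm_apply _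

theorem valHom_algebraMap (v : Place K F) (hdeg : v.deg = 1) (c : K) :
    valHom v hdeg (algebraMap K ↥v.toValuationSubring c) = c := by
  have hinj : Function.Injective (algebraMap K v.ResidueField) :=
    (Algebra.finrank_eq_one_iff_bijective_algebraMap.mp hdeg).1
  apply hinj
  rw [algebraMap_valHom]
  rfl

theorem ordGe_sub_valHom (v : Place K F) (hdeg : v.deg = 1) (a : ↥v.toValuationSubring) :
    OrdGe v 1 ((a : F) - algebraMap K F (valHom v hdeg a)) := by
  have h1 : (a : F) - algebraMap K F (valHom v hdeg a) =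
      ((a - algebraMap K ↥v.toValuationSubring (valHom v hdeg a) : ↥v.toValuationSubring) : F) :=
    rfl
  rw [h1, ordGe_one_iff_mem_maximalIdeal, ← IsLocalRing.residue_eq_zero_iff, map_sub,
    ← algebraMap_valHom v hdeg a, sub_eq_zero]
  rfl

theorem valHom_eq_of_ordGe (v : Place K F) (hdeg : v.deg = 1) (a : ↥v.toValuationSubring)
    {c : K} (h : OrdGe v 1 ((a : F) - algebraMap K F c)) : valHom v hdeg a = c := by
  have h1 := ordGe_sub_valHom v hdeg a
  rw [ordGe_one_iff_vanAt] at h h1
  exact H17.value_unique v h1 h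

theorem mem_of_ordGe_one_sub (v : Place K F) {f : F} {c : K}
    (h : OrdGe v 1 (f - algebraMap K F c)) : f ∈ v.toValuationSubring := by
  rw [ordGe_one_iff_vanAt] at h
  exact (H17.regAt_iff_mem v f).mp (H17.RegAt.of_vanAt_sub h)

end ValHom

section Chart

variable {C F k Ft : Type} [Field C] [Field F] [Algebra C F] [Field k] [Field Ft] [Algebra k Ft]
variable {S : RedSetting C F k Ft} {x : F} (hx : x ∈ S.V)

/-- The ring hom `O[X] → F`, `X ↦ x`. -/
def phiF (S : RedSetting C F k Ft) (x : F) : (↥S.O)[X] →+* F :=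
  ((Polynomial.aeval x : C[X] →ₐ[C] F) : C[X] →+* F).comp (Polynomial.mapRingHom S.O.subtype)

theorem phiF_C (a : ↥S.O) : phiF S x (Polynomial.C a) = algebraMap C F (a : C) := by
  simp [phiF]

theorem phiF_X : phiF S x Polynomial.X = x := by
  simp [phiF]

theorem subtype_comp_psi : S.V.subtype.comp (psi hx) = phiF S x := by
  apply Polynomial.ringHom_ext
  · intro a
    rw [phiF_C]
    simp [psi]
  · rw [phiF_X]
    simp [psi]

/-- **(INT)** in `F`: an element of `B ∩ V` satisfies a monic equation over `O[x]`. -/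
theorem exists_monic_phiF [CharZero C] (hxt : Transcendental k (S.red ⟨x, hx⟩))
    [FiniteDimensional ↥C⟮x⟯ F]
    (hdeg : Module.finrank ↥k⟮S.red ⟨x, hx⟩⟯ Ft = Module.finrank ↥C⟮x⟯ F)
    (f : F) (hfi : IsIntegral ↥(Algebra.adjoin C {x}) f) (hfV : f ∈ S.V) :
    ∃ Φ : ((↥S.O)[X])[X], Φ.Monic ∧ Polynomial.eval₂ (phiF S x) f Φ = 0 := by
  obtain ⟨Φ, hΦ, h0⟩ := exists_monic_of_mem hx hxt hdeg (⟨f, hfi⟩ : ↥(Bx (C := C) x)) hfV
  refine ⟨Φ, hΦ, ?_⟩
  have h1 := congrArg ((Bx (C := C) x).toSubring.subtype) h0
  rw [Polynomial.hom_eval₂, map_zero] at h1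
  have h2 : ((Bx (C := C) x).toSubring.subtype).comp
      ((algebraMap ↥(Algebra.adjoin C {x}) ↥(Bx (C := C) x)).comp
        (S.psiR (transcendental_x hx hxt))) = phiF S x := by
    apply Polynomial.ringHom_ext
    · intro a
      rw [phiF_C]
      show ((S.psiR (transcendental_x hx hxt) (Polynomial.C a) : ↥(Algebra.adjoin C {x})) : F) = _
      rw [coe_psiR hx]
      simp [psi]
    · rw [phiF_X]
      show ((S.psiR (transcendental_x hx hxt) Polynomial.X : ↥(Algebra.adjoin C {x})) : F) = _
      rw [coe_psiR hx]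
      simp [psi]
  rw [h2] at h1
  exact h1

/-- `B ⊂ O_P` for the places `P` finite over `x`. -/
theorem mem_of_isIntegral_adjoin (P : Place C F) (hxP : x ∈ P.toValuationSubring) (f : F)
    (hfi : IsIntegral ↥(Algebra.adjoin C {x}) f) : f ∈ P.toValuationSubring := by
  have hle : ∀ a : ↥(Algebra.adjoin C {x}), (a : F) ∈ P.toValuationSubring := by
    intro a
    have h1 : Algebra.adjoin C {x} ≤
        { P.toValuationSubring.toSubring with
          algebraMap_mem' := fun c => P.algebraMap_mem' c } := by
      apply Algebra.adjoin_le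
      intro y hy
      rw [Set.mem_singleton_iff] at hy
      rw [hy]
      exact hxP
    exact h1 a.2
  let j : ↥(Algebra.adjoin C {x}) →+* ↥P.toValuationSubring :=
    { toFun := fun a => ⟨(a : F), hle a⟩
      map_one' := rfl
      map_mul' := fun _ _ => rfl
      map_zero' := rfl
      map_add' := fun _ _ => rfl }
  obtain ⟨p, hp, h0⟩ := hfi
  have hint : IsIntegral ↥P.toValuationSubring f := by
    refine ⟨p.map j, hp.map j, ?_⟩
    rw [Polynomial.eval₂_map]
    exact h0
  obtain ⟨y, hy⟩ := IsIntegrallyClosed.isIntegral_iff.mp hint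
  rw [← hy]
  exact y.2

/-- **(C2)** integrality on the chart. -/
theorem chartIntegral [IsAlgClosed C] [CharZero C] (hFF : IsFF C F) (gc : GoodChart S x hx) :
    ChartIntegral S x hx := by
  have hxt := gc.transc
  have := gc.fin
  intro f hfi
  obtain ⟨Φ, hΦ, h0⟩ := exists_monic_phiF hx hxt gc.deg (f : F) hfi f.2
  refine ⟨?_, ?_⟩
  · -- the reduction is integral over `k[xt]`
    have h1 : Polynomial.eval₂ (psi hx) f Φ = 0 := by
      apply Subtype.ext
      have := Polynomial.hom_eval₂ Φ (psi hx) S.V.subtype f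
      rw [subtype_comp_psi] at this
      exact this.trans h0
    have h2 := congrArg S.red h1
    rw [Polynomial.hom_eval₂, map_zero] at h2
    let g : (↥S.O)[X] →+* ↥(Algebra.adjoin k {S.red ⟨x, hx⟩}) :=
      ((polyEquiv hxt).toRingEquiv.toRingHom).comp (Polynomial.mapRingHom S.resO)
    have h3 : S.red.comp (psi hx) =
        (algebraMap ↥(Algebra.adjoin k {S.red ⟨x, hx⟩}) Ft).comp g := by
      refine RingHom.ext fun p₀ => ?_
      show S.red (psi hx p₀) = _
      rw [red_psi]
      exact (coe_polyEquiv hxt _).symm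
    rw [h3] at h2
    refine ⟨Φ.map g, hΦ.map g, ?_⟩
    rw [Polynomial.eval₂_map]
    exact h2
  · -- values in `O`
    rintro P ⟨ρ, hρ, hP⟩
    have hdeg : P.deg = 1 := H51.stmt_FFB_deg C F hFF P
    have hxP : x ∈ P.toValuationSubring := mem_of_ordGe_one_sub P hP
    have hfP : (f : F) ∈ P.toValuationSubring := mem_of_isIntegral_adjoin P hxP _ hfi
    -- the ring hom `O[X] → O_P`
    let ιO : ↥S.O →+* ↥P.toValuationSubring :=
      { toFun := fun a => ⟨algebraMap C F (a : C), P.algebraMap_mem' _⟩
        map_one' := by apply Subtype.ext; simp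
        map_mul' := fun _ _ => by apply Subtype.ext; simp
        map_zero' := by apply Subtype.ext; simp
        map_add' := fun _ _ => by apply Subtype.ext; simp }
    let ψP : (↥S.O)[X] →+* ↥P.toValuationSubring := Polynomial.eval₂RingHom ιO ⟨x, hxP⟩
    have hψ : P.toValuationSubring.subtype.comp ψP = phiF S x := by
      apply Polynomial.ringHom_ext
      · intro a
        rw [phiF_C]
        simp [ψP, ιO]
      · rw [phiF_X]
        simp [ψP]
    have h1 : Polynomial.eval₂ ψP (⟨(f : F), hfP⟩ : ↥P.toValuationSubring) Φ = 0 := by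
      apply Subtype.ext
      have := Polynomial.hom_eval₂ Φ ψP P.toValuationSubring.subtype ⟨(f : F), hfP⟩
      rw [hψ] at this
      exact this.trans h0
    have h2 := congrArg (valHom P hdeg) h1
    rw [Polynomial.hom_eval₂, map_zero] at h2
    set a : C := valHom P hdeg ⟨(f : F), hfP⟩ with ha
    have h3 : (valHom P hdeg).comp ψP =
        S.O.subtype.comp (Polynomial.evalRingHom (⟨ρ, hρ⟩ : ↥S.O)) := by
      apply Polynomial.ringHom_ext
      · intro c
        simp only [RingHom.comp_apply, Polynomial.coe_evalRingHom, Polynomial.eval_C]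
        have : ψP (Polynomial.C c) = algebraMap C ↥P.toValuationSubring (c : C) := by
          apply Subtype.ext
          simp [ψP, ιO]
        rw [this, valHom_algebraMap]
        rfl
      · simp only [RingHom.comp_apply, Polynomial.coe_evalRingHom, Polynomial.eval_X]
        have : ψP Polynomial.X = ⟨x, hxP⟩ := by simp [ψP]
        rw [this]
        exact valHom_eq_of_ordGe P hdeg ⟨x, hxP⟩ hP
    rw [h3] at h2
    have hint : IsIntegral ↥S.O a := by
      refine ⟨Φ.map (Polynomial.evalRingHom (⟨ρ, hρ⟩ : ↥S.O)), hΦ.map _, ?_⟩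
      rw [Polynomial.eval₂_map]
      exact h2
    obtain ⟨y, hy⟩ := IsIntegrallyClosed.isIntegral_iff.mp hint
    refine ⟨y, ?_⟩
    have : ((y : ↥S.O) : C) = a := hy
    rw [this, ha]
    exact ordGe_sub_valHom P hdeg ⟨(f : F), hfP⟩

end Chart

end Fermat.Agent.RED.H10
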