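import Fermat.Agent.RED.H82_RootRed

/-!
# G-RED package CONS (helper10): counting roots modulo the maximal ideal

`O` a valuation ring of an algebraically closed field, `res : O → k` the residue map,
`D ∈ O[X]` with nonzero reduction.  Then the roots of the reduction are the reductions of the
roots of `D` in `O`, as multisets:  `(D.map res).roots = D.roots.map res`.
-/

set_option autoImplicit false

noncomputable section

open Polynomial

namespace Fermat.Agent.RED.H10

variable {Cf k : Type} [Field Cf] [IsAlgClosed Cf] [Field k] (O : ValuationSubring Cf)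
variable (res : ↥O →+* k)

theorem roots_map_res_aux (hker : ∀ a : ↥O, res a = 0 ↔ ¬ IsUnit a) :
    ∀ (n : ℕ) (D : Polynomial ↥O), D.natDegree = n → D.map res ≠ 0 →
      (D.map res).roots = D.roots.map res := by
  classical
  intro n
  induction n using Nat.strong_induction_on with
  | _ n ih =>
  intro D hn hD
  have hD0 : D ≠ 0 := fun h => hD (by rw [h, Polynomial.map_zero])
  by_cases hdeg : 0 < D.natDegree
  · rcases H82.exists_factor O D hdeg with ⟨r, D₁, hfac⟩ | ⟨s, D₁, hsnu, hs0, hfac⟩
    · -- `D = (X - C r) * D₁`
      have hD₁0 : D₁ ≠ 0 := fun h => hD0 (by rw [hfac, h, mul_zero])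
      have hD₁ : D₁.map res ≠ 0 := by
        intro h
        apply hD
        rw [hfac, Polynomial.map_mul, h, mul_zero]
      have hdeg₁ : D₁.natDegree < n := by
        rw [← hn, hfac, Polynomial.natDegree_mul (Polynomial.X_sub_C_ne_zero r) hD₁0,
          Polynomial.natDegree_X_sub_C]
        omega
      have ih₁ := ih D₁.natDegree hdeg₁ D₁ rfl hD₁
      have hmap : D.map res = (X - C (res r)) * D₁.map res := by
        rw [hfac, Polynomial.map_mul, Polynomial.map_sub, Polynomial.map_X, Polynomial.map_C]
      have h1 : (D.map res).roots = (X - C (res r)).roots + (D₁.map res).roots := by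
        rw [hmap]
        exact Polynomial.roots_mul (by rw [← hmap]; exact hD)
      have h2 : D.roots = (X - C r).roots + D₁.roots := by
        rw [hfac]
        exact Polynomial.roots_mul (by rw [← hfac]; exact hD0)
      rw [h1, h2, Polynomial.roots_X_sub_C, Polynomial.roots_X_sub_C, Multiset.map_add,
        Multiset.map_singleton, ih₁]
    · -- `D = (1 - C s * X) * D₁`
      have hD₁0 : D₁ ≠ 0 := fun h => hD0 (by rw [hfac, h, mul_zero])
      have hres : res s = 0 := (hker s).2 hsnu
      have hmap : D.map res = D₁.map res := by
        rw [hfac, Polynomial.map_mul, Polynomial.map_sub, Polynomial.map_one, Polynomial.map_mul,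
          Polynomial.map_C, Polynomial.map_X, hres, Polynomial.C_0, zero_mul, sub_zero, one_mul]
      have hD₁ : D₁.map res ≠ 0 := by rw [← hmap]; exact hD
      have hlin0 : (1 - C s * X : Polynomial ↥O) ≠ 0 := fun h => hD0 (by rw [hfac, h, zero_mul])
      have hlindeg : (1 - C s * X : Polynomial ↥O).natDegree = 1 := by
        have h1 : (1 - C s * X : Polynomial ↥O) = C (-s) * X + C 1 := by
          rw [Polynomial.C_neg, Polynomial.C_1]
          ring
        rw [h1]
        exact Polynomial.natDegree_linear (neg_ne_zero.mpr hs0)
      have hdeg₁ : D₁.natDegree < n := by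
        rw [← hn, hfac, Polynomial.natDegree_mul hlin0 hD₁0, hlindeg]
        omega
      have ih₁ := ih D₁.natDegree hdeg₁ D₁ rfl hD₁
      have hnoroot : (1 - C s * X : Polynomial ↥O).roots = 0 := by
        apply Multiset.eq_zero_of_forall_notMem
        intro ρ hρ
        rw [Polynomial.mem_roots hlin0, Polynomial.IsRoot.def] at hρ
        simp only [Polynomial.eval_sub, Polynomial.eval_one, Polynomial.eval_mul,
          Polynomial.eval_C, Polynomial.eval_X] at hρ
        apply hsnu
        exact IsUnit.of_mul_eq_one ρ (sub_eq_zero.mp hρ).symm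
      have h2 : D.roots = (1 - C s * X : Polynomial ↥O).roots + D₁.roots := by
        rw [hfac]
        exact Polynomial.roots_mul (by rw [← hfac]; exact hD0)
      rw [hmap, h2, hnoroot, zero_add, ih₁]
  · -- constant polynomial
    have h0 : D.natDegree = 0 := by omega
    obtain ⟨c, hc⟩ := Polynomial.natDegree_eq_zero.mp h0
    rw [← hc, Polynomial.map_C, Polynomial.roots_C, Polynomial.roots_C, Multiset.map_zero]

/-- The roots of the reduction are the reductions of the roots in `O`. -/
theorem roots_map_res (hker : ∀ a : ↥O, res a = 0 ↔ ¬ IsUnit a) (D : Polynomial ↥O)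
    (hD : D.map res ≠ 0) : (D.map res).roots = D.roots.map res :=
  roots_map_res_aux O res hker D.natDegree D rfl hD

/-- Counting form: the multiplicity of `γ` in the reduction is the sum of the multiplicities of
the roots of `D` in `O` reducing to `γ`. -/
theorem rootMultiplicity_map_res (hker : ∀ a : ↥O, res a = 0 ↔ ¬ IsUnit a) (D : Polynomial ↥O)
    (hD : D.map res ≠ 0) (γ : k) [DecidableEq ↥O] [DecidablePred fun ρ : ↥O => res ρ = γ] :
    ((D.map res).rootMultiplicity γ : ℤ) =
      ∑ ρ ∈ D.roots.toFinset.filter (fun ρ => res ρ = γ), (D.rootMultiplicity ρ : ℤ) := by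
  classical
  rw [← Polynomial.count_roots, roots_map_res O res hker D hD, Multiset.count_map]
  have h1 : (Multiset.filter (fun a => γ = res a) D.roots).card =
      ∑ ρ ∈ D.roots.toFinset.filter (fun ρ => res ρ = γ), D.roots.count ρ := by
    rw [← Multiset.toFinset_sum_count_eq (Multiset.filter (fun a => γ = res a) D.roots)]
    have hsub : (Multiset.filter (fun a => γ = res a) D.roots).toFinset =
        D.roots.toFinset.filter (fun ρ => res ρ = γ) := by
      ext ρ
      simp only [Multiset.mem_toFinset, Multiset.mem_filter, Finset.mem_filter]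
      exact ⟨fun h => ⟨h.1, h.2.symm⟩, fun h => ⟨h.1, h.2.symm⟩⟩
    rw [hsub]
    refine Finset.sum_congr rfl fun ρ hρ => ?_
    rw [Finset.mem_filter] at hρ
    rw [Multiset.count_filter, if_pos hρ.2.symm]
  rw [h1]
  push_cast
  refine Finset.sum_congr rfl fun ρ _ => ?_
  rw [Polynomial.count_roots]

end Fermat.Agent.RED.H10
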