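import Fermat.Agent.RED.H10_ConsNorm
import Fermat.Agent.RED.H10_ConsInt
import Fermat.Agent.RED.H10_ConsFibre
import Fermat.Agent.RED.H10_ConsRoots

/-!
# G-RED package CONS (helper10), part C3: fibre-wise conservation on a chart

`S : RedSetting C F k Ft`, chart `x ∈ V` with `[Ft : k(xt)] = [F : C(x)]`.

* `exists_norm_poly` : for `f ∈ R = B ∩ V` the norm `N f` is `p(x)` with `p ∈ O[X]`, and
  `N (red f) = (p mod m)(xt)`.
* `fibre_conservation` (C3) : for a Gauss unit `f ∈ R` and `γ ∈ k`: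
  `∑_{P : x(P) ∈ O, x(P) mod m = γ} ord_P f = ∑_{Q : xt(Q) = γ} ord_Q (red f)`.
-/

set_option autoImplicit false

noncomputable section

open AlgebraicCurve Polynomial IntermediateField

namespace Fermat.Agent.RED.H10

open Fermat.Agent.RED.H34 Fermat.Agent.RED.H34.RedSetting Fermat.Agent.RED.H51
  Fermat.Agent.RED.H79

open scoped IntermediateField.algebraAdjoinAdjoin

variable {C F k Ft : Type} [Field C] [Field F] [Algebra C F] [Field k] [Field Ft] [Algebra k Ft]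
variable {S : RedSetting C F k Ft} {x : F} (hx : x ∈ S.V)

/-- The norm of an element of `R = B ∩ V` is a polynomial in `x` over `O`, and it reduces to the
norm of the reduction. -/
theorem exists_norm_poly (hxt : Transcendental k (S.red ⟨x, hx⟩)) [FiniteDimensional ↥C⟮x⟯ F]
    (hdeg : Module.finrank ↥k⟮S.red ⟨x, hx⟩⟯ Ft = Module.finrank ↥C⟮x⟯ F)
    (f : ↥S.V) (hfi : IsIntegral ↥(Algebra.adjoin C {x}) (f : F)) :
    ∃ p₀ : (↥S.O)[X],
      ((Algebra.norm ↥C⟮x⟯ (f : F) : ↥C⟮x⟯) : F) = Polynomial.aeval x (p₀.map S.O.subtype) ∧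
      ((Algebra.norm ↥k⟮S.red ⟨x, hx⟩⟯ (S.red f) : ↥k⟮S.red ⟨x, hx⟩⟯) : Ft) =
        Polynomial.aeval (S.red ⟨x, hx⟩) (p₀.map S.resO) := by
  classical
  have hxC := transcendental_x hx hxt
  obtain ⟨βF, hβV, βt, hβt⟩ := exists_ortho_basis hx hxt hdeg
  obtain ⟨t, ht1, ht2⟩ := norm_red hx βF hβV βt hβt hxt (f : F) f.2
  have hpid : IsPrincipalIdealRing ↥(Algebra.adjoin C {x}) := isPrincipalIdealRing_adjoin hxC
  have hint : IsIntegral ↥(Algebra.adjoin C {x}) (Algebra.norm ↥C⟮x⟯ (f : F)) :=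
    Algebra.isIntegral_norm ↥C⟮x⟯ hfi
  obtain ⟨a, ha⟩ := IsIntegrallyClosed.isIntegral_iff.mp hint
  have haF : (a : F) = ((t : ↥C⟮x⟯) : F) := by
    rw [ht1, ← ha]
    rfl
  have haV : (a : F) ∈ S.V := by
    rw [haF]
    exact t.2
  obtain ⟨p₀, hp₀⟩ := exists_psiR_eq hx hxt hxC a haV
  have hpsi : ((psi hx p₀ : ↥S.V) : F) = ((t : ↥C⟮x⟯) : F) := by
    rw [← coe_psiR hx hxC, hp₀, haF]
  refine ⟨p₀, ?_, ?_⟩
  · rw [← ht1, ← hpsi, coe_psi]
  · have h1 : (⟨f, f.2⟩ : ↥S.V) = f := rfl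
    rw [h1] at ht2
    rw [← ht2, coe_redx, ← red_psi]
    congr 1
    exact Subtype.ext hpsi.symm

/-- Uniqueness of the value of a function at a place. -/
theorem value_unique_ordGe {K E : Type} [Field K] [Field E] [Algebra K E] (P : Place K E) {g : E}
    {a b : K} (ha : OrdGe P 1 (g - algebraMap K E a)) (hb : OrdGe P 1 (g - algebraMap K E b)) :
    a = b := by
  rw [ordGe_one_iff_vanAt] at ha hb
  exact H17.value_unique P ha hb

open Classical in
/-- **(C3)** fibre-wise conservation: for a Gauss unit `f ∈ R` and `γ ∈ k`, the zeros of `f` in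
the residue discs over `xt = γ` are as many as the zeros of `red f` over `xt = γ`. -/
theorem fibre_conservation [IsAlgClosed C] [IsAlgClosed k] (hFF : IsFF C F) (hFFt : IsFF k Ft)
    (hxt : Transcendental k (S.red ⟨x, hx⟩)) [FiniteDimensional ↥C⟮x⟯ F]
    (hdeg : Module.finrank ↥k⟮S.red ⟨x, hx⟩⟯ Ft = Module.finrank ↥C⟮x⟯ F)
    (f : ↥S.V) (hfu : IsUnit f) (hfi : IsIntegral ↥(Algebra.adjoin C {x}) (f : F))
    (D : Divisor C F) (hD : ∀ P, D P = P.ord (f : F)) (γ : k)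
    (T' : Finset (Place k Ft))
    (hT' : ∀ Q, Q ∈ T' ↔ OrdGe Q 1 (S.red ⟨x, hx⟩ - algebraMap k Ft γ)) :
    ∑ P ∈ D.support.filter (fun P => ∃ a : ↥S.O, S.resO a = γ ∧
        OrdGe P 1 (x - algebraMap C F (a : C))), D P = ∑ Q ∈ T', Q.ord (S.red f) := by
  have hxC := transcendental_x hx hxt
  have hfinT : FiniteDimensional ↥k⟮S.red ⟨x, hx⟩⟯ Ft :=
    Module.finite_of_finrank_pos (hdeg ▸ Module.finrank_pos)
  obtain ⟨p₀, hN, hNt⟩ := exists_norm_poly hx hxt hdeg f hfi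
  have hf0 : (f : F) ≠ 0 := by
    intro h0
    have : f = 0 := Subtype.ext h0
    rw [this] at hfu
    exact not_isUnit_zero hfu
  have hrf0 : S.red f ≠ 0 := (hfu.map S.red).ne_zero
  -- the right hand side
  obtain ⟨T'', hT'', hsum''⟩ := fibre_norm hFFt (S.red ⟨x, hx⟩) hxt γ
  have hTT : T'' = T' := Finset.ext fun Q => (hT'' Q).trans (hT' Q).symm
  have hR : ∑ Q ∈ T', Q.ord (S.red f) = ((p₀.map S.resO).rootMultiplicity γ : ℤ) := by
    rw [← hTT]
    exact hsum'' _ _ hrf0 hNt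
  have hp₀ : p₀.map S.resO ≠ 0 := by
    intro h0
    rw [h0, map_zero] at hNt
    have h1 : Algebra.norm ↥k⟮S.red ⟨x, hx⟩⟯ (S.red f) = 0 := Subtype.ext hNt
    exact hrf0 (Algebra.norm_eq_zero_iff.mp h1)
  have hp₀0 : p₀ ≠ 0 := fun h => hp₀ (by rw [h, Polynomial.map_zero])
  -- the fibres over `ρ ∈ O`
  choose T hT hsum using fun ρ : ↥S.O => fibre_norm hFF x hxC (ρ : C)
  have hTsum : ∀ ρ : ↥S.O, ∑ P ∈ T ρ, P.ord (f : F) = (p₀.rootMultiplicity ρ : ℤ) := by
    intro ρ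
    rw [hsum ρ (f : F) (p₀.map S.O.subtype) hf0 hN,
      Polynomial.eq_rootMultiplicity_map (f := S.O.subtype) Subtype.val_injective ρ]
    rfl
  have hTnonneg : ∀ (ρ : ↥S.O) (P : Place C F), P ∈ T ρ → 0 ≤ P.ord (f : F) := by
    intro ρ P hP
    have hxP : x ∈ P.toValuationSubring := mem_of_ordGe_one_sub P ((hT ρ P).mp hP)
    exact (mem_iff_ord_nonneg P hf0).mp (mem_of_isIntegral_adjoin P hxP _ hfi)
  rw [hR, rootMultiplicity_map_res S.O S.resO (fun a => S.resO_eq_zero_iff a) p₀ hp₀ γ]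
  -- the value function
  set φ : Place C F → Prop := fun P => ∃ a : ↥S.O, S.resO a = γ ∧
    OrdGe P 1 (x - algebraMap C F (a : C)) with hφ
  let val : Place C F → ↥S.O := fun P => if h : φ P then Classical.choose h else 0
  have hval : ∀ P, φ P → S.resO (val P) = γ ∧ OrdGe P 1 (x - algebraMap C F ((val P : ↥S.O) : C)) := by
    intro P h
    simp only [val, dif_pos h]
    exact Classical.choose_spec h
  have hvaleq : ∀ (P : Place C F) (ρ : ↥S.O), OrdGe P 1 (x - algebraMap C F (ρ : C)) →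
      S.resO ρ = γ → φ P ∧ val P = ρ := by
    intro P ρ h1 h2
    have hφP : φ P := ⟨ρ, h2, h1⟩
    exact ⟨hφP, Subtype.ext (value_unique_ordGe P (hval P hφP).2 h1)⟩
  have hmaps : ∀ P ∈ D.support.filter φ, val P ∈
      p₀.roots.toFinset.filter (fun ρ => S.resO ρ = γ) := by
    intro P hP
    rw [Finset.mem_filter] at hP
    obtain ⟨hPs, hPφ⟩ := hP
    obtain ⟨h1, h2⟩ := hval P hPφ
    rw [Finset.mem_filter, Multiset.mem_toFinset, Polynomial.mem_roots hp₀0]
    refine ⟨?_, h1⟩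
    have hPT : P ∈ T (val P) := (hT _ P).mpr h2
    have hne : P.ord (f : F) ≠ 0 := by
      rw [← hD P]
      exact Finsupp.mem_support_iff.mp hPs
    have hpos : 0 < P.ord (f : F) := lt_of_le_of_ne (hTnonneg _ P hPT) (Ne.symm hne)
    have hle : P.ord (f : F) ≤ ∑ P' ∈ T (val P), P'.ord (f : F) :=
      Finset.single_le_sum (f := fun P' : Place C F => P'.ord (f : F))
        (fun P' hP' => hTnonneg _ P' hP') hPT
    rw [hTsum] at hle
    have : 0 < p₀.rootMultiplicity (val P) := by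
      have : (0 : ℤ) < (p₀.rootMultiplicity (val P) : ℤ) := lt_of_lt_of_le hpos hle
      exact_mod_cast this
    exact (Polynomial.rootMultiplicity_pos hp₀0).mp this
  rw [← Finset.sum_fiberwise_of_maps_to hmaps]
  refine Finset.sum_congr rfl fun ρ hρ => ?_
  rw [Finset.mem_filter] at hρ
  rw [← hTsum ρ]
  have hsub : (D.support.filter φ).filter (fun P => val P = ρ) ⊆ T ρ := by
    intro P hP
    rw [Finset.mem_filter, Finset.mem_filter] at hP
    obtain ⟨⟨-, hPφ⟩, hPv⟩ := hP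
    rw [hT, ← hPv]
    exact (hval P hPφ).2
  rw [Finset.sum_subset hsub]
  · exact Finset.sum_congr rfl fun P _ => hD P
  · intro P hPT hPn
    obtain ⟨h1, h2⟩ := hvaleq P ρ ((hT ρ P).mp hPT) hρ.2
    by_contra hne
    apply hPn
    rw [Finset.mem_filter, Finset.mem_filter]
    exact ⟨⟨Finsupp.mem_support_iff.mpr hne, h1⟩, h2⟩

end Fermat.Agent.RED.H10
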