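import Fermat.Agent.RED.H34_Lattice

/-!
# G-RED package CONS (helper10), part C1: norm and characteristic polynomial commute with reduction

Setting of helper34's `H34_Lattice`: `S : RedSetting C F k Ft`, `x ∈ V` with transcendental
reduction `xt`, `bF` a `C(x)`-basis of `F` contained in `V` whose reduction `bt` is a
`k(xt)`-basis of `Ft`.

* `mulMat`       : the matrix of multiplication by `f ∈ V`, with entries in `Vx = V ∩ C(x)`;
* `mulMat_map_subtype`, `mulMat_map_redx` : it maps to the matrices of `f` and of `red f`;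
* `norm_red`     : `N f ∈ Vx` and `red (N f) = N (red f)`;
* `charpoly_red` : the same for the characteristic polynomial.
-/

set_option autoImplicit false

noncomputable section

open Polynomial IntermediateField

namespace Fermat.Agent.RED.H10

open Fermat.Agent.RED.H34 Fermat.Agent.RED.H34.RedSetting

variable {C F k Ft : Type} [Field C] [Field F] [Algebra C F] [Field k] [Field Ft] [Algebra k Ft]
variable {S : RedSetting C F k Ft} {x : F} (hx : x ∈ S.V)
variable {ι : Type} [Fintype ι] [DecidableEq ι]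
variable (bF : Module.Basis ι ↥C⟮x⟯ F) (hbV : ∀ i, bF i ∈ S.V)
variable (bt : Module.Basis ι ↥k⟮S.red ⟨x, hx⟩⟯ Ft) (hbt : ∀ i, bt i = S.red ⟨bF i, hbV i⟩)

/-- The matrix of multiplication by `f ∈ V` in the basis `bF`, with entries in `Vx`. -/
def mulMat (hxt : Transcendental k (S.red ⟨x, hx⟩)) (f : F) (hf : f ∈ S.V) :
    Matrix ι ι ↥(S.Vx x) :=
  Matrix.of fun i j => ⟨bF.repr (f * bF j) i,
    repr_mem_V hx bF hbV bt hbt hxt _ (mul_mem hf (hbV j)) i⟩

theorem mulMat_map_subtype (hxt : Transcendental k (S.red ⟨x, hx⟩)) (f : F) (hf : f ∈ S.V) :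
    (S.Vx x).subtype.mapMatrix (mulMat hx bF hbV bt hbt hxt f hf) =
      Algebra.leftMulMatrix bF f := by
  refine Matrix.ext fun i j => ?_
  rw [Algebra.leftMulMatrix_eq_repr_mul]
  rfl

theorem mulMat_map_redx (hxt : Transcendental k (S.red ⟨x, hx⟩)) (f : F) (hf : f ∈ S.V) :
    (redx hx hxt).mapMatrix (mulMat hx bF hbV bt hbt hxt f hf) =
      Algebra.leftMulMatrix bt (S.red ⟨f, hf⟩) := by
  refine Matrix.ext fun i j => ?_
  rw [Algebra.leftMulMatrix_eq_repr_mul, hbt j, ← map_mul]
  exact (repr_red hx bF hbV bt hbt hxt (f * bF j) (mul_mem hf (hbV j)) i).symm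

include hbt in
/-- The norm of an element of `V` lies in `Vx`, and reduces to the norm of the reduction. -/
theorem norm_red (hxt : Transcendental k (S.red ⟨x, hx⟩)) (f : F) (hf : f ∈ S.V) :
    ∃ t : ↥(S.Vx x), (t : ↥C⟮x⟯) = Algebra.norm ↥C⟮x⟯ f ∧
      redx hx hxt t = Algebra.norm ↥k⟮S.red ⟨x, hx⟩⟯ (S.red ⟨f, hf⟩) := by
  refine ⟨(mulMat hx bF hbV bt hbt hxt f hf).det, ?_, ?_⟩
  · rw [Algebra.norm_eq_matrix_det bF, ← mulMat_map_subtype hx bF hbV bt hbt hxt f hf,
      ← RingHom.map_det]
    rfl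
  · rw [Algebra.norm_eq_matrix_det bt, ← mulMat_map_redx hx bF hbV bt hbt hxt f hf,
      ← RingHom.map_det]

include hbt in
/-- The characteristic polynomial of an element of `V` has coefficients in `Vx`, and reduces to
the characteristic polynomial of the reduction. -/
theorem charpoly_red (hxt : Transcendental k (S.red ⟨x, hx⟩)) (f : F) (hf : f ∈ S.V) :
    ∃ χ : (↥(S.Vx x))[X], χ.Monic ∧
      χ.map (S.Vx x).subtype = (Algebra.leftMulMatrix bF f).charpoly ∧
      χ.map (redx hx hxt) = (Algebra.leftMulMatrix bt (S.red ⟨f, hf⟩)).charpoly := by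
  refine ⟨(mulMat hx bF hbV bt hbt hxt f hf).charpoly, Matrix.charpoly_monic _, ?_, ?_⟩
  · rw [← mulMat_map_subtype hx bF hbV bt hbt hxt f hf, RingHom.mapMatrix_apply,
      Matrix.charpoly_map]
  · rw [← mulMat_map_redx hx bF hbV bt hbt hxt f hf, RingHom.mapMatrix_apply,
      Matrix.charpoly_map]

end Fermat.Agent.RED.H10
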