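import Mathlib
import Fermat.Prelude.Def_AlgebraicCurve_DivisorClassGroup
import Fermat.Agent.RED.H17_FF

/-!
# RH-R (helper76, for BAD_q leaf GENUS): interface statements

Goal of the package: for a function field `F / K` (`K` algebraically closed of characteristic
zero) the RIEMANN genus `g` (`RED.H17.IsGenus K F g c`) satisfies the Hurwitz formula
`2 g - 2 = ∑_a (n - r_a) + (n - r_∞) - 2 n` for every non-constant `x`, `n = [F : K(x)]`,
`r_a = #{v | ord_v (x - a) > 0}`, `r_∞ = #{v | ord_v x < 0}`.

Route (Dedekind–Weber): a reduced basis `ω` of `B = integralClosure K[x] F` with degrees `d_i`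
(`∑ d_i = g + n - 1`, helper76); `x^{-d_i} ω_i` is a basis of `B' = integralClosure K[x⁻¹] F`;
`disc' = x^{-2 ∑ d_i} disc`; the order of the discriminant of an integral basis at `x = a` is
exactly `n - r_a` (`Stmt_discrExact`: upper bound = `H82.h82_tameDiscr`, lower bound =
`Stmt_discrLower`).

This file contains definitions only.
-/

set_option autoImplicit false

noncomputable section

open AlgebraicCurve IntermediateField Polynomial

namespace Fermat.Agent.RED.H76

/-- **DISC-LOW** (mirror of `H82.h82_tameDiscr`; any residue characteristic): `R` a PID,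
`B` the integral closure of `R` in a finite separable extension `L` of `K = Frac R`, `c` an
`R`-basis of `B` (`n` elements), `π` a prime of `R` such that all maximal ideals of `B` over `π`
have residue degree one.  Then `π ^ (n - r) ∣ disc(c)`, `r` the number of maximal ideals of `B`
containing `π`.

Proof sketch: Smith normal form of the trace pairing as in `h82_tameDiscr`
(`Tr(b'_i ·) = a_i • bM_i`, `disc = unit * ∏ a_i`).  The `b'_i` with `π ∤ a_i` are linearly
independent modulo `J = rad (π B)`: if `z = ∑ λ_i b'_i ∈ J` then `z b` is nilpotent modulo `π`,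
so `π ∣ Tr(z b)` for all `b`, hence `π ∣ λ_i a_i` for all `i`.  As `B / J` embeds into
`∏_{P ∋ π} B / P = (R / π)^r` there are at most `r` such `i`. -/
def Stmt_discrLower : Prop :=
  ∀ (R K L : Type) [CommRing R] [IsDomain R] [IsPrincipalIdealRing R] [Field K] [Field L]
    [Algebra R K] [IsFractionRing R K] [Algebra K L] [Algebra R L] [IsScalarTower R K L]
    [FiniteDimensional K L] [Algebra.IsSeparable K L]
    (ι : Type) [Fintype ι] [DecidableEq ι] (c : Module.Basis ι R ↥(integralClosure R L))
    (π : R), Prime π →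
    (∀ P : Ideal ↥(integralClosure R L), P.IsMaximal →
      algebraMap R ↥(integralClosure R L) π ∈ P →
        Function.Surjective (algebraMap R (↥(integralClosure R L) ⧸ P))) →
    π ^ (Fintype.card ι -
        Set.ncard {P : Ideal ↥(integralClosure R L) |
          P.IsMaximal ∧ algebraMap R ↥(integralClosure R L) π ∈ P}) ∣ Algebra.discr R c

/-- **DISC-EXACT**: for the chart `x` of a function field over an algebraically closed field of
characteristic zero, the discriminant of an integral basis of `B = integralClosure K[x] F`,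
written as a polynomial `p(x)`, vanishes at `x = a` to the order `n - #{v | ord_v (x - a) > 0}`.

From `H82.h82_tameDiscr` (upper bound), `Stmt_discrLower` (lower bound), the dictionary
`H76.card_ptsOver` and `H79.isDedekind_Bx`. -/
def Stmt_discrExact : Prop :=
  ∀ (K F : Type) [Field K] [Field F] [Algebra K F] [IsAlgClosed K] [CharZero K]
    (x : F), Transcendental K x → FiniteDimensional K⟮x⟯ F →
    ∀ (n : ℕ) (c : Module.Basis (Fin n) ↥(Algebra.adjoin K {x})
        ↥(integralClosure ↥(Algebra.adjoin K {x}) F))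
      (p : K[X]),
      aeval x p = (((Algebra.discr ↥(Algebra.adjoin K {x}) c : ↥(Algebra.adjoin K {x})) : F)) →
      ∀ a : K, p.rootMultiplicity a
        + Nat.card {v : Place K F // 0 < v.ord (x - algebraMap K F a)} = n

/-- **DISC-SCALE**: if `c` is a `K[x]`-basis of `B = integralClosure K[x] F`, `c'` a
`K[x⁻¹]`-basis of `B' = integralClosure K[x⁻¹] F` and `c'_i = x^{-d_i} c_i`, then
`disc(c') = x^{-2 ∑ d_i} disc(c)` (in `F`).

Proof: both discriminants are `det (Tr_{F / K(x)} (· ·))` (`Algebra.discr_localizationLocalization`,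
`K⟮x⁻¹⟯ = K⟮x⟯`), and the trace is `K(x)`-linear. -/
def Stmt_discrScale : Prop :=
  ∀ (K F : Type) [Field K] [Field F] [Algebra K F] [IsAlgClosed K] [CharZero K]
    (x : F), Transcendental K x → FiniteDimensional K⟮x⟯ F →
    ∀ (n : ℕ) (c : Module.Basis (Fin n) ↥(Algebra.adjoin K {x})
        ↥(integralClosure ↥(Algebra.adjoin K {x}) F))
      (c' : Module.Basis (Fin n) ↥(Algebra.adjoin K {x⁻¹})
        ↥(integralClosure ↥(Algebra.adjoin K {x⁻¹}) F))
      (d : Fin n → ℕ),
      (∀ i, ((c' i : ↥(integralClosure ↥(Algebra.adjoin K {x⁻¹}) F)) : F)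
        = x⁻¹ ^ (d i) * ((c i : ↥(integralClosure ↥(Algebra.adjoin K {x}) F)) : F)) →
      (((Algebra.discr ↥(Algebra.adjoin K {x⁻¹}) c' : ↥(Algebra.adjoin K {x⁻¹})) : F))
        = x⁻¹ ^ (2 * ∑ i, d i)
          * (((Algebra.discr ↥(Algebra.adjoin K {x}) c : ↥(Algebra.adjoin K {x})) : F))

/-- **RH-R**: the Riemann genus satisfies the Hurwitz formula (same shape as S24
`asm_genus_eq`). -/
def Stmt_RHR : Prop :=
  ∀ (K F : Type) [Field K] [Field F] [Algebra K F] [IsAlgClosed K] [CharZero K]
    (g : ℕ) (c : ℤ), Fermat.Agent.RED.H17.IsGenus K F g c →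
    ∀ (x : F), Transcendental K x → FiniteDimensional K⟮x⟯ F →
    ∀ (S : Finset K) (r : K → ℕ),
      (∀ a ∈ S, Nat.card {v : Place K F // 0 < v.ord (x - algebraMap K F a)} = r a) →
      (∀ a ∉ S, Nat.card {v : Place K F // 0 < v.ord (x - algebraMap K F a)}
        = Module.finrank K⟮x⟯ F) →
      ∀ (rinf : ℕ), Nat.card {v : Place K F // v.ord x < 0} = rinf →
      2 * (g : ℤ) - 2
        = ∑ a ∈ S, ((Module.finrank K⟮x⟯ F : ℤ) - r a) - Module.finrank K⟮x⟯ F - rinf

end Fermat.Agent.RED.H76
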