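import Mathlib
import Fermat.Agent.RED.H76_RHDefs

/-!
# RH-R leaf DISC-SCALE (helper17): `H76.Stmt_discrScale`

If `c` is a `K[x]`-basis of `B = integralClosure K[x] F`, `c'` a `K[x⁻¹]`-basis of
`B' = integralClosure K[x⁻¹] F` and `c'_i = x^{-d_i} c_i`, then
`disc(c') = x^{-2 ∑ d_i} disc(c)` in `F`.

Both discriminants are the determinant of the trace form of `F / K(x)` (`K⟮x⁻¹⟯ = K⟮x⟯`;
`Algebra.trace_localization`), and the trace is `K(x)`-linear.
-/

set_option autoImplicit false

noncomputable section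

open IntermediateField Polynomial

namespace Fermat.Agent.RED.H17

open IntermediateField.algebraAdjoinAdjoin in
/-- The discriminant of a `K[y]`-basis of the integral closure of `K[y]` in `F` is the
determinant of the trace form of `F / K(y)`. -/
theorem ds_discr_coe_eq_det {K F : Type} [Field K] [Field F] [Algebra K F] (y : F)
    (hfin : FiniteDimensional K⟮y⟯ F) (n : ℕ)
    (c : Module.Basis (Fin n) ↥(Algebra.adjoin K {y})
      ↥(integralClosure ↥(Algebra.adjoin K {y}) F)) :
    (((Algebra.discr ↥(Algebra.adjoin K {y}) c : ↥(Algebra.adjoin K {y})) : F))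
      = Matrix.det (Matrix.of fun i j : Fin n =>
          (((Algebra.trace K⟮y⟯ F
            (((c i : ↥(integralClosure ↥(Algebra.adjoin K {y}) F)) : F)
              * ((c j : ↥(integralClosure ↥(Algebra.adjoin K {y}) F)) : F)) : K⟮y⟯)) : F)) := by
  classical
  have : Module.Free ↥(Algebra.adjoin K {y}) ↥(integralClosure ↥(Algebra.adjoin K {y}) F) :=
    Module.Free.of_basis c
  have : Module.Finite ↥(Algebra.adjoin K {y}) ↥(integralClosure ↥(Algebra.adjoin K {y}) F) :=
    Module.Finite.of_basis c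
  have : Algebra.IsAlgebraic K⟮y⟯ F := Algebra.IsAlgebraic.of_finite _ _
  have : IsLocalization (Algebra.algebraMapSubmonoid
      ↥(integralClosure ↥(Algebra.adjoin K {y}) F) (nonZeroDivisors ↥(Algebra.adjoin K {y}))) F :=
    IsIntegralClosure.isLocalization ↥(Algebra.adjoin K {y}) K⟮y⟯ F
      ↥(integralClosure ↥(Algebra.adjoin K {y}) F)
  have hentry : ∀ b : ↥(integralClosure ↥(Algebra.adjoin K {y}) F),
      (((Algebra.trace ↥(Algebra.adjoin K {y}) ↥(integralClosure ↥(Algebra.adjoin K {y}) F) b :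
        ↥(Algebra.adjoin K {y})) : F))
        = (((Algebra.trace K⟮y⟯ F (b : F) : K⟮y⟯)) : F) := by
    intro b
    have h := Algebra.trace_localization (R := ↥(Algebra.adjoin K {y}))
      (S := ↥(integralClosure ↥(Algebra.adjoin K {y}) F)) (Rₘ := K⟮y⟯) (Sₘ := F)
      (nonZeroDivisors ↥(Algebra.adjoin K {y})) b
    have h2 : (algebraMap ↥(integralClosure ↥(Algebra.adjoin K {y}) F) F b) = (b : F) := rfl
    rw [h2] at h
    rw [h]
    rfl
  rw [Algebra.discr_def]
  have h1 : (((Algebra.traceMatrix ↥(Algebra.adjoin K {y}) c).det : ↥(Algebra.adjoin K {y})) : F)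
      = algebraMap ↥(Algebra.adjoin K {y}) F (Algebra.traceMatrix ↥(Algebra.adjoin K {y}) c).det :=
    rfl
  rw [h1, RingHom.map_det]
  congr 1
  ext i j
  simp only [RingHom.mapMatrix_apply, Matrix.map_apply, Matrix.of_apply,
    Algebra.traceMatrix_apply, Algebra.traceForm_apply]
  exact hentry (c i * c j)

/-- Traces over equal intermediate fields agree. -/
theorem ds_trace_congr {K F : Type} [Field K] [Field F] [Algebra K F]
    (Q Q' : IntermediateField K F) (h : Q = Q') (z : F) :
    (((Algebra.trace Q F z : Q)) : F) = (((Algebra.trace Q' F z : Q')) : F) := by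
  subst h; rfl

/-- `K(x⁻¹) = K(x)`. -/
theorem ds_adjoin_inv {K F : Type} [Field K] [Field F] [Algebra K F] (x : F) :
    K⟮x⁻¹⟯ = K⟮x⟯ := by
  apply le_antisymm
  · rw [IntermediateField.adjoin_simple_le_iff]
    exact inv_mem (IntermediateField.mem_adjoin_simple_self K x)
  · rw [IntermediateField.adjoin_simple_le_iff]
    have := inv_mem (IntermediateField.mem_adjoin_simple_self K x⁻¹)
    rwa [inv_inv] at this

/-- The trace is linear over the base field. -/
theorem ds_trace_mul {K F : Type} [Field K] [Field F] [Algebra K F]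
    (Q : IntermediateField K F) (q : F) (hq : q ∈ Q) (z : F) :
    (((Algebra.trace Q F (q * z) : Q)) : F) = q * (((Algebra.trace Q F z : Q)) : F) := by
  have h : q * z = (⟨q, hq⟩ : Q) • z := rfl
  rw [h, map_smul]
  rfl

/-- **DISC-SCALE**. -/
theorem stmt_discrScale : Fermat.Agent.RED.H76.Stmt_discrScale := by
  intro K F _ _ _ _ _ x _ hfin n c c' d hcc
  have hfin' : FiniteDimensional K⟮x⁻¹⟯ F := by
    rw [ds_adjoin_inv x]; exact hfin
  rw [ds_discr_coe_eq_det x hfin n c, ds_discr_coe_eq_det x⁻¹ hfin' n c']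
  have hxmem : ∀ k : ℕ, x⁻¹ ^ k ∈ K⟮x⟯ := fun k =>
    pow_mem (inv_mem (IntermediateField.mem_adjoin_simple_self K x)) k
  have hM : (Matrix.of fun i j : Fin n =>
      (((Algebra.trace K⟮x⁻¹⟯ F
        (((c' i : ↥(integralClosure ↥(Algebra.adjoin K {x⁻¹}) F)) : F)
          * ((c' j : ↥(integralClosure ↥(Algebra.adjoin K {x⁻¹}) F)) : F)) : K⟮x⁻¹⟯)) : F))
      = Matrix.of fun i j : Fin n => x⁻¹ ^ (d i) * (x⁻¹ ^ (d j) *
          (((Algebra.trace K⟮x⟯ F
            (((c i : ↥(integralClosure ↥(Algebra.adjoin K {x}) F)) : F)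
              * ((c j : ↥(integralClosure ↥(Algebra.adjoin K {x}) F)) : F)) : K⟮x⟯)) : F)) := by
    ext i j
    simp only [Matrix.of_apply]
    rw [ds_trace_congr _ _ (ds_adjoin_inv x), hcc i, hcc j]
    have e : x⁻¹ ^ d i * ((c i : ↥(integralClosure ↥(Algebra.adjoin K {x}) F)) : F)
        * (x⁻¹ ^ d j * ((c j : ↥(integralClosure ↥(Algebra.adjoin K {x}) F)) : F))
        = x⁻¹ ^ d i * (x⁻¹ ^ d j * (((c i : ↥(integralClosure ↥(Algebra.adjoin K {x}) F)) : F)
          * ((c j : ↥(integralClosure ↥(Algebra.adjoin K {x}) F)) : F))) := by ring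
    rw [e, ds_trace_mul _ _ (hxmem _), ds_trace_mul _ _ (hxmem _)]
  rw [hM]
  have hcol := Matrix.det_mul_column (fun i : Fin n => x⁻¹ ^ (d i))
    (Matrix.of fun i j : Fin n => x⁻¹ ^ (d j) *
          (((Algebra.trace K⟮x⟯ F
            (((c i : ↥(integralClosure ↥(Algebra.adjoin K {x}) F)) : F)
              * ((c j : ↥(integralClosure ↥(Algebra.adjoin K {x}) F)) : F)) : K⟮x⟯)) : F))
  have hrow := Matrix.det_mul_row (fun i : Fin n => x⁻¹ ^ (d i))
    (Matrix.of fun i j : Fin n =>
          (((Algebra.trace K⟮x⟯ F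
            (((c i : ↥(integralClosure ↥(Algebra.adjoin K {x}) F)) : F)
              * ((c j : ↥(integralClosure ↥(Algebra.adjoin K {x}) F)) : F)) : K⟮x⟯)) : F))
  simp only [Matrix.of_apply] at hcol hrow
  rw [hcol, hrow, Finset.prod_pow_eq_pow_sum, ← mul_assoc, ← pow_add, two_mul]

end Fermat.Agent.RED.H17
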