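import Fermat.Agent.RED.H17_Pole

/-!
# G-RED / TI route C (helper17), part 7: the key lemma

`RedSetup.key`: let `A` be a non-special reduced divisor of the reduced curve, `s_Q` (`Q ∈ A`)
coordinates on the residue discs of the points of `A`.  A Gauss unit `f` with reduction `1`, with
`f(P∞) = 1` at a place outside the discs, whose divisor is `m ∑_Q (X_Q - Y_Q)` with `X_Q`, `Y_Q`
in the disc of `Q` (`Y_Q` the zero of `s_Q`, `X_Q` the zero of `s_Q - a_Q`), `m` invertible in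
the residue field, is `1`.
-/

set_option autoImplicit false
set_option linter.style.haveILetI false
set_option maxHeartbeats 1000000

noncomputable section

open AlgebraicCurve

attribute [local instance] Classical.propDecidable

namespace Fermat.Agent.RED.H17

local notation "L" => riemannRochSpace

namespace RedSetup

variable {K F k F' : Type*} [Field K] [Field F] [Algebra K F] [Field k] [Field F']
  [Algebra k F'] (S : RedSetup K F k F')

/-- Regularity of the reduction from regularity on the fibre. -/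
theorem regAt_rd (hP : HasPrincipalDivisors K F) {w : F} (hw : w ∈ S.V) {Q : Place k F'}
    (hreg : ∀ P, S.r P = Q → 0 ≤ P.ord w) : RegAt Q (S.rd w) := by
  by_cases h0 : S.rd w = 0
  · rw [h0]; exact regAt_zero Q
  · exact regAt_of_ord_nonneg (S.ord_rd_nonneg hP ⟨hw, h0⟩ Q hreg)

/-- Vanishing of the reduction from vanishing at a place of the fibre. -/
theorem vanAt_rd (hP : HasPrincipalDivisors K F) {w : F} (hw : w ∈ S.V) {Q : Place k F'}
    (hreg : ∀ P, S.r P = Q → 0 ≤ P.ord w) {X : Place K F} (hX : S.r X = Q)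
    (hXw : VanAt X w) : VanAt Q (S.rd w) := by
  by_cases h0 : S.rd w = 0
  · rw [h0]; exact vanAt_zero Q
  · have hGU : S.IsGU w := ⟨hw, h0⟩
    have h1 := S.ord_le_ord_rd hP hGU Q hreg hX
    have h2 := hXw.ord_pos hGU.ne_zero
    exact vanAt_of_ord_pos (by omega)

/-- The orders of `f / ∏ h_Q ^ m` on the discs. -/
theorem key_ord (hP : HasPrincipalDivisors K F) (A : Finset (Place k F'))
    (s : Place k F' → F) (hs : ∀ Q ∈ A, S.IsCoord (s Q) Q)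
    (hsreg : ∀ Q ∈ A, ∀ P, S.r P ∈ A → 0 ≤ P.ord (s Q))
    (hs0 : ∀ Q ∈ A, ∀ Q' ∈ A, Q' ≠ Q → Q'.ord (S.rd (s Q)) = 0)
    (m : ℕ) (f : F) (hf : f ≠ 0) (a : Place k F' → K)
    (ha : ∀ Q ∈ A, algebraMap K F (a Q) ∈ S.V ∧ S.rd (algebraMap K F (a Q)) = 0)
    (hord : ∀ Q ∈ A, ∀ P, S.r P = Q →
      P.ord f = m * (P.ord (s Q - algebraMap K F (a Q)) - P.ord (s Q)))
    {Q : Place k F'} (hQ : Q ∈ A) {P : Place K F} (hPQ : S.r P = Q) :
    P.ord (f / (∏ Q ∈ A, (s Q - algebraMap K F (a Q)) / s Q) ^ m) = 0 := by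
  have hsub : ∀ Q ∈ A, S.IsCoord (s Q - algebraMap K F (a Q)) Q := fun Q hQ =>
    (hs Q hQ).sub_const (ha Q hQ).1 (ha Q hQ).2
  have hrdsub : ∀ Q ∈ A, S.rd (s Q - algebraMap K F (a Q)) = S.rd (s Q) := fun Q hQ => by
    rw [S.rd_sub (hs Q hQ).isGU.1 (ha Q hQ).1, (ha Q hQ).2, sub_zero]
  have hhne : ∀ Q ∈ A, (s Q - algebraMap K F (a Q)) / s Q ≠ 0 := fun Q hQ =>
    div_ne_zero (hsub Q hQ).isGU.ne_zero (hs Q hQ).isGU.ne_zero
  have h1 : ∀ Q' ∈ A, Q' ≠ Q → P.ord ((s Q' - algebraMap K F (a Q')) / s Q') = 0 := by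
    intro Q' hQ' hne
    have hreg1 : ∀ P', S.r P' = Q → 0 ≤ P'.ord (s Q') := fun P' hP' =>
      hsreg Q' hQ' P' (hP' ▸ hQ)
    have e0 : Q.ord (S.rd (s Q')) = 0 := hs0 Q' hQ' Q hQ (Ne.symm hne)
    have e1 : P.ord (s Q') = 0 :=
      S.ord_eq_zero_of_ord_rd_eq_zero hP (hs Q' hQ').isGU Q hreg1 e0 hPQ
    have hreg2 : ∀ P', S.r P' = Q → 0 ≤ P'.ord (s Q' - algebraMap K F (a Q')) := fun P' hP' =>
      ((regAt_of_ord_nonneg (hreg1 P' hP')).sub (regAt_algebraMap P' _)).ord_nonneg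
    have e2 : P.ord (s Q' - algebraMap K F (a Q')) = 0 :=
      S.ord_eq_zero_of_ord_rd_eq_zero hP (hsub Q' hQ').isGU Q hreg2
        (by rw [hrdsub Q' hQ']; exact e0) hPQ
    rw [ord_div P (hsub Q' hQ').isGU.ne_zero (hs Q' hQ').isGU.ne_zero, e1, e2]
    rfl
  have h2 : P.ord (∏ Q ∈ A, (s Q - algebraMap K F (a Q)) / s Q)
      = P.ord (s Q - algebraMap K F (a Q)) - P.ord (s Q) := by
    rw [ord_prod P A _ hhne, Finset.sum_eq_single_of_mem Q hQ fun Q' hQ' hne => h1 Q' hQ' hne,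
      ord_div P (hsub Q hQ).isGU.ne_zero (hs Q hQ).isGU.ne_zero]
  rw [ord_div P hf (pow_ne_zero _ (Finset.prod_ne_zero_iff.mpr hhne)), ord_pow, h2,
    hord Q hQ P hPQ]
  ring

/-- **The key lemma.** -/
theorem key (H : FFHyp K F) (A : Finset (Place k F'))
    (hA : ∀ y ∈ L (ptsDiv A), ∃ a : k, y = algebraMap k F' a)
    (s : Place k F' → F) (hs : ∀ Q ∈ A, S.IsCoord (s Q) Q)
    (hsreg : ∀ Q ∈ A, ∀ P, S.r P ∈ A → 0 ≤ P.ord (s Q))
    (hs0 : ∀ Q ∈ A, ∀ Q' ∈ A, Q' ≠ Q → Q'.ord (S.rd (s Q)) = 0)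
    (m : ℕ) (hm : (m : k) ≠ 0)
    (f : F) (hf : f ∈ S.V) (hf1 : S.rd f = 1)
    (Pinf : Place K F) (hPinf : S.r Pinf ∉ A) (hfinf : VanAt Pinf (f - 1))
    (a : Place k F' → K)
    (ha : ∀ Q ∈ A, algebraMap K F (a Q) ∈ S.V ∧ S.rd (algebraMap K F (a Q)) = 0)
    (hord0 : ∀ P, S.r P ∉ A → 0 ≤ P.ord f)
    (hord : ∀ Q ∈ A, ∀ P, S.r P = Q →
      P.ord f = m * (P.ord (s Q - algebraMap K F (a Q)) - P.ord (s Q))) :
    f = 1 := by
  have hP := H.principal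
  have hfGU : S.IsGU f := ⟨hf, by rw [hf1]; exact one_ne_zero⟩
  have hsub : ∀ Q ∈ A, S.IsCoord (s Q - algebraMap K F (a Q)) Q := fun Q hQ =>
    (hs Q hQ).sub_const (ha Q hQ).1 (ha Q hQ).2
  have hrdsub : ∀ Q ∈ A, S.rd (s Q - algebraMap K F (a Q)) = S.rd (s Q) := fun Q hQ => by
    rw [S.rd_sub (hs Q hQ).isGU.1 (ha Q hQ).1, (ha Q hQ).2, sub_zero]
  set h : Place k F' → F := fun Q => (s Q - algebraMap K F (a Q)) / s Q with hh
  have hhGU : ∀ Q ∈ A, S.IsGU (h Q) := fun Q hQ => (hsub Q hQ).isGU.div (hs Q hQ).isGU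
  have hhrd : ∀ Q ∈ A, S.rd (h Q) = 1 := fun Q hQ => by
    rw [(hsub Q hQ).isGU.rd_div (hs Q hQ).isGU, hrdsub Q hQ, div_self (hs Q hQ).isGU.2]
  set Hp : F := ∏ Q ∈ A, h Q with hHp
  have hHGU : S.IsGU Hp := IsGU.prod A h hhGU
  have hHrd : S.rd Hp = 1 := by
    rw [(S.rd_prod A h fun Q hQ => (hhGU Q hQ).1).2]
    exact Finset.prod_eq_one hhrd
  set f₂ : F := f / Hp ^ m with hf₂
  have hf₂GU : S.IsGU f₂ := hfGU.div (hHGU.pow m)
  have hf₂rd : S.rd f₂ = 1 := by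
    rw [hfGU.rd_div (hHGU.pow m), hf1, S.rd_pow hHGU.1, hHrd, one_pow, div_one]
  have hff₂ : f = f₂ * Hp ^ m := by
    rw [hf₂, div_mul_cancel₀ _ (pow_ne_zero _ hHGU.ne_zero)]
  have hord₂ : ∀ Q ∈ A, ∀ P, S.r P = Q → P.ord f₂ = 0 := fun Q hQ P hPQ =>
    S.key_ord hP A s hs hsreg hs0 m f hfGU.ne_zero a ha hord hQ hPQ
  -- the scale
  set I : Finset F := insert (f₂ - 1) (A.image fun Q => algebraMap K F (a Q)) with hI
  have hImem : ∀ z ∈ I, z ∈ S.V ∧ S.rd z = 0 := by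
    intro z hz
    rcases Finset.mem_insert.mp hz with rfl | hz
    · exact ⟨S.V.sub_mem hf₂GU.1 S.V.one_mem, by
        rw [S.rd_sub hf₂GU.1 S.V.one_mem, hf₂rd, S.rd_one, sub_self]⟩
    · obtain ⟨Q, hQ, rfl⟩ := Finset.mem_image.mp hz
      exact ha Q hQ
  by_cases hall : ∀ z ∈ I, z = 0
  · have e1 : f₂ = 1 := sub_eq_zero.mp (hall _ (Finset.mem_insert_self _ _))
    have e2 : ∀ Q ∈ A, h Q = 1 := by
      intro Q hQ
      have : algebraMap K F (a Q) = 0 :=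
        hall _ (Finset.mem_insert_of_mem (Finset.mem_image_of_mem _ hQ))
      simp only [hh, this, sub_zero]
      exact div_self (hs Q hQ).isGU.ne_zero
    rw [hff₂, e1, hHp, Finset.prod_eq_one e2, one_pow, mul_one]
  exfalso
  push Not at hall
  obtain ⟨c, hc, hdV, hdrd, hcI, z₀, hz₀, hz₀GU⟩ := S.exists_scale_max I hImem hall
  have hcF : algebraMap K F c ≠ 0 := (map_ne_zero_iff _ (algebraMap K F).injective).mpr hc
  have hcd : algebraMap K F c * algebraMap K F c⁻¹ = 1 := by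
    rw [← map_mul, mul_inv_cancel₀ hc, map_one]
  set α : F := algebraMap K F c * (f₂ - 1) with hα
  have hαV : α ∈ S.V := hcI _ (Finset.mem_insert_self _ _)
  have hβV : ∀ Q ∈ A, algebraMap K F (c * a Q) ∈ S.V := fun Q hQ => by
    rw [map_mul]
    exact hcI _ (Finset.mem_insert_of_mem (Finset.mem_image_of_mem _ hQ))
  -- the constants `b`
  have hbex : ∀ Q, ∃ b : k, Q ∈ A → S.rd (algebraMap K F (c * a Q)) = algebraMap k F' b := by
    intro Q
    by_cases hQ : Q ∈ A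
    · obtain ⟨b, hb⟩ := S.rd_const_eq (c * a Q) (hβV Q hQ)
      exact ⟨b, fun _ => hb⟩
    · exact ⟨0, fun h => absurd h hQ⟩
  choose b hb using hbex
  set γ : Place k F' → F := fun Q => algebraMap K F (c * a Q) / s Q with hγ
  have hγV : ∀ Q ∈ A, γ Q ∈ S.V := fun Q hQ => by
    simp only [hγ]
    rw [div_eq_mul_inv]
    exact S.V.mul_mem _ _ (hβV Q hQ) (hs Q hQ).isGU.inv_mem
  have hγrd : ∀ Q ∈ A, S.rd (γ Q) = algebraMap k F' (b Q) / S.rd (s Q) := fun Q hQ => by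
    simp only [hγ]
    rw [div_eq_mul_inv, S.rd_mul (hβV Q hQ) (hs Q hQ).isGU.inv_mem, (hs Q hQ).isGU.rd_inv,
      hb Q hQ, div_eq_mul_inv]
  have hhγ : ∀ Q ∈ A, h Q = 1 + algebraMap K F c⁻¹ * (-(γ Q)) := by
    intro Q hQ
    have hne := (hs Q hQ).isGU.ne_zero
    simp only [hh, hγ, map_mul, map_inv₀]
    field_simp
    ring
  have hCongH : Cong S.V (algebraMap K F c⁻¹) (∑ Q ∈ A, -(γ Q)) Hp :=
    Cong.prod hdV A (fun Q => -(γ Q)) h (fun Q hQ => S.V.neg_mem _ (hγV Q hQ))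
      (fun Q hQ => by rw [hhγ Q hQ]; exact cong_self _ _)
  have hsumV : ∑ Q ∈ A, -(γ Q) ∈ S.V :=
    Subring.sum_mem S.V.toSubring fun Q hQ => S.V.neg_mem _ (hγV Q hQ)
  have hCongHm := hCongH.pow hdV hsumV m
  have hf₂α : f₂ = 1 + algebraMap K F c⁻¹ * α := by
    rw [hα]
    linear_combination (1 - f₂) * hcd
  have hCongf₂ : Cong S.V (algebraMap K F c⁻¹) α f₂ := ⟨0, S.V.zero_mem, by
    rw [mul_zero, add_zero]; exact hf₂α⟩
  have hmsumV : (m : F) * ∑ Q ∈ A, -(γ Q) ∈ S.V := S.V.mul_mem _ _ (S.natCast_mem_V m) hsumV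
  have hCongf := hCongf₂.mul hdV hαV hmsumV hCongHm
  rw [← hff₂] at hCongf
  obtain ⟨ρ, hρ, hfρ⟩ := hCongf
  set φ : F := algebraMap K F c * (f - 1) with hφ
  have hφeq : φ = α + (m : F) * ∑ Q ∈ A, -(γ Q) + algebraMap K F c⁻¹ * ρ := by
    rw [hφ]
    linear_combination (algebraMap K F c) * hfρ +
      (α + (m : F) * ∑ Q ∈ A, -(γ Q) + algebraMap K F c⁻¹ * ρ) * hcd
  have hφV : φ ∈ S.V := by
    rw [hφeq]
    exact S.V.add_mem _ _ (S.V.add_mem _ _ hαV hmsumV) (S.V.mul_mem _ _ hdV hρ)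
  have hφrd : S.rd φ = S.rd α - (m : F') * ∑ Q ∈ A, algebraMap k F' (b Q) / S.rd (s Q) := by
    have e1 : ∑ Q ∈ A, S.rd (-(γ Q)) = -∑ Q ∈ A, algebraMap k F' (b Q) / S.rd (s Q) := by
      rw [← Finset.sum_neg_distrib]
      apply Finset.sum_congr rfl
      intro Q hQ
      rw [S.rd_neg (hγV Q hQ), hγrd Q hQ]
    rw [hφeq, S.rd_add (S.V.add_mem _ _ hαV hmsumV) (S.V.mul_mem _ _ hdV hρ),
      S.rd_mul hdV hρ, hdrd, zero_mul, add_zero, S.rd_add hαV hmsumV,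
      S.rd_mul (S.natCast_mem_V m) hsumV, S.rd_natCast,
      (S.rd_sum A _ fun Q hQ => S.V.neg_mem _ (hγV Q hQ)).2, e1]
    ring
  -- regularity on the fibres
  have hφreg0 : ∀ Q, Q ∉ A → RegAt Q (S.rd φ) := by
    intro Q hQ
    apply S.regAt_rd hP hφV
    intro P hPQ
    have h1 : RegAt P f := regAt_of_ord_nonneg (hord0 P (by rw [hPQ]; exact hQ))
    exact ((regAt_algebraMap P c).mul (h1.sub (regAt_one P))).ord_nonneg
  have hαreg : ∀ Q ∈ A, RegAt Q (S.rd α) := by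
    intro Q hQ
    apply S.regAt_rd hP hαV
    intro P hPQ
    have h1 : RegAt P f₂ := regAt_of_ord_nonneg (le_of_eq (hord₂ Q hQ P hPQ).symm)
    exact ((regAt_algebraMap P c).mul (h1.sub (regAt_one P))).ord_nonneg
  have hφinf : VanAt (S.r Pinf) (S.rd φ) := by
    refine S.vanAt_rd hP hφV (X := Pinf) ?_ rfl ((regAt_algebraMap Pinf c).mul_vanAt hfinf)
    intro P hPQ
    have h1 : RegAt P f := regAt_of_ord_nonneg (hord0 P (by rw [hPQ]; exact hPinf))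
    exact ((regAt_algebraMap P c).mul (h1.sub (regAt_one P))).ord_nonneg
  obtain ⟨hα0, hb0⟩ := pole_analysis A hA (fun Q => S.rd (s Q))
    (fun Q hQ => (hs Q hQ).ord_one) hs0 m hm b (S.rd α) hαreg (S.rd φ) hφrd hφreg0
    (S.r Pinf) hφinf
  -- contradiction
  rcases Finset.mem_insert.mp hz₀ with rfl | hz
  · exact hz₀GU.2 hα0
  · obtain ⟨Q, hQ, rfl⟩ := Finset.mem_image.mp hz
    apply hz₀GU.2
    rw [← map_mul, hb Q hQ, hb0 Q hQ, map_zero]

end RedSetup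

end Fermat.Agent.RED.H17
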