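import Fermat.Agent.RED.H17_Lift

/-!
# G-RED / TI route C (helper17), part 5: local lemmas

* `RedSetup.const_of_vanAt` (**evaluation is compatible with reduction**): if `w ∈ V` is regular on
  the fibre of `Q` and takes the value `e` at a place `X` of the fibre, then `e` is integral and
  `rd w - rd e` vanishes at `Q`.
* `RedSetup.coord_value`, `RedSetup.coord_zero` (**coordinate on a residue disc**): if `rd s` has a
  simple zero at `Q` and `s` is regular on the fibre, then `X ↦ s(X)` is a bijection from the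
  fibre to the maximal ideal.
* `fibre_zero`, `fibre_one`: fibres of a non-negative divisor.
* finite products; first order congruences `Cong`.
-/

set_option autoImplicit false
set_option linter.style.haveILetI false

noncomputable section

open AlgebraicCurve

attribute [local instance] Classical.propDecidable

namespace Fermat.Agent.RED.H17

/-! ### Fibres of a non-negative divisor -/

section Fibre

variable {α β : Type*} (r : α → β)

theorem fibre_zero {E : α →₀ ℤ} (hE : ∀ a, 0 ≤ E a) {b : β}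
    (hb : Finsupp.mapDomain r E b = 0) {a : α} (ha : r a = b) : E a = 0 := by
  rw [mapDomain_apply_eq_sum] at hb
  by_cases hmem : a ∈ E.support
  · have h1 : ∀ x ∈ E.support, 0 ≤ (if r x = b then E x else 0) := by
      intro x _
      split_ifs
      · exact hE x
      · exact le_rfl
    have := eq_zero_of_sum_eq_zero _ _ h1 hb hmem
    rwa [if_pos ha] at this
  · exact Finsupp.notMem_support_iff.mp hmem

theorem fibre_one {E : α →₀ ℤ} (hE : ∀ a, 0 ≤ E a) {b : β}
    (hb : Finsupp.mapDomain r E b = 1) :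
    ∃ x, r x = b ∧ E x = 1 ∧ ∀ a, r a = b → a ≠ x → E a = 0 := by
  rw [mapDomain_apply_eq_sum] at hb
  have hnn : ∀ x ∈ E.support, 0 ≤ (if r x = b then E x else 0) := by
    intro x _
    split_ifs
    · exact hE x
    · exact le_rfl
  -- some term is positive
  have hex : ∃ x ∈ E.support, r x = b := by
    by_contra hcon
    push Not at hcon
    have : ∑ P ∈ E.support, (if r P = b then E P else 0) = 0 :=
      Finset.sum_eq_zero fun x hx => by rw [if_neg (hcon x hx)]
    omega
  obtain ⟨x, hx, hxb⟩ := hex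
  have hxpos : 0 < E x := lt_of_le_of_ne (hE x) (Ne.symm (Finsupp.mem_support_iff.mp hx))
  have hxle : E x ≤ 1 := by
    have := le_sum_of_nonneg _ _ hnn hx
    rw [if_pos hxb, hb] at this
    exact this
  refine ⟨x, hxb, by omega, fun a hab hne => ?_⟩
  by_contra h0
  have ha : a ∈ E.support := Finsupp.mem_support_iff.mpr h0
  have hapos : 0 < E a := lt_of_le_of_ne (hE a) (Ne.symm h0)
  have h2 : (∑ P ∈ ({x, a} : Finset α), if r P = b then E P else 0)
      ≤ ∑ P ∈ E.support, if r P = b then E P else 0 := by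
    refine Finset.sum_le_sum_of_subset_of_nonneg ?_ fun y hy _ => hnn y hy
    intro y hy
    rw [Finset.mem_insert, Finset.mem_singleton] at hy
    rcases hy with rfl | rfl
    · exact hx
    · exact ha
  rw [Finset.sum_pair (Ne.symm hne), if_pos hxb, if_pos hab, hb] at h2
  omega

end Fibre

/-! ### Finite products and sums -/

section Prod

variable {K F : Type*} [Field K] [Field F] [Algebra K F]

theorem ord_prod {ι : Type*} (v : Place K F) (s : Finset ι) (f : ι → F)
    (hf : ∀ i ∈ s, f i ≠ 0) : v.ord (∏ i ∈ s, f i) = ∑ i ∈ s, v.ord (f i) := by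
  induction s using Finset.induction_on with
  | empty => simp
  | insert i s hi ih =>
    rw [Finset.prod_insert hi, Finset.sum_insert hi,
      v.ord_mul (hf i (Finset.mem_insert_self i s))
        (Finset.prod_ne_zero_iff.mpr fun j hj => hf j (Finset.mem_insert_of_mem hj)),
      ih fun j hj => hf j (Finset.mem_insert_of_mem hj)]

theorem VanAt.sum {ι : Type*} {v : Place K F} (s : Finset ι) (f : ι → F)
    (hf : ∀ i ∈ s, VanAt v (f i)) : VanAt v (∑ i ∈ s, f i) := by
  induction s using Finset.induction_on with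
  | empty => rw [Finset.sum_empty]; exact vanAt_zero v
  | insert i s hi ih =>
    rw [Finset.sum_insert hi]
    exact (hf i (Finset.mem_insert_self i s)).add
      (ih fun j hj => hf j (Finset.mem_insert_of_mem hj))

theorem RegAt.sum {ι : Type*} {v : Place K F} (s : Finset ι) (f : ι → F)
    (hf : ∀ i ∈ s, RegAt v (f i)) : RegAt v (∑ i ∈ s, f i) := by
  induction s using Finset.induction_on with
  | empty => rw [Finset.sum_empty]; exact regAt_zero v
  | insert i s hi ih =>
    rw [Finset.sum_insert hi]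
    exact (hf i (Finset.mem_insert_self i s)).add
      (ih fun j hj => hf j (Finset.mem_insert_of_mem hj))

theorem regAt_inv_of_ord_eq_zero {v : Place K F} {f : F} (h : v.ord f = 0) : RegAt v f⁻¹ := by
  apply regAt_of_ord_nonneg
  rw [Place.ord_inv, h]
  rfl

/-- A constant that vanishes at a place is zero. -/
theorem const_eq_zero_of_vanAt {v : Place K F} {c : K}
    (h : VanAt v (algebraMap K F c)) : c = 0 := by
  by_contra hne
  exact not_vanAt_algebraMap v hne h

end Prod

namespace RedSetup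

variable {K F k F' : Type*} [Field K] [Field F] [Algebra K F] [Field k] [Field F']
  [Algebra k F'] (S : RedSetup K F k F')

theorem rd_prod {ι : Type*} (s : Finset ι) (f : ι → F) (hf : ∀ i ∈ s, f i ∈ S.V) :
    (∏ i ∈ s, f i) ∈ S.V ∧ S.rd (∏ i ∈ s, f i) = ∏ i ∈ s, S.rd (f i) := by
  induction s using Finset.induction_on with
  | empty => simp only [Finset.prod_empty]; exact ⟨S.V.one_mem, S.rd_one⟩
  | insert i s hi ih =>
    obtain ⟨h1, h2⟩ := ih fun j hj => hf j (Finset.mem_insert_of_mem hj)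
    have hi' := hf i (Finset.mem_insert_self i s)
    rw [Finset.prod_insert hi, Finset.prod_insert hi]
    exact ⟨S.V.mul_mem _ _ hi' h1, by rw [S.rd_mul hi' h1, h2]⟩

theorem rd_sum {ι : Type*} (s : Finset ι) (f : ι → F) (hf : ∀ i ∈ s, f i ∈ S.V) :
    (∑ i ∈ s, f i) ∈ S.V ∧ S.rd (∑ i ∈ s, f i) = ∑ i ∈ s, S.rd (f i) := by
  induction s using Finset.induction_on with
  | empty => simp only [Finset.sum_empty]; exact ⟨S.V.zero_mem, S.rd_zero⟩
  | insert i s hi ih =>
    obtain ⟨h1, h2⟩ := ih fun j hj => hf j (Finset.mem_insert_of_mem hj)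
    have hi' := hf i (Finset.mem_insert_self i s)
    rw [Finset.sum_insert hi, Finset.sum_insert hi]
    exact ⟨S.V.add_mem _ _ hi' h1, by rw [S.rd_add hi' h1, h2]⟩

variable {S} in
theorem IsGU.prod {ι : Type*} (s : Finset ι) (f : ι → F) (hf : ∀ i ∈ s, S.IsGU (f i)) :
    S.IsGU (∏ i ∈ s, f i) := by
  obtain ⟨h1, h2⟩ := S.rd_prod s f fun i hi => (hf i hi).1
  exact ⟨h1, by rw [h2]; exact Finset.prod_ne_zero_iff.mpr fun i hi => (hf i hi).2⟩

/-- The reduction of an integral constant, as an element of `k`. -/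
theorem rd_const_eq (c : K) (hc : algebraMap K F c ∈ S.V) :
    ∃ c' : k, S.rd (algebraMap K F c) = algebraMap k F' c' :=
  S.rd_algebraMap_mem_range hc

/-- If `c ∉ V` for a constant `c`, then `c⁻¹` is in the maximal ideal. -/
theorem inv_const_of_not_mem {c : K} (hc : algebraMap K F c ∉ S.V) :
    algebraMap K F c⁻¹ ∈ S.V ∧ S.rd (algebraMap K F c⁻¹) = 0 := by
  have h1 : algebraMap K F c⁻¹ ∈ S.V := (S.const_mem_or_inv_mem c).resolve_left hc
  refine ⟨h1, ?_⟩
  by_contra h0
  have hGU : S.IsGU (algebraMap K F c⁻¹) := ⟨h1, h0⟩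
  have := hGU.inv_mem
  rw [map_inv₀, inv_inv] at this
  exact hc this

/-- **Evaluation is compatible with reduction.** -/
theorem const_of_vanAt (hP : HasPrincipalDivisors K F) {w : F} (hw : w ∈ S.V)
    {Q : Place k F'} (hreg : ∀ P, S.r P = Q → 0 ≤ P.ord w) {X : Place K F} (hX : S.r X = Q)
    {e : K} (he : VanAt X (w - algebraMap K F e)) :
    algebraMap K F e ∈ S.V ∧ VanAt Q (S.rd w - S.rd (algebraMap K F e)) := by
  have hregw : ∀ P, S.r P = Q → RegAt P w := fun P hPQ => regAt_of_ord_nonneg (hreg P hPQ)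
  have hmem : algebraMap K F e ∈ S.V := by
    by_contra hne
    obtain ⟨h1, h2⟩ := S.inv_const_of_not_mem hne
    have he0 : e ≠ 0 := by
      rintro rfl
      rw [map_zero] at hne
      exact hne S.V.zero_mem
    set z : F := algebraMap K F e⁻¹ * w - 1 with hz
    have hz1 : algebraMap K F e⁻¹ * w ∈ S.V := S.V.mul_mem _ _ h1 hw
    have hzV : z ∈ S.V := S.V.sub_mem hz1 S.V.one_mem
    have hzr : S.rd z = -1 := by
      rw [hz, S.rd_sub hz1 S.V.one_mem, S.rd_mul h1 hw, h2, zero_mul, S.rd_one, zero_sub]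
    have hGU : S.IsGU z := ⟨hzV, by rw [hzr]; exact neg_ne_zero.mpr one_ne_zero⟩
    have hzreg : ∀ P, S.r P = Q → 0 ≤ P.ord z := fun P hPQ =>
      (((regAt_algebraMap P e⁻¹).mul (hregw P hPQ)).sub (regAt_one P)).ord_nonneg
    have hQz : Q.ord (S.rd z) = 0 := by
      rw [hzr]
      have : (-1 : F') = algebraMap k F' (-1) := by rw [map_neg, map_one]
      rw [this]
      exact ord_algebraMap Q _
    have h3 := S.ord_eq_zero_of_ord_rd_eq_zero hP hGU Q hzreg hQz hX
    have h4 : z = algebraMap K F e⁻¹ * (w - algebraMap K F e) := by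
      rw [hz, mul_sub, ← map_mul, inv_mul_cancel₀ he0, map_one]
    have h5 : VanAt X z := by
      rw [h4]
      exact (regAt_algebraMap X e⁻¹).mul_vanAt he
    have := h5.ord_pos hGU.ne_zero
    omega
  refine ⟨hmem, ?_⟩
  rw [← S.rd_sub hw hmem]
  by_cases h0 : S.rd (w - algebraMap K F e) = 0
  · rw [h0]
    exact vanAt_zero Q
  have hGU : S.IsGU (w - algebraMap K F e) := ⟨S.V.sub_mem hw hmem, h0⟩
  have hzreg : ∀ P, S.r P = Q → 0 ≤ P.ord (w - algebraMap K F e) := fun P hPQ =>
    ((hregw P hPQ).sub (regAt_algebraMap P e)).ord_nonneg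
  have h1 := S.ord_le_ord_rd hP hGU Q hzreg hX
  have h2 := he.ord_pos hGU.ne_zero
  exact vanAt_of_ord_pos (by omega)

/-- The value at a place of the fibre of a Gauss unit with constant reduction. -/
theorem const_of_vanAt_of_rd_const (hP : HasPrincipalDivisors K F) {w : F} (hw : w ∈ S.V)
    {Q : Place k F'} (hreg : ∀ P, S.r P = Q → 0 ≤ P.ord w) {X : Place K F} (hX : S.r X = Q)
    {e : K} (he : VanAt X (w - algebraMap K F e)) {c' : k} (hc : S.rd w = algebraMap k F' c') :
    algebraMap K F e ∈ S.V ∧ S.rd (algebraMap K F e) = S.rd w := by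
  obtain ⟨h1, h2⟩ := S.const_of_vanAt hP hw hreg hX he
  refine ⟨h1, ?_⟩
  obtain ⟨e', he'⟩ := S.rd_const_eq e h1
  rw [hc, he', ← map_sub] at h2
  have := const_eq_zero_of_vanAt h2
  rw [hc, he']
  rw [sub_eq_zero] at this
  rw [this]

/-! ### The coordinate on a residue disc -/

/-- Data: `s` is a Gauss unit, regular on the fibre of `Q`, whose reduction has a simple zero at
`Q`. -/
structure IsCoord (s : F) (Q : Place k F') : Prop where
  isGU : S.IsGU s
  reg : ∀ P, S.r P = Q → 0 ≤ P.ord s
  ord_one : Q.ord (S.rd s) = 1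

variable {S}

theorem IsCoord.sub_const {s : F} {Q : Place k F'} (h : S.IsCoord s Q) {a : K}
    (ha : algebraMap K F a ∈ S.V) (ha0 : S.rd (algebraMap K F a) = 0) :
    S.IsCoord (s - algebraMap K F a) Q := by
  have hrd : S.rd (s - algebraMap K F a) = S.rd s := by
    rw [S.rd_sub h.isGU.1 ha, ha0, sub_zero]
  refine ⟨⟨S.V.sub_mem h.isGU.1 ha, by rw [hrd]; exact h.isGU.2⟩, fun P hPQ => ?_, by
    rw [hrd]; exact h.ord_one⟩
  exact ((regAt_of_ord_nonneg (h.reg P hPQ)).sub (regAt_algebraMap P a)).ord_nonneg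

/-- The unique zero of a coordinate in the fibre. -/
theorem IsCoord.exists_zero (hP : HasPrincipalDivisors K F) {s : F} {Q : Place k F'}
    (h : S.IsCoord s Q) :
    ∃ X, S.r X = Q ∧ X.ord s = 1 ∧ ∀ P, S.r P = Q → P ≠ X → P.ord s = 0 :=
  S.exists_unique_zero_of_ord_rd_eq_one hP h.isGU Q h.reg h.ord_one

/-- The value of a coordinate at a place of the fibre lies in the maximal ideal. -/
theorem IsCoord.exists_value (hP : HasPrincipalDivisors K F)
    (hdeg : ∀ v : Place K F, v.deg = 1) {s : F} {Q : Place k F'} (h : S.IsCoord s Q)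
    {X : Place K F} (hX : S.r X = Q) :
    ∃ a : K, algebraMap K F a ∈ S.V ∧ S.rd (algebraMap K F a) = 0 ∧
      VanAt X (s - algebraMap K F a) := by
  obtain ⟨a, ha⟩ := _root_.Fermat.Agent.RED.H17.exists_value X (hdeg X)
    (regAt_of_ord_nonneg (h.reg X hX))
  obtain ⟨h1, h2⟩ := S.const_of_vanAt hP h.isGU.1 h.reg hX ha
  refine ⟨a, h1, ?_, ha⟩
  obtain ⟨a', ha'⟩ := S.rd_const_eq a h1
  have h3 : VanAt Q (S.rd s) := vanAt_of_ord_pos (by rw [h.ord_one]; exact one_pos)
  have h4 : VanAt Q (S.rd (algebraMap K F a)) := by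
    have := h3.sub h2
    rwa [sub_sub_cancel] at this
  rw [ha'] at h4 ⊢
  rw [const_eq_zero_of_vanAt h4, map_zero]

/-- On the fibre of `Q`, the order of `s - a` is the indicator of the place with coordinate
`a`. -/
theorem IsCoord.ord_sub_eq (hP : HasPrincipalDivisors K F) {s : F} {Q : Place k F'}
    (h : S.IsCoord s Q) {a : K} (ha : algebraMap K F a ∈ S.V)
    (ha0 : S.rd (algebraMap K F a) = 0) {X : Place K F} (hX : S.r X = Q)
    (hXa : VanAt X (s - algebraMap K F a)) {P : Place K F} (hPQ : S.r P = Q) :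
    P.ord (s - algebraMap K F a) = if P = X then 1 else 0 := by
  have hc := h.sub_const ha ha0
  obtain ⟨X', hX', h1, h2⟩ := hc.exists_zero hP
  have hXX' : X = X' := by
    by_contra hne
    have h3 := h2 X hX hne
    have h4 := hXa.ord_pos hc.isGU.ne_zero
    omega
  subst hXX'
  split_ifs with hPX
  · rw [hPX]; exact h1
  · exact h2 P hPQ hPX

end RedSetup

/-! ### First order congruences -/

section Cong

variable {F : Type*} [Field F] (V : ValuationSubring F)

/-- `x ≡ 1 + d a` modulo `d² V`. -/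
def Cong (d a x : F) : Prop := ∃ ρ ∈ V, x = 1 + d * a + d ^ 2 * ρ

variable {V}

theorem cong_one (d : F) : Cong V d 0 1 := ⟨0, V.zero_mem, by ring⟩

theorem cong_self (d a : F) : Cong V d a (1 + d * a) := ⟨0, V.zero_mem, by ring⟩

theorem Cong.mul {d a b x y : F} (hd : d ∈ V) (ha : a ∈ V) (hb : b ∈ V) (hx : Cong V d a x)
    (hy : Cong V d b y) : Cong V d (a + b) (x * y) := by
  obtain ⟨ρ, hρ, rfl⟩ := hx
  obtain ⟨σ, hσ, rfl⟩ := hy
  refine ⟨a * b + ρ + σ + d * (a * σ + b * ρ) + d ^ 2 * (ρ * σ), ?_, by ring⟩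
  refine V.add_mem _ _ (V.add_mem _ _ (V.add_mem _ _ (V.add_mem _ _ (V.mul_mem _ _ ha hb) hρ) hσ)
    (V.mul_mem _ _ hd (V.add_mem _ _ (V.mul_mem _ _ ha hσ) (V.mul_mem _ _ hb hρ))))
    (V.mul_mem _ _ (V.pow_mem hd 2) (V.mul_mem _ _ hρ hσ))

theorem Cong.pow {d a x : F} (hd : d ∈ V) (ha : a ∈ V) (hx : Cong V d a x) (n : ℕ) :
    Cong V d (n * a) (x ^ n) := by
  induction n with
  | zero => simpa using cong_one (V := V) d
  | succ n ih =>
    have hna : (n : F) * a ∈ V := V.mul_mem _ _ (natCast_mem V n) ha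
    have := ih.mul hd hna ha hx
    rw [pow_succ]
    convert this using 1
    push_cast
    ring

theorem Cong.prod {ι : Type*} {d : F} (hd : d ∈ V) (s : Finset ι) (a x : ι → F)
    (ha : ∀ i ∈ s, a i ∈ V) (hx : ∀ i ∈ s, Cong V d (a i) (x i)) :
    Cong V d (∑ i ∈ s, a i) (∏ i ∈ s, x i) := by
  induction s using Finset.induction_on with
  | empty => simpa using cong_one (V := V) d
  | insert i s hi ih =>
    rw [Finset.sum_insert hi, Finset.prod_insert hi]
    have h1 : ∑ j ∈ s, a j ∈ V :=
      Subring.sum_mem V.toSubring fun j hj => ha j (Finset.mem_insert_of_mem hj)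
    exact (hx i (Finset.mem_insert_self i s)).mul hd (ha i (Finset.mem_insert_self i s)) h1
      (ih (fun j hj => ha j (Finset.mem_insert_of_mem hj))
        fun j hj => hx j (Finset.mem_insert_of_mem hj))

end Cong

end Fermat.Agent.RED.H17
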