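import Fermat.Agent.RED.Core2
import Fermat.Agent.RED.H17_LiftMove
import Fermat.Agent.RED.H95_IsFF
import Fermat.Agent.RED.H73_GAFinal

/-!
# G-RED, package RI (helper17): the prelude's `ReductionInputsModL` from `Stmt_RM`

`reductionInputsModL_of_RM : Stmt_RM → ∀ N ℓ, ℓ ∤ N → ∀ A over ℓ, ReductionInputsModL A N`.

* the place reduction `r` is the one of `Stmt_RM` (conservation law for all Gauss units),
  transported along helper73's `stmt_GA : redField = k(j(q^d) : d ∣ N)`;
* all places have degree one (FF-B);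
* `PrincipalGeneratedByIntegral`: `F = C(S)` with `S` a set of integral series, so every non-zero
  function is a quotient `a / b` of two elements of `C[S]`, and each of them is a constant times
  a primitive integral series.
-/

set_option autoImplicit false
set_option linter.style.haveILetI false
set_option synthInstance.maxHeartbeats 400000
set_option maxHeartbeats 1000000

noncomputable section

open HahnSeries IntermediateField AlgebraicCurve ModularCurve
open Fermat.Agent.S28 Fermat.Agent.S28.H73 Fermat.Agent.RED.H73 Fermat.Agent.RED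

namespace Fermat.Agent.RED.H17

section Abs

variable {C : Type} [Field C] (O : ValuationSubring C)
variable {F : IntermediateField C (LaurentSeries C)} (h : HasScale O F)

/-- The Gauss unit attached to an integral series of `F` with non-zero reduction. -/
theorem ri_unit (y : LaurentSeries ↥O) (hy : coeffMap O.subtype y ∈ F)
    (hne : coeffMap (IsLocalRing.residue ↥O) y ≠ 0) :
    ∃ f : ↥(gaussValSub O F h), IsUnit f ∧
      (f : ↥F) = ⟨coeffMap O.subtype y, hy⟩ ∧
      gaussResF O h f = coeffMap (IsLocalRing.residue ↥O) y := by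
  have hmem : (⟨coeffMap O.subtype y, hy⟩ : ↥F) ∈ gaussValSub O F h :=
    (mem_gaussValSub_iff O h _).mpr (iotaV_mem_gaussRingV O y)
  have hres : gaussResF O h ⟨⟨coeffMap O.subtype y, hy⟩, hmem⟩
      = coeffMap (IsLocalRing.residue ↥O) y := by
    rw [gaussResF_apply]
    exact gaussRedV_iotaV O y
  refine ⟨⟨⟨coeffMap O.subtype y, hy⟩, hmem⟩, ?_, rfl, hres⟩
  rw [isUnit_iff_gaussResF_ne_zero, hres]
  exact hne

/-- The conservation law for integral series, for a reduced field given as `E`. -/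
theorem ri_cons {E : IntermediateField (kV O) (LaurentSeries (kV O))}
    (hE : redField O F h = E) (r₀ : Place C ↥F → Place (kV O) ↥(redField O F h))
    (hr₀ : IsRed O h r₀) :
    ∃ r : Place C ↥F → Place (kV O) ↥E,
      ∀ (y : LaurentSeries ↥O) (hy : coeffMap O.subtype y ∈ F)
        (hyk : coeffMap (IsLocalRing.residue ↥O) y ∈ E),
        coeffMap (IsLocalRing.residue ↥O) y ≠ 0 →
        ∀ D : Divisor C ↥F, (∀ P, D P = P.ord (⟨coeffMap O.subtype y, hy⟩ : ↥F)) →
          ∀ Q, Finsupp.mapDomain r D Q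
            = Q.ord (⟨coeffMap (IsLocalRing.residue ↥O) y, hyk⟩ : ↥E) := by
  subst hE
  refine ⟨r₀, fun y hy hyk hne D hD Q => ?_⟩
  obtain ⟨f, hu, hf, hres⟩ := ri_unit O h y hy hne
  have h1 := hr₀ f hu D (fun P => by rw [hD P, hf]) Q
  rw [h1]
  congr 1
  exact Subtype.ext hres

/-- The divisor of an element of `C[S]`, `S` a set of integral series, is the divisor of a
primitive integral series. -/
theorem ri_scale {S : Set (LaurentSeries C)} (hS : S ⊆ (IntSpan C : Set (LaurentSeries C)))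
    (hF : F = IntermediateField.adjoin C S) {a : LaurentSeries C} (ha : a ∈ Algebra.adjoin C S)
    (ha0 : a ≠ 0) :
    ∃ (haF : a ∈ F) (y : LaurentSeries ↥O) (hy : coeffMap O.subtype y ∈ F),
      coeffMap (IsLocalRing.residue ↥O) y ≠ 0 ∧
      ∀ P : Place C ↥F, P.ord (⟨coeffMap O.subtype y, hy⟩ : ↥F) = P.ord (⟨a, haF⟩ : ↥F) := by
  have hle : Algebra.adjoin C S ≤ IntSpan C := Algebra.adjoin_le hS
  have haF : a ∈ F := by
    rw [hF]
    exact IntermediateField.algebra_adjoin_le_adjoin C S ha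
  obtain ⟨c, hc, hprim⟩ := exists_primSeries_scale O (hle ha) ha0
  obtain ⟨g, hg, hgeq⟩ := (primSeries_iff O _).mp hprim
  have hgF : coeffMap O.subtype g ∈ F := by
    have : coeffMap O.subtype g = HahnSeries.C c * a := hgeq
    rw [this, H42.C_eq_algebraMap]
    exact F.mul_mem (F.algebraMap_mem c) haF
  refine ⟨haF, g, hgF, hg, fun P => ?_⟩
  have e : (⟨coeffMap O.subtype g, hgF⟩ : ↥F) = algebraMap C ↥F c * ⟨a, haF⟩ := by
    apply Subtype.ext
    have h1 : coeffMap O.subtype g = HahnSeries.C c * a := hgeq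
    show coeffMap O.subtype g = algebraMap C (LaurentSeries C) c * a
    rw [h1, H42.C_eq_algebraMap]
  rw [e, ord_algebraMap_mul P hc]

/-- **Principal divisors are generated by the divisors of integral series.** -/
theorem ri_gen [IsAlgClosed C] (hFF : IsFF C ↥F)
    {E : IntermediateField (kV O) (LaurentSeries (kV O))}
    (hE : redField O F h = E) {S : Set (LaurentSeries C)}
    (hS : S ⊆ (IntSpan C : Set (LaurentSeries C))) (hF : F = IntermediateField.adjoin C S) :
    Divisor.principal (K := C) (F := ↥F) ≤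
      AddSubgroup.closure {D : Divisor C ↥F | ∃ (y : LaurentSeries ↥O)
        (hy : coeffMap O.subtype y ∈ F),
        coeffMap (IsLocalRing.residue ↥O) y ∈ E ∧ coeffMap (IsLocalRing.residue ↥O) y ≠ 0 ∧
          ∀ P, D P = P.ord (⟨coeffMap O.subtype y, hy⟩ : ↥F)} := by
  subst hE
  have hP : HasPrincipalDivisors C ↥F := (ffHyp_of_isFF C ↥F hFF).principal
  rintro D ⟨f, hf0, hD⟩
  have hfmem : (f : LaurentSeries C) ∈ IntermediateField.adjoin C S := hF ▸ f.2
  obtain ⟨a, ha, b, hb, hfab⟩ := IntermediateField.mem_adjoin_iff_div.1 hfmem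
  have hfne : (f : LaurentSeries C) ≠ 0 := fun h0 => hf0 (Subtype.ext h0)
  have ha0 : a ≠ 0 := by
    rintro rfl
    rw [zero_div] at hfab
    exact hfne hfab
  have hb0 : b ≠ 0 := by
    rintro rfl
    rw [div_zero] at hfab
    exact hfne hfab
  obtain ⟨haF, ya, hya, hyane, hyaord⟩ := ri_scale O hS hF ha ha0
  obtain ⟨hbF, yb, hyb, hybne, hybord⟩ := ri_scale O hS hF hb hb0
  have hmem : ∀ (y : LaurentSeries ↥O) (hy : coeffMap O.subtype y ∈ F),
      coeffMap (IsLocalRing.residue ↥O) y ≠ 0 →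
      dv hP (⟨coeffMap O.subtype y, hy⟩ : ↥F) ∈
        AddSubgroup.closure {D : Divisor C ↥F | ∃ (y : LaurentSeries ↥O)
          (hy : coeffMap O.subtype y ∈ F),
          coeffMap (IsLocalRing.residue ↥O) y ∈ redField O F h ∧
            coeffMap (IsLocalRing.residue ↥O) y ≠ 0 ∧
            ∀ P, D P = P.ord (⟨coeffMap O.subtype y, hy⟩ : ↥F)} := by
    intro y hy hne
    apply AddSubgroup.subset_closure
    obtain ⟨u, -, -, hres⟩ := ri_unit O h y hy hne
    refine ⟨y, hy, ?_, hne, fun P => dv_apply hP _ P⟩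
    rw [← hres]
    exact gaussResF_mem_redField O h u
  have hDeq : D = dv hP (⟨coeffMap O.subtype ya, hya⟩ : ↥F)
      - dv hP (⟨coeffMap O.subtype yb, hyb⟩ : ↥F) := by
    ext P
    have e : f = (⟨a, haF⟩ : ↥F) / ⟨b, hbF⟩ := Subtype.ext hfab
    have ha0' : (⟨a, haF⟩ : ↥F) ≠ 0 := fun h0 => ha0 (congrArg Subtype.val h0)
    have hb0' : (⟨b, hbF⟩ : ↥F) ≠ 0 := fun h0 => hb0 (congrArg Subtype.val h0)
    rw [Finsupp.sub_apply, dv_apply, dv_apply, hD P, hyaord P, hybord P, e,
      ord_div P ha0' hb0']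
  rw [hDeq]
  exact AddSubgroup.sub_mem _ (hmem ya hya hyane) (hmem yb hyb hybne)

end Abs

section Modular

/-- **RI from a reduction map with the conservation law.** -/
theorem reductionInputsModL_of_hasRM (N ℓ : ℕ) [NeZero N] (hℓ : ℓ.Prime) (hℓN : ¬ ℓ ∣ N)
    (A : ValuationSubring (AlgebraicClosure ℚ)) (hA : A.LiesOverPrime ℓ)
    (hRM : HasRM A (hasScale_laurentBaseChange A N)) : ReductionInputsModL A N := by
  haveI : IsAlgClosed (kV A) := isAlgClosed_kV A
  obtain ⟨r₀, hr₀, -⟩ := hRM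
  have hGA := stmt_GA N ℓ hℓ hℓN A hA
  have hFF := H95.stmt_HKA_isFF N
  have hFt : IsFF (kV A) ↥(modularFunctionFieldFullC (kV A) N) := by
    have h1 := isFF_redField_bar N ℓ hℓ hℓN A hA
    rw [hGA] at h1
    exact h1
  obtain ⟨r, hr⟩ := ri_cons A (hasScale_laurentBaseChange A N) hGA r₀ hr₀
  have hdeg : ∀ P, (r P).deg = P.deg := fun P => by
    rw [(ffHyp_of_isFF _ _ hFF).deg_one P, (ffHyp_of_isFF _ _ hFt).deg_one (r P)]
  have hgen := ri_gen A (hasScale_laurentBaseChange A N) hFF hGA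
    (S := divisorExpansionsC (AlgebraicClosure ℚ) N) (divisorExpansionsC_subset_intSpan N)
    (laurentBaseChange_full_eq N)
  exact ⟨r, ⟨hdeg, hr⟩, hgen⟩

/-- **Package RI**: `ReductionInputsModL` at every level prime to `ℓ`, from `Stmt_RM`. -/
theorem reductionInputsModL_of_RM (hRM : Stmt_RM) (N ℓ : ℕ) [NeZero N] (hℓ : ℓ.Prime)
    (hℓN : ¬ ℓ ∣ N) (A : ValuationSubring (AlgebraicClosure ℚ)) (hA : A.LiesOverPrime ℓ) :
    ReductionInputsModL A N :=
  reductionInputsModL_of_hasRM N ℓ hℓ hℓN A hA (hRM N ℓ hℓ hℓN A hA)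

end Modular

end Fermat.Agent.RED.H17
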