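import Fermat.Agent.RED.H29_Mod3Series
import Fermat.Agent.RED.H76_DR2Haupt

/-!
# G-RED, package IG-MOD23, `p = 3` (helper29): `Stmt_Haupt3`

The Hauptmodul `h₃ = η(q)¹² / η(q³)¹²` of `X₀(3)` with its two identities, in the form consumed
by helper76's `stmt_DR2_of`.
-/

set_option autoImplicit false

namespace Fermat.Agent.RED.H29

/-- The `q`-series input of the case `ℓ = 2`, `3 ∣ M` of `Stmt_DR2`. -/
theorem stmt_Haupt3 : Fermat.Agent.RED.H76.Stmt_Haupt3 :=
  Fermat.Agent.RED.H76.stmt_Haupt3_of_ring hZ3 hZ3_order_neg hZ3_leadingCoeff hZ3_one hZ3_two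

end Fermat.Agent.RED.H29
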