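import Fermat.Agent.S16.H6_Eis
import Fermat.Agent.S23.H22_LevelRaiseExp
import Fermat.Agent.S20.H19_Index
import Fermat.Agent.S20.H29_PartD
import Fermat.Prelude.Thm_ModularForm_sturm_bound_Gamma0

/-!
# G-RED, package IG-MOD23, `p = 3` (helper29): modular forms on `Γ₀(3)`

Forms on `Γ₀(3)`:
* `g = 3 E₂(3z) - E₂(z)` (weight 2, helper6's `eisForm 3`), `E₄`, `E₆` (restricted),
  `E₄t = 27 E₄(3z)`, `Δt = 3¹¹ Δ(3z)` (helper22's `levelRaise`);
* `A8 = 27 g³ - 36 E₄ g - 16 E₆   (= 128 η(z)¹⁸ / η(3z)⁶)`,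
  `B8 = 28 E₄ g - 9 g³ + 16 E₆    (= 3456 η(z)⁶ η(3z)⁶)`,
  `C8 = 7 g³ - 20 E₄ g - 16 E₆    (= 93312 η(3z)¹⁸ / η(z)⁶)`.

Identities (each by the Sturm bound for `Γ₀(3)`, a computation with 5 coefficients):
* `A8 * B8 = 256 (E₄³ - E₆²)`,  `A8 * C8 = B8²`,  `9 B8 * C8 = 16384 Δt`,  `2 E₄t = 15 g² - 6 E₄`.
-/

set_option autoImplicit false

open UpperHalfPlane ModularForm EisensteinSeries CongruenceSubgroup
open scoped MatrixGroups ModularForm Manifold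

noncomputable section

namespace Fermat.Agent.RED.H29

open Fermat.Agent.S23.H22 Fermat.Agent.S23 PowerSeries

/-! ### Tools -/

/-- The Sturm bound for `Γ₀(3)`: a form of weight `k` whose first `k / 3 + 1` coefficients vanish
is zero. -/
theorem sturm3 {k : ℤ} (f : ModularForm (Gamma0 3) k)
    (h : ∀ n : ℕ, n ≤ (k * 4).toNat / 12 → (qExpansion 1 f).coeff n = 0) : f = 0 := by
  have hidx : (Gamma0 3).index = 4 := by
    rw [Fermat.Agent.S20.H19.G1]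
    unfold ModularCurve.dedekindPsi
    rw [Nat.Prime.divisors Nat.prime_three, Finset.sum_filter]
    have h3 : Squarefree 3 := Nat.prime_three.squarefree
    simp [h3]
  refine ModularForm.sturm_bound_Gamma0 3 f fun n hn => h n ?_
  rw [hidx] at hn
  exact hn

/-- Truncation at order `5`. -/
theorem X_pow_five_dvd_sub (P : PowerSeries ℂ) (c0 c1 c2 c3 c4 : ℂ) (h0 : P.coeff 0 = c0)
    (h1 : P.coeff 1 = c1) (h2 : P.coeff 2 = c2) (h3 : P.coeff 3 = c3) (h4 : P.coeff 4 = c4) :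
    (X : PowerSeries ℂ) ^ 5 ∣ P - (C c0 + C c1 * X + C c2 * X ^ 2 + C c3 * X ^ 3 + C c4 * X ^ 4) := by
  rw [PowerSeries.X_pow_dvd_iff]
  intro m hm
  have h0' : PowerSeries.constantCoeff P = c0 := by
    rw [← PowerSeries.coeff_zero_eq_constantCoeff_apply]
    exact h0
  interval_cases m
  · simp [h0']
  · simp [h1, PowerSeries.coeff_X_pow]
  · simp [h2, PowerSeries.coeff_X_pow]
  · simp [h3, PowerSeries.coeff_X_pow]
  · simp [h4, PowerSeries.coeff_X_pow]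

/-- The quotient map modulo `X ^ 5`. -/
abbrev pi5 : PowerSeries ℂ →+* PowerSeries ℂ ⧸ Ideal.span {(X : PowerSeries ℂ) ^ 5} :=
  Ideal.Quotient.mk _

theorem pi5_eq_of_dvd {P Q : PowerSeries ℂ} (h : (X : PowerSeries ℂ) ^ 5 ∣ P - Q) :
    pi5 P = pi5 Q := by
  rw [Ideal.Quotient.eq, Ideal.mem_span_singleton]
  exact h

theorem coeff_eq_zero_of_pi5 {P : PowerSeries ℂ} (h : pi5 P = 0) (n : ℕ) (hn : n ≤ 4) :
    P.coeff n = 0 := by
  rw [Ideal.Quotient.eq_zero_iff_mem, Ideal.mem_span_singleton, PowerSeries.X_pow_dvd_iff] at h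
  exact h n (by omega)

/-! ### The basic forms and their `q`-expansions -/

theorem G0_le_SL (N : ℕ) : G0 N ≤ 𝒮ℒ := by
  rintro _ ⟨γ, -, rfl⟩
  exact ⟨γ, rfl⟩

/-- `E₄` on `Γ₀(3)`. -/
def E4r : ModularForm (Gamma0 3) 4 := Fermat.Agent.S20.H29.restrictLevel (G0_le_SL 3) E₄

/-- `E₆` on `Γ₀(3)`. -/
def E6r : ModularForm (Gamma0 3) 6 := Fermat.Agent.S20.H29.restrictLevel (G0_le_SL 3) E₆

/-- `g = 3 E₂(3z) - E₂(z)`. -/
def g3 : ModularForm (Gamma0 3) 2 := Fermat.Agent.S16.H6.eisForm 3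

/-- `27 E₄(3z)`. -/
def E4t : ModularForm (Gamma0 3) 4 := levelRaise 3 E₄

/-- `3¹¹ Δ(3z)`. -/
def Dt : ModularForm (Gamma0 3) 12 := levelRaise 3 CuspForm.discriminant

theorem coeff_qExp_E4 (m : ℕ) : (qExpansion 1 E₄).coeff m
    = if m = 0 then 1 else 240 * ((ArithmeticFunction.sigma 3 m : ℕ) : ℂ) := by
  rw [H96.qExpansion_E₄_eq, PowerSeries.coeff_map, H96.coeff_e4Series]
  split_ifs <;> simp

theorem coeff_qExp_E6 (m : ℕ) : (qExpansion 1 E₆).coeff m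
    = if m = 0 then 1 else -504 * ((ArithmeticFunction.sigma 5 m : ℕ) : ℂ) := by
  rw [H96.qExpansion_E₆_eq, PowerSeries.coeff_map, H96.coeff_e6Series]
  split_ifs <;> simp

theorem coeff_qExp_g3 (m : ℕ) : (qExpansion 1 g3).coeff m = Fermat.Agent.S16.H6.eisCoeff 3 m := by
  have hsum : ∀ τ : ℍ, HasSum (fun m : ℕ ↦ Fermat.Agent.S16.H6.eisCoeff 3 m
      • Function.Periodic.qParam 1 (τ : ℂ) ^ m) (g3 τ) := fun τ =>
    Fermat.Agent.S16.H6.hasSum_eisFun 3 (by norm_num) τ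
  exact (ModularFormClass.qExpansion_coeff_unique (f := g3) one_pos
    (CongruenceSubgroup.one_mem_strictPeriods_Gamma0 3) hsum m).symm

theorem coeff_qExp_E4t (n : ℕ) : (qExpansion 1 E4t).coeff n
    = if 3 ∣ n then 27 * (qExpansion 1 E₄).coeff (n / 3) else 0 := by
  have h := qExpansion_levelRaise_coeff 3 (k := 4) E₄ n
  rw [show ((3 : ℕ) : ℂ) ^ ((4 : ℤ) - 1) = 27 by norm_num] at h
  exact h

theorem coeff_qExp_Dt (n : ℕ) : (qExpansion 1 Dt).coeff n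
    = if 3 ∣ n then 177147 * (qExpansion 1 CuspForm.discriminant).coeff (n / 3) else 0 := by
  have h := qExpansion_levelRaise_coeff 3 (k := 12) CuspForm.discriminant n
  rw [show ((3 : ℕ) : ℂ) ^ ((12 : ℤ) - 1) = 177147 by norm_num] at h
  exact h

/-! ### Truncations -/

theorem trunc_E4 : (X : PowerSeries ℂ) ^ 5 ∣ qExpansion 1 E₄ -
    (C 1 + C 240 * X + C 2160 * X ^ 2 + C 6720 * X ^ 3 + C 17520 * X ^ 4) := by
  apply X_pow_five_dvd_sub <;> rw [coeff_qExp_E4]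
  · simp
  · have : ArithmeticFunction.sigma 3 1 = 1 := by decide +kernel
    simp [this]
  · have : ArithmeticFunction.sigma 3 2 = 9 := by decide +kernel
    simp [this]; norm_num
  · have : ArithmeticFunction.sigma 3 3 = 28 := by decide +kernel
    simp [this]; norm_num
  · have : ArithmeticFunction.sigma 3 4 = 73 := by decide +kernel
    simp [this]; norm_num

theorem trunc_E6 : (X : PowerSeries ℂ) ^ 5 ∣ qExpansion 1 E₆ -
    (C 1 + C (-504) * X + C (-16632) * X ^ 2 + C (-122976) * X ^ 3 + C (-532728) * X ^ 4) := by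
  apply X_pow_five_dvd_sub <;> rw [coeff_qExp_E6]
  · simp
  · have : ArithmeticFunction.sigma 5 1 = 1 := by decide +kernel
    simp [this]
  · have : ArithmeticFunction.sigma 5 2 = 33 := by decide +kernel
    simp [this]; norm_num
  · have : ArithmeticFunction.sigma 5 3 = 244 := by decide +kernel
    simp [this]; norm_num
  · have : ArithmeticFunction.sigma 5 4 = 1057 := by decide +kernel
    simp [this]; norm_num

theorem trunc_g3 : (X : PowerSeries ℂ) ^ 5 ∣ qExpansion 1 g3 -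
    (C 2 + C 24 * X + C 72 * X ^ 2 + C 24 * X ^ 3 + C 168 * X ^ 4) := by
  apply X_pow_five_dvd_sub <;> rw [coeff_qExp_g3] <;>
    simp only [Fermat.Agent.S16.H6.eisCoeff, Fermat.Agent.S20.H70.E2coeff]
  · norm_num
  · have : ArithmeticFunction.sigma 1 1 = 1 := by decide +kernel
    simp [this]
  · have : ArithmeticFunction.sigma 1 2 = 3 := by decide +kernel
    simp [this]; norm_num
  · have : ArithmeticFunction.sigma 1 3 = 4 := by decide +kernel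
    have h1 : ArithmeticFunction.sigma 1 1 = 1 := by decide +kernel
    simp [this, h1]; norm_num
  · have : ArithmeticFunction.sigma 1 4 = 7 := by decide +kernel
    simp [this]; norm_num

theorem trunc_Dt : (X : PowerSeries ℂ) ^ 5 ∣ qExpansion 1 Dt -
    (C 0 + C 0 * X + C 0 * X ^ 2 + C 177147 * X ^ 3 + C 0 * X ^ 4) := by
  apply X_pow_five_dvd_sub <;> rw [coeff_qExp_Dt]
  · have h0 : (qExpansion 1 CuspForm.discriminant).coeff 0 = 0 := by
      simpa using CuspFormClass.qExpansion_coeff_zero CuspForm.discriminant one_pos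
        one_mem_strictPeriods_SL
    rw [if_pos (dvd_zero 3), Nat.zero_div, h0, mul_zero]
  · norm_num
  · norm_num
  · have h1 : (qExpansion 1 CuspForm.discriminant).coeff 1 = 1 :=
      discriminant_qExpansion_coeff_one
    rw [if_pos (dvd_refl 3), Nat.div_self (by norm_num), h1, mul_one]
  · norm_num

theorem trunc_E4t : (X : PowerSeries ℂ) ^ 5 ∣ qExpansion 1 E4t -
    (C 27 + C 0 * X + C 0 * X ^ 2 + C 6480 * X ^ 3 + C 0 * X ^ 4) := by
  apply X_pow_five_dvd_sub <;> rw [coeff_qExp_E4t, coeff_qExp_E4]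
  · simp
  · norm_num
  · norm_num
  · have : ArithmeticFunction.sigma 3 1 = 1 := by decide +kernel
    simp [this]; norm_num
  · norm_num

/-! ### The forms `A8`, `B8`, `C8` -/

/-- `g³`. -/
def g3cube : ModularForm (Gamma0 3) 6 := ModularForm.mcast (by norm_num) ((g3.mul g3).mul g3)

/-- `E₄ g`. -/
def e4g : ModularForm (Gamma0 3) 6 := ModularForm.mcast (by norm_num) (E4r.mul g3)

/-- `128 η(z)¹⁸ / η(3z)⁶`. -/
def A8 : ModularForm (Gamma0 3) 6 := (27 : ℂ) • g3cube - (36 : ℂ) • e4g - (16 : ℂ) • E6r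

/-- `3456 η(z)⁶ η(3z)⁶`. -/
def B8 : ModularForm (Gamma0 3) 6 := (28 : ℂ) • e4g - (9 : ℂ) • g3cube + (16 : ℂ) • E6r

/-- `93312 η(3z)¹⁸ / η(z)⁶`. -/
def C8 : ModularForm (Gamma0 3) 6 := (7 : ℂ) • g3cube - (20 : ℂ) • e4g - (16 : ℂ) • E6r

theorem nice_g3 : Nice 1 (g3 : ℍ → ℂ) := nice_G0 3 g3
theorem nice_E4 : Nice 1 (E₄ : ℍ → ℂ) := nice_levelOne E₄
theorem nice_E6 : Nice 1 (E₆ : ℍ → ℂ) := nice_levelOne E₆

theorem coe_A8 : (A8 : ℍ → ℂ) = (27 : ℂ) • ((g3 : ℍ → ℂ) * g3 * g3) - (36 : ℂ) • ((E₄ : ℍ → ℂ) * g3)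
    - (16 : ℂ) • (E₆ : ℍ → ℂ) := by
  ext z
  simp [A8, g3cube, e4g, E4r, E6r]
  rfl

theorem coe_B8 : (B8 : ℍ → ℂ) = (28 : ℂ) • ((E₄ : ℍ → ℂ) * g3) - (9 : ℂ) • ((g3 : ℍ → ℂ) * g3 * g3)
    + (16 : ℂ) • (E₆ : ℍ → ℂ) := by
  ext z
  simp [B8, g3cube, e4g, E4r, E6r]
  rfl

theorem coe_C8 : (C8 : ℍ → ℂ) = (7 : ℂ) • ((g3 : ℍ → ℂ) * g3 * g3) - (20 : ℂ) • ((E₄ : ℍ → ℂ) * g3)
    - (16 : ℂ) • (E₆ : ℍ → ℂ) := by
  ext z
  simp [C8, g3cube, e4g, E4r, E6r]
  rfl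

/-! ### `q`-expansions -/

/-- The `q`-expansion of `g`. -/
abbrev gS : PowerSeries ℂ := qExpansion 1 (g3 : ℍ → ℂ)

/-- The `q`-expansion of `E₄`. -/
abbrev e4S : PowerSeries ℂ := qExpansion 1 (E₄ : ℍ → ℂ)

/-- The `q`-expansion of `E₆`. -/
abbrev e6S : PowerSeries ℂ := qExpansion 1 (E₆ : ℍ → ℂ)

/-- The `q`-expansion of `A8`. -/
def αS : PowerSeries ℂ := 27 * (gS * gS * gS) - 36 * (e4S * gS) - 16 * e6S

/-- The `q`-expansion of `B8`. -/
def βS : PowerSeries ℂ := 28 * (e4S * gS) - 9 * (gS * gS * gS) + 16 * e6S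

/-- The `q`-expansion of `C8`. -/
def γS : PowerSeries ℂ := 7 * (gS * gS * gS) - 20 * (e4S * gS) - 16 * e6S

theorem ofNat_smul_ps (n : ℕ) [n.AtLeastTwo] (P : PowerSeries ℂ) :
    (OfNat.ofNat n : ℂ) • P = (OfNat.ofNat n : PowerSeries ℂ) * P := by
  rw [PowerSeries.smul_eq_C_mul, map_ofNat]

theorem nice_A8 : Nice 1 (A8 : ℍ → ℂ) := nice_G0 3 A8
theorem nice_B8 : Nice 1 (B8 : ℍ → ℂ) := nice_G0 3 B8
theorem nice_C8 : Nice 1 (C8 : ℍ → ℂ) := nice_G0 3 C8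

theorem qExp_A8 : qExpansion 1 (A8 : ℍ → ℂ) = αS := by
  rw [coe_A8]
  have n1 := (nice_g3.mul nice_g3).mul nice_g3
  have n2 := nice_E4.mul nice_g3
  rw [Nice.qExpansion_sub one_pos ((n1.smul 27).sub (n2.smul 36)) (nice_E6.smul 16),
    Nice.qExpansion_sub one_pos (n1.smul 27) (n2.smul 36),
    Nice.qExpansion_smul one_pos n1, Nice.qExpansion_smul one_pos n2,
    Nice.qExpansion_smul one_pos nice_E6,
    Nice.qExpansion_mul one_pos (nice_g3.mul nice_g3) nice_g3,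
    Nice.qExpansion_mul one_pos nice_g3 nice_g3,
    Nice.qExpansion_mul one_pos nice_E4 nice_g3]
  simp only [PowerSeries.smul_eq_C_mul, map_ofNat, αS]

theorem qExp_B8 : qExpansion 1 (B8 : ℍ → ℂ) = βS := by
  rw [coe_B8]
  have n1 := (nice_g3.mul nice_g3).mul nice_g3
  have n2 := nice_E4.mul nice_g3
  rw [Nice.qExpansion_add one_pos ((n2.smul 28).sub (n1.smul 9)) (nice_E6.smul 16),
    Nice.qExpansion_sub one_pos (n2.smul 28) (n1.smul 9),
    Nice.qExpansion_smul one_pos n1, Nice.qExpansion_smul one_pos n2,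
    Nice.qExpansion_smul one_pos nice_E6,
    Nice.qExpansion_mul one_pos (nice_g3.mul nice_g3) nice_g3,
    Nice.qExpansion_mul one_pos nice_g3 nice_g3,
    Nice.qExpansion_mul one_pos nice_E4 nice_g3]
  simp only [PowerSeries.smul_eq_C_mul, map_ofNat, βS]

theorem qExp_C8 : qExpansion 1 (C8 : ℍ → ℂ) = γS := by
  rw [coe_C8]
  have n1 := (nice_g3.mul nice_g3).mul nice_g3
  have n2 := nice_E4.mul nice_g3
  rw [Nice.qExpansion_sub one_pos ((n1.smul 7).sub (n2.smul 20)) (nice_E6.smul 16),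
    Nice.qExpansion_sub one_pos (n1.smul 7) (n2.smul 20),
    Nice.qExpansion_smul one_pos n1, Nice.qExpansion_smul one_pos n2,
    Nice.qExpansion_smul one_pos nice_E6,
    Nice.qExpansion_mul one_pos (nice_g3.mul nice_g3) nice_g3,
    Nice.qExpansion_mul one_pos nice_g3 nice_g3,
    Nice.qExpansion_mul one_pos nice_E4 nice_g3]
  simp only [PowerSeries.smul_eq_C_mul, map_ofNat, γS]

/-! ### Truncations in the quotient modulo `X ^ 5` -/

theorem pi5_gS : pi5 gS = pi5 (2 + 24 * X + 72 * X ^ 2 + 24 * X ^ 3 + 168 * X ^ 4) := by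
  rw [pi5_eq_of_dvd trunc_g3]
  simp only [map_ofNat]

theorem pi5_e4S : pi5 e4S = pi5 (1 + 240 * X + 2160 * X ^ 2 + 6720 * X ^ 3 + 17520 * X ^ 4) := by
  rw [pi5_eq_of_dvd trunc_E4]
  simp only [map_ofNat, map_one]

theorem pi5_e6S : pi5 e6S
    = pi5 (1 - 504 * X - 16632 * X ^ 2 - 122976 * X ^ 3 - 532728 * X ^ 4) := by
  rw [pi5_eq_of_dvd trunc_E6]
  congr 1
  simp only [map_ofNat, map_one, map_neg]
  ring

theorem pi5_Dt : pi5 (qExpansion 1 (Dt : ℍ → ℂ)) = pi5 (177147 * X ^ 3) := by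
  rw [pi5_eq_of_dvd trunc_Dt]
  congr 1
  simp only [map_ofNat, map_zero]
  ring

theorem pi5_E4t : pi5 (qExpansion 1 (E4t : ℍ → ℂ)) = pi5 (27 + 6480 * X ^ 3) := by
  rw [pi5_eq_of_dvd trunc_E4t]
  congr 1
  simp only [map_ofNat, map_zero]
  ring

theorem pi5_eq_zero_of_eq_mul {P : PowerSeries ℂ} (s : PowerSeries ℂ) (h : P = X ^ 5 * s) :
    pi5 P = 0 := by
  rw [Ideal.Quotient.eq_zero_iff_mem, Ideal.mem_span_singleton]
  exact ⟨s, h⟩

/-! ### The four computations modulo `X ^ 5` -/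

theorem pi5_αS : pi5 αS = pi5 (27 * ((2 + 24 * X + 72 * X ^ 2 + 24 * X ^ 3 + 168 * X ^ 4) ^ 3)
    - 36 * ((1 + 240 * X + 2160 * X ^ 2 + 6720 * X ^ 3 + 17520 * X ^ 4)
      * (2 + 24 * X + 72 * X ^ 2 + 24 * X ^ 3 + 168 * X ^ 4))
    - 16 * (1 - 504 * X - 16632 * X ^ 2 - 122976 * X ^ 3 - 532728 * X ^ 4)) := by
  simp only [αS, map_sub, map_mul, map_pow, pi5_gS, pi5_e4S, pi5_e6S]
  ring

theorem pi5_βS : pi5 βS = pi5 (28 * ((1 + 240 * X + 2160 * X ^ 2 + 6720 * X ^ 3 + 17520 * X ^ 4)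
      * (2 + 24 * X + 72 * X ^ 2 + 24 * X ^ 3 + 168 * X ^ 4))
    - 9 * ((2 + 24 * X + 72 * X ^ 2 + 24 * X ^ 3 + 168 * X ^ 4) ^ 3)
    + 16 * (1 - 504 * X - 16632 * X ^ 2 - 122976 * X ^ 3 - 532728 * X ^ 4)) := by
  simp only [βS, map_sub, map_add, map_mul, map_pow, pi5_gS, pi5_e4S, pi5_e6S]
  ring

theorem pi5_γS : pi5 γS = pi5 (7 * ((2 + 24 * X + 72 * X ^ 2 + 24 * X ^ 3 + 168 * X ^ 4) ^ 3)
    - 20 * ((1 + 240 * X + 2160 * X ^ 2 + 6720 * X ^ 3 + 17520 * X ^ 4)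
      * (2 + 24 * X + 72 * X ^ 2 + 24 * X ^ 3 + 168 * X ^ 4))
    - 16 * (1 - 504 * X - 16632 * X ^ 2 - 122976 * X ^ 3 - 532728 * X ^ 4)) := by
  simp only [γS, map_sub, map_mul, map_pow, pi5_gS, pi5_e4S, pi5_e6S]
  ring

/-- `A8 B8 ≡ 256 (E₄³ - E₆²)` modulo `X ^ 5`. -/
theorem check1 : pi5 (αS * βS - 256 * (e4S * e4S * e4S - e6S * e6S)) = 0 := by
  simp only [map_sub, map_mul, pi5_αS, pi5_βS, pi5_e4S, pi5_e6S]
  simp only [← map_mul, ← map_sub]
  apply pi5_eq_zero_of_eq_mul (3841228800 + (-522024468480) * X + (-12323135029248) * X ^ 2 + (-109498700021760) * X ^ 3 + (-526765164724224) * X ^ 4 + (-1650852998184960) * X ^ 5 + (-3349458817302528) * X ^ 6 + (-3261456870506496) * X ^ 7 + (-2122372977721344) * X ^ 8 + 975007216336896 * X ^ 9 + 10642425598771200 * X ^ 10 + 12407318686089216 * X ^ 11 + 16323896483905536 * X ^ 12 + 13914019350577152 * X ^ 13 + (-5887604349075456) * X ^ 14 + (-6615740512862208)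 * X ^ 15 + (-15036260397613056) * X ^ 16 + (-15721174801317888) * X ^ 17 + (-4682903132307456) * X ^ 18 + (-5463386987692032) * X ^ 19)
  ring

/-- `9 B8 C8 ≡ 16384 Δt` modulo `X ^ 5`. -/
theorem check2 : pi5 (9 * (βS * γS) - 16384 * qExpansion 1 (Dt : ℍ → ℂ)) = 0 := by
  simp only [map_sub, map_mul, pi5_βS, pi5_γS, pi5_Dt]
  simp only [← map_mul, ← map_sub]
  apply pi5_eq_zero_of_eq_mul ((-816391913472) * X + 22757282906112 * X ^ 2 + 153095018692608 * X ^ 3 + 749355760484352 * X ^ 4 + (-2427765112406016) * X ^ 5 + (-11269153983578112) * X ^ 6 + (-16165379861839872) * X ^ 7 + (-27618386267013120) * X ^ 8 + (-19562966157459456) * X ^ 9 + 21299999309365248 * X ^ 10 + 30245387065049088 * X ^ 11 + 63489039338962944 * X ^ 12 + 58743430542655488 * X ^ 13 + (-2222214488653824) * X ^ 14 + (-3378458774863872) * X ^ 15 + (-35084607594430464) * X ^ 16 + (-36682741203075072) * X ^ 17 + (-10926773975384064)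 * X ^ 18 + (-12747902971281408) * X ^ 19)
  ring

/-- `A8 C8 ≡ B8²` modulo `X ^ 5`. -/
theorem check3 : pi5 (αS * γS - βS * βS) = 0 := by
  simp only [map_sub, map_mul, pi5_αS, pi5_βS, pi5_γS]
  simp only [← map_mul, ← map_sub]
  apply pi5_eq_zero_of_eq_mul ((-3072983040) + (-113391894528) * X + (-1770439311360) * X ^ 2 + (-15224123621376) * X ^ 3 + (-79363891003392) * X ^ 4 + (-268159295029248) * X ^ 5 + (-661357378732032) * X ^ 6 + (-1405799380942848) * X ^ 7 + (-2515157588901888) * X ^ 8 + (-3388414730305536) * X ^ 9 + (-4381248252542976) * X ^ 10 + (-3948437133656064) * X ^ 11 + (-1610632316583936) * X ^ 12 + (-344589624410112) * X ^ 13 + 5175719486816256 * X ^ 14 + 5619944469823488 * X ^ 15 + 6682782398939136 * X ^ 16 + 6987188800585728 * X ^ 17 + 2081290281025536 * X ^ 18 + 2428171994529792 * X ^ 19)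
  ring

/-- `2 E₄t ≡ 15 g² - 6 E₄` modulo `X ^ 5`. -/
theorem check4 : pi5 (2 * qExpansion 1 (E4t : ℍ → ℂ) - (15 * (gS * gS) - 6 * e4S)) = 0 := by
  simp only [map_sub, map_mul, pi5_E4t, pi5_gS, pi5_e4S]
  simp only [← map_mul, ← map_sub]
  apply pi5_eq_zero_of_eq_mul ((-172800) + (-371520) * X + (-120960) * X ^ 2 + (-423360) * X ^ 3)
  ring

/-! ### The Sturm bound applied -/

theorem series_eq_zero_of_pi5 {k : ℤ} (F : ModularForm (Gamma0 3) k) (S : PowerSeries ℂ)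
    (hq : qExpansion 1 (F : ℍ → ℂ) = S) (hk : (k * 4).toNat / 12 ≤ 4) (h5 : pi5 S = 0) :
    S = 0 := by
  have h0 : F = 0 := sturm3 F fun n hn => by
    rw [hq]
    exact coeff_eq_zero_of_pi5 h5 n (hn.trans hk)
  rw [← hq, h0]
  exact qExpansion_zero 1

/-- `A8 B8 - 256 (E₄³ - E₆²)`. -/
def D1 : ModularForm (Gamma0 3) 12 :=
  ModularForm.mcast (by norm_num) (A8.mul B8)
    - (256 : ℂ) • (ModularForm.mcast (by norm_num) ((E4r.mul E4r).mul E4r)
        - ModularForm.mcast (by norm_num) (E6r.mul E6r))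

/-- `9 B8 C8 - 16384 Δt`. -/
def D2 : ModularForm (Gamma0 3) 12 :=
  (9 : ℂ) • ModularForm.mcast (by norm_num) (B8.mul C8) - (16384 : ℂ) • Dt

/-- `A8 C8 - B8²`. -/
def D3 : ModularForm (Gamma0 3) 12 :=
  ModularForm.mcast (by norm_num) (A8.mul C8) - ModularForm.mcast (by norm_num) (B8.mul B8)

/-- `2 E₄t - (15 g² - 6 E₄)`. -/
def D4 : ModularForm (Gamma0 3) 4 :=
  (2 : ℂ) • E4t - ((15 : ℂ) • ModularForm.mcast (by norm_num) (g3.mul g3) - (6 : ℂ) • E4r)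

theorem coe_D1 : (D1 : ℍ → ℂ) = (A8 : ℍ → ℂ) * B8
    - (256 : ℂ) • ((E₄ : ℍ → ℂ) * E₄ * E₄ - (E₆ : ℍ → ℂ) * E₆) := by
  ext z
  simp [D1, E4r, E6r]
  rfl

theorem coe_D2 : (D2 : ℍ → ℂ) = (9 : ℂ) • ((B8 : ℍ → ℂ) * C8) - (16384 : ℂ) • (Dt : ℍ → ℂ) := by
  ext z
  simp [D2]
  rfl

theorem coe_D3 : (D3 : ℍ → ℂ) = (A8 : ℍ → ℂ) * C8 - (B8 : ℍ → ℂ) * B8 := by
  ext z
  simp [D3]
  rfl

theorem coe_D4 : (D4 : ℍ → ℂ) = (2 : ℂ) • (E4t : ℍ → ℂ)
    - ((15 : ℂ) • ((g3 : ℍ → ℂ) * g3) - (6 : ℂ) • (E₄ : ℍ → ℂ)) := by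
  ext z
  simp [D4, E4r]
  rfl

theorem nice_Dt : Nice 1 (Dt : ℍ → ℂ) := nice_G0 3 Dt
theorem nice_E4t : Nice 1 (E4t : ℍ → ℂ) := nice_G0 3 E4t

/-- The `q`-expansion of `3¹¹ Δ(3z)`. -/
abbrev dtS : PowerSeries ℂ := qExpansion 1 (Dt : ℍ → ℂ)

/-- The `q`-expansion of `27 E₄(3z)`. -/
abbrev e4tS : PowerSeries ℂ := qExpansion 1 (E4t : ℍ → ℂ)

theorem qExp_D1 : qExpansion 1 (D1 : ℍ → ℂ)
    = αS * βS - 256 * (e4S * e4S * e4S - e6S * e6S) := by
  rw [coe_D1]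
  have n1 := (nice_E4.mul nice_E4).mul nice_E4
  have n2 := nice_E6.mul nice_E6
  rw [Nice.qExpansion_sub one_pos (nice_A8.mul nice_B8) ((n1.sub n2).smul 256),
    Nice.qExpansion_mul one_pos nice_A8 nice_B8,
    Nice.qExpansion_smul one_pos (n1.sub n2),
    Nice.qExpansion_sub one_pos n1 n2,
    Nice.qExpansion_mul one_pos (nice_E4.mul nice_E4) nice_E4,
    Nice.qExpansion_mul one_pos nice_E4 nice_E4,
    Nice.qExpansion_mul one_pos nice_E6 nice_E6, qExp_A8, qExp_B8]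
  simp only [PowerSeries.smul_eq_C_mul, map_ofNat]

theorem qExp_D2 : qExpansion 1 (D2 : ℍ → ℂ) = 9 * (βS * γS) - 16384 * dtS := by
  rw [coe_D2]
  rw [Nice.qExpansion_sub one_pos ((nice_B8.mul nice_C8).smul 9) (nice_Dt.smul 16384),
    Nice.qExpansion_smul one_pos (nice_B8.mul nice_C8),
    Nice.qExpansion_smul one_pos nice_Dt,
    Nice.qExpansion_mul one_pos nice_B8 nice_C8, qExp_B8, qExp_C8]
  simp only [PowerSeries.smul_eq_C_mul, map_ofNat]

theorem qExp_D3 : qExpansion 1 (D3 : ℍ → ℂ) = αS * γS - βS * βS := by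
  rw [coe_D3]
  rw [Nice.qExpansion_sub one_pos (nice_A8.mul nice_C8) (nice_B8.mul nice_B8),
    Nice.qExpansion_mul one_pos nice_A8 nice_C8,
    Nice.qExpansion_mul one_pos nice_B8 nice_B8, qExp_A8, qExp_B8, qExp_C8]

theorem qExp_D4 : qExpansion 1 (D4 : ℍ → ℂ) = 2 * e4tS - (15 * (gS * gS) - 6 * e4S) := by
  rw [coe_D4]
  have n1 := nice_g3.mul nice_g3
  rw [Nice.qExpansion_sub one_pos (nice_E4t.smul 2) ((n1.smul 15).sub (nice_E4.smul 6)),
    Nice.qExpansion_sub one_pos (n1.smul 15) (nice_E4.smul 6),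
    Nice.qExpansion_smul one_pos nice_E4t,
    Nice.qExpansion_smul one_pos n1,
    Nice.qExpansion_smul one_pos nice_E4,
    Nice.qExpansion_mul one_pos nice_g3 nice_g3]
  simp only [PowerSeries.smul_eq_C_mul, map_ofNat]

/-- `A8 B8 = 256 (E₄³ - E₆²)` on `q`-expansions. -/
theorem series_one : αS * βS = 256 * (e4S * e4S * e4S - e6S * e6S) :=
  sub_eq_zero.mp (series_eq_zero_of_pi5 D1 _ qExp_D1 (by decide) check1)

/-- `9 B8 C8 = 16384 Δt` on `q`-expansions. -/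
theorem series_two : 9 * (βS * γS) = 16384 * dtS :=
  sub_eq_zero.mp (series_eq_zero_of_pi5 D2 _ qExp_D2 (by decide) check2)

/-- `A8 C8 = B8²` on `q`-expansions. -/
theorem series_three : αS * γS = βS * βS :=
  sub_eq_zero.mp (series_eq_zero_of_pi5 D3 _ qExp_D3 (by decide) check3)

/-- `2 E₄t = 15 g² - 6 E₄` on `q`-expansions. -/
theorem series_four : 2 * e4tS = 15 * (gS * gS) - 6 * e4S :=
  sub_eq_zero.mp (series_eq_zero_of_pi5 D4 _ qExp_D4 (by decide) check4)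

end Fermat.Agent.RED.H29
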