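import Fermat.Agent.RED.Core2
import Fermat.Agent.RED.H73_GAFinal
import Fermat.Agent.RED.H95_IsFF
import Fermat.Agent.RED.H51_Basic
import Fermat.Agent.RED.H51_Ord
import Fermat.Agent.RED.H42_RiemannFinal
import Fermat.Prelude.Def_ModularCurve_ReductionModL

/-!
# G-RED, package RI (helper33): the prelude's `ReductionInputsModL A N` from a Deuring reduction

`ReductionInputsModL A N` asks for a map `r` from the places of `F_N · ℚ̄` to the places of
`k(j(q^d) : d ∣ N)` which preserves degrees, satisfies the conservation law for the functions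
with integral `q`-expansion and nonzero reduction, and such that the principal divisors are
generated by the divisors of such functions.

* `isRed_integral` : the conservation law `IsRed` contains the conservation law of the prelude.
* `principal_le_closure_integral` : generation (every function is a quotient of two elements of
  `F ∩ IntSpan`, which scale to primitive integral series).
* `redInputs_of_isRed` : `ReductionInputsModL A N` from one `r` with `IsRed` (and helper73's GA).
* `stmt_RI_of_RM` : `Stmt_RM → ∀ N ℓ A, ℓ ∤ N → ReductionInputsModL A N`.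
-/

set_option autoImplicit false
set_option synthInstance.maxHeartbeats 400000
set_option maxHeartbeats 1000000

noncomputable section

open AlgebraicCurve ModularCurve Fermat.Agent.S28 Fermat.Agent.S28.H73 Fermat.Agent.RED.H73

namespace Fermat.Agent.RED.H33

section Abs

variable {C : Type} [Field C] (O : ValuationSubring C)
variable {F : IntermediateField C (LaurentSeries C)} (h : HasScale O F)

/-- An integral series which lies in `F` is in the Gauss valuation ring of `F`. -/
theorem iotaV_mem_gaussValSub (y : LaurentSeries ↥O) (hy : iotaV O y ∈ F) :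
    (⟨iotaV O y, hy⟩ : ↥F) ∈ gaussValSub O F h :=
  (mem_gaussValSub_iff O h _).mpr (iotaV_mem_gaussRingV O y)

/-- Its reduction is the coefficientwise reduction. -/
theorem gaussResF_iotaV (y : LaurentSeries ↥O) (hy : iotaV O y ∈ F) :
    gaussResF O h ⟨⟨iotaV O y, hy⟩, iotaV_mem_gaussValSub O h y hy⟩ = redV O y := by
  rw [gaussResF_apply]
  exact gaussRedV_iotaV O y

theorem redV_mem_redField (y : LaurentSeries ↥O) (hy : iotaV O y ∈ F) :
    redV O y ∈ redField O F h := by
  rw [← gaussResF_iotaV O h y hy]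
  exact gaussResF_mem_redField O h _

/-- The conservation law for functions with integral `q`-expansion and nonzero reduction. -/
theorem isRed_integral {r : Place C ↥F → Place (kV O) ↥(redField O F h)} (hr : IsRed O h r)
    (y : LaurentSeries ↥O) (hy : iotaV O y ∈ F) (hyk : redV O y ∈ redField O F h)
    (hne : redV O y ≠ 0) (D : Divisor C ↥F)
    (hD : ∀ P, D P = P.ord (⟨iotaV O y, hy⟩ : ↥F)) (Q : Place (kV O) ↥(redField O F h)) :
    Finsupp.mapDomain r D Q = Q.ord (⟨redV O y, hyk⟩ : ↥(redField O F h)) := by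
  have hu : IsUnit (⟨⟨iotaV O y, hy⟩, iotaV_mem_gaussValSub O h y hy⟩ :
      ↥(gaussValSub O F h)) := by
    rw [isUnit_iff_gaussResF_ne_zero, gaussResF_iotaV]
    exact hne
  rw [hr _ hu D hD Q]
  congr 1
  exact Subtype.ext (gaussResF_iotaV O h y hy)

/-- The set of divisors of functions with integral `q`-expansion and nonzero reduction. -/
def intDivs : Set (Divisor C ↥F) :=
  {D | ∃ (y : LaurentSeries ↥O) (hy : iotaV O y ∈ F),
    redV O y ∈ redField O F h ∧ redV O y ≠ 0 ∧ ∀ P, D P = P.ord (⟨iotaV O y, hy⟩ : ↥F)}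

/-- The divisor of a nonzero element of `F ∩ IntSpan` is the divisor of a primitive integral
series. -/
theorem mem_intDivs_of_intSpan {a : LaurentSeries C} (ha : a ∈ IntSpan C) (haF : a ∈ F)
    (ha0 : a ≠ 0) (D : Divisor C ↥F) (hD : ∀ P, D P = P.ord (⟨a, haF⟩ : ↥F)) :
    D ∈ intDivs O h := by
  obtain ⟨c, hc, hp⟩ := exists_primSeries_scale O ha ha0
  obtain ⟨g, hg, hge⟩ := (primSeries_iff O _).1 hp
  have hcF : (HahnSeries.C c : LaurentSeries C) ∈ F := by
    rw [← coe_algebraMap_F (F := F) c]
    exact (algebraMap C ↥F c).2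
  have hy : iotaV O g ∈ F := by
    rw [hge]
    exact F.mul_mem hcF haF
  refine ⟨g, hy, redV_mem_redField O h g hy, hg, fun P => ?_⟩
  have e : (⟨iotaV O g, hy⟩ : ↥F) = algebraMap C ↥F c * ⟨a, haF⟩ := by
    apply Subtype.ext
    show iotaV O g = ((algebraMap C ↥F c : ↥F) : LaurentSeries C) * a
    rw [coe_algebraMap_F, hge]
  rw [hD P, e, P.ord_mul ((map_ne_zero_iff _ (algebraMap C ↥F).injective).mpr hc)
    (fun h0 => ha0 (congrArg Subtype.val h0)), H51.ord_algebraMap, zero_add]

/-- **Generation**: if every element of `F` is a quotient of two elements of `F ∩ IntSpan`, the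
principal divisors are generated by the divisors of the primitive integral series in `F`. -/
theorem principal_le_closure_integral [HasPrincipalDivisors C ↥F]
    (hfrac : ∀ x ∈ F, ∃ a b : LaurentSeries C,
      a ∈ IntSpan C ∧ b ∈ IntSpan C ∧ a ∈ F ∧ b ∈ F ∧ x = a / b) :
    Divisor.principal (K := C) (F := ↥F) ≤ AddSubgroup.closure (intDivs O h) := by
  rintro D ⟨f, hf, hD⟩
  obtain ⟨a, b, ha, hb, haF, hbF, hab⟩ := hfrac f f.2
  have hf0 : (f : LaurentSeries C) ≠ 0 := fun h0 => hf (Subtype.ext h0)
  have ha0 : a ≠ 0 := by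
    rintro rfl
    rw [zero_div] at hab
    exact hf0 hab
  have hb0 : b ≠ 0 := by
    rintro rfl
    rw [div_zero] at hab
    exact hf0 hab
  have ha0' : (⟨a, haF⟩ : ↥F) ≠ 0 := fun h0 => ha0 (congrArg Subtype.val h0)
  have hb0' : (⟨b, hbF⟩ : ↥F) ≠ 0 := fun h0 => hb0 (congrArg Subtype.val h0)
  obtain ⟨Da, hDa, -⟩ := HasPrincipalDivisors.exists_divisor (K := C) (⟨a, haF⟩ : ↥F) ha0'
  obtain ⟨Db, hDb, -⟩ := HasPrincipalDivisors.exists_divisor (K := C) (⟨b, hbF⟩ : ↥F) hb0'
  have hfe : f = (⟨a, haF⟩ : ↥F) * (⟨b, hbF⟩ : ↥F)⁻¹ := by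
    apply Subtype.ext
    show (f : LaurentSeries C) = a * b⁻¹
    rw [hab, div_eq_mul_inv]
  have hDe : D = Da - Db := by
    ext P
    rw [Finsupp.sub_apply, hD P, hDa P, hDb P, hfe, P.ord_mul ha0' (inv_ne_zero hb0'),
      P.ord_inv]
    ring
  rw [hDe]
  exact AddSubgroup.sub_mem _
    (AddSubgroup.subset_closure (mem_intDivs_of_intSpan O h ha haF ha0 Da hDa))
    (AddSubgroup.subset_closure (mem_intDivs_of_intSpan O h hb hbF hb0 Db hDb))

/-- Elements of a field generated by a subset of `IntSpan` are quotients of elements of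
`F ∩ IntSpan`. -/
theorem exists_frac_of_adjoin {S : Set (LaurentSeries C)}
    (hS : S ⊆ (IntSpan C : Set (LaurentSeries C))) (x : LaurentSeries C)
    (hx : x ∈ IntermediateField.adjoin C S) :
    ∃ a b : LaurentSeries C, a ∈ IntSpan C ∧ b ∈ IntSpan C ∧
      a ∈ IntermediateField.adjoin C S ∧ b ∈ IntermediateField.adjoin C S ∧ x = a / b := by
  obtain ⟨a, ha, b, hb, rfl⟩ := IntermediateField.mem_adjoin_iff_div.1 hx
  have hle : Algebra.adjoin C S ≤ IntSpan C := Algebra.adjoin_le hS
  exact ⟨a, b, hle ha, hle hb, IntermediateField.algebra_adjoin_le_adjoin C S ha,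
    IntermediateField.algebra_adjoin_le_adjoin C S hb, rfl⟩

end Abs

section Modular

/-- Elements of `F_N · ℚ̄` are quotients of elements of `F ∩ IntSpan`. -/
theorem exists_frac_bar (N : ℕ) (x : LaurentSeries (AlgebraicClosure ℚ))
    (hx : x ∈ modularFunctionFieldBar N) :
    ∃ a b : LaurentSeries (AlgebraicClosure ℚ), a ∈ IntSpan (AlgebraicClosure ℚ) ∧
      b ∈ IntSpan (AlgebraicClosure ℚ) ∧ a ∈ modularFunctionFieldBar N ∧
      b ∈ modularFunctionFieldBar N ∧ x = a / b := by
  have e : modularFunctionFieldBar N = modularFunctionFieldFullC (AlgebraicClosure ℚ) N :=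
    laurentBaseChange_full_eq N
  rw [e] at hx ⊢
  exact exists_frac_of_adjoin (divisorExpansionsC_subset_intSpan N) x hx

/-- **RI from one reduction map with the conservation law.** -/
theorem redInputs_of_isRed (N ℓ : ℕ) [NeZero N] (hℓ : ℓ.Prime) (hℓN : ¬ ℓ ∣ N)
    (A : ValuationSubring (AlgebraicClosure ℚ)) (hA : A.LiesOverPrime ℓ)
    (r₀ : Place (AlgebraicClosure ℚ) ↥(modularFunctionFieldBar N) →
      Place (kV A) ↥(redField A (modularFunctionFieldBar N) (hasScale_laurentBaseChange A N)))
    (hr₀ : IsRed A (hasScale_laurentBaseChange A N) r₀) :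
    ReductionInputsModL A N := by
  haveI : IsAlgClosed (kV A) := isAlgClosed_kV A
  have hGA := stmt_GA N ℓ hℓ hℓN A hA
  have hFF : IsFF (AlgebraicClosure ℚ) ↥(modularFunctionFieldBar N) := H95.stmt_HKA_isFF N
  have hFt := isFF_redField_bar N ℓ hℓ hℓN A hA
  haveI : HasPrincipalDivisors (AlgebraicClosure ℚ) ↥(modularFunctionFieldBar N) :=
    H42.stmt_FFB_principal _ _ hFF
  suffices H : ∀ E : IntermediateField (kV A) (LaurentSeries (kV A)),
      redField A (modularFunctionFieldBar N) (hasScale_laurentBaseChange A N) = E →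
      ∃ r : Place (AlgebraicClosure ℚ) ↥(modularFunctionFieldBar N) → Place (kV A) ↥E,
        ((∀ P, (r P).deg = P.deg) ∧
          ∀ (y : LaurentSeries A) (hy : coeffMap A.subtype y ∈ modularFunctionFieldBar N)
            (hyk : coeffMap (IsLocalRing.residue A) y ∈ E),
            coeffMap (IsLocalRing.residue A) y ≠ 0 →
            ∀ D : Divisor (AlgebraicClosure ℚ) ↥(modularFunctionFieldBar N),
              (∀ P, D P = P.ord (⟨coeffMap A.subtype y, hy⟩ : ↥(modularFunctionFieldBar N))) →
              ∀ Q, Finsupp.mapDomain r D Q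
                = Q.ord (⟨coeffMap (IsLocalRing.residue A) y, hyk⟩ : ↥E)) ∧
        Divisor.principal (K := AlgebraicClosure ℚ) (F := ↥(modularFunctionFieldBar N)) ≤
          AddSubgroup.closure
            {D | ∃ (y : LaurentSeries A)
              (hy : coeffMap A.subtype y ∈ modularFunctionFieldBar N),
              coeffMap (IsLocalRing.residue A) y ∈ E ∧
              coeffMap (IsLocalRing.residue A) y ≠ 0 ∧
              ∀ P, D P = P.ord (⟨coeffMap A.subtype y, hy⟩ : ↥(modularFunctionFieldBar N))} from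
    H _ hGA
  rintro E rfl
  refine ⟨r₀, ⟨fun P => ?_, fun y hy hyk hne D hD Q => ?_⟩, ?_⟩
  · rw [H51.stmt_FFB_deg _ _ hFt (r₀ P), H51.stmt_FFB_deg _ _ hFF P]
  · exact isRed_integral A (hasScale_laurentBaseChange A N) hr₀ y hy hyk hne D hD Q
  · exact principal_le_closure_integral A (hasScale_laurentBaseChange A N) (exists_frac_bar N)

/-- **Package RI**: the reduction inputs of the prelude at every level `N` and every prime
`ℓ ∤ N`, from package RM. -/
theorem stmt_RI_of_RM (hRM : Stmt_RM) (N ℓ : ℕ) [NeZero N] (hℓ : ℓ.Prime) (hℓN : ¬ ℓ ∣ N)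
    (A : ValuationSubring (AlgebraicClosure ℚ)) (hA : A.LiesOverPrime ℓ) :
    ReductionInputsModL A N := by
  obtain ⟨r, hr, -⟩ := hRM N ℓ hℓ hℓN A hA
  exact redInputs_of_isRed N ℓ hℓ hℓN A hA r hr

/-- The same from a Deuring datum at level `N` (tame case). -/
theorem redInputs_of_hasDR (N ℓ : ℕ) [NeZero N] (hℓ : ℓ.Prime) (hℓN : ¬ ℓ ∣ N)
    (A : ValuationSubring (AlgebraicClosure ℚ)) (hA : A.LiesOverPrime ℓ)
    (hDR : HasDR A (hasScale_laurentBaseChange A N)) : ReductionInputsModL A N := by
  obtain ⟨-, r, hr, -⟩ := hDR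
  exact redInputs_of_isRed N ℓ hℓ hℓN A hA r hr

end Modular

end Fermat.Agent.RED.H33
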