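import Fermat.Agent.RED.Core
import Fermat.Agent.RED.H42_Lat3
import Fermat.Agent.RED.H42_RiemannFinal
import Fermat.Agent.RED.H51_Basic

/-!
# G-RED package UNI (helper33): uniqueness and equivariance of the Deuring reduction map

* `isRed_unique` (**UNIQ**): two maps of places `r, r' : Place C F → Place k F~` satisfying the
  conservation law `IsRed` coincide.
  Proof: if `r P ≠ r' P`, every `x ∈ L(nP) ∩ V` reduces into `L~(n rP) ∩ L~(n r'P) = L~(0)`, of
  dimension `≤ 1`; but `dim res (L(nP) ∩ V) = l(nP) ≥ 2` for large `n` (LAT + Riemann).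
* `isRed_equivariant` (**EQ**): semilinear automorphisms `g` of `F`, `g~` of `F~` compatible with
  the Gauss valuation and the reduction satisfy `r (g • P) = g~ • r P`.
-/

set_option autoImplicit false
set_option linter.style.haveILetI false
set_option linter.unusedSectionVars false
set_option synthInstance.maxHeartbeats 400000
set_option maxHeartbeats 1000000

noncomputable section

open AlgebraicCurve ModularCurve Fermat.Agent.S28 Fermat.Agent.S28.H73 Fermat.Agent.RED.H73

namespace Fermat.Agent.RED.H33

section Push

variable {K E K' E' : Type*} [Field K] [Field E] [Algebra K E] [Field K'] [Field E'] [Algebra K' E']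

/-- The push-forward of a divisor is nonnegative at `Q` if the divisor is nonnegative on the
fibre of `Q`. -/
theorem mapDomain_nonneg (r : Place K E → Place K' E') (D : Divisor K E) (Q : Place K' E')
    (hD : ∀ P, r P = Q → 0 ≤ D P) : 0 ≤ Finsupp.mapDomain r D Q := by
  classical
  rw [Finsupp.mapDomain, Finsupp.sum_apply]
  refine Finset.sum_nonneg fun P _ => ?_
  show 0 ≤ (Finsupp.single (r P) (D P)) Q
  rw [Finsupp.single_apply]
  split_ifs with hP
  · exact hD P hP
  · exact le_rfl

end Push

section Uniq

variable {C : Type} [Field C] [IsAlgClosed C] (O : ValuationSubring C) [IsAlgClosed (kV O)]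
variable {F : IntermediateField C (LaurentSeries C)} (h : HasScale O F)

/-- Key step: a function with poles only at `P`, lying in `V`, reduces to a function without
poles if `r P ≠ r' P`. -/
theorem res_mem_riemannRochSpace_zero (hFF : IsFF C ↥F)
    {r r' : Place C ↥F → Place (kV O) ↥(redField O F h)}
    (hr : IsRed O h r) (hr' : IsRed O h r') (P : Place C ↥F) (hne : r P ≠ r' P) (n : ℤ)
    (x : ↥(gaussValSub O F h))
    (hx : (x : ↥F) ∈ riemannRochSpace (Finsupp.single P n : Divisor C ↥F)) :
    gaussResF' O h x ∈ riemannRochSpace (0 : Divisor (kV O) ↥(redField O F h)) := by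
  classical
  rw [mem_riemannRochSpace_iff]
  intro Q
  by_cases hy : gaussResF' O h x = 0
  · exact Or.inl hy
  right
  have hunit : IsUnit x := by
    rw [isUnit_iff_gaussResF_ne_zero]
    intro h0
    exact hy (Subtype.ext h0)
  have hx0 : (x : ↥F) ≠ 0 := by
    intro h0
    apply hy
    have : x = 0 := Subtype.ext h0
    rw [this, map_zero]
  haveI : HasPrincipalDivisors C ↥F := H42.stmt_FFB_principal C ↥F hFF
  obtain ⟨D, hD, -⟩ := HasPrincipalDivisors.exists_divisor (K := C) (x : ↥F) hx0
  have hpos : ∀ P', P' ≠ P → 0 ≤ D P' := by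
    intro P' hP'
    rw [hD]
    rcases (mem_riemannRochSpace_iff.mp hx) P' with h0 | h1
    · exact absurd h0 hx0
    · rw [Finsupp.single_apply, if_neg (Ne.symm hP'), neg_zero] at h1
      exact h1
  simp only [Finsupp.coe_zero, Pi.zero_apply, neg_zero]
  by_cases hQ : r P = Q
  · -- use `r'`
    rw [← hr' x hunit D hD Q]
    refine mapDomain_nonneg r' D Q fun P' hP' => hpos P' ?_
    rintro rfl
    exact hne (hQ.trans hP'.symm)
  · rw [← hr x hunit D hD Q]
    refine mapDomain_nonneg r D Q fun P' hP' => hpos P' ?_
    rintro rfl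
    exact hQ hP'

/-- **UNIQ**: the Deuring reduction map is determined by the conservation law. -/
theorem isRed_unique (hFF : IsFF C ↥F) (hFt : IsFF (kV O) ↥(redField O F h))
    (hscal : H42.FracScalable O F)
    {r r' : Place C ↥F → Place (kV O) ↥(redField O F h)}
    (hr : IsRed O h r) (hr' : IsRed O h r') : r = r' := by
  classical
  funext P
  by_contra hne
  obtain ⟨g, c, hg⟩ := H42.stmt_FFR_riemann C ↥F hFF
  -- a large multiple of `P`
  set n : ℤ := max c ((g : ℤ) + 1) with hn
  have hdegP : (P.deg : ℤ) = 1 := by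
    exact_mod_cast H51.stmt_FFB_deg C ↥F hFF P
  have hdeg : Divisor.degree (Finsupp.single P n : Divisor C ↥F) = n := by
    rw [Divisor.degree_single, hdegP, mul_one]
  have hdim : (Module.finrank C (riemannRochSpace (Finsupp.single P n : Divisor C ↥F)) : ℤ)
      = n + 1 - g := by
    have := (hg (Finsupp.single P n)).2 (by rw [hdeg]; exact le_max_left _ _)
    rw [this, hdeg]
  have hdim2 : 2 ≤ Module.finrank C (riemannRochSpace (Finsupp.single P n : Divisor C ↥F)) := by
    have h1 : (g : ℤ) + 1 ≤ n := le_max_right _ _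
    have : (2 : ℤ) ≤ Module.finrank C (riemannRochSpace (Finsupp.single P n : Divisor C ↥F)) := by
      rw [hdim]; omega
    exact_mod_cast this
  haveI : Module.Finite C (riemannRochSpace (Finsupp.single P n : Divisor C ↥F)) :=
    H42.stmt_FFR_finite C ↥F hFF _
  obtain ⟨Wt, hWt, hfin, -⟩ := H42.exists_redSubF O hscal h
    (riemannRochSpace (Finsupp.single P n : Divisor C ↥F))
  have hle : Wt ≤ riemannRochSpace (0 : Divisor (kV O) ↥(redField O F h)) := by
    intro y hy
    have hy' : y ∈ H42.redSetF O h (riemannRochSpace (Finsupp.single P n : Divisor C ↥F)) := by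
      rw [← hWt]; exact hy
    obtain ⟨x, hxW, rfl⟩ := hy'
    exact res_mem_riemannRochSpace_zero O h hFF hr hr' P hne n x hxW
  haveI : Module.Finite (kV O) (riemannRochSpace (0 : Divisor (kV O) ↥(redField O F h))) :=
    H42.stmt_FFR_finite (kV O) ↥(redField O F h) hFt _
  have h1 : Module.finrank (kV O) Wt ≤
      Module.finrank (kV O) (riemannRochSpace (0 : Divisor (kV O) ↥(redField O F h))) :=
    Submodule.finrank_mono hle
  have h2 : (Module.finrank (kV O)
      (riemannRochSpace (0 : Divisor (kV O) ↥(redField O F h))) : ℤ) ≤ 1 := by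
    have := (H42.stmt_FFR_le (kV O) ↥(redField O F h) hFt 0).2 (by simp)
    simpa using this
  have h3 : Module.finrank (kV O)
      (riemannRochSpace (0 : Divisor (kV O) ↥(redField O F h))) ≤ 1 := by exact_mod_cast h2
  omega

/-- **EQ**: semilinear automorphisms `g` of `F` and `gt` of `F~` which are compatible with the
Gauss valuation ring and the reduction map commute with the Deuring reduction of places. -/
theorem isRed_equivariant (hFF : IsFF C ↥F) (hFt : IsFF (kV O) ↥(redField O F h))
    (hscal : H42.FracScalable O F)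
    (g : SemilinearAut C ↥F) (gt : SemilinearAut (kV O) ↥(redField O F h))
    (hg : ∀ f : ↥(gaussValSub O F h), ∃ hmem : g • (f : ↥F) ∈ gaussValSub O F h,
      gaussResF' O h ⟨g • (f : ↥F), hmem⟩ = gt • gaussResF' O h f)
    {r : Place C ↥F → Place (kV O) ↥(redField O F h)} (hr : IsRed O h r) (P : Place C ↥F) :
    r (g • P) = gt • r P := by
  classical
  have hr' : IsRed O h (fun P => gt⁻¹ • r (g • P)) := by
    intro f hf D hD Q
    obtain ⟨hmem, hres⟩ := hg f
    have hunit : IsUnit (⟨g • (f : ↥F), hmem⟩ : ↥(gaussValSub O F h)) := by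
      rw [isUnit_iff_gaussResF_ne_zero]
      intro h0
      have h1 : gaussResF' O h ⟨g • (f : ↥F), hmem⟩ = 0 := Subtype.ext h0
      rw [hres] at h1
      have h2 : gaussResF' O h f = 0 := by
        have := congrArg (fun y => gt⁻¹ • y) h1
        simpa using this
      have h3 : gaussResF O h f = 0 := congrArg Subtype.val h2
      exact (isUnit_iff_gaussResF_ne_zero O h f).mp hf h3
    have hD' : ∀ P', (g • D) P' = P'.ord ((⟨g • (f : ↥F), hmem⟩ : ↥(gaussValSub O F h)) : ↥F) := by
      intro P'
      rw [SemilinearAut.divisor_smul_apply, hD]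
      have := SemilinearAut.ord_smul g (g⁻¹ • P') (f : ↥F)
      rw [smul_inv_smul] at this
      exact this.symm
    have key := hr _ hunit (g • D) hD' (gt • Q)
    rw [hres, SemilinearAut.ord_smul] at key
    rw [← key]
    have hcomp : Finsupp.mapDomain (fun P => gt⁻¹ • r (g • P)) D =
        gt⁻¹ • Finsupp.mapDomain r (g • D) := by
      rw [SemilinearAut.divisor_smul_def, SemilinearAut.divisor_smul_def,
        ← Finsupp.mapDomain_comp, ← Finsupp.mapDomain_comp]
      rfl
    rw [hcomp, SemilinearAut.divisor_smul_apply, inv_inv]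
  have := congrFun (isRed_unique O h hFF hFt hscal hr' hr) P
  have h2 := congrArg (fun Q => gt • Q) this
  simpa using h2

end Uniq

end Fermat.Agent.RED.H33
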