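import Fermat.Agent.RED.H34_IGDefs

/-!
# G-RED leaf IG-P1: reduction of roots over a valuation ring (helper82)

`O` a valuation ring of an algebraically closed field `C`, `res : O → k` the residue map,
`D ∈ O[X]` with nonzero reduction.  Then `D = u · ∏ (X - r_i) · ∏ (1 - s_j X)` with `u` a unit,
`r_i ∈ O`, `s_j` non-units; so the roots of the reduction are the reductions of the roots of `D`
lying in `O`, with multiplicities.  We prove this by induction on the degree, splitting off one
factor at a time.
-/

set_option autoImplicit false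

noncomputable section

open Polynomial

namespace Fermat.Agent.RED.H82

variable {Cf k : Type} [Field Cf] [IsAlgClosed Cf] [Field k] (O : ValuationSubring Cf)

/-- Splitting off one linear factor: either `X - r` with `r ∈ O`, or `1 - s X` with `s` a nonzero
non-unit of `O`. -/
theorem exists_factor (D : Polynomial ↥O) (hdeg : 0 < D.natDegree) :
    (∃ (r : ↥O) (D₁ : Polynomial ↥O), D = (X - C r) * D₁) ∨
    (∃ (s : ↥O) (D₁ : Polynomial ↥O), ¬ IsUnit s ∧ s ≠ 0 ∧ D = (1 - C s * X) * D₁) := by
  classical
  have hinj : Function.Injective (O.subtype : ↥O →+* Cf) := Subtype.val_injective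
  set Dc : Polynomial Cf := D.map O.subtype with hDc
  have hDcdeg : Dc.degree ≠ 0 := by
    rw [hDc, Polynomial.degree_map_eq_of_injective hinj]
    intro h
    have h' : D.natDegree = 0 := Polynomial.natDegree_eq_of_degree_eq_some h
    omega
  obtain ⟨r, hr⟩ := IsAlgClosed.exists_root Dc hDcdeg
  by_cases hrO : r ∈ O
  · left
    refine ⟨⟨r, hrO⟩, D /ₘ (X - C ⟨r, hrO⟩), ?_⟩
    symm
    rw [Polynomial.mul_divByMonic_eq_iff_isRoot]
    have h1 : (D.map O.subtype).eval (O.subtype ⟨r, hrO⟩) = 0 := hr
    rw [Polynomial.eval_map, Polynomial.eval₂_at_apply] at h1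
    have h2 : O.subtype (D.eval ⟨r, hrO⟩) = O.subtype 0 := by
      rw [h1, map_zero]
    exact hinj h2
  · right
    have hr0 : r ≠ 0 := fun h => hrO (h ▸ zero_mem _)
    have hsO : r⁻¹ ∈ O := (O.mem_or_inv_mem r).resolve_left hrO
    set s : ↥O := ⟨r⁻¹, hsO⟩ with hs
    have hs0 : s ≠ 0 := by
      intro h
      have : (s : Cf) = 0 := by rw [h]; rfl
      exact inv_ne_zero hr0 this
    have hsnu : ¬ IsUnit s := by
      intro hu
      obtain ⟨t, ht⟩ := hu.exists_right_inv
      have h1 : (s : Cf) * (t : Cf) = 1 := by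
        have := congrArg (fun x : ↥O => (x : Cf)) ht
        simpa using this
      have h2 : (t : Cf) = r := by
        have : r⁻¹ * (t : Cf) = 1 := h1
        field_simp at this
        exact this
      exact hrO (h2 ▸ t.2)
    -- the cofactor over `C`
    set E : Polynomial Cf := Dc /ₘ (X - C r) with hE
    have hDE : (X - C r) * E = Dc := Polynomial.mul_divByMonic_eq_iff_isRoot.mpr hr
    obtain ⟨D₁c, hD₁c⟩ : ∃ p : Polynomial Cf, p = C (-r) * E := ⟨_, rfl⟩
    have hfac : (1 - C (r⁻¹) * X) * D₁c = Dc := by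
      rw [← hDE, hD₁c]
      have : (1 - C (r⁻¹) * X) * (C (-r) * E) = ((1 - C (r⁻¹) * X) * C (-r)) * E := by ring
      rw [this]
      congr 1
      have h1 : (C (r⁻¹) : Polynomial Cf) * C r = 1 := by
        rw [← C_mul, inv_mul_cancel₀ hr0, C_1]
      calc (1 - C (r⁻¹) * X) * C (-r) = -(C r) + (C (r⁻¹) * C r) * X := by
            rw [C_neg]; ring
        _ = X - C r := by rw [h1]; ring
    -- coefficients of the cofactor lie in `O`
    have hcoef : ∀ n, D₁c.coeff n ∈ O := by
      intro n
      induction n with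
      | zero =>
        have h := congrArg (fun p => Polynomial.coeff p 0) hfac
        simp only [Polynomial.mul_coeff_zero, Polynomial.coeff_sub, Polynomial.coeff_one_zero,
          Polynomial.coeff_X_zero, mul_zero, sub_zero, one_mul] at h
        rw [h, hDc, Polynomial.coeff_map]
        exact (D.coeff 0).2
      | succ n ih =>
        have h := congrArg (fun p => Polynomial.coeff p (n + 1)) hfac
        have h2 : ((1 - C (r⁻¹) * X) * D₁c).coeff (n + 1) =
            D₁c.coeff (n + 1) - r⁻¹ * D₁c.coeff n := by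
          rw [sub_mul, one_mul, Polynomial.coeff_sub, mul_assoc, Polynomial.coeff_C_mul,
            Polynomial.coeff_X_mul]
        simp only [h2] at h
        have h3 : D₁c.coeff (n + 1) = Dc.coeff (n + 1) + r⁻¹ * D₁c.coeff n := by
          rw [← h]; ring
        rw [h3]
        refine O.add_mem _ _ ?_ (O.mul_mem _ _ hsO ih)
        rw [hDc, Polynomial.coeff_map]
        exact (D.coeff (n + 1)).2
    have hlift : D₁c ∈ Polynomial.lifts (O.subtype : ↥O →+* Cf) := by
      rw [Polynomial.lifts_iff_coeff_lifts]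
      intro n
      exact ⟨⟨D₁c.coeff n, hcoef n⟩, rfl⟩
    obtain ⟨D₁, hD₁⟩ := hlift
    rw [Polynomial.coe_mapRingHom] at hD₁
    refine ⟨s, D₁, hsnu, hs0, ?_⟩
    apply Polynomial.map_injective _ hinj
    rw [Polynomial.map_mul, hD₁]
    show Dc = _
    rw [← hfac]
    congr 1
    simp only [Polynomial.map_sub, Polynomial.map_one, Polynomial.map_mul, Polynomial.map_C,
      Polynomial.map_X]
    rfl


variable (res : ↥O →+* k)

theorem rootRed_aux (hker : ∀ a : ↥O, res a = 0 ↔ ¬ IsUnit a) :
    ∀ (n : ℕ) (D : Polynomial ↥O), D.natDegree = n → D.map res ≠ 0 →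
      (∀ γ : k, (D.map res).IsRoot γ → ∃ ρ : ↥O, res ρ = γ ∧ D.IsRoot ρ) ∧
      (∀ ρ : ↥O, (∀ ρ' : ↥O, res ρ' = res ρ → D.IsRoot ρ' → ρ' = ρ) →
        (D.map res).rootMultiplicity (res ρ) = D.rootMultiplicity ρ) := by
  classical
  intro n
  induction n using Nat.strong_induction_on with
  | _ n ih =>
  intro D hn hD
  have hD0 : D ≠ 0 := fun h => hD (by rw [h, Polynomial.map_zero])
  by_cases hdeg : 0 < D.natDegree
  · rcases exists_factor O D hdeg with ⟨r, D₁, hfac⟩ | ⟨s, D₁, hsnu, hs0, hfac⟩
    · -- `D = (X - C r) * D₁`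
      have hD₁0 : D₁ ≠ 0 := right_ne_zero_of_mul (hfac ▸ hD0)
      have hmap : D.map res = (X - C (res r)) * D₁.map res := by
        rw [hfac]; simp
      have hD₁map : D₁.map res ≠ 0 := right_ne_zero_of_mul (hmap ▸ hD)
      have hdeg₁ : D₁.natDegree < n := by
        rw [← hn, hfac, Polynomial.natDegree_mul (Polynomial.X_sub_C_ne_zero r) hD₁0,
          Polynomial.natDegree_X_sub_C]
        omega
      obtain ⟨ih1, ih2⟩ := ih _ hdeg₁ D₁ rfl hD₁map
      have hroot : ∀ ρ' : ↥O, D₁.IsRoot ρ' → D.IsRoot ρ' := by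
        intro ρ' h
        rw [hfac]
        exact Polynomial.root_mul_left_of_isRoot _ h
      have hrroot : D.IsRoot r := by
        rw [hfac]
        exact Polynomial.root_mul_right_of_isRoot _ (Polynomial.root_X_sub_C.mpr rfl)
      constructor
      · intro γ hγ
        rw [hmap, Polynomial.IsRoot.def, Polynomial.eval_mul, mul_eq_zero] at hγ
        rcases hγ with h | h
        · refine ⟨r, ?_, hrroot⟩
          simp only [Polynomial.eval_sub, Polynomial.eval_X, Polynomial.eval_C] at h
          exact (sub_eq_zero.mp h).symm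
        · obtain ⟨ρ, hρ, hρr⟩ := ih1 γ h
          exact ⟨ρ, hρ, hroot ρ hρr⟩
      · intro ρ huniq
        have h2 := ih2 ρ (fun ρ' h1 h2 => huniq ρ' h1 (hroot ρ' h2))
        have e1 : (D.map res).rootMultiplicity (res ρ) =
            (X - C (res r) : Polynomial k).rootMultiplicity (res ρ) +
              (D₁.map res).rootMultiplicity (res ρ) := by
          rw [hmap]
          exact Polynomial.rootMultiplicity_mul (hmap ▸ hD)
        have e2 : D.rootMultiplicity ρ =
            (X - C r : Polynomial ↥O).rootMultiplicity ρ + D₁.rootMultiplicity ρ := by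
          conv_lhs => rw [hfac]
          exact Polynomial.rootMultiplicity_mul (hfac ▸ hD0)
        rw [e1, e2, h2, Polynomial.rootMultiplicity_X_sub_C, Polynomial.rootMultiplicity_X_sub_C]
        congr 1
        by_cases hρr : ρ = r
        · rw [if_pos hρr, if_pos (by rw [hρr])]
        · have : res ρ ≠ res r := fun h => hρr (huniq r h.symm hrroot).symm
          rw [if_neg hρr, if_neg this]
    · -- `D = (1 - C s * X) * D₁`
      have hD₁0 : D₁ ≠ 0 := right_ne_zero_of_mul (hfac ▸ hD0)
      have hs : res s = 0 := (hker s).mpr hsnu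
      have hmap : D.map res = D₁.map res := by
        rw [hfac]; simp [hs]
      have hD₁map : D₁.map res ≠ 0 := hmap ▸ hD
      have hlin0 : (1 - C s * X : Polynomial ↥O) ≠ 0 := left_ne_zero_of_mul (hfac ▸ hD0)
      have hlindeg : (1 - C s * X : Polynomial ↥O).natDegree = 1 := by
        have h1 : (1 - C s * X : Polynomial ↥O) = C (-s) * X + C 1 := by
          rw [C_neg, C_1]; ring
        rw [h1]
        exact Polynomial.natDegree_linear (neg_ne_zero.mpr hs0)
      have hdeg₁ : D₁.natDegree < n := by
        rw [← hn, hfac, Polynomial.natDegree_mul hlin0 hD₁0, hlindeg]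
        omega
      obtain ⟨ih1, ih2⟩ := ih _ hdeg₁ D₁ rfl hD₁map
      have hroot : ∀ ρ' : ↥O, D₁.IsRoot ρ' → D.IsRoot ρ' := by
        intro ρ' h
        rw [hfac]
        exact Polynomial.root_mul_left_of_isRoot _ h
      constructor
      · intro γ hγ
        rw [hmap] at hγ
        obtain ⟨ρ, hρ, hρr⟩ := ih1 γ hγ
        exact ⟨ρ, hρ, hroot ρ hρr⟩
      · intro ρ huniq
        have h2 := ih2 ρ (fun ρ' h1 h2 => huniq ρ' h1 (hroot ρ' h2))
        have e2 : D.rootMultiplicity ρ =
            (1 - C s * X : Polynomial ↥O).rootMultiplicity ρ + D₁.rootMultiplicity ρ := by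
          conv_lhs => rw [hfac]
          exact Polynomial.rootMultiplicity_mul (hfac ▸ hD0)
        have e3 : (1 - C s * X : Polynomial ↥O).rootMultiplicity ρ = 0 := by
          apply Polynomial.rootMultiplicity_eq_zero
          rw [Polynomial.IsRoot.def]
          simp only [Polynomial.eval_sub, Polynomial.eval_one, Polynomial.eval_mul,
            Polynomial.eval_C, Polynomial.eval_X]
          intro h
          -- `1 = s ρ` would make `s` a unit
          apply hsnu
          exact IsUnit.of_mul_eq_one ρ (sub_eq_zero.mp h).symm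
        rw [hmap, h2, e2, e3, zero_add]
  · -- degree zero
    have hdeg0 : D.natDegree = 0 := by omega
    obtain ⟨d, hd⟩ : ∃ d : ↥O, D = C d := ⟨_, Polynomial.eq_C_of_natDegree_eq_zero hdeg0⟩
    have hmap : D.map res = C (res d) := by rw [hd]; simp
    have hd0 : res d ≠ 0 := by
      intro h
      apply hD
      rw [hmap, h, C_0]
    constructor
    · intro γ hγ
      rw [hmap, Polynomial.IsRoot.def, Polynomial.eval_C] at hγ
      exact absurd hγ hd0
    · intro ρ _
      rw [hmap, hd, Polynomial.rootMultiplicity_C, Polynomial.rootMultiplicity_C]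

/-- **IG-P1**: reduction of roots. -/
theorem stmt_rootRed : H34.Stmt_rootRed := by
  intro Cf k _ _ _ O res _ hker D hD γ hγ
  obtain ⟨h1, h2⟩ := rootRed_aux O res hker D.natDegree D rfl hD
  obtain ⟨ρ, hρ, hρr⟩ := h1 γ hγ
  refine ⟨ρ, hρ, hρr, fun huniq => ?_⟩
  have := h2 ρ (fun ρ' h1' h2' => huniq ρ' (h1'.trans hρ) h2')
  rw [hρ] at this
  exact this

end Fermat.Agent.RED.H82
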