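import Fermat.Agent.RED.H34_ChartNil
import Fermat.Agent.RED.H82_TameDiscr
import Fermat.Agent.RED.H82_RootRed

/-!
# G-RED package IG (helper34): the chart theorem

`stmt_chartNormal_of_notDvdDet : Stmt_notDvdDet → Stmt_chartNormal`.

Inputs: `H82.stmt_rootRed` (reduction of roots), `H82.h82_tameDiscr` (tame discriminant bound),
`span_eq_of_discr_bound_order` (IG-core), `exists_good_basis`, `exists_discr_lift` (S6),
`exists_pow_eq_smul` (NIL), and (S5) = `Stmt_notDvdDet`.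
-/

set_option autoImplicit false

noncomputable section

open Polynomial IntermediateField Module Matrix
open scoped IntermediateField.algebraAdjoinAdjoin nonZeroDivisors

namespace Fermat.Agent.RED.H34

variable {C F k Ft : Type} [Field C] [Field F] [Algebra C F] [Field k] [Field Ft] [Algebra k Ft]

section Abstract

variable {x : F}

/-- Finitely many points lie over `x = ρ`. -/
theorem finite_ptsOver (hxC : Transcendental C x) {m : ℕ}
    (c : Module.Basis (Fin m) ↥(Algebra.adjoin C {x}) ↥(Bx (C := C) x)) (ρ : C) :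
    (ptsOver x ρ).Finite := by
  classical
  have : IsPrincipalIdealRing ↥(Algebra.adjoin C {x}) := isPrincipalIdealRing_adjoin hxC
  by_contra hinf
  obtain ⟨t, ht, htc⟩ := Set.Infinite.exists_subset_card_eq hinf (m + 1)
  have h := H82.h82_count (R := ↥(Algebra.adjoin C {x})) (B := ↥(Bx (C := C) x)) c (piRho x ρ)
    (prime_piRho hxC ρ) (∅ : Finset (Fin m)) (fun i hi => absurd hi (Finset.notMem_empty i)) t
    (fun P hP => (mem_ptsOver_iff x ρ P).1 (ht hP))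
  rw [htc, Finset.card_empty, Fintype.card_fin] at h
  omega

theorem not_piRho_dvd_natCast [CharZero C] (hxC : Transcendental C x) (ρ : C) (n : ℕ)
    (hn : n ≠ 0) : ¬ piRho x ρ ∣ (n : ↥(Algebra.adjoin C {x})) := by
  rw [← evAt_eq_zero_iff hxC, map_natCast]
  exact_mod_cast hn

/-- The tame bound at `x = ρ`. -/
theorem not_pow_dvd_discr [CharZero C] (hxC : Transcendental C x) [FiniteDimensional ↥C⟮x⟯ F]
    [Algebra.IsSeparable ↥C⟮x⟯ F] {m : ℕ}
    (c : Module.Basis (Fin m) ↥(Algebra.adjoin C {x}) ↥(Bx (C := C) x)) (ρ : C) :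
    ¬ piRho x ρ ^ (m - (ptsOver x ρ).ncard + 1) ∣ Algebra.discr ↥(Algebra.adjoin C {x}) c := by
  have : IsPrincipalIdealRing ↥(Algebra.adjoin C {x}) := isPrincipalIdealRing_adjoin hxC
  have h := H82.h82_tameDiscr ↥(Algebra.adjoin C {x}) ↥C⟮x⟯ F (Fin m) c (piRho x ρ)
    (prime_piRho hxC ρ) (not_piRho_dvd_natCast hxC ρ)
  have hset : {P : Ideal ↥(integralClosure ↥(Algebra.adjoin C {x}) F) |
      P.IsMaximal ∧ algebraMap ↥(Algebra.adjoin C {x}) ↥(integralClosure ↥(Algebra.adjoin C {x}) F)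
        (piRho x ρ) ∈ P} = ptsOver x ρ := by
    ext P
    exact (mem_ptsOver_iff x ρ P).symm
  rw [hset, Fintype.card_fin] at h
  exact h

end Abstract

/-- (S5), to be supplied: the transition matrix from a basis of `B` to the lifted good basis has
determinant prime to `x - ρ` for `ρ ∈ O`. -/
def Stmt_notDvdDet : Prop :=
  ∀ (C F k Ft : Type) [Field C] [Field F] [Algebra C F] [Field k] [Field Ft] [Algebra k Ft]
    [CharZero C] (S : RedSetting C F k Ft) (x : F) (hx : x ∈ S.V)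
    (_ : Transcendental k (S.red ⟨x, hx⟩)) [FiniteDimensional ↥C⟮x⟯ F]
    (_ : Module.finrank ↥k⟮S.red ⟨x, hx⟩⟯ Ft = Module.finrank ↥C⟮x⟯ F)
    (m : ℕ) (bF : Module.Basis (Fin m) ↥C⟮x⟯ F) (hbV : ∀ i, bF i ∈ S.V)
    (hbB : ∀ i, IsIntegral ↥(Algebra.adjoin C {x}) (bF i))
    (bt : Module.Basis (Fin m) ↥k⟮S.red ⟨x, hx⟩⟯ Ft) (_ : ∀ i, bt i = S.red ⟨bF i, hbV i⟩)
    (_ : ∀ y ∈ S.Bbar hx,
      y ∈ Submodule.span ↥(Algebra.adjoin k {S.red ⟨x, hx⟩}) (Set.range bt))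
    (c : Module.Basis (Fin m) ↥(Algebra.adjoin C {x}) ↥(Bx (C := C) x))
    (P : Matrix (Fin m) (Fin m) ↥(Algebra.adjoin C {x}))
    (_ : ∀ i, (⟨bF i, hbB i⟩ : ↥(Bx (C := C) x)) = ∑ j, P i j • c j)
    (ρ : C) (_ : ρ ∈ S.O), ¬ piRho x ρ ∣ P.det

namespace RedSetting

variable {S : RedSetting C F k Ft} {x : F} (hx : x ∈ S.V)

/-- The chart theorem, from (S5). -/
theorem chartNormal_aux [IsAlgClosed C] [CharZero C] [IsAlgClosed k] (hND : Stmt_notDvdDet)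
    (hxt : Transcendental k (S.red ⟨x, hx⟩)) [FiniteDimensional ↥C⟮x⟯ F]
    (hdeg : Module.finrank ↥k⟮S.red ⟨x, hx⟩⟯ Ft = Module.finrank ↥C⟮x⟯ F)
    [Algebra.IsSeparable ↥k⟮S.red ⟨x, hx⟩⟯ Ft]
    (hD : ∀ ρ ρ' : ↥(S.V.comap (algebraMap C F)), IsBranchValue x (ρ : C) →
      IsBranchValue x (ρ' : C) → S.resO ρ = S.resO ρ' → ρ = ρ')
    (y : Ft) (hy : IsIntegral ↥(Algebra.adjoin k {S.red ⟨x, hx⟩}) y) :
    ∃ f : ↥S.V, IsIntegral ↥(Algebra.adjoin C {x}) (f : F) ∧ S.red f = y := by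
  classical
  have hxC := transcendental_x hx hxt
  have hfdt := finiteDimensional_red hx hdeg
  have hpidt : IsPrincipalIdealRing ↥(Algebra.adjoin k {S.red ⟨x, hx⟩}) :=
    isPrincipalIdealRing_adjoin hxt
  have hpid : IsPrincipalIdealRing ↥(Algebra.adjoin C {x}) := isPrincipalIdealRing_adjoin hxC
  have hcz : CharZero ↥C⟮x⟯ := charZero_of_injective_algebraMap (algebraMap C ↥C⟮x⟯).injective
  have hsepC : Algebra.IsSeparable ↥C⟮x⟯ F := inferInstance
  obtain ⟨m, bF, hbV, bt, hbB, hbt, hspan⟩ := exists_good_basis hx hxt hdeg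
  obtain ⟨c, P, hP, hdisc⟩ :=
    exists_transition (R := ↥(Algebra.adjoin C {x})) (K := ↥C⟮x⟯) (L := F) bF hbB
  obtain ⟨D₀, hD₀, hd, hD₀ne⟩ := exists_discr_lift hx hxt bF hbV bt hbt _ hdisc
  have hm : Module.finrank ↥C⟮x⟯ F = m := by
    rw [Module.finrank_eq_card_basis bF, Fintype.card_fin]
  have hdet : ∀ ρ : ↥S.O, ¬ piRho x (ρ : C) ∣ P.det := fun ρ =>
    hND C F k Ft S x hx hxt hdeg m bF hbV hbB bt hbt hspan c P hP ρ ρ.2
  have hD₀0 : D₀ ≠ 0 := by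
    rintro rfl
    exact hD₀ne (Polynomial.map_zero _)
  -- roots of `D₀` in `O` are branch values
  have hroot_dvd : ∀ (ρ : ↥S.O) (N : ℕ), (Polynomial.X - Polynomial.C ρ) ^ N ∣ D₀ →
      piRho x (ρ : C) ^ N ∣ Algebra.discr ↥(Algebra.adjoin C {x}) c := by
    intro ρ N hN
    have h1 : piRho x (ρ : C) ^ N ∣ P.det ^ 2 * Algebra.discr ↥(Algebra.adjoin C {x}) c := by
      rw [← hD₀, psiR_eq, pow_dvd_polyEquiv_iff]
      have h2 := Polynomial.map_dvd S.O.subtype hN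
      rwa [Polynomial.map_pow, Polynomial.map_sub, Polynomial.map_X, Polynomial.map_C] at h2
    refine (prime_piRho hxC (ρ : C)).pow_dvd_of_dvd_mul_left N ?_ h1
    intro h3
    exact hdet ρ ((prime_piRho hxC (ρ : C)).dvd_of_dvd_pow h3)
  have hbranch : ∀ ρ : ↥S.O, D₀.IsRoot ρ → IsBranchValue x (ρ : C) := by
    intro ρ hρ
    have h1 := hroot_dvd ρ 1 (by rw [pow_one]; exact Polynomial.dvd_iff_isRoot.2 hρ)
    have h2 := not_pow_dvd_discr hxC c (ρ : C)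
    unfold IsBranchValue
    rw [hm]
    by_contra hlt
    rw [not_lt] at hlt
    rw [Nat.sub_eq_zero_of_le hlt, zero_add] at h2
    exact h2 h1
  have hbtint : ∀ i, IsIntegral ↥(Algebra.adjoin k {S.red ⟨x, hx⟩}) (bt i) := by
    intro i
    rw [hbt i]
    exact red_isIntegral hx hxt hdeg _ (hbB i) (hbV i)
  -- the main claim
  have hmain : ∀ y : Ft, IsIntegral ↥(Algebra.adjoin k {S.red ⟨x, hx⟩}) y →
      y ∈ Submodule.span ↥(Algebra.adjoin k {S.red ⟨x, hx⟩}) (Set.range bt) := by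
    refine span_eq_of_discr_bound_order (R := ↥(Algebra.adjoin k {S.red ⟨x, hx⟩}))
      (K := ↥k⟮S.red ⟨x, hx⟩⟯) (L := Ft) bt hbtint (S.psiT hx D₀) hd ?_
    intro π hπ hπd
    obtain ⟨γ, a, ha, rfl⟩ := exists_eq_of_prime hxt π hπ
    have hdvdπ : piRho (S.red ⟨x, hx⟩) γ ∣
        algebraMap k ↥(Algebra.adjoin k {S.red ⟨x, hx⟩}) a * piRho (S.red ⟨x, hx⟩) γ :=
      Dvd.intro_left _ rfl
    have hγroot : (D₀.map S.resO).IsRoot γ := by
      rw [← dvd_polyEquiv_iff hxt, ← psiT_eq hx hxt]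
      exact hdvdπ.trans hπd
    obtain ⟨ρ₀, rfl, hρroot, hmult⟩ := H82.stmt_rootRed C k S.O S.resO S.resO_surj
      S.resO_eq_zero_iff D₀ hD₀ne γ hγroot
    have hmult' := hmult (fun ρ' hρ' hroot' =>
      hD ρ' ρ₀ (hbranch ρ' hroot') (hbranch ρ₀ hρroot) hρ')
    -- enumerate the points
    have hfin := finite_ptsOver hxC c (ρ₀ : C)
    have : Finite ↥(ptsOver x (ρ₀ : C)) := hfin
    set r := (ptsOver x (ρ₀ : C)).ncard with hr
    have hcard : Nat.card ↥(ptsOver x (ρ₀ : C)) = r := Nat.card_coe_set_eq _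
    let e : ↥(ptsOver x (ρ₀ : C)) ≃ Fin r := (Finite.equivFin _).trans (finCongr hcard)
    let pt : Fin r → Ideal ↥(Bx (C := C) x) := fun t => ((e.symm t : ↥(ptsOver x (ρ₀ : C))) : _)
    have hpt : ∀ t, pt t ∈ ptsOver x (ρ₀ : C) := fun t => (e.symm t).2
    have hall : ∀ Q ∈ ptsOver x (ρ₀ : C), ∃ t, pt t = Q := fun Q hQ =>
      ⟨e ⟨Q, hQ⟩, by simp [pt]⟩
    let Λ : Matrix (Fin r) (Fin m) ↥(Algebra.adjoin k {S.red ⟨x, hx⟩}) :=
      Matrix.of fun t i => algebraMap k ↥(Algebra.adjoin k {S.red ⟨x, hx⟩})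
        (S.resO ⟨evP (hpt t) ⟨bF i, hbB i⟩,
          evP_mem_O hx hxt hdeg ρ₀.2 (hpt t) ⟨bF i, hbB i⟩ (hbV i)⟩)
    refine ⟨r, Λ, ?_, ?_⟩
    · intro v hv
      obtain ⟨n, z, hz, hpow⟩ := exists_pow_eq_smul hx hxt hdeg (fun i => bF i) hbV hbB (ρ₀ : C)
        ρ₀.2 pt hpt hall v (fun t => hdvdπ.trans (hv t))
      refine ⟨n, algebraMap k ↥(Algebra.adjoin k {S.red ⟨x, hx⟩}) a⁻¹ • z, hz.smul _, ?_⟩
      have h1 : (∑ i, v i • bt i) = ∑ i, v i • S.red ⟨bF i, hbV i⟩ :=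
        Finset.sum_congr rfl fun i _ => by rw [hbt i]
      rw [h1, hpow, smul_smul]
      congr 1
      rw [mul_comm, ← mul_assoc, ← map_mul, inv_mul_cancel₀ ha, map_one, one_mul]
    · intro hpow
      rw [Fintype.card_fin] at hpow
      have h1 : piRho (S.red ⟨x, hx⟩) (S.resO ρ₀) ^ (m - r + 1) ∣ S.psiT hx D₀ :=
        (pow_dvd_pow_of_dvd hdvdπ _).trans hpow
      rw [psiT_eq hx hxt, pow_dvd_polyEquiv_iff, ← Polynomial.le_rootMultiplicity_iff hD₀ne,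
        hmult', Polynomial.le_rootMultiplicity_iff hD₀0] at h1
      exact not_pow_dvd_discr hxC c (ρ₀ : C) (hroot_dvd ρ₀ _ h1)
  -- conclusion
  have hle : Submodule.span ↥(Algebra.adjoin k {S.red ⟨x, hx⟩}) (Set.range bt) ≤ S.Bbar hx := by
    rw [Submodule.span_le]
    rintro _ ⟨i, rfl⟩
    exact (mem_Bbar hx _).2 ⟨bF i, hbV i, hbB i, (hbt i).symm⟩
  obtain ⟨f, hf, hfi, hfr⟩ := (mem_Bbar hx y).1 (hle (hmain y hy))
  exact ⟨⟨f, hf⟩, hfi, hfr⟩

end RedSetting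

/-- **Chart theorem** (modulo (S5)). -/
theorem stmt_chartNormal_of_notDvdDet (hND : Stmt_notDvdDet) : Stmt_chartNormal := by
  intro C F k Ft _ _ _ _ _ _ _ _ _ S x hx hxt hfin hdeg hsep hD y hy
  exact RedSetting.chartNormal_aux hx hND hxt hdeg hD y hy

end Fermat.Agent.RED.H34
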