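import Fermat.Agent.RED.H34_Bbar

/-!
# G-RED package IG (helper34): data for the chart theorem

* `exists_transition` : transition matrix from an integral `K`-basis to an `R`-basis of the
  integral closure, with the discriminant relation `disc b = det P ^ 2 * disc c`.
* `RedSetting.exists_good_basis` : a `k[xt]`-basis `bt` of the reduced order `Bbar = red (B ∩ V)`
  with a lift `bF` to a `C(x)`-basis of `F` inside `B ∩ V`.
* `RedSetting.exists_discr_lift` (S6) : the discriminant of `bF` lies in `O[x]` and reduces to the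
  discriminant of `bt`.
-/

set_option autoImplicit false

noncomputable section

open Polynomial IntermediateField Module Matrix
open scoped IntermediateField.algebraAdjoinAdjoin nonZeroDivisors

namespace Fermat.Agent.RED.H34

/-- Transition from an integral `K`-basis to an `R`-basis of the integral closure. -/
theorem exists_transition {R K L : Type} [CommRing R] [IsDomain R]
    [IsPrincipalIdealRing R] [Field K] [Field L] [Algebra R K] [IsFractionRing R K] [Algebra K L]
    [Algebra R L] [IsScalarTower R K L] [FiniteDimensional K L] [Algebra.IsSeparable K L]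
    {ι : Type} [Fintype ι] [DecidableEq ι] (b : Module.Basis ι K L)
    (hb : ∀ i, IsIntegral R (b i)) :
    ∃ (c : Module.Basis ι R ↥(integralClosure R L)) (P : Matrix ι ι R),
      (∀ i, (⟨b i, hb i⟩ : ↥(integralClosure R L)) = ∑ j, P i j • c j) ∧
      algebraMap R K (P.det ^ 2 * Algebra.discr R c) = Algebra.discr K b := by
  classical
  have hinj : Function.Injective (algebraMap R L) := by
    rw [IsScalarTower.algebraMap_eq R K L]
    exact (algebraMap K L).injective.comp (IsFractionRing.injective R K)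
  have htf : Module.IsTorsionFree R L := by
    rw [Module.isTorsionFree_iff_algebraMap_injective]
    exact hinj
  have hfree : Module.Free R (integralClosure R L) :=
    IsIntegralClosure.module_free R K L (integralClosure R L)
  have hfin : Module.Finite R (integralClosure R L) :=
    IsIntegralClosure.finite R K L (integralClosure R L)
  have hrank : Module.finrank R (integralClosure R L) = Fintype.card ι := by
    rw [IsIntegralClosure.rank R K L (integralClosure R L), Module.finrank_eq_card_basis b]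
  let c : Module.Basis ι R (integralClosure R L) :=
    (Module.finBasisOfFinrankEq R (integralClosure R L) hrank).reindex (Fintype.equivFin ι).symm
  have hloc : IsLocalization (Algebra.algebraMapSubmonoid (integralClosure R L) R⁰) L :=
    IsIntegralClosure.isLocalization R K L (integralClosure R L)
  let cK : Module.Basis ι K L := c.localizationLocalization K R⁰ L
  have hcK : ∀ i, cK i = (c i : L) := fun i => by
    simp [cK, Module.Basis.localizationLocalization_apply]
  let bB : ι → integralClosure R L := fun i => ⟨b i, hb i⟩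
  let P : Matrix ι ι R := Matrix.of fun i j => c.repr (bB i) j
  have hbB : ∀ i, bB i = ∑ j, P i j • c j := fun i => (c.sum_repr (bB i)).symm
  have hbP : ∀ i, b i = ∑ j, P i j • (c j : L) := by
    intro i
    have h2 := congrArg (fun z : integralClosure R L => (z : L)) (hbB i)
    simp only [AddSubmonoidClass.coe_finsetSum, Subalgebra.coe_smul] at h2
    exact h2
  have hbP' : (b : ι → L) =
      ((P.map (algebraMap R K)).map (algebraMap K L)) *ᵥ (cK : ι → L) := by
    ext i
    rw [hbP i]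
    simp only [Matrix.mulVec, dotProduct, Matrix.map_apply, hcK]
    refine Finset.sum_congr rfl fun j _ => ?_
    rw [← IsScalarTower.algebraMap_apply, Algebra.smul_def]
  refine ⟨c, P, hbB, ?_⟩
  rw [hbP', Algebra.discr_of_matrix_mulVec, Algebra.discr_localizationLocalization R R⁰ L c,
    map_mul, map_pow, RingHom.map_det, RingHom.mapMatrix_apply]

variable {C F k Ft : Type} [Field C] [Field F] [Algebra C F] [Field k] [Field Ft] [Algebra k Ft]

namespace RedSetting

variable {S : RedSetting C F k Ft} {x : F} (hx : x ∈ S.V)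

theorem finiteDimensional_red [FiniteDimensional ↥C⟮x⟯ F]
    (hdeg : Module.finrank ↥k⟮S.red ⟨x, hx⟩⟯ Ft = Module.finrank ↥C⟮x⟯ F) :
    FiniteDimensional ↥k⟮S.red ⟨x, hx⟩⟯ Ft := by
  apply Module.finite_of_finrank_pos
  rw [hdeg]
  exact Module.finrank_pos

/-- A basis of `Ft` over `k(xt)` generating the reduced order `Bbar` over `k[xt]`, together with a
lift to a `C(x)`-basis of `F` contained in `B ∩ V`. -/
theorem exists_good_basis [CharZero C] (hxt : Transcendental k (S.red ⟨x, hx⟩))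
    [FiniteDimensional ↥C⟮x⟯ F]
    (hdeg : Module.finrank ↥k⟮S.red ⟨x, hx⟩⟯ Ft = Module.finrank ↥C⟮x⟯ F)
    [Algebra.IsSeparable ↥k⟮S.red ⟨x, hx⟩⟯ Ft] :
    ∃ (m : ℕ) (bF : Module.Basis (Fin m) ↥C⟮x⟯ F) (hbV : ∀ i, bF i ∈ S.V)
      (bt : Module.Basis (Fin m) ↥k⟮S.red ⟨x, hx⟩⟯ Ft),
      (∀ i, IsIntegral ↥(Algebra.adjoin C {x}) (bF i)) ∧
      (∀ i, bt i = S.red ⟨bF i, hbV i⟩) ∧
      ∀ y ∈ S.Bbar hx, y ∈ Submodule.span ↥(Algebra.adjoin k {S.red ⟨x, hx⟩}) (Set.range bt) := by
  classical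
  have := finiteDimensional_red hx hdeg
  have : IsPrincipalIdealRing ↥(Algebra.adjoin k {S.red ⟨x, hx⟩}) :=
    isPrincipalIdealRing_adjoin hxt
  obtain ⟨m, bt, hbt, hspan⟩ := exists_basis_of_le_integralClosure
    (R := ↥(Algebra.adjoin k {S.red ⟨x, hx⟩})) (K := ↥k⟮S.red ⟨x, hx⟩⟯) (L := Ft)
    (S.Bbar hx) (Bbar_isIntegral hx hxt hdeg) (Bbar_span hx hxt)
  choose f hfV hfi hfr using fun i => (mem_Bbar hx (bt i)).1 (hbt i)
  have hlin : LinearIndependent ↥k⟮S.red ⟨x, hx⟩⟯ (fun i => S.red ⟨f i, hfV i⟩) := by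
    have h1 : (fun i => S.red ⟨f i, hfV i⟩) = bt := funext hfr
    rw [h1]
    exact bt.linearIndependent
  have hlinF : LinearIndependent ↥C⟮x⟯ f := linearIndependent_lift hx f hfV hxt hlin
  have hcard : Fintype.card (Fin m) = Module.finrank ↥C⟮x⟯ F := by
    rw [← hdeg, Module.finrank_eq_card_basis bt]
  have hm : 0 < m := by
    have h1 : 0 < Module.finrank ↥C⟮x⟯ F := Module.finrank_pos
    rw [← hcard, Fintype.card_fin] at h1
    exact h1
  have : Nonempty (Fin m) := ⟨⟨0, hm⟩⟩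
  let bF : Module.Basis (Fin m) ↥C⟮x⟯ F := basisOfLinearIndependentOfCardEqFinrank hlinF hcard
  have hbF : ∀ i, bF i = f i := fun i => by
    simp [bF]
  refine ⟨m, bF, fun i => by rw [hbF i]; exact hfV i, bt, fun i => by rw [hbF i]; exact hfi i,
    fun i => ?_, hspan⟩
  rw [← hfr i]
  congr 1
  exact Subtype.ext (hbF i).symm

theorem psiT_eq (hxt : Transcendental k (S.red ⟨x, hx⟩)) (p₀ : (↥S.O)[X]) :
    S.psiT hx p₀ = polyEquiv hxt (p₀.map S.resO) := by
  apply Subtype.ext
  rw [coe_psiT, red_psi, coe_polyEquiv]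

theorem psiR_eq (hxC : Transcendental C x) (p₀ : (↥S.O)[X]) :
    S.psiR hxC p₀ = polyEquiv hxC (p₀.map S.O.subtype) := rfl

theorem psiT_eq_zero_iff (hxt : Transcendental k (S.red ⟨x, hx⟩)) (p₀ : (↥S.O)[X]) :
    S.psiT hx p₀ = 0 ↔ p₀.map S.resO = 0 := by
  rw [psiT_eq hx hxt]
  exact EmbeddingLike.map_eq_zero_iff

/-- (S6) the discriminant of the lifted basis comes from `O[X]` and reduces to the discriminant
of the reduced basis. -/
theorem exists_discr_lift (hxt : Transcendental k (S.red ⟨x, hx⟩))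
    [FiniteDimensional ↥k⟮S.red ⟨x, hx⟩⟯ Ft] [Algebra.IsSeparable ↥k⟮S.red ⟨x, hx⟩⟯ Ft]
    {ι : Type} [Fintype ι] [DecidableEq ι]
    (bF : Module.Basis ι ↥C⟮x⟯ F) (hbV : ∀ i, bF i ∈ S.V)
    (bt : Module.Basis ι ↥k⟮S.red ⟨x, hx⟩⟯ Ft) (hbt : ∀ i, bt i = S.red ⟨bF i, hbV i⟩)
    (D : ↥(Algebra.adjoin C {x}))
    (hD : algebraMap ↥(Algebra.adjoin C {x}) ↥C⟮x⟯ D = Algebra.discr ↥C⟮x⟯ bF) :
    ∃ D₀ : (↥S.O)[X], S.psiR (transcendental_x hx hxt) D₀ = D ∧
      algebraMap ↥(Algebra.adjoin k {S.red ⟨x, hx⟩}) ↥k⟮S.red ⟨x, hx⟩⟯ (S.psiT hx D₀) =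
        Algebra.discr ↥k⟮S.red ⟨x, hx⟩⟯ bt ∧ D₀.map S.resO ≠ 0 := by
  classical
  have hxC := transcendental_x hx hxt
  obtain ⟨δ, hδ, hδr⟩ := discr_red hx bF hbV bt hbt hxt
  have hDF : ((D : ↥(Algebra.adjoin C {x})) : F) = (((δ : ↥(S.Vx x)) : ↥C⟮x⟯) : F) := by
    rw [hδ, ← hD]
    rfl
  have hDV : ((D : ↥(Algebra.adjoin C {x})) : F) ∈ S.V := by
    rw [hDF]
    exact δ.2
  obtain ⟨D₀, hD₀⟩ := exists_psiR_eq hx hxt hxC D hDV
  have hpsi : psi hx D₀ = ⟨(((δ : ↥(S.Vx x)) : ↥C⟮x⟯) : F), δ.2⟩ := by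
    apply Subtype.ext
    rw [← coe_psiR hx hxC, hD₀, hDF]
  have h1 : algebraMap ↥(Algebra.adjoin k {S.red ⟨x, hx⟩}) ↥k⟮S.red ⟨x, hx⟩⟯ (S.psiT hx D₀) =
      Algebra.discr ↥k⟮S.red ⟨x, hx⟩⟯ bt := by
    rw [← hδr]
    apply Subtype.ext
    rw [coe_redx]
    show ((S.psiT hx D₀ : ↥(Algebra.adjoin k {S.red ⟨x, hx⟩})) : Ft) = _
    rw [coe_psiT, hpsi]
  refine ⟨D₀, hD₀, h1, ?_⟩
  intro h0
  have h2 : S.psiT hx D₀ = 0 := (psiT_eq_zero_iff hx hxt D₀).2 h0
  rw [h2, map_zero] at h1
  exact Algebra.discr_not_zero_of_basis ↥k⟮S.red ⟨x, hx⟩⟯ bt h1.symm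

end RedSetting

end Fermat.Agent.RED.H34
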