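import Fermat.Agent.RED.H34_ChartFinal

set_option autoImplicit false

noncomputable section

open Polynomial IntermediateField Module Matrix
open scoped IntermediateField.algebraAdjoinAdjoin nonZeroDivisors

namespace Fermat.Agent.RED.H34

variable {C F k Ft : Type} [Field C] [Field F] [Algebra C F] [Field k] [Field Ft] [Algebra k Ft]

section Abstract

variable {x : F}

/-- The value at a point over `ρ` of an element of `C[x]` is its value at `ρ`. -/
theorem evP_algebraMap_Rx [IsAlgClosed C] (hxC : Transcendental C x) {ρ : C}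
    {P : Ideal ↥(Bx (C := C) x)} (hP : P ∈ ptsOver x ρ) (a : ↥(Algebra.adjoin C {x})) :
    evP hP (algebraMap ↥(Algebra.adjoin C {x}) ↥(Bx (C := C) x) a) = evAt hxC ρ a := by
  obtain ⟨p, rfl⟩ := (polyEquiv hxC).surjective a
  rw [evAt_polyEquiv]
  induction p using Polynomial.induction_on' with
  | add p q hp hq =>
    rw [map_add (polyEquiv hxC), RingHom.map_add, RingHom.map_add, hp, hq, Polynomial.eval_add]
  | monomial n c =>
    rw [← Polynomial.C_mul_X_pow_eq_monomial, map_mul (polyEquiv hxC), map_pow (polyEquiv hxC),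
      polyEquiv_C, polyEquiv_X, RingHom.map_mul, RingHom.map_pow, RingHom.map_mul,
      RingHom.map_pow, evP_genX, Polynomial.eval_mul, Polynomial.eval_pow,
      Polynomial.eval_C, Polynomial.eval_X]
    congr 1
    exact evP_algebraMap hP c

theorem sub_evAt_mem (hxC : Transcendental C x) (ρ : C) (a : ↥(Algebra.adjoin C {x})) :
    a - algebraMap C ↥(Algebra.adjoin C {x}) (evAt hxC ρ a) ∈ Ideal.span {piRho x ρ} := by
  rw [Ideal.mem_span_singleton, ← evAt_eq_zero_iff hxC, map_sub, evAt_algebraMap, sub_self]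

/-- Enumeration of the points over `ρ`. -/
theorem exists_enum_ptsOver (hxC : Transcendental C x) {m : ℕ}
    (c : Module.Basis (Fin m) ↥(Algebra.adjoin C {x}) ↥(Bx (C := C) x)) (ρ : C) :
    ∃ pt : Fin (ptsOver x ρ).ncard → Ideal ↥(Bx (C := C) x),
      Function.Injective pt ∧ (∀ t, pt t ∈ ptsOver x ρ) ∧ ∀ Q ∈ ptsOver x ρ, ∃ t, pt t = Q := by
  classical
  have hfin := finite_ptsOver hxC c ρ
  have : Finite ↥(ptsOver x ρ) := hfin
  have hcard : Nat.card ↥(ptsOver x ρ) = (ptsOver x ρ).ncard := Nat.card_coe_set_eq _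
  let e : ↥(ptsOver x ρ) ≃ Fin (ptsOver x ρ).ncard := (Finite.equivFin _).trans (finCongr hcard)
  refine ⟨fun t => ((e.symm t : ↥(ptsOver x ρ)) : _), ?_, fun t => (e.symm t).2, fun Q hQ =>
    ⟨e ⟨Q, hQ⟩, by simp⟩⟩
  intro t t' h
  exact e.symm.injective (Subtype.ext h)

theorem ncard_ptsOver_le (hxC : Transcendental C x) {m : ℕ}
    (c : Module.Basis (Fin m) ↥(Algebra.adjoin C {x}) ↥(Bx (C := C) x)) (ρ : C) :
    (ptsOver x ρ).ncard ≤ m := by
  classical
  have : IsPrincipalIdealRing ↥(Algebra.adjoin C {x}) := isPrincipalIdealRing_adjoin hxC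
  have hfin := finite_ptsOver hxC c ρ
  rw [Set.ncard_eq_toFinset_card _ hfin]
  have h := H82.h82_count (R := ↥(Algebra.adjoin C {x})) (B := ↥(Bx (C := C) x)) c (piRho x ρ)
    (prime_piRho hxC ρ) (∅ : Finset (Fin m)) (fun i hi => absurd hi (Finset.notMem_empty i))
    hfin.toFinset (fun P hP => (mem_ptsOver_iff x ρ P).1 ((Set.Finite.mem_toFinset hfin).1 hP))
  rw [Finset.card_empty, Fintype.card_fin, zero_add] at h
  exact h

/-- **Dedekind's bound**: `ord_{x - ρ} disc ≥ n - r`, `r` the number of points over `ρ`. -/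
theorem pow_dvd_discr_ptsOver [IsAlgClosed C] (hxC : Transcendental C x) {m : ℕ}
    (c : Module.Basis (Fin m) ↥(Algebra.adjoin C {x}) ↥(Bx (C := C) x)) (ρ : C) :
    piRho x ρ ^ (m - (ptsOver x ρ).ncard) ∣ Algebra.discr ↥(Algebra.adjoin C {x}) c := by
  classical
  have hpid : IsPrincipalIdealRing ↥(Algebra.adjoin C {x}) := isPrincipalIdealRing_adjoin hxC
  have hπ := prime_piRho hxC ρ
  haveI hmax : (Ideal.span {piRho x ρ}).IsMaximal :=
    PrincipalIdealRing.isMaximal_of_irreducible hπ.irreducible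
  obtain ⟨pt, -, hpt, hall⟩ := exists_enum_ptsOver hxC c ρ
  let g : ↥(Bx (C := C) x) →ₗ[↥(Algebra.adjoin C {x})]
      (Fin (ptsOver x ρ).ncard → ↥(Algebra.adjoin C {x}) ⧸ Ideal.span {piRho x ρ}) :=
    { toFun := fun y t => Ideal.Quotient.mk _ (algebraMap C ↥(Algebra.adjoin C {x}) (evP (hpt t) y))
      map_add' := fun y z => by
        ext t
        show Ideal.Quotient.mk _ (algebraMap C ↥(Algebra.adjoin C {x}) (evP (hpt t) (y + z))) =
          Ideal.Quotient.mk _ (algebraMap C ↥(Algebra.adjoin C {x}) (evP (hpt t) y)) +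
          Ideal.Quotient.mk _ (algebraMap C ↥(Algebra.adjoin C {x}) (evP (hpt t) z))
        rw [(evP (hpt t)).map_add, RingHom.map_add, RingHom.map_add]
      map_smul' := fun a y => by
        ext t
        show Ideal.Quotient.mk _ (algebraMap C ↥(Algebra.adjoin C {x}) (evP (hpt t) (a • y))) =
          Ideal.Quotient.mk _ (a * algebraMap C ↥(Algebra.adjoin C {x}) (evP (hpt t) y))
        rw [Algebra.smul_def, (evP (hpt t)).map_mul, evP_algebraMap_Rx hxC, RingHom.map_mul,
          Ideal.Quotient.eq, ← sub_mul]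
        refine Ideal.mul_mem_right _ _ ?_
        have := sub_evAt_mem hxC ρ a
        rw [← neg_sub]
        exact neg_mem this }
  have hg : ∀ y, g y = 0 → ∃ e, y ^ e ∈ Ideal.span
      {algebraMap ↥(Algebra.adjoin C {x}) ↥(Bx (C := C) x) (piRho x ρ)} := by
    intro y hy
    apply pow_mem_of_forall_mem
    intro Q hQ
    obtain ⟨t, rfl⟩ := hall Q hQ
    have h1 := congrFun hy t
    change Ideal.Quotient.mk _ (algebraMap C ↥(Algebra.adjoin C {x}) (evP (hpt t) y)) = 0 at h1
    rw [Ideal.Quotient.eq_zero_iff_mem, Ideal.mem_span_singleton, ← evAt_eq_zero_iff hxC,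
      evAt_algebraMap] at h1
    exact (evP_eq_zero_iff (hpt t) y).1 h1
  have h := pow_dvd_discr_of_linearMap c (piRho x ρ) hπ g hg
  rwa [Fintype.card_fin] at h

end Abstract

end Fermat.Agent.RED.H34
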