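import Fermat.Agent.RED.H34_ChartFinal
import Fermat.Agent.RED.H34_FibB

set_option autoImplicit false

noncomputable section

open Polynomial IntermediateField Module Matrix
open scoped IntermediateField.algebraAdjoinAdjoin nonZeroDivisors

namespace Fermat.Agent.RED.H34

variable {C F k Ft : Type} [Field C] [Field F] [Algebra C F] [Field k] [Field Ft] [Algebra k Ft]

theorem card_le_of_ker_le {κ : Type} [Field κ] {m r s : ℕ}
    (Φ : (Fin m → κ) →ₗ[κ] (Fin r → κ)) (Ψ : (Fin m → κ) →ₗ[κ] (Fin s → κ))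
    (hker : LinearMap.ker Φ ≤ LinearMap.ker Ψ) (hsurj : Function.Surjective Ψ) : s ≤ r := by
  have h1 := LinearMap.finrank_range_add_finrank_ker Φ
  have h2 := LinearMap.finrank_range_add_finrank_ker Ψ
  have h3 : Module.finrank κ (LinearMap.range Ψ) = s := by
    rw [LinearMap.range_eq_top.2 hsurj, finrank_top, Module.finrank_fin_fun]
  have h4 : Module.finrank κ (LinearMap.range Φ) ≤ r := by
    have := Submodule.finrank_le (LinearMap.range Φ)
    rwa [Module.finrank_fin_fun] at this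
  have h5 := Submodule.finrank_mono hker
  omega

section Abstract

variable {x : F}

/-- CRT at the points over `ρ`: prescribed values. -/
theorem exists_evP_eq [IsAlgClosed C] {ρ : C} {s : ℕ} (qt : Fin s → Ideal ↥(Bx (C := C) x))
    (hinj : Function.Injective qt) (hqt : ∀ j, qt j ∈ ptsOver x ρ) (w : Fin s → C) :
    ∃ y : ↥(Bx (C := C) x), ∀ j, evP (hqt j) y = w j := by
  have hcop : Pairwise (Function.onFun IsCoprime qt) := by
    intro i j hij
    haveI := (hqt i).1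
    haveI := (hqt j).1
    exact Ideal.isCoprime_of_isMaximal (fun h => hij (hinj h))
  obtain ⟨y, hy⟩ := Ideal.exists_forall_sub_mem_ideal hcop
    (fun j => algebraMap C ↥(Bx (C := C) x) (w j))
  exact ⟨y, fun j => evP_eq_of_mem (hqt j) y (w j) (hy j)⟩

end Abstract

namespace RedSetting

variable {S : RedSetting C F k Ft} {x : F} (hx : x ∈ S.V)

/-- **(FIB ≤)** the fibre of the reduced chart over `γ = ρ mod m` has at most as many points as
the fibre of the chart over `ρ`. -/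
theorem ncard_ptsOver_red_le [IsAlgClosed C] [CharZero C] [IsAlgClosed k]
    (hxt : Transcendental k (S.red ⟨x, hx⟩)) [FiniteDimensional ↥C⟮x⟯ F]
    (hdeg : Module.finrank ↥k⟮S.red ⟨x, hx⟩⟯ Ft = Module.finrank ↥C⟮x⟯ F)
    [Algebra.IsSeparable ↥k⟮S.red ⟨x, hx⟩⟯ Ft]
    (hcn : ∀ y : Ft, IsIntegral ↥(Algebra.adjoin k {S.red ⟨x, hx⟩}) y →
      ∃ f : ↥S.V, IsIntegral ↥(Algebra.adjoin C {x}) (f : F) ∧ S.red f = y)
    (ρ : ↥S.O) :
    (ptsOver (S.red ⟨x, hx⟩) (S.resO ρ)).ncard ≤ (ptsOver x (ρ : C)).ncard := by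
  classical
  have hxC := transcendental_x hx hxt
  have hfdt := finiteDimensional_red hx hdeg
  have hpidt : IsPrincipalIdealRing ↥(Algebra.adjoin k {S.red ⟨x, hx⟩}) :=
    isPrincipalIdealRing_adjoin hxt
  have hpid : IsPrincipalIdealRing ↥(Algebra.adjoin C {x}) := isPrincipalIdealRing_adjoin hxC
  have hcz : CharZero ↥C⟮x⟯ := charZero_of_injective_algebraMap (algebraMap C ↥C⟮x⟯).injective
  have hsepC : Algebra.IsSeparable ↥C⟮x⟯ F := inferInstance
  obtain ⟨m, bF, hbV, bt, hbB, hbt, hspan⟩ := exists_good_basis hx hxt hdeg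
  obtain ⟨c, P, hP, hdisc⟩ :=
    exists_transition (R := ↥(Algebra.adjoin C {x})) (K := ↥C⟮x⟯) (L := F) bF hbB
  have hbtint : ∀ i, IsIntegral ↥(Algebra.adjoin k {S.red ⟨x, hx⟩}) (bt i) := by
    intro i
    rw [hbt i]
    exact red_isIntegral hx hxt hdeg _ (hbB i) (hbV i)
  obtain ⟨ct, Pt, hPt, hdisct⟩ :=
    exists_transition (R := ↥(Algebra.adjoin k {S.red ⟨x, hx⟩})) (K := ↥k⟮S.red ⟨x, hx⟩⟯)
      (L := Ft) bt hbtint
  have hmain : ∀ y : Ft, IsIntegral ↥(Algebra.adjoin k {S.red ⟨x, hx⟩}) y →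
      y ∈ Submodule.span ↥(Algebra.adjoin k {S.red ⟨x, hx⟩}) (Set.range bt) := by
    intro y hy
    obtain ⟨f, hfi, hfr⟩ := hcn y hy
    exact hspan y ((mem_Bbar hx y).2 ⟨f, f.2, hfi, hfr⟩)
  obtain ⟨pt, -, hpt, hall⟩ := exists_enum_ptsOver hxC c (ρ : C)
  set γ := S.resO ρ with hγ
  obtain ⟨qt, hqinj, hqt, -⟩ := exists_enum_ptsOver hxt ct γ
  -- the two evaluation maps
  let lam : Fin (ptsOver x (ρ : C)).ncard → Fin m → k := fun t i =>
    S.resO ⟨evP (hpt t) ⟨bF i, hbB i⟩, evP_mem_O hx hxt hdeg ρ.2 (hpt t) ⟨bF i, hbB i⟩ (hbV i)⟩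
  let mu : Fin (ptsOver (S.red ⟨x, hx⟩) γ).ncard → Fin m → k := fun j i =>
    evP (hqt j) ⟨bt i, hbtint i⟩
  let Φ : (Fin m → k) →ₗ[k] (Fin (ptsOver x (ρ : C)).ncard → k) :=
    Matrix.mulVecLin (Matrix.of lam)
  let Ψ : (Fin m → k) →ₗ[k] (Fin (ptsOver (S.red ⟨x, hx⟩) γ).ncard → k) :=
    Matrix.mulVecLin (Matrix.of mu)
  have hΦ : ∀ a t, Φ a t = ∑ i, lam t i * a i := fun a t => rfl
  have hΨ : ∀ a j, Ψ a j = ∑ i, mu j i * a i := fun a j => rfl
  -- value of a combination at a point of the reduced chart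
  have hval : ∀ (v : Fin m → ↥(Algebra.adjoin k {S.red ⟨x, hx⟩})) (yB : ↥(Bx (C := k) (S.red ⟨x, hx⟩)))
      (_ : (yB : Ft) = ∑ i, v i • bt i) (j : Fin (ptsOver (S.red ⟨x, hx⟩) γ).ncard),
      evP (hqt j) yB = ∑ i, mu j i * evAt hxt γ (v i) := by
    intro v yB hyB j
    have h1 : yB = ∑ i, algebraMap ↥(Algebra.adjoin k {S.red ⟨x, hx⟩})
        ↥(Bx (C := k) (S.red ⟨x, hx⟩)) (v i) * ⟨bt i, hbtint i⟩ := by
      apply Subtype.ext
      rw [hyB, AddSubmonoidClass.coe_finsetSum]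
      refine Finset.sum_congr rfl fun i _ => ?_
      rw [Algebra.smul_def]
      rfl
    rw [h1, map_sum]
    refine Finset.sum_congr rfl fun i _ => ?_
    rw [RingHom.map_mul, evP_algebraMap_Rx hxt, mul_comm]
  apply card_le_of_ker_le Φ Ψ
  · -- kernel inclusion, by (NIL)
    intro a ha
    rw [LinearMap.mem_ker] at ha ⊢
    set v : Fin m → ↥(Algebra.adjoin k {S.red ⟨x, hx⟩}) := fun i =>
      algebraMap k ↥(Algebra.adjoin k {S.red ⟨x, hx⟩}) (a i) with hv
    have hdvd : ∀ t, piRho (S.red ⟨x, hx⟩) (S.resO ⟨(ρ : C), ρ.2⟩) ∣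
        ∑ i, algebraMap k ↥(Algebra.adjoin k {S.red ⟨x, hx⟩})
          (S.resO ⟨evP (hpt t) ⟨bF i, hbB i⟩,
            evP_mem_O hx hxt hdeg ρ.2 (hpt t) ⟨bF i, hbB i⟩ (hbV i)⟩) * v i := by
      intro t
      have h1 : ∑ i, algebraMap k ↥(Algebra.adjoin k {S.red ⟨x, hx⟩})
          (S.resO ⟨evP (hpt t) ⟨bF i, hbB i⟩,
            evP_mem_O hx hxt hdeg ρ.2 (hpt t) ⟨bF i, hbB i⟩ (hbV i)⟩) * v i =
          algebraMap k ↥(Algebra.adjoin k {S.red ⟨x, hx⟩}) (Φ a t) := by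
        rw [hΦ, map_sum]
        refine Finset.sum_congr rfl fun i _ => ?_
        rw [map_mul]
      rw [h1, ha]
      simp
    obtain ⟨n, z, hz, hpow⟩ := exists_pow_eq_smul hx hxt hdeg (fun i => bF i) hbV hbB (ρ : C)
      ρ.2 pt hpt hall v hdvd
    have hyint : IsIntegral ↥(Algebra.adjoin k {S.red ⟨x, hx⟩}) (∑ i, v i • bt i) :=
      IsIntegral.sum _ fun i _ => (hbtint i).smul _
    set yB : ↥(Bx (C := k) (S.red ⟨x, hx⟩)) := ⟨∑ i, v i • bt i, hyint⟩ with hyB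
    ext j
    have h2 := hval v yB rfl j
    have h3 : (fun i => evAt hxt γ (v i)) = a := by
      ext i
      exact evAt_algebraMap hxt γ (a i)
    rw [hΨ]
    simp only [Pi.zero_apply]
    have h4 : ∑ i, mu j i * a i = ∑ i, mu j i * evAt hxt γ (v i) := by
      refine Finset.sum_congr rfl fun i _ => ?_
      rw [congrFun h3 i]
    rw [h4, ← h2, evP_eq_zero_iff]
    -- `yB ^ n ∈ qt j`
    have hprime : (qt j).IsPrime := (hqt j).1.isPrime
    refine hprime.mem_of_pow_mem n ?_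
    have h5 : yB ^ n = algebraMap ↥(Algebra.adjoin k {S.red ⟨x, hx⟩})
        ↥(Bx (C := k) (S.red ⟨x, hx⟩)) (piRho (S.red ⟨x, hx⟩) γ) * ⟨z, hz⟩ := by
      apply Subtype.ext
      have h6 : (∑ i, v i • bt i) = ∑ i, v i • S.red ⟨bF i, hbV i⟩ :=
        Finset.sum_congr rfl fun i _ => by rw [hbt i]
      show (∑ i, v i • bt i) ^ n = _
      rw [h6, hpow, Algebra.smul_def]
      rfl
    rw [h5]
    exact Ideal.mul_mem_right _ _ ((mem_ptsOver_iff _ _ _).1 (hqt j)).2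
  · -- surjectivity, by CRT and the chart theorem
    intro w
    obtain ⟨y, hy⟩ := exists_evP_eq qt hqinj hqt w
    obtain ⟨v, hv⟩ := (Submodule.mem_span_range_iff_exists_fun _).1 (hmain (y : Ft) y.2)
    refine ⟨fun i => evAt hxt γ (v i), ?_⟩
    ext j
    rw [hΨ, ← hval v y hv.symm j, hy j]

end RedSetting

end Fermat.Agent.RED.H34
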