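import Fermat.Agent.RED.H34_IGDefs

/-!
# G-RED package IG (helper34): Gauss lemma in a `RedSetting`

`S : RedSetting C F k Ft`, `x ∈ V` with transcendental reduction.
* `exists_scale` : every nonzero `p ∈ C[X]` is `c • p₀` with `p₀ ∈ O[X]` having a coefficient `1`.
* `psi` : the ring hom `O[X] → V`, `X ↦ x`; `red (psi p₀) = p₀ mod m (xt)`.
* `aeval_mem_iff` : `p(x) ∈ V ↔ p ∈ O[X]`.
-/

set_option autoImplicit false

noncomputable section

open Polynomial IntermediateField

namespace Fermat.Agent.RED.H34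

variable {C F k Ft : Type} [Field C] [Field F] [Algebra C F] [Field k] [Field Ft] [Algebra k Ft]

/-- Gauss scaling: a nonzero polynomial over the fraction field of a valuation ring is a constant
times a polynomial over the valuation ring with a coefficient equal to `1`. -/
theorem exists_scale (O : ValuationSubring C) (p : C[X]) (hp : p ≠ 0) :
    ∃ c : C, c ≠ 0 ∧ ∃ p₀ : (↥O)[X], p = Polynomial.C c * p₀.map O.subtype ∧
      ∃ i, p₀.coeff i = 1 := by
  classical
  have hne : p.support.Nonempty := Polynomial.nonempty_support_iff.2 hp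
  obtain ⟨i₀, hi₀, hmax⟩ := Finset.exists_max_image p.support
    (fun i => O.valuation (p.coeff i)) hne
  have hc : p.coeff i₀ ≠ 0 := Polynomial.mem_support_iff.1 hi₀
  have hall : ∀ i, p.coeff i / p.coeff i₀ ∈ O := by
    intro i
    rw [← O.valuation_le_one_iff, map_div₀]
    have hv0 : O.valuation (p.coeff i₀) ≠ 0 := (Valuation.ne_zero_iff _).2 hc
    rw [div_le_one₀ (zero_lt_iff.2 hv0)]
    by_cases hi : i ∈ p.support
    · exact hmax i hi
    · rw [Polynomial.notMem_support_iff.1 hi, map_zero]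
      exact zero_le
  have hlift : Polynomial.C (p.coeff i₀)⁻¹ * p ∈ Polynomial.lifts O.subtype := by
    rw [Polynomial.lifts_iff_coeff_lifts]
    intro n
    rw [Polynomial.coeff_C_mul]
    exact ⟨⟨p.coeff n / p.coeff i₀, hall n⟩, by simp [div_eq_inv_mul]⟩
  obtain ⟨p₀, hp₀⟩ := (Polynomial.mem_lifts _).1 hlift
  refine ⟨p.coeff i₀, hc, p₀, ?_, i₀, ?_⟩
  · rw [hp₀, ← mul_assoc, ← Polynomial.C_mul, mul_inv_cancel₀ hc, Polynomial.C_1, one_mul]
  · apply Subtype.ext
    have := congrArg (fun q => q.coeff i₀) hp₀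
    simp only [Polynomial.coeff_map, Polynomial.coeff_C_mul] at this
    rw [show ((p₀.coeff i₀ : ↥O) : C) = O.subtype (p₀.coeff i₀) from rfl, this,
      inv_mul_cancel₀ hc]
    rfl

namespace RedSetting

variable (S : RedSetting C F k Ft)

/-- The valuation ring of constants `O = V ∩ C`. -/
abbrev O : ValuationSubring C := S.V.comap (algebraMap C F)

theorem red_eq_zero_iff (f : ↥S.V) : S.red f = 0 ↔ ¬ IsUnit f := by
  constructor
  · intro h hu
    have := hu.map S.red
    rw [h] at this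
    exact not_isUnit_zero this
  · intro h
    have hmax : (RingHom.ker S.red).IsMaximal := RingHom.ker_isMaximal_of_surjective _ S.red_surj
    have := IsLocalRing.eq_maximalIdeal hmax
    rw [← RingHom.mem_ker, this]
    exact h

theorem resO_eq_zero_iff (a : ↥S.O) : S.resO a = 0 ↔ ¬ IsUnit a := by
  constructor
  · intro h hu
    have := hu.map S.resO
    rw [h] at this
    exact not_isUnit_zero this
  · intro h
    have hmax : (RingHom.ker S.resO).IsMaximal :=
      RingHom.ker_isMaximal_of_surjective _ S.resO_surj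
    have := IsLocalRing.eq_maximalIdeal hmax
    rw [← RingHom.mem_ker, this]
    exact h

/-- The inclusion `O → V`. -/
def inclO : ↥S.O →+* ↥S.V where
  toFun a := ⟨algebraMap C F (a : C), a.2⟩
  map_one' := by apply Subtype.ext; simp
  map_mul' a b := by apply Subtype.ext; simp
  map_zero' := by apply Subtype.ext; simp
  map_add' a b := by apply Subtype.ext; simp

@[simp] theorem coe_inclO (a : ↥S.O) : ((S.inclO a : ↥S.V) : F) = algebraMap C F (a : C) := rfl

theorem red_inclO (a : ↥S.O) : S.red (S.inclO a) = algebraMap k Ft (S.resO a) :=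
  S.red_algebraMap a

variable {S}
variable {x : F} (hx : x ∈ S.V)

/-- The ring hom `O[X] → V`, `X ↦ x`. -/
def psi : (↥S.O)[X] →+* ↥S.V := Polynomial.eval₂RingHom S.inclO ⟨x, hx⟩

theorem coe_psi (p₀ : (↥S.O)[X]) :
    ((psi hx p₀ : ↥S.V) : F) = Polynomial.aeval x (p₀.map S.O.subtype) := by
  have h : (S.V.subtype.comp (psi hx)) =
      ((Polynomial.aeval x : C[X] →ₐ[C] F) : C[X] →+* F).comp
        (Polynomial.mapRingHom S.O.subtype) := by
    apply Polynomial.ringHom_ext
    · intro a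
      simp [psi]
    · simp [psi]
  exact congrArg (fun g : (↥S.O)[X] →+* F => g p₀) h

theorem red_psi (p₀ : (↥S.O)[X]) :
    S.red (psi hx p₀) = Polynomial.aeval (S.red ⟨x, hx⟩) (p₀.map S.resO) := by
  have h : (S.red.comp (psi hx)) =
      ((Polynomial.aeval (S.red ⟨x, hx⟩) : k[X] →ₐ[k] Ft) : k[X] →+* Ft).comp
        (Polynomial.mapRingHom S.resO) := by
    apply Polynomial.ringHom_ext
    · intro a
      simp [psi, red_inclO]
    · simp [psi]
  exact congrArg (fun g : (↥S.O)[X] →+* Ft => g p₀) h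

theorem isUnit_psi (hxt : Transcendental k (S.red ⟨x, hx⟩)) (p₀ : (↥S.O)[X])
    (h : p₀.map S.resO ≠ 0) : IsUnit (psi hx p₀) := by
  by_contra hu
  have h0 := (S.red_eq_zero_iff _).2 hu
  rw [red_psi] at h0
  exact h ((transcendental_iff.1 hxt) _ h0)

/-- Transcendence of `x` over `C` follows from that of its reduction. -/
theorem aeval_ne_zero (hxt : Transcendental k (S.red ⟨x, hx⟩)) (p : C[X]) (hp : p ≠ 0) :
    Polynomial.aeval x p ≠ 0 := by
  obtain ⟨c, hc, p₀, hp₀, i, hi⟩ := exists_scale S.O p hp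
  have hne : p₀.map S.resO ≠ 0 := by
    intro h0
    have := congrArg (fun q => q.coeff i) h0
    simp [Polynomial.coeff_map, hi] at this
  have hu := isUnit_psi hx hxt p₀ hne
  rw [hp₀, map_mul, Polynomial.aeval_C, ← coe_psi hx]
  refine mul_ne_zero ?_ ?_
  · exact fun h => hc ((map_eq_zero _).1 h)
  · intro h0
    have : (psi hx p₀ : ↥S.V) = 0 := Subtype.ext h0
    rw [this] at hu
    exact not_isUnit_zero hu

theorem transcendental_x (hxt : Transcendental k (S.red ⟨x, hx⟩)) : Transcendental C x := by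
  rw [transcendental_iff]
  intro p hp
  by_contra h
  exact aeval_ne_zero hx hxt p h hp

/-- Decomposition `p(x) = c · u` with `u` a unit of `V` (Gauss lemma). -/
theorem exists_decomp (hxt : Transcendental k (S.red ⟨x, hx⟩)) (p : C[X]) (hp : p ≠ 0) :
    ∃ c : C, c ≠ 0 ∧ ∃ p₀ : (↥S.O)[X], p₀.map S.resO ≠ 0 ∧ IsUnit (psi hx p₀) ∧
      p = Polynomial.C c * p₀.map S.O.subtype ∧
      Polynomial.aeval x p = algebraMap C F c * ((psi hx p₀ : ↥S.V) : F) := by
  obtain ⟨c, hc, p₀, hp₀, i, hi⟩ := exists_scale S.O p hp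
  have hne : p₀.map S.resO ≠ 0 := by
    intro h0
    have := congrArg (fun q => q.coeff i) h0
    simp [Polynomial.coeff_map, hi] at this
  refine ⟨c, hc, p₀, hne, isUnit_psi hx hxt p₀ hne, hp₀, ?_⟩
  rw [coe_psi, ← Polynomial.aeval_C (A := F) x c, ← map_mul, ← hp₀]

theorem aeval_mem_V_iff (hxt : Transcendental k (S.red ⟨x, hx⟩)) (p : C[X]) :
    Polynomial.aeval x p ∈ S.V ↔ ∀ i, p.coeff i ∈ S.O := by
  constructor
  · intro h i
    by_cases hp : p = 0
    · rw [hp, Polynomial.coeff_zero]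
      exact S.O.zero_mem
    obtain ⟨c, hc, p₀, hne, hu, hp₀, he⟩ := exists_decomp hx hxt p hp
    have hcO : c ∈ S.O := by
      rw [ValuationSubring.mem_comap]
      obtain ⟨u, hu'⟩ := hu
      have h1 : algebraMap C F c = Polynomial.aeval x p * ((u⁻¹ : (↥S.V)ˣ) : ↥S.V) := by
        rw [he, ← hu', mul_assoc, ← Subring.coe_mul, ← Units.val_mul, mul_inv_cancel,
          Units.val_one, Subring.coe_one, mul_one]
      rw [h1]
      exact mul_mem h (Subtype.mem _)
    rw [hp₀, Polynomial.coeff_C_mul, Polynomial.coeff_map]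
    exact mul_mem hcO (Subtype.mem _)
  · intro h
    have hl : p ∈ Polynomial.lifts S.O.subtype := by
      rw [Polynomial.lifts_iff_coeff_lifts]
      exact fun n => ⟨⟨p.coeff n, h n⟩, rfl⟩
    obtain ⟨p₀, hp₀⟩ := (Polynomial.mem_lifts _).1 hl
    rw [← hp₀, ← coe_psi hx]
    exact Subtype.mem _

/-- Elements of `O[X]` lifting a polynomial over `C` with coefficients in `O`. -/
theorem exists_lift_of_aeval_mem (hxt : Transcendental k (S.red ⟨x, hx⟩)) (p : C[X])
    (h : Polynomial.aeval x p ∈ S.V) : ∃ p₀ : (↥S.O)[X], p₀.map S.O.subtype = p := by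
  have hl : p ∈ Polynomial.lifts S.O.subtype := by
    rw [Polynomial.lifts_iff_coeff_lifts]
    exact fun n => ⟨⟨p.coeff n, (aeval_mem_V_iff hx hxt p).1 h n⟩, rfl⟩
  exact (Polynomial.mem_lifts _).1 hl

/-- The reduction of an element of `C(x) ∩ V` lies in `k(xt)`. -/
theorem red_mem_adjoin (hxt : Transcendental k (S.red ⟨x, hx⟩)) (a : F) (ha : a ∈ C⟮x⟯)
    (haV : a ∈ S.V) : S.red ⟨a, haV⟩ ∈ k⟮S.red ⟨x, hx⟩⟯ := by
  obtain ⟨p, q, hpq⟩ := (IntermediateField.mem_adjoin_simple_iff C a).1 ha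
  by_cases hq : q = 0
  · have : (⟨a, haV⟩ : ↥S.V) = 0 := by
      apply Subtype.ext
      simp [hpq, hq]
    rw [this, map_zero]
    exact zero_mem _
  by_cases hp : p = 0
  · have : (⟨a, haV⟩ : ↥S.V) = 0 := by
      apply Subtype.ext
      simp [hpq, hp]
    rw [this, map_zero]
    exact zero_mem _
  obtain ⟨c, hc, p₀, hpne, hpu, -, hpe⟩ := exists_decomp hx hxt p hp
  obtain ⟨c', hc', q₀, hqne, hqu, -, hqe⟩ := exists_decomp hx hxt q hq
  obtain ⟨u, hu⟩ := hpu
  obtain ⟨w, hw⟩ := hqu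
  have hF : a = algebraMap C F (c / c') * (((u * w⁻¹ : (↥S.V)ˣ) : ↥S.V) : F) := by
    have hw0 : ((w : ↥S.V) : F) ≠ 0 := by
      intro h0
      have : (w : ↥S.V) = 0 := Subtype.ext h0
      exact w.ne_zero this
    have hwinv : (((w⁻¹ : (↥S.V)ˣ) : ↥S.V) : F) = ((w : ↥S.V) : F)⁻¹ := by
      apply eq_inv_of_mul_eq_one_left
      rw [← Subring.coe_mul, ← Units.val_mul, inv_mul_cancel]
      rfl
    rw [hpq, hpe, hqe, ← hu, ← hw, Units.val_mul, Subring.coe_mul, hwinv, map_div₀]
    field_simp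
  have hcO : c / c' ∈ S.O := by
    rw [ValuationSubring.mem_comap]
    have h1 : algebraMap C F (c / c') = a * (((u * w⁻¹ : (↥S.V)ˣ)⁻¹ : (↥S.V)ˣ) : ↥S.V) := by
      rw [hF, mul_assoc, ← Subring.coe_mul, ← Units.val_mul, mul_inv_cancel, Units.val_one,
        Subring.coe_one, mul_one]
    rw [h1]
    exact mul_mem haV (Subtype.mem _)
  have hV : (⟨a, haV⟩ : ↥S.V) = S.inclO ⟨c / c', hcO⟩ * ((u * w⁻¹ : (↥S.V)ˣ) : ↥S.V) :=
    Subtype.ext hF
  rw [hV, map_mul, red_inclO, Units.val_mul, map_mul]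
  refine mul_mem (IntermediateField.algebraMap_mem _ _) (mul_mem ?_ ?_)
  · rw [hu, red_psi]
    rw [Polynomial.aeval_eq_sum_range]
    exact sum_mem fun i _ => (k⟮S.red ⟨x, hx⟩⟯).smul_mem
      (pow_mem (IntermediateField.mem_adjoin_simple_self k _) i)
  · have hwinv : S.red ((w⁻¹ : (↥S.V)ˣ) : ↥S.V) = (S.red (w : ↥S.V))⁻¹ := by
      apply eq_inv_of_mul_eq_one_left
      rw [← map_mul, ← Units.val_mul, inv_mul_cancel, Units.val_one, map_one]
    rw [hwinv, hw, red_psi]
    refine inv_mem ?_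
    rw [Polynomial.aeval_eq_sum_range]
    exact sum_mem fun i _ => (k⟮S.red ⟨x, hx⟩⟯).smul_mem
      (pow_mem (IntermediateField.mem_adjoin_simple_self k _) i)

end RedSetting

end Fermat.Agent.RED.H34
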