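import Fermat.Agent.RED.H34_Int

/-!
# G-RED package IG (helper34): consequences of (INT)

* `red_isIntegral` : the reduction of an element of `B ∩ V` is integral over `k[xt]`.
* `evP_mem_O` : the value of an element of `B ∩ V` at a point over `ρ ∈ O` lies in `O`.
-/

set_option autoImplicit false

noncomputable section

open Polynomial IntermediateField Module
open scoped IntermediateField.algebraAdjoinAdjoin nonZeroDivisors

namespace Fermat.Agent.RED.H34

variable {C F k Ft : Type} [Field C] [Field F] [Algebra C F] [Field k] [Field Ft] [Algebra k Ft]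

namespace RedSetting

variable {S : RedSetting C F k Ft} {x : F} (hx : x ∈ S.V)

/-- The ring hom `O[X] → k[xt]`. -/
def psiT (S : RedSetting C F k Ft) (hx : x ∈ S.V) :
    (↥S.O)[X] →+* ↥(Algebra.adjoin k {S.red ⟨x, hx⟩}) :=
  ((Polynomial.aeval (genX (S.red ⟨x, hx⟩)) :
      k[X] →ₐ[k] ↥(Algebra.adjoin k {S.red ⟨x, hx⟩})) : k[X] →+* _).comp
    (Polynomial.mapRingHom S.resO)

theorem coe_psiT (p₀ : (↥S.O)[X]) :
    ((S.psiT hx p₀ : ↥(Algebra.adjoin k {S.red ⟨x, hx⟩})) : Ft) = S.red (psi hx p₀) := by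
  rw [red_psi]
  show ((Polynomial.aeval (genX (S.red ⟨x, hx⟩)) (p₀.map S.resO) :
    ↥(Algebra.adjoin k {S.red ⟨x, hx⟩})) : Ft) = _
  rw [← Subalgebra.coe_val, ← Polynomial.aeval_algHom_apply]
  rfl


/-- The reduction of an element of `B ∩ V` is integral over `k[xt]`. -/
theorem red_isIntegral [CharZero C] (hxt : Transcendental k (S.red ⟨x, hx⟩)) [FiniteDimensional ↥C⟮x⟯ F]
    (hdeg : Module.finrank ↥k⟮S.red ⟨x, hx⟩⟯ Ft = Module.finrank ↥C⟮x⟯ F)
    (f : F) (hfB : IsIntegral ↥(Algebra.adjoin C {x}) f) (hf : f ∈ S.V) :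
    IsIntegral ↥(Algebra.adjoin k {S.red ⟨x, hx⟩}) (S.red ⟨f, hf⟩) := by
  obtain ⟨Φ, hΦm, hΦ⟩ := exists_monic_of_mem hx hxt hdeg ⟨f, hfB⟩ hf
  have hxC := transcendental_x hx hxt
  -- transport the equation to `V`
  have hθ : (algebraMap ↥(Bx (C := C) x) F).comp
      ((algebraMap ↥(Algebra.adjoin C {x}) ↥(Bx (C := C) x)).comp (S.psiR hxC)) =
      S.V.subtype.comp (psi hx) := by
    apply RingHom.ext
    intro p₀
    exact coe_psiR hx hxC p₀
  have h1 : Polynomial.eval₂ (psi hx) (⟨f, hf⟩ : ↥S.V) Φ = 0 := by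
    apply Subtype.val_injective
    have hl := Polynomial.hom_eval₂ Φ (psi hx) S.V.subtype ⟨f, hf⟩
    have hr := Polynomial.hom_eval₂ Φ ((algebraMap ↥(Algebra.adjoin C {x})
      ↥(Bx (C := C) x)).comp (S.psiR hxC)) (algebraMap ↥(Bx (C := C) x) F) ⟨f, hfB⟩
    rw [hΦ, map_zero, hθ] at hr
    exact hl.trans hr.symm
  have h3 := congrArg S.red h1
  rw [Polynomial.hom_eval₂, map_zero] at h3
  refine ⟨Φ.map (S.psiT hx), hΦm.map _, ?_⟩
  rw [Polynomial.eval₂_map, ← h3]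
  congr 1
  apply RingHom.ext
  intro p₀
  exact coe_psiT hx p₀


variable [CharZero C] [IsAlgClosed C]

omit [CharZero C] in
theorem evP_comp_psiR (hxC : Transcendental C x) {ρ : C} (hρ : ρ ∈ S.O)
    {P : Ideal ↥(Bx (C := C) x)} (hP : P ∈ ptsOver x ρ) :
    (evP hP).comp ((algebraMap ↥(Algebra.adjoin C {x}) ↥(Bx (C := C) x)).comp (S.psiR hxC)) =
      S.O.subtype.comp (Polynomial.evalRingHom (⟨ρ, hρ⟩ : ↥S.O)) := by
  apply Polynomial.ringHom_ext
  · intro a
    have h1 : S.psiR hxC (Polynomial.C a) = algebraMap C _ (a : C) := by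
      simp only [psiR, RingHom.comp_apply, Polynomial.coe_mapRingHom, Polynomial.map_C]
      exact polyEquiv_C hxC _
    simp only [RingHom.comp_apply, h1, Polynomial.coe_evalRingHom, Polynomial.eval_C]
    rw [← IsScalarTower.algebraMap_apply C ↥(Algebra.adjoin C {x}) ↥(Bx (C := C) x),
      evP_algebraMap]
    rfl
  · have h1 : S.psiR hxC Polynomial.X = genX x := by
      simp only [psiR, RingHom.comp_apply, Polynomial.coe_mapRingHom, Polynomial.map_X]
      exact polyEquiv_X hxC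
    simp only [RingHom.comp_apply, h1, Polynomial.coe_evalRingHom, Polynomial.eval_X]
    rw [evP_genX]
    rfl

/-- The value of an element of `B ∩ V` at a point over `ρ ∈ O` lies in `O`. -/
theorem evP_mem_O (hxt : Transcendental k (S.red ⟨x, hx⟩)) [FiniteDimensional ↥C⟮x⟯ F]
    (hdeg : Module.finrank ↥k⟮S.red ⟨x, hx⟩⟯ Ft = Module.finrank ↥C⟮x⟯ F)
    {ρ : C} (hρ : ρ ∈ S.O) {P : Ideal ↥(Bx (C := C) x)} (hP : P ∈ ptsOver x ρ)
    (f : ↥(Bx (C := C) x)) (hf : (f : F) ∈ S.V) : evP hP f ∈ S.O := by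
  obtain ⟨Φ, hΦm, hΦ⟩ := exists_monic_of_mem hx hxt hdeg f hf
  have hxC := transcendental_x hx hxt
  have h1 := congrArg (evP hP) hΦ
  rw [Polynomial.hom_eval₂, map_zero, evP_comp_psiR hxC hρ hP, ← Polynomial.eval₂_map] at h1
  have hint : IsIntegral ↥S.O (evP hP f) :=
    ⟨Φ.map (Polynomial.evalRingHom (⟨ρ, hρ⟩ : ↥S.O)), hΦm.map _, h1⟩
  obtain ⟨y, hy⟩ := IsIntegrallyClosed.isIntegral_iff.1 hint
  rw [← hy]
  exact y.2

end RedSetting

end Fermat.Agent.RED.H34
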