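import Fermat.Agent.RED.H34_Ortho

/-!
# G-RED package IG (helper34): trace and discriminant commute with reduction

`bF` a `C(x)`-basis of `F` contained in `V` whose reduction `bt` is a `k(xt)`-basis of `Ft`.
Then coordinates of elements of `V` lie in `Vx = V ∩ C(x)`, and `red ∘ Tr = Tr ∘ red`,
`red (disc bF) = disc bt`.
-/

set_option autoImplicit false

noncomputable section

open Polynomial IntermediateField

namespace Fermat.Agent.RED.H34

variable {C F k Ft : Type} [Field C] [Field F] [Algebra C F] [Field k] [Field Ft] [Algebra k Ft]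

namespace RedSetting

variable {S : RedSetting C F k Ft} {x : F} (hx : x ∈ S.V)

/-- `Vx = V ∩ C(x)` as a subring of `C(x)`. -/
def Vx (S : RedSetting C F k Ft) (x : F) : Subring ↥C⟮x⟯ :=
  S.V.toSubring.comap (algebraMap ↥C⟮x⟯ F)

theorem mem_Vx (a : ↥C⟮x⟯) : a ∈ S.Vx x ↔ ((a : ↥C⟮x⟯) : F) ∈ S.V := Iff.rfl

/-- The reduction map `Vx → k(xt)`. -/
def redx (hxt : Transcendental k (S.red ⟨x, hx⟩)) : ↥(S.Vx x) →+* ↥k⟮S.red ⟨x, hx⟩⟯ where
  toFun a := ⟨S.red ⟨((a : ↥C⟮x⟯) : F), a.2⟩, red_mem_adjoin hx hxt _ (a : ↥C⟮x⟯).2 a.2⟩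
  map_one' := by
    apply Subtype.ext
    exact map_one S.red
  map_mul' a b := by
    apply Subtype.ext
    exact map_mul S.red ⟨_, a.2⟩ ⟨_, b.2⟩
  map_zero' := by
    apply Subtype.ext
    exact map_zero S.red
  map_add' a b := by
    apply Subtype.ext
    exact map_add S.red ⟨_, a.2⟩ ⟨_, b.2⟩

theorem coe_redx (hxt : Transcendental k (S.red ⟨x, hx⟩)) (a : ↥(S.Vx x)) :
    ((redx hx hxt a : ↥k⟮S.red ⟨x, hx⟩⟯) : Ft) = S.red ⟨((a : ↥C⟮x⟯) : F), a.2⟩ := rfl

variable {ι : Type}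
variable (bF : Module.Basis ι ↥C⟮x⟯ F) (hbV : ∀ i, bF i ∈ S.V)
variable (bt : Module.Basis ι ↥k⟮S.red ⟨x, hx⟩⟯ Ft) (hbt : ∀ i, bt i = S.red ⟨bF i, hbV i⟩)

include hbt in
theorem linearIndependent_red : LinearIndependent ↥k⟮S.red ⟨x, hx⟩⟯
    (fun i => S.red ⟨bF i, hbV i⟩) := by
  have : (fun i => S.red ⟨bF i, hbV i⟩) = bt := by
    funext i
    exact (hbt i).symm
  rw [this]
  exact bt.linearIndependent

variable [Fintype ι]

include hbt in
/-- Coordinates of elements of `V` lie in `V`. -/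
theorem repr_mem_V (hxt : Transcendental k (S.red ⟨x, hx⟩)) (f : F) (hf : f ∈ S.V) (i : ι) :
    bF.repr f i ∈ S.Vx x := by
  rw [mem_Vx]
  refine coeff_mem_V hx bF hbV hxt (linearIndependent_red hx bF hbV bt hbt) (fun j => bF.repr f j)
    ?_ i
  rw [bF.sum_repr]
  exact hf

include hbt in
/-- Coordinates commute with reduction. -/
theorem repr_red (hxt : Transcendental k (S.red ⟨x, hx⟩)) (f : F) (hf : f ∈ S.V) (i : ι) :
    bt.repr (S.red ⟨f, hf⟩) i = redx hx hxt ⟨bF.repr f i, repr_mem_V hx bF hbV bt hbt hxt f hf i⟩ := by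
  have h1 : S.red ⟨f, hf⟩ = ∑ j, (redx hx hxt ⟨bF.repr f j,
      repr_mem_V hx bF hbV bt hbt hxt f hf j⟩) • bt j := by
    have h2 : (⟨f, hf⟩ : ↥S.V) = ∑ j, (⟨((bF.repr f j : ↥C⟮x⟯) : F),
        repr_mem_V hx bF hbV bt hbt hxt f hf j⟩ : ↥S.V) * ⟨bF j, hbV j⟩ := by
      apply Subtype.ext
      rw [AddSubmonoidClass.coe_finsetSum]
      show f = _
      conv_lhs => rw [← bF.sum_repr f]
      refine Finset.sum_congr rfl fun j _ => ?_
      rw [IntermediateField.smul_def, smul_eq_mul]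
      rfl
    rw [h2, map_sum]
    refine Finset.sum_congr rfl fun j _ => ?_
    rw [map_mul, hbt j, IntermediateField.smul_def, smul_eq_mul]
    rfl
  conv_lhs => rw [h1]
  rw [bt.repr_sum_self]

variable [DecidableEq ι]

include hbt in
/-- The trace of an element of `V` lies in `Vx`, and reduces to the trace of the reduction. -/
theorem trace_red (hxt : Transcendental k (S.red ⟨x, hx⟩)) (f : F) (hf : f ∈ S.V) :
    ∃ t : ↥(S.Vx x), (t : ↥C⟮x⟯) = Algebra.trace ↥C⟮x⟯ F f ∧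
      redx hx hxt t = Algebra.trace ↥k⟮S.red ⟨x, hx⟩⟯ Ft (S.red ⟨f, hf⟩) := by
  have hmem : ∀ i, f * bF i ∈ S.V := fun i => mul_mem hf (hbV i)
  refine ⟨∑ i, ⟨bF.repr (f * bF i) i, repr_mem_V hx bF hbV bt hbt hxt _ (hmem i) i⟩, ?_, ?_⟩
  · rw [Algebra.trace_eq_matrix_trace bF, Matrix.trace, AddSubmonoidClass.coe_finsetSum]
    refine Finset.sum_congr rfl fun i _ => ?_
    rw [Matrix.diag_apply, Algebra.leftMulMatrix_eq_repr_mul]
  · rw [Algebra.trace_eq_matrix_trace bt, Matrix.trace, map_sum]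
    refine Finset.sum_congr rfl fun i _ => ?_
    rw [Matrix.diag_apply, Algebra.leftMulMatrix_eq_repr_mul, hbt i, ← map_mul,
      ← repr_red hx bF hbV bt hbt hxt (f * bF i) (hmem i) i]
    rfl

include hbt in
/-- The discriminant of `bF` lies in `Vx` and reduces to the discriminant of `bt`. -/
theorem discr_red (hxt : Transcendental k (S.red ⟨x, hx⟩)) :
    ∃ δ : ↥(S.Vx x), (δ : ↥C⟮x⟯) = Algebra.discr ↥C⟮x⟯ bF ∧
      redx hx hxt δ = Algebra.discr ↥k⟮S.red ⟨x, hx⟩⟯ bt := by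
  have hmem : ∀ i j, bF i * bF j ∈ S.V := fun i j => mul_mem (hbV i) (hbV j)
  choose t ht1 ht2 using fun i j => trace_red hx bF hbV bt hbt hxt (bF i * bF j) (hmem i j)
  let M : Matrix ι ι ↥(S.Vx x) := Matrix.of t
  refine ⟨M.det, ?_, ?_⟩
  · rw [Algebra.discr_def]
    have : Algebra.traceMatrix ↥C⟮x⟯ bF = (S.Vx x).subtype.mapMatrix M := by
      ext i j
      simp [M, Algebra.traceMatrix_apply, Algebra.traceForm_apply, ht1]
    rw [this, ← RingHom.map_det]
    rfl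
  · rw [Algebra.discr_def]
    have : Algebra.traceMatrix ↥k⟮S.red ⟨x, hx⟩⟯ bt = (redx hx hxt).mapMatrix M := by
      ext i j
      simp only [M, Algebra.traceMatrix_apply, Algebra.traceForm_apply, RingHom.mapMatrix_apply,
        Matrix.map_apply, Matrix.of_apply, ht2, hbt, ← map_mul]
      rfl
    rw [this, ← RingHom.map_det]

end RedSetting

end Fermat.Agent.RED.H34
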