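import Fermat.Agent.RED.H34_Gauss

/-!
# G-RED package IG (helper34): orthonormality of lifts

`S : RedSetting C F k Ft`, `x ∈ V` with transcendental reduction `xt`.  If `b i ∈ V` and the
reductions of the `b i` are linearly independent over `k(xt)`, then for `a i ∈ C(x)`:
`v (a i) ≤ v (∑ a j • b j)` for all `i` (`v` the valuation of `V`).
-/

set_option autoImplicit false

noncomputable section

open Polynomial IntermediateField

namespace Fermat.Agent.RED.H34

variable {C F k Ft : Type} [Field C] [Field F] [Algebra C F] [Field k] [Field Ft] [Algebra k Ft]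

namespace RedSetting

variable {S : RedSetting C F k Ft} {x : F} (hx : x ∈ S.V)
variable {ι : Type} [Fintype ι] (b : ι → F) (hbV : ∀ i, b i ∈ S.V)

theorem mem_V_iff_val (f : F) : f ∈ S.V ↔ S.V.valuation f ≤ 1 :=
  (S.V.valuation_le_one_iff f).symm

theorem red_eq_zero_iff_val (f : ↥S.V) : S.red f = 0 ↔ S.V.valuation (f : F) < 1 := by
  rw [S.red_eq_zero_iff, ← S.V.valuation_lt_one_iff, IsLocalRing.mem_maximalIdeal,
    mem_nonunits_iff]

/-- (ON0) a relation with coefficients in `V ∩ C(x)` reduces to a relation over `k(xt)`. -/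
theorem red_coeff_eq_zero (hxt : Transcendental k (S.red ⟨x, hx⟩))
    (hlin : LinearIndependent ↥k⟮S.red ⟨x, hx⟩⟯ (fun i => S.red ⟨b i, hbV i⟩))
    (a : ι → ↥S.V) (ha : ∀ i, ((a i : ↥S.V) : F) ∈ C⟮x⟯)
    (h0 : S.red (∑ i, a i * ⟨b i, hbV i⟩) = 0) (i : ι) : S.red (a i) = 0 := by
  rw [map_sum] at h0
  have h1 : ∑ j, (⟨S.red (a j), red_mem_adjoin hx hxt _ (ha j) (a j).2⟩ : ↥k⟮S.red ⟨x, hx⟩⟯) •
      S.red ⟨b j, hbV j⟩ = 0 := by
    rw [← h0]
    refine Finset.sum_congr rfl fun j _ => ?_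
    rw [map_mul]
    rfl
  have := (Fintype.linearIndependent_iff.1 hlin) _ h1 i
  exact congrArg Subtype.val this

/-- (ON) orthonormality: the valuation of a combination dominates that of each coefficient. -/
theorem val_coeff_le (hxt : Transcendental k (S.red ⟨x, hx⟩))
    (hlin : LinearIndependent ↥k⟮S.red ⟨x, hx⟩⟯ (fun i => S.red ⟨b i, hbV i⟩))
    (a : ι → ↥C⟮x⟯) (i : ι) :
    S.V.valuation ((a i : ↥C⟮x⟯) : F) ≤ S.V.valuation (∑ j, a j • b j) := by
  classical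
  obtain ⟨i₀, -, hmax⟩ := Finset.exists_max_image (Finset.univ : Finset ι)
    (fun j => S.V.valuation ((a j : ↥C⟮x⟯) : F)) ⟨i, Finset.mem_univ i⟩
  refine (hmax i (Finset.mem_univ i)).trans ?_
  by_cases h0 : ((a i₀ : ↥C⟮x⟯) : F) = 0
  · rw [h0, map_zero]
    exact zero_le
  have hv0 : S.V.valuation ((a i₀ : ↥C⟮x⟯) : F) ≠ 0 := (Valuation.ne_zero_iff _).2 h0
  -- normalised coefficients
  have haV : ∀ j, ((a j : ↥C⟮x⟯) : F) / ((a i₀ : ↥C⟮x⟯) : F) ∈ S.V := by
    intro j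
    rw [mem_V_iff_val, map_div₀, div_le_one₀ (zero_lt_iff.2 hv0)]
    exact hmax j (Finset.mem_univ j)
  let a' : ι → ↥S.V := fun j => ⟨_, haV j⟩
  have ha' : ∀ j, ((a' j : ↥S.V) : F) ∈ C⟮x⟯ := fun j =>
    div_mem (a j).2 (a i₀).2
  have hsum : ((∑ j, a' j * ⟨b j, hbV j⟩ : ↥S.V) : F) =
      (∑ j, a j • b j) / ((a i₀ : ↥C⟮x⟯) : F) := by
    rw [Finset.sum_div, AddSubmonoidClass.coe_finsetSum]
    refine Finset.sum_congr rfl fun j _ => ?_
    rw [IntermediateField.smul_def, smul_eq_mul]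
    show ((a j : ↥C⟮x⟯) : F) / ((a i₀ : ↥C⟮x⟯) : F) * b j = _
    ring
  by_contra hlt
  rw [not_le] at hlt
  have hred : S.red (∑ j, a' j * ⟨b j, hbV j⟩) = 0 := by
    rw [red_eq_zero_iff_val, hsum, map_div₀, div_lt_one₀ (zero_lt_iff.2 hv0)]
    exact hlt
  have h1 := red_coeff_eq_zero hx b hbV hxt hlin a' ha' hred i₀
  have h2 : a' i₀ = 1 := by
    apply Subtype.ext
    simp only [a']
    exact div_self h0
  rw [h2, map_one] at h1
  exact one_ne_zero h1

/-- The lifts are linearly independent over `C(x)`. -/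
theorem linearIndependent_lift (hxt : Transcendental k (S.red ⟨x, hx⟩))
    (hlin : LinearIndependent ↥k⟮S.red ⟨x, hx⟩⟯ (fun i => S.red ⟨b i, hbV i⟩)) :
    LinearIndependent ↥C⟮x⟯ b := by
  rw [Fintype.linearIndependent_iff]
  intro a h0 i
  have := val_coeff_le hx b hbV hxt hlin a i
  rw [h0, map_zero] at this
  have h1 : S.V.valuation ((a i : ↥C⟮x⟯) : F) = 0 := le_antisymm this zero_le
  exact Subtype.ext ((Valuation.zero_iff _).1 h1)

/-- Coefficients of an element of `V` lie in `V`. -/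
theorem coeff_mem_V (hxt : Transcendental k (S.red ⟨x, hx⟩))
    (hlin : LinearIndependent ↥k⟮S.red ⟨x, hx⟩⟯ (fun i => S.red ⟨b i, hbV i⟩))
    (a : ι → ↥C⟮x⟯) (h : ∑ j, a j • b j ∈ S.V) (i : ι) : ((a i : ↥C⟮x⟯) : F) ∈ S.V := by
  rw [mem_V_iff_val] at h ⊢
  exact (val_coeff_le hx b hbV hxt hlin a i).trans h

end RedSetting

end Fermat.Agent.RED.H34
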