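import Fermat.Agent.RED.Core2
import Fermat.Agent.RED.H17_TIabs

/-!
# G-RED, FIN (helper36), abstract part: the reduction map on `Pic⁰`

Setting of `RED/Core.lean`.  For `r` with the conservation law `IsRed O h r`:
* `mapDomain_mem_principal` : `r_*` maps principal divisors to principal divisors;
* `redPic` : the induced map `Pic⁰(F) → Pic(F~)`, `[D] ↦ [r_* D]`;
* `redPic_eq_zero_of_TIcore` : injectivity on torsion prime to `ℓ`, from `TIcoreFor` and the
  constancy of functions without zeros and poles on the reduced field.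
-/

set_option autoImplicit false
set_option synthInstance.maxHeartbeats 400000
set_option maxHeartbeats 1000000

noncomputable section

open AlgebraicCurve ModularCurve Fermat.Agent.S28.H73 Fermat.Agent.RED.H73

namespace Fermat.Agent.RED.H36

variable {C : Type} [Field C] (O : ValuationSubring C)
variable {F : IntermediateField C (LaurentSeries C)} (h : HasScale O F)
variable {r : Place C ↥F → Place (kV O) ↥(redField O F h)}

/-- Every nonzero function has the divisor of a Gauss unit. -/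
theorem exists_unit_ord_eq (f : ↥F) (hf : f ≠ 0) :
    ∃ u : (↥(gaussValSub O F h))ˣ, ∀ P : Place C ↥F,
      P.ord ((u : ↥(gaussValSub O F h)) : ↥F) = P.ord f := by
  obtain ⟨c, u, hc, hfu⟩ := exists_unit_scale O h f hf
  refine ⟨u, fun P => ?_⟩
  rw [hfu, H17.ord_algebraMap_mul P hc]

theorem unit_coe_ne_zero (u : (↥(gaussValSub O F h))ˣ) :
    ((u : ↥(gaussValSub O F h)) : ↥F) ≠ 0 := by
  intro h0
  have : (u : ↥(gaussValSub O F h)) = 0 := Subtype.ext h0
  exact u.ne_zero this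

/-- `r_*` maps principal divisors to principal divisors. -/
theorem mapDomain_mem_principal (hr : IsRed O h r) {D : Divisor C ↥F}
    (hD : D ∈ Divisor.principal (K := C) (F := ↥F)) :
    Finsupp.mapDomain r D ∈ Divisor.principal (K := kV O) (F := ↥(redField O F h)) := by
  obtain ⟨f, hf, hDf⟩ := hD
  obtain ⟨u, hu⟩ := exists_unit_ord_eq O h f hf
  refine ⟨gaussResF' O h u, (H17.gaussResF'_ne_zero_iff_isUnit O h _).mpr u.isUnit, fun Q => ?_⟩
  exact hr u u.isUnit D (fun P => by rw [hDf P, hu P]) Q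

/-- The map `D ↦ [r_* D]` on divisors of degree `0`. -/
def redDegZero (r : Place C ↥F → Place (kV O) ↥(redField O F h)) :
    Divisor.degZero (K := C) (F := ↥F) →+ Pic (kV O) ↥(redField O F h) :=
  (QuotientAddGroup.mk' (Divisor.principal (K := kV O) (F := ↥(redField O F h)))).comp
    ((Finsupp.mapDomain.addMonoidHom r).comp
      (Divisor.degZero (K := C) (F := ↥F)).subtype)

/-- The reduction map `Pic⁰(F) → Pic(F~)`, `[D] ↦ [r_* D]`. -/
def redPic (hr : IsRed O h r) : Pic0 C ↥F →+ Pic (kV O) ↥(redField O F h) :=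
  QuotientAddGroup.lift _ (redDegZero O h r) (by
    rintro ⟨D, hD0⟩ hD
    rw [AddSubgroup.mem_addSubgroupOf] at hD
    show (QuotientAddGroup.mk' _) (Finsupp.mapDomain r D) = 0
    rw [QuotientAddGroup.mk'_apply, QuotientAddGroup.eq_zero_iff]
    exact mapDomain_mem_principal O h hr hD)

theorem redPic_mk (hr : IsRed O h r) (D : Divisor.degZero (K := C) (F := ↥F)) :
    redPic O h hr (Pic0.mk D)
      = QuotientAddGroup.mk (Finsupp.mapDomain r (D : Divisor C ↥F)) := rfl

theorem redPic_mk_eq_zero_iff (hr : IsRed O h r) (D : Divisor.degZero (K := C) (F := ↥F)) :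
    redPic O h hr (Pic0.mk D) = 0 ↔
      Finsupp.mapDomain r (D : Divisor C ↥F)
        ∈ Divisor.principal (K := kV O) (F := ↥(redField O F h)) := by
  rw [redPic_mk, QuotientAddGroup.eq_zero_iff]

/-- **Injectivity on torsion prime to `ℓ`**, from the Kummer form `TIcoreFor`. -/
theorem redPic_eq_zero_of_TIcore [IsAlgClosed (kV O)] (hr : IsRed O h r) {ℓ : ℕ}
    (hTI : TIcoreFor O h ℓ)
    (hconst : ∀ g : ↥(redField O F h), g ≠ 0 →
      (∀ Q : Place (kV O) ↥(redField O F h), Q.ord g = 0) →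
      ∃ c : kV O, g = algebraMap (kV O) ↥(redField O F h) c)
    (m : ℕ) (hm : ¬ ℓ ∣ m) (x : Pic0 C ↥F) (hmx : m • x = 0)
    (hx : redPic O h hr x = 0) : x = 0 := by
  obtain ⟨D, rfl⟩ := Pic0.mk_surjective x
  have hm0 : m ≠ 0 := by
    rintro rfl
    exact hm (dvd_zero ℓ)
  have hmpos : 0 < m := Nat.pos_of_ne_zero hm0
  have hmZ : (m : ℤ) ≠ 0 := by exact_mod_cast hm0
  -- `m D` is principal
  have hmD : m • (D : Divisor C ↥F) ∈ Divisor.principal (K := C) (F := ↥F) := by
    have h1 : ((m • D : Divisor.degZero (K := C) (F := ↥F)) : Pic0 C ↥F) = 0 := hmx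
    rw [QuotientAddGroup.eq_zero_iff, AddSubgroup.mem_addSubgroupOf] at h1
    exact h1
  obtain ⟨f, hf, hDf⟩ := hmD
  obtain ⟨u, hu⟩ := exists_unit_ord_eq O h f hf
  have hu0 := unit_coe_ne_zero O h u
  have hDu : ∀ P : Place C ↥F,
      (m : ℤ) * (D : Divisor C ↥F) P = P.ord ((u : ↥(gaussValSub O F h)) : ↥F) := by
    intro P
    rw [hu P, ← hDf P, Finsupp.smul_apply, nsmul_eq_mul]
  -- the reduction of `D` is principal
  obtain ⟨y, hy, hDy⟩ := (redPic_mk_eq_zero_iff O h hr D).mp hx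
  -- conservation law for `u`
  have hcons : ∀ Q : Place (kV O) ↥(redField O F h),
      Q.ord (gaussResF' O h u) = (m : ℤ) * Q.ord y := by
    intro Q
    have h1 := hr u u.isUnit (m • (D : Divisor C ↥F))
      (fun P => by rw [Finsupp.smul_apply, nsmul_eq_mul, hDu P]) Q
    rw [← h1, Finsupp.mapDomain_smul, Finsupp.smul_apply, nsmul_eq_mul, hDy Q]
  have hru : gaussResF' O h u ≠ 0 := (H17.gaussResF'_ne_zero_iff_isUnit O h _).mpr u.isUnit
  -- `res u / y ^ m` is a constant
  have hg0 : gaussResF' O h u / y ^ m ≠ 0 := div_ne_zero hru (pow_ne_zero m hy)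
  obtain ⟨c, hc⟩ := hconst _ hg0 (fun Q => by
    rw [H17.ord_div Q hru (pow_ne_zero m hy), H17.ord_pow, hcons Q, sub_self])
  have hc0 : c ≠ 0 := by
    rintro rfl
    rw [map_zero] at hc
    exact hg0 hc
  obtain ⟨d, hd⟩ := IsAlgClosed.exists_pow_nat_eq c hmpos
  have hd0 : d ≠ 0 := by
    rintro rfl
    rw [zero_pow hm0] at hd
    exact hc0 hd.symm
  set y' : ↥(redField O F h) := algebraMap (kV O) ↥(redField O F h) d * y with hy'
  have hy'0 : y' ≠ 0 := mul_ne_zero ((map_ne_zero _).mpr hd0) hy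
  have hres : gaussResF' O h u = y' ^ m := by
    rw [hy', mul_pow, ← map_pow, hd, ← hc, div_mul_cancel₀ _ (pow_ne_zero m hy)]
  -- lift `y'`
  obtain ⟨w, hw⟩ := gaussResF'_surjective O h y'
  have hwu : IsUnit w := (H17.gaussResF'_ne_zero_iff_isUnit O h w).mp (by rw [hw]; exact hy'0)
  obtain ⟨w, rfl⟩ := hwu
  have hw0 := unit_coe_ne_zero O h w
  -- `u' = u / w ^ m` reduces to `1`
  have hres' : gaussResF' O h ((u * (w⁻¹) ^ m : (↥(gaussValSub O F h))ˣ) :
      ↥(gaussValSub O F h)) = 1 := by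
    rw [Units.val_mul, Units.val_pow_eq_pow_val, map_mul, map_pow, hres]
    have h1 : gaussResF' O h ((w⁻¹ : (↥(gaussValSub O F h))ˣ) : ↥(gaussValSub O F h))
        = y'⁻¹ := by
      rw [← hw]
      exact (eq_inv_of_mul_eq_one_left (by rw [← map_mul, Units.inv_mul, map_one]))
    rw [h1, ← mul_pow, mul_inv_cancel₀ hy'0, one_pow]
  have hcoe : (((u * (w⁻¹) ^ m : (↥(gaussValSub O F h))ˣ) : ↥(gaussValSub O F h)) : ↥F)
      = ((u : ↥(gaussValSub O F h)) : ↥F) / ((w : ↥(gaussValSub O F h)) : ↥F) ^ m := by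
    rw [Units.val_mul, Units.val_pow_eq_pow_val]
    have h1 : (((w⁻¹ : (↥(gaussValSub O F h))ˣ) : ↥(gaussValSub O F h)) : ↥F)
        = (((w : ↥(gaussValSub O F h)) : ↥F))⁻¹ := by
      refine eq_inv_of_mul_eq_one_left ?_
      have e1 : ((w⁻¹ : (↥(gaussValSub O F h))ˣ) : ↥(gaussValSub O F h))
          * (w : ↥(gaussValSub O F h)) = 1 := Units.inv_mul w
      exact congrArg (fun z : ↥(gaussValSub O F h) => (z : ↥F)) e1
    show ((u : ↥(gaussValSub O F h)) : ↥F)
        * (((w⁻¹ : (↥(gaussValSub O F h))ˣ) : ↥(gaussValSub O F h)) : ↥F) ^ m = _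
    rw [h1, inv_pow, div_eq_mul_inv]
  have hord : ∀ P : Place C ↥F,
      P.ord (((u * (w⁻¹) ^ m : (↥(gaussValSub O F h))ˣ) : ↥(gaussValSub O F h)) : ↥F)
        = (m : ℤ) * ((D : Divisor C ↥F) P - P.ord ((w : ↥(gaussValSub O F h)) : ↥F)) := by
    intro P
    rw [hcoe, H17.ord_div P hu0 (pow_ne_zero m hw0), H17.ord_pow, ← hDu P]
    ring
  obtain ⟨t, ht⟩ := hTI m hm _ hres' (fun P => ⟨_, hord P⟩)
  have ht0 : t ≠ 0 := by
    rintro rfl
    rw [zero_pow hm0] at ht
    exact unit_coe_ne_zero O h _ ht.symm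
  -- `D = div (t w)`
  have hmem : (D : Divisor C ↥F) ∈ Divisor.principal (K := C) (F := ↥F) := by
    refine ⟨t * ((w : ↥(gaussValSub O F h)) : ↥F), mul_ne_zero ht0 hw0, fun P => ?_⟩
    rw [Place.ord_mul P ht0 hw0]
    have h1 : (m : ℤ) * P.ord t
        = (m : ℤ) * ((D : Divisor C ↥F) P - P.ord ((w : ↥(gaussValSub O F h)) : ↥F)) := by
      rw [← hord P, ← ht, H17.ord_pow]
    have h2 := mul_left_cancel₀ hmZ h1
    omega
  show (QuotientAddGroup.mk D : Pic0 C ↥F) = 0
  rw [QuotientAddGroup.eq_zero_iff, AddSubgroup.mem_addSubgroupOf]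
  exact hmem

end Fermat.Agent.RED.H36
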