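import Fermat.Agent.RED.H34_Int

/-!
# G-RED package GEN (helper42), part 1: reduction of integral elements, lifted bases

Setting: `S : RedSetting C F k Ft` (helper34), `x ∈ V` with transcendental reduction `xt`.
* `gen_red_isIntegral` : `f ∈ V` integral over `C[x]`  ⟹  `red f` integral over `k[xt]`.
* `IsLift` : a family `e : ι → F` in `B ∩ V` whose reduction is a `k[xt]`-basis of the integral
  closure `Bt` of `k[xt]` in `Ft`.
-/

set_option autoImplicit false

noncomputable section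

open Polynomial IntermediateField Module
open scoped IntermediateField.algebraAdjoinAdjoin

namespace Fermat.Agent.RED.H42

open Fermat.Agent.RED.H34 Fermat.Agent.RED.H34.RedSetting

variable {C F k Ft : Type} [Field C] [Field F] [Algebra C F] [Field k] [Field Ft] [Algebra k Ft]
variable {S : RedSetting C F k Ft} {x : F} (hx : x ∈ S.V)

/-- The generator of `k[xt]`. -/
def genT (hx : x ∈ S.V) : ↥(Algebra.adjoin k {S.red ⟨x, hx⟩}) :=
  ⟨S.red ⟨x, hx⟩, Algebra.self_mem_adjoin_singleton k _⟩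

/-- The ring hom `O[X] → k[xt]`, reduction of coefficients followed by `X ↦ xt`. -/
def rhoT (hx : x ∈ S.V) : (↥S.O)[X] →+* ↥(Algebra.adjoin k {S.red ⟨x, hx⟩}) :=
  ((Polynomial.aeval (genT hx) : k[X] →ₐ[k] ↥(Algebra.adjoin k {S.red ⟨x, hx⟩})) :
    k[X] →+* ↥(Algebra.adjoin k {S.red ⟨x, hx⟩})).comp (Polynomial.mapRingHom S.resO)

theorem coe_rhoT (p₀ : (↥S.O)[X]) :
    ((rhoT hx p₀ : ↥(Algebra.adjoin k {S.red ⟨x, hx⟩})) : Ft) = S.red (psi hx p₀) := by
  rw [red_psi]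
  show ((Polynomial.aeval (genT hx) (p₀.map S.resO) : ↥(Algebra.adjoin k {S.red ⟨x, hx⟩})) : Ft)
    = _
  rw [← Subalgebra.coe_val, ← Polynomial.aeval_algHom_apply]
  rfl

theorem algebraMap_comp_rhoT :
    (algebraMap ↥(Algebra.adjoin k {S.red ⟨x, hx⟩}) Ft).comp (rhoT hx) = S.red.comp (psi hx) := by
  refine RingHom.ext fun p₀ => ?_
  exact coe_rhoT hx p₀

/-- An element of `V` annihilated by a monic polynomial over `O[x]` has integral reduction. -/
theorem gen_red_isIntegral_of_monic (f : ↥S.V) (Φ : ((↥S.O)[X])[X]) (hΦ : Φ.Monic)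
    (h0 : Polynomial.eval₂ (psi hx) f Φ = 0) :
    IsIntegral ↥(Algebra.adjoin k {S.red ⟨x, hx⟩}) (S.red f) := by
  refine ⟨Φ.map (rhoT hx), hΦ.map _, ?_⟩
  rw [Polynomial.eval₂_map, algebraMap_comp_rhoT, ← Polynomial.hom_eval₂, h0, map_zero]

/-- **Reduction of integral elements**: `f ∈ V` integral over `C[x]` has a reduction which is
integral over `k[xt]`. -/
theorem gen_red_isIntegral [CharZero C] (hxt : Transcendental k (S.red ⟨x, hx⟩))
    [FiniteDimensional ↥C⟮x⟯ F]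
    (hdeg : Module.finrank ↥k⟮S.red ⟨x, hx⟩⟯ Ft = Module.finrank ↥C⟮x⟯ F)
    (f : ↥S.V) (hf : IsIntegral ↥(Algebra.adjoin C {x}) (f : F)) :
    IsIntegral ↥(Algebra.adjoin k {S.red ⟨x, hx⟩}) (S.red f) := by
  have hxC := transcendental_x hx hxt
  obtain ⟨Φ, hΦ, h0⟩ := exists_monic_of_mem hx hxt hdeg (⟨(f : F), hf⟩ : ↥(Bx (C := C) x)) f.2
  refine gen_red_isIntegral_of_monic hx f Φ hΦ ?_
  apply Subtype.ext
  have h1 := congrArg (fun b : ↥(Bx (C := C) x) => (b : F)) h0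
  simp only [ZeroMemClass.coe_zero] at h1
  rw [ZeroMemClass.coe_zero, ← h1]
  have h2 : (S.V.subtype.comp (psi hx)) =
      ((Bx (C := C) x).val : ↥(Bx (C := C) x) →+* F).comp
        ((algebraMap ↥(Algebra.adjoin C {x}) ↥(Bx (C := C) x)).comp (S.psiR hxC)) := by
    refine RingHom.ext fun p₀ => ?_
    exact (coe_psiR hx hxC p₀).symm
  have h3 := Polynomial.hom_eval₂ Φ (psi hx) S.V.subtype f
  have h4 := Polynomial.hom_eval₂ Φ
    ((algebraMap ↥(Algebra.adjoin C {x}) ↥(Bx (C := C) x)).comp (S.psiR hxC))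
    ((Bx (C := C) x).val : ↥(Bx (C := C) x) →+* F) (⟨(f : F), hf⟩ : ↥(Bx (C := C) x))
  calc ((Polynomial.eval₂ (psi hx) f Φ : ↥S.V) : F)
      = S.V.subtype (Polynomial.eval₂ (psi hx) f Φ) := rfl
    _ = Polynomial.eval₂ (S.V.subtype.comp (psi hx)) (S.V.subtype f) Φ := h3
    _ = _ := by rw [h2]; exact h4.symm

end Fermat.Agent.RED.H42
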