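import Fermat.Agent.RED.H42_Gen1

/-!
# G-RED package GEN (helper42), part 2: polynomial spans and the witness lemma

`GSpan C x e b` : `b = ∑ p i (x) * e i` with `p i ∈ C[X]`.
`exists_witness` : if `e` is a `C(x)`-basis of `F` and `b ∉ GSpan e`, there are `a ∈ C`, constants
`h i ∈ O` with `h i₀ = 1` and `b' ∉ GSpan e` with `(x - a) b' = ∑ h i * e i`.
-/

set_option autoImplicit false

noncomputable section

open Polynomial IntermediateField Module

namespace Fermat.Agent.RED.H42

open Fermat.Agent.RED.H34 Fermat.Agent.RED.H34.RedSetting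

variable {C F : Type} [Field C] [Field F] [Algebra C F]

/-- `b` is a polynomial combination of the `e i`. -/
def GSpan (C : Type) {F : Type} [Field C] [Field F] [Algebra C F] (x : F) {ι : Type} [Fintype ι]
    (e : ι → F) (b : F) : Prop :=
  ∃ p : ι → C[X], b = ∑ i, Polynomial.aeval x (p i) * e i

section GSpan

variable {x : F} {ι : Type} [Fintype ι] {e : ι → F}

theorem GSpan.zero : GSpan C x e 0 := ⟨fun _ => 0, by simp⟩

theorem GSpan.add {b b' : F} (hb : GSpan C x e b) (hb' : GSpan C x e b') :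
    GSpan C x e (b + b') := by
  obtain ⟨p, rfl⟩ := hb
  obtain ⟨p', rfl⟩ := hb'
  refine ⟨fun i => p i + p' i, ?_⟩
  rw [← Finset.sum_add_distrib]
  refine Finset.sum_congr rfl fun i _ => ?_
  rw [map_add, add_mul]

theorem GSpan.aeval_mul {b : F} (hb : GSpan C x e b) (q : C[X]) :
    GSpan C x e (Polynomial.aeval x q * b) := by
  obtain ⟨p, rfl⟩ := hb
  refine ⟨fun i => q * p i, ?_⟩
  rw [Finset.mul_sum]
  refine Finset.sum_congr rfl fun i _ => ?_
  rw [map_mul, mul_assoc]

theorem GSpan.const_mul {b : F} (hb : GSpan C x e b) (c : C) :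
    GSpan C x e (algebraMap C F c * b) := by
  have := hb.aeval_mul (Polynomial.C c)
  rwa [Polynomial.aeval_C] at this

theorem GSpan.neg {b : F} (hb : GSpan C x e b) : GSpan C x e (-b) := by
  have := hb.const_mul (-1)
  rwa [map_neg, map_one, neg_one_mul] at this

theorem GSpan.sub {b b' : F} (hb : GSpan C x e b) (hb' : GSpan C x e b') :
    GSpan C x e (b - b') := by
  rw [sub_eq_add_neg]
  exact hb.add hb'.neg

theorem GSpan.self (i : ι) : GSpan C x e (e i) := by
  classical
  refine ⟨fun j => if j = i then 1 else 0, ?_⟩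
  rw [Finset.sum_eq_single i]
  · simp
  · intro j _ hj
    simp [hj]
  · intro h
    exact absurd (Finset.mem_univ i) h

theorem GSpan.sum_mul (p : ι → C[X]) : GSpan C x e (∑ i, Polynomial.aeval x (p i) * e i) :=
  ⟨p, rfl⟩

theorem GSpan.isIntegral {b : F} (hb : GSpan C x e b)
    (he : ∀ i, IsIntegral ↥(Algebra.adjoin C {x}) (e i)) :
    IsIntegral ↥(Algebra.adjoin C {x}) b := by
  obtain ⟨p, rfl⟩ := hb
  refine IsIntegral.sum _ fun i _ => IsIntegral.mul ?_ (he i)
  have : Polynomial.aeval x (p i) ∈ Algebra.adjoin C {x} := by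
    rw [Algebra.adjoin_singleton_eq_range_aeval]
    exact ⟨p i, rfl⟩
  exact isIntegral_algebraMap (x := (⟨_, this⟩ : ↥(Algebra.adjoin C {x})))

theorem isIntegral_aeval_mul {b : F} (hb : IsIntegral ↥(Algebra.adjoin C {x}) b) (q : C[X]) :
    IsIntegral ↥(Algebra.adjoin C {x}) (Polynomial.aeval x q * b) := by
  refine IsIntegral.mul ?_ hb
  have : Polynomial.aeval x q ∈ Algebra.adjoin C {x} := by
    rw [Algebra.adjoin_singleton_eq_range_aeval]
    exact ⟨q, rfl⟩
  exact isIntegral_algebraMap (x := (⟨_, this⟩ : ↥(Algebra.adjoin C {x})))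

/-- Every element of the `C(x)`-span of `e` has a nonzero polynomial multiple in `GSpan e`. -/
theorem exists_mul_gspan (hxC : Transcendental C x) (b : F)
    (hb : b ∈ Submodule.span ↥C⟮x⟯ (Set.range e)) :
    ∃ g : C[X], g ≠ 0 ∧ GSpan C x e (Polynomial.aeval x g * b) := by
  induction hb using Submodule.span_induction with
  | mem y hy =>
    obtain ⟨i, rfl⟩ := hy
    exact ⟨1, one_ne_zero, by rw [map_one, one_mul]; exact GSpan.self i⟩
  | zero => exact ⟨1, one_ne_zero, by rw [mul_zero]; exact GSpan.zero⟩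
  | add y z _ _ hy hz =>
    obtain ⟨g, hg, hgy⟩ := hy
    obtain ⟨g', hg', hgz⟩ := hz
    refine ⟨g * g', mul_ne_zero hg hg', ?_⟩
    rw [map_mul, mul_add]
    refine GSpan.add ?_ ?_
    · have := hgy.aeval_mul g'
      rwa [← mul_assoc, mul_comm (Polynomial.aeval x g') (Polynomial.aeval x g)] at this
    · have := hgz.aeval_mul g
      rwa [← mul_assoc] at this
  | smul r y _ hy =>
    obtain ⟨g, hg, hgy⟩ := hy
    obtain ⟨p, q, hpq⟩ := (IntermediateField.mem_adjoin_simple_iff C (r : F)).1 r.2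
    by_cases hq : q = 0
    · refine ⟨1, one_ne_zero, ?_⟩
      have : r • y = 0 := by
        rw [IntermediateField.smul_def, smul_eq_mul, hpq, hq, map_zero, div_zero, zero_mul]
      rw [this, mul_zero]
      exact GSpan.zero
    · have hq0 : Polynomial.aeval x q ≠ 0 := fun h => hq ((transcendental_iff.1 hxC) q h)
      refine ⟨q * g, mul_ne_zero hq hg, ?_⟩
      have : Polynomial.aeval x (q * g) * r • y =
          Polynomial.aeval x p * (Polynomial.aeval x g * y) := by
        rw [IntermediateField.smul_def, smul_eq_mul, hpq, map_mul]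
        field_simp
      rw [this]
      exact hgy.aeval_mul p

end GSpan

section Witness

variable {x : F} {ι : Type} [Fintype ι] {e : ι → F}

theorem exists_prime_witness_aux [IsAlgClosed C] (n : ℕ) : ∀ (g : C[X]) (b : F),
    g.natDegree = n → g ≠ 0 →
    IsIntegral ↥(Algebra.adjoin C {x}) b → ¬ GSpan C x e b →
    GSpan C x e (Polynomial.aeval x g * b) →
    ∃ (a : C) (b' : F), IsIntegral ↥(Algebra.adjoin C {x}) b' ∧ ¬ GSpan C x e b' ∧
      GSpan C x e ((x - algebraMap C F a) * b') := by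
  induction n with
  | zero =>
    intro g b hdeg hg hb hnb hgb
    exfalso
    obtain ⟨c, rfl⟩ := Polynomial.natDegree_eq_zero.1 hdeg
    have hc : c ≠ 0 := fun h => hg (by rw [h, map_zero])
    rw [Polynomial.aeval_C] at hgb
    have := hgb.const_mul c⁻¹
    rw [← mul_assoc, ← map_mul, inv_mul_cancel₀ hc, map_one, one_mul] at this
    exact hnb this
  | succ n ih =>
    intro g b hdeg hg hb hnb hgb
    have hd : g.degree ≠ 0 := by
      intro h
      have h1 : g.natDegree = 0 := Polynomial.natDegree_eq_of_degree_eq_some h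
      rw [hdeg] at h1
      exact Nat.succ_ne_zero n h1
    obtain ⟨a, ha⟩ := IsAlgClosed.exists_root g hd
    have hfac := Polynomial.mul_divByMonic_eq_iff_isRoot.2 ha
    have hg' : g /ₘ (Polynomial.X - Polynomial.C a) ≠ 0 := by
      intro h
      rw [h, mul_zero] at hfac
      exact hg hfac.symm
    have hdeg' : (g /ₘ (Polynomial.X - Polynomial.C a)).natDegree = n := by
      rw [Polynomial.natDegree_divByMonic _ (Polynomial.monic_X_sub_C a),
        Polynomial.natDegree_X_sub_C, hdeg]
      rfl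
    have hmul : (x - algebraMap C F a) *
        (Polynomial.aeval x (g /ₘ (Polynomial.X - Polynomial.C a)) * b) =
        Polynomial.aeval x g * b := by
      conv_rhs => rw [← hfac]
      rw [map_mul, map_sub, Polynomial.aeval_X, Polynomial.aeval_C, mul_assoc]
    by_cases hsp : GSpan C x e (Polynomial.aeval x (g /ₘ (Polynomial.X - Polynomial.C a)) * b)
    · exact ih _ b hdeg' hg' hb hnb hsp
    · exact ⟨a, _, isIntegral_aeval_mul hb _, hsp, by rw [hmul]; exact hgb⟩

theorem exists_const_witness {a : C} {b : F} (he : ∀ i, IsIntegral ↥(Algebra.adjoin C {x}) (e i))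
    (hb : IsIntegral ↥(Algebra.adjoin C {x}) b) (hnb : ¬ GSpan C x e b)
    (hab : GSpan C x e ((x - algebraMap C F a) * b)) :
    ∃ (b' : F) (h : ι → C), IsIntegral ↥(Algebra.adjoin C {x}) b' ∧ ¬ GSpan C x e b' ∧
      (x - algebraMap C F a) * b' = ∑ i, algebraMap C F (h i) * e i := by
  obtain ⟨p, hp⟩ := hab
  refine ⟨b - ∑ i, Polynomial.aeval x (p i /ₘ (Polynomial.X - Polynomial.C a)) * e i,
    fun i => (p i).eval a, ?_, ?_, ?_⟩
  · exact IsIntegral.sub hb ((GSpan.sum_mul _).isIntegral he)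
  · intro h
    apply hnb
    have := h.add (GSpan.sum_mul (x := x) (e := e)
      (fun i => p i /ₘ (Polynomial.X - Polynomial.C a)))
    simpa using this
  · rw [mul_sub, hp, Finset.mul_sum, ← Finset.sum_sub_distrib]
    refine Finset.sum_congr rfl fun i _ => ?_
    have h1 := Polynomial.modByMonic_add_div (p i) (Polynomial.X - Polynomial.C a)
    rw [Polynomial.modByMonic_X_sub_C_eq_C_eval] at h1
    have h2 := congrArg (Polynomial.aeval x) h1
    simp only [map_add, map_mul, map_sub, Polynomial.aeval_X, Polynomial.aeval_C] at h2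
    rw [← h2]
    ring

theorem exists_unit_witness (O : ValuationSubring C) {a : C} {b : F} {h : ι → C}
    (hxa : x - algebraMap C F a ≠ 0)
    (hb : IsIntegral ↥(Algebra.adjoin C {x}) b) (hnb : ¬ GSpan C x e b)
    (hab : (x - algebraMap C F a) * b = ∑ i, algebraMap C F (h i) * e i) :
    ∃ (b' : F) (h' : ι → ↥O) (i₀ : ι), IsIntegral ↥(Algebra.adjoin C {x}) b' ∧
      ¬ GSpan C x e b' ∧ h' i₀ = 1 ∧
      (x - algebraMap C F a) * b' = ∑ i, algebraMap C F (h' i : C) * e i := by
  classical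
  have hex : ∃ i, h i ≠ 0 := by
    by_contra hno
    push Not at hno
    have h0 : (x - algebraMap C F a) * b = 0 := by
      rw [hab]
      exact Finset.sum_eq_zero fun i _ => by rw [hno i, map_zero, zero_mul]
    rcases mul_eq_zero.1 h0 with h1 | h1
    · exact hxa h1
    · exact hnb (h1 ▸ GSpan.zero)
  obtain ⟨i₁, hi₁⟩ := hex
  obtain ⟨i₀, -, hmax⟩ := Finset.exists_max_image (Finset.univ : Finset ι)
    (fun i => O.valuation (h i)) ⟨i₁, Finset.mem_univ i₁⟩
  have hv1 : O.valuation (h i₁) ≠ 0 := (Valuation.ne_zero_iff _).2 hi₁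
  have hv0 : O.valuation (h i₀) ≠ 0 := by
    intro h0
    have := hmax i₁ (Finset.mem_univ i₁)
    rw [h0] at this
    exact hv1 (le_antisymm this zero_le)
  have hc : h i₀ ≠ 0 := (Valuation.ne_zero_iff _).1 hv0
  have hall : ∀ i, h i / h i₀ ∈ O := by
    intro i
    rw [← O.valuation_le_one_iff, map_div₀, div_le_one₀ (zero_lt_iff.2 hv0)]
    exact hmax i (Finset.mem_univ i)
  refine ⟨algebraMap C F (h i₀)⁻¹ * b, fun i => ⟨h i / h i₀, hall i⟩, i₀, ?_, ?_, ?_, ?_⟩
  · have := isIntegral_aeval_mul hb (Polynomial.C (h i₀)⁻¹)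
    rwa [Polynomial.aeval_C] at this
  · intro hsp
    apply hnb
    have := hsp.const_mul (h i₀)
    rwa [← mul_assoc, ← map_mul, mul_inv_cancel₀ hc, map_one, one_mul] at this
  · apply Subtype.ext
    exact div_self hc
  · rw [mul_left_comm, hab, Finset.mul_sum]
    refine Finset.sum_congr rfl fun i _ => ?_
    rw [← mul_assoc, ← map_mul, inv_mul_eq_div]

/-- **Witness lemma.** -/
theorem exists_witness [IsAlgClosed C] (O : ValuationSubring C) (hxC : Transcendental C x)
    (he : ∀ i, IsIntegral ↥(Algebra.adjoin C {x}) (e i))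
    (hspan : ⊤ ≤ Submodule.span ↥C⟮x⟯ (Set.range e))
    {b : F} (hb : IsIntegral ↥(Algebra.adjoin C {x}) b) (hnb : ¬ GSpan C x e b) :
    ∃ (a : C) (b' : F) (h' : ι → ↥O) (i₀ : ι), IsIntegral ↥(Algebra.adjoin C {x}) b' ∧
      ¬ GSpan C x e b' ∧ h' i₀ = 1 ∧
      (x - algebraMap C F a) * b' = ∑ i, algebraMap C F (h' i : C) * e i := by
  obtain ⟨g, hg, hgb⟩ := exists_mul_gspan hxC b (hspan Submodule.mem_top)
  obtain ⟨a, b₁, hb₁, hnb₁, hab₁⟩ := exists_prime_witness_aux _ g b rfl hg hb hnb hgb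
  obtain ⟨b₂, h, hb₂, hnb₂, hab₂⟩ := exists_const_witness he hb₁ hnb₁ hab₁
  have hxa : x - algebraMap C F a ≠ 0 := by
    intro h0
    have : Polynomial.aeval x (Polynomial.X - Polynomial.C a) = 0 := by
      rw [map_sub, Polynomial.aeval_X, Polynomial.aeval_C, h0]
    exact Polynomial.X_sub_C_ne_zero a ((transcendental_iff.1 hxC) _ this)
  obtain ⟨b₃, h', i₀, hb₃, hnb₃, hi₀, hab₃⟩ := exists_unit_witness O hxa hb₂ hnb₂ hab₂
  exact ⟨a, b₃, h', i₀, hb₃, hnb₃, hi₀, hab₃⟩

end Witness

section Repl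

variable {A : Type*} [CommRing A] {ι : Type} [Fintype ι] [DecidableEq ι]

theorem gen_repl2 (r h l : ι → A) (i₀ : ι) :
    ∑ i, l i * (Function.update r i₀ (∑ j, h j * r j)) i =
      ∑ j, ((if j = i₀ then 0 else l j) + l i₀ * h j) * r j := by
  have h1 : ∀ i, l i * (Function.update r i₀ (∑ j, h j * r j)) i =
      (if i = i₀ then 0 else l i) * r i + (if i = i₀ then l i₀ * ∑ j, h j * r j else 0) := by
    intro i
    by_cases hi : i = i₀
    · subst hi
      simp
    · simp [hi]
  rw [Finset.sum_congr rfl fun i _ => h1 i, Finset.sum_add_distrib, Finset.sum_ite_eq']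
  simp only [Finset.mem_univ, if_true]
  rw [Finset.mul_sum, ← Finset.sum_add_distrib]
  refine Finset.sum_congr rfl fun j _ => ?_
  ring

theorem gen_repl1 (r h c : ι → A) (i₀ : ι) (hi₀ : h i₀ = 1) :
    ∑ i, c i * r i =
      ∑ i, (if i = i₀ then c i₀ else c i - c i₀ * h i) *
        (Function.update r i₀ (∑ j, h j * r j)) i := by
  rw [gen_repl2]
  refine Finset.sum_congr rfl fun j _ => ?_
  by_cases hj : j = i₀
  · subst hj
    simp [hi₀]
  · simp [hj]

end Repl

end Fermat.Agent.RED.H42
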