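import Fermat.Agent.RED.H42_Gen2

/-!
# G-RED package GEN (helper42), part 3: lifted bases, the two cases of the exchange step

`IsLift hx e` : `e : ι → F` lies in `B ∩ V` and its reduction is a `k[xt]`-basis of `Bt`.
* `case_small` : the witness `(x - a) b = ∑ h i e i` with `a ∈ O` is impossible.
* `case_large` : for `a ∉ O` the witness yields a lifted basis with a strictly bigger span.
-/

set_option autoImplicit false

noncomputable section

open Polynomial IntermediateField Module

namespace Fermat.Agent.RED.H42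

open Fermat.Agent.RED.H34 Fermat.Agent.RED.H34.RedSetting

variable {C F k Ft : Type} [Field C] [Field F] [Algebra C F] [Field k] [Field Ft] [Algebra k Ft]
variable {S : RedSetting C F k Ft} {x : F} (hx : x ∈ S.V)

/-- A lifted basis: a family in `B ∩ V` whose reduction is a `k[xt]`-basis of `Bt`. -/
structure IsLift (hx : x ∈ S.V) {ι : Type} [Fintype ι] (e : ι → F) : Prop where
  memV : ∀ i, e i ∈ S.V
  int : ∀ i, IsIntegral ↥(Algebra.adjoin C {x}) (e i)
  lin : LinearIndependent ↥k⟮S.red ⟨x, hx⟩⟯ (fun i => S.red ⟨e i, memV i⟩)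
  span : ∀ y : Ft, IsIntegral ↥(Algebra.adjoin k {S.red ⟨x, hx⟩}) y →
      ∃ c : ι → k[X], y = ∑ i, Polynomial.aeval (S.red ⟨x, hx⟩) (c i) * S.red ⟨e i, memV i⟩

variable {ι : Type} [Fintype ι] {e : ι → F}

theorem aeval_mem_simple {K E : Type} [Field K] [Field E] [Algebra K E] (t : E) (p : K[X]) :
    Polynomial.aeval t p ∈ K⟮t⟯ :=
  IntermediateField.algebra_adjoin_le_adjoin K {t} (Polynomial.aeval_mem_adjoin_singleton K t)

theorem IsLift.linearIndependent (he : IsLift hx e) (hxt : Transcendental k (S.red ⟨x, hx⟩)) :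
    LinearIndependent ↥C⟮x⟯ e :=
  linearIndependent_lift hx e he.memV hxt he.lin

theorem IsLift.span_top (he : IsLift hx e) (hxt : Transcendental k (S.red ⟨x, hx⟩))
    [FiniteDimensional ↥C⟮x⟯ F] (hcard : Fintype.card ι = Module.finrank ↥C⟮x⟯ F) :
    ⊤ ≤ Submodule.span ↥C⟮x⟯ (Set.range e) :=
  ((he.linearIndependent hx hxt).span_eq_top_of_card_eq_finrank' hcard).ge

/-- Uniqueness of polynomial coordinates of the reduction. -/
theorem IsLift.coeff_unique (he : IsLift hx e) (hxt : Transcendental k (S.red ⟨x, hx⟩))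
    (c : ι → k[X]) (h0 : ∑ i, Polynomial.aeval (S.red ⟨x, hx⟩) (c i) * S.red ⟨e i, he.memV i⟩ = 0)
    (i : ι) : c i = 0 := by
  have h1 : ∑ j, (⟨Polynomial.aeval (S.red ⟨x, hx⟩) (c j), aeval_mem_simple _ _⟩ :
      ↥k⟮S.red ⟨x, hx⟩⟯) • S.red ⟨e j, he.memV j⟩ = 0 := by
    rw [← h0]
    refine Finset.sum_congr rfl fun j _ => ?_
    rw [IntermediateField.smul_def, smul_eq_mul]
  have h2 := (Fintype.linearIndependent_iff.1 he.lin) _ h1 i
  have h3 : Polynomial.aeval (S.red ⟨x, hx⟩) (c i) = 0 := congrArg Subtype.val h2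
  exact (transcendental_iff.1 hxt) _ h3

/-- The combination `∑ h i * e i` as an element of `V`. -/
def combV (he : IsLift hx e) (h : ι → ↥S.O) : ↥S.V :=
  ∑ i, S.inclO (h i) * ⟨e i, he.memV i⟩

theorem coe_combV (he : IsLift hx e) (h : ι → ↥S.O) :
    ((combV hx he h : ↥S.V) : F) = ∑ i, algebraMap C F (h i : C) * e i := by
  rw [combV, AddSubmonoidClass.coe_finsetSum]
  rfl

theorem red_combV (he : IsLift hx e) (h : ι → ↥S.O) :
    S.red (combV hx he h) =
      ∑ i, Polynomial.aeval (S.red ⟨x, hx⟩) (Polynomial.C (S.resO (h i))) *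
        S.red ⟨e i, he.memV i⟩ := by
  rw [combV, map_sum]
  refine Finset.sum_congr rfl fun i _ => ?_
  rw [map_mul, red_inclO, Polynomial.aeval_C]

/-- **Case `|a| ≤ 1`** of the exchange step: impossible. -/
theorem case_small [CharZero C] (hxt : Transcendental k (S.red ⟨x, hx⟩))
    [FiniteDimensional ↥C⟮x⟯ F]
    (hdeg : Module.finrank ↥k⟮S.red ⟨x, hx⟩⟯ Ft = Module.finrank ↥C⟮x⟯ F)
    (he : IsLift hx e) {a : C} (ha : a ∈ S.O) {b : F}
    (hb : IsIntegral ↥(Algebra.adjoin C {x}) b) (h : ι → ↥S.O) (i₀ : ι) (hi₀ : h i₀ = 1)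
    (hab : (x - algebraMap C F a) * b = ∑ i, algebraMap C F (h i : C) * e i) : False := by
  -- the unit `w = x - a`
  let q : (↥S.O)[X] := Polynomial.X - Polynomial.C ⟨a, ha⟩
  have hqmap : q.map S.resO = Polynomial.X - Polynomial.C (S.resO ⟨a, ha⟩) := by
    simp [q]
  have hqne : q.map S.resO ≠ 0 := by
    rw [hqmap]
    exact Polynomial.X_sub_C_ne_zero _
  obtain ⟨w, hw⟩ := isUnit_psi hx hxt q hqne
  have hwF : (((w : (↥S.V)ˣ) : ↥S.V) : F) = x - algebraMap C F a := by
    rw [hw, coe_psi]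
    simp [q]
  -- `b ∈ V`
  have hbV : b = ((((w⁻¹ : (↥S.V)ˣ) : ↥S.V) * combV hx he h : ↥S.V) : F) := by
    have h1 : ((((w : (↥S.V)ˣ) : ↥S.V) * (((w⁻¹ : (↥S.V)ˣ) : ↥S.V) * combV hx he h) : ↥S.V) : F)
        = (x - algebraMap C F a) * b := by
      rw [← mul_assoc, ← Units.val_mul, mul_inv_cancel, Units.val_one, one_mul, coe_combV, hab]
    rw [Subring.coe_mul, hwF] at h1
    have hne : x - algebraMap C F a ≠ 0 := by
      rw [← hwF]
      intro h0
      have : ((w : (↥S.V)ˣ) : ↥S.V) = 0 := Subtype.ext h0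
      exact w.ne_zero this
    exact (mul_left_cancel₀ hne h1).symm
  set bV : ↥S.V := ((w⁻¹ : (↥S.V)ˣ) : ↥S.V) * combV hx he h with hbVdef
  have hbint : IsIntegral ↥(Algebra.adjoin C {x}) (bV : F) := by
    rw [← hbV]
    exact hb
  have hred := gen_red_isIntegral hx hxt hdeg bV hbint
  obtain ⟨c, hc⟩ := he.span _ hred
  have hmul : S.red ((w : (↥S.V)ˣ) : ↥S.V) * S.red bV = S.red (combV hx he h) := by
    rw [← map_mul, hbVdef, ← mul_assoc, ← Units.val_mul, mul_inv_cancel, Units.val_one, one_mul]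
  rw [hw, red_psi, hqmap, red_combV, hc, Finset.mul_sum] at hmul
  have h0 : ∑ i, Polynomial.aeval (S.red ⟨x, hx⟩)
      ((Polynomial.X - Polynomial.C (S.resO ⟨a, ha⟩)) * c i - Polynomial.C (S.resO (h i))) *
        S.red ⟨e i, he.memV i⟩ = 0 := by
    rw [← sub_eq_zero, ← Finset.sum_sub_distrib] at hmul
    rw [← hmul]
    refine Finset.sum_congr rfl fun i _ => ?_
    rw [map_sub, map_mul, sub_mul, mul_assoc]
  have h1 := he.coeff_unique hx hxt _ h0 i₀
  have h2 := congrArg (Polynomial.eval (S.resO ⟨a, ha⟩)) h1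
  rw [hi₀, map_one] at h2
  simp at h2

theorem GSpan.of_forall {e' : ι → F} (h : ∀ i, GSpan C x e' (e i)) {b : F}
    (hb : GSpan C x e b) : GSpan C x e' b := by
  obtain ⟨p, rfl⟩ := hb
  exact Finset.sum_induction _ (GSpan C x e') (fun _ _ ha hb => ha.add hb) GSpan.zero
    fun i _ => (h i).aeval_mul (p i)

/-- **Case `|a| > 1`** of the exchange step: a lifted basis with a strictly bigger span. -/
theorem case_large [DecidableEq ι] (hxt : Transcendental k (S.red ⟨x, hx⟩))
    (he : IsLift hx e) {a : C} (ha : a ∉ S.O) {b : F}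
    (hb : IsIntegral ↥(Algebra.adjoin C {x}) b) (hnb : ¬ GSpan C x e b)
    (h : ι → ↥S.O) (i₀ : ι) (hi₀ : h i₀ = 1)
    (hab : (x - algebraMap C F a) * b = ∑ i, algebraMap C F (h i : C) * e i) :
    ∃ e' : ι → F, IsLift hx e' ∧ (∀ b', GSpan C x e b' → GSpan C x e' b') ∧
      ∃ b₁, GSpan C x e' b₁ ∧ ¬ GSpan C x e b₁ := by
  have ha0 : a ≠ 0 := fun h0 => ha (h0 ▸ S.O.zero_mem)
  have hinv : a⁻¹ ∈ S.O := (S.O.mem_or_inv_mem a).resolve_left ha
  have hnu : ¬ IsUnit (⟨a⁻¹, hinv⟩ : ↥S.O) := by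
    rintro ⟨v, hv⟩
    apply ha
    have h1 : (((v⁻¹ : (↥S.O)ˣ) : ↥S.O) : C) * a⁻¹ = 1 := by
      have : ((v⁻¹ : (↥S.O)ˣ) : ↥S.O) * (⟨a⁻¹, hinv⟩ : ↥S.O) = 1 := by
        rw [← hv, ← Units.val_mul, inv_mul_cancel, Units.val_one]
      exact congrArg Subtype.val this
    have h2 : (((v⁻¹ : (↥S.O)ˣ) : ↥S.O) : C) = a := by
      field_simp at h1
      exact h1
    rw [← h2]
    exact Subtype.mem _
  have hres : S.resO ⟨a⁻¹, hinv⟩ = 0 := (S.resO_eq_zero_iff _).2 hnu
  -- the unit `u = 1 - x / a`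
  let q : (↥S.O)[X] := 1 - Polynomial.C ⟨a⁻¹, hinv⟩ * Polynomial.X
  have hqmap : q.map S.resO = 1 := by
    simp [q, hres]
  have hqne : q.map S.resO ≠ 0 := by
    rw [hqmap]
    exact one_ne_zero
  obtain ⟨u, hu⟩ := isUnit_psi hx hxt q hqne
  have huF : (((u : (↥S.V)ˣ) : ↥S.V) : F) =
      Polynomial.aeval x (1 - Polynomial.C a⁻¹ * Polynomial.X : C[X]) := by
    rw [hu, coe_psi]
    simp [q]
  have huF' : (((u : (↥S.V)ˣ) : ↥S.V) : F) = 1 - algebraMap C F a⁻¹ * x := by
    rw [huF]
    simp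
  have hured : S.red ((u : (↥S.V)ˣ) : ↥S.V) = 1 := by
    rw [hu, red_psi, hqmap, map_one]
  have huinv : S.red ((u⁻¹ : (↥S.V)ˣ) : ↥S.V) = 1 := by
    have : S.red ((u : (↥S.V)ˣ) : ↥S.V) * S.red ((u⁻¹ : (↥S.V)ˣ) : ↥S.V) = 1 := by
      rw [← map_mul, ← Units.val_mul, mul_inv_cancel, Units.val_one, map_one]
    rwa [hured, one_mul] at this
  have hune : (((u : (↥S.V)ˣ) : ↥S.V) : F) ≠ 0 := by
    intro h0
    have : ((u : (↥S.V)ˣ) : ↥S.V) = 0 := Subtype.ext h0
    exact u.ne_zero this
  set bV : ↥S.V := ((u⁻¹ : (↥S.V)ˣ) : ↥S.V) * combV hx he h with hbVdef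
  have hubV : ((u : (↥S.V)ˣ) : ↥S.V) * bV = combV hx he h := by
    rw [hbVdef, ← mul_assoc, ← Units.val_mul, mul_inv_cancel, Units.val_one, one_mul]
  have hubF : (((u : (↥S.V)ˣ) : ↥S.V) : F) * (bV : F) = ∑ i, algebraMap C F (h i : C) * e i := by
    rw [← Subring.coe_mul, hubV, coe_combV]
  have hbVF : (bV : F) = algebraMap C F (-a) * b := by
    have h1 : (((u : (↥S.V)ˣ) : ↥S.V) : F) * (algebraMap C F (-a) * b) =
        (((u : (↥S.V)ˣ) : ↥S.V) : F) * (bV : F) := by
      rw [hubF, ← hab, huF', map_neg, map_inv₀]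
      have : algebraMap C F a ≠ 0 := fun h0 => ha0 ((map_eq_zero _).1 h0)
      field_simp
      ring
    exact (mul_left_cancel₀ hune h1).symm
  have hbVred : S.red bV = ∑ i, Polynomial.aeval (S.red ⟨x, hx⟩)
      (Polynomial.C (S.resO (h i))) * S.red ⟨e i, he.memV i⟩ := by
    rw [hbVdef, map_mul, huinv, one_mul, red_combV]
  have hbVint : IsIntegral ↥(Algebra.adjoin C {x}) (bV : F) := by
    rw [hbVF]
    have := isIntegral_aeval_mul hb (Polynomial.C (-a))
    rwa [Polynomial.aeval_C] at this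
  -- the new family
  have hmemV : ∀ i, Function.update e i₀ (bV : F) i ∈ S.V := by
    intro i
    by_cases hi : i = i₀
    · subst hi
      rw [Function.update_self]
      exact bV.2
    · rw [Function.update_of_ne hi]
      exact he.memV i
  have hredupd : ∀ i, S.red ⟨Function.update e i₀ (bV : F) i, hmemV i⟩ =
      Function.update (fun j => S.red ⟨e j, he.memV j⟩) i₀
        (∑ j, algebraMap k Ft (S.resO (h j)) * S.red ⟨e j, he.memV j⟩) i := by
    intro i
    by_cases hi : i = i₀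
    · subst hi
      have hR : Function.update (fun j => S.red ⟨e j, he.memV j⟩) i
          (∑ j, algebraMap k Ft (S.resO (h j)) * S.red ⟨e j, he.memV j⟩) i =
          ∑ j, algebraMap k Ft (S.resO (h j)) * S.red ⟨e j, he.memV j⟩ :=
        Function.update_self _ _ _
      have : (⟨Function.update e i (bV : F) i, hmemV i⟩ : ↥S.V) = bV := by
        apply Subtype.ext
        simp
      rw [hR, this, hbVred]
      refine Finset.sum_congr rfl fun j _ => ?_
      rw [Polynomial.aeval_C]
    · have hR : Function.update (fun j => S.red ⟨e j, he.memV j⟩) i₀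
          (∑ j, algebraMap k Ft (S.resO (h j)) * S.red ⟨e j, he.memV j⟩) i =
          S.red ⟨e i, he.memV i⟩ :=
        Function.update_of_ne hi _ _
      rw [hR]
      congr 1
      apply Subtype.ext
      simp [Function.update_of_ne hi]
  have hH : (fun j => algebraMap k Ft (S.resO (h j))) i₀ = 1 := by
    simp [hi₀]
  refine ⟨Function.update e i₀ (bV : F), ⟨hmemV, ?_, ?_, ?_⟩, ?_, (bV : F), ?_, ?_⟩
  · intro i
    by_cases hi : i = i₀
    · subst hi
      rw [Function.update_self]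
      exact hbVint
    · rw [Function.update_of_ne hi]
      exact he.int i
  · rw [Fintype.linearIndependent_iff]
    intro l hl
    have h1 : ∑ i, ((l i : ↥k⟮S.red ⟨x, hx⟩⟯) : Ft) *
        (Function.update (fun j => S.red ⟨e j, he.memV j⟩) i₀
          (∑ j, algebraMap k Ft (S.resO (h j)) * S.red ⟨e j, he.memV j⟩)) i = 0 := by
      rw [← hl]
      refine Finset.sum_congr rfl fun i _ => ?_
      rw [IntermediateField.smul_def, smul_eq_mul, hredupd]
    rw [gen_repl2] at h1
    have h2 : ∑ j, ((if j = i₀ then 0 else l j) +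
        l i₀ * algebraMap k ↥k⟮S.red ⟨x, hx⟩⟯ (S.resO (h j))) • S.red ⟨e j, he.memV j⟩ = 0 := by
      rw [← h1]
      refine Finset.sum_congr rfl fun j _ => ?_
      rw [IntermediateField.smul_def, smul_eq_mul]
      congr 1
      by_cases hj : j = i₀
      · simp [hj]
      · simp [hj]
    have h3 := Fintype.linearIndependent_iff.1 he.lin _ h2
    have h4 : l i₀ = 0 := by
      have := h3 i₀
      simpa [hi₀] using this
    intro i
    by_cases hi : i = i₀
    · rw [hi]
      exact h4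
    · have := h3 i
      simpa [hi, h4] using this
  · intro y hy
    obtain ⟨c, hc⟩ := he.span y hy
    refine ⟨fun i => if i = i₀ then c i₀ else c i - c i₀ * Polynomial.C (S.resO (h i)), ?_⟩
    rw [hc, gen_repl1 _ (fun j => algebraMap k Ft (S.resO (h j))) _ i₀ hH]
    refine Finset.sum_congr rfl fun i _ => ?_
    rw [hredupd]
    congr 1
    by_cases hi : i = i₀
    · simp [hi]
    · simp [hi]
  · intro b' hb'
    refine GSpan.of_forall (fun i => ?_) hb'
    by_cases hi : i = i₀
    · subst hi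
      have h1 : e i = Polynomial.aeval x (1 - Polynomial.C a⁻¹ * Polynomial.X : C[X]) *
          Function.update e i (bV : F) i -
          ∑ j ∈ Finset.univ.erase i, algebraMap C F (h j : C) * e j := by
        rw [Function.update_self, ← huF, hubF, ← Finset.add_sum_erase _ _ (Finset.mem_univ i),
          hi₀]
        simp
      rw [h1]
      refine GSpan.sub ((GSpan.self i).aeval_mul _) ?_
      refine Finset.sum_induction _ (GSpan C x _) (fun _ _ ha hb => ha.add hb) GSpan.zero ?_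
      intro j hj
      have hji : j ≠ i := Finset.ne_of_mem_erase hj
      have : e j = Function.update e i (bV : F) j := by
        rw [Function.update_of_ne hji]
      rw [this]
      exact (GSpan.self j).const_mul _
    · have : e i = Function.update e i₀ (bV : F) i := by
        rw [Function.update_of_ne hi]
      rw [this]
      exact GSpan.self i
  · have := GSpan.self (C := C) (x := x) (e := Function.update e i₀ (bV : F)) i₀
    rwa [Function.update_self] at this
  · intro hsp
    apply hnb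
    have h1 := hsp.const_mul (-a⁻¹)
    rw [hbVF, ← mul_assoc, ← map_mul] at h1
    have h2 : -a⁻¹ * -a = 1 := by
      field_simp
    rwa [h2, map_one, one_mul] at h1

end Fermat.Agent.RED.H42
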