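import Fermat.Agent.RED.H42_Gen6

/-!
# G-RED package GEN (helper42), part 7: `H¹ = 0` over `O` and the lifting theorem `gen_lift`

`S : RedSetting C F k Ft`, `x` a unit of `V` with transcendental reduction `xt`, both charts
(`x` and `x⁻¹`) normal.  Then for all large `N` every `y ∈ Ft` with `y` integral over `k[xt]` and
`xt⁻¹ ^ N * y` integral over `k[xt⁻¹]` is the reduction of some `g ∈ V` with `g` integral over
`C[x]` and `x⁻¹ ^ N * g` integral over `C[x⁻¹]`: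
`red : L(N (x)_∞) ∩ V → L~(N (xt)_∞)` is surjective.
-/

set_option autoImplicit false

noncomputable section

open Polynomial IntermediateField Module

namespace Fermat.Agent.RED.H42

open Fermat.Agent.RED.H34 Fermat.Agent.RED.H34.RedSetting

variable {C F k Ft : Type} [Field C] [Field F] [Algebra C F] [Field k] [Field Ft] [Algebra k Ft]
variable {S : RedSetting C F k Ft} {x : F} (hx : x ∈ S.V)

theorem isIntegral_coe_psi (p₀ : (↥S.O)[X]) :
    IsIntegral ↥(Algebra.adjoin C {x}) ((psi hx p₀ : ↥S.V) : F) := by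
  rw [coe_psi]
  exact isIntegral_algebraMap
    (x := (⟨_, Polynomial.aeval_mem_adjoin_singleton C x⟩ : ↥(Algebra.adjoin C {x})))

theorem coe_psi_X : ((psi hx Polynomial.X : ↥S.V) : F) = x := by
  rw [coe_psi]
  simp

theorem coe_psi_reflect (hx0 : x ≠ 0) (hx' : x⁻¹ ∈ S.V) (R : (↥S.O)[X]) (M : ℕ)
    (h : R.natDegree ≤ M) :
    ((psi hx' (Polynomial.reflect M R) : ↥S.V) : F) = ((psi hx R : ↥S.V) : F) * x⁻¹ ^ M := by
  rw [coe_psi, coe_psi, ← Polynomial.reflect_map,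
    aeval_inv_reflect hx0 _ M (Polynomial.natDegree_map_le.trans h)]

variable {ι : Type} [Fintype ι]

/-- **`H¹ = 0` over `O`**: an element `t ∈ V` with `x ^ M * t ∈ B` splits as `a + x ^ N * b` with
`a ∈ B ∩ V` and `b ∈ B' ∩ V`, as soon as `x⁻¹ ^ N * e i ∈ B'` for a chart basis `e`. -/
theorem exists_split (hx0 : x ≠ 0) (hx' : x⁻¹ ∈ S.V) {e : ι → F} (heV : ∀ i, e i ∈ S.V)
    (heint : ∀ i, IsIntegral ↥(Algebra.adjoin C {x}) (e i))
    (hrep : ∀ f : F, f ∈ S.V → IsIntegral ↥(Algebra.adjoin C {x}) f →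
      ∃ p : ι → (↥S.O)[X], f = ∑ i, ((psi hx (p i) : ↥S.V) : F) * e i)
    (N : ℕ) (heN : ∀ i, IsIntegral ↥(Algebra.adjoin C {x⁻¹}) (x⁻¹ ^ N * e i))
    (t : F) (ht : t ∈ S.V) (M : ℕ) (hM : IsIntegral ↥(Algebra.adjoin C {x}) (x ^ M * t)) :
    ∃ a b : ↥S.V, IsIntegral ↥(Algebra.adjoin C {x}) (a : F) ∧
      IsIntegral ↥(Algebra.adjoin C {x⁻¹}) (b : F) ∧ t = (a : F) + x ^ N * (b : F) := by
  have hMV : x ^ M * t ∈ S.V := mul_mem (pow_mem hx M) ht
  obtain ⟨p, hp⟩ := hrep _ hMV hM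
  have hsplit : ∀ i, p i %ₘ (Polynomial.X ^ M) + Polynomial.X ^ M * (p i /ₘ (Polynomial.X ^ M))
      = p i := fun i => Polynomial.modByMonic_add_div (p i) _
  have hRdeg : ∀ i, (p i %ₘ (Polynomial.X ^ M)).natDegree ≤ M := by
    intro i
    have := Polynomial.natDegree_modByMonic_le (p i) (Polynomial.monic_X_pow (R := ↥S.O) M)
    rwa [Polynomial.natDegree_X_pow] at this
  have hpsi : ∀ i, ((psi hx (p i) : ↥S.V) : F) =
      ((psi hx (p i %ₘ (Polynomial.X ^ M)) : ↥S.V) : F) +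
        x ^ M * ((psi hx (p i /ₘ (Polynomial.X ^ M)) : ↥S.V) : F) := by
    intro i
    conv_lhs => rw [← hsplit i]
    rw [map_add, map_mul, map_pow, Subring.coe_add, Subring.coe_mul, SubmonoidClass.coe_pow,
      coe_psi_X]
  let a : ↥S.V := ∑ i, psi hx (p i /ₘ (Polynomial.X ^ M)) * ⟨e i, heV i⟩
  let b : ↥S.V := ∑ i, psi hx' (Polynomial.reflect M (p i %ₘ (Polynomial.X ^ M))) *
    ⟨x⁻¹ ^ N * e i, mul_mem (pow_mem hx' N) (heV i)⟩
  have haF : (a : F) = ∑ i, ((psi hx (p i /ₘ (Polynomial.X ^ M)) : ↥S.V) : F) * e i := by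
    simp only [a, AddSubmonoidClass.coe_finsetSum]
    rfl
  have hbF : (b : F) = ∑ i, ((psi hx' (Polynomial.reflect M (p i %ₘ (Polynomial.X ^ M))) :
      ↥S.V) : F) * (x⁻¹ ^ N * e i) := by
    simp only [b, AddSubmonoidClass.coe_finsetSum]
    rfl
  refine ⟨a, b, ?_, ?_, ?_⟩
  · rw [haF]
    exact IsIntegral.sum _ fun i _ => (isIntegral_coe_psi hx _).mul (heint i)
  · rw [hbF]
    exact IsIntegral.sum _ fun i _ => (isIntegral_coe_psi hx' _).mul (heN i)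
  · have hxM : x ^ M ≠ 0 := pow_ne_zero M hx0
    apply mul_left_cancel₀ hxM
    rw [hp, haF, hbF, mul_add, Finset.mul_sum, Finset.mul_sum, Finset.mul_sum,
      ← Finset.sum_add_distrib]
    refine Finset.sum_congr rfl fun i _ => ?_
    rw [hpsi i, coe_psi_reflect hx hx0 hx' _ M (hRdeg i)]
    have h1 : x ^ M * (x ^ N * (((psi hx (p i %ₘ (Polynomial.X ^ M)) : ↥S.V) : F) * x⁻¹ ^ M *
        (x⁻¹ ^ N * e i))) = ((psi hx (p i %ₘ (Polynomial.X ^ M)) : ↥S.V) : F) * e i := by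
      have h2 : x ^ M * x⁻¹ ^ M = 1 := by rw [← mul_pow, mul_inv_cancel₀ hx0, one_pow]
      have h3 : x ^ N * x⁻¹ ^ N = 1 := by rw [← mul_pow, mul_inv_cancel₀ hx0, one_pow]
      calc x ^ M * (x ^ N * (((psi hx (p i %ₘ (Polynomial.X ^ M)) : ↥S.V) : F) * x⁻¹ ^ M *
            (x⁻¹ ^ N * e i)))
          = (x ^ M * x⁻¹ ^ M) * (x ^ N * x⁻¹ ^ N) *
            (((psi hx (p i %ₘ (Polynomial.X ^ M)) : ↥S.V) : F) * e i) := by ring
        _ = _ := by rw [h2, h3, one_mul, one_mul]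
    rw [h1]
    ring

/-- **GEN-lift**: for all large `N`, `red : L(N (x)_∞) ∩ V → L~(N (xt)_∞)` is surjective. -/
theorem gen_lift [IsAlgClosed C] [CharZero C] (hx' : x⁻¹ ∈ S.V)
    (hxt : Transcendental k (S.red ⟨x, hx⟩)) [FiniteDimensional ↥C⟮x⟯ F]
    (hdeg : Module.finrank ↥k⟮S.red ⟨x, hx⟩⟯ Ft = Module.finrank ↥C⟮x⟯ F)
    [Algebra.IsSeparable ↥k⟮S.red ⟨x, hx⟩⟯ Ft]
    (hcn : ∀ y : Ft, IsIntegral ↥(Algebra.adjoin k {S.red ⟨x, hx⟩}) y →
      ∃ f : ↥S.V, IsIntegral ↥(Algebra.adjoin C {x}) (f : F) ∧ S.red f = y)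
    (hcn' : ∀ y : Ft, IsIntegral ↥(Algebra.adjoin k {S.red ⟨x⁻¹, hx'⟩}) y →
      ∃ f : ↥S.V, IsIntegral ↥(Algebra.adjoin C {x⁻¹}) (f : F) ∧ S.red f = y) :
    ∃ N₀ : ℕ, ∀ N, N₀ ≤ N → ∀ y : Ft, IsIntegral ↥(Algebra.adjoin k {S.red ⟨x, hx⟩}) y →
      IsIntegral ↥(Algebra.adjoin k {S.red ⟨x⁻¹, hx'⟩}) (S.red ⟨x⁻¹, hx'⟩ ^ N * y) →
      ∃ g : ↥S.V, S.red g = y ∧ IsIntegral ↥(Algebra.adjoin C {x}) (g : F) ∧
        IsIntegral ↥(Algebra.adjoin C {x⁻¹}) (x⁻¹ ^ N * (g : F)) := by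
  classical
  have hxC := transcendental_x hx hxt
  have hx0 : x ≠ 0 := fun h0 => hxC (h0 ▸ isAlgebraic_zero)
  obtain ⟨e, he, hrep⟩ := exists_chart_basis hx hxt hdeg hcn
  choose c hc using fun i => exists_scale_isIntegral (C := C) hx0 (he.int i)
  refine ⟨Finset.univ.sup c, fun N hN y hy hy' => ?_⟩
  have heN : ∀ i, IsIntegral ↥(Algebra.adjoin C {x⁻¹}) (x⁻¹ ^ N * e i) := fun i =>
    hc i N ((Finset.le_sup (f := c) (Finset.mem_univ i)).trans hN)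
  obtain ⟨f, hfint, hfred⟩ := hcn y hy
  obtain ⟨f', hf'int, hf'red⟩ := hcn' _ hy'
  have hxx : (⟨x, hx⟩ : ↥S.V) * ⟨x⁻¹, hx'⟩ = 1 := Subtype.ext (mul_inv_cancel₀ hx0)
  have hxxt : S.red ⟨x, hx⟩ * S.red ⟨x⁻¹, hx'⟩ = 1 := by
    rw [← map_mul, hxx, map_one]
  have hxN : x ^ N * x⁻¹ ^ N = 1 := by rw [← mul_pow, mul_inv_cancel₀ hx0, one_pow]
  have hzred : S.red (f - ⟨x, hx⟩ ^ N * f') = 0 := by
    rw [map_sub, map_mul, map_pow, hfred, hf'red, ← mul_assoc, ← mul_pow, hxxt, one_pow,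
      one_mul, sub_self]
  by_cases hz : f - (⟨x, hx⟩ : ↥S.V) ^ N * f' = 0
  · refine ⟨f, hfred, hfint, ?_⟩
    have h1 : (f : F) = x ^ N * (f' : F) := by
      have := congrArg (fun v : ↥S.V => (v : F)) (sub_eq_zero.1 hz)
      simpa using this
    have h2 : x⁻¹ ^ N * (f : F) = (f' : F) := by
      rw [h1, ← mul_assoc, mul_comm (x⁻¹ ^ N), hxN, one_mul]
    rw [h2]
    exact hf'int
  · have hzF : ((f - (⟨x, hx⟩ : ↥S.V) ^ N * f' : ↥S.V) : F) ≠ 0 := fun h0 => hz (Subtype.ext h0)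
    obtain ⟨π, hπ0, t, hπt⟩ := S.scale _ hzF
    have hπF : algebraMap C F π ≠ 0 := fun h0 => hπ0 ((map_eq_zero _).1 h0)
    have htinv : (((t⁻¹ : (↥S.V)ˣ) : ↥S.V) : F) * (((t : (↥S.V)ˣ) : ↥S.V) : F) = 1 := by
      rw [← Subring.coe_mul, ← Units.val_mul, inv_mul_cancel]
      rfl
    have hπV : algebraMap C F π =
        (((f - (⟨x, hx⟩ : ↥S.V) ^ N * f') * ((t⁻¹ : (↥S.V)ˣ) : ↥S.V) : ↥S.V) : F) := by
      rw [Subring.coe_mul, hπt, mul_assoc, mul_comm ((((t : (↥S.V)ˣ) : ↥S.V) : F)), htinv,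
        mul_one]
    have hπO : π ∈ S.O := by
      rw [ValuationSubring.mem_comap, hπV]
      exact Subtype.mem _
    have hπred : S.red (S.inclO ⟨π, hπO⟩) = 0 := by
      have : S.inclO ⟨π, hπO⟩ = (f - (⟨x, hx⟩ : ↥S.V) ^ N * f') * ((t⁻¹ : (↥S.V)ˣ) : ↥S.V) :=
        Subtype.ext hπV
      rw [this, map_mul, hzred, zero_mul]
    -- the F-level equation `f = π t + x ^ N f'`
    have hfF : (f : F) = algebraMap C F π * (((t : (↥S.V)ˣ) : ↥S.V) : F) + x ^ N * (f' : F) := by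
      rw [← hπt]
      simp
    -- `x ^ M * t` is integral over `C[x]`
    obtain ⟨M, hM⟩ : ∃ c : ℕ, ∀ m, c ≤ m →
        IsIntegral ↥(Algebra.adjoin C {x}) (x ^ m * (f' : F)) := by
      have h1 := exists_scale_isIntegral (C := C) (inv_ne_zero hx0) hf'int
      rwa [inv_inv] at h1
    have hTint : IsIntegral ↥(Algebra.adjoin C {x}) (x ^ M * (((t : (↥S.V)ˣ) : ↥S.V) : F)) := by
      have h1 : x ^ M * (((t : (↥S.V)ˣ) : ↥S.V) : F) =
          Polynomial.aeval x (Polynomial.C π⁻¹ : C[X]) *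
            (Polynomial.aeval x (Polynomial.X ^ M : C[X]) * (f : F) -
              Polynomial.aeval x (Polynomial.X ^ N : C[X]) * (x ^ M * (f' : F))) := by
        rw [hfF]
        simp only [Polynomial.aeval_C, map_pow, Polynomial.aeval_X, map_inv₀]
        field_simp
        ring
      rw [h1]
      exact isIntegral_aeval_mul
        ((isIntegral_aeval_mul hfint _).sub (isIntegral_aeval_mul (hM M le_rfl) _)) _
    obtain ⟨a, b, haint, hbint, hab⟩ := exists_split hx hx0 hx' he.memV he.int hrep N heN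
      _ (Subtype.mem ((t : (↥S.V)ˣ) : ↥S.V)) M hTint
    refine ⟨f - S.inclO ⟨π, hπO⟩ * a, ?_, ?_, ?_⟩
    · rw [map_sub, map_mul, hπred, zero_mul, sub_zero, hfred]
    · have h1 : ((f - S.inclO ⟨π, hπO⟩ * a : ↥S.V) : F) =
          (f : F) - Polynomial.aeval x (Polynomial.C π : C[X]) * (a : F) := by
        simp
      rw [h1]
      exact hfint.sub (isIntegral_aeval_mul haint _)
    · have h1 : x⁻¹ ^ N * ((f - S.inclO ⟨π, hπO⟩ * a : ↥S.V) : F) =
          (f' : F) + Polynomial.aeval x⁻¹ (Polynomial.C π : C[X]) * (b : F) := by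
        have h2 : ((f - S.inclO ⟨π, hπO⟩ * a : ↥S.V) : F) =
            x ^ N * ((f' : F) + algebraMap C F π * (b : F)) := by
          rw [AddSubgroupClass.coe_sub, Subring.coe_mul, coe_inclO, hfF, hab]
          ring
        rw [h2, ← mul_assoc, mul_comm (x⁻¹ ^ N), hxN, one_mul, Polynomial.aeval_C]
      rw [h1]
      exact hf'int.add (isIntegral_aeval_mul hbint _)

end Fermat.Agent.RED.H42
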