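import Fermat.Agent.RED.H42_RiemannFinal
import Fermat.Agent.RED.H51_Ord

/-!
# G-RED package GEN (helper42), part 8: the dictionary `L(N (x)_∞)` ↔ integrality

`K` algebraically closed, `F / K` a function field, `x ∈ F` nonzero with finitely many poles,
`D = (x)_∞ = zeroDivisor x⁻¹`.  Then
`f ∈ L(N D)  ↔  f integral over K[x]  and  x⁻¹ ^ N * f integral over K[x⁻¹]`.
-/

set_option autoImplicit false

noncomputable section

open AlgebraicCurve IntermediateField WithZero Polynomial

namespace Fermat.Agent.RED.H42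

open Fermat.Agent.S24

variable {K F : Type} [Field K] [Field F] [Algebra K F]

local notation "L" => riemannRochSpace

theorem coe_mem_valuationSubring_of_adjoin (A : ValuationSubring F)
    (hK : ∀ a : K, algebraMap K F a ∈ A) {x : F} (hx : x ∈ A)
    (r : ↥(Algebra.adjoin K {x})) : (r : F) ∈ A := by
  let A' : Subalgebra K F := { A.toSubring with algebraMap_mem' := hK }
  have h1 : Algebra.adjoin K {x} ≤ A' := Algebra.adjoin_le (by
    intro y hy
    rw [Set.mem_singleton_iff] at hy
    rw [hy]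
    exact hx)
  exact h1 r.2

/-- A valuation subring containing `K[x]` contains the integral closure of `K[x]`. -/
theorem mem_valuationSubring_of_isIntegral (A : ValuationSubring F)
    (hK : ∀ a : K, algebraMap K F a ∈ A) {x : F} (hx : x ∈ A) {f : F}
    (hf : IsIntegral ↥(Algebra.adjoin K {x}) f) : f ∈ A := by
  obtain ⟨p, hp, h0⟩ := hf
  let ι : ↥(Algebra.adjoin K {x}) →+* ↥A :=
    ((Algebra.adjoin K {x}).val : ↥(Algebra.adjoin K {x}) →+* F).codRestrict A
      (coe_mem_valuationSubring_of_adjoin A hK hx)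
  have hint : IsIntegral ↥A f := by
    refine ⟨p.map ι, hp.map ι, ?_⟩
    rw [Polynomial.eval₂_map]
    exact h0
  obtain ⟨y, hy⟩ := IsIntegrallyClosedIn.isIntegral_iff.1 hint
  rw [← hy]
  exact y.2

/-- An element lying in all valuation subrings containing a set `s` is integral over the
subring generated by `s`. -/
theorem isIntegral_closure_of_forall_mem {s : Set F} {f : F}
    (h : ∀ A : ValuationSubring F, s ⊆ (A : Set F) → f ∈ A) :
    IsIntegral ↥(Subring.closure s) f := by
  have h1 : f ∈ (⨅ V : {V : ValuationSubring F // s ⊆ V.toSubring}, V.1.toSubring) := by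
    rw [Subring.mem_iInf]
    rintro ⟨V, hV⟩
    exact h V hV
  have h2 := iInf_valuationSubring_superset (K := F) (s := s)
  rw [h2] at h1
  exact h1

/-- An element lying in all valuation subrings containing `K[x]` is integral over `K[x]`. -/
theorem isIntegral_adjoin_of_forall_mem {x f : F}
    (h : ∀ A : ValuationSubring F, (∀ a : K, algebraMap K F a ∈ A) → x ∈ A → f ∈ A) :
    IsIntegral ↥(Algebra.adjoin K {x}) f := by
  have h2 : IsIntegral ↥(Subring.closure ((Algebra.adjoin K {x} : Subalgebra K F) : Set F)) f :=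
    isIntegral_closure_of_forall_mem fun A hA =>
      h A (fun a => hA (Subalgebra.algebraMap_mem _ a))
        (hA (Algebra.self_mem_adjoin_singleton K x))
  have hcl : ∀ r : F, r ∈ Subring.closure ((Algebra.adjoin K {x} : Subalgebra K F) : Set F) →
      r ∈ Algebra.adjoin K {x} := by
    intro r hr
    have h3 : Subring.closure ((Algebra.adjoin K {x} : Subalgebra K F) : Set F) ≤
        (Algebra.adjoin K {x}).toSubring := Subring.closure_le.2 fun y hy => hy
    exact h3 hr
  obtain ⟨p, hp, h0⟩ := h2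
  let ι : ↥(Subring.closure ((Algebra.adjoin K {x} : Subalgebra K F) : Set F)) →+*
      ↥(Algebra.adjoin K {x}) :=
    (Subring.subtype _).codRestrict (Algebra.adjoin K {x}) (fun r => hcl _ r.2)
  refine ⟨p.map ι, hp.map ι, ?_⟩
  rw [Polynomial.eval₂_map]
  exact h0

/-- In a function field over an algebraically closed field, every nontrivial valuation subring
containing the constants is (the valuation ring of) a place. -/
theorem exists_place_eq [IsAlgClosed K] (hFF : IsFF K F) (A : ValuationSubring F)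
    (hK : ∀ a : K, algebraMap K F a ∈ A) (hne : A ≠ ⊤) :
    ∃ v : Place K F, v.toValuationSubring = A := by
  obtain ⟨x₀, hx₀, hfin₀⟩ := hFF
  have hfin : ∀ y : F, Transcendental K y → FiniteDimensional K⟮y⟯ F :=
    fun y hy => ff_finite_of_transcendental x₀ hx₀ y hy
  obtain ⟨z, hz⟩ : ∃ z, z ∉ A := by
    by_contra hno
    push Not at hno
    exact hne (eq_top_iff.2 fun z _ => hno z)
  have hz0 : z ≠ 0 := fun h => hz (h ▸ A.zero_mem)
  have hzi : A.valuation z⁻¹ < 1 := by
    have h1 : ¬ A.valuation z ≤ 1 := fun h => hz ((A.valuation_le_one_iff z).1 h)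
    rw [map_inv₀]
    exact inv_lt_one_of_one_lt₀ (not_le.1 h1)
  have hfact := Fermat.Agent.RED.H12.hasUnitMulPowIrreducibleFactorization A hK hfin
    (inv_ne_zero hz0) hzi
  have hdvr : IsDiscreteValuationRing A :=
    IsDiscreteValuationRing.ofHasUnitMulPowIrreducibleFactorization hfact
  exact ⟨⟨A, hK, hne, inferInstance⟩, rfl⟩

theorem nsmul_zeroDivisor_apply (x : F) (h : {v : Place K F | 0 < v.ord x}.Finite) (N : ℕ)
    (v : Place K F) : (N • zeroDivisor x h) v = N * max (v.ord x) 0 := by
  rw [Finsupp.smul_apply, zeroDivisor_apply, nsmul_eq_mul]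

/-- **Dictionary, easy direction.** -/
theorem mem_L_of_isIntegral {x : F} (hx0 : x ≠ 0)
    (hfin : {v : Place K F | 0 < v.ord x⁻¹}.Finite) (N : ℕ) {f : F}
    (hf : IsIntegral ↥(Algebra.adjoin K {x}) f)
    (hf' : IsIntegral ↥(Algebra.adjoin K {x⁻¹}) (x⁻¹ ^ N * f)) :
    f ∈ L (N • zeroDivisor x⁻¹ hfin) := by
  rw [mem_riemannRochSpace_iff]
  intro v
  by_cases hf0 : f = 0
  · exact Or.inl hf0
  right
  rw [nsmul_zeroDivisor_apply]
  by_cases hxv : x ∈ v.toValuationSubring
  · have h1 := mem_valuationSubring_of_isIntegral v.toValuationSubring v.algebraMap_mem' hxv hf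
    have h2 := (Fermat.Agent.RED.H51.mem_iff_ord_nonneg v hf0).1 h1
    have h3 : (0 : ℤ) ≤ N * max (v.ord x⁻¹) 0 :=
      mul_nonneg (Int.natCast_nonneg N) (le_max_right _ _)
    omega
  · have hxi : x⁻¹ ∈ v.toValuationSubring :=
      (v.toValuationSubring.mem_or_inv_mem x).resolve_left hxv
    have h1 := mem_valuationSubring_of_isIntegral v.toValuationSubring v.algebraMap_mem' hxi hf'
    have hne : x⁻¹ ^ N * f ≠ 0 := mul_ne_zero (pow_ne_zero N (inv_ne_zero hx0)) hf0
    have h2 := (Fermat.Agent.RED.H51.mem_iff_ord_nonneg v hne).1 h1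
    rw [v.ord_mul (pow_ne_zero N (inv_ne_zero hx0)) hf0, Fermat.Agent.RED.H51.ord_pow] at h2
    have h3 := (Fermat.Agent.RED.H51.mem_iff_ord_nonneg v (inv_ne_zero hx0)).1 hxi
    rw [max_eq_left h3]
    omega

/-- **Dictionary, hard direction** (uses that valuation subrings are places). -/
theorem isIntegral_of_mem_L [IsAlgClosed K] (hFF : IsFF K F) {x : F} (hx0 : x ≠ 0)
    (hfin : {v : Place K F | 0 < v.ord x⁻¹}.Finite) (N : ℕ) {f : F}
    (hf : f ∈ L (N • zeroDivisor x⁻¹ hfin)) :
    IsIntegral ↥(Algebra.adjoin K {x}) f ∧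
      IsIntegral ↥(Algebra.adjoin K {x⁻¹}) (x⁻¹ ^ N * f) := by
  rw [mem_riemannRochSpace_iff] at hf
  by_cases hf0 : f = 0
  · rw [hf0, mul_zero]
    exact ⟨isIntegral_zero, isIntegral_zero⟩
  constructor
  · apply isIntegral_adjoin_of_forall_mem (K := K)
    intro A hK hxA
    by_cases hA : A = ⊤
    · rw [hA]
      exact ValuationSubring.mem_top _
    obtain ⟨v, rfl⟩ := exists_place_eq hFF A hK hA
    rw [Fermat.Agent.RED.H51.mem_iff_ord_nonneg v hf0]
    have h1 := (hf v).resolve_left hf0
    rw [nsmul_zeroDivisor_apply] at h1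
    have h2 := (Fermat.Agent.RED.H51.mem_iff_ord_nonneg v hx0).1 hxA
    have h3 : v.ord x⁻¹ ≤ 0 := by
      rw [v.ord_inv]
      omega
    rw [max_eq_right h3, mul_zero] at h1
    omega
  · apply isIntegral_adjoin_of_forall_mem (K := K)
    intro A hK hxA
    by_cases hA : A = ⊤
    · rw [hA]
      exact ValuationSubring.mem_top _
    obtain ⟨v, rfl⟩ := exists_place_eq hFF A hK hA
    have hne : x⁻¹ ^ N * f ≠ 0 := mul_ne_zero (pow_ne_zero N (inv_ne_zero hx0)) hf0
    rw [Fermat.Agent.RED.H51.mem_iff_ord_nonneg v hne,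
      v.ord_mul (pow_ne_zero N (inv_ne_zero hx0)) hf0, Fermat.Agent.RED.H51.ord_pow]
    have h1 := (hf v).resolve_left hf0
    rw [nsmul_zeroDivisor_apply] at h1
    have h2 := (Fermat.Agent.RED.H51.mem_iff_ord_nonneg v (inv_ne_zero hx0)).1 hxA
    rw [max_eq_left h2] at h1
    omega

end Fermat.Agent.RED.H42
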