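import Fermat.Agent.RED.H42_Gen7
import Fermat.Agent.RED.H42_Gen8

/-!
# G-RED package GEN (helper42), part 9: the genus does not drop

* `linearIndependent_of_red` : lifts of `k`-linearly independent elements are `C`-linearly
  independent.
* `finrank_L_le_of_charts` : `l~(N (xt)_∞) ≤ l(N (x)_∞)` for `N` large.
* `genusLE_of_charts` : for EVERY map `r` of places, `l~(r_* D) ≤ l(D)` for `deg D` large.
-/

set_option autoImplicit false

noncomputable section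

open AlgebraicCurve IntermediateField WithZero Polynomial Module

namespace Fermat.Agent.RED.H42

open Fermat.Agent.S24 Fermat.Agent.RED.H34 Fermat.Agent.RED.H34.RedSetting

variable {C F k Ft : Type} [Field C] [Field F] [Algebra C F] [Field k] [Field Ft] [Algebra k Ft]

local notation "L" => riemannRochSpace

/-- Lifts of `k`-linearly independent elements are `C`-linearly independent. -/
theorem linearIndependent_of_red (S : RedSetting C F k Ft) {ι : Type} [Fintype ι]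
    (g : ι → ↥S.V) (hli : LinearIndependent k (fun j => S.red (g j))) :
    LinearIndependent C (fun j => ((g j : ↥S.V) : F)) := by
  classical
  rw [Fintype.linearIndependent_iff]
  intro c hc
  by_contra hno
  push Not at hno
  obtain ⟨j₁, hj₁⟩ := hno
  obtain ⟨j₀, -, hmax⟩ := Finset.exists_max_image (Finset.univ : Finset ι)
    (fun j => S.O.valuation (c j)) ⟨j₁, Finset.mem_univ j₁⟩
  have hv1 : S.O.valuation (c j₁) ≠ 0 := (Valuation.ne_zero_iff _).2 hj₁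
  have hv0 : S.O.valuation (c j₀) ≠ 0 := by
    intro h0
    have := hmax j₁ (Finset.mem_univ j₁)
    rw [h0] at this
    exact hv1 (le_antisymm this zero_le)
  have hc0 : c j₀ ≠ 0 := (Valuation.ne_zero_iff _).1 hv0
  have hall : ∀ j, c j / c j₀ ∈ S.O := by
    intro j
    rw [← S.O.valuation_le_one_iff, map_div₀, div_le_one₀ (zero_lt_iff.2 hv0)]
    exact hmax j (Finset.mem_univ j)
  have h1 : ∑ j, S.inclO ⟨c j / c j₀, hall j⟩ * g j = 0 := by
    apply Subtype.ext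
    rw [AddSubmonoidClass.coe_finsetSum, ZeroMemClass.coe_zero]
    have h2 : ∑ j, algebraMap C F (c j / c j₀) * ((g j : ↥S.V) : F) =
        algebraMap C F (c j₀)⁻¹ * ∑ j, c j • ((g j : ↥S.V) : F) := by
      rw [Finset.mul_sum]
      refine Finset.sum_congr rfl fun j _ => ?_
      rw [Algebra.smul_def, ← mul_assoc, ← map_mul, inv_mul_eq_div]
    rw [hc, mul_zero] at h2
    rw [← h2]
    rfl
  have h3 := congrArg S.red h1
  rw [map_sum, map_zero] at h3
  have h4 : ∑ j, S.resO ⟨c j / c j₀, hall j⟩ • S.red (g j) = 0 := by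
    rw [← h3]
    refine Finset.sum_congr rfl fun j _ => ?_
    rw [map_mul, red_inclO, Algebra.smul_def]
  have h5 := Fintype.linearIndependent_iff.1 hli _ h4 j₀
  have h6 : (⟨c j₀ / c j₀, hall j₀⟩ : ↥S.O) = 1 := Subtype.ext (div_self hc0)
  rw [h6, map_one] at h5
  exact one_ne_zero h5

theorem red_inv_eq (S : RedSetting C F k Ft) {x : F} (hx : x ∈ S.V) (hx' : x⁻¹ ∈ S.V)
    (hx0 : x ≠ 0) : S.red ⟨x⁻¹, hx'⟩ = (S.red ⟨x, hx⟩)⁻¹ := by
  apply eq_inv_of_mul_eq_one_left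
  rw [← map_mul]
  have : (⟨x⁻¹, hx'⟩ : ↥S.V) * ⟨x, hx⟩ = 1 := Subtype.ext (inv_mul_cancel₀ hx0)
  rw [this, map_one]

/-- `l~(N (xt)_∞) ≤ l(N (x)_∞)` from the lifting property. -/
theorem finrank_L_le_of_lift [IsAlgClosed C] [IsAlgClosed k] (hFF : IsFF C F) (hFFt : IsFF k Ft)
    (S : RedSetting C F k Ft) {x : F} (hx : x ∈ S.V) (hx' : x⁻¹ ∈ S.V) (hx0 : x ≠ 0)
    (hfin : {v : Place C F | 0 < v.ord x⁻¹}.Finite)
    (hfint : {v : Place k Ft | 0 < v.ord (S.red ⟨x, hx⟩)⁻¹}.Finite) (N : ℕ)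
    (hlift : ∀ y : Ft, IsIntegral ↥(Algebra.adjoin k {S.red ⟨x, hx⟩}) y →
      IsIntegral ↥(Algebra.adjoin k {S.red ⟨x⁻¹, hx'⟩}) (S.red ⟨x⁻¹, hx'⟩ ^ N * y) →
      ∃ g : ↥S.V, S.red g = y ∧ IsIntegral ↥(Algebra.adjoin C {x}) (g : F) ∧
        IsIntegral ↥(Algebra.adjoin C {x⁻¹}) (x⁻¹ ^ N * (g : F))) :
    Module.finrank k (L (N • zeroDivisor (S.red ⟨x, hx⟩)⁻¹ hfint)) ≤
      Module.finrank C (L (N • zeroDivisor x⁻¹ hfin)) := by
  classical
  have hxt0 : S.red ⟨x, hx⟩ ≠ 0 := by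
    intro h0
    have h1 := red_inv_eq S hx hx' hx0
    have h2 : S.red ⟨x, hx⟩ * S.red ⟨x⁻¹, hx'⟩ = 1 := by
      rw [← map_mul]
      have : (⟨x, hx⟩ : ↥S.V) * ⟨x⁻¹, hx'⟩ = 1 := Subtype.ext (mul_inv_cancel₀ hx0)
      rw [this, map_one]
    rw [h0, zero_mul] at h2
    exact zero_ne_one h2
  rw [red_inv_eq S hx hx' hx0] at hlift
  haveI : Module.Finite k (L (N • zeroDivisor (S.red ⟨x, hx⟩)⁻¹ hfint)) :=
    stmt_FFR_finite k Ft hFFt _
  haveI : Module.Finite C (L (N • zeroDivisor x⁻¹ hfin)) := stmt_FFR_finite C F hFF _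
  let b := Module.finBasis k (L (N • zeroDivisor (S.red ⟨x, hx⟩)⁻¹ hfint))
  have hb : ∀ j, ∃ g : ↥S.V, S.red g = ((b j : ↥(L (N • zeroDivisor (S.red ⟨x, hx⟩)⁻¹ hfint))) :
      Ft) ∧ IsIntegral ↥(Algebra.adjoin C {x}) (g : F) ∧
        IsIntegral ↥(Algebra.adjoin C {x⁻¹}) (x⁻¹ ^ N * (g : F)) := by
    intro j
    obtain ⟨h1, h2⟩ := isIntegral_of_mem_L hFFt hxt0 hfint N (b j).2
    exact hlift _ h1 h2
  choose g hgred hgint hgint' using hb
  have hli : LinearIndependent k (fun j => S.red (g j)) := by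
    have h1 := b.linearIndependent.map' (L (N • zeroDivisor (S.red ⟨x, hx⟩)⁻¹ hfint)).subtype
      (Submodule.ker_subtype _)
    have h2 : (fun j => S.red (g j)) =
        ⇑(L (N • zeroDivisor (S.red ⟨x, hx⟩)⁻¹ hfint)).subtype ∘ ⇑b := by
      funext j
      exact hgred j
    rw [h2]
    exact h1
  have hliF := linearIndependent_of_red S g hli
  have hliL : LinearIndependent C (fun j =>
      (⟨((g j : ↥S.V) : F), mem_L_of_isIntegral hx0 hfin N (hgint j) (hgint' j)⟩ :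
        ↥(L (N • zeroDivisor x⁻¹ hfin)))) := by
    refine LinearIndependent.of_comp (L (N • zeroDivisor x⁻¹ hfin)).subtype ?_
    exact hliF
  have := hliL.fintype_card_le_finrank
  simpa using this

theorem degree_mapDomain {K E K' E' : Type} [Field K] [Field E] [Algebra K E] [Field K']
    [Field E'] [Algebra K' E'] (h1 : ∀ v : Place K E, v.deg = 1)
    (h1' : ∀ v : Place K' E', v.deg = 1) (r : Place K E → Place K' E') (D : Divisor K E) :
    Divisor.degree (Finsupp.mapDomain r D) = Divisor.degree D := by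
  induction D using Finsupp.induction_linear with
  | zero => simp
  | add D D' hD hD' => rw [Finsupp.mapDomain_add, map_add, map_add, hD, hD']
  | single v n =>
    rw [Finsupp.mapDomain_single, Divisor.degree_single, Divisor.degree_single, h1, h1']

/-- **The genus does not drop** (abstract form): from the lifting property, for every map `r`
of places `l~(r_* D) ≤ l(D)` for all divisors `D` of large degree. -/
theorem genusLE_of_lift [IsAlgClosed C] [IsAlgClosed k] (hFF : IsFF C F) (hFFt : IsFF k Ft)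
    (S : RedSetting C F k Ft) {x : F} (hx : x ∈ S.V) (hx' : x⁻¹ ∈ S.V)
    (hxt : Transcendental k (S.red ⟨x, hx⟩)) [FiniteDimensional ↥C⟮x⟯ F]
    (hdeg : Module.finrank ↥k⟮S.red ⟨x, hx⟩⟯ Ft = Module.finrank ↥C⟮x⟯ F)
    (hlift : ∃ N₀ : ℕ, ∀ N, N₀ ≤ N → ∀ y : Ft,
      IsIntegral ↥(Algebra.adjoin k {S.red ⟨x, hx⟩}) y →
      IsIntegral ↥(Algebra.adjoin k {S.red ⟨x⁻¹, hx'⟩}) (S.red ⟨x⁻¹, hx'⟩ ^ N * y) →
      ∃ g : ↥S.V, S.red g = y ∧ IsIntegral ↥(Algebra.adjoin C {x}) (g : F) ∧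
        IsIntegral ↥(Algebra.adjoin C {x⁻¹}) (x⁻¹ ^ N * (g : F)))
    (r : Place C F → Place k Ft) :
    ∃ c : ℤ, ∀ D : Divisor C F, c ≤ Divisor.degree D →
      Module.finrank k (L (Finsupp.mapDomain r D)) ≤ Module.finrank C (L D) := by
  classical
  have hxC := transcendental_x hx hxt
  have hx0 : x ≠ 0 := fun h0 => hxC (h0 ▸ isAlgebraic_zero)
  have hxt0 : S.red ⟨x, hx⟩ ≠ 0 := fun h0 => hxt (h0 ▸ isAlgebraic_zero)
  have hpos : 0 < Module.finrank ↥C⟮x⟯ F := Module.finrank_pos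
  have hfint' : FiniteDimensional ↥k⟮S.red ⟨x, hx⟩⟯ Ft :=
    Module.finite_of_finrank_pos (hdeg ▸ hpos)
  have h1 : ∀ v : Place C F, v.deg = 1 := fun v => ff_deg_eq_one x hxC v
  have h1t : ∀ v : Place k Ft, v.deg = 1 := fun v => ff_deg_eq_one _ hxt v
  -- pole divisors
  have htr : Transcendental C x⁻¹ := fun h => hxC (IsAlgebraic.inv_iff.mp h)
  have htrt : Transcendental k (S.red ⟨x, hx⟩)⁻¹ := fun h => hxt (IsAlgebraic.inv_iff.mp h)
  have hfd := ff_finite_of_transcendental x hxC x⁻¹ htr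
  have hfdt := ff_finite_of_transcendental _ hxt (S.red ⟨x, hx⟩)⁻¹ htrt
  obtain ⟨hfin, hsum⟩ := zerosAll C F hFF x⁻¹ htr
  obtain ⟨hfint, hsumt⟩ := zerosAll k Ft hFFt (S.red ⟨x, hx⟩)⁻¹ htrt
  rw [H59.finrank_adjoin_inv] at hsum hsumt
  have hdegD : Divisor.degree (zeroDivisor x⁻¹ hfin) = (Module.finrank ↥C⟮x⟯ F : ℤ) := by
    rw [degree_zeroDivisor h1, hsum]
  have hdegDt : Divisor.degree (zeroDivisor (S.red ⟨x, hx⟩)⁻¹ hfint) =
      (Module.finrank ↥C⟮x⟯ F : ℤ) := by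
    rw [degree_zeroDivisor h1t, hsumt, hdeg]
  -- Riemann
  obtain ⟨g, c, hR⟩ := stmt_FFR_riemann C F hFF
  obtain ⟨gt, ct, hRt⟩ := stmt_FFR_riemann k Ft hFFt
  obtain ⟨N₀, hN₀⟩ := hlift
  -- a large `N`
  let N : ℕ := max N₀ (max c ct).toNat
  have hNN₀ : N₀ ≤ N := le_max_left _ _
  have hNc : max c ct ≤ (N : ℤ) * (Module.finrank ↥C⟮x⟯ F : ℤ) := by
    have h2 : max c ct ≤ (N : ℤ) := by
      have h3 : (max c ct).toNat ≤ N := le_max_right _ _
      have h4 : max c ct ≤ ((max c ct).toNat : ℤ) := Int.self_le_toNat _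
      exact h4.trans (by exact_mod_cast h3)
    have h5 : (1 : ℤ) ≤ (Module.finrank ↥C⟮x⟯ F : ℤ) := by exact_mod_cast hpos
    have h6 : (0 : ℤ) ≤ (N : ℤ) := Int.natCast_nonneg N
    nlinarith
  have hle := finrank_L_le_of_lift hFF hFFt S hx hx' hx0 hfin hfint N (hN₀ N hNN₀)
  have hdN : Divisor.degree (N • zeroDivisor x⁻¹ hfin) =
      (N : ℤ) * (Module.finrank ↥C⟮x⟯ F : ℤ) := by
    rw [map_nsmul, hdegD, nsmul_eq_mul]
  have hdNt : Divisor.degree (N • zeroDivisor (S.red ⟨x, hx⟩)⁻¹ hfint) =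
      (N : ℤ) * (Module.finrank ↥C⟮x⟯ F : ℤ) := by
    rw [map_nsmul, hdegDt, nsmul_eq_mul]
  have e1 := (hR (N • zeroDivisor x⁻¹ hfin)).2 (by rw [hdN]; exact (le_max_left _ _).trans hNc)
  have e2 := (hRt (N • zeroDivisor (S.red ⟨x, hx⟩)⁻¹ hfint)).2
    (by rw [hdNt]; exact (le_max_right _ _).trans hNc)
  rw [hdN] at e1
  rw [hdNt] at e2
  have hgg : (g : ℤ) ≤ (gt : ℤ) := by
    have : ((Module.finrank k (L (N • zeroDivisor (S.red ⟨x, hx⟩)⁻¹ hfint)) : ℕ) : ℤ) ≤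
        ((Module.finrank C (L (N • zeroDivisor x⁻¹ hfin)) : ℕ) : ℤ) := by exact_mod_cast hle
    rw [e1, e2] at this
    linarith
  refine ⟨max c ct, fun D hD => ?_⟩
  have e3 := (hR D).2 ((le_max_left _ _).trans hD)
  have e4 := (hRt (Finsupp.mapDomain r D)).2
    (by rw [degree_mapDomain h1 h1t]; exact (le_max_right _ _).trans hD)
  rw [degree_mapDomain h1 h1t] at e4
  have : ((Module.finrank k (L (Finsupp.mapDomain r D)) : ℕ) : ℤ) ≤
      ((Module.finrank C (L D) : ℕ) : ℤ) := by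
    rw [e3, e4]
    linarith
  exact_mod_cast this

/-- **GEN** (abstract form): if both charts `x`, `x⁻¹` are normal, `Ft / k(xt)` is separable of
degree `[F : C(x)]` and `char C = 0`, the genus does not drop: for EVERY map `r` of places,
`l~(r_* D) ≤ l(D)` for all divisors `D` of large degree. -/
theorem genusLE_of_charts [IsAlgClosed C] [CharZero C] [IsAlgClosed k] (hFF : IsFF C F)
    (hFFt : IsFF k Ft) (S : RedSetting C F k Ft) {x : F} (hx : x ∈ S.V) (hx' : x⁻¹ ∈ S.V)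
    (hxt : Transcendental k (S.red ⟨x, hx⟩)) [FiniteDimensional ↥C⟮x⟯ F]
    (hdeg : Module.finrank ↥k⟮S.red ⟨x, hx⟩⟯ Ft = Module.finrank ↥C⟮x⟯ F)
    [Algebra.IsSeparable ↥k⟮S.red ⟨x, hx⟩⟯ Ft]
    (hcn : ∀ y : Ft, IsIntegral ↥(Algebra.adjoin k {S.red ⟨x, hx⟩}) y →
      ∃ f : ↥S.V, IsIntegral ↥(Algebra.adjoin C {x}) (f : F) ∧ S.red f = y)
    (hcn' : ∀ y : Ft, IsIntegral ↥(Algebra.adjoin k {S.red ⟨x⁻¹, hx'⟩}) y →
      ∃ f : ↥S.V, IsIntegral ↥(Algebra.adjoin C {x⁻¹}) (f : F) ∧ S.red f = y)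
    (r : Place C F → Place k Ft) :
    ∃ c : ℤ, ∀ D : Divisor C F, c ≤ Divisor.degree D →
      Module.finrank k (L (Finsupp.mapDomain r D)) ≤ Module.finrank C (L D) :=
  genusLE_of_lift hFF hFFt S hx hx' hxt hdeg (gen_lift hx hx' hxt hdeg hcn hcn') r

end Fermat.Agent.RED.H42
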