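import Fermat.Agent.S28.H73_GaussV

/-!
# G-RED package LAT (helper42), part 1: orthonormal bases of finite-dimensional spaces of series

`C` a field, `O : ValuationSubring C` arbitrary (not discrete), `k` its residue field.
`W` a finite-dimensional `C`-subspace of `C((t))` all of whose nonzero elements have a primitive
scalar multiple (`PrimScalable O W`).  Then

* `exists_orthonormal`: `W` has a basis `ι f_i`, `f_i ∈ O((t))`, whose reductions are linearly
  independent over `k`; the elements of `W` in the Gauss ring are the `O`-combinations of the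
  `ι f_i`; the reduction `redSub O W` of `W ∩ (Gauss ring)` is spanned by the reductions;
* `finrank_redSub`: `dim_k (redSub O W) = dim_C W`.

The proof is by pivots: no discreteness or completeness of `O` is needed.
-/

set_option autoImplicit false

open ModularCurve Fermat.Agent.S28 Fermat.Agent.S28.H73

noncomputable section

namespace Fermat.Agent.RED.H42

variable {C : Type} [Field C] (O : ValuationSubring C)

/-- The scaling property of a subspace of `C((t))`. -/
def PrimScalable (W : Submodule C (LaurentSeries C)) : Prop :=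
  ∀ x ∈ W, x ≠ 0 → ∃ c : C, c ≠ 0 ∧ PrimSeries O.toSubring (HahnSeries.C c * x)

theorem PrimScalable.mono {W W' : Submodule C (LaurentSeries C)} (h : PrimScalable O W)
    (hle : W' ≤ W) : PrimScalable O W' :=
  fun x hx hx0 => h x (hle hx) hx0

/-- The coefficient functional. -/
def coeffL (C : Type) [Field C] (p : ℤ) : LaurentSeries C →ₗ[C] C where
  toFun x := x.coeff p
  map_add' x y := by simp
  map_smul' c x := by simp

@[simp] theorem coeffL_apply (p : ℤ) (x : LaurentSeries C) : coeffL C p x = x.coeff p := rfl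

theorem C_mul_mem (W : Submodule C (LaurentSeries C)) (c : C) {x : LaurentSeries C}
    (hx : x ∈ W) : HahnSeries.C c * x ∈ W := by
  have : HahnSeries.C c * x = c • x := by
    rw [HahnSeries.C_mul_eq_smul]
  rw [this]
  exact W.smul_mem c hx

/-- A nonzero scalable subspace contains a primitive element. -/
theorem exists_prim_mem {W : Submodule C (LaurentSeries C)} (hW : PrimScalable O W)
    (hne : W ≠ ⊥) : ∃ f : LaurentSeries ↥O, redV O f ≠ 0 ∧ iotaV O f ∈ W := by
  obtain ⟨x, hx, hx0⟩ := (Submodule.ne_bot_iff _).mp hne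
  obtain ⟨c, -, hc⟩ := hW x hx hx0
  obtain ⟨f, hf, hfx⟩ := (primSeries_iff O _).1 hc
  exact ⟨f, hf, hfx ▸ C_mul_mem W c hx⟩

/-- The subspace of `W` of series whose `p`-th coefficient vanishes. -/
def killCoeff (W : Submodule C (LaurentSeries C)) (p : ℤ) : Submodule C (LaurentSeries C) :=
  W ⊓ LinearMap.ker (coeffL C p)

theorem mem_killCoeff {W : Submodule C (LaurentSeries C)} {p : ℤ} {x : LaurentSeries C} :
    x ∈ killCoeff W p ↔ x ∈ W ∧ x.coeff p = 0 := by
  rw [killCoeff, Submodule.mem_inf, LinearMap.mem_ker, coeffL_apply]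

theorem finrank_killCoeff {W : Submodule C (LaurentSeries C)} [FiniteDimensional C W] {p : ℤ}
    {x : LaurentSeries C} (hx : x ∈ W) (hxp : x.coeff p ≠ 0) :
    Module.finrank C (killCoeff W p) + 1 = Module.finrank C W := by
  let φ : W →ₗ[C] C := (coeffL C p).comp W.subtype
  have hsurj : Function.Surjective φ := by
    intro a
    refine ⟨(a * (x.coeff p)⁻¹) • ⟨x, hx⟩, ?_⟩
    simp only [φ, map_smul, LinearMap.comp_apply, Submodule.subtype_apply, coeffL_apply,
      smul_eq_mul]
    rw [mul_assoc, inv_mul_cancel₀ hxp, mul_one]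
  have h1 := LinearMap.finrank_range_add_finrank_ker φ
  rw [LinearMap.range_eq_top.mpr hsurj, finrank_top, Module.finrank_self] at h1
  have h2 : Module.finrank C (LinearMap.ker φ) = Module.finrank C (killCoeff W p) := by
    have e : (LinearMap.ker φ).map W.subtype = killCoeff W p := by
      ext y
      simp only [Submodule.mem_map, LinearMap.mem_ker, Submodule.subtype_apply, Subtype.exists,
        exists_and_right, exists_eq_right, mem_killCoeff, φ, LinearMap.comp_apply, coeffL_apply]
      constructor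
      · rintro ⟨hy, h0⟩
        exact ⟨hy, h0⟩
      · rintro ⟨hy, h0⟩
        exact ⟨hy, h0⟩
    rw [← e]
    exact (Submodule.equivMapOfInjective W.subtype W.injective_subtype _).finrank_eq
  omega

/-! ## The orthonormal basis -/

/-- The coefficient functional on `k((t))`. -/
theorem coeff_eq_zero_of_mem_span {k : Type*} [Field k] {ι : Type*} (v : ι → LaurentSeries k)
    (p : ℤ) (hv : ∀ i, (v i).coeff p = 0) {y : LaurentSeries k}
    (hy : y ∈ Submodule.span k (Set.range v)) : y.coeff p = 0 := by
  induction hy using Submodule.span_induction with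
  | mem x hx =>
    obtain ⟨i, rfl⟩ := hx
    exact hv i
  | zero => simp
  | add x y _ _ hx hy => simp [hx, hy]
  | smul a x _ hx => simp [hx]

/-- **Orthonormal bases**: a scalable subspace of dimension `n` contains `n` integral series
whose reductions are linearly independent. -/
theorem exists_orthonormal_aux : ∀ (n : ℕ) (W : Submodule C (LaurentSeries C)),
    FiniteDimensional C W → Module.finrank C W = n → PrimScalable O W →
    ∃ f : Fin n → LaurentSeries ↥O, (∀ i, iotaV O (f i) ∈ W) ∧
      LinearIndependent (kV O) (fun i => redV O (f i)) := by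
  intro n
  induction n with
  | zero =>
    intro W _ _ _
    exact ⟨Fin.elim0, fun i => i.elim0, linearIndependent_empty_type⟩
  | succ n ih =>
    intro W hfin hrk hW
    have hne : W ≠ ⊥ := by
      intro h
      rw [h, finrank_bot] at hrk
      omega
    obtain ⟨f₀, hf₀, hf₀W⟩ := exists_prim_mem O hW hne
    obtain ⟨p, hp⟩ : ∃ p, (redV O f₀).coeff p ≠ 0 := by
      by_contra hcon
      push Not at hcon
      exact hf₀ (HahnSeries.ext (funext hcon))
    have hp' : (iotaV O f₀).coeff p ≠ 0 := by
      rw [iotaV_coeff]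
      intro h0
      apply hp
      rw [redV_coeff]
      have : f₀.coeff p = 0 := Subtype.ext h0
      rw [this, map_zero]
    have hrk' : Module.finrank C (killCoeff W p) = n := by
      have := finrank_killCoeff hf₀W hp'
      omega
    have hle : killCoeff W p ≤ W := inf_le_left
    have hfin' : FiniteDimensional C (killCoeff W p) := Submodule.finiteDimensional_of_le hle
    obtain ⟨f, hfW, hfli⟩ := ih (killCoeff W p) hfin' hrk' (hW.mono O hle)
    refine ⟨Fin.cons f₀ f, ?_, ?_⟩
    · intro i
      refine Fin.cases ?_ (fun j => ?_) i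
      · simpa using hf₀W
      · simpa using hle (hfW j)
    · have hcomp : (fun i => redV O ((Fin.cons f₀ f : Fin (n + 1) → LaurentSeries ↥O) i))
          = Fin.cons (redV O f₀) (fun i => redV O (f i)) := by
        funext i
        refine Fin.cases ?_ (fun j => ?_) i
        · simp
        · simp
      rw [hcomp, linearIndependent_finCons]
      refine ⟨hfli, fun hmem => hp ?_⟩
      refine coeff_eq_zero_of_mem_span _ p (fun i => ?_) hmem
      have h1 := (mem_killCoeff.mp (hfW i)).2
      rw [iotaV_coeff] at h1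
      have h2 : (f i).coeff p = 0 := Subtype.ext h1
      rw [redV_coeff, h2, map_zero]

/-! ## Scaling a coefficient vector -/

/-- A nonzero finite family of elements of `C` has an element of maximal valuation. -/
theorem exists_max_coeff {ι : Type*} [Fintype ι] (c : ι → C) (hc : c ≠ 0) :
    ∃ m, c m ≠ 0 ∧ ∀ i, c i * (c m)⁻¹ ∈ O := by
  classical
  have hne : (Finset.univ : Finset ι).Nonempty := by
    by_contra h
    rw [Finset.not_nonempty_iff_eq_empty, Finset.univ_eq_empty_iff] at h
    exact hc (funext fun i => (h.false i).elim)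
  obtain ⟨m, -, hm⟩ := Finset.exists_max_image Finset.univ (fun i => O.valuation (c i)) hne
  have hcm : c m ≠ 0 := by
    intro h0
    apply hc
    funext i
    have := hm i (Finset.mem_univ i)
    rw [h0, map_zero] at this
    exact (map_eq_zero _).mp (le_antisymm this zero_le)
  refine ⟨m, hcm, fun i => ?_⟩
  rw [← O.valuation_le_one_iff, map_mul, map_inv₀]
  exact mul_inv_le_one_of_le₀ (hm i (Finset.mem_univ i)) zero_le

theorem iotaV_C (a : ↥O) :
    iotaV O (HahnSeries.C a) = (HahnSeries.C (a : C) : LaurentSeries C) :=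
  coeffMap_single O.subtype 0 a

theorem redV_C (a : ↥O) :
    redV O (HahnSeries.C a) = (HahnSeries.C (resV O a) : LaurentSeries (kV O)) :=
  coeffMap_single (resV O) 0 a

/-- The integral combination `Σ d_i f_i`. -/
def intComb {ι : Type*} [Fintype ι] (f : ι → LaurentSeries ↥O) (d : ι → ↥O) : LaurentSeries ↥O :=
  ∑ i, HahnSeries.C (d i) * f i

theorem iotaV_intComb {ι : Type*} [Fintype ι] (f : ι → LaurentSeries ↥O) (d : ι → ↥O) :
    iotaV O (intComb O f d) = ∑ i, ((d i : ↥O) : C) • iotaV O (f i) := by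
  rw [intComb, map_sum]
  refine Finset.sum_congr rfl fun i _ => ?_
  rw [map_mul, iotaV_C, HahnSeries.C_mul_eq_smul]

theorem redV_intComb {ι : Type*} [Fintype ι] (f : ι → LaurentSeries ↥O) (d : ι → ↥O) :
    redV O (intComb O f d) = ∑ i, resV O (d i) • redV O (f i) := by
  rw [intComb, map_sum]
  refine Finset.sum_congr rfl fun i _ => ?_
  rw [map_mul, redV_C, HahnSeries.C_mul_eq_smul]

/-- If the reductions of the `f_i` are independent and some `d_m` is a unit, then the reduction
of `Σ d_i f_i` is nonzero. -/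
theorem redV_intComb_ne_zero {ι : Type*} [Fintype ι] {f : ι → LaurentSeries ↥O}
    (hf : LinearIndependent (kV O) (fun i => redV O (f i))) {d : ι → ↥O} {m : ι}
    (hm : IsUnit (d m)) : redV O (intComb O f d) ≠ 0 := by
  intro h0
  rw [redV_intComb] at h0
  have := (Fintype.linearIndependent_iff.mp hf) (fun i => resV O (d i)) h0 m
  exact (IsLocalRing.residue_ne_zero_iff_isUnit _).2 hm this

/-- **Lifting**: independent reductions give independent series. -/
theorem linearIndependent_iotaV {ι : Type*} [Fintype ι] {f : ι → LaurentSeries ↥O}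
    (hf : LinearIndependent (kV O) (fun i => redV O (f i))) :
    LinearIndependent C (fun i => iotaV O (f i)) := by
  rw [Fintype.linearIndependent_iff]
  intro c hc
  by_contra hne
  have hc0 : c ≠ 0 := fun h => hne (fun i => by rw [h]; rfl)
  obtain ⟨m, hcm, hmax⟩ := exists_max_coeff O c hc0
  let d : ι → ↥O := fun i => ⟨c i * (c m)⁻¹, hmax i⟩
  have hdm : IsUnit (d m) := by
    have : d m = 1 := Subtype.ext (mul_inv_cancel₀ hcm)
    rw [this]
    exact isUnit_one
  have h1 : iotaV O (intComb O f d) = 0 := by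
    rw [iotaV_intComb]
    have : ∑ i, ((d i : ↥O) : C) • iotaV O (f i) = (c m)⁻¹ • ∑ i, c i • iotaV O (f i) := by
      rw [Finset.smul_sum]
      refine Finset.sum_congr rfl fun i _ => ?_
      rw [smul_smul, mul_comm]
    rw [this, hc, smul_zero]
  have h2 : intComb O f d = 0 := iotaV_injective O (by rw [h1, map_zero])
  exact redV_intComb_ne_zero O hf hdm (by rw [h2, map_zero])

/-! ## Orthonormality -/

/-- Multiplication by a non-unit of `O` kills the reduction. -/
theorem gaussRedV_C_mul_eq_zero {a : C} (ha : a ∈ O) (hna : ¬ IsUnit (⟨a, ha⟩ : ↥O))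
    {x : LaurentSeries C} (hx : x ∈ gaussRingV O)
    (h : HahnSeries.C a * x ∈ gaussRingV O) : gaussRedV O ⟨HahnSeries.C a * x, h⟩ = 0 := by
  have e : (⟨HahnSeries.C a * x, h⟩ : gaussRingV O)
      = ⟨iotaV O (HahnSeries.C (⟨a, ha⟩ : ↥O)), iotaV_mem_gaussRingV O _⟩ * ⟨x, hx⟩ := by
    apply Subtype.ext
    show HahnSeries.C a * x = iotaV O (HahnSeries.C (⟨a, ha⟩ : ↥O)) * x
    rw [iotaV_C]
  rw [e, map_mul, gaussRedV_iotaV, redV_C]
  have : resV O ⟨a, ha⟩ = 0 := by
    by_contra hne
    exact hna ((IsLocalRing.residue_ne_zero_iff_isUnit _).1 hne)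
  rw [this, map_zero, zero_mul]

/-- **Orthonormality**: if the reductions of the `f_i` are independent and `Σ c_i f_i` lies in
the Gauss ring, then all `c_i` lie in `O`. -/
theorem coeff_mem_of_mem_gaussRingV {ι : Type*} [Fintype ι] {f : ι → LaurentSeries ↥O}
    (hf : LinearIndependent (kV O) (fun i => redV O (f i))) (c : ι → C)
    (hx : ∑ i, c i • iotaV O (f i) ∈ gaussRingV O) : ∀ i, c i ∈ O := by
  by_contra hcon
  push Not at hcon
  obtain ⟨j, hj⟩ := hcon
  have hc0 : c ≠ 0 := by
    intro h
    apply hj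
    rw [h]
    exact O.zero_mem
  obtain ⟨m, hcm, hmax⟩ := exists_max_coeff O c hc0
  -- `c m ∉ O`
  have hcmO : c m ∉ O := by
    intro hmem
    apply hj
    have := O.mul_mem _ _ (hmax j) hmem
    rwa [mul_assoc, inv_mul_cancel₀ hcm, mul_one] at this
  have hinv : (c m)⁻¹ ∈ O := (O.mem_or_inv_mem (c m)).resolve_left hcmO
  have hnu : ¬ IsUnit (⟨(c m)⁻¹, hinv⟩ : ↥O) := by
    intro hu
    rw [isUnit_iff_inv_mem] at hu
    apply hcmO
    have := hu.2
    simpa using this
  let d : ι → ↥O := fun i => ⟨c i * (c m)⁻¹, hmax i⟩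
  have hdm : IsUnit (d m) := by
    have : d m = 1 := Subtype.ext (mul_inv_cancel₀ hcm)
    rw [this]
    exact isUnit_one
  have h1 : iotaV O (intComb O f d) = HahnSeries.C (c m)⁻¹ * ∑ i, c i • iotaV O (f i) := by
    rw [iotaV_intComb, HahnSeries.C_mul_eq_smul, Finset.smul_sum]
    refine Finset.sum_congr rfl fun i _ => ?_
    rw [smul_smul, mul_comm]
  have hmem : HahnSeries.C (c m)⁻¹ * ∑ i, c i • iotaV O (f i) ∈ gaussRingV O := by
    rw [← h1]
    exact iotaV_mem_gaussRingV O _
  have h2 := gaussRedV_C_mul_eq_zero O hinv hnu hx hmem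
  have h3 : (⟨HahnSeries.C (c m)⁻¹ * ∑ i, c i • iotaV O (f i), hmem⟩ : gaussRingV O)
      = ⟨iotaV O (intComb O f d), iotaV_mem_gaussRingV O _⟩ := Subtype.ext h1.symm
  rw [h3, gaussRedV_iotaV] at h2
  exact redV_intComb_ne_zero O hf hdm h2

/-- The reduction of an integral combination. -/
theorem gaussRedV_sum {ι : Type*} [Fintype ι] (f : ι → LaurentSeries ↥O) (d : ι → ↥O)
    (hx : ∑ i, ((d i : ↥O) : C) • iotaV O (f i) ∈ gaussRingV O) :
    gaussRedV O ⟨_, hx⟩ = ∑ i, resV O (d i) • redV O (f i) := by
  have e : (⟨_, hx⟩ : gaussRingV O) = ⟨iotaV O (intComb O f d), iotaV_mem_gaussRingV O _⟩ :=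
    Subtype.ext (iotaV_intComb O f d).symm
  rw [e, gaussRedV_iotaV, redV_intComb]

/-! ## The reduction of a subspace -/

theorem C_mul_mem_gaussRingV (a : ↥O) {x : LaurentSeries C} (hx : x ∈ gaussRingV O) :
    HahnSeries.C (a : C) * x ∈ gaussRingV O := by
  rw [← iotaV_C]
  exact (gaussRingV O).mul_mem (iotaV_mem_gaussRingV O _) hx

theorem gaussRedV_C_mul (a : ↥O) {x : LaurentSeries C} (hx : x ∈ gaussRingV O) :
    gaussRedV O ⟨HahnSeries.C (a : C) * x, C_mul_mem_gaussRingV O a hx⟩
      = resV O a • gaussRedV O ⟨x, hx⟩ := by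
  have e : (⟨HahnSeries.C (a : C) * x, C_mul_mem_gaussRingV O a hx⟩ : gaussRingV O)
      = ⟨iotaV O (HahnSeries.C a), iotaV_mem_gaussRingV O _⟩ * ⟨x, hx⟩ := by
    apply Subtype.ext
    show HahnSeries.C (a : C) * x = iotaV O (HahnSeries.C a) * x
    rw [iotaV_C]
  rw [e, map_mul, gaussRedV_iotaV, redV_C, HahnSeries.C_mul_eq_smul]

/-- The reduction of `W ∩ (Gauss ring)`: a `k`-subspace of `k((t))`. -/
def redSub (W : Submodule C (LaurentSeries C)) : Submodule (kV O) (LaurentSeries (kV O)) where
  carrier := {y | ∃ (x : LaurentSeries C) (hx : x ∈ gaussRingV O),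
    x ∈ W ∧ gaussRedV O ⟨x, hx⟩ = y}
  zero_mem' := by
    refine ⟨0, (gaussRingV O).zero_mem, W.zero_mem, ?_⟩
    have e : (⟨0, (gaussRingV O).zero_mem⟩ : gaussRingV O) = 0 := rfl
    rw [e, map_zero]
  add_mem' := by
    rintro y y' ⟨x, hx, hxW, rfl⟩ ⟨x', hx', hxW', rfl⟩
    refine ⟨x + x', (gaussRingV O).add_mem hx hx', W.add_mem hxW hxW', ?_⟩
    have e : (⟨x + x', (gaussRingV O).add_mem hx hx'⟩ : gaussRingV O)
        = ⟨x, hx⟩ + ⟨x', hx'⟩ := rfl
    rw [e, map_add]
  smul_mem' := by
    rintro a y ⟨x, hx, hxW, rfl⟩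
    obtain ⟨a, rfl⟩ := IsLocalRing.residue_surjective a
    exact ⟨HahnSeries.C (a : C) * x, C_mul_mem_gaussRingV O a hx, C_mul_mem W _ hxW,
      gaussRedV_C_mul O a hx⟩

theorem mem_redSub {W : Submodule C (LaurentSeries C)} {y : LaurentSeries (kV O)} :
    y ∈ redSub O W ↔ ∃ (x : LaurentSeries C) (hx : x ∈ gaussRingV O),
      x ∈ W ∧ gaussRedV O ⟨x, hx⟩ = y := Iff.rfl

/-- **Orthonormal bases**, final form. -/
theorem exists_orthonormal (W : Submodule C (LaurentSeries C)) [FiniteDimensional C W]
    (hW : PrimScalable O W) :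
    ∃ f : Fin (Module.finrank C W) → LaurentSeries ↥O,
      LinearIndependent (kV O) (fun i => redV O (f i)) ∧
      Submodule.span C (Set.range fun i => iotaV O (f i)) = W ∧
      redSub O W = Submodule.span (kV O) (Set.range fun i => redV O (f i)) ∧
      ∀ x ∈ W, x ∈ gaussRingV O → ∃ d : Fin (Module.finrank C W) → ↥O,
        x = ∑ i, ((d i : ↥O) : C) • iotaV O (f i) := by
  obtain ⟨f, hfW, hfli⟩ := exists_orthonormal_aux O _ W inferInstance rfl hW
  have hli := linearIndependent_iotaV O hfli
  have hspan : Submodule.span C (Set.range fun i => iotaV O (f i)) = W := by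
    apply Submodule.eq_of_le_of_finrank_eq
    · rw [Submodule.span_le]
      rintro _ ⟨i, rfl⟩
      exact hfW i
    · rw [finrank_span_eq_card hli, Fintype.card_fin]
  have hrepr : ∀ x ∈ W, x ∈ gaussRingV O → ∃ d : Fin (Module.finrank C W) → ↥O,
      x = ∑ i, ((d i : ↥O) : C) • iotaV O (f i) := by
    intro x hxW hx
    rw [← hspan] at hxW
    obtain ⟨c, hc⟩ := (Submodule.mem_span_range_iff_exists_fun C).mp hxW
    have hcO := coeff_mem_of_mem_gaussRingV O hfli c (by rw [hc]; exact hx)
    exact ⟨fun i => ⟨c i, hcO i⟩, hc.symm⟩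
  refine ⟨f, hfli, hspan, ?_, hrepr⟩
  apply le_antisymm
  · rintro y ⟨x, hx, hxW, rfl⟩
    obtain ⟨d, hd⟩ := hrepr x hxW hx
    subst hd
    rw [gaussRedV_sum]
    exact Submodule.sum_mem _ fun i _ =>
      Submodule.smul_mem _ _ (Submodule.subset_span ⟨i, rfl⟩)
  · rw [Submodule.span_le]
    rintro _ ⟨i, rfl⟩
    exact ⟨iotaV O (f i), iotaV_mem_gaussRingV O _, hfW i, gaussRedV_iotaV O _⟩

/-- **LAT**: the reduction of a scalable finite-dimensional subspace has the same dimension. -/
theorem finrank_redSub (W : Submodule C (LaurentSeries C)) [FiniteDimensional C W]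
    (hW : PrimScalable O W) :
    Module.finrank (kV O) (redSub O W) = Module.finrank C W := by
  obtain ⟨f, hfli, -, hred, -⟩ := exists_orthonormal O W hW
  rw [hred, finrank_span_eq_card hfli, Fintype.card_fin]

theorem finite_redSub (W : Submodule C (LaurentSeries C)) [FiniteDimensional C W]
    (hW : PrimScalable O W) : Module.Finite (kV O) (redSub O W) := by
  obtain ⟨f, -, -, hred, -⟩ := exists_orthonormal O W hW
  rw [hred]
  exact FiniteDimensional.span_of_finite _ (Set.finite_range _)

end Fermat.Agent.RED.H42
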