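import Fermat.Agent.RED.H42_Lat

/-!
# G-RED package LAT (helper42), part 2: subspaces of fractions

If `R` is a `C`-subalgebra of `C((t))` all of whose nonzero elements have a primitive scalar
multiple (for instance `IntSpan C`), then every finite-dimensional `C`-subspace `W` of `C((t))`
consisting of fractions of elements of `R` satisfies `dim_k (redSub O W) = dim_C W`, and
`W ∩ (Gauss ring)` is a free `O`-module on an orthonormal basis.
-/

set_option autoImplicit false

open ModularCurve Fermat.Agent.S28 Fermat.Agent.S28.H73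

noncomputable section

namespace Fermat.Agent.RED.H42

variable {C : Type} [Field C] (O : ValuationSubring C)

/-! ## Multiplication by a primitive series -/

/-- Multiplication by `b` as a linear map of `K((t))`. -/
def mulL {K : Type} [Field K] (b : LaurentSeries K) : LaurentSeries K →ₗ[K] LaurentSeries K where
  toFun x := b * x
  map_add' := mul_add b
  map_smul' c x := by
    rw [RingHom.id_apply, ← HahnSeries.C_mul_eq_smul, ← HahnSeries.C_mul_eq_smul]
    ring

@[simp] theorem mulL_apply {K : Type} [Field K] (b x : LaurentSeries K) : mulL b x = b * x := rfl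

theorem mulL_injective {K : Type} [Field K] {b : LaurentSeries K} (hb : b ≠ 0) :
    Function.Injective (mulL b) := fun _ _ hxy => mul_left_cancel₀ hb hxy

/-- The image of `W` under multiplication by `b`. -/
def mulSub (b : LaurentSeries C) (W : Submodule C (LaurentSeries C)) :
    Submodule C (LaurentSeries C) :=
  W.map (mulL b)

theorem mem_mulSub {b : LaurentSeries C} {W : Submodule C (LaurentSeries C)}
    {y : LaurentSeries C} : y ∈ mulSub b W ↔ ∃ x ∈ W, b * x = y := by
  rw [mulSub, Submodule.mem_map]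
  rfl

theorem finrank_mulSub {b : LaurentSeries C} (hb : b ≠ 0) (W : Submodule C (LaurentSeries C)) :
    Module.finrank C (mulSub b W) = Module.finrank C W := by
  exact (Submodule.equivMapOfInjective _ (mulL_injective hb) W).finrank_eq.symm

instance finiteDimensional_mulSub (b : LaurentSeries C) (W : Submodule C (LaurentSeries C))
    [FiniteDimensional C W] : FiniteDimensional C (mulSub b W) := by
  unfold mulSub
  infer_instance

/-- The inverse of a primitive series lies in the Gauss ring. -/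
theorem inv_iotaV_mem {g : LaurentSeries ↥O} (hg : redV O g ≠ 0) :
    (iotaV O g)⁻¹ ∈ gaussRingV O :=
  inv_mem_gaussRingV O (iotaV_mem_gaussRingV O g) (by rw [gaussRedV_iotaV]; exact hg)

theorem gaussRedV_iotaV_mul (g : LaurentSeries ↥O) {x : LaurentSeries C}
    (hx : x ∈ gaussRingV O) (h : iotaV O g * x ∈ gaussRingV O) :
    gaussRedV O ⟨iotaV O g * x, h⟩ = redV O g * gaussRedV O ⟨x, hx⟩ := by
  have e : (⟨iotaV O g * x, h⟩ : gaussRingV O)
      = ⟨iotaV O g, iotaV_mem_gaussRingV O g⟩ * ⟨x, hx⟩ := rfl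
  rw [e, map_mul, gaussRedV_iotaV]

/-- Reduction commutes with multiplication by a primitive series. -/
theorem redSub_mulSub {g : LaurentSeries ↥O} (hg : redV O g ≠ 0)
    (W : Submodule C (LaurentSeries C)) :
    redSub O (mulSub (iotaV O g) W) = (redSub O W).map (mulL (redV O g)) := by
  ext z
  rw [Submodule.mem_map]
  constructor
  · rintro ⟨x₁, hx₁, hx₁W, rfl⟩
    obtain ⟨x, hxW, rfl⟩ := mem_mulSub.mp hx₁W
    have hx : x ∈ gaussRingV O := by
      have h1 := (gaussRingV O).mul_mem (inv_iotaV_mem O hg) hx₁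
      rwa [← mul_assoc, inv_mul_cancel₀ (iotaV_ne_zero_of_redV_ne_zero O hg), one_mul] at h1
    exact ⟨gaussRedV O ⟨x, hx⟩, ⟨x, hx, hxW, rfl⟩, (gaussRedV_iotaV_mul O g hx hx₁).symm⟩
  · rintro ⟨y, ⟨x, hx, hxW, rfl⟩, rfl⟩
    have h : iotaV O g * x ∈ gaussRingV O :=
      (gaussRingV O).mul_mem (iotaV_mem_gaussRingV O g) hx
    exact ⟨iotaV O g * x, h, mem_mulSub.mpr ⟨x, hxW, rfl⟩, gaussRedV_iotaV_mul O g hx h⟩

theorem finrank_redSub_mulSub {g : LaurentSeries ↥O} (hg : redV O g ≠ 0)
    (W : Submodule C (LaurentSeries C)) :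
    Module.finrank (kV O) (redSub O (mulSub (iotaV O g) W))
      = Module.finrank (kV O) (redSub O W) := by
  rw [redSub_mulSub O hg]
  exact (Submodule.equivMapOfInjective _ (mulL_injective hg) _).finrank_eq.symm

/-- **LAT**, multiplied form. -/
theorem finrank_redSub_of_mul (W : Submodule C (LaurentSeries C)) [FiniteDimensional C W]
    {g : LaurentSeries ↥O} (hg : redV O g ≠ 0) (hW : PrimScalable O (mulSub (iotaV O g) W)) :
    Module.finrank (kV O) (redSub O W) = Module.finrank C W := by
  rw [← finrank_redSub_mulSub O hg, finrank_redSub O _ hW,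
    finrank_mulSub (iotaV_ne_zero_of_redV_ne_zero O hg)]

/-! ## Common denominators -/

/-- The scaling property of a subalgebra. -/
def ScalableAlg (R : Subalgebra C (LaurentSeries C)) : Prop :=
  ∀ x ∈ R, x ≠ 0 → ∃ c : C, c ≠ 0 ∧ PrimSeries O.toSubring (HahnSeries.C c * x)

theorem C_eq_algebraMap (c : C) :
    (HahnSeries.C c : LaurentSeries C) = algebraMap C (LaurentSeries C) c := by
  have h1 : algebraMap C (PowerSeries C) c = PowerSeries.C c := by simp
  rw [HahnSeries.algebraMap_apply', h1, HahnSeries.ofPowerSeries_C]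

theorem C_mul_mem_subalgebra (R : Subalgebra C (LaurentSeries C)) (c : C) {x : LaurentSeries C}
    (hx : x ∈ R) : HahnSeries.C c * x ∈ R := by
  rw [C_eq_algebraMap]
  exact R.mul_mem (R.algebraMap_mem c) hx

/-- A finite-dimensional space of fractions has a common denominator. -/
theorem exists_common_denominator (R : Subalgebra C (LaurentSeries C))
    (W : Submodule C (LaurentSeries C)) [FiniteDimensional C W]
    (hW : ∀ x ∈ W, ∃ b ∈ R, b ≠ 0 ∧ b * x ∈ R) :
    ∃ b ∈ R, b ≠ 0 ∧ ∀ x ∈ W, b * x ∈ R := by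
  classical
  obtain ⟨s, hs⟩ : W.FG := (Submodule.fg_iff_finiteDimensional W).mpr inferInstance
  have hsW : ∀ x ∈ s, x ∈ W := fun x hx => hs ▸ Submodule.subset_span hx
  choose! d hdR hd0 hdx using hW
  refine ⟨∏ y ∈ s, d y, Subalgebra.prod_mem R fun y hy => hdR y (hsW y hy),
    Finset.prod_ne_zero_iff.mpr fun y hy => hd0 y (hsW y hy), ?_⟩
  intro x hx
  rw [← hs] at hx
  induction hx using Submodule.span_induction with
  | mem x hx =>
    rw [← Finset.mul_prod_erase s d hx, mul_comm (d x), mul_assoc]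
    exact R.mul_mem (Subalgebra.prod_mem R fun y hy =>
      hdR y (hsW y (Finset.mem_of_mem_erase hy))) (hdx x (hsW x hx))
  | zero => rw [mul_zero]; exact R.zero_mem
  | add x y _ _ hx hy => rw [mul_add]; exact R.add_mem hx hy
  | smul a x _ hx =>
    rw [← HahnSeries.C_mul_eq_smul, mul_left_comm]
    exact C_mul_mem_subalgebra R a hx

/-- **LAT for spaces of fractions**: if the nonzero elements of the subalgebra `R` are scalable
and `W` is a finite-dimensional space of fractions of elements of `R`, then the reduction of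
`W ∩ (Gauss ring)` has the same dimension as `W`. -/
theorem finrank_redSub_of_fractions {R : Subalgebra C (LaurentSeries C)} (hR : ScalableAlg O R)
    (W : Submodule C (LaurentSeries C)) [FiniteDimensional C W]
    (hW : ∀ x ∈ W, ∃ b ∈ R, b ≠ 0 ∧ b * x ∈ R) :
    Module.finrank (kV O) (redSub O W) = Module.finrank C W := by
  obtain ⟨b, hbR, hb0, hbW⟩ := exists_common_denominator R W hW
  obtain ⟨c, -, hc⟩ := hR b hbR hb0
  obtain ⟨g, hg, hgb⟩ := (primSeries_iff O _).1 hc
  refine finrank_redSub_of_mul O W hg ?_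
  intro y hy hy0
  obtain ⟨x, hxW, rfl⟩ := mem_mulSub.mp hy
  refine hR _ ?_ hy0
  rw [hgb, mul_assoc]
  exact C_mul_mem_subalgebra R c (hbW x hxW)

/-! ## Orthonormal bases of spaces of fractions -/

/-- An **orthonormal basis** of `W`: elements `e_i ∈ W` of the Gauss ring, with linearly
independent reductions, such that `W ∩ (Gauss ring)` is the `O`-span of the `e_i`. -/
structure IsOrthonormal (W : Submodule C (LaurentSeries C)) {n : ℕ}
    (e : Fin n → gaussRingV O) : Prop where
  mem : ∀ i, ((e i : gaussRingV O) : LaurentSeries C) ∈ W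
  indep : LinearIndependent (kV O) (fun i => gaussRedV O (e i))
  repr : ∀ x ∈ W, x ∈ gaussRingV O →
    ∃ d : Fin n → ↥O, x = ∑ i, ((d i : ↥O) : C) • ((e i : gaussRingV O) : LaurentSeries C)

/-- The reduction of an `O`-combination of elements of the Gauss ring. -/
theorem gaussRedV_sum' {n : ℕ} (e : Fin n → gaussRingV O) (d : Fin n → ↥O)
    (hx : ∑ i, ((d i : ↥O) : C) • ((e i : gaussRingV O) : LaurentSeries C) ∈ gaussRingV O) :
    gaussRedV O ⟨_, hx⟩ = ∑ i, resV O (d i) • gaussRedV O (e i) := by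
  have e1 : (⟨_, hx⟩ : gaussRingV O)
      = ∑ i, (⟨iotaV O (HahnSeries.C (d i)), iotaV_mem_gaussRingV O _⟩ : gaussRingV O) * e i := by
    apply Subtype.ext
    have hcoe : ((∑ i, (⟨iotaV O (HahnSeries.C (d i)), iotaV_mem_gaussRingV O _⟩ : gaussRingV O)
        * e i : gaussRingV O) : LaurentSeries C)
        = ∑ i, iotaV O (HahnSeries.C (d i)) * ((e i : gaussRingV O) : LaurentSeries C) :=
      map_sum (gaussRingV O).val _ _
    rw [hcoe]
    show ∑ i, ((d i : ↥O) : C) • ((e i : gaussRingV O) : LaurentSeries C)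
      = ∑ i, iotaV O (HahnSeries.C (d i)) * ((e i : gaussRingV O) : LaurentSeries C)
    refine Finset.sum_congr rfl fun i _ => ?_
    rw [← HahnSeries.C_mul_eq_smul, ← iotaV_C]
  rw [e1, map_sum]
  refine Finset.sum_congr rfl fun i _ => ?_
  rw [map_mul, gaussRedV_iotaV, redV_C, HahnSeries.C_mul_eq_smul]

theorem IsOrthonormal.redSub_eq {W : Submodule C (LaurentSeries C)} {n : ℕ}
    {e : Fin n → gaussRingV O} (he : IsOrthonormal O W e) :
    redSub O W = Submodule.span (kV O) (Set.range fun i => gaussRedV O (e i)) := by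
  apply le_antisymm
  · rintro y ⟨x, hx, hxW, rfl⟩
    obtain ⟨d, hd⟩ := he.repr x hxW hx
    subst hd
    rw [gaussRedV_sum']
    exact Submodule.sum_mem _ fun i _ =>
      Submodule.smul_mem _ _ (Submodule.subset_span ⟨i, rfl⟩)
  · rw [Submodule.span_le]
    rintro _ ⟨i, rfl⟩
    exact ⟨(e i : LaurentSeries C), (e i).2, he.mem i, rfl⟩

theorem IsOrthonormal.finrank_redSub {W : Submodule C (LaurentSeries C)} {n : ℕ}
    {e : Fin n → gaussRingV O} (he : IsOrthonormal O W e) :
    Module.finrank (kV O) (redSub O W) = n := by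
  rw [he.redSub_eq, finrank_span_eq_card he.indep, Fintype.card_fin]

/-- Orthonormal basis of a scalable space, with prescribed index set. -/
theorem exists_isOrthonormal_of_primScalable (W : Submodule C (LaurentSeries C))
    [FiniteDimensional C W] (hW : PrimScalable O W) {n : ℕ} (hn : Module.finrank C W = n) :
    ∃ f : Fin n → LaurentSeries ↥O,
      IsOrthonormal O W (fun i => ⟨iotaV O (f i), iotaV_mem_gaussRingV O _⟩) := by
  obtain ⟨f, hfW, hfli⟩ := exists_orthonormal_aux O n W inferInstance hn hW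
  have hli := linearIndependent_iotaV O hfli
  have hspan : Submodule.span C (Set.range fun i => iotaV O (f i)) = W := by
    apply Submodule.eq_of_le_of_finrank_eq
    · rw [Submodule.span_le]
      rintro _ ⟨i, rfl⟩
      exact hfW i
    · rw [finrank_span_eq_card hli, Fintype.card_fin, hn]
  refine ⟨f, hfW, ?_, ?_⟩
  · simpa only [gaussRedV_iotaV] using hfli
  · intro x hxW hx
    rw [← hspan] at hxW
    obtain ⟨c, hc⟩ := (Submodule.mem_span_range_iff_exists_fun C).mp hxW
    have hcO := coeff_mem_of_mem_gaussRingV O hfli c (by rw [hc]; exact hx)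
    exact ⟨fun i => ⟨c i, hcO i⟩, hc.symm⟩

/-- Orthonormal basis of `W` from one of `g W`, `g` primitive. -/
theorem exists_isOrthonormal_of_mul (W : Submodule C (LaurentSeries C)) [FiniteDimensional C W]
    {g : LaurentSeries ↥O} (hg : redV O g ≠ 0) (hW : PrimScalable O (mulSub (iotaV O g) W)) :
    ∃ e : Fin (Module.finrank C W) → gaussRingV O, IsOrthonormal O W e := by
  have hg0 : iotaV O g ≠ 0 := iotaV_ne_zero_of_redV_ne_zero O hg
  obtain ⟨f, hf⟩ := exists_isOrthonormal_of_primScalable O (mulSub (iotaV O g) W) hW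
    (finrank_mulSub hg0 W)
  let u : gaussRingV O := ⟨(iotaV O g)⁻¹, inv_iotaV_mem O hg⟩
  have hu : gaussRedV O u * redV O g = 1 := by
    rw [← gaussRedV_iotaV O g, ← map_mul]
    have : u * ⟨iotaV O g, iotaV_mem_gaussRingV O g⟩ = 1 :=
      Subtype.ext (inv_mul_cancel₀ hg0)
    rw [this, map_one]
  have hu0 : gaussRedV O u ≠ 0 := left_ne_zero_of_mul_eq_one hu
  refine ⟨fun i => u * ⟨iotaV O (f i), iotaV_mem_gaussRingV O _⟩, ?_, ?_, ?_⟩
  · intro i
    obtain ⟨x, hxW, hx⟩ := mem_mulSub.mp (hf.mem i)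
    have : ((u * ⟨iotaV O (f i), iotaV_mem_gaussRingV O _⟩ : gaussRingV O) : LaurentSeries C)
        = x := by
      show (iotaV O g)⁻¹ * iotaV O (f i) = x
      have hx' : iotaV O g * x = iotaV O (f i) := hx
      rw [← hx', ← mul_assoc, inv_mul_cancel₀ hg0, one_mul]
    rw [this]
    exact hxW
  · have h1 := hf.indep
    rw [Fintype.linearIndependent_iff] at h1 ⊢
    intro c hc
    apply h1 c
    have h2 : ∑ i, c i • gaussRedV O (u * ⟨iotaV O (f i), iotaV_mem_gaussRingV O _⟩)
        = gaussRedV O u * ∑ i, c i • gaussRedV O ⟨iotaV O (f i), iotaV_mem_gaussRingV O _⟩ := by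
      rw [Finset.mul_sum]
      refine Finset.sum_congr rfl fun i _ => ?_
      rw [map_mul, ← HahnSeries.C_mul_eq_smul, ← HahnSeries.C_mul_eq_smul]
      ring
    rw [h2] at hc
    exact (mul_eq_zero.mp hc).resolve_left hu0
  · intro x hxW hx
    have h1 : iotaV O g * x ∈ gaussRingV O :=
      (gaussRingV O).mul_mem (iotaV_mem_gaussRingV O g) hx
    obtain ⟨d, hd⟩ := hf.repr (iotaV O g * x) (mem_mulSub.mpr ⟨x, hxW, rfl⟩) h1
    refine ⟨d, ?_⟩
    have h2 : x = (iotaV O g)⁻¹ * (iotaV O g * x) := by
      rw [← mul_assoc, inv_mul_cancel₀ hg0, one_mul]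
    rw [h2, hd, Finset.mul_sum]
    refine Finset.sum_congr rfl fun i _ => ?_
    show (iotaV O g)⁻¹ * (((d i : ↥O) : C) • iotaV O (f i))
      = ((d i : ↥O) : C) • ((iotaV O g)⁻¹ * iotaV O (f i))
    rw [← HahnSeries.C_mul_eq_smul, ← HahnSeries.C_mul_eq_smul]
    ring


/-- **LAT, orthonormal form**: a finite-dimensional space `W` of fractions of elements of a
scalable subalgebra has an orthonormal basis. -/
theorem exists_isOrthonormal_of_fractions {R : Subalgebra C (LaurentSeries C)}
    (hR : ScalableAlg O R) (W : Submodule C (LaurentSeries C)) [FiniteDimensional C W]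
    (hW : ∀ x ∈ W, ∃ b ∈ R, b ≠ 0 ∧ b * x ∈ R) :
    ∃ e : Fin (Module.finrank C W) → gaussRingV O, IsOrthonormal O W e := by
  obtain ⟨b, hbR, hb0, hbW⟩ := exists_common_denominator R W hW
  obtain ⟨c, -, hc⟩ := hR b hbR hb0
  obtain ⟨g, hg, hgb⟩ := (primSeries_iff O _).1 hc
  refine exists_isOrthonormal_of_mul O W hg ?_
  intro y hy hy0
  obtain ⟨x, hxW, rfl⟩ := mem_mulSub.mp hy
  refine hR _ ?_ hy0
  rw [hgb, mul_assoc]
  exact C_mul_mem_subalgebra R c (hbW x hxW)

end Fermat.Agent.RED.H42
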