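import Fermat.Agent.RED.H51_HRDefs
import Fermat.Agent.RED.H36_RM
import Fermat.Agent.RED.H33_Uni
import Fermat.Agent.S18.WiringCore
import Fermat.Agent.S15.Defs

/-!
# G-RED package HR-RED, wiring (helper51)

`stmt_HR_of : Stmt_HRcore → Stmt_RM → S15.Stmt_HR p` (`p` prime): the kernel of the reduction
`J₀(p) → J₀(p)~` modulo `ℓ ≠ p` is stable under the Hecke ring `ℤ[X_s]` acting by the prelude's
`heckeModuleBar`.

* `isRed_of_good` : the conservation law `IsRed` from its existential form (every principal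
  divisor is the divisor of SOME Gauss unit `x` with `r_* (div x) = div (res x)`).
* `hr_transport` : the place reduction `r₀` hidden in `reductionModL` takes values in the places of
  `k(j(q^d) : d ∣ N)`; this field is the reduced field (`stmt_GA`), `r₀` has the conservation
  law, hence it is THE reduction map (`H33.isRed_unique`) and `Stmt_HRcore` applies.
* `reductionModL_heckeOperatorBar` : the kernel of `reductionModL` is stable under `T_s`.
* `reductionModL_hsmul` : ... and under the Hecke ring.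

This file contains no `sorry`.
-/

set_option autoImplicit false
set_option linter.style.haveILetI false
set_option linter.unusedSectionVars false
set_option synthInstance.maxHeartbeats 400000
set_option maxHeartbeats 1000000

noncomputable section

open AlgebraicCurve ModularCurve Fermat.Agent.S28.H73 Fermat.Agent.RED.H73 Fermat.Agent.RED

namespace Fermat.Agent.RED.H51

section Abs

variable {C : Type} [Field C] (O : ValuationSubring C)
variable {F : IntermediateField C (LaurentSeries C)} (h : HasScale O F)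

/-- The conservation law from its existential form: if every principal divisor `D` is the
divisor of some Gauss unit `x` with `r_* D = div (res x)`, then `r` has the conservation law. -/
theorem isRed_of_good [IsAlgClosed C] (hFF : IsFF C ↥F)
    (r : Place C ↥F → Place (kV O) ↥(redField O F h))
    (hgood : ∀ D : Divisor C ↥F, D.IsPrincipal →
      ∃ x : ↥(gaussValSub O F h), IsUnit x ∧ (∀ P, D P = P.ord (x : ↥F)) ∧
        ∀ Q, Finsupp.mapDomain r D Q = Q.ord (gaussResF' O h x)) :
    IsRed O h r := by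
  intro f hf D hD Q
  have hf0 : (f : ↥F) ≠ 0 := by
    intro h0
    have : f = 0 := Subtype.ext h0
    rw [this] at hf
    exact not_isUnit_zero hf
  obtain ⟨x, hx, hDx, hQx⟩ := hgood D ⟨(f : ↥F), hf0, hD⟩
  rw [hQx Q]
  have hx0 : (x : ↥F) ≠ 0 := by
    intro h0
    have : x = 0 := Subtype.ext h0
    rw [this] at hx
    exact not_isUnit_zero hx
  have hord : ∀ P : Place C ↥F, P.ord ((f : ↥F) / (x : ↥F)) = 0 := by
    intro P
    rw [div_eq_mul_inv, P.ord_mul hf0 (inv_ne_zero hx0), P.ord_inv, ← hD P, ← hDx P,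
      add_neg_cancel]
  obtain ⟨c, hc⟩ := H36.const_of_ord_eq_zero hFF _ (div_ne_zero hf0 hx0) hord
  have hfx : (f : ↥F) = algebraMap C ↥F c * (x : ↥F) := by
    rw [← hc, div_mul_cancel₀ _ hx0]
  -- `c ∈ O`
  have hxinv : x * ((hx.unit⁻¹ : (↥(gaussValSub O F h))ˣ) : ↥(gaussValSub O F h)) = 1 := by
    have := hx.unit.mul_inv
    rwa [IsUnit.unit_spec] at this
  have hcoe : (((hx.unit⁻¹ : (↥(gaussValSub O F h))ˣ) : ↥(gaussValSub O F h)) : ↥F)
      = (x : ↥F)⁻¹ := by
    have h2 : (x : ↥F)
        * (((hx.unit⁻¹ : (↥(gaussValSub O F h))ˣ) : ↥(gaussValSub O F h)) : ↥F) = 1 :=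
      congrArg Subtype.val hxinv
    exact eq_inv_of_mul_eq_one_right h2
  have hcmem : algebraMap C ↥F c ∈ gaussValSub O F h := by
    have h1 : algebraMap C ↥F c
        = ((f * ((hx.unit⁻¹ : (↥(gaussValSub O F h))ˣ) : ↥(gaussValSub O F h))
            : ↥(gaussValSub O F h)) : ↥F) := by
      rw [← hc, div_eq_mul_inv, ← hcoe]
      rfl
    rw [h1]
    exact Subtype.mem _
  have hcO : c ∈ O := (algebraMap_mem_gaussValSub_iff O h c).1 hcmem
  have hf' : f = ⟨algebraMap C ↥F c, hcmem⟩ * x := Subtype.ext hfx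
  have hresc : gaussResF' O h ⟨algebraMap C ↥F c, hcmem⟩
      = algebraMap (kV O) ↥(redField O F h) (resV O ⟨c, hcO⟩) := by
    apply Subtype.ext
    show gaussResF O h ⟨algebraMap C ↥F c, hcmem⟩
      = algebraMap (kV O) (LaurentSeries (kV O)) (resV O ⟨c, hcO⟩)
    rw [gaussResF_algebraMap O h ⟨c, hcO⟩ hcmem, algebraMap_kV]
  have hfne : gaussResF' O h f ≠ 0 := (H17.gaussResF'_ne_zero_iff_isUnit O h f).mpr hf
  have hres : gaussResF' O h f
      = algebraMap (kV O) ↥(redField O F h) (resV O ⟨c, hcO⟩) * gaussResF' O h x := by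
    rw [hf', map_mul, hresc]
  have hne1 : algebraMap (kV O) ↥(redField O F h) (resV O ⟨c, hcO⟩) ≠ 0 := by
    intro h0
    rw [h0, zero_mul] at hres
    exact hfne hres
  have hne2 : gaussResF' O h x ≠ 0 := (H17.gaussResF'_ne_zero_iff_isUnit O h x).mpr hx
  rw [hres, Q.ord_mul hne1 hne2, ord_algebraMap, zero_add]

end Abs

section Transport

variable (N ℓ s : ℕ) [NeZero N] [NeZero s]

/-- **Transport**: a map `r₀` of places with values in the places of a field `E` which IS the
reduced field, and with the existential form of the conservation law, satisfies the conclusion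
of `Stmt_HRcore`. -/
theorem hr_transport (hcore : Stmt_HRcore) (hRM : Stmt_RM) (hℓ : ℓ.Prime) (hs : s.Prime)
    (hℓN : ¬ ℓ ∣ N) (A : ValuationSubring (AlgebraicClosure ℚ)) (hA : A.LiesOverPrime ℓ)
    (hα : HeckeAlphaBarIntegral (AlgebraicClosure ℚ) N s)
    (hβ : HeckeBetaBarIntegral (AlgebraicClosure ℚ) N s)
    [HasPrincipalDivisors (AlgebraicClosure ℚ) ↥(modularFunctionFieldBar (N * s))]
    (E : IntermediateField (kV A) (LaurentSeries (kV A)))
    (e : redField A (modularFunctionFieldBar N) (hasScale_laurentBaseChange A N) = E)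
    (r₀ : Place (AlgebraicClosure ℚ) ↥(modularFunctionFieldBar N) → Place (kV A) ↥E)
    (hgood : ∀ D : Divisor (AlgebraicClosure ℚ) ↥(modularFunctionFieldBar N), D.IsPrincipal →
      ∃ (x : ↥(gaussValSub A (modularFunctionFieldBar N) (hasScale_laurentBaseChange A N)))
        (xb : ↥E), IsUnit x ∧
        gaussResF A (hasScale_laurentBaseChange A N) x = (xb : LaurentSeries (kV A)) ∧
        (∀ P, D P = P.ord (x : ↥(modularFunctionFieldBar N))) ∧
        (∀ Q, Finsupp.mapDomain r₀ D Q = Q.ord xb))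
    (D : Divisor (AlgebraicClosure ℚ) ↥(modularFunctionFieldBar N))
    (hD : Divisor.IsPrincipal (Finsupp.mapDomain r₀ D)) :
    Divisor.IsPrincipal (Finsupp.mapDomain r₀ (heckeDivBar hα hβ D)) := by
  subst e
  haveI : IsAlgClosed (kV A) := isAlgClosed_kV A
  have hFF := H95.stmt_HKA_isFF N
  have hFt := isFF_redField_bar N ℓ hℓ hℓN A hA
  have hr₀ : IsRed A (hasScale_laurentBaseChange A N) r₀ := by
    refine isRed_of_good A (hasScale_laurentBaseChange A N) hFF r₀ fun D' hD' => ?_
    obtain ⟨x, xb, hu, hx, hE, hQ⟩ := hgood D' hD'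
    refine ⟨x, hu, hE, fun Q => ?_⟩
    rw [hQ Q]
    congr 1
    exact Subtype.ext hx.symm
  obtain ⟨r, hr, hmove⟩ := hRM N ℓ hℓ hℓN A hA
  have huniq : r = r₀ := H33.isRed_unique A (hasScale_laurentBaseChange A N) hFF hFt
    (H42.fracScalable_laurentBaseChange A N) hr hr₀
  subst huniq
  exact hcore N ℓ s hℓ hs hℓN A hA hα hβ r hr hmove D hD

end Transport

section Pic

variable (N : ℕ) [NeZero N]

/-- The kernel of the reduction modulo `ℓ ∤ N` on `J₀(N)` is stable under the Hecke operators
`T_s`, `s` any prime. -/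
theorem reductionModL_heckeOperatorBar (hcore : Stmt_HRcore) (hRM : Stmt_RM) {ℓ : ℕ}
    (hℓ : ℓ.Prime) (hℓN : ¬ ℓ ∣ N) (A : ValuationSubring (AlgebraicClosure ℚ))
    (hA : A.LiesOverPrime ℓ) (s : Nat.Primes) (z : JZero N)
    (hz : reductionModL A N z = 0) : reductionModL A N (heckeOperatorBar N s z) = 0 := by
  by_cases hin : ReductionInputsModL A N
  swap
  · rw [reductionModL_of_not hin]
    rfl
  haveI : NeZero (s : ℕ) := ⟨s.2.ne_zero⟩
  obtain ⟨hα, hβ, hP, hfin, hFI, hNF⟩ := stmt_HKA N (s : ℕ)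
  obtain ⟨D, rfl⟩ := Pic0.mk_surjective z
  rw [heckeOperatorBar_apply, heckeOperatorAlong_eq hα hβ hFI hfin hNF]
  have hmk : heckePic0Bar hα hβ hFI hfin hNF (Pic0.mk D)
      = Pic0.mk (Pic0.degZeroCorrespondence (heckeBetaBar (AlgebraicClosure ℚ) N (s : ℕ))
          (heckeAlphaBar (AlgebraicClosure ℚ) N (s : ℕ)) hβ hα hFI D) := rfl
  rw [hmk, reductionModL_mk hin]
  rw [reductionModL_mk hin] at hz
  have h1 := (QuotientAddGroup.eq_zero_iff _).mp hz
  rw [AddSubgroup.mem_addSubgroupOf] at h1
  refine (QuotientAddGroup.eq_zero_iff _).mpr (AddSubgroup.mem_addSubgroupOf.mpr ?_)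
  exact hr_transport N ℓ (s : ℕ) hcore hRM hℓ s.2 hℓN A hA hα hβ _ (stmt_GA N ℓ hℓ hℓN A hA)
    (placeReductionModL hin)
    (fun D' hD' => Fermat.Agent.S18.goodDiv_of_mem_principal
      (isPlaceReductionModL_placeReductionModL hin) hin.choose_spec.2 hD')
    (D : Divisor (AlgebraicClosure ℚ) ↥(modularFunctionFieldBar N)) h1

/-- The kernel of the reduction modulo `ℓ ∤ N` on `J₀(N)` is stable under the Hecke ring. -/
theorem reductionModL_hsmul (hcore : Stmt_HRcore) (hRM : Stmt_RM) {ℓ : ℕ}
    (hℓ : ℓ.Prime) (hℓN : ¬ ℓ ∣ N) (A : ValuationSubring (AlgebraicClosure ℚ))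
    (hA : A.LiesOverPrime ℓ) (t : HeckeAlg) (z : JZero N)
    (hz : reductionModL A N z = 0) :
    reductionModL A N (Fermat.Agent.S15.hsmul N t z) = 0 := by
  unfold Fermat.Agent.S15.hsmul
  by_cases hc : HeckeOperatorsCommuteBar N
  · rw [heckeModuleBar_smul_def hc, heckeEvalBar_apply]
    have key : ∀ T ∈ Algebra.adjoin ℤ (Set.range (heckeOperatorBar N)),
        ∀ w : JZero N, reductionModL A N w = 0 → reductionModL A N (T w) = 0 := by
      intro T hT
      induction hT using Algebra.adjoin_induction with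
      | mem x hx =>
        obtain ⟨s, rfl⟩ := hx
        exact fun w hw => reductionModL_heckeOperatorBar N hcore hRM hℓ hℓN A hA s w hw
      | algebraMap a =>
        intro w hw
        rw [Module.algebraMap_end_apply, map_zsmul, hw, smul_zero]
      | add x y _ _ hx hy =>
        intro w hw
        rw [LinearMap.add_apply, map_add, hx w hw, hy w hw, add_zero]
      | mul x y _ _ hx hy =>
        intro w hw
        rw [Module.End.mul_apply]
        exact hx _ (hy w hw)
    exact key _ (heckeEvalBarAux hc t).2 z hz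
  · rw [heckeModuleBar_smul_of_not hc, map_zsmul, hz, smul_zero]

end Pic

/-- **HR** (S15 leaf) from the core `Stmt_HRcore` and the reduction map `Stmt_RM`. -/
theorem stmt_HR_of (hcore : Stmt_HRcore) (hRM : Stmt_RM) (p : ℕ) [NeZero p] (hp : p.Prime) :
    Fermat.Agent.S15.Stmt_HR p := by
  intro ℓ hℓ hℓp A hA t z _ hz
  exact reductionModL_hsmul p hcore hRM hℓ ((Nat.prime_dvd_prime_iff_eq hℓ hp).not.mpr hℓp)
    A hA t z hz

end Fermat.Agent.RED.H51
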