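import Fermat.Agent.RED.Core2

/-!
# G-RED package HR-RED (helper51 wiring, helper95 core): interface

`Stmt_HRcore` : for a reduction map `r` of level `N` (prime to `ℓ`) with the conservation law and
the moving lemma, and for every prime `s` (`s = ℓ`, `s ≠ ℓ`, `s ∣ N` allowed): if `r_* D` is
principal then `r_* (T_s D)` is principal, `T_s = α_* β^*` the Hecke correspondence of the prelude
(`heckeDivBar`).

The wiring `Stmt_HRcore → Stmt_RM → S15.Stmt_HR p` is in `RED/H51_HR.lean`.
This file contains no `sorry`.
-/

set_option autoImplicit false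
set_option synthInstance.maxHeartbeats 400000
set_option maxHeartbeats 1000000

noncomputable section

open AlgebraicCurve ModularCurve Fermat.Agent.S28.H73 Fermat.Agent.RED.H73

namespace Fermat.Agent.RED.H51

/-- **HR, core**: the kernel of the reduction map on divisors is stable under the Hecke
correspondences `T_s`, `s` any prime. -/
def Stmt_HRcore : Prop :=
  ∀ (N ℓ s : ℕ) [NeZero N] [NeZero s], ℓ.Prime → s.Prime → ¬ ℓ ∣ N →
    ∀ A : ValuationSubring (AlgebraicClosure ℚ), A.LiesOverPrime ℓ →
    ∀ (hα : HeckeAlphaBarIntegral (AlgebraicClosure ℚ) N s)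
      (hβ : HeckeBetaBarIntegral (AlgebraicClosure ℚ) N s)
      [HasPrincipalDivisors (AlgebraicClosure ℚ) ↥(modularFunctionFieldBar (N * s))],
    ∀ r : Place (AlgebraicClosure ℚ) ↥(modularFunctionFieldBar N) →
        Place (kV A) ↥(redField A (modularFunctionFieldBar N) (hasScale_laurentBaseChange A N)),
      IsRed A (hasScale_laurentBaseChange A N) r →
      HasMove A (hasScale_laurentBaseChange A N) r →
    ∀ D : Divisor (AlgebraicClosure ℚ) ↥(modularFunctionFieldBar N),
      Divisor.IsPrincipal (Finsupp.mapDomain r D) →
        Divisor.IsPrincipal (Finsupp.mapDomain r (heckeDivBar hα hβ D))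

end Fermat.Agent.RED.H51
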