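import Fermat.Agent.RED.H51_HR
import Fermat.Agent.RED.H51_NDESC
import Fermat.Agent.RED.H76_DR2

/-!
# G-RED package HR-RED (helper51): `S15.Stmt_HR p` from the core alone

* `stmt_RM : Stmt_RM` : the reduction map with the conservation law and the moving lemma exists at
  every level `N` prime to `ℓ`, unconditionally (`H36.stmt_RM_of`, helper76's `stmt_DR2`,
  `stmt_NDESC`).
* `stmt_HR_of_core : Stmt_HRcore → S15.Stmt_HR p` (`p` prime).
* `reductionModL_hsmul_of_core` : the same at every level `N` prime to `ℓ`, for all `z`.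

This file contains no `sorry`.
-/

set_option autoImplicit false

noncomputable section

open ModularCurve

namespace Fermat.Agent.RED.H51

/-- **Package RM**, unconditional. -/
theorem stmt_RM : Fermat.Agent.RED.Stmt_RM :=
  Fermat.Agent.RED.H36.stmt_RM_of Fermat.Agent.RED.H76.stmt_DR2 stmt_NDESC

/-- The kernel of the reduction modulo `ℓ ∤ N` on `J₀(N)` is stable under the Hecke ring, from
the core `Stmt_HRcore`. -/
theorem reductionModL_hsmul_of_core (hcore : Stmt_HRcore) (N : ℕ) [NeZero N] {ℓ : ℕ}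
    (hℓ : ℓ.Prime) (hℓN : ¬ ℓ ∣ N) (A : ValuationSubring (AlgebraicClosure ℚ))
    (hA : A.LiesOverPrime ℓ) (t : HeckeAlg) (z : JZero N)
    (hz : reductionModL A N z = 0) :
    reductionModL A N (Fermat.Agent.S15.hsmul N t z) = 0 :=
  reductionModL_hsmul N hcore stmt_RM hℓ hℓN A hA t z hz

/-- **HR** (S15 leaf) from the core `Stmt_HRcore`. -/
theorem stmt_HR_of_core (hcore : Stmt_HRcore) (p : ℕ) [NeZero p] (hp : p.Prime) :
    Fermat.Agent.S15.Stmt_HR p :=
  stmt_HR_of hcore stmt_RM p hp

end Fermat.Agent.RED.H51
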