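/-
G-RED, package ES-3b (helper52): the abstract positivity lemma in the Core setting.

`C`, `O`, `F`, `h : HasScale O F`, `r : Place C F → Place k F~` with the moving lemma `HasMove`;
`Φ, Ψ : Div F →+ Div F~` positive, of equal degree on points, equal on the divisors of Gauss
units, `Ψ` local with respect to `r`.  Then `Φ = Ψ`.
-/
import Fermat.Agent.RED.H52_ES3bAbs
import Fermat.Agent.RED.Core2
import Fermat.Agent.RED.H51_Final

set_option autoImplicit false
set_option synthInstance.maxHeartbeats 400000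
set_option maxHeartbeats 1000000

noncomputable section

open AlgebraicCurve ModularCurve Fermat.Agent.S28.H73 Fermat.Agent.RED.H73

namespace Fermat.Agent.RED

/-- **Package ES-3b** (abstract positivity lemma). -/
def Stmt_ES3b : Prop :=
  ∀ (C : Type) [Field C] [IsAlgClosed C] (O : ValuationSubring C) [IsAlgClosed (kV O)]
    (F : IntermediateField C (LaurentSeries C)) (h : HasScale O F),
    IsFF C ↥F → IsFF (kV O) ↥(redField O F h) →
    ∀ r : Place C ↥F → Place (kV O) ↥(redField O F h), HasMove O h r →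
    ∀ Φ Ψ : Divisor C ↥F →+ Divisor (kV O) ↥(redField O F h),
      (∀ P Q, 0 ≤ Φ (Finsupp.single P 1) Q) →
      (∀ P, Divisor.degree (Φ (Finsupp.single P 1))
        = Divisor.degree (Ψ (Finsupp.single P 1))) →
      (∀ u : ↥(gaussValSub O F h), IsUnit u → ∀ D : Divisor C ↥F,
        (∀ P, D P = P.ord (u : ↥F)) → Φ D = Ψ D) →
      (∀ P, ∃ S : Finset (Place (kV O) ↥(redField O F h)), ∀ P', r P' ∉ S → r P' ≠ r P →
        ∀ Q, Ψ (Finsupp.single P 1) Q ≠ 0 → Ψ (Finsupp.single P' 1) Q = 0) →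
      Φ = Ψ

namespace H52

/-- **ES-3b.** -/
theorem stmt_ES3b : Stmt_ES3b := by
  intro C _ _ O _ F h hFF hFF' r hmove Φ Ψ hΦ hdeg hprin hloc
  have hPD : HasPrincipalDivisors C ↥F := H51.stmt_FFB_principal C ↥F hFF
  have hd1 : ∀ Q : Place (kV O) ↥(redField O F h), Q.deg = 1 :=
    H51.stmt_FFB_deg (kV O) ↥(redField O F h) hFF'
  refine eq_of_pos_of_move r Divisor.degree (fun Q => ?_) Φ Ψ hΦ hdeg hloc ?_
  · rw [Divisor.degree_single, hd1 Q]; norm_num
  · intro P S
    obtain ⟨n, f, hn, hu, hfP, hf⟩ := hmove P S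
    have hf0 : (f : ↥F) ≠ 0 := by
      intro h0
      have : f = 0 := Subtype.ext h0
      rw [this] at hu
      exact not_isUnit_zero hu
    obtain ⟨D, hD, -⟩ := hPD.exists_divisor (f : ↥F) hf0
    refine ⟨n, D, hn, by rw [hD, hfP], fun P' hP' => ?_, hprin f hu D hD⟩
    rw [hD]
    exact hf P' hP'

end H52

end Fermat.Agent.RED
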