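import Fermat.Agent.S28.H76_Bridge
import Fermat.Agent.S16.H26_Trid
import Fermat.Agent.S16.H21_Step1
import Fermat.Agent.S16.H6_Eis
import Fermat.Agent.S16.H45_CuspExp
import Fermat.Agent.S20.H19_Index
import Fermat.Prelude.Thm_ModularForm_sturm_bound_Gamma0

/-!
# G-RED, package IG-MOD23, `p = 2` (helper70): three identities of modular forms on `Γ₀(2)`

With `G = 2 E₂(2z) - E₂(z) = 1 + 24 ∑ σ_odd(n) qⁿ` (integral expansion `g2Series`),
`α = 4 G² - E₄`, `β = E₄ - G²`: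

* `w4`   : `4 E₄(2z) = 5 G² - E₄`,
* `w12a` : `1728 Δ(z) = α² β`,
* `w12b` : `110592 Δ(2z) = α β²`,

as identities of integral `q`-expansions (power series over `ℤ`). Each is a Sturm bound check
on `Γ₀(2)` (index 3; prelude `ModularForm.sturm_bound_Gamma0`): coefficients `0, 1` in weight 4,
`0, …, 3` in weight 12.
-/

set_option autoImplicit false

noncomputable section

namespace Fermat.Agent.RED.H70

section formal

open PowerSeries

/-- Congruence modulo `X ^ n` through the quotient ring. -/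
theorem pi_eq_of_dvd {n : ℕ} {a b : PowerSeries ℤ} (h : (X : PowerSeries ℤ) ^ n ∣ a - b) :
    Ideal.Quotient.mk (Ideal.span {(X : PowerSeries ℤ) ^ n}) a
      = Ideal.Quotient.mk (Ideal.span {(X : PowerSeries ℤ) ^ n}) b :=
  Ideal.Quotient.eq.2 (Ideal.mem_span_singleton.2 h)

theorem dvd_of_pi_eq_zero {n : ℕ} {a : PowerSeries ℤ}
    (h : Ideal.Quotient.mk (Ideal.span {(X : PowerSeries ℤ) ^ n}) a = 0) :
    (X : PowerSeries ℤ) ^ n ∣ a :=
  Ideal.mem_span_singleton.1 (Ideal.Quotient.eq_zero_iff_mem.1 h)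

theorem pi_X_pow (n : ℕ) :
    (Ideal.Quotient.mk (Ideal.span {(X : PowerSeries ℤ) ^ n}) X) ^ n = 0 := by
  rw [← map_pow]
  exact Ideal.Quotient.eq_zero_iff_mem.2 (Ideal.mem_span_singleton.2 dvd_rfl)

/-- A power series is congruent modulo `X ^ 4` to its first four terms. -/
theorem dvd_four (P : PowerSeries ℤ) (c0 c1 c2 c3 : ℤ) (h0 : coeff 0 P = c0)
    (h1 : coeff 1 P = c1) (h2 : coeff 2 P = c2) (h3 : coeff 3 P = c3) :
    (X : PowerSeries ℤ) ^ 4 ∣ P - (C c0 + C c1 * X + C c2 * X ^ 2 + C c3 * X ^ 3) := by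
  rw [PowerSeries.X_pow_dvd_iff]
  intro m hm
  interval_cases m <;>
    simp only [map_sub, map_add, PowerSeries.coeff_C_mul, PowerSeries.coeff_X_pow,
      PowerSeries.coeff_X, PowerSeries.coeff_C, h0, h1, h2, h3] <;> norm_num

theorem dvd_two (P : PowerSeries ℤ) (c0 c1 : ℤ) (h0 : coeff 0 P = c0)
    (h1 : coeff 1 P = c1) :
    (X : PowerSeries ℤ) ^ 2 ∣ P - (C c0 + C c1 * X) := by
  rw [PowerSeries.X_pow_dvd_iff]
  intro m hm
  interval_cases m <;>
    simp only [map_sub, map_add, PowerSeries.coeff_C_mul,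
      PowerSeries.coeff_X, PowerSeries.coeff_C, h0, h1] <;> norm_num

/-- The truncated check for `(W4)`. -/
theorem t4_dvd (g e Ee : PowerSeries ℤ)
    (hg : (X : PowerSeries ℤ) ^ 2 ∣ g - (C 1 + C 24 * X))
    (he : (X : PowerSeries ℤ) ^ 2 ∣ e - (C 1 + C 240 * X))
    (hEe : (X : PowerSeries ℤ) ^ 2 ∣ Ee - (C 1 + C 0 * X)) :
    (X : PowerSeries ℤ) ^ 2 ∣ 5 * g ^ 2 - e - 4 * Ee := by
  apply dvd_of_pi_eq_zero
  have hg' := pi_eq_of_dvd hg
  have he' := pi_eq_of_dvd he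
  have hEe' := pi_eq_of_dvd hEe
  have hx := pi_X_pow 2
  simp only [map_sub, map_mul, map_pow, map_add, map_ofNat, map_one, map_zero] at hg' he' hEe' ⊢
  rw [hg', he', hEe']
  generalize (Ideal.Quotient.mk (Ideal.span {(X : PowerSeries ℤ) ^ 2})) X = x at hx ⊢
  linear_combination (2880) * hx

/-- The truncated check for `(W12a)`. -/
theorem t12a_dvd (g e e6 : PowerSeries ℤ)
    (hg : (X : PowerSeries ℤ) ^ 4 ∣ g - (C 1 + C 24 * X + C 24 * X ^ 2 + C 96 * X ^ 3))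
    (he : (X : PowerSeries ℤ) ^ 4 ∣ e - (C 1 + C 240 * X + C 2160 * X ^ 2 + C 6720 * X ^ 3))
    (he6 : (X : PowerSeries ℤ) ^ 4 ∣
      e6 - (C 1 + C (-504) * X + C (-16632) * X ^ 2 + C (-122976) * X ^ 3)) :
    (X : PowerSeries ℤ) ^ 4 ∣ (4 * g ^ 2 - e) ^ 2 * (e - g ^ 2) - (e ^ 3 - e6 ^ 2) := by
  apply dvd_of_pi_eq_zero
  have hg' := pi_eq_of_dvd hg
  have he' := pi_eq_of_dvd he
  have he6' := pi_eq_of_dvd he6
  have hx := pi_X_pow 4
  simp only [map_sub, map_mul, map_pow, map_add, map_ofNat, map_one, map_neg] at hg' he' he6' ⊢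
  rw [hg', he', he6']
  generalize (Ideal.Quotient.mk (Ideal.span {(X : PowerSeries ℤ) ^ 4})) X = x at hx ⊢
  linear_combination ((960768) + (-483784704) * x + (-16201562112) * x ^ 2 + (-125961412608) * x ^ 3 + (-296545370112) * x ^ 4 + (-208277471232) * x ^ 5 + (433931157504) * x ^ 6 + (3762435391488) * x ^ 7 + (4692469874688) * x ^ 8 + (7509582544896) * x ^ 9 + (-7093742469120) * x ^ 10 + (-14481019109376) * x ^ 11 + (-30527553798144) * x ^ 12 + (-18786186952704) * x ^ 13 + (-12524124635136) * x ^ 14) * hx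

/-- The truncated check for `(W12b)`. -/
theorem t12b_dvd (g e Ee Ee6 : PowerSeries ℤ)
    (hg : (X : PowerSeries ℤ) ^ 4 ∣ g - (C 1 + C 24 * X + C 24 * X ^ 2 + C 96 * X ^ 3))
    (he : (X : PowerSeries ℤ) ^ 4 ∣ e - (C 1 + C 240 * X + C 2160 * X ^ 2 + C 6720 * X ^ 3))
    (hEe : (X : PowerSeries ℤ) ^ 4 ∣ Ee - (C 1 + C 0 * X + C 240 * X ^ 2 + C 0 * X ^ 3))
    (hEe6 : (X : PowerSeries ℤ) ^ 4 ∣ Ee6 - (C 1 + C 0 * X + C (-504) * X ^ 2 + C 0 * X ^ 3)) :
    (X : PowerSeries ℤ) ^ 4 ∣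
      (4 * g ^ 2 - e) * (e - g ^ 2) ^ 2 - 64 * (Ee ^ 3 - Ee6 ^ 2) := by
  apply dvd_of_pi_eq_zero
  have hg' := pi_eq_of_dvd hg
  have he' := pi_eq_of_dvd he
  have hEe' := pi_eq_of_dvd hEe
  have hEe6' := pi_eq_of_dvd hEe6
  have hx := pi_X_pow 4
  simp only [map_sub, map_mul, map_pow, map_add, map_ofNat, map_one, map_neg, map_zero]
    at hg' he' hEe' hEe6' ⊢
  rw [hg', he', hEe', hEe6']
  generalize (Ideal.Quotient.mk (Ideal.span {(X : PowerSeries ℤ) ^ 4})) X = x at hx ⊢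
  linear_combination ((2543616) + (-20127744) * x + (-90243072) * x ^ 2 + (11086626816) * x ^ 3 + (91576479744) * x ^ 4 + (367016804352) * x ^ 5 + (747547066368) * x ^ 6 + (-734790942720) * x ^ 7 + (-1893193482240) * x ^ 8 + (-4843313823744) * x ^ 9 + (-489223618560) * x ^ 10 + (1907972112384) * x ^ 11 + (7631888449536) * x ^ 12 + (4696546738176) * x ^ 13 + (3131031158784) * x ^ 14) * hx


end formal

open UpperHalfPlane ModularForm CongruenceSubgroup
open scoped MatrixGroups ModularForm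

open Fermat.Agent.S20.H74 (MF)
open Fermat.Agent.S16.H45
open Fermat.Agent.S23.H96 (e4Series e6Series deltaSeries)



/-- The integral `q`-expansion of `G = 2 E₂(2z) - E₂(z) = 1 + 24 ∑ σ_odd(n) qⁿ`. -/
def g2Series : PowerSeries ℤ :=
  PowerSeries.mk fun n => if n = 0 then 1 else 24 * (Fermat.Agent.S16.sigmaP 2 n : ℤ)

theorem index_Gamma0_two : (Gamma0 2).index = 3 := by
  rw [Fermat.Agent.S20.H19.G1, ModularCurve.dedekindPsi, Nat.Prime.divisors Nat.prime_two,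
    Finset.sum_filter, Finset.sum_pair (by norm_num)]
  simp [Nat.prime_two.squarefree]

theorem MF_congr {Γ : Subgroup SL(2, ℤ)} {k l : ℤ} (h : k = l) {F : ℍ → ℂ} (hF : F ∈ MF Γ k) :
    F ∈ MF Γ l := h ▸ hF

/-- The Eisenstein series of weight 2 on `Γ₀(2)` with integral expansion `g2Series`. -/
theorem exists_G : ∃ G : ℍ → ℂ, G ∈ MF (Gamma0 2) 2 ∧
    qExpansion 1 G = g2Series.map (Int.castRingHom ℂ) := by
  obtain ⟨E, h0, hk⟩ := Fermat.Agent.S16.H6.stmt_Eis 2 (by norm_num)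
  have hE : (⇑E : ℍ → ℂ) ∈ MF (Gamma0 2) 2 := coe_mem_MF_Gamma0 2 E
  refine ⟨(24 : ℂ) • ⇑E, (MF (Gamma0 2) 2).smul_mem _ hE, ?_⟩
  rw [qExp_smul 2 hE]
  ext n
  rw [PowerSeries.coeff_map, g2Series, PowerSeries.coeff_mk, PowerSeries.coeff_smul]
  rcases Nat.eq_zero_or_pos n with rfl | hn
  · have := h0
    unfold ModularFormClass.qCoeff at this
    rw [this]
    norm_num
  · have := hk n hn
    unfold ModularFormClass.qCoeff at this
    rw [this, if_neg (by omega)]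
    simp only [smul_eq_mul, eq_intCast]
    push_cast
    ring

/-- Sturm's bound on `Γ₀(2)` for forms with integral `q`-expansion. -/
theorem sturm_two {k : ℤ} {F : ℍ → ℂ} (hF : F ∈ MF (Gamma0 2) k) (T : PowerSeries ℤ)
    (hq : qExpansion 1 F = T.map (Int.castRingHom ℂ)) (n : ℕ) (hn : (k * 3).toNat / 12 < n)
    (hT : (PowerSeries.X : PowerSeries ℤ) ^ n ∣ T) : T = 0 := by
  obtain ⟨F', hF'⟩ := exists_modularForm_Gamma0 2 hF
  have h0 : F' = 0 := by
    refine ModularForm.sturm_bound_Gamma0 2 F' fun m hm => ?_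
    rw [index_Gamma0_two] at hm
    have hmn : m < n := lt_of_le_of_lt (by exact_mod_cast hm) hn
    rw [hF', hq, PowerSeries.coeff_map, (PowerSeries.X_pow_dvd_iff.1 hT) m hmn]
    simp
  have h1 : qExpansion 1 F = 0 := by
    rw [← hF', h0]
    exact qExpansion_zero 1
  rw [hq] at h1
  ext m
  have := congrArg (PowerSeries.coeff m) h1
  rw [PowerSeries.coeff_map] at this
  simpa using this






theorem smul_eq_C_mul' (c : ℂ) (P : PowerSeries ℂ) : c • P = PowerSeries.C c * P := by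
  ext n
  simp

theorem two_ne_zero' : (2 : ℕ) ≠ 0 := by norm_num

theorem E4_mem : (⇑E₄ : ℍ → ℂ) ∈ MF (Gamma0 2) 4 := coe_levelOne_mem_MF_Gamma0 2 E₄

theorem qExp_E4 : qExpansion 1 (⇑E₄ : ℍ → ℂ) = e4Series.map (Int.castRingHom ℂ) :=
  Fermat.Agent.S23.H96.qExpansion_E₄_eq

theorem LRE4_mem : (⇑(Fermat.Agent.S23.H22.levelRaise 2 E₄) : ℍ → ℂ) ∈ MF (Gamma0 2) 4 :=
  coe_mem_MF_Gamma0 2 (Fermat.Agent.S23.H22.levelRaise 2 E₄)

theorem qExp_LRE4 : qExpansion 1 (⇑(Fermat.Agent.S23.H22.levelRaise 2 E₄) : ℍ → ℂ)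
    = ((PowerSeries.C 8 : PowerSeries ℤ) * PowerSeries.expand 2 two_ne_zero' e4Series).map
        (Int.castRingHom ℂ) := by
  rw [Fermat.Agent.S16.H26.qExpansion_levelRaise_eq, qExp_E4, smul_eq_C_mul', map_mul,
    PowerSeries.map_expand, PowerSeries.map_C]
  norm_num



/-! ### Low coefficients -/

theorem g2_dvd_four : (PowerSeries.X : PowerSeries ℤ) ^ 4 ∣ g2Series -
    (PowerSeries.C 1 + PowerSeries.C 24 * PowerSeries.X + PowerSeries.C 24 * PowerSeries.X ^ 2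
      + PowerSeries.C 96 * PowerSeries.X ^ 3) := by
  have h1 : Fermat.Agent.S16.sigmaP 2 1 = 1 := by decide
  have h2 : Fermat.Agent.S16.sigmaP 2 2 = 1 := by decide
  have h3 : Fermat.Agent.S16.sigmaP 2 3 = 4 := by decide
  refine dvd_four _ _ _ _ _ ?_ ?_ ?_ ?_ <;>
    simp [g2Series, PowerSeries.coeff_mk, h1, h2, h3]

theorem g2_dvd_two : (PowerSeries.X : PowerSeries ℤ) ^ 2 ∣ g2Series -
    (PowerSeries.C 1 + PowerSeries.C 24 * PowerSeries.X) := by
  have h1 : Fermat.Agent.S16.sigmaP 2 1 = 1 := by decide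
  refine dvd_two _ _ _ ?_ ?_ <;> simp [g2Series, PowerSeries.coeff_mk, h1]

theorem e4_dvd_four : (PowerSeries.X : PowerSeries ℤ) ^ 4 ∣ e4Series -
    (PowerSeries.C 1 + PowerSeries.C 240 * PowerSeries.X + PowerSeries.C 2160 * PowerSeries.X ^ 2
      + PowerSeries.C 6720 * PowerSeries.X ^ 3) := by
  have h1 : ArithmeticFunction.sigma 3 1 = 1 := by decide
  have h2 : ArithmeticFunction.sigma 3 2 = 9 := by decide
  have h3 : ArithmeticFunction.sigma 3 3 = 28 := by decide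
  refine dvd_four _ _ _ _ _ ?_ ?_ ?_ ?_ <;>
    simp [Fermat.Agent.S23.H96.coeff_e4Series, h1, h2, h3]

theorem e4_dvd_two : (PowerSeries.X : PowerSeries ℤ) ^ 2 ∣ e4Series -
    (PowerSeries.C 1 + PowerSeries.C 240 * PowerSeries.X) := by
  have h1 : ArithmeticFunction.sigma 3 1 = 1 := by decide
  refine dvd_two _ _ _ ?_ ?_ <;> simp [Fermat.Agent.S23.H96.coeff_e4Series, h1]

theorem e6_dvd_four : (PowerSeries.X : PowerSeries ℤ) ^ 4 ∣ e6Series -
    (PowerSeries.C 1 + PowerSeries.C (-504) * PowerSeries.X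
      + PowerSeries.C (-16632) * PowerSeries.X ^ 2
      + PowerSeries.C (-122976) * PowerSeries.X ^ 3) := by
  have h1 : ArithmeticFunction.sigma 5 1 = 1 := by decide
  have h2 : ArithmeticFunction.sigma 5 2 = 33 := by decide
  have h3 : ArithmeticFunction.sigma 5 3 = 244 := by decide
  refine dvd_four _ _ _ _ _ ?_ ?_ ?_ ?_ <;>
    simp [Fermat.Agent.S23.H96.coeff_e6Series, h1, h2, h3]

theorem Ee4_dvd_four : (PowerSeries.X : PowerSeries ℤ) ^ 4 ∣
    PowerSeries.expand 2 two_ne_zero' e4Series -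
    (PowerSeries.C 1 + PowerSeries.C 0 * PowerSeries.X + PowerSeries.C 240 * PowerSeries.X ^ 2
      + PowerSeries.C 0 * PowerSeries.X ^ 3) := by
  have h1 : ArithmeticFunction.sigma 3 1 = 1 := by decide
  refine dvd_four _ _ _ _ _ ?_ ?_ ?_ ?_ <;>
    simp [PowerSeries.coeff_expand, Fermat.Agent.S23.H96.coeff_e4Series, h1]

theorem Ee4_dvd_two : (PowerSeries.X : PowerSeries ℤ) ^ 2 ∣
    PowerSeries.expand 2 two_ne_zero' e4Series -
    (PowerSeries.C 1 + PowerSeries.C 0 * PowerSeries.X) := by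
  refine dvd_two _ _ _ ?_ ?_ <;>
    simp [PowerSeries.coeff_expand, Fermat.Agent.S23.H96.coeff_e4Series]

theorem Ee6_dvd_four : (PowerSeries.X : PowerSeries ℤ) ^ 4 ∣
    PowerSeries.expand 2 two_ne_zero' e6Series -
    (PowerSeries.C 1 + PowerSeries.C 0 * PowerSeries.X + PowerSeries.C (-504) * PowerSeries.X ^ 2
      + PowerSeries.C 0 * PowerSeries.X ^ 3) := by
  have h1 : ArithmeticFunction.sigma 5 1 = 1 := by decide
  refine dvd_four _ _ _ _ _ ?_ ?_ ?_ ?_ <;>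
    simp [PowerSeries.coeff_expand, Fermat.Agent.S23.H96.coeff_e6Series, h1]

/-! ### The three identities -/

/-- `(W4)`: `4 E₄(2z) = 5 G² - E₄`. -/
theorem w4 : (5 : PowerSeries ℤ) * g2Series ^ 2 - e4Series
    - 4 * PowerSeries.expand 2 two_ne_zero' e4Series = 0 := by
  obtain ⟨G, hG, hqG⟩ := exists_G
  have hG2 : G ^ 2 ∈ MF (Gamma0 2) 4 := MF_congr (by norm_num) (MF_pow hG 2)
  have h5G2 : (5 : ℂ) • G ^ 2 ∈ MF (Gamma0 2) 4 := Submodule.smul_mem _ _ hG2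
  have hL : (1 / 2 : ℂ) • (⇑(Fermat.Agent.S23.H22.levelRaise 2 E₄) : ℍ → ℂ) ∈ MF (Gamma0 2) 4 :=
    Submodule.smul_mem _ _ LRE4_mem
  have h1 := Submodule.sub_mem _ h5G2 E4_mem
  have hF := Submodule.sub_mem _ h1 hL
  refine sturm_two hF _ ?_ 2 (by decide) (t4_dvd _ _ _ g2_dvd_two e4_dvd_two Ee4_dvd_two)
  rw [qExp_sub 2 h1 hL, qExp_sub 2 h5G2 E4_mem, qExp_smul 2 hG2, qExp_smul 2 LRE4_mem,
    qExp_pow 2 hG, hqG, qExp_E4, qExp_LRE4]
  simp only [map_sub, map_mul, map_pow, smul_eq_C_mul', map_ofNat, PowerSeries.map_expand]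
  have h2 : (PowerSeries.C (1 / 2 : ℂ) : PowerSeries ℂ) * 8 = 4 := by
    rw [show (8 : PowerSeries ℂ) = PowerSeries.C (8 : ℂ) from (map_ofNat _ 8).symm, ← map_mul,
      show ((1 / 2 : ℂ) * 8) = 4 by norm_num, map_ofNat]
  rw [← mul_assoc, h2]

/-- `Δ` as a form on `Γ₀(2)`. -/
theorem disc_mem_top : (ModularForm.discriminant : ℍ → ℂ) ∈ MF ⊤ 12 :=
  Fermat.Agent.S20.H74.CF_le_MF (Fermat.Agent.S20.H74.coe_mem_CF_top CuspForm.discriminant)

theorem disc_mem : (ModularForm.discriminant : ℍ → ℂ) ∈ MF (Gamma0 2) 12 :=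
  MF_levelOne disc_mem_top

theorem qExp_disc : qExpansion 1 (ModularForm.discriminant : ℍ → ℂ)
    = deltaSeries.map (Int.castRingHom ℂ) :=
  Fermat.Agent.S23.H96.qExpansion_discriminant_eq

theorem delta_eq : (1728 : PowerSeries ℤ) * deltaSeries = e4Series ^ 3 - e6Series ^ 2 := by
  rw [Fermat.Agent.S23.H96.e4Series_cube_sub_e6Series_sq, map_ofNat]

/-- `(W12a)`: `α² β = 1728 Δ`. -/
theorem w12a : (4 * g2Series ^ 2 - e4Series) ^ 2 * (e4Series - g2Series ^ 2)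
    - 1728 * deltaSeries = 0 := by
  obtain ⟨G, hG, hqG⟩ := exists_G
  have hG2 : G ^ 2 ∈ MF (Gamma0 2) 4 := MF_congr (by norm_num) (MF_pow hG 2)
  have h4G2 : (4 : ℂ) • G ^ 2 ∈ MF (Gamma0 2) 4 := Submodule.smul_mem _ _ hG2
  have hα := Submodule.sub_mem _ h4G2 E4_mem
  have hβ := Submodule.sub_mem _ E4_mem hG2
  have hα2 : ((4 : ℂ) • G ^ 2 - ⇑E₄) ^ 2 ∈ MF (Gamma0 2) 8 :=
    MF_congr (by norm_num) (MF_pow hα 2)
  have hαβ : ((4 : ℂ) • G ^ 2 - ⇑E₄) ^ 2 * (⇑E₄ - G ^ 2) ∈ MF (Gamma0 2) 12 :=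
    MF_mul' hα2 hβ (by norm_num)
  have hD : (1728 : ℂ) • (ModularForm.discriminant : ℍ → ℂ) ∈ MF (Gamma0 2) 12 :=
    Submodule.smul_mem _ _ disc_mem
  have hF := Submodule.sub_mem _ hαβ hD
  refine sturm_two hF _ ?_ 4 (by decide) ?_
  · rw [qExp_sub 2 hαβ hD, qExp_mul 2 hα2 hβ, qExp_pow 2 hα, qExp_sub 2 h4G2 E4_mem,
      qExp_sub 2 E4_mem hG2, qExp_smul 2 hG2, qExp_smul 2 disc_mem,
      qExp_pow 2 hG, hqG, qExp_E4, qExp_disc]
    simp only [map_sub, map_mul, map_pow, smul_eq_C_mul', map_ofNat]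
  · rw [delta_eq]
    exact t12a_dvd _ _ _ g2_dvd_four e4_dvd_four e6_dvd_four

/-- `(W12b)`: `α β² = 110592 Δ(2z)`. -/
theorem w12b : (4 * g2Series ^ 2 - e4Series) * (e4Series - g2Series ^ 2) ^ 2
    - 110592 * PowerSeries.expand 2 two_ne_zero' deltaSeries = 0 := by
  obtain ⟨G, hG, hqG⟩ := exists_G
  obtain ⟨D, hD⟩ := Fermat.Agent.S20.H74.exists_modularForm_top disc_mem_top
  have hG2 : G ^ 2 ∈ MF (Gamma0 2) 4 := MF_congr (by norm_num) (MF_pow hG 2)
  have h4G2 : (4 : ℂ) • G ^ 2 ∈ MF (Gamma0 2) 4 := Submodule.smul_mem _ _ hG2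
  have hα := Submodule.sub_mem _ h4G2 E4_mem
  have hβ := Submodule.sub_mem _ E4_mem hG2
  have hβ2 : ((⇑E₄ : ℍ → ℂ) - G ^ 2) ^ 2 ∈ MF (Gamma0 2) 8 :=
    MF_congr (by norm_num) (MF_pow hβ 2)
  have hαβ : ((4 : ℂ) • G ^ 2 - ⇑E₄) * (⇑E₄ - G ^ 2) ^ 2 ∈ MF (Gamma0 2) 12 :=
    MF_mul' hα hβ2 (by norm_num)
  have hLD : (⇑(Fermat.Agent.S23.H22.levelRaise 2 D) : ℍ → ℂ) ∈ MF (Gamma0 2) 12 :=
    coe_mem_MF_Gamma0 2 (Fermat.Agent.S23.H22.levelRaise 2 D)
  have hL : (54 : ℂ) • (⇑(Fermat.Agent.S23.H22.levelRaise 2 D) : ℍ → ℂ) ∈ MF (Gamma0 2) 12 :=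
    Submodule.smul_mem _ _ hLD
  have hF := Submodule.sub_mem _ hαβ hL
  have hqL : qExpansion 1 (⇑(Fermat.Agent.S23.H22.levelRaise 2 D) : ℍ → ℂ)
      = ((2048 : PowerSeries ℤ) * PowerSeries.expand 2 two_ne_zero' deltaSeries).map
          (Int.castRingHom ℂ) := by
    rw [Fermat.Agent.S16.H26.qExpansion_levelRaise_eq, hD, qExp_disc, smul_eq_C_mul', map_mul,
      PowerSeries.map_expand, map_ofNat]
    congr 1
    rw [show ((2 : ℕ) : ℂ) ^ ((12 : ℤ) - 1) = 2048 by norm_num, map_ofNat]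
  refine sturm_two hF _ ?_ 4 (by decide) ?_
  · rw [qExp_sub 2 hαβ hL, qExp_mul 2 hα hβ2, qExp_pow 2 hβ, qExp_sub 2 h4G2 E4_mem,
      qExp_sub 2 E4_mem hG2, qExp_smul 2 hG2, qExp_smul 2 hLD,
      qExp_pow 2 hG, hqG, qExp_E4, hqL]
    simp only [map_sub, map_mul, map_pow, smul_eq_C_mul', map_ofNat, PowerSeries.map_expand]
    rw [← mul_assoc]
    norm_num
  · have h : (110592 : PowerSeries ℤ) * PowerSeries.expand 2 two_ne_zero' deltaSeries
        = 64 * ((PowerSeries.expand 2 two_ne_zero' e4Series) ^ 3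
          - (PowerSeries.expand 2 two_ne_zero' e6Series) ^ 2) := by
      rw [← map_pow, ← map_pow, ← map_sub, ← delta_eq, map_mul, map_ofNat, ← mul_assoc]
      norm_num
    rw [h]
    exact t12b_dvd _ _ _ _ g2_dvd_four e4_dvd_four Ee4_dvd_four Ee6_dvd_four

/-! ### Bridges to the prelude series -/

theorem map_intCast_injective :
    Function.Injective (PowerSeries.map (Int.castRingHom ℂ)) := by
  intro P Q h
  ext n
  have := congrArg (PowerSeries.coeff n) h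
  rw [PowerSeries.coeff_map, PowerSeries.coeff_map] at this
  simpa using this

theorem e4Series_eq : e4Series = ModularCurve.eisenstein4 :=
  map_intCast_injective
    (Fermat.Agent.S23.H96.qExpansion_E₄_eq.symm.trans
      Fermat.Agent.S28.H76.qExpansion_E4_eq_eisenstein4)

theorem deltaSeries_eq : deltaSeries = PowerSeries.X * ModularCurve.etaProd ^ 24 := by
  apply map_intCast_injective
  rw [← qExp_disc, Fermat.Agent.S28.H76.qExpansion_disc_eq_etaProd, map_mul, map_pow,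
    PowerSeries.map_X]

end Fermat.Agent.RED.H70
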