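import Fermat.Agent.RED.H73_GADegMod
import Fermat.Agent.RED.H73_GARedSetting
import Fermat.Agent.RED.Defs

/-!
# G-RED package GA (helper73): the chart `x = j`, Type-level form

For `S = redSetting A (hasScale_laurentBaseChange A N)` (helper34's `RedSetting`) and the chart
`x = j ∈ F = F_N · L`:
* `red_jF`            : `S.red j = j~`;
* `transcendental_red_jF`, `finiteDimensional_jF`, `isSeparable_jF`, `finrank_red_jF`,
  `isSeparable_red_jF` : the first five fields of helper79's `GoodChart`;
* `isFF_redField`     : the residue field is a function field of one variable over `k`.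
General bridges: `finrank_adjoin_simple_subtype`, `algebra_isSeparable_subtype`.
-/

set_option autoImplicit false
set_option synthInstance.maxHeartbeats 400000
set_option maxHeartbeats 1000000

open Polynomial ModularCurve Fermat.Agent.S28 Fermat.Agent.S28.H73 Fermat.Agent.S28.H90
open IntermediateField

noncomputable section

namespace Fermat.Agent.RED.H73

/-! ### Bridges between subfields of an ambient field and Type-level statements -/

theorem map_val_adjoin_simple {K E : Type*} [Field K] [Field E] [Algebra K E]
    (B : IntermediateField K E) (x : ↥B) :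
    (K⟮x⟯).map B.val = IntermediateField.adjoin K {(x : E)} := by
  rw [IntermediateField.adjoin_map, Set.image_singleton]
  rfl

/-- `[B : K(x)]` as a relative degree inside the ambient field. -/
theorem finrank_adjoin_simple_subtype {K E : Type*} [Field K] [Field E] [Algebra K E]
    (B : IntermediateField K E) (x : ↥B) :
    Module.finrank ↥(K⟮x⟯) ↥B = (IntermediateField.adjoin K {(x : E)}).relfinrank B := by
  have h2 : (⊤ : IntermediateField K ↥B).map B.val = B := by
    rw [← AlgHom.fieldRange_eq_map, IntermediateField.fieldRange_val]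
  calc Module.finrank ↥(K⟮x⟯) ↥B = (K⟮x⟯).relfinrank ⊤ := (relfinrank_top_right _).symm
    _ = ((K⟮x⟯).map B.val).relfinrank ((⊤ : IntermediateField K ↥B).map B.val) :=
        (relfinrank_map_map _ _ B.val).symm
    _ = (IntermediateField.adjoin K {(x : E)}).relfinrank B := by
        rw [map_val_adjoin_simple, h2]

/-- Separability of `B / K(x)` from separability of the elements inside the ambient field. -/
theorem algebra_isSeparable_subtype {K E : Type*} [Field K] [Field E] [Algebra K E]
    (B : IntermediateField K E) (x : ↥B)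
    (h : ∀ y ∈ B, IsSeparable ↥(IntermediateField.adjoin K {(x : E)}) y) :
    Algebra.IsSeparable ↥(K⟮x⟯) ↥B := by
  refine ⟨fun y => ?_⟩
  apply isSeparable_of_map B.val
  rw [map_val_adjoin_simple]
  exact h _ y.2

theorem transcendental_subtype {K E : Type*} [Field K] [Field E] [Algebra K E]
    (B : IntermediateField K E) (x : ↥B) (h : Transcendental K (x : E)) :
    Transcendental K x := by
  intro halg
  apply h
  have := halg.algHom B.val
  exact this

/-- A Laurent series with a pole is transcendental over the constants. -/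
theorem transcendental_of_order_neg {K : Type} [Field K] {J : LaurentSeries K}
    (hJ : J.order < 0) : Transcendental K J := by
  rw [transcendental_iff]
  intro p hp
  by_contra hne
  exact H73.aeval_ne_zero_of_one_lt (H90.tVal K) (fun _ hc => H90.tVal_algebraMap hc)
    (H90.one_lt_tVal_of_order_neg hJ) p hne hp

theorem jqModC_order_neg (K : Type) [Field K] : (jqModC K).order < 0 := by
  have h := JL_order K 1
  have e : JL K 1 = jqModC K := qExpand_one_apply _
  rw [e] at h
  rw [h]
  norm_num

theorem transcendental_jqModC (K : Type) [Field K] : Transcendental K (jqModC K) :=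
  transcendental_of_order_neg (jqModC_order_neg K)

/-! ### The chart `x = j` -/

section Chart

variable {L : Type} [Field L] [IsAlgClosed L] [Algebra ℚ L] (A : ValuationSubring L)
  (N : ℕ) [NeZero N]

/-- `j` as an element of `F = F_N · L`. -/
def jF : ↥(laurentBaseChange L (modularFunctionFieldFull N)) :=
  ⟨jqModC L, by rw [laurentBaseChange_full_eq]; exact jqModC_mem_full L N⟩

omit [IsAlgClosed L] [Algebra ℚ L] in
theorem jqModC_mem_gaussRingV : jqModC L ∈ gaussRingV A := by
  have := qExpand_jqModC_mem_gaussRingV A 1
  rwa [qExpand_one_apply] at this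

omit [IsAlgClosed L] [Algebra ℚ L] in
theorem gaussRedV_jqModC (h : jqModC L ∈ gaussRingV A) :
    gaussRedV A ⟨jqModC L, h⟩ = jqModC (kV A) := by
  have e : (⟨jqModC L, h⟩ : gaussRingV A)
      = ⟨iotaV A (jqModC ↥A), iotaV_mem_gaussRingV A _⟩ :=
    Subtype.ext (coeffMap_jqModC A.subtype).symm
  rw [e, gaussRedV_iotaV]
  exact coeffMap_jqModC (resV A)

omit [NeZero N] [IsAlgClosed L] in
theorem jF_mem : jF (L := L) N ∈ (redSetting A (hasScale_laurentBaseChange A N)).V :=
  jqModC_mem_gaussRingV A

omit [IsAlgClosed L] [NeZero N] in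
/-- `S.red j = j~`. -/
theorem red_jF :
    (((redSetting A (hasScale_laurentBaseChange A N)).red ⟨jF N, jF_mem A N⟩ :
      ↥(redField A (laurentBaseChange L (modularFunctionFieldFull N))
        (hasScale_laurentBaseChange A N))) : LaurentSeries (kV A)) = jqModC (kV A) :=
  gaussRedV_jqModC A _

omit [IsAlgClosed L] [NeZero N] in
/-- The reduction of `j` is transcendental over `k`. -/
theorem transcendental_red_jF :
    Transcendental (kV A)
      ((redSetting A (hasScale_laurentBaseChange A N)).red ⟨jF N, jF_mem A N⟩) := by
  apply transcendental_subtype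
  rw [red_jF]
  exact transcendental_jqModC (kV A)

variable {A N}
variable (hN : ((N : L))⁻¹ ∈ A) (D : CADataL L N)

include D in
/-- `[F : L(j)] = card Q`. -/
theorem finrank_jF :
    Module.finrank ↥(L⟮jF (L := L) N⟯) ↥(laurentBaseChange L (modularFunctionFieldFull N))
      = Fintype.card D.Q := by
  rw [finrank_adjoin_simple_subtype]
  have e : ((jF (L := L) N : ↥(laurentBaseChange L (modularFunctionFieldFull N)))
      : LaurentSeries L) = jqModC L := rfl
  rw [e, laurentBaseChange_full_eq]
  exact relfinrank_fullC D

omit [IsAlgClosed L] [Algebra ℚ L] in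
include D in
theorem card_Q_pos : 0 < Fintype.card D.Q := Fintype.card_pos_iff.2 ⟨D.q₀⟩

include D in
theorem finiteDimensional_jF :
    FiniteDimensional ↥(L⟮jF (L := L) N⟯) ↥(laurentBaseChange L (modularFunctionFieldFull N)) :=
  Module.finite_of_finrank_pos (by rw [finrank_jF D]; exact card_Q_pos D)

include D in
theorem isSeparable_jF [CharZero L] :
    Algebra.IsSeparable ↥(L⟮jF (L := L) N⟯)
      ↥(laurentBaseChange L (modularFunctionFieldFull N)) := by
  have := finiteDimensional_jF D
  infer_instance

include hN D in
/-- `[F~ : k(j~)] = card Q`. -/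
theorem finrank_red_jF :
    Module.finrank
      ↥((kV A)⟮(redSetting A (hasScale_laurentBaseChange A N)).red ⟨jF N, jF_mem A N⟩⟯)
      ↥(redField A (laurentBaseChange L (modularFunctionFieldFull N))
        (hasScale_laurentBaseChange A N)) = Fintype.card D.Q := by
  have : IsAlgClosed (kV A) := isAlgClosed_kV A
  have : Infinite (kV A) := IsAlgClosed.instInfinite
  rw [finrank_adjoin_simple_subtype, red_jF, redField_laurentBaseChange_eq A hN D]
  exact relfinrank_fullC_red A hN D

include hN D in
/-- `[F~ : k(j~)] = [F : L(j)]`. -/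
theorem finrank_red_jF_eq :
    Module.finrank
      ↥((kV A)⟮(redSetting A (hasScale_laurentBaseChange A N)).red ⟨jF N, jF_mem A N⟩⟯)
      ↥(redField A (laurentBaseChange L (modularFunctionFieldFull N))
        (hasScale_laurentBaseChange A N))
      = Module.finrank ↥(L⟮jF (L := L) N⟯)
        ↥(laurentBaseChange L (modularFunctionFieldFull N)) := by
  rw [finrank_red_jF hN D, finrank_jF D]

include hN D in
/-- `F~ / k(j~)` is separable. -/
theorem isSeparable_red_jF :
    Algebra.IsSeparable
      ↥((kV A)⟮(redSetting A (hasScale_laurentBaseChange A N)).red ⟨jF N, jF_mem A N⟩⟯)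
      ↥(redField A (laurentBaseChange L (modularFunctionFieldFull N))
        (hasScale_laurentBaseChange A N)) := by
  have : IsAlgClosed (kV A) := isAlgClosed_kV A
  have : Infinite (kV A) := IsAlgClosed.instInfinite
  apply algebra_isSeparable_subtype
  intro y hy
  rw [red_jF]
  rw [redField_laurentBaseChange_eq A hN D] at hy
  exact isSeparable_fullC_red A hN D hy

include hN D in
theorem finiteDimensional_red_jF :
    FiniteDimensional
      ↥((kV A)⟮(redSetting A (hasScale_laurentBaseChange A N)).red ⟨jF N, jF_mem A N⟩⟯)
      ↥(redField A (laurentBaseChange L (modularFunctionFieldFull N))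
        (hasScale_laurentBaseChange A N)) :=
  Module.finite_of_finrank_pos (by rw [finrank_red_jF hN D]; exact card_Q_pos D)

include hN D in
/-- The residue field of the Gauss valuation is a function field of one variable over `k`. -/
theorem isFF_redField :
    IsFF (kV A) ↥(redField A (laurentBaseChange L (modularFunctionFieldFull N))
      (hasScale_laurentBaseChange A N)) :=
  ⟨_, transcendental_red_jF A N, finiteDimensional_red_jF hN D⟩

end Chart

/-! ### The statements over `ℚ̄` -/

/-- The first five fields of `GoodChart` for the chart `x = j` at level `N`, over `ℚ̄`. -/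
theorem goodChart_pre_of_CAL (h : Stmt_CAL) (N ℓ : ℕ) [NeZero N] (hℓ : ℓ.Prime) (hℓN : ¬ ℓ ∣ N)
    (A : ValuationSubring (AlgebraicClosure ℚ)) (hA : A.LiesOverPrime ℓ) :
    Transcendental (kV A)
      ((redSetting A (hasScale_laurentBaseChange A N)).red ⟨jF N, jF_mem A N⟩) ∧
    FiniteDimensional ↥((AlgebraicClosure ℚ)⟮jF (L := AlgebraicClosure ℚ) N⟯)
      ↥(laurentBaseChange (AlgebraicClosure ℚ) (modularFunctionFieldFull N)) ∧
    Algebra.IsSeparable ↥((AlgebraicClosure ℚ)⟮jF (L := AlgebraicClosure ℚ) N⟯)
      ↥(laurentBaseChange (AlgebraicClosure ℚ) (modularFunctionFieldFull N)) ∧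
    Module.finrank
      ↥((kV A)⟮(redSetting A (hasScale_laurentBaseChange A N)).red ⟨jF N, jF_mem A N⟩⟯)
      ↥(redField A (laurentBaseChange (AlgebraicClosure ℚ) (modularFunctionFieldFull N))
        (hasScale_laurentBaseChange A N))
      = Module.finrank ↥((AlgebraicClosure ℚ)⟮jF (L := AlgebraicClosure ℚ) N⟯)
        ↥(laurentBaseChange (AlgebraicClosure ℚ) (modularFunctionFieldFull N)) ∧
    Algebra.IsSeparable
      ↥((kV A)⟮(redSetting A (hasScale_laurentBaseChange A N)).red ⟨jF N, jF_mem A N⟩⟯)
      ↥(redField A (laurentBaseChange (AlgebraicClosure ℚ) (modularFunctionFieldFull N))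
        (hasScale_laurentBaseChange A N)) := by
  obtain ⟨D⟩ := h N
  have hN := inv_natCast_mem_of_liesOver A N hℓ hℓN hA
  exact ⟨transcendental_red_jF A N, finiteDimensional_jF D, isSeparable_jF D,
    finrank_red_jF_eq hN D, isSeparable_red_jF hN D⟩

/-- The residue field of the Gauss valuation on `F_N · ℚ̄` is a function field over `k`. -/
theorem isFF_redField_of_CAL (h : Stmt_CAL) (N ℓ : ℕ) [NeZero N] (hℓ : ℓ.Prime) (hℓN : ¬ ℓ ∣ N)
    (A : ValuationSubring (AlgebraicClosure ℚ)) (hA : A.LiesOverPrime ℓ) :
    IsFF (kV A) ↥(redField A (laurentBaseChange (AlgebraicClosure ℚ) (modularFunctionFieldFull N))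
      (hasScale_laurentBaseChange A N)) := by
  obtain ⟨D⟩ := h N
  exact isFF_redField (inv_natCast_mem_of_liesOver A N hℓ hℓN hA) D

end Fermat.Agent.RED.H73
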