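import Fermat.Agent.RED.H73_GAIrr
import Fermat.Agent.S28.H90_Sym
import Mathlib.RingTheory.Polynomial.IsIntegral
import Mathlib.Algebra.Polynomial.Lifts

/-!
# G-RED package GA (helper73): conjugates with a single pole, over ANY field

`K` an infinite field, `J, U q ∈ K((t))` (`q ∈ Q` finite), `u = U q₀`.  Hypotheses `ConjHyp`:
`J` and `u` have a pole, the other `U q` are nonzero of positive order, and all
`∏_q (c - U q)` (`c ∈ K`) are polynomials in `J`.  Then

* `chiR` : `χ_u = ∏_q (X - U q)` as a monic polynomial over `R = K[J] = Algebra.adjoin K {J}`;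
* `minpoly_eq_chiR` : `χ_u` IS the minimal polynomial of `u` over `K[J]` (irreducibility);
* `natDegree_minpoly` : its degree is `card Q`;
* `aeval_ne_zero_of_natDegree_lt` : no nonzero polynomial of `X`-degree `< card Q` over `K[J]`
  kills `u`.

The hypotheses hold over `ℂ`/`ℚ̄` (from S28 `CoreHyp`) AND over the residue field (reduction of the
conjugates), which is what gives `[F~ : k(j~)] = [F : K(j)]`.
-/

set_option autoImplicit false

open Polynomial ModularCurve Fermat.Agent.S28 Fermat.Agent.S28.H73 Fermat.Agent.S28.H90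

noncomputable section

namespace Fermat.Agent.RED.H73

/-- Conjugates of a function `u = U q₀` whose only pole (among its conjugates) is at the place
`t = 0`. -/
structure ConjHyp {K : Type} [Field K] {Q : Type} [Fintype Q] (q₀ : Q)
    (J : LaurentSeries K) (U : Q → LaurentSeries K) : Prop where
  J_order : J.order < 0
  U_order₀ : (U q₀).order < 0
  U_ne : ∀ q, U q ≠ 0
  U_order_pos : ∀ q, q ≠ q₀ → 0 < (U q).order
  sym : ∀ c : K, (∏ q, (HahnSeries.C c - U q)) ∈ Algebra.adjoin K ({J} : Set (LaurentSeries K))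

/-- The conjugate data of the S28 core give `ConjHyp`. -/
theorem ConjHyp.of_coreHyp {C : Type} [Field C] {O : ValuationSubring C} {Q : Type} [Fintype Q]
    {q₀ : Q} {J : LaurentSeries C} {U : Q → LaurentSeries C} {nJ D : ℕ}
    (h : CoreHyp O q₀ J U nJ D) : ConjHyp q₀ J U where
  J_order := by
    rw [h.J_order]
    have := h.nJ_pos
    omega
  U_order₀ := by
    rw [h.U_order₀]
    have h1 := h.nJ_pos
    have h2 := h.D_pos
    have : (0 : ℤ) < (D : ℤ) * (nJ : ℤ) := by positivity
    omega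
  U_ne := fun q => (h.U_unitLead q).2.1
  U_order_pos := h.U_order_pos
  sym := h.sym

section

variable {K : Type} [Field K] {Q : Type} [Fintype Q] {q₀ : Q}
  {J : LaurentSeries K} {U : Q → LaurentSeries K}

theorem ConjHyp.one_lt_tVal_J (h : ConjHyp q₀ J U) : 1 < tVal K J :=
  one_lt_tVal_of_order_neg h.J_order

theorem ConjHyp.aeval_J_injective (h : ConjHyp q₀ J U) :
    Function.Injective (aeval J : K[X] →ₐ[K] LaurentSeries K) := by
  rw [injective_iff_map_eq_zero]
  intro p hp
  by_contra hne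
  exact H73.aeval_ne_zero_of_one_lt (tVal K) (fun _ hc => tVal_algebraMap hc) h.one_lt_tVal_J p
    hne hp

theorem ConjHyp.U_ne_u (h : ConjHyp q₀ J U) (q : Q) (hq : q ≠ q₀) : U q ≠ U q₀ := by
  intro e
  have h1 := h.U_order_pos q hq
  have h2 := h.U_order₀
  rw [e] at h1
  omega

/-- `K[J]` is integrally closed. -/
theorem ConjHyp.isIntegrallyClosed (h : ConjHyp q₀ J U) :
    IsIntegrallyClosed ↥(Algebra.adjoin K ({J} : Set (LaurentSeries K))) := by
  let e1 : K[X] ≃ₐ[K] ↥(aeval J : K[X] →ₐ[K] LaurentSeries K).range :=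
    AlgEquiv.ofInjective _ h.aeval_J_injective
  let e2 : ↥(aeval J : K[X] →ₐ[K] LaurentSeries K).range ≃ₐ[K]
      ↥(Algebra.adjoin K ({J} : Set (LaurentSeries K))) :=
    Subalgebra.equivOfEq _ _ (Algebra.adjoin_singleton_eq_range_aeval K J).symm
  exact IsIntegrallyClosed.of_equiv (e1.trans e2).toRingEquiv

theorem ConjHyp.one_le_tVal (h : ConjHyp q₀ J U)
    (r : ↥(Algebra.adjoin K ({J} : Set (LaurentSeries K)))) (hr : r ≠ 0) :
    1 ≤ tVal K (algebraMap ↥(Algebra.adjoin K ({J} : Set (LaurentSeries K)))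
      (LaurentSeries K) r) := by
  have hmem : (r : LaurentSeries K) ∈ (aeval J : K[X] →ₐ[K] LaurentSeries K).range := by
    rw [← Algebra.adjoin_singleton_eq_range_aeval]
    exact r.2
  obtain ⟨p, hp⟩ := hmem
  have hp' : aeval J p = (r : LaurentSeries K) := hp
  have hp0 : p ≠ 0 := by
    rintro rfl
    apply hr
    apply Subtype.ext
    rw [← hp', map_zero]
    rfl
  show 1 ≤ tVal K (r : LaurentSeries K)
  rw [← hp', H73.valuation_aeval_eq_pow (tVal K) (fun _ hc => tVal_algebraMap hc)
    h.one_lt_tVal_J p hp0]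
  exact one_le_pow₀ h.one_lt_tVal_J.le

variable [Infinite K]

theorem ConjHyp.chi_coeff_mem (h : ConjHyp q₀ J U) (k : ℕ) :
    (chi U).coeff k ∈ Algebra.adjoin K ({J} : Set (LaurentSeries K)) := by
  have := coeff_mem_of_eval_mem (C := K)
    (Subalgebra.toSubmodule (Algebra.adjoin K ({J} : Set (LaurentSeries K)))) (chi U)
    (fun c => by
      rw [chi_eval, LaurentSeries.algebraMap_apply]
      exact h.sym c) k
  exact this

theorem ConjHyp.exists_chiR (h : ConjHyp q₀ J U) :
    ∃ P : (↥(Algebra.adjoin K ({J} : Set (LaurentSeries K))))[X],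
      P.map (algebraMap _ (LaurentSeries K)) = chi U ∧ P.natDegree = Fintype.card Q ∧
        P.Monic := by
  have hl : chi U ∈ Polynomial.lifts
      (algebraMap ↥(Algebra.adjoin K ({J} : Set (LaurentSeries K))) (LaurentSeries K)) := by
    rw [Polynomial.lifts_iff_coeff_lifts]
    intro n
    exact ⟨⟨_, h.chi_coeff_mem n⟩, rfl⟩
  obtain ⟨P, hP, hdeg, hm⟩ := Polynomial.lifts_and_natDegree_eq_and_monic hl (chi_monic U)
  exact ⟨P, hP, by rw [hdeg, chi_natDegree], hm⟩

/-- `χ_u` as a polynomial over `K[J]`. -/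
def ConjHyp.chiR (h : ConjHyp q₀ J U) :
    (↥(Algebra.adjoin K ({J} : Set (LaurentSeries K))))[X] :=
  h.exists_chiR.choose

theorem ConjHyp.map_chiR (h : ConjHyp q₀ J U) :
    h.chiR.map (algebraMap _ (LaurentSeries K)) = chi U := h.exists_chiR.choose_spec.1

theorem ConjHyp.natDegree_chiR (h : ConjHyp q₀ J U) : h.chiR.natDegree = Fintype.card Q :=
  h.exists_chiR.choose_spec.2.1

theorem ConjHyp.monic_chiR (h : ConjHyp q₀ J U) : h.chiR.Monic := h.exists_chiR.choose_spec.2.2

/-- **Irreducibility**: `χ_u` is the minimal polynomial of `u` over `K[J]`. -/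
theorem ConjHyp.minpoly_eq_chiR (h : ConjHyp q₀ J U) :
    minpoly ↥(Algebra.adjoin K ({J} : Set (LaurentSeries K))) (U q₀) = h.chiR := by
  have := h.isIntegrallyClosed
  refine minpoly_eq_of_roots (tVal K) h.one_le_tVal U q₀ (fun q _ => h.U_ne q)
    (fun q hq => tVal_lt_one_of_order_pos (h.U_order_pos q hq)) h.U_ne_u h.chiR h.monic_chiR ?_
  rw [h.map_chiR]
  rfl

theorem ConjHyp.isIntegral_u (h : ConjHyp q₀ J U) :
    IsIntegral ↥(Algebra.adjoin K ({J} : Set (LaurentSeries K))) (U q₀) := by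
  refine ⟨h.chiR, h.monic_chiR, ?_⟩
  rw [← aeval_def, aeval_def, ← eval_map, h.map_chiR]
  exact chi_eval_self U q₀

theorem ConjHyp.natDegree_minpoly (h : ConjHyp q₀ J U) :
    (minpoly ↥(Algebra.adjoin K ({J} : Set (LaurentSeries K))) (U q₀)).natDegree
      = Fintype.card Q := by
  rw [h.minpoly_eq_chiR, h.natDegree_chiR]

/-- **Degree**: no nonzero polynomial over `K[J]` of degree `< card Q` kills `u`. -/
theorem ConjHyp.aeval_ne_zero_of_natDegree_lt (h : ConjHyp q₀ J U)
    (a : (↥(Algebra.adjoin K ({J} : Set (LaurentSeries K))))[X]) (ha : a ≠ 0)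
    (hdeg : a.natDegree < Fintype.card Q) : aeval (U q₀) a ≠ 0 := by
  have := h.isIntegrallyClosed
  intro h0
  have hdvd := minpoly.isIntegrallyClosed_dvd h.isIntegral_u h0
  have := Polynomial.natDegree_le_of_dvd hdvd ha
  rw [h.natDegree_minpoly] at this
  omega

end

end Fermat.Agent.RED.H73
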