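import Fermat.Agent.RED.H73_GARedConj
import Fermat.Agent.RED.H73_GAVal

/-!
# G-RED package GA (helper73): the Gauss valuation on `C(u, J)` under the S28 core hypotheses

`CoreHyp O q₀ J U nJ D` over `(C, O)`, `C` algebraically closed, `u = U q₀`, `F' = C(u, J)`.

* `exists_scale_core` : every nonzero `x ∈ F'` has a scalar multiple `c x` in the Gauss ring whose
  reduction is nonzero and lies in `k(u~, J~)`.
* `hasScale_core` : `HasScale O F'`.
* `redField_core` : the residue field of the Gauss valuation on `F'` is `k(u~, J~)`.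
-/

set_option autoImplicit false

open Polynomial ModularCurve Fermat.Agent.S28 Fermat.Agent.S28.H73

noncomputable section

namespace Fermat.Agent.RED.H73

variable {C : Type} [Field C] (O : ValuationSubring C)

theorem tVal_redV_liftUL {f : LaurentSeries C} (hf : UnitLead O.toSubring f) :
    H90.tVal (kV O) (redV O (liftUL O hf)) = WithZero.exp (-f.order) := by
  rw [H90.tVal_eq_exp_neg_order (redV_liftUL_ne_zero O hf), order_redV_liftUL]

theorem aeval_redV_liftUL_ne_zero {f : LaurentSeries C} (hf : UnitLead O.toSubring f)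
    (hord : f.order ≠ 0) (P : (kV O)[X]) (hP : P ≠ 0) :
    aeval (redV O (liftUL O hf)) P ≠ 0 := by
  refine aeval_ne_zero_of_valuation_ne_one (H90.tVal (kV O))
    (fun _ hc => H90.tVal_algebraMap hc) (redV_liftUL_ne_zero O hf) ?_ P hP
  rw [tVal_redV_liftUL, ← WithZero.exp_zero, Ne, WithZero.exp_inj]
  omega

/-- Quotients `P(f)/Q(f)` with `Q` primitive lie in the Gauss ring and reduce as expected. -/
theorem gaussRedV_frac {f : LaurentSeries C} (hf : UnitLead O.toSubring f) (hord : f.order ≠ 0)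
    (P₀ Q₀ : (↥O)[X]) (hQ : Q₀.map (resV O) ≠ 0) :
    ∃ hE : aeval f (P₀.map O.subtype) / aeval f (Q₀.map O.subtype) ∈ gaussRingV O,
      gaussRedV O ⟨_, hE⟩ = aeval (redV O (liftUL O hf)) (P₀.map (resV O)) /
        aeval (redV O (liftUL O hf)) (Q₀.map (resV O)) := by
  have hb : redV O (Q₀.eval₂ HahnSeries.C (liftUL O hf)) ≠ 0 := by
    rw [redV_eval₂]
    exact aeval_redV_liftUL_ne_zero O hf hord _ hQ
  have hb' : iotaV O (Q₀.eval₂ HahnSeries.C (liftUL O hf)) ≠ 0 :=
    iotaV_ne_zero_of_redV_ne_zero O hb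
  have e : iotaV O (Q₀.eval₂ HahnSeries.C (liftUL O hf)) *
      (aeval f (P₀.map O.subtype) / aeval f (Q₀.map O.subtype))
        = iotaV O (P₀.eval₂ HahnSeries.C (liftUL O hf)) := by
    rw [iotaV_eval₂, iotaV_eval₂, iotaV_liftUL]
    rw [iotaV_eval₂, iotaV_liftUL] at hb'
    field_simp
  have hE : aeval f (P₀.map O.subtype) / aeval f (Q₀.map O.subtype) ∈ gaussRingV O :=
    ⟨_, _, hb, e⟩
  refine ⟨hE, ?_⟩
  rw [gaussRedV_eq O ⟨_, hE⟩ hb e, redV_eval₂, redV_eval₂]

/-- Primitive part of a polynomial over `C`, in lifted form. -/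
theorem exists_scale_poly (p : C[X]) :
    ∃ (m : C) (p₀ : (↥O)[X]), p = Polynomial.C m * p₀.map O.subtype ∧
      (p ≠ 0 → m ≠ 0 ∧ p₀.map (resV O) ≠ 0) ∧ (p = 0 → m = 0) := by
  by_cases hp : p = 0
  · exact ⟨0, 0, by simp [hp], fun h => absurd hp h, fun _ => rfl⟩
  · obtain ⟨m, p₁, hm, -, hp₁, he⟩ := exists_prim_scale O p hp
    obtain ⟨p₀, hp₀, rfl⟩ := (primPoly_iff O p₁).1 hp₁
    exact ⟨m, p₀, he, fun _ => ⟨hm, hp₀⟩, fun h => absurd h hp⟩

theorem C_mem_gaussRingV_iff {c : C} :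
    (HahnSeries.C c : LaurentSeries C) ∈ gaussRingV O ↔ c ∈ O := by
  constructor
  · intro hm
    by_cases hc0 : c = 0
    · rw [hc0]; exact O.zero_mem
    rcases O.mem_or_inv_mem c with hc | hc
    · exact hc
    · by_cases hr : gaussRedV O ⟨HahnSeries.C c, hm⟩ = 0
      · exfalso
        have h1 : gaussRedV O (⟨HahnSeries.C c, hm⟩ * ⟨HahnSeries.C c⁻¹, C_mem_gaussRingV O hc⟩)
            = 1 := by
          have e : (⟨HahnSeries.C c, hm⟩ * ⟨HahnSeries.C c⁻¹, C_mem_gaussRingV O hc⟩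
              : gaussRingV O) = 1 := by
            apply Subtype.ext
            show (HahnSeries.C c : LaurentSeries C) * HahnSeries.C c⁻¹ = 1
            rw [C_inv', mul_inv_cancel₀ (C_ne_zero' hc0)]
          rw [e, map_one]
        rw [map_mul, hr, zero_mul] at h1
        exact zero_ne_one h1
      · exact ((gaussUnit_C_iff O).1 (gaussUnit_of_gaussRedV_ne_zero O hm hr)).1
  · exact C_mem_gaussRingV O

variable {O} {Q : Type} [Fintype Q] {q₀ : Q} {J : LaurentSeries C} {U : Q → LaurentSeries C}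
  {nJ D : ℕ}

theorem tVal_Jred (h : CoreHyp O q₀ J U nJ D) :
    H90.tVal (kV O) (Jred h) = WithZero.exp (nJ : ℤ) := by
  rw [Jred, tVal_redV_liftUL, h.J_order, neg_neg]

theorem tVal_Ured₀ (h : CoreHyp O q₀ J U nJ D) :
    H90.tVal (kV O) (Ured h q₀) = WithZero.exp (nJ : ℤ) ^ D := by
  rw [Ured, tVal_redV_liftUL, h.U_order₀, neg_neg, ← WithZero.exp_nsmul, nsmul_eq_mul]

theorem one_lt_exp_nJ (h : CoreHyp O q₀ J U nJ D) :
    (1 : WithZero (Multiplicative ℤ)) < WithZero.exp (nJ : ℤ) := by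
  rw [← WithZero.exp_zero, WithZero.exp_lt_exp]
  exact_mod_cast h.nJ_pos

theorem u_order_ne_zero (h : CoreHyp O q₀ J U nJ D) : (U q₀).order ≠ 0 :=
  ((ConjHyp.of_coreHyp h).U_order₀).ne

theorem J_mem_gaussRingV (h : CoreHyp O q₀ J U nJ D) : J ∈ gaussRingV O := by
  rw [← iotaV_liftUL O h.J_unitLead]
  exact iotaV_mem_gaussRingV O _

theorem gaussRedV_J (h : CoreHyp O q₀ J U nJ D) (hm : J ∈ gaussRingV O) :
    gaussRedV O ⟨J, hm⟩ = Jred h := by
  have e : (⟨J, hm⟩ : gaussRingV O)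
      = ⟨iotaV O (liftUL O h.J_unitLead), iotaV_mem_gaussRingV O _⟩ :=
    Subtype.ext (iotaV_liftUL O h.J_unitLead).symm
  rw [e, gaussRedV_iotaV]
  rfl

theorem U_mem_gaussRingV (h : CoreHyp O q₀ J U nJ D) (q : Q) : U q ∈ gaussRingV O := by
  rw [← iotaV_liftUL O (h.U_unitLead q)]
  exact iotaV_mem_gaussRingV O _

theorem gaussRedV_U (h : CoreHyp O q₀ J U nJ D) (q : Q) (hm : U q ∈ gaussRingV O) :
    gaussRedV O ⟨U q, hm⟩ = Ured h q := by
  have e : (⟨U q, hm⟩ : gaussRingV O)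
      = ⟨iotaV O (liftUL O (h.U_unitLead q)), iotaV_mem_gaussRingV O _⟩ :=
    Subtype.ext (iotaV_liftUL O (h.U_unitLead q)).symm
  rw [e, gaussRedV_iotaV]
  rfl

/-- The valuation of a quotient of nonzero polynomials in `u~` is a power of `g^D`. -/
theorem tVal_frac_Ured (h : CoreHyp O q₀ J U nJ D) (P Q' : (kV O)[X]) (hP : P ≠ 0)
    (hQ : Q' ≠ 0) :
    ∃ m : ℤ, H90.tVal (kV O) (aeval (Ured h q₀) P / aeval (Ured h q₀) Q')
      = WithZero.exp (nJ : ℤ) ^ ((D : ℤ) * m) := by
  have hu1 : 1 < H90.tVal (kV O) (Ured h q₀) := by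
    rw [tVal_Ured₀]
    exact one_lt_pow₀ (one_lt_exp_nJ h) h.D_pos.ne'
  have hwk : ∀ c : kV O, c ≠ 0 → H90.tVal (kV O) (algebraMap (kV O) (LaurentSeries (kV O)) c) = 1 :=
    fun _ hc => H90.tVal_algebraMap hc
  refine ⟨(P.natDegree : ℤ) - Q'.natDegree, ?_⟩
  rw [map_div₀, valuation_aeval_eq_pow _ hwk hu1 P hP, valuation_aeval_eq_pow _ hwk hu1 Q' hQ,
    tVal_Ured₀, ← pow_mul, ← pow_mul, mul_sub, zpow_sub₀ (WithZero.exp_ne_zero), ← zpow_natCast,
    ← zpow_natCast]
  push_cast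
  rfl

theorem aeval_mem_adjoin_pair {k : Type} [Field k] (a b : LaurentSeries k) (P : k[X]) :
    aeval a P ∈ IntermediateField.adjoin k ({a, b} : Set (LaurentSeries k)) := by
  have h1 : aeval a P ∈ Algebra.adjoin k ({a} : Set (LaurentSeries k)) :=
    Polynomial.aeval_mem_adjoin_singleton k a
  have h2 : Algebra.adjoin k ({a} : Set (LaurentSeries k)) ≤
      (IntermediateField.adjoin k ({a, b} : Set (LaurentSeries k))).toSubalgebra :=
    (Algebra.adjoin_mono (by intro z hz; rw [Set.mem_singleton_iff] at hz; rw [hz]; simp)).trans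
      (IntermediateField.algebra_adjoin_le_adjoin k _)
  exact h2 h1

/-- **Scaling in `C(u, J)`**, with control of the reduction. -/
theorem exists_scale_core [IsAlgClosed C] (h : CoreHyp O q₀ J U nJ D) {x : LaurentSeries C}
    (hx : x ∈ IntermediateField.adjoin C ({U q₀, J} : Set (LaurentSeries C))) (hx0 : x ≠ 0) :
    ∃ (c : C) (hm : HahnSeries.C c * x ∈ gaussRingV O), c ≠ 0 ∧
      gaussRedV O ⟨HahnSeries.C c * x, hm⟩ ≠ 0 ∧
      gaussRedV O ⟨HahnSeries.C c * x, hm⟩ ∈
        IntermediateField.adjoin (kV O) ({Ured h q₀, Jred h} : Set (LaurentSeries (kV O))) := by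
  classical
  obtain ⟨P, Q', hQ', hxe⟩ := H90.exists_decomp h hx
  choose m P₀ hP hPne hP0 using fun i => exists_scale_poly O (P i)
  choose d Q₀ hQ hQne hQ0 using fun i => exists_scale_poly O (Q' i)
  have hd : ∀ i, d i ≠ 0 := fun i => (hQne i (hQ' i)).1
  have hQ₀ : ∀ i, (Q₀ i).map (resV O) ≠ 0 := fun i => (hQne i (hQ' i)).2
  -- the unit parts of the coefficients
  have hE := fun i => gaussRedV_frac O (h.U_unitLead q₀) (u_order_ne_zero h) (P₀ i) (Q₀ i) (hQ₀ i)
  choose hEm hEr using hE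
  have hterm : ∀ i, aeval (U q₀) (P i) / aeval (U q₀) (Q' i) = HahnSeries.C (m i / d i) *
      (aeval (U q₀) ((P₀ i).map O.subtype) / aeval (U q₀) ((Q₀ i).map O.subtype)) := by
    intro i
    conv_lhs => rw [hP i, hQ i]
    rw [map_mul, map_mul, aeval_C, aeval_C, LaurentSeries.algebraMap_apply,
      LaurentSeries.algebraMap_apply, mul_div_mul_comm, ← map_div₀]
  -- some coefficient is nonzero
  have hex : ∃ i, m i / d i ≠ 0 := by
    by_contra hcon
    push Not at hcon
    apply hx0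
    rw [hxe]
    refine Finset.sum_eq_zero fun i _ => ?_
    rw [hterm i, hcon i, map_zero, zero_mul, zero_mul]
  obtain ⟨i₁, hi₁⟩ := hex
  obtain ⟨i₀, -, hmax⟩ := Finset.exists_max_image Finset.univ
    (fun i => O.valuation (m i / d i)) ⟨i₁, Finset.mem_univ _⟩
  have hγ₀ : m i₀ / d i₀ ≠ 0 := by
    intro h0
    have := hmax i₁ (Finset.mem_univ _)
    rw [h0, map_zero, le_zero_iff, Valuation.zero_iff] at this
    exact hi₁ this
  have hm₀ : m i₀ ≠ 0 := fun h0 => hγ₀ (by rw [h0, zero_div])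
  have hδ : ∀ i, (m i₀ / d i₀)⁻¹ * (m i / d i) ∈ O := by
    intro i
    rw [← ValuationSubring.valuation_le_one_iff, map_mul, map_inv₀]
    have hpos : 0 < O.valuation (m i₀ / d i₀) := by
      rw [pos_iff_ne_zero]; exact (Valuation.ne_zero_iff _).2 hγ₀
    rw [inv_mul_le_iff₀ hpos, mul_one]
    exact hmax i (Finset.mem_univ _)
  have hJm := J_mem_gaussRingV h
  -- the scaled element, inside the Gauss ring
  let y : gaussRingV O := ∑ i : Fin D,
    (⟨HahnSeries.C ((m i₀ / d i₀)⁻¹ * (m i / d i)), C_mem_gaussRingV O (hδ i)⟩ : gaussRingV O) *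
      ⟨_, hEm i⟩ * (⟨J, hJm⟩ : gaussRingV O) ^ (i : ℕ)
  have hy : (y : LaurentSeries C) = HahnSeries.C (m i₀ / d i₀)⁻¹ * x := by
    show ((∑ i : Fin D,
      (⟨HahnSeries.C ((m i₀ / d i₀)⁻¹ * (m i / d i)), C_mem_gaussRingV O (hδ i)⟩ : gaussRingV O) *
        ⟨_, hEm i⟩ * (⟨J, hJm⟩ : gaussRingV O) ^ (i : ℕ) : gaussRingV O) : LaurentSeries C) = _
    rw [AddSubmonoidClass.coe_finsetSum, hxe, Finset.mul_sum]
    refine Finset.sum_congr rfl fun i _ => ?_
    rw [hterm i]
    show HahnSeries.C ((m i₀ / d i₀)⁻¹ * (m i / d i)) * _ * J ^ (i : ℕ) = _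
    rw [map_mul]
    ring
  have hym : HahnSeries.C (m i₀ / d i₀)⁻¹ * x ∈ gaussRingV O := hy ▸ y.2
  have hyeq : (⟨HahnSeries.C (m i₀ / d i₀)⁻¹ * x, hym⟩ : gaussRingV O) = y := Subtype.ext hy.symm
  -- its reduction
  have hred : gaussRedV O y = ∑ i : Fin D,
      (HahnSeries.C (resV O ⟨_, hδ i⟩) * (aeval (Ured h q₀) ((P₀ i).map (resV O)) /
        aeval (Ured h q₀) ((Q₀ i).map (resV O)))) * Jred h ^ (i : ℕ) := by
    show gaussRedV O (∑ i : Fin D, _) = _
    rw [map_sum]
    refine Finset.sum_congr rfl fun i _ => ?_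
    rw [map_mul, map_mul, map_pow, hEr i, gaussRedV_J h]
    congr 2
    exact gaussRedV_C O ⟨_, hδ i⟩ _
  refine ⟨(m i₀ / d i₀)⁻¹, hym, inv_ne_zero hγ₀, ?_, ?_⟩
  · rw [hyeq, hred]
    intro hsum
    have hb : ∀ i : Fin D, (HahnSeries.C (resV O ⟨_, hδ i⟩) *
        (aeval (Ured h q₀) ((P₀ i).map (resV O)) / aeval (Ured h q₀) ((Q₀ i).map (resV O)))) = 0 ∨
        ∃ e : ℤ, H90.tVal (kV O) (HahnSeries.C (resV O ⟨_, hδ i⟩) *
          (aeval (Ured h q₀) ((P₀ i).map (resV O)) / aeval (Ured h q₀) ((Q₀ i).map (resV O))))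
          = WithZero.exp (nJ : ℤ) ^ ((D : ℤ) * e) := by
      intro i
      by_cases hc : resV O ⟨_, hδ i⟩ = 0
      · left
        rw [hc, map_zero, zero_mul]
      · right
        have hmi : m i ≠ 0 := by
          intro h0
          apply hc
          have : (⟨(m i₀ / d i₀)⁻¹ * (m i / d i), hδ i⟩ : ↥O) = 0 := by
            apply Subtype.ext
            show (m i₀ / d i₀)⁻¹ * (m i / d i) = 0
            rw [h0, zero_div, mul_zero]
          rw [this, map_zero]
        have hPi : P i ≠ 0 := fun h0 => hmi (hP0 i h0)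
        obtain ⟨e, he⟩ := tVal_frac_Ured h _ _ (hPne i hPi).2 (hQ₀ i)
        refine ⟨e, ?_⟩
        rw [map_mul, H90.tVal_C hc, one_mul, he]
    have hall := orthogonality (H90.tVal (kV O)) (one_lt_exp_nJ h) (tVal_Jred h) _ hb hsum
    have h0 := hall i₀
    have hone : resV O ⟨_, hδ i₀⟩ = 1 := by
      have : (⟨(m i₀ / d i₀)⁻¹ * (m i₀ / d i₀), hδ i₀⟩ : ↥O) = 1 := by
        apply Subtype.ext
        show (m i₀ / d i₀)⁻¹ * (m i₀ / d i₀) = 1
        exact inv_mul_cancel₀ hγ₀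
      rw [this, map_one]
    rw [hone, map_one, one_mul, div_eq_zero_iff] at h0
    have hPi₀ : P i₀ ≠ 0 := fun h0 => hm₀ (hP0 i₀ h0)
    rcases h0 with h0 | h0
    · exact aeval_redV_liftUL_ne_zero O (h.U_unitLead q₀) (u_order_ne_zero h) _
        (hPne i₀ hPi₀).2 h0
    · exact aeval_redV_liftUL_ne_zero O (h.U_unitLead q₀) (u_order_ne_zero h) _ (hQ₀ i₀) h0
  · rw [hyeq, hred]
    refine sum_mem fun i _ => ?_
    refine mul_mem (mul_mem ?_ (div_mem (aeval_mem_adjoin_pair _ _ _)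
      (aeval_mem_adjoin_pair _ _ _))) (pow_mem (IntermediateField.subset_adjoin _ _ (by simp)) _)
    rw [← LaurentSeries.algebraMap_apply]
    exact IntermediateField.algebraMap_mem _ _

/-- **GA**: `C(u, J)` has the scaling property (value group of the Gauss valuation = that of
`O`), for an ARBITRARY valuation subring `O`. -/
theorem hasScale_core [IsAlgClosed C] (h : CoreHyp O q₀ J U nJ D) :
    HasScale O (IntermediateField.adjoin C ({U q₀, J} : Set (LaurentSeries C))) := by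
  intro x hx hx0
  obtain ⟨c, hm, hc, hr, -⟩ := exists_scale_core h hx hx0
  exact ⟨c, hc, gaussUnit_of_gaussRedV_ne_zero O hm hr⟩

theorem u_mem_core (h : CoreHyp O q₀ J U nJ D) :
    U q₀ ∈ IntermediateField.adjoin C ({U q₀, J} : Set (LaurentSeries C)) :=
  IntermediateField.subset_adjoin _ _ (by simp)

theorem J_mem_core (h : CoreHyp O q₀ J U nJ D) :
    J ∈ IntermediateField.adjoin C ({U q₀, J} : Set (LaurentSeries C)) :=
  IntermediateField.subset_adjoin _ _ (by simp)

/-- **GA**: the residue field of the Gauss valuation on `C(u, J)` is `k(u~, J~)`. -/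
theorem redField_core [IsAlgClosed C] (h : CoreHyp O q₀ J U nJ D) :
    redField O (IntermediateField.adjoin C ({U q₀, J} : Set (LaurentSeries C))) (hasScale_core h)
      = IntermediateField.adjoin (kV O) ({Ured h q₀, Jred h} : Set (LaurentSeries (kV O))) := by
  apply le_antisymm
  · rintro y ⟨x, rfl⟩
    rw [gaussResF_apply]
    by_cases hx0 : ((x : ↥(IntermediateField.adjoin C ({U q₀, J} : Set (LaurentSeries C))))
        : LaurentSeries C) = 0
    · have e : (⟨((x : ↥(IntermediateField.adjoin C ({U q₀, J} : Set (LaurentSeries C))))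
          : LaurentSeries C), x.2⟩ : gaussRingV O) = 0 := Subtype.ext hx0
      rw [e, map_zero]
      exact zero_mem _
    · obtain ⟨c, hm, hc, hr, hmem⟩ := exists_scale_core h (x : ↥(IntermediateField.adjoin C
        ({U q₀, J} : Set (LaurentSeries C)))).2 hx0
      have hu := gaussUnit_of_gaussRedV_ne_zero O hm hr
      -- `c⁻¹ ∈ O`
      have hci : (HahnSeries.C c⁻¹ : LaurentSeries C) ∈ gaussRingV O := by
        have e : (HahnSeries.C c⁻¹ : LaurentSeries C)
            = ((x : ↥(IntermediateField.adjoin C ({U q₀, J} : Set (LaurentSeries C))))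
              : LaurentSeries C) * (HahnSeries.C c * ((x : ↥(IntermediateField.adjoin C
                ({U q₀, J} : Set (LaurentSeries C)))) : LaurentSeries C))⁻¹ := by
          rw [mul_inv, C_inv', mul_comm _ ((x : ↥(IntermediateField.adjoin C
            ({U q₀, J} : Set (LaurentSeries C)))) : LaurentSeries C)⁻¹, ← mul_assoc,
            mul_inv_cancel₀ hx0, one_mul]
        rw [e]
        exact (gaussRingV O).mul_mem x.2 hu.inv.mem
      have hprod : (⟨((x : ↥(IntermediateField.adjoin C ({U q₀, J} : Set (LaurentSeries C))))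
          : LaurentSeries C), x.2⟩ : gaussRingV O)
          = ⟨HahnSeries.C c⁻¹, hci⟩ * ⟨_, hm⟩ := by
        apply Subtype.ext
        show _ = HahnSeries.C c⁻¹ * (HahnSeries.C c * _)
        rw [C_inv', ← mul_assoc, inv_mul_cancel₀ (C_ne_zero' hc), one_mul]
      rw [hprod, map_mul]
      refine mul_mem ?_ hmem
      have hcO : c⁻¹ ∈ O := (C_mem_gaussRingV_iff O).1 hci
      have := gaussRedV_C O ⟨c⁻¹, hcO⟩ hci
      rw [this, ← LaurentSeries.algebraMap_apply]
      exact IntermediateField.algebraMap_mem _ _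
  · rw [IntermediateField.adjoin_le_iff]
    rintro y hy
    rcases hy with rfl | hy
    · refine ⟨⟨⟨U q₀, u_mem_core h⟩, U_mem_gaussRingV h q₀⟩, ?_⟩
      rw [gaussResF_apply]
      exact gaussRedV_U h q₀ _
    · rw [Set.mem_singleton_iff] at hy
      subst hy
      refine ⟨⟨⟨J, J_mem_core h⟩, J_mem_gaussRingV h⟩, ?_⟩
      rw [gaussResF_apply]
      exact gaussRedV_J h _

end Fermat.Agent.RED.H73
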