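import Fermat.Agent.RED.H73_GARes
import Fermat.Prelude.Def_FLTPrelim_Ramification

/-!
# G-RED package GA (helper73): the target statements

* `Stmt_GA`     : the residue field of the Gauss valuation on `F_N · ℚ̄` is
                  `k(j~(q^d) : d ∣ N) = modularFunctionFieldFullC k N`  (for `ℓ ∤ N`).
* `Stmt_GA_deg` : `[F_{N,k} : k(j~)] = [F_N ℚ̄ : ℚ̄(j)]`, and `F_{N,k} / k(j~)` is separable.
This file contains no `sorry`.
-/

set_option autoImplicit false

open ModularCurve Fermat.Agent.S28 Fermat.Agent.S28.H73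

noncomputable section

namespace Fermat.Agent.RED.H73

theorem redField_congr {C : Type} [Field C] (O : ValuationSubring C)
    {F F' : IntermediateField C (LaurentSeries C)} (e : F = F') (h : HasScale O F)
    (h' : HasScale O F') : redField O F h = redField O F' h' := by
  subst e
  rfl

/-- **GA, main target**: the residue field of the Gauss valuation on `F_N · ℚ̄` is the
function field `k(j~(q^d) : d ∣ N)` of the prelude. -/
def Stmt_GA : Prop :=
  ∀ (N ℓ : ℕ) [NeZero N], ℓ.Prime → ¬ ℓ ∣ N →
    ∀ A : ValuationSubring (AlgebraicClosure ℚ), A.LiesOverPrime ℓ →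
      redField A (laurentBaseChange (AlgebraicClosure ℚ) (modularFunctionFieldFull N))
        (hasScale_laurentBaseChange A N) = modularFunctionFieldFullC (kV A) N

/-- **GA, degrees**: `[F_{N,k} : k(j~)] = [F_N ℚ̄ : ℚ̄(j)]` and `F_{N,k} / k(j~)` is separable. -/
def Stmt_GA_deg : Prop :=
  ∀ (N ℓ : ℕ) [NeZero N], ℓ.Prime → ¬ ℓ ∣ N →
    ∀ A : ValuationSubring (AlgebraicClosure ℚ), A.LiesOverPrime ℓ →
      (IntermediateField.adjoin (kV A) ({jqModC (kV A)} : Set (LaurentSeries (kV A)))).relfinrank
          (modularFunctionFieldFullC (kV A) N) =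
        (IntermediateField.adjoin (AlgebraicClosure ℚ)
          ({jqModC (AlgebraicClosure ℚ)} : Set (LaurentSeries (AlgebraicClosure ℚ)))).relfinrank
          (modularFunctionFieldFullC (AlgebraicClosure ℚ) N) ∧
      ∀ x ∈ modularFunctionFieldFullC (kV A) N,
        IsSeparable ↥(IntermediateField.adjoin (kV A)
          ({jqModC (kV A)} : Set (LaurentSeries (kV A)))) x

end Fermat.Agent.RED.H73
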