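import Fermat.Agent.RED.H73_GAChart

/-!
# G-RED package GA-H (helper73): chart data for a Hauptmodul of a sublevel, abstract glue

Setting: `L` algebraically closed of characteristic `0`, `A` a valuation subring, `k = kV A`,
`p ∣ M`, `M` invertible in `A`, conjugate data `Dp : CADataL L p`, `DM : CADataL L M`.
`h₀ ∈ A((q))` with `h = iotaV A h₀`, `h~ = redV A h₀`, such that
  (H2) `L(h) = F_p · L`   and   (H3) `k(h~) = F_{p,k}`.
Then `x = h` (and `x = 1/h`) satisfies the first five fields of helper79's `GoodChart` for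
`S = redSetting A (hasScale_laurentBaseChange A M)`:
`ChartPre S x hx` (`transc`, `fin`, `sep`, `deg`, `sept`).

* `ChartPre` : the five fields.  `ChartPre.inv` : the chart `1/x`.
* `chartPre_haupt` : the glue.  `chartPre_jF` : the case `x = j`.
No `q`-series identities are used.
-/

set_option autoImplicit false
set_option synthInstance.maxHeartbeats 400000
set_option maxHeartbeats 1000000

open Polynomial ModularCurve Fermat.Agent.S28 Fermat.Agent.S28.H73
open IntermediateField

noncomputable section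

namespace Fermat.Agent.RED.H73

/-! ### Field theory -/

theorem adjoin_simple_inv {K E : Type*} [Field K] [Field E] [Algebra K E] (x : E) :
    K⟮x⁻¹⟯ = K⟮x⟯ := by
  apply le_antisymm
  · rw [adjoin_simple_le_iff]
    exact inv_mem (mem_adjoin_simple_self K x)
  · rw [adjoin_simple_le_iff]
    have := inv_mem (mem_adjoin_simple_self K x⁻¹)
    rwa [inv_inv] at this

/-- Separability over a smaller subfield implies separability over a bigger one. -/
theorem isSeparable_of_le {K E : Type*} [Field K] [Field E] [Algebra K E]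
    {A₀ B₀ : IntermediateField K E} (h : A₀ ≤ B₀) {y : E} (hy : IsSeparable ↥A₀ y) :
    IsSeparable ↥B₀ y := by
  let _ : Algebra ↥A₀ ↥B₀ := (IntermediateField.inclusion h).toRingHom.toAlgebra
  have : IsScalarTower ↥A₀ ↥B₀ E := IsScalarTower.of_algebraMap_eq (fun _ => rfl)
  exact IsSeparable.tower_top ↥B₀ hy

/-- An element of `E` over which a transcendental element is algebraic is transcendental. -/
theorem transcendental_of_mem_adjoin {K E : Type*} [Field K] [Field E] [Algebra K E] {x y : E}
    (hy : Transcendental K y) (hmem : y ∈ K⟮x⟯) : Transcendental K x := by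
  intro hx
  apply hy
  have halg : Algebra.IsAlgebraic K ↥(K⟮x⟯) :=
    IntermediateField.isAlgebraic_adjoin_simple hx.isIntegral
  have h1 : IsAlgebraic K (⟨y, hmem⟩ : ↥(K⟮x⟯)) := halg.isAlgebraic _
  exact h1.algHom (K⟮x⟯).val

/-! ### The five chart fields -/

section ChartPre

variable {C F k Ft : Type} [Field C] [Field F] [Algebra C F] [Field k] [Field Ft] [Algebra k Ft]

/-- The first five fields of helper79's `GoodChart`. -/
structure ChartPre (S : Fermat.Agent.RED.H34.RedSetting C F k Ft) (x : F) (hx : x ∈ S.V) :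
    Prop where
  transc : Transcendental k (S.red ⟨x, hx⟩)
  fin : FiniteDimensional C⟮x⟯ F
  sep : Algebra.IsSeparable C⟮x⟯ F
  deg : Module.finrank k⟮S.red ⟨x, hx⟩⟯ Ft = Module.finrank C⟮x⟯ F
  sept : Algebra.IsSeparable k⟮S.red ⟨x, hx⟩⟯ Ft

theorem red_inv (S : Fermat.Agent.RED.H34.RedSetting C F k Ft) (x : F) (hx : x ∈ S.V)
    (hx' : x⁻¹ ∈ S.V) (hx0 : x ≠ 0) : S.red ⟨x⁻¹, hx'⟩ = (S.red ⟨x, hx⟩)⁻¹ := by
  have h1 : S.red ⟨x, hx⟩ * S.red ⟨x⁻¹, hx'⟩ = 1 := by
    rw [← map_mul]
    have : (⟨x, hx⟩ * ⟨x⁻¹, hx'⟩ : ↥S.V) = 1 := Subtype.ext (mul_inv_cancel₀ hx0)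
    rw [this, map_one]
  exact eq_inv_of_mul_eq_one_right h1

/-- The chart `1/x`. -/
theorem ChartPre.inv {S : Fermat.Agent.RED.H34.RedSetting C F k Ft} {x : F} {hx : x ∈ S.V}
    (h : ChartPre S x hx) (hx' : x⁻¹ ∈ S.V) : ChartPre S x⁻¹ hx' := by
  have hx0 : x ≠ 0 := by
    rintro rfl
    have := h.transc
    have e : S.red ⟨0, hx⟩ = 0 := map_zero S.red
    rw [e] at this
    exact this (isAlgebraic_zero)
  have e1 : C⟮x⁻¹⟯ = C⟮x⟯ := adjoin_simple_inv x
  have e2 : k⟮S.red ⟨x⁻¹, hx'⟩⟯ = k⟮S.red ⟨x, hx⟩⟯ := by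
    rw [red_inv S x hx hx' hx0, adjoin_simple_inv]
  refine ⟨?_, ?_, ?_, ?_, ?_⟩
  · rw [red_inv S x hx hx' hx0]
    intro halg
    exact h.transc (by simpa using halg.inv)
  · rw [e1]; exact h.fin
  · rw [e1]; exact h.sep
  · rw [e1, e2]; exact h.deg
  · rw [e2]; exact h.sept

theorem ChartPre.inv' {S : Fermat.Agent.RED.H34.RedSetting C F k Ft} {x y : F} {hx : x ∈ S.V}
    (h : ChartPre S x hx) (hy : y ∈ S.V) (hxy : x * y = 1) : ChartPre S y hy := by
  obtain rfl : y = x⁻¹ := eq_inv_of_mul_eq_one_right hxy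
  exact h.inv hy

end ChartPre

/-! ### The glue -/

section Glue

variable {L : Type} [Field L] [IsAlgClosed L] [CharZero L] [Algebra ℚ L]
  (A : ValuationSubring L) {p M : ℕ} [NeZero p] [NeZero M]

omit [IsAlgClosed L] [Algebra ℚ L] [NeZero p] [NeZero M] in
theorem inv_natCast_mem_of_dvd (hpM : p ∣ M) (hM0 : M ≠ 0) (hM : ((M : L))⁻¹ ∈ A) :
    ((p : L))⁻¹ ∈ A := by
  obtain ⟨e, rfl⟩ := hpM
  have hp0 : (p : L) ≠ 0 := by
    have : p ≠ 0 := fun h => hM0 (by rw [h, zero_mul])
    exact_mod_cast this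
  have he0 : (e : L) ≠ 0 := by
    have : e ≠ 0 := fun h => hM0 (by rw [h, mul_zero])
    exact_mod_cast this
  have e1 : ((p : L))⁻¹ = (e : L) * (((p * e : ℕ) : L))⁻¹ := by
    push_cast
    field_simp
  rw [e1]
  exact A.mul_mem _ _ (natCast_mem A e) hM

variable {A}
variable (hpM : p ∣ M) (hM : ((M : L))⁻¹ ∈ A) (Dp : CADataL L p) (DM : CADataL L M)
  {x : LaurentSeries L} (hx : x ∈ gaussRingV A)
  (H2 : IntermediateField.adjoin L ({x} : Set (LaurentSeries L)) = modularFunctionFieldFullC L p)
  (H3 : IntermediateField.adjoin (kV A) ({gaussRedV A ⟨x, hx⟩} : Set (LaurentSeries (kV A)))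
    = modularFunctionFieldFullC (kV A) p)

omit [IsAlgClosed L] [CharZero L] in
include hpM H2 in
/-- The Hauptmodul lies in `F_M · L`. -/
theorem haupt_mem : x ∈ laurentBaseChange L (modularFunctionFieldFull M) := by
  rw [laurentBaseChange_full_eq]
  apply full_degeneracyC_le L hpM
  rw [← H2]
  exact mem_adjoin_simple_self L x

omit [CharZero L] [Algebra ℚ L] in
include hpM Dp DM H2 in
/-- `[F_M L : L(h)] · [F_p L : L(j)] = [F_M L : L(j)]`. -/
theorem haupt_relfinrank_mul :
    Fintype.card Dp.Q *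
      (IntermediateField.adjoin L ({x} : Set (LaurentSeries L))).relfinrank
        (modularFunctionFieldFullC L M) = Fintype.card DM.Q := by
  rw [H2, ← relfinrank_fullC Dp, ← relfinrank_fullC DM]
  apply IntermediateField.relfinrank_mul_relfinrank
  · rw [adjoin_simple_le_iff]
    exact jqModC_mem_full L p
  · exact full_degeneracyC_le L hpM

omit [Algebra ℚ L] in
include hpM hM Dp DM H3 in
/-- `[F_{M,k} : k(h~)] · [F_{p,k} : k(j~)] = [F_{M,k} : k(j~)]`. -/
theorem haupt_relfinrank_mul_red :
    Fintype.card Dp.Q *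
      (IntermediateField.adjoin (kV A)
          ({gaussRedV A ⟨x, hx⟩} : Set (LaurentSeries (kV A)))).relfinrank
        (modularFunctionFieldFullC (kV A) M) = Fintype.card DM.Q := by
  have : IsAlgClosed (kV A) := isAlgClosed_kV A
  have : Infinite (kV A) := IsAlgClosed.instInfinite
  have hp : ((p : L))⁻¹ ∈ A := inv_natCast_mem_of_dvd A hpM (NeZero.ne M) hM
  rw [H3, ← relfinrank_fullC_red A hp Dp, ← relfinrank_fullC_red A hM DM]
  apply IntermediateField.relfinrank_mul_relfinrank
  · rw [adjoin_simple_le_iff]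
    exact jqModC_mem_full (kV A) p
  · exact full_degeneracyC_le (kV A) hpM

include hpM hM Dp DM H2 H3 in
/-- **GA-H**: the five chart fields for a Hauptmodul `x` of the sublevel `p ∣ M`. -/
theorem chartPre_haupt (hxF : x ∈ laurentBaseChange L (modularFunctionFieldFull M)) :
    ChartPre (redSetting A (hasScale_laurentBaseChange A M)) ⟨x, hxF⟩ hx := by
  have : IsAlgClosed (kV A) := isAlgClosed_kV A
  have : Infinite (kV A) := IsAlgClosed.instInfinite
  have hred : (((redSetting A (hasScale_laurentBaseChange A M)).red ⟨⟨x, hxF⟩, hx⟩ :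
      ↥(redField A (laurentBaseChange L (modularFunctionFieldFull M))
        (hasScale_laurentBaseChange A M))) : LaurentSeries (kV A)) = gaussRedV A ⟨x, hx⟩ := rfl
  have hdegL : Module.finrank ↥(L⟮(⟨x, hxF⟩ : ↥(laurentBaseChange L
      (modularFunctionFieldFull M)))⟯) ↥(laurentBaseChange L (modularFunctionFieldFull M))
      = (IntermediateField.adjoin L ({x} : Set (LaurentSeries L))).relfinrank
        (modularFunctionFieldFullC L M) := by
    rw [finrank_adjoin_simple_subtype]
    exact congrArg (fun B => (IntermediateField.adjoin L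
      ({x} : Set (LaurentSeries L))).relfinrank B) (laurentBaseChange_full_eq M)
  have hdegk : Module.finrank
      ↥((kV A)⟮(redSetting A (hasScale_laurentBaseChange A M)).red ⟨⟨x, hxF⟩, hx⟩⟯)
      ↥(redField A (laurentBaseChange L (modularFunctionFieldFull M))
        (hasScale_laurentBaseChange A M))
      = (IntermediateField.adjoin (kV A)
          ({gaussRedV A ⟨x, hx⟩} : Set (LaurentSeries (kV A)))).relfinrank
        (modularFunctionFieldFullC (kV A) M) := by
    rw [finrank_adjoin_simple_subtype, hred, redField_laurentBaseChange_eq A hM DM]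
  have h1 := haupt_relfinrank_mul hpM Dp DM H2
  have h2 := haupt_relfinrank_mul_red hpM hM Dp DM hx H3
  have hQ : 0 < Fintype.card Dp.Q := card_Q_pos Dp
  have hQM : 0 < Fintype.card DM.Q := card_Q_pos DM
  have hjmem : jqModC (kV A) ∈ IntermediateField.adjoin (kV A)
      ({gaussRedV A ⟨x, hx⟩} : Set (LaurentSeries (kV A))) := by
    rw [H3]
    exact jqModC_mem_full (kV A) p
  have hfin : FiniteDimensional ↥(L⟮(⟨x, hxF⟩ : ↥(laurentBaseChange L
      (modularFunctionFieldFull M)))⟯) ↥(laurentBaseChange L (modularFunctionFieldFull M)) := by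
    apply Module.finite_of_finrank_pos
    rw [hdegL]
    rcases Nat.eq_zero_or_pos ((IntermediateField.adjoin L
      ({x} : Set (LaurentSeries L))).relfinrank (modularFunctionFieldFullC L M)) with h0 | h0
    · rw [h0, mul_zero] at h1
      omega
    · exact h0
  refine ⟨?_, hfin, ?_, ?_, ?_⟩
  · apply transcendental_subtype
    rw [hred]
    exact transcendental_of_mem_adjoin (transcendental_jqModC (kV A)) hjmem
  · infer_instance
  · rw [hdegL, hdegk]
    exact Nat.eq_of_mul_eq_mul_left hQ (h2.trans h1.symm)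
  · apply algebra_isSeparable_subtype
    intro y hy
    rw [hred]
    rw [redField_laurentBaseChange_eq A hM DM] at hy
    refine isSeparable_of_le ?_ (isSeparable_fullC_red A hM DM hy)
    rw [adjoin_simple_le_iff]
    exact hjmem

include hpM hM Dp DM H2 H3 in
/-- **GA-H**, the chart `1/x` (stated for `y` with `x * y = 1` to keep unification cheap). -/
theorem chartPre_haupt_inv {y : LaurentSeries L} (hy : x * y = 1)
    (hyF : y ∈ laurentBaseChange L (modularFunctionFieldFull M)) (hy' : y ∈ gaussRingV A) :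
    ChartPre (redSetting A (hasScale_laurentBaseChange A M)) ⟨y, hyF⟩ hy' := by
  have hxF₀ : x ∈ laurentBaseChange L (modularFunctionFieldFull M) := haupt_mem hpM H2
  have h := chartPre_haupt hpM hM Dp DM hx H2 H3 hxF₀
  have e : (⟨x, hxF₀⟩ : ↥(laurentBaseChange L (modularFunctionFieldFull M))) * ⟨y, hyF⟩ = 1 :=
    Subtype.ext hy
  exact ChartPre.inv' (S := redSetting A (hasScale_laurentBaseChange A M))
    (x := ⟨x, hxF₀⟩) (y := ⟨y, hyF⟩) (hx := hx) h hy' e

end Glue

/-! ### The chart `x = j` and the chart `1/j` -/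

section ChartJ

variable {L : Type} [Field L] [IsAlgClosed L] [CharZero L] [Algebra ℚ L]
  {A : ValuationSubring L} {N : ℕ} [NeZero N] (hN : ((N : L))⁻¹ ∈ A) (D : CADataL L N)

include hN D in
/-- The five chart fields for `x = j` at level `N`. -/
theorem chartPre_jF :
    ChartPre (redSetting A (hasScale_laurentBaseChange A N)) (jF N) (jF_mem A N) :=
  ⟨transcendental_red_jF A N, finiteDimensional_jF D, isSeparable_jF D,
    finrank_red_jF_eq hN D, isSeparable_red_jF hN D⟩

omit [IsAlgClosed L] [CharZero L] [Algebra ℚ L] in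
theorem jqModC_ne_zero (K : Type) [Field K] : jqModC K ≠ 0 := by
  intro h
  have := jqModC_order_neg K
  rw [h, HahnSeries.order_zero] at this
  exact lt_irrefl _ this

omit [IsAlgClosed L] [CharZero L] [Algebra ℚ L] in
/-- `1/j` lies in the Gauss ring. -/
theorem inv_jqModC_mem_gaussRingV (A : ValuationSubring L) : (jqModC L)⁻¹ ∈ gaussRingV A := by
  apply inv_mem_gaussRingV A (jqModC_mem_gaussRingV A)
  rw [gaussRedV_jqModC]
  exact jqModC_ne_zero (kV A)

include hN D in
/-- The five chart fields for `y = 1/j` at level `N` (any `y` with `j * y = 1`). -/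
theorem chartPre_jF_inv {y : LaurentSeries L} (hy : jqModC L * y = 1)
    (hyF : y ∈ laurentBaseChange L (modularFunctionFieldFull N)) (hy' : y ∈ gaussRingV A) :
    ChartPre (redSetting A (hasScale_laurentBaseChange A N)) ⟨y, hyF⟩ hy' := by
  have h := chartPre_jF hN D
  have e : (jF (L := L) N) * ⟨y, hyF⟩ = 1 := Subtype.ext hy
  exact ChartPre.inv' (S := redSetting A (hasScale_laurentBaseChange A N))
    (x := jF N) (y := ⟨y, hyF⟩) (hx := jF_mem A N) h hy' e

end ChartJ

end Fermat.Agent.RED.H73
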