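import Fermat.Agent.RED.H73_GAInv
import Fermat.Agent.RED.H73_GACard

/-!
# G-RED package GA-H (helper73): the hypotheses (H2), (H3) from two identities

Generic field theory: if `P(h) = j · Q(h)` with `P` monic of degree `n`, `deg Q < n`, then
`[K(h) : K(j)] ≤ n`; if moreover `K(j) ≤ F ≤ K(h)` and `[F : K(j)] = n` then `K(h) = F`.

Application (`p` prime, `F = F_p · K = K(j, j(q^p))`, `n = p + 1 = ψ(p)`):
* `haupt_adjoin_eq_fullC` : over any field `K` with `[F_p K : K(j)] = p + 1`;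
* `haupt_H2_bar`          : over `ℚ̄`;
* `haupt_H3_bar`          : over the residue field of a valuation subring of `ℚ̄` with `p` a unit.
-/

set_option autoImplicit false
set_option synthInstance.maxHeartbeats 400000
set_option maxHeartbeats 1000000

open Polynomial ModularCurve Fermat.Agent.S28 Fermat.Agent.S28.H73
open IntermediateField
open scoped IntermediateField.algebraAdjoinAdjoin

noncomputable section

namespace Fermat.Agent.RED.H73

section Generic

variable {K E : Type*} [Field K] [Field E] [Algebra K E]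

/-- From `P(h) = j · Q(h)`: a monic polynomial of degree `deg P` over `K(j)` killing `h`. -/
theorem exists_monic_of_rel {j h : E} (P Q : K[X]) (hP : P.Monic)
    (hQ : Q.natDegree < P.natDegree) (hPQ : aeval h P = j * aeval h Q) :
    ∃ f : (↥(K⟮j⟯))[X], f.Monic ∧ f.natDegree = P.natDegree ∧ aeval h f = 0 := by
  set jj : ↥(K⟮j⟯) := ⟨j, mem_adjoin_simple_self K j⟩ with hjj
  have hPm : (P.map (algebraMap K ↥(K⟮j⟯))).Monic := hP.map _
  have hPd : (P.map (algebraMap K ↥(K⟮j⟯))).natDegree = P.natDegree := hP.natDegree_map _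
  have hQd : (C jj * Q.map (algebraMap K ↥(K⟮j⟯))).natDegree
      < (P.map (algebraMap K ↥(K⟮j⟯))).natDegree := by
    rw [hPd]
    refine lt_of_le_of_lt (natDegree_C_mul_le _ _) ?_
    exact lt_of_le_of_lt (natDegree_map_le) hQ
  refine ⟨P.map (algebraMap K ↥(K⟮j⟯)) - C jj * Q.map (algebraMap K ↥(K⟮j⟯)), ?_, ?_, ?_⟩
  · apply hPm.sub_of_left
    exact degree_lt_degree hQd
  · rw [natDegree_sub_eq_left_of_natDegree_lt hQd, hPd]
  · rw [map_sub, map_mul, aeval_C, aeval_map_algebraMap, aeval_map_algebraMap, hPQ]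
    exact sub_self _

/-- `0 < [K(h) : K(j)] ≤ deg P` when `j ∈ K(h)` and `P(h) = j · Q(h)`. -/
theorem relfinrank_adjoin_simple_le {j h : E} (hj : j ∈ K⟮h⟯) (P Q : K[X]) (hP : P.Monic)
    (hQ : Q.natDegree < P.natDegree) (hPQ : aeval h P = j * aeval h Q) :
    0 < (K⟮j⟯).relfinrank K⟮h⟯ ∧ (K⟮j⟯).relfinrank K⟮h⟯ ≤ P.natDegree := by
  obtain ⟨f, hf, hfd, hf0⟩ := exists_monic_of_rel P Q hP hQ hPQ
  have hint : IsIntegral ↥(K⟮j⟯) h := ⟨f, hf, by rwa [← aeval_def]⟩
  have hle : K⟮j⟯ ≤ K⟮h⟯ := by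
    rw [adjoin_simple_le_iff]; exact hj
  have e : extendScalars hle = adjoin ↥(K⟮j⟯) ({h} : Set E) := by
    apply restrictScalars_injective K
    rw [extendScalars_restrictScalars, adjoin_adjoin_left]
    apply le_antisymm
    · apply IntermediateField.adjoin.mono
      intro x hx
      right
      exact hx
    · rw [IntermediateField.adjoin_le_iff]
      rintro x (hx | hx)
      · rw [Set.mem_singleton_iff] at hx
        rw [hx]
        exact hj
      · rw [Set.mem_singleton_iff] at hx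
        rw [hx]
        exact mem_adjoin_simple_self K h
  rw [relfinrank_eq_finrank_of_le hle, e, adjoin.finrank hint]
  refine ⟨minpoly.natDegree_pos hint, ?_⟩
  rw [← hfd]
  exact natDegree_le_of_dvd (minpoly.dvd _ _ hf0) hf.ne_zero

/-- **Degree argument**: `K(j) ≤ F ≤ K(h)`, `[F : K(j)] = deg P`, `P(h) = j · Q(h)` give
`K(h) = F`. -/
theorem adjoin_simple_eq_of_relfinrank {j h : E} (F : IntermediateField K E) (hjF : j ∈ F)
    (hFh : F ≤ K⟮h⟯) (P Q : K[X]) (hP : P.Monic) (hQ : Q.natDegree < P.natDegree)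
    (hPQ : aeval h P = j * aeval h Q) (hdeg : (K⟮j⟯).relfinrank F = P.natDegree) :
    K⟮h⟯ = F := by
  have hj : j ∈ K⟮h⟯ := hFh hjF
  obtain ⟨h0, h1⟩ := relfinrank_adjoin_simple_le hj P Q hP hQ hPQ
  have hjF' : K⟮j⟯ ≤ F := by
    rw [adjoin_simple_le_iff]; exact hjF
  have hmul := IntermediateField.relfinrank_mul_relfinrank hjF' hFh
  rw [hdeg] at hmul
  rw [← hmul] at h0 h1
  have hn : 0 < P.natDegree := Nat.pos_of_ne_zero (fun h => by rw [h, zero_mul] at h0; omega)
  have hb : 0 < F.relfinrank K⟮h⟯ :=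
    Nat.pos_of_ne_zero (fun h => by rw [h, mul_zero] at h0; omega)
  have hb1 : F.relfinrank K⟮h⟯ = 1 := by
    have : P.natDegree * F.relfinrank K⟮h⟯ ≤ P.natDegree * 1 := by rwa [mul_one]
    have := Nat.le_of_mul_le_mul_left this hn
    omega
  exact le_antisymm (relfinrank_eq_one_iff.1 hb1) hFh

/-- `j = P(h)/Q(h) ∈ K(h)`. -/
theorem mem_adjoin_simple_of_rel {j h : E} (P Q : K[X]) (hPQ : aeval h P = j * aeval h Q)
    (hQ0 : aeval h Q ≠ 0) : j ∈ K⟮h⟯ := by
  have hP' : aeval h P ∈ K⟮h⟯ :=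
    IntermediateField.algebra_adjoin_le_adjoin K _ (aeval_mem_adjoin_singleton K h)
  have hQ' : aeval h Q ∈ K⟮h⟯ :=
    IntermediateField.algebra_adjoin_le_adjoin K _ (aeval_mem_adjoin_singleton K h)
  have e : j = aeval h P / aeval h Q := by
    rw [hPQ, mul_div_assoc, div_self hQ0, mul_one]
  rw [e]
  exact div_mem hP' hQ'

end Generic

/-! ### The field `F_p · K` for a prime `p` -/

section Prime

variable {K : Type} [Field K] {p : ℕ} [NeZero p]

/-- For `p` prime, `F_p · K = K(j, j(q^p))`. -/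
theorem fullC_prime_le (hp : p.Prime) (B : IntermediateField K (LaurentSeries K))
    (h1 : jqModC K ∈ B) (h2 : qExpand K p (jqModC K) ∈ B) :
    modularFunctionFieldFullC K p ≤ B := by
  rw [modularFunctionFieldFullC, IntermediateField.adjoin_le_iff]
  rintro x ⟨d, hd0, hd, rfl⟩
  rcases (Nat.dvd_prime hp).1 hd with rfl | rfl
  · rw [qExpand_one_apply]
    exact h1
  · exact h2

/-- **(H2)/(H3) from two identities**, over any field `K` with `[F_p K : K(j)] = deg P`:
if `P(h) = j · Q(h)` (`P` monic, `deg Q < deg P`, `Q(h) ≠ 0`) and `P'(h) = j(q^p) · Q'(h)`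
(`Q'(h) ≠ 0`), then `K(h) = F_p · K`. -/
theorem haupt_adjoin_eq_fullC (hp : p.Prime) {h : LaurentSeries K} (P Q P' Q' : K[X])
    (hP : P.Monic) (hQ : Q.natDegree < P.natDegree)
    (hPQ : aeval h P = jqModC K * aeval h Q) (hQ0 : aeval h Q ≠ 0)
    (hPQ' : aeval h P' = qExpand K p (jqModC K) * aeval h Q') (hQ0' : aeval h Q' ≠ 0)
    (hdeg : (IntermediateField.adjoin K ({jqModC K} : Set (LaurentSeries K))).relfinrank
      (modularFunctionFieldFullC K p) = P.natDegree) :
    IntermediateField.adjoin K ({h} : Set (LaurentSeries K)) = modularFunctionFieldFullC K p := by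
  apply adjoin_simple_eq_of_relfinrank (modularFunctionFieldFullC K p) (jqModC_mem_full K p)
    ?_ P Q hP hQ hPQ hdeg
  exact fullC_prime_le hp _ (mem_adjoin_simple_of_rel P Q hPQ hQ0)
    (mem_adjoin_simple_of_rel P' Q' hPQ' hQ0')

/-- A nonzero polynomial does not vanish at a series with a pole. -/
theorem aeval_ne_zero_of_order_neg {h : LaurentSeries K} (hh : h.order < 0) {Q : K[X]}
    (hQ : Q ≠ 0) : aeval h Q ≠ 0 := by
  intro h0
  exact (transcendental_iff.1 (transcendental_of_order_neg hh)) Q h0 |> hQ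

end Prime

/-! ### Over `ℚ̄` and over the residue fields -/

section Bar

variable {p : ℕ} [NeZero p]

/-- **(H2) over `ℚ̄`** from the two identities (`deg P = p + 1`). -/
theorem haupt_H2_bar (hp : p.Prime) {h : LaurentSeries (AlgebraicClosure ℚ)}
    (P Q P' Q' : (AlgebraicClosure ℚ)[X])
    (hP : P.Monic) (hPd : P.natDegree = p + 1) (hQ : Q.natDegree < p + 1)
    (hPQ : aeval h P = jqModC (AlgebraicClosure ℚ) * aeval h Q) (hQ0 : aeval h Q ≠ 0)
    (hPQ' : aeval h P' = qExpand (AlgebraicClosure ℚ) p (jqModC (AlgebraicClosure ℚ)) * aeval h Q')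
    (hQ0' : aeval h Q' ≠ 0) :
    IntermediateField.adjoin (AlgebraicClosure ℚ) ({h} : Set (LaurentSeries (AlgebraicClosure ℚ)))
      = modularFunctionFieldFullC (AlgebraicClosure ℚ) p := by
  apply haupt_adjoin_eq_fullC hp P Q P' Q' hP (by rw [hPd]; exact hQ) hPQ hQ0 hPQ' hQ0'
  rw [relfinrank_fullC_bar, dedekindPsi_prime hp, hPd]

/-- **(H3) over the residue field** from the two identities (`deg P = p + 1`). -/
theorem haupt_H3_bar (hp : p.Prime) (A : ValuationSubring (AlgebraicClosure ℚ))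
    (hpA : ((p : AlgebraicClosure ℚ))⁻¹ ∈ A) {h : LaurentSeries (kV A)}
    (P Q P' Q' : (kV A)[X])
    (hP : P.Monic) (hPd : P.natDegree = p + 1) (hQ : Q.natDegree < p + 1)
    (hPQ : aeval h P = jqModC (kV A) * aeval h Q) (hQ0 : aeval h Q ≠ 0)
    (hPQ' : aeval h P' = qExpand (kV A) p (jqModC (kV A)) * aeval h Q')
    (hQ0' : aeval h Q' ≠ 0) :
    IntermediateField.adjoin (kV A) ({h} : Set (LaurentSeries (kV A)))
      = modularFunctionFieldFullC (kV A) p := by
  apply haupt_adjoin_eq_fullC hp P Q P' Q' hP (by rw [hPd]; exact hQ) hPQ hQ0 hPQ' hQ0'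
  rw [relfinrank_fullC_red_bar A hpA, dedekindPsi_prime hp, hPd]

/-- **GA-H over `ℚ̄`, from the identities**: both charts `x`, `1/x` for a Hauptmodul
`x ∈ gaussRingV A` of prime level `p ∣ M`, `M` invertible in `A`. -/
theorem chartPre_haupt_bar (hp : p.Prime) {M : ℕ} [NeZero M] (hpM : p ∣ M)
    (A : ValuationSubring (AlgebraicClosure ℚ)) (hM : ((M : AlgebraicClosure ℚ))⁻¹ ∈ A)
    {x : LaurentSeries (AlgebraicClosure ℚ)} (hx : x ∈ gaussRingV A)
    (P Q P' Q' : (AlgebraicClosure ℚ)[X])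
    (hP : P.Monic) (hPd : P.natDegree = p + 1) (hQ : Q.natDegree < p + 1)
    (hPQ : aeval x P = jqModC (AlgebraicClosure ℚ) * aeval x Q) (hQ0 : aeval x Q ≠ 0)
    (hPQ' : aeval x P' = qExpand (AlgebraicClosure ℚ) p (jqModC (AlgebraicClosure ℚ)) * aeval x Q')
    (hQ0' : aeval x Q' ≠ 0)
    (Pk Qk Pk' Qk' : (kV A)[X])
    (hPk : Pk.Monic) (hPkd : Pk.natDegree = p + 1) (hQk : Qk.natDegree < p + 1)
    (hPQk : aeval (gaussRedV A ⟨x, hx⟩) Pk = jqModC (kV A) * aeval (gaussRedV A ⟨x, hx⟩) Qk)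
    (hQk0 : aeval (gaussRedV A ⟨x, hx⟩) Qk ≠ 0)
    (hPQk' : aeval (gaussRedV A ⟨x, hx⟩) Pk'
      = qExpand (kV A) p (jqModC (kV A)) * aeval (gaussRedV A ⟨x, hx⟩) Qk')
    (hQk0' : aeval (gaussRedV A ⟨x, hx⟩) Qk' ≠ 0) :
    ∃ (X : ↥(laurentBaseChange (AlgebraicClosure ℚ) (modularFunctionFieldFull M)))
      (hX : X ∈ (redSetting A (hasScale_laurentBaseChange A M)).V)
      (hX' : X⁻¹ ∈ (redSetting A (hasScale_laurentBaseChange A M)).V),
      (X : LaurentSeries (AlgebraicClosure ℚ)) = x ∧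
      ChartPre (redSetting A (hasScale_laurentBaseChange A M)) X hX ∧
      ChartPre (redSetting A (hasScale_laurentBaseChange A M)) X⁻¹ hX' := by
  have hpA : ((p : AlgebraicClosure ℚ))⁻¹ ∈ A := inv_natCast_mem_of_dvd A hpM (NeZero.ne M) hM
  have H2 := haupt_H2_bar hp P Q P' Q' hP hPd hQ hPQ hQ0 hPQ' hQ0'
  have H3 := haupt_H3_bar hp A hpA Pk Qk Pk' Qk' hPk hPkd hQk hPQk hQk0 hPQk' hQk0'
  exact chartPre_haupt_both hpM hM (caDataBar p) (caDataBar M) hx H2 H3 (haupt_mem hpM H2)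

end Bar

end Fermat.Agent.RED.H73
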