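import Fermat.Agent.RED.H73_GAHaupt

/-!
# G-RED package GA (helper73): inverses of charts

In a `RedSetting` the kernel of the reduction map is the maximal ideal of the valuation ring,
so an element with nonzero reduction is a unit:
* `redSetting_inv_mem` : `S.red x ≠ 0 → x⁻¹ ∈ S.V`;
* `ChartPre.inv_mem`, `ChartPre.inv_chart` : the chart `1/x` of a chart `x`, with no side
  condition;
* `jF_inv_mem`, `chartPre_jF_inv'` : the chart `1/j`.
-/

set_option autoImplicit false
set_option synthInstance.maxHeartbeats 400000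
set_option maxHeartbeats 1000000

open Polynomial ModularCurve Fermat.Agent.S28 Fermat.Agent.S28.H73
open IntermediateField

noncomputable section

namespace Fermat.Agent.RED.H73

section General

variable {C F k Ft : Type} [Field C] [Field F] [Algebra C F] [Field k] [Field Ft] [Algebra k Ft]

/-- An element of the valuation ring with nonzero reduction is a unit. -/
theorem redSetting_inv_mem (S : Fermat.Agent.RED.H34.RedSetting C F k Ft) {x : F} (hx : x ∈ S.V)
    (h : S.red ⟨x, hx⟩ ≠ 0) : x⁻¹ ∈ S.V := by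
  have hmax : (RingHom.ker S.red).IsMaximal := RingHom.ker_isMaximal_of_surjective S.red S.red_surj
  have hker : RingHom.ker S.red = IsLocalRing.maximalIdeal ↥S.V :=
    IsLocalRing.eq_maximalIdeal hmax
  have hu : IsUnit (⟨x, hx⟩ : ↥S.V) := by
    by_contra hnu
    have : (⟨x, hx⟩ : ↥S.V) ∈ IsLocalRing.maximalIdeal ↥S.V :=
      (IsLocalRing.mem_maximalIdeal _).2 hnu
    rw [← hker] at this
    exact h ((RingHom.mem_ker).1 this)
  obtain ⟨u, hu⟩ := hu
  have h1 : x * ((u⁻¹ : (↥S.V)ˣ) : ↥S.V) = 1 := by
    have h2 : ((u : ↥S.V) : F) = x := by rw [hu]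
    rw [← h2]
    have h3 : (u : ↥S.V) * ((u⁻¹ : (↥S.V)ˣ) : ↥S.V) = 1 := u.mul_inv
    exact_mod_cast congrArg (Subtype.val) h3
  rw [← eq_inv_of_mul_eq_one_right h1]
  exact Subtype.property _

/-- The inverse of a chart lies in the valuation ring. -/
theorem ChartPre.inv_mem {S : Fermat.Agent.RED.H34.RedSetting C F k Ft} {x : F} {hx : x ∈ S.V}
    (h : ChartPre S x hx) : x⁻¹ ∈ S.V := by
  apply redSetting_inv_mem S hx
  intro h0
  have := h.transc
  rw [h0] at this
  exact this isAlgebraic_zero

/-- The chart `1/x` of a chart `x`. -/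
theorem ChartPre.inv_chart {S : Fermat.Agent.RED.H34.RedSetting C F k Ft} {x : F} {hx : x ∈ S.V}
    (h : ChartPre S x hx) : ChartPre S x⁻¹ h.inv_mem :=
  h.inv h.inv_mem

end General

section ChartJ

variable {L : Type} [Field L] [IsAlgClosed L] [CharZero L] [Algebra ℚ L]
  {A : ValuationSubring L} {N : ℕ} [NeZero N] (hN : ((N : L))⁻¹ ∈ A) (D : CADataL L N)

omit [IsAlgClosed L] [CharZero L] [NeZero N] in
/-- `1/j` lies in the valuation ring of the Gauss valuation. -/
theorem jF_inv_mem (A : ValuationSubring L) (N : ℕ) :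
    (jF (L := L) N)⁻¹ ∈ (redSetting A (hasScale_laurentBaseChange A N)).V := by
  apply redSetting_inv_mem _ (jF_mem A N)
  intro h0
  have := transcendental_red_jF A N
  rw [h0] at this
  exact this isAlgebraic_zero

include hN D in
/-- The five chart fields for `1/j` at level `N`. -/
theorem chartPre_jF_inv' :
    ChartPre (redSetting A (hasScale_laurentBaseChange A N)) (jF N)⁻¹ (jF_inv_mem A N) :=
  (chartPre_jF hN D).inv (jF_inv_mem A N)

end ChartJ

section Haupt

variable {L : Type} [Field L] [IsAlgClosed L] [CharZero L] [Algebra ℚ L]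
  {A : ValuationSubring L} {p M : ℕ} [NeZero p] [NeZero M]
  (hpM : p ∣ M) (hM : ((M : L))⁻¹ ∈ A) (Dp : CADataL L p) (DM : CADataL L M)
  {x : LaurentSeries L} (hx : x ∈ gaussRingV A)
  (H2 : IntermediateField.adjoin L ({x} : Set (LaurentSeries L)) = modularFunctionFieldFullC L p)
  (H3 : IntermediateField.adjoin (kV A) ({gaussRedV A ⟨x, hx⟩} : Set (LaurentSeries (kV A)))
    = modularFunctionFieldFullC (kV A) p)

include hpM hM Dp DM H2 H3 in
/-- **GA-H**, both charts `x` and `1/x` in the form used by `H79.hasDR_of_goodCharts`. -/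
theorem chartPre_haupt_both (hxF : x ∈ laurentBaseChange L (modularFunctionFieldFull M)) :
    ∃ (X : ↥(laurentBaseChange L (modularFunctionFieldFull M)))
      (hX : X ∈ (redSetting A (hasScale_laurentBaseChange A M)).V)
      (hX' : X⁻¹ ∈ (redSetting A (hasScale_laurentBaseChange A M)).V),
      (X : LaurentSeries L) = x ∧
      ChartPre (redSetting A (hasScale_laurentBaseChange A M)) X hX ∧
      ChartPre (redSetting A (hasScale_laurentBaseChange A M)) X⁻¹ hX' := by
  have h := chartPre_haupt hpM hM Dp DM hx H2 H3 hxF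
  exact ⟨⟨x, hxF⟩, hx, h.inv_mem, rfl, h, h.inv_chart⟩

end Haupt

end Fermat.Agent.RED.H73
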