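import Fermat.Agent.S28.H92_Lagrange

/-!
# G-RED package GA (helper73): the symmetric-function hypothesis is symmetric in `U` and `X`

If `∏_q (c - U q - s X q) ∈ A` for all constants `c, s`, then
`∏_q (a - b U q - c X q) ∈ A` for all constants `a, b, c` (homogeneity + interpolation), hence the
Lagrange lemma of helper92 also holds with the roles of `U` and `X` exchanged:
`U q₀ ∈ E` as soon as `X q₀ ∈ E` and `X q ≠ X q₀` for `q ≠ q₀`.
-/

set_option autoImplicit false

namespace Fermat.Agent.RED.H73

open Polynomial Fermat.Agent.S28.H92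

/-- The three-parameter form of the symmetric-function hypothesis. -/
theorem sym_three {F L : Type*} [Field F] [Infinite F] [Field L] [Algebra F L]
    {Q : Type*} [Fintype Q] (A : Subalgebra F L) (U Y : Q → L)
    (hsym : ∀ c s : F, (∏ q, (algebraMap F L c - U q - algebraMap F L s * Y q)) ∈ A)
    (a b c : F) :
    (∏ q, (algebraMap F L a - algebraMap F L b * U q - algebraMap F L c * Y q)) ∈ A := by
  classical
  -- the case `b ≠ 0`
  have hne : ∀ b : F, b ≠ 0 →
      (∏ q, (algebraMap F L a - algebraMap F L b * U q - algebraMap F L c * Y q)) ∈ A := by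
    intro b hb
    have hb' : algebraMap F L b ≠ 0 := fun h0 => hb ((map_eq_zero _).1 h0)
    have e : (∏ q, (algebraMap F L a - algebraMap F L b * U q - algebraMap F L c * Y q))
        = algebraMap F L (b ^ Fintype.card Q) *
          ∏ q, (algebraMap F L (a / b) - U q - algebraMap F L (c / b) * Y q) := by
      rw [map_pow, ← Finset.card_univ, ← Finset.prod_const, ← Finset.prod_mul_distrib]
      refine Finset.prod_congr rfl fun q _ => ?_
      rw [map_div₀, map_div₀]
      field_simp
    rw [e]
    exact A.mul_mem (A.algebraMap_mem _) (hsym _ _)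
  -- interpolation in `b`
  set P : L[X] := ∏ q, (C (algebraMap F L a) - X * C (U q) - C (algebraMap F L c * Y q)) with hP
  have hPeval : ∀ b : F, P.eval (algebraMap F L b)
      = ∏ q, (algebraMap F L a - algebraMap F L b * U q - algebraMap F L c * Y q) := by
    intro b
    rw [hP, eval_prod]
    refine Finset.prod_congr rfl fun q _ => ?_
    simp only [eval_sub, eval_mul, eval_C, eval_X]
  have hcoeff : ∀ k, P.coeff k ∈ A := by
    intro k
    have h1 : ∀ k, (X * P).coeff k ∈ A := by
      intro k
      refine coeff_mem_of_forall_eval_mem (Subalgebra.toSubmodule A) _ (fun b => ?_) k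
      rw [eval_mul, eval_X, hPeval]
      by_cases hb : b = 0
      · rw [hb, map_zero, zero_mul]
        exact A.zero_mem
      · exact A.mul_mem (A.algebraMap_mem _) (hne b hb)
    have := h1 (k + 1)
    rwa [coeff_X_mul] at this
  rw [← hPeval, eval_eq_sum_range]
  refine A.sum_mem fun k _ => A.mul_mem (hcoeff k) ?_
  rw [← map_pow]
  exact A.algebraMap_mem _

/-- The symmetric-function hypothesis with the roles of `U` and `Y` exchanged. -/
theorem sym_swap {F L : Type*} [Field F] [Infinite F] [Field L] [Algebra F L]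
    {Q : Type*} [Fintype Q] (A : Subalgebra F L) (U Y : Q → L)
    (hsym : ∀ c s : F, (∏ q, (algebraMap F L c - U q - algebraMap F L s * Y q)) ∈ A)
    (c s : F) :
    (∏ q, (algebraMap F L c - Y q - algebraMap F L s * U q)) ∈ A := by
  have h := sym_three A U Y hsym c s 1
  have e : (∏ q, (algebraMap F L c - Y q - algebraMap F L s * U q))
      = ∏ q, (algebraMap F L c - algebraMap F L s * U q - algebraMap F L 1 * Y q) :=
    Finset.prod_congr rfl fun q _ => by rw [map_one, one_mul]; ring
  rw [e]
  exact h

/-- **Lagrange, exchanged roles**: `U q₀ ∈ E` if `Y q₀ ∈ E` and `Y q ≠ Y q₀` for `q ≠ q₀`. -/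
theorem lagrange_swap {F L : Type*} [Field F] [Infinite F] [Field L] [Algebra F L]
    {Q : Type*} [Fintype Q] (q₀ : Q) (A : Subalgebra F L) (E : IntermediateField F L)
    (hAE : ∀ a ∈ A, a ∈ E) (U Y : Q → L) (hY₀ : Y q₀ ∈ E)
    (hY : ∀ q, q ≠ q₀ → Y q ≠ Y q₀)
    (hsym : ∀ c s : F, (∏ q, (algebraMap F L c - U q - algebraMap F L s * Y q)) ∈ A) :
    U q₀ ∈ E :=
  lagrange_abstract q₀ A E hAE Y U hY₀ hY (sym_swap A U Y hsym)

end Fermat.Agent.RED.H73
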