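import Fermat.Agent.RED.H73_GAMainA
import Fermat.Agent.RED.H73_GASwap
import Fermat.Agent.RED.H73_GADefs

/-!
# G-RED package GA (helper73): the residue field of the Gauss valuation on `F_N · L`

Main result: `redField_fullC_eq` : for `L` algebraically closed, `A` a valuation subring of `L` in
which `N` is invertible, and conjugate data `D : CADataL L N`:
`redField A (modularFunctionFieldFullC L N) = modularFunctionFieldFullC (kV A) N`.

Route: `q ↦ t^N` maps `F_N L` into the core field `L(u, J)` (Lagrange), whose residue field is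
`k(u~, J~)` (`redField_core`); and `u~ ∈ k(j~(t^{N²}), J~)` (Lagrange with exchanged roles over
`k`, using that the other conjugates of `j(Nz)` have pole order `< N²`).
-/

set_option autoImplicit false

open Polynomial ModularCurve Fermat.Agent.S28 Fermat.Agent.S28.H73

noncomputable section

namespace Fermat.Agent.RED.H73

section Forward

variable {L : Type} [Field L] {N : ℕ} [NeZero N] (D : CADataL L N)

/-- The core field `L(u, J) ⊂ L((t))`. -/
def coreField : IntermediateField L (LaurentSeries L) :=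
  IntermediateField.adjoin L ({D.U D.q₀, JL L N} : Set (LaurentSeries L))

theorem caDataL_U_ne (q : D.Q) (hq : q ≠ D.q₀) : D.U q ≠ D.U D.q₀ := by
  intro h
  have h1 := D.U_order_pos q hq
  rw [h, D.U_order₀] at h1
  have h2 := D.D_pos
  have h3 : (0 : ℤ) < (N : ℤ) := by exact_mod_cast Nat.pos_of_ne_zero (NeZero.ne N)
  have : (0 : ℤ) < (D.D : ℤ) * (N : ℤ) := by positivity
  omega

variable [IsAlgClosed L]

/-- **Lagrange**: `j(t^{Nd}) ∈ L(u, J)` for `d ∣ N`. -/
theorem qExpand_jd_mem_coreField {d : ℕ} [NeZero d] (hd : d ∣ N) :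
    qExpand L N (qExpand L d (jqModC L)) ∈ coreField D := by
  rw [← D.X_q₀ d hd]
  exact Fermat.Agent.S28.H92.stmt_lagrange L D.Q D.q₀ (JL L N) D.U (D.X d) (caDataL_U_ne D)
    (D.sym d hd)

/-- `q ↦ t^N` maps `F_N L` into the core field. -/
theorem map_fullC_le_coreField :
    (modularFunctionFieldFullC L N).map (qExpandAlgHomC L N) ≤ coreField D := by
  rw [modularFunctionFieldFullC, IntermediateField.adjoin_map, IntermediateField.adjoin_le_iff]
  rintro x ⟨y, ⟨d, hd0, hd, rfl⟩, rfl⟩
  have := hd0
  exact qExpand_jd_mem_coreField D hd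

theorem qExpand_mem_coreField {x : LaurentSeries L} (hx : x ∈ modularFunctionFieldFullC L N) :
    qExpand L N x ∈ coreField D :=
  map_fullC_le_coreField D ⟨x, hx, rfl⟩

end Forward

section Lifts

variable {C : Type} [Field C] (O : ValuationSubring C)

/-- A lift to `O((t))` of a series with coefficients in `O`. -/
def liftCI {f : LaurentSeries C} (hf : CoeffsIn O.toSubring f) : LaurentSeries ↥O :=
  (exists_iotaV_eq O hf).choose

theorem iotaV_liftCI {f : LaurentSeries C} (hf : CoeffsIn O.toSubring f) :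
    iotaV O (liftCI O hf) = f := (exists_iotaV_eq O hf).choose_spec

theorem liftCI_coeff {f : LaurentSeries C} (hf : CoeffsIn O.toSubring f) (n : ℤ) :
    ((liftCI O hf).coeff n : C) = f.coeff n := by
  conv_rhs => rw [← iotaV_liftCI O hf]
  rfl

theorem eq_of_iotaV_eq {g g' : LaurentSeries ↥O} (h : iotaV O g = iotaV O g') : g = g' :=
  iotaV_injective O h

end Lifts

section Backward

variable {L : Type} [Field L] (A : ValuationSubring L) {N : ℕ} [NeZero N]
  (hN : ((N : L))⁻¹ ∈ A) (D : CADataL L N)

include hN in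
theorem caDataL_X_coeffsIn : ∀ q, CoeffsIn A.toSubring (D.X N q) :=
  fun q n => coeffRingL_le A N hN (D.X_coeff N q n dvd_rfl)

/-- The reductions of the conjugates of `j(Nz)`. -/
def Xred (q : D.Q) : LaurentSeries (kV A) :=
  redV A (liftCI A (caDataL_X_coeffsIn A hN D q))

theorem Xred_q₀ :
    Xred A hN D D.q₀ = qExpand (kV A) N (qExpand (kV A) N (jqModC (kV A))) := by
  have h1 : liftCI A (caDataL_X_coeffsIn A hN D D.q₀)
      = qExpand ↥A N (qExpand ↥A N (jqModC ↥A)) := by
    apply iotaV_injective A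
    rw [iotaV_liftCI, iotaV_qExpand, iotaV_qExpand_jqModC, D.X_q₀ N dvd_rfl]
  rw [Xred, h1, redV_qExpand, redV_qExpand_jqModC]

theorem Xred_q₀_coeff : (Xred A hN D D.q₀).coeff (-(N : ℤ) ^ 2) = 1 := by
  rw [Xred_q₀ A hN D]
  have e : (-(N : ℤ) ^ 2) = (N : ℤ) * ((N : ℤ) * (-1)) := by ring
  rw [e, qExpand_coeff_mul, qExpand_coeff_mul, coeff_jqModC_neg_one]

theorem Xred_coeff (q : D.Q) (hq : q ≠ D.q₀) : (Xred A hN D q).coeff (-(N : ℤ) ^ 2) = 0 := by
  rw [Xred, redV_coeff]
  have h0 : (liftCI A (caDataL_X_coeffsIn A hN D q)).coeff (-(N : ℤ) ^ 2) = 0 := by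
    apply Subtype.ext
    rw [liftCI_coeff, D.X_top q hq]
    rfl
  rw [h0, map_zero]

theorem Xred_ne (q : D.Q) (hq : q ≠ D.q₀) : Xred A hN D q ≠ Xred A hN D D.q₀ := by
  intro h
  have h1 := Xred_coeff A hN D q hq
  rw [h, Xred_q₀_coeff] at h1
  exact one_ne_zero h1

/-- The symmetric-function property over the residue field. -/
theorem sym_red (c s : kV A) :
    (∏ q, (HahnSeries.C c - Ured (coreHyp_of_caDataL A hN D) q - HahnSeries.C s * Xred A hN D q)) ∈
      Algebra.adjoin (kV A) ({Jred (coreHyp_of_caDataL A hN D)} : Set (LaurentSeries (kV A))) := by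
  obtain ⟨a, rfl⟩ := IsLocalRing.residue_surjective c
  obtain ⟨b, rfl⟩ := IsLocalRing.residue_surjective s
  set h := coreHyp_of_caDataL A hN D with hh
  have e : (∏ q, (HahnSeries.C (IsLocalRing.residue ↥A a) - Ured h q
        - HahnSeries.C (IsLocalRing.residue ↥A b) * Xred A hN D q))
      = redV A (∏ q, (HahnSeries.C a - liftUL A (h.U_unitLead q)
          - HahnSeries.C b * liftCI A (caDataL_X_coeffsIn A hN D q))) := by
    rw [map_prod]
    refine Finset.prod_congr rfl fun q _ => ?_
    rw [map_sub, map_sub, map_mul, redV_C, redV_C]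
    rfl
  rw [e]
  apply redV_mem_adjoin_Jred h
  rw [map_prod]
  have e2 : (∏ q, iotaV A (HahnSeries.C a - liftUL A (h.U_unitLead q)
        - HahnSeries.C b * liftCI A (caDataL_X_coeffsIn A hN D q)))
      = ∏ q, (HahnSeries.C (a : L) - D.U q - HahnSeries.C (b : L) * D.X N q) := by
    refine Finset.prod_congr rfl fun q _ => ?_
    rw [map_sub, map_sub, map_mul, iotaV_C, iotaV_C, iotaV_liftUL, iotaV_liftCI]
  rw [e2]
  exact D.sym N dvd_rfl (a : L) (b : L)

theorem Jred_eq : Jred (coreHyp_of_caDataL A hN D) = qExpand (kV A) N (jqModC (kV A)) := by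
  have h1 : liftUL A (coreHyp_of_caDataL A hN D).J_unitLead = qExpand ↥A N (jqModC ↥A) := by
    apply iotaV_injective A
    rw [iotaV_liftUL, iotaV_qExpand_jqModC]
    rfl
  rw [Jred, h1, redV_qExpand_jqModC]

variable [Infinite (kV A)]

/-- **Lagrange with exchanged roles, over the residue field**: `u~ ∈ k(j~(t^{N²}), J~)`. -/
theorem Ured_mem :
    Ured (coreHyp_of_caDataL A hN D) D.q₀ ∈
      IntermediateField.adjoin (kV A)
        ({Xred A hN D D.q₀, Jred (coreHyp_of_caDataL A hN D)} : Set (LaurentSeries (kV A))) := by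
  refine lagrange_swap (F := kV A) (L := LaurentSeries (kV A)) D.q₀
    (Algebra.adjoin (kV A) ({Jred (coreHyp_of_caDataL A hN D)} : Set (LaurentSeries (kV A))))
    _ ?_ (Ured (coreHyp_of_caDataL A hN D)) (Xred A hN D) ?_ (Xred_ne A hN D) ?_
  · intro a ha
    have hle : Algebra.adjoin (kV A) ({Jred (coreHyp_of_caDataL A hN D)} :
        Set (LaurentSeries (kV A)))
        ≤ (IntermediateField.adjoin (kV A) ({Xred A hN D D.q₀,
            Jred (coreHyp_of_caDataL A hN D)} : Set (LaurentSeries (kV A)))).toSubalgebra := by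
      refine Algebra.adjoin_le ?_
      intro x hx
      rw [Set.mem_singleton_iff] at hx
      subst hx
      exact IntermediateField.subset_adjoin (kV A) _ (by simp)
    exact hle ha
  · exact IntermediateField.subset_adjoin (kV A) _ (by simp)
  · intro c s
    have := sym_red A hN D c s
    simp only [Fermat.Agent.S28.H92.hahnC_eq_algebraMap] at this
    exact this

/-- `k(u~, J~) ⊂ (q ↦ t^N)(F_{N,k})`. -/
theorem coreRed_le_map_fullC :
    IntermediateField.adjoin (kV A)
        ({Ured (coreHyp_of_caDataL A hN D) D.q₀, Jred (coreHyp_of_caDataL A hN D)} :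
          Set (LaurentSeries (kV A)))
      ≤ (modularFunctionFieldFullC (kV A) N).map (qExpandAlgHomC (kV A) N) := by
  have hJ : Jred (coreHyp_of_caDataL A hN D) ∈
      (modularFunctionFieldFullC (kV A) N).map (qExpandAlgHomC (kV A) N) := by
    rw [Jred_eq A hN D]
    exact ⟨jqModC (kV A), jqModC_mem_full (kV A) N, rfl⟩
  have hX : Xred A hN D D.q₀ ∈
      (modularFunctionFieldFullC (kV A) N).map (qExpandAlgHomC (kV A) N) := by
    rw [Xred_q₀ A hN D]
    exact ⟨qExpand (kV A) N (jqModC (kV A)), jqModCd_mem_full (kV A) N dvd_rfl, rfl⟩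
  have hle : IntermediateField.adjoin (kV A)
      ({Xred A hN D D.q₀, Jred (coreHyp_of_caDataL A hN D)} : Set (LaurentSeries (kV A)))
      ≤ (modularFunctionFieldFullC (kV A) N).map (qExpandAlgHomC (kV A) N) := by
    rw [IntermediateField.adjoin_le_iff]
    rintro x (rfl | hx)
    · exact hX
    · rw [Set.mem_singleton_iff] at hx
      subst hx
      exact hJ
  rw [IntermediateField.adjoin_le_iff]
  rintro x (rfl | hx)
  · exact hle (Ured_mem A hN D)
  · rw [Set.mem_singleton_iff] at hx
    subst hx
    exact hJ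

end Backward

section Main

variable {L : Type} [Field L] [IsAlgClosed L] (A : ValuationSubring L) [Infinite (kV A)]
  {N : ℕ} [NeZero N] (hN : ((N : L))⁻¹ ∈ A) (D : CADataL L N)

include hN D in
/-- The reduction of a Gauss-integral element of `F_N L` lies in `F_{N,k}`. -/
theorem gaussRedV_mem_fullC {x : LaurentSeries L} (hx : x ∈ modularFunctionFieldFullC L N)
    (hV : x ∈ gaussRingV A) :
    gaussRedV A ⟨x, hV⟩ ∈ modularFunctionFieldFullC (kV A) N := by
  set h := coreHyp_of_caDataL A hN D with hh
  have hmem : qExpand L N x ∈ coreField D := qExpand_mem_coreField D hx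
  have hV' : qExpand L N x ∈ gaussRingV A := qExpand_mem_gaussRingV A N hV
  -- the reduction of `qExpand x` lies in the residue field of the core field
  have h1 : gaussRedV A ⟨qExpand L N x, hV'⟩ ∈
      redField A (IntermediateField.adjoin L ({D.U D.q₀, JL L N} : Set (LaurentSeries L)))
        (hasScale_core h) :=
    ⟨⟨⟨qExpand L N x, hmem⟩, hV'⟩, rfl⟩
  rw [redField_core h] at h1
  have h2 := coreRed_le_map_fullC A hN D h1
  obtain ⟨z, hz, hzx⟩ := h2
  have h3 : qExpand (kV A) N z = qExpand (kV A) N (gaussRedV A ⟨x, hV⟩) := by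
    rw [← gaussRedV_qExpand A N ⟨x, hV⟩ hV']
    exact hzx
  rw [← qExpand_injective N h3]
  exact hz

include hN D in
/-- **GA, main theorem (abstract form)**. -/
theorem redField_fullC_eq :
    redField A (modularFunctionFieldFullC L N) (hasScale_fullC A N)
      = modularFunctionFieldFullC (kV A) N := by
  apply le_antisymm
  · rintro y ⟨x, rfl⟩
    rw [gaussResF_apply]
    exact gaussRedV_mem_fullC A hN D (x : ↥(modularFunctionFieldFullC L N)).2 x.2
  · exact fullC_le_redField A N

end Main

end Fermat.Agent.RED.H73
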