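import Fermat.Agent.RED.H73_GAConj
import Fermat.Agent.S28.H73_Prim

/-!
# G-RED package GA (helper73): reduction of the conjugates modulo the maximal ideal

From the S28 core hypotheses `CoreHyp O q₀ J U nJ D` over `(C, O)` we construct the reduced series
`Jred, Ured q ∈ k((t))` (`k` the residue field of `O`) and show that they satisfy `ConjHyp` over
`k`.  Hence (by `H73_GAConj`) `χ_{u~}` is the minimal polynomial of `u~` over `k[J~]`:
`[k(J~, u~) : k(J~)] = card Q`.
-/

set_option autoImplicit false

open Polynomial ModularCurve Fermat.Agent.S28 Fermat.Agent.S28.H73 Fermat.Agent.S28.H90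

noncomputable section

namespace Fermat.Agent.RED.H73

variable {C : Type} [Field C] (O : ValuationSubring C)

/-- A lift to `O((t))` of a unit-lead series. -/
def liftUL {f : LaurentSeries C} (hf : UnitLead O.toSubring f) : LaurentSeries ↥O :=
  (exists_lift_of_unitLead O hf).choose

theorem iotaV_liftUL {f : LaurentSeries C} (hf : UnitLead O.toSubring f) :
    iotaV O (liftUL O hf) = f := (exists_lift_of_unitLead O hf).choose_spec.1

theorem redV_liftUL_ne_zero {f : LaurentSeries C} (hf : UnitLead O.toSubring f) :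
    redV O (liftUL O hf) ≠ 0 := (exists_lift_of_unitLead O hf).choose_spec.2.1

theorem order_redV_liftUL {f : LaurentSeries C} (hf : UnitLead O.toSubring f) :
    (redV O (liftUL O hf)).order = f.order := (exists_lift_of_unitLead O hf).choose_spec.2.2

variable {O} {Q : Type} [Fintype Q] {q₀ : Q} {J : LaurentSeries C} {U : Q → LaurentSeries C}
  {nJ D : ℕ}

/-- The reduction of `J`. -/
def Jred (h : CoreHyp O q₀ J U nJ D) : LaurentSeries (kV O) :=
  redV O (liftUL O h.J_unitLead)

/-- The reductions of the conjugates. -/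
def Ured (h : CoreHyp O q₀ J U nJ D) (q : Q) : LaurentSeries (kV O) :=
  redV O (liftUL O (h.U_unitLead q))

theorem coreHyp_J_order_neg (h : CoreHyp O q₀ J U nJ D) : J.order < 0 := by
  rw [h.J_order]
  have := h.nJ_pos
  omega

/-- Polynomials in `J` with coefficients in `O((t))` reduce to polynomials in `J~`. -/
theorem redV_mem_adjoin_Jred (h : CoreHyp O q₀ J U nJ D) (x₀ : LaurentSeries ↥O)
    (hx : iotaV O x₀ ∈ Algebra.adjoin C ({J} : Set (LaurentSeries C))) :
    redV O x₀ ∈ Algebra.adjoin (kV O) ({Jred h} : Set (LaurentSeries (kV O))) := by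
  rw [Algebra.adjoin_singleton_eq_range_aeval] at hx
  obtain ⟨p, hp⟩ := hx
  have hp' : aeval J p = iotaV O x₀ := hp
  have hco : ∀ n, p.coeff n ∈ O :=
    coeff_mem_of_coeffsIn_aeval O h.J_unitLead (coreHyp_J_order_neg h)
      (by rw [hp']; exact coeffsIn_iotaV O x₀)
  have hl : p ∈ Polynomial.lifts O.subtype := by
    rw [Polynomial.lifts_iff_coeff_lifts]
    intro n
    exact ⟨⟨_, hco n⟩, rfl⟩
  obtain ⟨p₀, rfl⟩ := hl
  have e : x₀ = p₀.eval₂ HahnSeries.C (liftUL O h.J_unitLead) := by
    apply iotaV_injective O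
    rw [iotaV_eval₂, iotaV_liftUL, ← hp']
    rfl
  rw [e, redV_eval₂, Algebra.adjoin_singleton_eq_range_aeval]
  exact ⟨p₀.map (resV O), rfl⟩

theorem redV_C (a : ↥O) : redV O (HahnSeries.C a) = HahnSeries.C (resV O a) :=
  coeffMap_single (resV O) 0 a

theorem iotaV_C (a : ↥O) : iotaV O (HahnSeries.C a) = HahnSeries.C (a : C) :=
  coeffMap_single O.subtype 0 a

/-- **The reduced conjugates satisfy `ConjHyp` over the residue field.** -/
theorem conjHyp_red (h : CoreHyp O q₀ J U nJ D) : ConjHyp q₀ (Jred h) (Ured h) where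
  J_order := by
    rw [Jred, order_redV_liftUL]
    exact coreHyp_J_order_neg h
  U_order₀ := by
    rw [Ured, order_redV_liftUL]
    exact (ConjHyp.of_coreHyp h).U_order₀
  U_ne := fun q => redV_liftUL_ne_zero O (h.U_unitLead q)
  U_order_pos := fun q hq => by
    rw [Ured, order_redV_liftUL]
    exact h.U_order_pos q hq
  sym := by
    intro c
    obtain ⟨a, rfl⟩ := IsLocalRing.residue_surjective c
    have e : (∏ q, (HahnSeries.C (IsLocalRing.residue ↥O a) - Ured h q))
        = redV O (∏ q, (HahnSeries.C a - liftUL O (h.U_unitLead q))) := by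
      rw [map_prod]
      refine Finset.prod_congr rfl fun q _ => ?_
      rw [map_sub, redV_C]
      rfl
    rw [e]
    apply redV_mem_adjoin_Jred h
    rw [map_prod]
    have e2 : (∏ q, iotaV O (HahnSeries.C a - liftUL O (h.U_unitLead q)))
        = ∏ q, (HahnSeries.C (a : C) - U q) := by
      refine Finset.prod_congr rfl fun q _ => ?_
      rw [map_sub, iotaV_C, iotaV_liftUL]
    rw [e2]
    exact h.sym (a : C)

/-- **Degree of the residue extension**: no nonzero polynomial of degree `< card Q` over `k[J~]`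
kills `u~`. -/
theorem aeval_Ured_ne_zero [Infinite (kV O)] (h : CoreHyp O q₀ J U nJ D)
    (a : (↥(Algebra.adjoin (kV O) ({Jred h} : Set (LaurentSeries (kV O)))))[X]) (ha : a ≠ 0)
    (hdeg : a.natDegree < Fintype.card Q) : aeval (Ured h q₀) a ≠ 0 :=
  (conjHyp_red h).aeval_ne_zero_of_natDegree_lt a ha hdeg

theorem natDegree_minpoly_Ured [Infinite (kV O)] (h : CoreHyp O q₀ J U nJ D) :
    (minpoly ↥(Algebra.adjoin (kV O) ({Jred h} : Set (LaurentSeries (kV O)))) (Ured h q₀)).natDegree
      = Fintype.card Q :=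
  (conjHyp_red h).natDegree_minpoly

end Fermat.Agent.RED.H73
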