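import Fermat.Agent.S28.H73_Prim

/-!
# G-RED package GA, part 1 (helper73): scaling to Gauss units

`C` a field, `O : ValuationSubring C` ARBITRARY (not discrete), series ring `LaurentSeries C`.

* `GaussUnit O x` : `x = h / g` with `g, h` primitive (coefficients in `O`, nonzero reduction).
* `IntSpan C` : the `C`-span of the Laurent series with integer coefficients.
* `exists_primSeries_scale` : every nonzero `x ∈ IntSpan C` has a scalar multiple `c * x` which is
  primitive (the maximum of the valuations of the coefficients is attained: the coefficient vectors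
  span a finitely generated `ℤ`-module).
* `HasScale O F` : every nonzero element of the intermediate field `F` has a scalar multiple which
  is a Gauss unit ("the value group of the Gauss valuation on `F` is the value group of `O`").
* `hasScale_adjoin` : `HasScale O (IntermediateField.adjoin C S)` for `S ⊆ IntSpan C`.
-/

set_option autoImplicit false

open ModularCurve Fermat.Agent.S28 Fermat.Agent.S28.H73

noncomputable section

namespace Fermat.Agent.RED.H73

variable {C : Type} [Field C]

section Units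

variable (O : ValuationSubring C)

/-- `x` is a unit of the Gauss ring: a quotient of two primitive series. -/
def GaussUnit (x : LaurentSeries C) : Prop :=
  ∃ g h : LaurentSeries ↥O, redV O g ≠ 0 ∧ redV O h ≠ 0 ∧ iotaV O g * x = iotaV O h

variable {O}

theorem GaussUnit.mem {x : LaurentSeries C} (hx : GaussUnit O x) : x ∈ gaussRingV O := by
  obtain ⟨g, h, hg, -, e⟩ := hx
  exact ⟨g, h, hg, e⟩

theorem GaussUnit.ne_zero {x : LaurentSeries C} (hx : GaussUnit O x) : x ≠ 0 := by
  obtain ⟨g, h, hg, hh, e⟩ := hx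
  rintro rfl
  rw [mul_zero] at e
  exact iotaV_ne_zero_of_redV_ne_zero O hh e.symm

theorem GaussUnit.inv {x : LaurentSeries C} (hx : GaussUnit O x) : GaussUnit O x⁻¹ := by
  have hx0 := hx.ne_zero
  obtain ⟨g, h, hg, hh, e⟩ := hx
  exact ⟨h, g, hh, hg, by rw [← e, mul_assoc, mul_inv_cancel₀ hx0, mul_one]⟩

theorem GaussUnit.mul {x y : LaurentSeries C} (hx : GaussUnit O x) (hy : GaussUnit O y) :
    GaussUnit O (x * y) := by
  obtain ⟨g, h, hg, hh, e⟩ := hx
  obtain ⟨g', h', hg', hh', e'⟩ := hy
  refine ⟨g * g', h * h', ?_, ?_, ?_⟩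
  · rw [map_mul]; exact mul_ne_zero hg hg'
  · rw [map_mul]; exact mul_ne_zero hh hh'
  · rw [map_mul, map_mul, ← e, ← e']; ring

variable (O)

theorem gaussUnit_one : GaussUnit O (1 : LaurentSeries C) :=
  ⟨1, 1, by rw [map_one]; exact one_ne_zero, by rw [map_one]; exact one_ne_zero, by simp⟩

theorem gaussUnit_of_primSeries {x : LaurentSeries C} (hx : PrimSeries O.toSubring x) :
    GaussUnit O x := by
  obtain ⟨h, hh, rfl⟩ := (primSeries_iff O x).1 hx
  exact ⟨1, h, by rw [map_one]; exact one_ne_zero, hh, by simp⟩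

theorem gaussRedV_ne_zero_of_gaussUnit {x : LaurentSeries C} (hx : GaussUnit O x)
    (hm : x ∈ gaussRingV O) : gaussRedV O ⟨x, hm⟩ ≠ 0 := by
  obtain ⟨g, h, hg, hh, e⟩ := hx
  have := gaussRedV_eq O ⟨x, hm⟩ hg e
  rw [this]
  exact div_ne_zero hh hg

theorem gaussUnit_of_gaussRedV_ne_zero {x : LaurentSeries C} (hx : x ∈ gaussRingV O)
    (hr : gaussRedV O ⟨x, hx⟩ ≠ 0) : GaussUnit O x := by
  have hx' := hx
  obtain ⟨g, h, hg, e⟩ := hx'
  refine ⟨g, h, hg, ?_, e⟩
  intro h0
  apply hr
  have := gaussRedV_eq O ⟨x, hx⟩ hg e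
  rw [this, h0, zero_div]

end Units

/-! ### Series with integer coefficients and their `C`-span -/

section IntSpan

/-- The Laurent series over `C` with integer coefficients. -/
def intSeries (C : Type) [Field C] : Subring (LaurentSeries C) :=
  (coeffMap (Int.castRingHom C)).range

/-- The `C`-span of the integer series (a subalgebra). -/
def IntSpan (C : Type) [Field C] : Subalgebra C (LaurentSeries C) :=
  Algebra.adjoin C (intSeries C : Set (LaurentSeries C))

theorem intSeries_le_intSpan {x : LaurentSeries C} (hx : x ∈ intSeries C) : x ∈ IntSpan C :=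
  Algebra.subset_adjoin hx

theorem coeffMap_int_mem_intSpan (m : LaurentSeries ℤ) :
    coeffMap (Int.castRingHom C) m ∈ IntSpan C :=
  intSeries_le_intSpan ⟨m, rfl⟩

/-- Explicit form of the elements of `IntSpan C`. -/
theorem exists_repr_of_mem_intSpan {x : LaurentSeries C} (hx : x ∈ IntSpan C) :
    ∃ (ι : Type) (_ : Fintype ι) (c : ι → C) (m : ι → LaurentSeries ℤ),
      x = ∑ i, HahnSeries.C (c i) * coeffMap (Int.castRingHom C) (m i) := by
  induction hx using Algebra.adjoin_induction with
  | mem x hx =>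
    obtain ⟨m, rfl⟩ := hx
    exact ⟨Unit, inferInstance, fun _ => 1, fun _ => m, by simp⟩
  | algebraMap r =>
    refine ⟨Unit, inferInstance, fun _ => r, fun _ => 1, ?_⟩
    rw [algebraMap_laurentSeries_eq_single]
    simp
  | add x y _ _ hx hy =>
    obtain ⟨ι, _, c, m, rfl⟩ := hx
    obtain ⟨ι', _, c', m', rfl⟩ := hy
    refine ⟨ι ⊕ ι', inferInstance, Sum.elim c c', Sum.elim m m', ?_⟩
    rw [Fintype.sum_sum_type]
    rfl
  | mul x y _ _ hx hy =>
    obtain ⟨ι, _, c, m, rfl⟩ := hx
    obtain ⟨ι', _, c', m', rfl⟩ := hy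
    refine ⟨ι × ι', inferInstance, fun p => c p.1 * c' p.2, fun p => m p.1 * m' p.2, ?_⟩
    rw [Fintype.sum_prod_type, Finset.sum_mul_sum]
    refine Finset.sum_congr rfl fun i _ => Finset.sum_congr rfl fun j _ => ?_
    rw [map_mul, map_mul]
    ring

theorem coeff_repr {ι : Type} [Fintype ι] (c : ι → C) (m : ι → LaurentSeries ℤ) (k : ℤ) :
    (∑ i, HahnSeries.C (c i) * coeffMap (Int.castRingHom C) (m i)).coeff k
      = ∑ i, c i * (((m i).coeff k : ℤ) : C) := by
  rw [HahnSeries.coeff_sum]
  refine Finset.sum_congr rfl fun i _ => ?_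
  rw [HahnSeries.C_mul_eq_smul, HahnSeries.coeff_smul, smul_eq_mul, coeffMap_coeff]
  rfl

variable (O : ValuationSubring C)

/-- **Scaling.** Every nonzero element of `IntSpan C` has a coefficient of maximal valuation:
after division by it the series is primitive. -/
theorem exists_primSeries_scale {x : LaurentSeries C} (hx : x ∈ IntSpan C) (hx0 : x ≠ 0) :
    ∃ c : C, c ≠ 0 ∧ PrimSeries O.toSubring (HahnSeries.C c * x) := by
  classical
  obtain ⟨ι, _, c, m, rfl⟩ := exists_repr_of_mem_intSpan hx
  -- the coefficient vectors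
  let w : ℤ → (ι → ℤ) := fun k i => (m i).coeff k
  let φ : (ι → ℤ) →ₗ[ℤ] C :=
    { toFun := fun v => ∑ i, c i * ((v i : ℤ) : C)
      map_add' := fun u v => by
        simp only [Pi.add_apply, Int.cast_add, mul_add, Finset.sum_add_distrib]
      map_smul' := fun a v => by
        simp only [Pi.smul_apply, smul_eq_mul, Int.cast_mul, RingHom.id_apply, zsmul_eq_mul,
          Finset.mul_sum]
        refine Finset.sum_congr rfl fun i _ => ?_
        ring }
  have hφ : ∀ k, (∑ i, HahnSeries.C (c i) * coeffMap (Int.castRingHom C) (m i)).coeff k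
      = φ (w k) := fun k => coeff_repr c m k
  have hfg : (Submodule.span ℤ (Set.range w)).FG := IsNoetherian.noetherian _
  obtain ⟨s, hs, hspan⟩ := (Submodule.fg_span_iff_fg_span_finset_subset (Set.range w)).1 hfg
  have hsne : s.Nonempty := by
    rw [Finset.nonempty_iff_ne_empty]
    rintro rfl
    apply hx0
    ext k
    rw [hφ k]
    have hk : w k ∈ Submodule.span ℤ (Set.range w) := Submodule.subset_span ⟨k, rfl⟩
    rw [hspan, Finset.coe_empty, Submodule.span_empty, Submodule.mem_bot] at hk
    rw [hk, map_zero]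
    rfl
  obtain ⟨v₀, hv₀, hmax⟩ := s.exists_max_image (fun v => O.valuation (φ v)) hsne
  obtain ⟨k₀, hk₀⟩ := hs hv₀
  -- the subgroup of elements of valuation at most that of `φ v₀`
  let B : AddSubgroup C :=
    { carrier := {y | O.valuation y ≤ O.valuation (φ v₀)}
      zero_mem' := by simp
      add_mem' := fun {a b} ha hb => by
        rw [Set.mem_ofPred_eq] at ha hb ⊢
        exact (Valuation.map_add _ a b).trans (max_le ha hb)
      neg_mem' := fun {a} ha => by
        rw [Set.mem_ofPred_eq] at ha ⊢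
        rw [Valuation.map_neg]; exact ha }
  have hall : ∀ k, O.valuation (φ (w k)) ≤ O.valuation (φ v₀) := by
    intro k
    have hk : w k ∈ Submodule.span ℤ (s : Set (ι → ℤ)) := by
      rw [← hspan]; exact Submodule.subset_span ⟨k, rfl⟩
    have hle : Submodule.span ℤ (s : Set (ι → ℤ)) ≤
        (AddSubgroup.toIntSubmodule B).comap φ := by
      rw [Submodule.span_le]
      intro v hv
      exact hmax v hv
    exact hle hk
  have hy0 : φ v₀ ≠ 0 := by
    intro h0
    apply hx0
    ext k
    rw [hφ k]
    have := hall k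
    rw [h0, map_zero, le_zero_iff, Valuation.zero_iff] at this
    rw [this]; rfl
  refine ⟨(φ v₀)⁻¹, inv_ne_zero hy0, ?_, k₀, ?_, ?_⟩
  · intro k
    rw [HahnSeries.C_mul_eq_smul, HahnSeries.coeff_smul, smul_eq_mul, hφ k]
    show (φ v₀)⁻¹ * φ (w k) ∈ O
    rw [← ValuationSubring.valuation_le_one_iff, map_mul, map_inv₀]
    have hpos : 0 < O.valuation (φ v₀) := by
      rw [pos_iff_ne_zero]; exact (Valuation.ne_zero_iff _).2 hy0
    rw [inv_mul_le_iff₀ hpos, mul_one]
    exact hall k
  · rw [HahnSeries.C_mul_eq_smul, HahnSeries.coeff_smul, smul_eq_mul, hφ k₀, hk₀,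
      inv_mul_cancel₀ hy0]
    exact one_ne_zero
  · rw [HahnSeries.C_mul_eq_smul, HahnSeries.coeff_smul, smul_eq_mul, hφ k₀, hk₀,
      inv_mul_cancel₀ hy0, inv_one]
    exact O.one_mem

end IntSpan

/-! ### The scaling property of a field of series -/

section Scale

variable (O : ValuationSubring C)

/-- Every nonzero element of `F` has a scalar multiple which is a Gauss unit. -/
def HasScale (F : IntermediateField C (LaurentSeries C)) : Prop :=
  ∀ x ∈ F, x ≠ 0 → ∃ c : C, c ≠ 0 ∧ GaussUnit O (HahnSeries.C c * x)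

theorem C_ne_zero' {c : C} (hc : c ≠ 0) : (HahnSeries.C c : LaurentSeries C) ≠ 0 := by
  intro h
  apply hc
  have := congrArg (fun f : LaurentSeries C => f.coeff 0) h
  simpa using this

theorem C_inv' (c : C) : (HahnSeries.C c⁻¹ : LaurentSeries C) = (HahnSeries.C c)⁻¹ :=
  map_inv₀ (HahnSeries.C : C →+* LaurentSeries C) c

/-- Quotients of elements of `IntSpan C` have the scaling property. -/
theorem exists_gaussUnit_scale_div {a b : LaurentSeries C} (ha : a ∈ IntSpan C)
    (hb : b ∈ IntSpan C) (ha0 : a ≠ 0) (hb0 : b ≠ 0) :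
    ∃ c : C, c ≠ 0 ∧ GaussUnit O (HahnSeries.C c * (a / b)) := by
  obtain ⟨ca, hca, hpa⟩ := exists_primSeries_scale O ha ha0
  obtain ⟨cb, hcb, hpb⟩ := exists_primSeries_scale O hb hb0
  refine ⟨ca * cb⁻¹, mul_ne_zero hca (inv_ne_zero hcb), ?_⟩
  have h := (gaussUnit_of_primSeries O hpa).mul ((gaussUnit_of_primSeries O hpb).inv)
  have e : HahnSeries.C (ca * cb⁻¹) * (a / b)
      = HahnSeries.C ca * a * (HahnSeries.C cb * b)⁻¹ := by
    rw [map_mul, C_inv', mul_inv, div_eq_mul_inv]
    ring
  rw [e]
  exact h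

/-- **GA, scaling**: a field generated over `C` by elements of `IntSpan C` has the scaling
property with respect to every valuation subring of `C`. -/
theorem hasScale_adjoin {S : Set (LaurentSeries C)} (hS : S ⊆ (IntSpan C : Set (LaurentSeries C))) :
    HasScale O (IntermediateField.adjoin C S) := by
  intro x hx hx0
  obtain ⟨a, ha, b, hb, rfl⟩ := IntermediateField.mem_adjoin_iff_div.1 hx
  have hle : Algebra.adjoin C S ≤ IntSpan C := Algebra.adjoin_le hS
  have ha0 : a ≠ 0 := by rintro rfl; exact hx0 (by simp)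
  have hb0 : b ≠ 0 := by rintro rfl; exact hx0 (by simp)
  exact exists_gaussUnit_scale_div O (hle ha) (hle hb) ha0 hb0

theorem HasScale.mono {F F' : IntermediateField C (LaurentSeries C)} (h : HasScale O F')
    (hle : F ≤ F') : HasScale O F :=
  fun x hx hx0 => h x (hle hx) hx0

end Scale

end Fermat.Agent.RED.H73
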