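import Fermat.Agent.RED.H79_ConsChart
import Fermat.Agent.RED.H34_IGDefs
import Fermat.Agent.S24.Asm.Count
import Fermat.Agent.S24.Closure.Final
import Fermat.Agent.RED.H73_GAChart

/-!
# G-RED package IG-MODj (helper76): the branch values of the chart `x = j`

* `card_ptsOver` (dictionary, any function field): the maximal ideals of the integral closure of
  `K[x]` over `x = ρ` correspond to the places `v` with `ord_v (x - ρ) > 0`.
* `isBranchValue_iff` : `H34.IsBranchValue x ρ ↔ #{v | ord_v (x - ρ) > 0} < [F : K(x)]`.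
* `isBranchValue_jF` : a branch value of `j` on `F_N · ℚ̄` is `0` or `1728` (S24 counts).
-/

set_option autoImplicit false
set_option linter.style.haveILetI false
set_option synthInstance.maxHeartbeats 400000
set_option maxHeartbeats 1000000

noncomputable section

open AlgebraicCurve IsDedekindDomain IntermediateField
open scoped IntermediateField.algebraAdjoinAdjoin

namespace Fermat.Agent.RED.H76

open Fermat.Agent.RED.H34 Fermat.Agent.RED.H51 Fermat.Agent.RED.H79

section Dict

variable {K F : Type} [Field K] [Field F] [Algebra K F]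

theorem sub_algebraMap_ne_zero {x : F} (hx : Transcendental K x) (ρ : K) :
    x - algebraMap K F ρ ≠ 0 := by
  intro h
  apply hx
  rw [sub_eq_zero.mp h]
  exact isAlgebraic_algebraMap ρ

theorem isIntegral_sub_algebraMap (x : F) (ρ : K) :
    IsIntegral ↥(Algebra.adjoin K {x}) (x - algebraMap K F ρ) := by
  have h : x - algebraMap K F ρ ∈ Algebra.adjoin K {x} :=
    sub_mem (Algebra.self_mem_adjoin_singleton K x) (Subalgebra.algebraMap_mem _ ρ)
  exact isIntegral_algebraMap (R := ↥(Algebra.adjoin K {x})) (A := F)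
    (x := ⟨x - algebraMap K F ρ, h⟩)

/-- **Dictionary**: points of the chart over `x = ρ` and zeros of `x - ρ`. -/
theorem card_ptsOver (x : F) (hx : Transcendental K x) [FiniteDimensional K⟮x⟯ F]
    [Algebra.IsSeparable K⟮x⟯ F] (ρ : K) :
    Nat.card ↥(ptsOver x ρ)
      = Nat.card {v : Place K F // 0 < v.ord (x - algebraMap K F ρ)} := by
  haveI := isDedekind_Bx x hx
  haveI := isFractionRing_Bx (K := K) x
  have hne := sub_algebraMap_ne_zero hx ρ
  let b₀ : ↥(integralClosure ↥(Algebra.adjoin K {x}) F) :=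
    ⟨x - algebraMap K F ρ, isIntegral_sub_algebraMap x ρ⟩
  have hb₀ : b₀ ≠ 0 := fun h => hne (congrArg Subtype.val h)
  -- the map from points to places
  have hbot : ∀ P : ↥(ptsOver x ρ),
      (P : Ideal ↥(integralClosure ↥(Algebra.adjoin K {x}) F)) ≠ ⊥ := by
    intro P h
    have := P.2.2 b₀ rfl
    rw [h, Ideal.mem_bot] at this
    exact hb₀ this
  let toH : ↥(ptsOver x ρ) → HeightOneSpectrum ↥(integralClosure ↥(Algebra.adjoin K {x}) F) :=
    fun P => ⟨P.1, P.2.1.isPrime, hbot P⟩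
  have hpos : ∀ P : ↥(ptsOver x ρ), 0 < (ofH K (toH P)).ord (x - algebraMap K F ρ) := by
    intro P
    have h1 : OrdGe (ofH K (toH P)) 1
        (algebraMap ↥(integralClosure ↥(Algebra.adjoin K {x}) F) F b₀) :=
      (ordGe_one_algebraMap_iff (K := K) (F := F) (toH P) b₀).2 (P.2.2 b₀ rfl)
    exact h1.pos_of_ne hne
  refine Nat.card_congr (Equiv.ofBijective (fun P => ⟨ofH K (toH P), hpos P⟩) ⟨?_, ?_⟩)
  · intro P P' h
    have h1 : ofH K (toH P) = ofH K (toH P') := congrArg Subtype.val h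
    have h2 := ofH_injective (K := K) (F := F) h1
    exact Subtype.ext (congrArg HeightOneSpectrum.asIdeal h2)
  · rintro ⟨v, hv⟩
    have hxv : x ∈ v.toValuationSubring := by
      have h1 : x - algebraMap K F ρ ∈ v.toValuationSubring :=
        (ordGe_zero_iff_mem v _).1 (Or.inr hv.le)
      have h2 := add_mem h1 (v.algebraMap_mem' ρ)
      rwa [sub_add_cancel] at h2
    obtain ⟨w, hw⟩ := exists_eq_ofH_of_mem x hx v hxv
    have hmem : ∀ b : ↥(integralClosure ↥(Algebra.adjoin K {x}) F),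
        (b : F) = x - algebraMap K F ρ → b ∈ w.asIdeal := by
      intro b hb
      apply (ordGe_one_algebraMap_iff (K := K) (F := F) w b).1
      show OrdGe (ofH K w) 1 (b : F)
      rw [hb, ← hw]
      exact Or.inr hv
    refine ⟨⟨w.asIdeal, w.isMaximal, hmem⟩, ?_⟩
    apply Subtype.ext
    show ofH K _ = v
    rw [hw]

theorem isBranchValue_iff (x : F) (hx : Transcendental K x) [FiniteDimensional K⟮x⟯ F]
    [Algebra.IsSeparable K⟮x⟯ F] (ρ : K) :
    IsBranchValue x ρ ↔
      Nat.card {v : Place K F // 0 < v.ord (x - algebraMap K F ρ)} < Module.finrank K⟮x⟯ F := by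
  rw [IsBranchValue, ← card_ptsOver x hx ρ, Nat.card_coe_set_eq]

/-! ### The chart `1/x` -/

theorem ord_eq_zero_of_pos_sub (v : Place K F) {y : F} {c : K} (hc : c ≠ 0)
    (h : 0 < v.ord (y - algebraMap K F c)) : v.ord y = 0 := by
  have hc' : algebraMap K F c ≠ 0 := (map_ne_zero _).mpr hc
  have h2 : OrdGe v (v.ord (algebraMap K F c) + 1) (y - algebraMap K F c) := by
    refine Or.inr ?_
    rw [ord_algebraMap]
    omega
  have h1 : v.ord (algebraMap K F c + (y - algebraMap K F c)) = v.ord (algebraMap K F c) :=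
    (ord_add_eq v hc' h2).2
  rw [add_sub_cancel, ord_algebraMap] at h1
  exact h1

theorem pos_ord_inv_sub {v : Place K F} {x : F} {c : K} (hc : c ≠ 0)
    (h : 0 < v.ord (x⁻¹ - algebraMap K F c)) : 0 < v.ord (x - algebraMap K F c⁻¹) := by
  have hc' : algebraMap K F c ≠ 0 := (map_ne_zero _).mpr hc
  have hy0 : v.ord x⁻¹ = 0 := ord_eq_zero_of_pos_sub v hc h
  have hx0 : x ≠ 0 := by
    rintro rfl
    rw [inv_zero, zero_sub, ord_neg, ord_algebraMap] at h
    exact lt_irrefl _ h
  have hx : v.ord x = 0 := by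
    rw [Place.ord_inv] at hy0
    omega
  have hne : x⁻¹ - algebraMap K F c ≠ 0 := ne_zero_of_ord_ne_zero v h.ne'
  have e : x - algebraMap K F c⁻¹
      = -((x⁻¹ - algebraMap K F c) * (x * algebraMap K F c⁻¹)) := by
    rw [map_inv₀]
    field_simp
    ring
  have hci : algebraMap K F c⁻¹ ≠ 0 := (map_ne_zero _).mpr (inv_ne_zero hc)
  rw [e, ord_neg, v.ord_mul hne (mul_ne_zero hx0 hci), v.ord_mul hx0 hci, hx, ord_algebraMap]
  omega

theorem pos_ord_inv_sub_iff (v : Place K F) (x : F) {c : K} (hc : c ≠ 0) :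
    0 < v.ord (x⁻¹ - algebraMap K F c) ↔ 0 < v.ord (x - algebraMap K F c⁻¹) := by
  refine ⟨pos_ord_inv_sub hc, fun h => ?_⟩
  have := pos_ord_inv_sub (v := v) (x := x⁻¹) (c := c⁻¹) (inv_ne_zero hc) (by rwa [inv_inv])
  rwa [inv_inv] at this

theorem adjoin_simple_inv (x : F) : K⟮x⁻¹⟯ = K⟮x⟯ := by
  apply le_antisymm
  · rw [adjoin_simple_le_iff]
    exact inv_mem (mem_adjoin_simple_self K x)
  · rw [adjoin_simple_le_iff]
    have := inv_mem (mem_adjoin_simple_self K x⁻¹)
    rwa [inv_inv] at this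

theorem finrank_adjoin_simple_inv (x : F) :
    Module.finrank K⟮x⁻¹⟯ F = Module.finrank K⟮x⟯ F :=
  congrArg (fun E : IntermediateField K F => Module.finrank E F) (adjoin_simple_inv x)

theorem finiteDimensional_adjoin_simple_inv (x : F) [h : FiniteDimensional K⟮x⟯ F] :
    FiniteDimensional K⟮x⁻¹⟯ F := by
  have e := adjoin_simple_inv (K := K) x
  rw [← e] at h
  exact h

theorem isSeparable_adjoin_simple [CharZero K] (x : F) [FiniteDimensional K⟮x⟯ F] :
    Algebra.IsSeparable K⟮x⟯ F := by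
  haveI : CharZero K⟮x⟯ := charZero_of_injective_algebraMap (algebraMap K K⟮x⟯).injective
  haveI : Algebra.IsAlgebraic K⟮x⟯ F := Algebra.IsAlgebraic.of_finite _ _
  exact Algebra.IsAlgebraic.isSeparable_of_perfectField

theorem transcendental_inv {x : F} (hx : Transcendental K x) : Transcendental K x⁻¹ := by
  intro h
  apply hx
  have := h.inv
  rwa [inv_inv] at this

end Dict

/-! ### The chart `x = j` on `F_N · ℚ̄` -/

section Modular

open Fermat.Agent.S24 (Kbar FN)
open ModularCurve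

variable (N : ℕ) [NeZero N]

/-- The `j` of S24 and the `j` of package GA agree. -/
theorem jF_eq : Fermat.Agent.S24.jF N = Fermat.Agent.RED.H73.jF (L := Kbar) N := by
  apply Subtype.ext
  show Fermat.Agent.S24.jBar = jqModC Kbar
  rw [Fermat.Agent.S24.jBar, coeffEmb, ← jqModC_rat, coeffMap_jqModC]

theorem transcendental_jF : Transcendental Kbar (Fermat.Agent.RED.H73.jF (L := Kbar) N) := by
  rw [← jF_eq]
  exact Fermat.Agent.S24.asm_transcendental_jF (Fermat.Agent.S24.modClosure N)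

theorem finiteDimensional_jF :
    FiniteDimensional Kbar⟮Fermat.Agent.RED.H73.jF (L := Kbar) N⟯ (FN N) := by
  rw [← jF_eq]
  exact Fermat.Agent.S24.asm_finiteDimensional (Fermat.Agent.S24.modClosure N)

theorem finrank_jF :
    Module.finrank Kbar⟮Fermat.Agent.RED.H73.jF (L := Kbar) N⟯ (FN N) = dedekindPsi N := by
  rw [← jF_eq]
  exact Fermat.Agent.S24.asm_finrank (Fermat.Agent.S24.modClosure N)

theorem card_zeros_jF (a : Kbar) (h0 : a ≠ 0) (h1728 : a ≠ 1728) :
    Nat.card {v : Place Kbar (FN N) //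
      0 < v.ord (Fermat.Agent.RED.H73.jF (L := Kbar) N - algebraMap Kbar (FN N) a)}
      = dedekindPsi N := by
  rw [← jF_eq]
  exact Fermat.Agent.S24.asm_card_zeros_generic (Fermat.Agent.S24.modClosure N) a h0 h1728

/-- **IG-MODj, chart `j`**: the branch values of `j` are among `0`, `1728`. -/
theorem isBranchValue_jF {ρ : Kbar}
    (h : IsBranchValue (Fermat.Agent.RED.H73.jF (L := Kbar) N) ρ) : ρ = 0 ∨ ρ = 1728 := by
  haveI := finiteDimensional_jF N
  haveI := isSeparable_adjoin_simple (K := Kbar) (Fermat.Agent.RED.H73.jF (L := Kbar) N)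
  by_contra hne
  rw [not_or] at hne
  rw [isBranchValue_iff _ (transcendental_jF N), card_zeros_jF N ρ hne.1 hne.2, finrank_jF] at h
  exact lt_irrefl _ h

/-- **IG-MODj, chart `1/j`**: the branch values of `1/j` are among `0`, `1/1728`. -/
theorem isBranchValue_jF_inv {ρ : Kbar}
    (h : IsBranchValue (Fermat.Agent.RED.H73.jF (L := Kbar) N)⁻¹ ρ) :
    ρ = 0 ∨ ρ = (1728 : Kbar)⁻¹ := by
  haveI := finiteDimensional_jF N
  haveI := finiteDimensional_adjoin_simple_inv (K := Kbar) (Fermat.Agent.RED.H73.jF (L := Kbar) N)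
  haveI := isSeparable_adjoin_simple (K := Kbar) (Fermat.Agent.RED.H73.jF (L := Kbar) N)⁻¹
  by_contra hne
  rw [not_or] at hne
  have h1 : ρ⁻¹ ≠ 0 := inv_ne_zero hne.1
  have h2 : ρ⁻¹ ≠ 1728 := by
    intro h2
    apply hne.2
    rw [← h2, inv_inv]
  rw [isBranchValue_iff _ (transcendental_inv (transcendental_jF N)),
    finrank_adjoin_simple_inv, finrank_jF, ← card_zeros_jF N ρ⁻¹ h1 h2] at h
  refine lt_irrefl _ (lt_of_eq_of_lt ?_ h)
  exact Nat.card_congr (Equiv.subtypeEquivRight fun v => (pos_ord_inv_sub_iff v _ hne.1).symm)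

end Modular

/-! ### Distinctness modulo the maximal ideal (`ℓ ≥ 5`) -/

section Distinct

open Fermat.Agent.S24 (Kbar FN)
open ModularCurve Fermat.Agent.S28.H73 Fermat.Agent.RED.H73

theorem not_dvd_1728 {ℓ : ℕ} (hℓ : ℓ.Prime) (h5 : 5 ≤ ℓ) : ¬ ℓ ∣ 1728 := by
  intro h
  have h12 : ℓ ∣ 12 := hℓ.dvd_of_dvd_pow (show ℓ ∣ 12 ^ 3 by norm_num; exact h)
  have hle : ℓ ≤ 12 := Nat.le_of_dvd (by norm_num) h12
  interval_cases ℓ <;>
    first
    | exact absurd h12 (by decide)
    | exact absurd hℓ (by norm_num)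

variable {C : Type} [Field C] (O : ValuationSubring C)
variable {F : IntermediateField C (LaurentSeries C)} (h : HasScale O F)

/-- A constant which is a unit of `O` has nonzero residue. -/
theorem resO_ne_zero_of_inv_mem (ρ : ↥((redSetting O h).V.comap (algebraMap C ↥F)))
    (hinv : ((ρ : C))⁻¹ ∈ O) (hne : (ρ : C) ≠ 0) : (redSetting O h).resO ρ ≠ 0 := by
  have hmem : algebraMap C ↥F ((ρ : C))⁻¹ ∈ (redSetting O h).V :=
    (algebraMap_mem_gaussValSub_iff O h _).2 hinv
  let ρ' : ↥((redSetting O h).V.comap (algebraMap C ↥F)) := ⟨((ρ : C))⁻¹, hmem⟩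
  have h1 : ρ * ρ' = 1 := Subtype.ext (mul_inv_cancel₀ hne)
  intro h0
  have h2 := congrArg (redSetting O h).resO h1
  rw [map_mul, h0, zero_mul, map_one] at h2
  exact zero_ne_one h2

/-- Two constants of `O`, each either `0` or equal to a fixed unit `c` of `O`, with the same
residue, are equal. -/
theorem eq_of_resO_eq_of_mem_pair (c : C) (hc : c ≠ 0) (hcinv : c⁻¹ ∈ O)
    (ρ ρ' : ↥((redSetting O h).V.comap (algebraMap C ↥F)))
    (hρ : (ρ : C) = 0 ∨ (ρ : C) = c) (hρ' : (ρ' : C) = 0 ∨ (ρ' : C) = c)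
    (hres : (redSetting O h).resO ρ = (redSetting O h).resO ρ') : ρ = ρ' := by
  have hz : ∀ σ : ↥((redSetting O h).V.comap (algebraMap C ↥F)), (σ : C) = 0 →
      (redSetting O h).resO σ = 0 := by
    intro σ hσ
    have : σ = 0 := Subtype.ext hσ
    rw [this, map_zero]
  have hu : ∀ σ : ↥((redSetting O h).V.comap (algebraMap C ↥F)), (σ : C) = c →
      (redSetting O h).resO σ ≠ 0 := by
    intro σ hσ
    exact resO_ne_zero_of_inv_mem O h σ (by rw [hσ]; exact hcinv) (by rw [hσ]; exact hc)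
  rcases hρ with h1 | h1 <;> rcases hρ' with h2 | h2
  · exact Subtype.ext (h1.trans h2.symm)
  · exact absurd (hres ▸ hz ρ h1 : (redSetting O h).resO ρ' = 0) (hu ρ' h2)
  · exact absurd (hres.symm ▸ hz ρ' h2 : (redSetting O h).resO ρ = 0) (hu ρ h1)
  · exact Subtype.ext (h1.trans h2.symm)

variable (N : ℕ) [NeZero N]

/-- **IG-MODj (final form, chart `j`)**: the hypothesis "branch values are pairwise distinct
modulo the maximal ideal" of `H34.Stmt_chartNormal`, for `x = j` and `ℓ ≥ 5`. -/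
theorem branch_distinct_jF {ℓ : ℕ} (hℓ : ℓ.Prime) (h5 : 5 ≤ ℓ)
    (A : ValuationSubring Kbar) (hA : A.LiesOverPrime ℓ)
    (ρ ρ' : ↥((redSetting A (hasScale_laurentBaseChange A N)).V.comap
      (algebraMap Kbar ↥(laurentBaseChange Kbar (modularFunctionFieldFull N)))))
    (hρ : IsBranchValue (Fermat.Agent.RED.H73.jF (L := Kbar) N) (ρ : Kbar))
    (hρ' : IsBranchValue (Fermat.Agent.RED.H73.jF (L := Kbar) N) (ρ' : Kbar))
    (hres : (redSetting A (hasScale_laurentBaseChange A N)).resO ρ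
      = (redSetting A (hasScale_laurentBaseChange A N)).resO ρ') : ρ = ρ' := by
  have hinv : ((1728 : Kbar))⁻¹ ∈ A := by
    have := inv_natCast_mem_of_liesOver A 1728 hℓ (not_dvd_1728 hℓ h5) hA
    simpa using this
  exact eq_of_resO_eq_of_mem_pair A _ (1728 : Kbar) (by norm_num) hinv ρ ρ'
    (isBranchValue_jF N hρ) (isBranchValue_jF N hρ') hres

/-- **IG-MODj (final form, chart `1/j`)**. -/
theorem branch_distinct_jF_inv (A : ValuationSubring Kbar)
    (ρ ρ' : ↥((redSetting A (hasScale_laurentBaseChange A N)).V.comap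
      (algebraMap Kbar ↥(laurentBaseChange Kbar (modularFunctionFieldFull N)))))
    (hρ : IsBranchValue (Fermat.Agent.RED.H73.jF (L := Kbar) N)⁻¹ (ρ : Kbar))
    (hρ' : IsBranchValue (Fermat.Agent.RED.H73.jF (L := Kbar) N)⁻¹ (ρ' : Kbar))
    (hres : (redSetting A (hasScale_laurentBaseChange A N)).resO ρ
      = (redSetting A (hasScale_laurentBaseChange A N)).resO ρ') : ρ = ρ' := by
  have hmem : (((1728 : Kbar))⁻¹)⁻¹ ∈ A := by
    rw [inv_inv]
    have : ((1728 : ℕ) : Kbar) ∈ A := natCast_mem A 1728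
    exact_mod_cast this
  exact eq_of_resO_eq_of_mem_pair A _ ((1728 : Kbar))⁻¹ (by norm_num) hmem ρ ρ'
    (isBranchValue_jF_inv N hρ) (isBranchValue_jF_inv N hρ') hres

end Distinct

end Fermat.Agent.RED.H76
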