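import Fermat.Agent.RED.H76_RHSpan

/-!
# RH-R (helper76), part I e: existence of a minimal family, the dimension count, the genus

* `Fam.card_le` : an independent family has at most `deg (x)_∞` elements.
* `exists_minFam` : a minimal family exists.
* `MinFam.finrank_eq` : `l(m P) = ∑ (m + 1 - d_i)` for `m ≥ d_i`.
* `MinFam.genus` : `r = deg P` and `∑ d_i = g + r - 1` (Riemann's theorem with genus `g`).
-/

set_option autoImplicit false

noncomputable section

open AlgebraicCurve WithZero Polynomial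

namespace Fermat.Agent.RED.H76

open Fermat.Agent.RED.H42

variable {K F : Type*} [Field K] [Field F] [Algebra K F]
variable {P : Divisor K F} {x : F}

local notation "L" => riemannRochSpace

instance finite_degreeLT (n : ℕ) : Module.Finite K (degreeLT K n) :=
  Module.Finite.equiv (degreeLTEquiv K n).symm

/-- The linear map `(p_i) ↦ ∑ p_i(x) ω_i` on polynomials of bounded degrees. -/
def combLin (x : F) {r : ℕ} (ω : Fin r → F) (e : Fin r → ℕ) :
    ((i : Fin r) → degreeLT K (e i + 1)) →ₗ[K] F where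
  toFun p := comb x (fun i => (p i : K[X])) ω
  map_add' p p' := by
    rw [← comb_add]
    rfl
  map_smul' c p := by
    simp only [RingHom.id_apply]
    unfold comb
    rw [Finset.smul_sum]
    refine Finset.sum_congr rfl fun i _ => ?_
    simp only [Pi.smul_apply, Submodule.coe_smul, map_smul, smul_mul_assoc]

theorem combLin_apply (x : F) {r : ℕ} (ω : Fin r → F) (e : Fin r → ℕ)
    (p : (i : Fin r) → degreeLT K (e i + 1)) :
    combLin x ω e p = comb x (fun i => (p i : K[X])) ω := rfl

theorem natDegree_le_of_mem_degreeLT' {l : ℕ} (p : degreeLT K (l + 1)) :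
    (p : K[X]).natDegree ≤ l := natDegree_le_of_mem_degreeLT p.2

theorem mem_degreeLT_of_natDegree_le {l : ℕ} {p : K[X]} (hp : p.natDegree ≤ l) :
    p ∈ degreeLT K (l + 1) := by
  rw [mem_degreeLT]
  exact lt_of_le_of_lt degree_le_natDegree (by exact_mod_cast Nat.lt_succ_of_le hp)

theorem Fam.combLin_injective {r : ℕ} {ω : Fin r → F} {d : Fin r → ℕ} (h : Fam P x r ω d)
    (e : Fin r → ℕ) : Function.Injective (combLin (K := K) x ω e) := by
  rw [injective_iff_map_eq_zero]
  intro p hp
  have := h.indep _ hp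
  funext i
  exact Subtype.ext (congrFun this i)

theorem Fam.combLin_mem (hP : IsPoleDiv P x) {r : ℕ} {ω : Fin r → F} {d : Fin r → ℕ}
    (h : Fam P x r ω d) (e : Fin r → ℕ) (m : ℕ) (hm : ∀ i, e i + d i ≤ m)
    (p : (i : Fin r) → degreeLT K (e i + 1)) : combLin x ω e p ∈ L (m • P) := by
  rw [← inL_iff_mem_nat, combLin_apply]
  refine inL_comb hP h.mem _ _ ?_
  intro i _
  have h1 := natDegree_le_of_mem_degreeLT' (p i)
  have h2 := hm i
  omega

theorem finrank_pi_degreeLT {r : ℕ} (e : Fin r → ℕ) :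
    Module.finrank K ((i : Fin r) → degreeLT K (e i + 1)) = ∑ i, (e i + 1) := by
  rw [Module.finrank_pi_fintype]
  exact Finset.sum_congr rfl fun i _ => finrank_degreeLT _

/-- The lower bound `∑ (e_i + 1) ≤ l(m P)`. -/
theorem Fam.sum_le_finrank (H : Hyp K F) (hP : IsPoleDiv P x) {r : ℕ} {ω : Fin r → F}
    {d : Fin r → ℕ} (h : Fam P x r ω d) (e : Fin r → ℕ) (m : ℕ) (hm : ∀ i, e i + d i ≤ m) :
    ∑ i, (e i + 1) ≤ Module.finrank K (L (m • P)) := by
  have hfin := finite_L H (m • P)
  let Φ : ((i : Fin r) → degreeLT K (e i + 1)) →ₗ[K] L (m • P) :=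
    (combLin x ω e).codRestrict (L (m • P)) (h.combLin_mem hP e m hm)
  have hΦ : Function.Injective Φ := fun p p' hpp' =>
    h.combLin_injective e (congrArg Subtype.val hpp')
  have := LinearMap.finrank_le_finrank_of_injective hΦ
  rwa [finrank_pi_degreeLT] at this

theorem degree_nsmul (m : ℕ) (D : Divisor K F) :
    Divisor.degree (m • D) = m * Divisor.degree D := by
  rw [map_nsmul, nsmul_eq_mul]

/-- An independent family has at most `deg P` elements. -/
theorem Fam.card_le (H : Hyp K F) (hP : IsPoleDiv P x) {r : ℕ} {ω : Fin r → F}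
    {d : Fin r → ℕ} (h : Fam P x r ω d) : (r : ℤ) ≤ Divisor.degree P := by
  classical
  set n := Divisor.degree P with hn
  have hn0 : 0 ≤ n := degree_nonneg hP.zero_le
  by_contra hlt
  push Not at hlt
  -- a uniform bound for the `d_i`
  set D : ℕ := ∑ i, d i with hD
  have hdD : ∀ i, d i ≤ D := fun i =>
    Finset.single_le_sum (f := d) (fun _ _ => Nat.zero_le _) (Finset.mem_univ i)
  set l : ℕ := n.toNat * D + 1 with hl
  have h1 := h.sum_le_finrank H hP (fun _ => l) (l + D) (fun i => by have := hdD i; omega)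
  have h2 : (Module.finrank K (L ((l + D) • P)) : ℤ) ≤ ((l + D : ℕ) : ℤ) * n + 1 := by
    have := finrank_L_le H (D := (l + D) • P) (by
      rw [degree_nsmul]; exact mul_nonneg (by positivity) hn0)
    rwa [degree_nsmul] at this
  rw [Finset.sum_const, Finset.card_univ, Fintype.card_fin, smul_eq_mul] at h1
  have h3 : ((r * (l + 1) : ℕ) : ℤ) ≤ ((l + D : ℕ) : ℤ) * n + 1 :=
    le_trans (by exact_mod_cast h1) h2
  obtain ⟨n', hn'⟩ := Int.eq_ofNat_of_zero_le hn0
  rw [hn'] at h3 hlt
  have hr : n' + 1 ≤ r := by exact_mod_cast hlt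
  have hl' : l = n' * D + 1 := by rw [hl, hn']; simp
  have h4 : r * (l + 1) ≤ (l + D) * n' + 1 := by exact_mod_cast h3
  have h5 : (n' + 1) * (l + 1) ≤ r * (l + 1) := Nat.mul_le_mul_right _ hr
  have h6 : (n' + 1) * (l + 1) ≤ (l + D) * n' + 1 := h5.trans h4
  rw [hl'] at h6
  nlinarith [h6]

end Fermat.Agent.RED.H76
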