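import Fermat.Agent.RED.H76_RHSpan
import Fermat.Agent.RED.H76_RHDefs

/-!
# RH-R (helper76): interface statement `Stmt_basisTransfer`

A reduced basis `ω` (independent, spanning, reduced, `ω_i ∈ L(d_i (x)_∞)`) of the functions
regular outside the poles of `x` gives a `K[x]`-basis `c` of `B = integralClosure K[x] F`
(`c_i = ω_i`) and a `K[x⁻¹]`-basis `c'` of `B' = integralClosure K[x⁻¹] F`
(`c'_i = x^{-d_i} ω_i`).

Proof sketch.  Dictionary (`H79.isIntegral_of_forall_ordGe`, `H79.mem_of_isIntegral`):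
`f ∈ B ↔ f` regular where `x` is regular `↔ Reg P f`; `K[x] = range (aeval x)`.
`c'`: (a) `x^{-d_i} ω_i` is regular wherever `|x| ≥ 1` since `|ω_i| ≤ |x|^{d_i}` at the poles.
(b) `f ∈ B'` ⟹ `x^k f ∈ L(k P)` for `k` large (finitely many poles of `f`, all at zeros of `x`)
⟹ `x^k f = ∑ p_i(x) ω_i` with `deg p_i + d_i ≤ k` ⟹ `f = ∑ (x^{-(k - d_i)} p_i(x)) x^{-d_i} ω_i`
with coefficients polynomial in `x⁻¹`.  (c) independence: multiply by a power of `x`.
-/

set_option autoImplicit false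

noncomputable section

open AlgebraicCurve IntermediateField Polynomial

namespace Fermat.Agent.RED.H76

/-- **BASIS-TRANSFER**. -/
def Stmt_basisTransfer : Prop :=
  ∀ (K F : Type) [Field K] [Field F] [Algebra K F] [IsAlgClosed K] [CharZero K]
    (x : F), Transcendental K x → FiniteDimensional K⟮x⟯ F →
    ∀ (P : Divisor K F), IsPoleDiv P x →
    ∀ (r : ℕ) (ω : Fin r → F) (d : Fin r → ℕ),
      (∀ i, InL P (d i) (ω i)) →
      (∀ p : Fin r → K[X], comb x p ω = 0 → p = 0) →
      (∀ f : F, Reg P f → ∃ p : Fin r → K[X], f = comb x p ω) →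
      (∀ (p : Fin r → K[X]) (m : ℤ), InL P m (comb x p ω) →
        ∀ i, p i ≠ 0 → ((p i).natDegree : ℤ) + d i ≤ m) →
      ∃ (c : Module.Basis (Fin r) ↥(Algebra.adjoin K {x})
            ↥(integralClosure ↥(Algebra.adjoin K {x}) F))
        (c' : Module.Basis (Fin r) ↥(Algebra.adjoin K {x⁻¹})
            ↥(integralClosure ↥(Algebra.adjoin K {x⁻¹}) F)),
        (∀ i, ((c i : ↥(integralClosure ↥(Algebra.adjoin K {x}) F)) : F) = ω i) ∧
        (∀ i, ((c' i : ↥(integralClosure ↥(Algebra.adjoin K {x⁻¹}) F)) : F)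
          = x⁻¹ ^ (d i) * ω i)

end Fermat.Agent.RED.H76
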