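import Fermat.Agent.RED.H76_RHInL

/-!
# RH-R (helper76), part I b: independent families and the exchange lemma

`comb x p ω = ∑ p_i(x) ω_i`.  `Fam P x r ω d`: `ω_i ∈ L(d_i P)` and the `ω_i` are linearly
independent over `K[x]`.  **Exchange lemma** (`Fam.exchange`): if `t(x) h = ∑ q_i(x) ω_i` with
`q_j ≠ 0` and `h ∈ L((d_j - 1) P)` then replacing `ω_j` by `h` gives an independent family of
weight `∑ d_i - 1`.
-/

set_option autoImplicit false

noncomputable section

open AlgebraicCurve WithZero Polynomial

namespace Fermat.Agent.RED.H76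

variable {K F : Type*} [Field K] [Field F] [Algebra K F]

/-- The polynomial combination `∑ p_i(x) ω_i`. -/
def comb (x : F) {r : ℕ} (p : Fin r → K[X]) (ω : Fin r → F) : F :=
  ∑ i, aeval x (p i) * ω i

section Comb

variable (x : F) {r : ℕ} (p p' : Fin r → K[X]) (ω : Fin r → F)

theorem comb_add : comb x (p + p') ω = comb x p ω + comb x p' ω := by
  unfold comb
  rw [← Finset.sum_add_distrib]
  refine Finset.sum_congr rfl fun i _ => ?_
  rw [Pi.add_apply, map_add, add_mul]

theorem comb_sub : comb x (p - p') ω = comb x p ω - comb x p' ω := by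
  unfold comb
  rw [← Finset.sum_sub_distrib]
  refine Finset.sum_congr rfl fun i _ => ?_
  rw [Pi.sub_apply, map_sub, sub_mul]

theorem comb_neg : comb x (-p) ω = -comb x p ω := by
  unfold comb
  rw [← Finset.sum_neg_distrib]
  refine Finset.sum_congr rfl fun i _ => ?_
  rw [Pi.neg_apply, map_neg, neg_mul]

theorem comb_zero : comb x (0 : Fin r → K[X]) ω = 0 := by
  unfold comb
  simp

theorem comb_mul (t : K[X]) : comb x (fun i => t * p i) ω = aeval x t * comb x p ω := by
  unfold comb
  rw [Finset.mul_sum]
  refine Finset.sum_congr rfl fun i _ => ?_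
  rw [map_mul, mul_assoc]

theorem comb_single [DecidableEq (Fin r)] (j : Fin r) (a : K[X]) :
    comb x (Pi.single j a) ω = aeval x a * ω j := by
  unfold comb
  rw [Finset.sum_eq_single j]
  · rw [Pi.single_eq_same]
  · intro i _ hij
    rw [Pi.single_eq_of_ne hij, map_zero, zero_mul]
  · intro h
    exact absurd (Finset.mem_univ j) h

theorem comb_update [DecidableEq (Fin r)] (j : Fin r) (h : F) :
    comb x p (Function.update ω j h) = comb x p ω + aeval x (p j) * (h - ω j) := by
  unfold comb
  have h1 : ∀ i, aeval x (p i) * Function.update ω j h i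
      = aeval x (p i) * ω i + (if i = j then aeval x (p j) * (h - ω j) else 0) := by
    intro i
    by_cases hij : i = j
    · subst hij
      rw [Function.update_self, if_pos rfl]
      ring
    · rw [Function.update_of_ne hij, if_neg hij, add_zero]
  rw [Finset.sum_congr rfl fun i _ => h1 i, Finset.sum_add_distrib, Finset.sum_ite_eq' ,
    if_pos (Finset.mem_univ j)]

end Comb

/-- An independent family of functions with poles only at the poles of `x`. -/
structure Fam (P : Divisor K F) (x : F) (r : ℕ) (ω : Fin r → F) (d : Fin r → ℕ) : Prop where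
  mem : ∀ i, InL P (d i) (ω i)
  indep : ∀ p : Fin r → K[X], comb x p ω = 0 → p = 0

variable {P : Divisor K F} {x : F}

theorem Fam.exchange (hneg : ∀ f : F, InL P (-1) f → f = 0)
    {r : ℕ} {ω : Fin r → F} {d : Fin r → ℕ} (h : Fam P x r ω d) (j : Fin r) (hnew : F)
    (hmem : InL P ((d j : ℤ) - 1) hnew) (t : K[X]) (ht : t ≠ 0) (q : Fin r → K[X])
    (hqj : q j ≠ 0) (hrel : aeval x t * hnew = comb x q ω) :
    ∃ (ω' : Fin r → F) (d' : Fin r → ℕ), Fam P x r ω' d' ∧ ∑ i, d' i + 1 = ∑ i, d i := by
  classical
  have hnew0 : hnew ≠ 0 := by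
    rintro rfl
    rw [mul_zero] at hrel
    have := h.indep q hrel.symm
    exact hqj (by rw [this]; rfl)
  have hdj : 1 ≤ d j := by
    by_contra hlt
    have h0 : d j = 0 := by omega
    rw [h0] at hmem
    exact hnew0 (hneg hnew (by simpa using hmem))
  refine ⟨Function.update ω j hnew, Function.update d j (d j - 1), ⟨?_, ?_⟩, ?_⟩
  · intro i
    by_cases hij : i = j
    · subst hij
      rw [Function.update_self, Function.update_self]
      have : ((d i - 1 : ℕ) : ℤ) = (d i : ℤ) - 1 := by omega
      rw [this]
      exact hmem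
    · rw [Function.update_of_ne hij, Function.update_of_ne hij]
      exact h.mem i
  · intro s hs
    rw [comb_update] at hs
    -- multiply by `t(x)`
    have h1 : comb x (fun i => t * s i + s j * q i
        - (Pi.single j (s j * t) : Fin r → K[X]) i) ω = 0 := by
      have e1 : (fun i => t * s i + s j * q i - (Pi.single j (s j * t) : Fin r → K[X]) i)
          = ((fun i => t * s i) + (fun i => s j * q i)) - Pi.single j (s j * t) := by
        funext i; simp
      rw [e1, comb_sub, comb_add, comb_mul, comb_mul, comb_single, ← hrel]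
      have : aeval x t * comb x s ω + aeval x (s j) * (aeval x t * hnew)
          - aeval x (s j * t) * ω j
          = aeval x t * (comb x s ω + aeval x (s j) * (hnew - ω j)) := by
        rw [map_mul]; ring
      rw [this, hs, mul_zero]
    have h2 := h.indep _ h1
    have hj := congrFun h2 j
    simp only [Pi.single_eq_same, Pi.zero_apply] at hj
    have hsj : s j = 0 := by
      have : s j * q j = 0 := by
        have e : t * s j + s j * q j - s j * t = s j * q j := by ring
        rw [← e]; exact hj
      exact (mul_eq_zero.mp this).resolve_right hqj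
    funext i
    have hi := congrFun h2 i
    simp only [Pi.zero_apply] at hi
    by_cases hij : i = j
    · rw [hij]; exact hsj
    · rw [Pi.single_eq_of_ne hij, hsj, zero_mul, add_zero, sub_zero] at hi
      exact (mul_eq_zero.mp hi).resolve_left ht
  · rw [Finset.sum_update_of_mem (Finset.mem_univ j)]
    have h2 : ∑ i, d i = d j + ∑ i ∈ Finset.univ \ {j}, d i := by
      rw [← Finset.sum_sdiff (Finset.singleton_subset_iff.mpr (Finset.mem_univ j)),
        Finset.sum_singleton, add_comm]
    rw [h2]
    omega

/-- A family of maximal size and, among those, of minimal weight. -/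
structure MinFam (P : Divisor K F) (x : F) (r : ℕ) (ω : Fin r → F) (d : Fin r → ℕ) : Prop
    extends Fam P x r ω d where
  min : ∀ (ω' : Fin r → F) (d' : Fin r → ℕ), Fam P x r ω' d' → ∑ i, d i ≤ ∑ i, d' i
  max : ∀ (ω' : Fin (r + 1) → F) (d' : Fin (r + 1) → ℕ), ¬ Fam P x (r + 1) ω' d'

theorem MinFam.no_exchange (hneg : ∀ f : F, InL P (-1) f → f = 0)
    {r : ℕ} {ω : Fin r → F} {d : Fin r → ℕ} (h : MinFam P x r ω d) (j : Fin r) (hnew : F)
    (hmem : InL P ((d j : ℤ) - 1) hnew) (t : K[X]) (ht : t ≠ 0) (q : Fin r → K[X])
    (hqj : q j ≠ 0) (hrel : aeval x t * hnew = comb x q ω) : False := by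
  obtain ⟨ω', d', hF, hw⟩ := h.toFam.exchange hneg j hnew hmem t ht q hqj hrel
  have := h.min ω' d' hF
  omega

end Fermat.Agent.RED.H76
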