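import Fermat.Agent.RED.H76_RHCount

/-!
# RH-R (helper76), part I f: the reduced basis and the genus

`exists_redBasis` : for a non-constant `x` with pole divisor `P` there is a reduced basis
`ω_1, …, ω_r` with degrees `d_i` of the functions regular outside the poles of `x`, with
`r = deg P` and `∑ d_i = g + r - 1`, `g` the genus in Riemann's theorem.
-/

set_option autoImplicit false

noncomputable section

open AlgebraicCurve WithZero Polynomial

namespace Fermat.Agent.RED.H76

open Fermat.Agent.RED.H42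

variable {K F : Type*} [Field K] [Field F] [Algebra K F]
variable {P : Divisor K F} {x : F}

local notation "L" => riemannRochSpace

/-- A minimal family exists. -/
theorem exists_minFam (H : Hyp K F) (hP : IsPoleDiv P x) :
    ∃ (r : ℕ) (ω : Fin r → F) (d : Fin r → ℕ), MinFam P x r ω d := by
  classical
  set n := (Divisor.degree P).toNat with hn
  let Q : ℕ → Prop := fun r => ∃ (ω : Fin r → F) (d : Fin r → ℕ), Fam P x r ω d
  have hQ0 : Q 0 :=
    ⟨Fin.elim0, Fin.elim0, ⟨fun i => i.elim0, fun p _ => funext fun i => i.elim0⟩⟩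
  have hQle : ∀ r, Q r → r ≤ n := by
    rintro r ⟨ω, d, h⟩
    have := h.card_le H hP
    omega
  set r := Nat.findGreatest Q n with hr
  have hQr : Q r := Nat.findGreatest_spec (Nat.zero_le n) hQ0
  have hmax : ∀ r', r < r' → ¬ Q r' := fun r' hr' hQ' =>
    Nat.findGreatest_is_greatest hr' (hQle r' hQ') hQ'
  let W : ℕ → Prop := fun s => ∃ (ω : Fin r → F) (d : Fin r → ℕ), Fam P x r ω d ∧ ∑ i, d i = s
  have hW : ∃ s, W s := by
    obtain ⟨ω, d, h⟩ := hQr
    exact ⟨_, ω, d, h, rfl⟩
  obtain ⟨ω, d, hF, hs⟩ := Nat.find_spec hW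
  refine ⟨r, ω, d, ⟨hF, ?_, ?_⟩⟩
  · intro ω' d' hF'
    rw [hs]
    exact Nat.find_min' hW ⟨ω', d', hF', rfl⟩
  · intro ω' d' hF'
    exact hmax (r + 1) (Nat.lt_succ_self r) ⟨ω', d', hF'⟩

/-- `x` has a pole, so `deg P ≥ 1`. -/
theorem one_le_degree (H : Hyp K F) (hP : IsPoleDiv P x) (hx : Transcendental K x) :
    1 ≤ Divisor.degree P := by
  have hxr : x ∉ Set.range (algebraMap K F) := by
    rintro ⟨a, rfl⟩
    exact hx (isAlgebraic_algebraMap a)
  obtain ⟨v, hv⟩ := H.exists_pole x hxr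
  have h1 : ¬ v.adicValuation x ≤ 1 := v.not_adicValuation_le_one_iff.mpr hv
  have h2 : 1 ≤ P v := by
    have h3 := hP v
    rw [max_eq_right (le_of_not_ge h1)] at h3
    have h4 : exp (0 : ℤ) < exp (P v) := by
      rw [h3, exp_zero]; exact lt_of_not_ge h1
    have := exp_lt_exp.mp h4
    omega
  have h5 : (Finsupp.single v 1 : Divisor K F) ≤ P := by
    rw [Finsupp.le_def]
    intro w
    by_cases hw : w = v
    · subst hw; rw [Finsupp.single_eq_same]; exact h2
    · rw [Finsupp.single_eq_of_ne hw]; exact hP.nonneg w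
  have h6 := degree_mono h5
  rw [Divisor.degree_single, H.deg_one v] at h6
  simpa using h6

/-- `L(-P) = 0`. -/
theorem inL_neg_one_eq_zero (H : Hyp K F) (hP : IsPoleDiv P x) (hx : Transcendental K x)
    (f : F) (hf : InL P (-1) f) : f = 0 := by
  have h1 : f ∈ L ((-1 : ℤ) • P) := inL_iff_mem.mp hf
  have hdeg : Divisor.degree ((-1 : ℤ) • P) < 0 := by
    rw [map_zsmul]
    have := one_le_degree H hP hx
    simp only [smul_eq_mul]
    omega
  rw [L_eq_bot_of_degree_neg H hdeg] at h1
  exact (Submodule.mem_bot K).mp h1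

/-- The dimension count. -/
theorem MinFam.finrank_eq [IsAlgClosed K] (H : Hyp K F) (hP : IsPoleDiv P x)
    (hx : Transcendental K x) {r : ℕ} {ω : Fin r → F} {d : Fin r → ℕ} (h : MinFam P x r ω d)
    (m : ℕ) (hm : ∀ i, d i ≤ m) :
    Module.finrank K (L (m • P)) = ∑ i, (m - d i + 1) := by
  classical
  have hneg := inL_neg_one_eq_zero H hP hx
  have hfin := finite_L H (m • P)
  let Φ : ((i : Fin r) → degreeLT K (m - d i + 1)) →ₗ[K] L (m • P) :=
    (combLin x ω (fun i => m - d i)).codRestrict (L (m • P))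
      (h.toFam.combLin_mem hP _ m (fun i => by have := hm i; omega))
  have hΦi : Function.Injective Φ := fun p p' hpp' =>
    h.toFam.combLin_injective _ (congrArg Subtype.val hpp')
  have hΦs : Function.Surjective Φ := by
    rintro ⟨f, hf⟩
    have hfL : InL P m f := inL_iff_mem_nat.mpr hf
    obtain ⟨p, hp⟩ := h.span hP hx hneg f ⟨m, hfL⟩
    have hdeg : ∀ i, (p i).natDegree ≤ m - d i := by
      intro i
      by_cases hi : p i = 0
      · rw [hi]; simp
      · have := h.reduced hP hneg p m (by rw [← hp]; exact hfL) i hi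
        omega
    refine ⟨fun i => ⟨p i, mem_degreeLT_of_natDegree_le (hdeg i)⟩, ?_⟩
    apply Subtype.ext
    show combLin x ω _ _ = f
    rw [combLin_apply, hp]
  have e := (LinearEquiv.ofBijective Φ ⟨hΦi, hΦs⟩).finrank_eq
  rw [← e, finrank_pi_degreeLT]

/-- The number of elements and the weight of a minimal family. -/
theorem MinFam.genus [IsAlgClosed K] (H : Hyp K F) (hP : IsPoleDiv P x)
    (hx : Transcendental K x) {r : ℕ} {ω : Fin r → F} {d : Fin r → ℕ} (h : MinFam P x r ω d)
    (g : ℕ) (c : ℤ)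
    (hG : ∀ D : Divisor K F, c ≤ Divisor.degree D →
      (Module.finrank K (L D) : ℤ) = Divisor.degree D + 1 - g) :
    (r : ℤ) = Divisor.degree P ∧ ∑ i, (d i : ℤ) = g + r - 1 := by
  classical
  set n := Divisor.degree P with hn
  have hn1 : 1 ≤ n := one_le_degree H hP hx
  set m : ℕ := ∑ i, d i + c.toNat with hm
  have hdm : ∀ i, d i ≤ m := fun i => by
    have := Finset.single_le_sum (f := d) (fun _ _ => Nat.zero_le _) (Finset.mem_univ i)
    omega
  have hcm : c ≤ (m : ℤ) := by
    have := Int.self_le_toNat c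
    omega
  have key : ∀ m' : ℕ, m ≤ m' →
      ((r : ℤ) * (m' + 1) - ∑ i, (d i : ℤ)) = m' * n + 1 - g := by
    intro m' hm'
    have h1 := h.finrank_eq H hP hx m' (fun i => (hdm i).trans hm')
    have h2 := hG (m' • P) (by
      rw [degree_nsmul]
      have : (m : ℤ) ≤ m' := by exact_mod_cast hm'
      nlinarith)
    rw [degree_nsmul, h1] at h2
    rw [← h2]
    push_cast
    rw [Finset.sum_congr rfl (fun i _ => by
      rw [Nat.cast_sub ((hdm i).trans hm')]; ring : ∀ i ∈ Finset.univ,
        (((m' - d i : ℕ) : ℤ) + 1) = ((m' : ℤ) + 1) - (d i : ℤ))]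
    rw [Finset.sum_sub_distrib, Finset.sum_const, Finset.card_univ, Fintype.card_fin]
    simp only [nsmul_eq_mul]
  have e1 := key m le_rfl
  have e2 := key (m + 1) (Nat.le_succ m)
  push_cast at e2
  have hr : (r : ℤ) = n := by linarith
  refine ⟨hr, ?_⟩
  rw [hr] at e1 ⊢
  linarith

/-- **The reduced basis.** -/
theorem exists_redBasis [IsAlgClosed K] (H : Hyp K F) (hP : IsPoleDiv P x)
    (hx : Transcendental K x) (g : ℕ) (c : ℤ)
    (hG : ∀ D : Divisor K F, c ≤ Divisor.degree D →
      (Module.finrank K (L D) : ℤ) = Divisor.degree D + 1 - g) :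
    ∃ (r : ℕ) (ω : Fin r → F) (d : Fin r → ℕ),
      (∀ i, InL P (d i) (ω i)) ∧
      (∀ p : Fin r → K[X], comb x p ω = 0 → p = 0) ∧
      (∀ f : F, Reg P f → ∃ p : Fin r → K[X], f = comb x p ω) ∧
      (∀ (p : Fin r → K[X]) (m : ℤ), InL P m (comb x p ω) →
        ∀ i, p i ≠ 0 → ((p i).natDegree : ℤ) + d i ≤ m) ∧
      (r : ℤ) = Divisor.degree P ∧ ∑ i, (d i : ℤ) = g + r - 1 := by
  obtain ⟨r, ω, d, h⟩ := exists_minFam (x := x) H hP
  have hneg := inL_neg_one_eq_zero H hP hx
  obtain ⟨h1, h2⟩ := h.genus H hP hx g c hG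
  exact ⟨r, ω, d, h.mem, h.indep, fun f hf => h.span hP hx hneg f hf,
    fun p m hm i hi => h.reduced hP hneg p m hm i hi, h1, h2⟩

end Fermat.Agent.RED.H76
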