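import Fermat.Agent.RED.H42_Riemann

/-!
# RH-R (helper76), part I a: the spaces `L(m (x)_∞)` as predicates

`P` is the pole divisor of `x` (`exp (P v) = max 1 |x|_v`).  `InL P m f` says
`f ∈ L(m • P)`, for an integer `m`.  Closure properties, polynomials in `x`, and the division
lemma: if `t h ∈ L(m P)`, `h` is regular outside the poles of `x` and `|t|_v = |x|_v ^ k` at the
poles, then `h ∈ L((m - k) P)`.
-/

set_option autoImplicit false

noncomputable section

open AlgebraicCurve WithZero Polynomial

namespace Fermat.Agent.RED.H76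

open Fermat.Agent.RED.H42

variable {K F : Type*} [Field K] [Field F] [Algebra K F]

local notation "L" => riemannRochSpace

/-- `f ∈ L(m • P)`. -/
def InL (P : Divisor K F) (m : ℤ) (f : F) : Prop :=
  ∀ v : Place K F, v.adicValuation f ≤ exp (m * P v)

/-- `P` is the pole divisor of `x`. -/
def IsPoleDiv (P : Divisor K F) (x : F) : Prop :=
  ∀ v : Place K F, exp (P v) = max 1 (v.adicValuation x)

theorem inL_iff_mem {P : Divisor K F} {m : ℤ} {f : F} : InL P m f ↔ f ∈ L (m • P) := by
  unfold InL
  rw [mem_L_iff]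
  refine forall_congr' fun v => ?_
  rw [Finsupp.smul_apply, smul_eq_mul]

theorem inL_iff_mem_nat {P : Divisor K F} {m : ℕ} {f : F} : InL P m f ↔ f ∈ L (m • P) := by
  rw [inL_iff_mem, natCast_zsmul]

namespace IsPoleDiv

variable {P : Divisor K F} {x : F}

theorem nonneg (h : IsPoleDiv P x) (v : Place K F) : 0 ≤ P v := by
  have h1 : (1 : ℤᵐ⁰) ≤ exp (P v) := by rw [h v]; exact le_max_left _ _
  rwa [← exp_zero, exp_le_exp] at h1

theorem val_le (h : IsPoleDiv P x) (v : Place K F) : v.adicValuation x ≤ exp (P v) := by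
  rw [h v]; exact le_max_right _ _

theorem val_eq_of_pos (h : IsPoleDiv P x) {v : Place K F} (hv : 0 < P v) :
    v.adicValuation x = exp (P v) := by
  have h1 := h v
  rcases le_total (v.adicValuation x) 1 with h2 | h2
  · rw [max_eq_left h2, ← exp_zero, exp_inj] at h1
    omega
  · rw [max_eq_right h2] at h1
    exact h1.symm

theorem one_lt_val (h : IsPoleDiv P x) {v : Place K F} (hv : 0 < P v) :
    1 < v.adicValuation x := by
  rw [h.val_eq_of_pos hv, ← exp_zero, exp_lt_exp]
  exact hv

theorem zero_le (h : IsPoleDiv P x) : (0 : Divisor K F) ≤ P := by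
  rw [Finsupp.le_def]
  intro v
  simpa using h.nonneg v

end IsPoleDiv

namespace InL

variable {P : Divisor K F} {m m' : ℤ} {f g : F}

theorem zero : InL P m (0 : F) := fun v => by simp

theorem add (hf : InL P m f) (hg : InL P m g) : InL P m (f + g) := fun v =>
  (Valuation.map_add _ _ _).trans (max_le (hf v) (hg v))

theorem neg (hf : InL P m f) : InL P m (-f) := fun v => by
  rw [Valuation.map_neg]; exact hf v

theorem sub (hf : InL P m f) (hg : InL P m g) : InL P m (f - g) := by
  rw [sub_eq_add_neg]; exact hf.add hg.neg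

theorem mul (hf : InL P m f) (hg : InL P m' g) : InL P (m + m') (f * g) := fun v => by
  rw [map_mul, add_mul, exp_add]
  exact mul_le_mul' (hf v) (hg v)

theorem const_mul (c : K) (hf : InL P m f) : InL P m (algebraMap K F c * f) := fun v => by
  rw [map_mul]
  exact (mul_le_of_le_one_left' (v.adicValuation_algebraMap_le_one c)).trans (hf v)

theorem mono {x : F} (hP : IsPoleDiv P x) (h : m ≤ m') (hf : InL P m f) : InL P m' f := fun v =>
  (hf v).trans (exp_le_exp.mpr (mul_le_mul_of_nonneg_right h (hP.nonneg v)))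

theorem sum {ι : Type*} (s : Finset ι) (f : ι → F) (h : ∀ i ∈ s, InL P m (f i)) :
    InL P m (∑ i ∈ s, f i) := by
  classical
  induction s using Finset.induction_on with
  | empty => simpa using (zero : InL P m (0 : F))
  | insert i s his ih =>
    rw [Finset.sum_insert his]
    exact (h i (Finset.mem_insert_self i s)).add
      (ih fun j hj => h j (Finset.mem_insert_of_mem hj))

end InL

variable {P : Divisor K F} {x : F}

theorem inL_algebraMap (c : K) : InL P 0 (algebraMap K F c) := fun v => by
  rw [zero_mul, exp_zero]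
  exact v.adicValuation_algebraMap_le_one c

theorem inL_one : InL P 0 (1 : F) := by
  simpa using (inL_algebraMap (P := P) (1 : K))

theorem inL_x (hP : IsPoleDiv P x) : InL P 1 x := fun v => by
  rw [one_mul]; exact hP.val_le v

theorem inL_x_pow (hP : IsPoleDiv P x) (k : ℕ) : InL P k (x ^ k) := by
  induction k with
  | zero => simpa using (inL_one (P := P))
  | succ k ih =>
    rw [pow_succ]
    have := ih.mul (inL_x hP)
    simpa using this

theorem inL_aeval (hP : IsPoleDiv P x) (p : K[X]) {l : ℕ} (hp : p.natDegree ≤ l) :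
    InL P l (aeval x p) := by
  rw [aeval_eq_sum_range]
  refine InL.sum _ _ fun i hi => ?_
  have hi' : i ≤ l := (Nat.lt_succ_iff.mp (Finset.mem_range.mp hi)).trans hp
  rw [Algebra.smul_def]
  refine InL.const_mul _ ?_
  exact (inL_x_pow hP i).mono hP (by exact_mod_cast hi')

/-- Polynomial combinations of bounded degree. -/
theorem inL_comb (hP : IsPoleDiv P x) {r : ℕ} {ω : Fin r → F} {d : Fin r → ℕ}
    (hω : ∀ i, InL P (d i) (ω i)) (p : Fin r → K[X]) (m : ℤ)
    (hp : ∀ i, p i ≠ 0 → ((p i).natDegree : ℤ) + d i ≤ m) :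
    InL P m (∑ i, aeval x (p i) * ω i) := by
  refine InL.sum _ _ fun i _ => ?_
  by_cases hi : p i = 0
  · rw [hi, map_zero, zero_mul]; exact InL.zero
  · exact ((inL_aeval hP (p i) le_rfl).mul (hω i)).mono hP (hp i hi)

/-- **Division lemma.** -/
theorem InL.of_mul (hP : IsPoleDiv P x) {t h : F} {k : ℕ} {m m' : ℤ}
    (ht : ∀ v : Place K F, 0 < P v → v.adicValuation t = exp ((k : ℤ) * P v))
    (hth : InL P m (t * h)) (hh : InL P m' h) : InL P (m - k) h := by
  intro v
  rcases (hP.nonneg v).eq_or_lt with h0 | hpos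
  · have := hh v
    rw [← h0, mul_zero] at this
    rw [← h0, mul_zero]
    exact this
  · have h1 := hth v
    rw [map_mul, ht v hpos] at h1
    have h2 : v.adicValuation h
        = exp (-((k : ℤ) * P v)) * (exp ((k : ℤ) * P v) * v.adicValuation h) := by
      rw [← mul_assoc, ← exp_add, neg_add_cancel, exp_zero, one_mul]
    rw [h2, sub_mul, sub_eq_neg_add, exp_add]
    exact mul_le_mul_right h1 _

theorem val_x_pow (hP : IsPoleDiv P x) (k : ℕ) (v : Place K F) (hv : 0 < P v) :
    v.adicValuation (x ^ k) = exp ((k : ℤ) * P v) := by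
  rw [map_pow, hP.val_eq_of_pos hv, ← exp_nsmul, nsmul_eq_mul]

theorem val_x_sub (hP : IsPoleDiv P x) (a : K) (v : Place K F) (hv : 0 < P v) :
    v.adicValuation (x - algebraMap K F a) = exp (((1 : ℕ) : ℤ) * P v) := by
  have h1 : v.adicValuation (algebraMap K F a) < v.adicValuation x :=
    (v.adicValuation_algebraMap_le_one a).trans_lt (hP.one_lt_val hv)
  rw [Valuation.map_sub_eq_of_lt_left _ h1, hP.val_eq_of_pos hv]
  simp

end Fermat.Agent.RED.H76
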