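import Fermat.Agent.RED.H79_ConsDict

/-!
# G-RED package CONS (helper79): the Dedekind domain of a chart

`x ∈ F` transcendental over `K`, `F / K(x)` finite separable, `B = integralClosure K[x] F`.
* `isDedekind_Bx`, `isFractionRing_Bx`.
* `exists_eq_ofH_of_mem` : a place `P` with `x ∈ O_P` is the place of a height one prime of `B`.
* `isIntegral_of_forall_ordGe` : `f ∈ F` regular at all places finite over `x` is integral
  over `K[x]`.
-/

set_option autoImplicit false
set_option linter.style.haveILetI false

noncomputable section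

open AlgebraicCurve IsDedekindDomain WithZero IntermediateField
open scoped IntermediateField.algebraAdjoinAdjoin

namespace Fermat.Agent.RED.H79

open Fermat.Agent.RED.H51

section Chart

variable {K F : Type*} [Field K] [Field F] [Algebra K F]

theorem isDedekind_Bx (x : F) (hx : Transcendental K x) [FiniteDimensional K⟮x⟯ F]
    [Algebra.IsSeparable K⟮x⟯ F] :
    IsDedekindDomain ↥(integralClosure ↥(Algebra.adjoin K {x}) F) := by
  have hPID : IsPrincipalIdealRing (Algebra.adjoin K {x}) :=
    IsPrincipalIdealRing.of_surjective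
      (Polynomial.algEquivOfTranscendental K x hx).toRingEquiv.toRingHom
      (Polynomial.algEquivOfTranscendental K x hx).surjective
  exact integralClosure.isDedekindDomain (Algebra.adjoin K {x}) K⟮x⟯ F

theorem isFractionRing_Bx (x : F) [FiniteDimensional K⟮x⟯ F] :
    IsFractionRing ↥(integralClosure ↥(Algebra.adjoin K {x}) F) F :=
  integralClosure.isFractionRing_of_finite_extension K⟮x⟯ F

/-- An element integral over `K[x]` lies in every valuation ring of a place containing `x`. -/
theorem mem_of_isIntegral (P : Place K F) {x : F} (hxP : x ∈ P.toValuationSubring) {b : F}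
    (hb : IsIntegral ↥(Algebra.adjoin K {x}) b) : b ∈ P.toValuationSubring := by
  have hle : ∀ a : ↥(Algebra.adjoin K {x}),
      algebraMap ↥(Algebra.adjoin K {x}) F a ∈ P.toValuationSubring.toSubring := by
    rintro ⟨a, ha⟩
    show a ∈ P.toValuationSubring
    induction ha using Algebra.adjoin_induction with
    | mem y hy =>
      rw [Set.mem_singleton_iff] at hy
      subst hy
      exact hxP
    | algebraMap r => exact P.algebraMap_mem' r
    | add _ _ _ _ h1 h2 => exact add_mem h1 h2
    | mul _ _ _ _ h1 h2 => exact mul_mem h1 h2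
  let ι : ↥(Algebra.adjoin K {x}) →+* ↥P.toValuationSubring :=
    (algebraMap ↥(Algebra.adjoin K {x}) F).codRestrict P.toValuationSubring.toSubring hle
  obtain ⟨p, hp, hpb⟩ := hb
  have hint : IsIntegral ↥P.toValuationSubring b := by
    refine ⟨p.map ι, hp.map ι, ?_⟩
    rw [Polynomial.eval₂_map]
    exact hpb
  obtain ⟨y, hy⟩ := IsIntegrallyClosed.isIntegral_iff.mp hint
  rw [← hy]
  exact y.2

/-- A place `P` with `x ∈ O_P` is the place of a height one prime of `B`. -/
theorem exists_eq_ofH_of_mem (x : F) (hx : Transcendental K x) [FiniteDimensional K⟮x⟯ F]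
    [Algebra.IsSeparable K⟮x⟯ F] (P : Place K F) (hxP : x ∈ P.toValuationSubring) :
    haveI := isDedekind_Bx x hx
    haveI := isFractionRing_Bx (K := K) x
    ∃ w : HeightOneSpectrum ↥(integralClosure ↥(Algebra.adjoin K {x}) F), P = ofH K w := by
  haveI := isDedekind_Bx x hx
  haveI := isFractionRing_Bx (K := K) x
  exact exists_eq_ofH P fun b => mem_of_isIntegral P hxP b.2

/-- `x` lies in the valuation ring of the place of a height one prime of `B`. -/
theorem mem_ofH (x : F) (hx : Transcendental K x) [FiniteDimensional K⟮x⟯ F]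
    [Algebra.IsSeparable K⟮x⟯ F] :
    haveI := isDedekind_Bx x hx
    haveI := isFractionRing_Bx (K := K) x
    ∀ (w : HeightOneSpectrum ↥(integralClosure ↥(Algebra.adjoin K {x}) F)) (b : F),
      IsIntegral ↥(Algebra.adjoin K {x}) b → OrdGe (ofH K w) 0 b := by
  haveI := isDedekind_Bx x hx
  haveI := isFractionRing_Bx (K := K) x
  intro w b hb
  exact ordGe_zero_algebraMap (K := K) (F := F) w
    (⟨b, hb⟩ : ↥(integralClosure ↥(Algebra.adjoin K {x}) F))

/-- (b) An element of `F` regular at all places finite over `x` is integral over `K[x]`. -/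
theorem isIntegral_of_forall_ordGe (x : F) (hx : Transcendental K x) [FiniteDimensional K⟮x⟯ F]
    [Algebra.IsSeparable K⟮x⟯ F] (f : F)
    (h : ∀ P : Place K F, x ∈ P.toValuationSubring → OrdGe P 0 f) :
    IsIntegral ↥(Algebra.adjoin K {x}) f := by
  haveI := isDedekind_Bx x hx
  haveI := isFractionRing_Bx (K := K) x
  have hx0 : IsIntegral ↥(Algebra.adjoin K {x}) x :=
    (isIntegral_algebraMap (R := ↥(Algebra.adjoin K {x})) (A := F)
      (x := ⟨x, Algebra.self_mem_adjoin_singleton K x⟩))
  obtain ⟨b, hb⟩ := mem_range_of_forall_ordGe (K := K)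
    (B := ↥(integralClosure ↥(Algebra.adjoin K {x}) F)) f (fun w => h _
      ((ordGe_zero_iff_mem _ _).1 (mem_ofH x hx w x hx0)))
  rw [← hb]
  exact b.2

end Chart

end Fermat.Agent.RED.H79
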