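import Fermat.Agent.RED.H76_RHDefs2
import Fermat.Agent.RED.H79_ConsChart
import Fermat.Agent.RED.H34_Adjoin
import Fermat.Agent.RED.H42_RiemannFinal
import Fermat.Agent.RED.H17_Red

/-!
# RH-R, helper94: BASIS-TRANSFER

`stmt_basisTransfer : H76.Stmt_basisTransfer`: a reduced basis `ω` (degrees `d_i`) of the
functions regular outside the poles of `x` is a `K[x]`-basis of `B = integralClosure K[x] F`,
and `x^{-d_i} ω_i` is a `K[x⁻¹]`-basis of `B' = integralClosure K[x⁻¹] F`.
-/

set_option autoImplicit false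
set_option linter.style.haveILetI false
set_option synthInstance.maxHeartbeats 400000
set_option maxHeartbeats 1000000

noncomputable section

open AlgebraicCurve IsDedekindDomain IntermediateField Polynomial WithZero
open scoped IntermediateField.algebraAdjoinAdjoin

namespace Fermat.Agent.RED.H94

open Fermat.Agent.RED.H34 Fermat.Agent.RED.H76 Fermat.Agent.RED.H51

variable {K F : Type} [Field K] [Field F] [Algebra K F]

/-! ### A basis of the integral closure from elementwise data -/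

theorem bt_coe_smul {y : F} (a : ↥(Algebra.adjoin K {y}))
    (b : ↥(integralClosure ↥(Algebra.adjoin K {y}) F)) :
    ((a • b : ↥(integralClosure ↥(Algebra.adjoin K {y}) F)) : F) = (a : F) * (b : F) := rfl

theorem bt_coe_sum {y : F} {ι : Type*} (s : Finset ι)
    (b : ι → ↥(integralClosure ↥(Algebra.adjoin K {y}) F)) :
    ((∑ i ∈ s, b i : ↥(integralClosure ↥(Algebra.adjoin K {y}) F)) : F) = ∑ i ∈ s, (b i : F) := by
  classical
  induction s using Finset.induction_on with
  | empty => simp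
  | insert i s his ih =>
    rw [Finset.sum_insert his, Finset.sum_insert his, ← ih]
    rfl

theorem bt_exists_basis {y : F} (hy : Transcendental K y) {r : ℕ} (u : Fin r → F)
    (hint : ∀ i, IsIntegral ↥(Algebra.adjoin K {y}) (u i))
    (hind : ∀ q : Fin r → K[X], (∑ i, aeval y (q i) * u i) = 0 → q = 0)
    (hspan : ∀ f : F, IsIntegral ↥(Algebra.adjoin K {y}) f →
      ∃ q : Fin r → K[X], f = ∑ i, aeval y (q i) * u i) :
    ∃ c : Module.Basis (Fin r) ↥(Algebra.adjoin K {y})
        ↥(integralClosure ↥(Algebra.adjoin K {y}) F),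
      ∀ i, ((c i : ↥(integralClosure ↥(Algebra.adjoin K {y}) F)) : F) = u i := by
  classical
  set v : Fin r → ↥(integralClosure ↥(Algebra.adjoin K {y}) F) := fun i => ⟨u i, hint i⟩ with hv
  have hli : LinearIndependent ↥(Algebra.adjoin K {y}) v := by
    rw [Fintype.linearIndependent_iff]
    intro g hg i
    have h1 : ((∑ j, g j • v j : ↥(integralClosure ↥(Algebra.adjoin K {y}) F)) : F) = 0 := by
      rw [hg]; rfl
    rw [bt_coe_sum] at h1
    have h2 : ∀ j, ((g j • v j : ↥(integralClosure ↥(Algebra.adjoin K {y}) F)) : F)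
        = aeval y ((polyEquiv hy).symm (g j)) * u j := by
      intro j
      rw [bt_coe_smul, ← coe_polyEquiv hy, AlgEquiv.apply_symm_apply]
    rw [Finset.sum_congr rfl fun j _ => h2 j] at h1
    have h3 := hind (fun j => (polyEquiv hy).symm (g j)) (by simpa using h1)
    have h4 := congrFun h3 i
    simp only [Pi.zero_apply] at h4
    exact (EmbeddingLike.map_eq_zero_iff (f := (polyEquiv hy).symm)).mp h4
  have hsp : ⊤ ≤ Submodule.span ↥(Algebra.adjoin K {y}) (Set.range v) := by
    rintro b -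
    obtain ⟨q, hq⟩ := hspan (b : F) b.2
    have hb : b = ∑ i, polyEquiv hy (q i) • v i := by
      apply Subtype.ext
      rw [bt_coe_sum, hq]
      refine Finset.sum_congr rfl fun i _ => ?_
      rw [bt_coe_smul, coe_polyEquiv]
    rw [hb]
    exact Submodule.sum_mem _ fun i _ =>
      Submodule.smul_mem _ _ (Submodule.subset_span ⟨i, rfl⟩)
  refine ⟨Module.Basis.mk hli hsp, fun i => ?_⟩
  rw [Module.Basis.mk_apply]

/-! ### The dictionary: integral over `K[y]` ↔ regular where `y` is regular -/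

theorem bt_mem_iff (v : Place K F) (f : F) :
    f ∈ v.toValuationSubring ↔ v.adicValuation f ≤ 1 := by
  rw [← ordGe_zero_iff_mem, ordGe_iff, neg_zero, exp_zero]

theorem bt_isIntegral_iff [CharZero K] {y : F} (hy : Transcendental K y)
    [FiniteDimensional K⟮y⟯ F] (f : F) :
    IsIntegral ↥(Algebra.adjoin K {y}) f ↔
      ∀ v : Place K F, v.adicValuation y ≤ 1 → v.adicValuation f ≤ 1 := by
  haveI hcz : CharZero ↥K⟮y⟯ := charZero_of_injective_algebraMap (algebraMap K ↥K⟮y⟯).injective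
  haveI hsep : Algebra.IsSeparable ↥K⟮y⟯ F := inferInstance
  constructor
  · intro hf v hv
    exact (bt_mem_iff v f).1 (H79.mem_of_isIntegral v ((bt_mem_iff v y).2 hv) hf)
  · intro h
    refine H79.isIntegral_of_forall_ordGe y hy f fun v hv => ?_
    rw [ordGe_iff, neg_zero, exp_zero]
    exact h v ((bt_mem_iff v y).1 hv)

theorem bt_ne_zero {x : F} (hx : Transcendental K x) : x ≠ 0 := by
  rintro rfl
  exact hx isAlgebraic_zero

theorem bt_transcendental_inv {x : F} (hx : Transcendental K x) : Transcendental K x⁻¹ := by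
  intro h
  exact hx (by simpa using h.inv)

theorem bt_adjoin_inv (x : F) : K⟮x⁻¹⟯ = K⟮x⟯ := by
  apply le_antisymm
  · rw [IntermediateField.adjoin_simple_le_iff]
    exact inv_mem (IntermediateField.mem_adjoin_simple_self K x)
  · rw [IntermediateField.adjoin_simple_le_iff]
    have := inv_mem (IntermediateField.mem_adjoin_simple_self K x⁻¹)
    rwa [inv_inv] at this

theorem bt_finiteDimensional_inv (x : F) (h : FiniteDimensional K⟮x⟯ F) :
    FiniteDimensional K⟮x⁻¹⟯ F := by
  rw [bt_adjoin_inv]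
  exact h

/-! ### `Reg P f ↔ f` integral over `K[x]` -/

theorem bt_poleDiv_eq_zero_iff {P : Divisor K F} {x : F} (hP : IsPoleDiv P x) (v : Place K F) :
    P v = 0 ↔ v.adicValuation x ≤ 1 := by
  have h := hP v
  constructor
  · intro h0
    rw [h0, exp_zero] at h
    exact max_eq_left_iff.mp h.symm
  · intro h1
    rw [max_eq_left h1, ← exp_zero, exp_inj] at h
    exact h

theorem bt_isIntegral_of_reg [CharZero K] {x : F} (hx : Transcendental K x)
    [FiniteDimensional K⟮x⟯ F] {P : Divisor K F} (hP : IsPoleDiv P x) {f : F} (hf : Reg P f) :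
    IsIntegral ↥(Algebra.adjoin K {x}) f := by
  rw [bt_isIntegral_iff hx]
  intro v hv
  obtain ⟨m, hm⟩ := hf
  have := hm v
  rw [(bt_poleDiv_eq_zero_iff hP v).2 hv, mul_zero, exp_zero] at this
  exact this

theorem bt_reg_of_isIntegral [CharZero K] {x : F} (hx : Transcendental K x)
    [FiniteDimensional K⟮x⟯ F] {P : Divisor K F} (hP : IsPoleDiv P x) {f : F}
    (hf : IsIntegral ↥(Algebra.adjoin K {x}) f) : Reg P f := by
  rw [bt_isIntegral_iff hx] at hf
  rcases eq_or_ne f 0 with rfl | hf0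
  · exact ⟨0, InL.zero⟩
  refine ⟨∑ v ∈ P.support, |v.ord f|, fun v => ?_⟩
  by_cases hv : P v = 0
  · rw [hv, mul_zero, exp_zero]
    exact hf v ((bt_poleDiv_eq_zero_iff hP v).1 hv)
  · have hvS : v ∈ P.support := Finsupp.mem_support_iff.2 hv
    have h1 : 1 ≤ P v := by
      have := hP.nonneg v
      omega
    have h2 : |v.ord f| ≤ ∑ w ∈ P.support, |w.ord f| :=
      Finset.single_le_sum (f := fun w : Place K F => |w.ord f|) (fun w _ => abs_nonneg _) hvS
    rw [v.adicValuation_eq_exp_neg_ord hf0, exp_le_exp]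
    have h3 : -v.ord f ≤ |v.ord f| := neg_le_abs _
    have h4 : 0 ≤ ∑ w ∈ P.support, |w.ord f| := Finset.sum_nonneg fun w _ => abs_nonneg _
    nlinarith

/-! ### The chart at infinity -/

theorem bt_isIntegral_inv_pow_mul [CharZero K] {x : F} (hx : Transcendental K x)
    [FiniteDimensional K⟮x⟯ F] {P : Divisor K F} (hP : IsPoleDiv P x) {d : ℕ} {w : F}
    (hw : InL P d w) : IsIntegral ↥(Algebra.adjoin K {x⁻¹}) (x⁻¹ ^ d * w) := by
  haveI := bt_finiteDimensional_inv (K := K) x inferInstance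
  rw [bt_isIntegral_iff (bt_transcendental_inv hx)]
  intro v hv
  have hx0 : x ≠ 0 := bt_ne_zero hx
  have hne : v.adicValuation x ≠ 0 := (Valuation.ne_zero_iff _).2 hx0
  have hx1 : 1 ≤ v.adicValuation x := by
    rw [map_inv₀] at hv
    exact (inv_le_one₀ (zero_lt_iff.2 hne)).1 hv
  have h1 := hw v
  have h2 : exp ((d : ℤ) * P v) = (v.adicValuation x) ^ d := by
    rw [← nsmul_eq_mul, exp_nsmul, hP v, max_eq_right hx1]
  rw [h2] at h1
  rw [map_mul, map_pow, map_inv₀]
  calc (v.adicValuation x)⁻¹ ^ d * v.adicValuation w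
      ≤ (v.adicValuation x)⁻¹ ^ d * (v.adicValuation x) ^ d := mul_le_mul_right h1 _
    _ = 1 := by rw [← mul_pow, inv_mul_cancel₀ hne, one_pow]

theorem bt_exists_pow_mul_inL [IsAlgClosed K] [CharZero K] {x : F} (hx : Transcendental K x)
    [FiniteDimensional K⟮x⟯ F] {P : Divisor K F} (hP : IsPoleDiv P x) {f : F}
    (hf : IsIntegral ↥(Algebra.adjoin K {x⁻¹}) f) : ∃ k : ℕ, InL P k (x ^ k * f) := by
  classical
  haveI := bt_finiteDimensional_inv (K := K) x inferInstance
  rw [bt_isIntegral_iff (bt_transcendental_inv hx)] at hf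
  rcases eq_or_ne f 0 with rfl | hf0
  · exact ⟨0, by rw [mul_zero]; exact InL.zero⟩
  have hPD : HasPrincipalDivisors K F := H42.stmt_FFB_principal K F ⟨x, hx, inferInstance⟩
  have hfin := H17.finite_ord_ne_zero hPD f
  set T : Finset (Place K F) := hfin.toFinset with hT
  have hx0 : x ≠ 0 := bt_ne_zero hx
  refine ⟨(∑ v ∈ T, |v.ord f|).toNat, fun v => ?_⟩
  have hk0 : 0 ≤ ∑ w ∈ T, |w.ord f| := Finset.sum_nonneg fun w _ => abs_nonneg _
  have hne : v.adicValuation x ≠ 0 := (Valuation.ne_zero_iff _).2 hx0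
  by_cases hv : v.adicValuation x⁻¹ ≤ 1
  · have hf1 := hf v hv
    have hx1 : 1 ≤ v.adicValuation x := by
      rw [map_inv₀] at hv
      exact (inv_le_one₀ (zero_lt_iff.2 hne)).1 hv
    have h2 : exp ((((∑ v ∈ T, |v.ord f|).toNat : ℕ) : ℤ) * P v)
        = (v.adicValuation x) ^ (∑ v ∈ T, |v.ord f|).toNat := by
      rw [← nsmul_eq_mul, exp_nsmul, hP v, max_eq_right hx1]
    rw [h2, map_mul, map_pow]
    exact mul_le_of_le_one_right' hf1
  · have hordx : 0 < v.ord x := by
      have := (v.not_adicValuation_le_one_iff).1 hv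
      rw [v.ord_inv] at this
      omega
    have hxle : v.adicValuation x ≤ 1 := (v.adicValuation_le_one_iff).2 (Or.inr hordx.le)
    rw [(bt_poleDiv_eq_zero_iff hP v).2 hxle, mul_zero, exp_zero, v.adicValuation_le_one_iff]
    right
    rw [v.ord_mul (pow_ne_zero _ hx0) hf0, ord_pow, Int.toNat_of_nonneg hk0]
    by_cases hvf : v.ord f = 0
    · rw [hvf, add_zero]
      exact mul_nonneg hk0 hordx.le
    · have hvT : v ∈ T := by
        rw [hT, Set.Finite.mem_toFinset]
        exact hvf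
      have h2 : |v.ord f| ≤ ∑ w ∈ T, |w.ord f| :=
        Finset.single_le_sum (f := fun w : Place K F => |w.ord f|) (fun w _ => abs_nonneg _) hvT
      have h3 : -v.ord f ≤ |v.ord f| := neg_le_abs _
      nlinarith

theorem bt_aeval_inv_reflect {x : F} (hx0 : x ≠ 0) (N : ℕ) (p : K[X]) (hp : p.natDegree ≤ N) :
    aeval x⁻¹ (reflect N p) = x⁻¹ ^ N * aeval x p := by
  letI := invertibleOfNonzero hx0
  have := eval₂_reflect_mul_pow (algebraMap K F) x N p hp
  rw [invOf_eq_inv] at this
  rw [aeval_def, aeval_def, ← this, mul_comm, mul_assoc, ← mul_pow, mul_inv_cancel₀ hx0, one_pow,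
    mul_one]

theorem bt_aeval_reflect {x : F} (hx0 : x ≠ 0) (N : ℕ) (q : K[X]) (hq : q.natDegree ≤ N) :
    aeval x (reflect N q) = x ^ N * aeval x⁻¹ q := by
  have := bt_aeval_inv_reflect (inv_ne_zero hx0) N q hq
  rwa [inv_inv] at this

/-! ### Independence and spanning at infinity -/

theorem bt_indep_inv {x : F} (hx0 : x ≠ 0) {r : ℕ} (ω : Fin r → F) (d : Fin r → ℕ)
    (hind : ∀ p : Fin r → K[X], comb x p ω = 0 → p = 0)
    (q : Fin r → K[X]) (hq : (∑ i, aeval x⁻¹ (q i) * (x⁻¹ ^ d i * ω i)) = 0) : q = 0 := by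
  classical
  set N : ℕ := ∑ i, (q i).natDegree with hN
  set D : ℕ := ∑ i, d i with hD
  have hNi : ∀ i, (q i).natDegree ≤ N := fun i =>
    Finset.single_le_sum (f := fun i => (q i).natDegree) (fun _ _ => Nat.zero_le _)
      (Finset.mem_univ i)
  have hDi : ∀ i, d i ≤ D := fun i =>
    Finset.single_le_sum (f := fun i => d i) (fun _ _ => Nat.zero_le _) (Finset.mem_univ i)
  have h0 : comb x (fun i => reflect N (q i) * X ^ (D - d i)) ω = 0 := by
    unfold comb
    have : ∀ i, aeval x (reflect N (q i) * X ^ (D - d i)) * ω i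
        = x ^ (N + D) * (aeval x⁻¹ (q i) * (x⁻¹ ^ d i * ω i)) := by
      intro i
      rw [map_mul, bt_aeval_reflect hx0 N (q i) (hNi i), map_pow, aeval_X]
      have hxD : x ^ D = x ^ (D - d i) * x ^ d i := by
        rw [← pow_add, Nat.sub_add_cancel (hDi i)]
      rw [pow_add, hxD, inv_pow]
      have hxd : x ^ d i ≠ 0 := pow_ne_zero _ hx0
      field_simp
    rw [Finset.sum_congr rfl fun i _ => this i, ← Finset.mul_sum, hq, mul_zero]
  have h1 := hind _ h0
  funext i
  have h2 := congrFun h1 i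
  simp only [Pi.zero_apply] at h2 ⊢
  rcases mul_eq_zero.mp h2 with h3 | h3
  · exact reflect_eq_zero_iff.mp h3
  · exact absurd h3 (pow_ne_zero _ X_ne_zero)

theorem bt_span_inv [IsAlgClosed K] [CharZero K] {x : F} (hx : Transcendental K x)
    [FiniteDimensional K⟮x⟯ F] {P : Divisor K F} (hP : IsPoleDiv P x)
    {r : ℕ} (ω : Fin r → F) (d : Fin r → ℕ)
    (hspan : ∀ f : F, Reg P f → ∃ p : Fin r → K[X], f = comb x p ω)
    (hred : ∀ (p : Fin r → K[X]) (m : ℤ), InL P m (comb x p ω) →
        ∀ i, p i ≠ 0 → ((p i).natDegree : ℤ) + d i ≤ m)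
    (f : F) (hf : IsIntegral ↥(Algebra.adjoin K {x⁻¹}) f) :
    ∃ q : Fin r → K[X], f = ∑ i, aeval x⁻¹ (q i) * (x⁻¹ ^ d i * ω i) := by
  classical
  have hx0 : x ≠ 0 := bt_ne_zero hx
  obtain ⟨k, hk⟩ := bt_exists_pow_mul_inL hx hP hf
  obtain ⟨p, hp⟩ := hspan (x ^ k * f) ⟨k, hk⟩
  have hdeg : ∀ i, p i ≠ 0 → (p i).natDegree + d i ≤ k := by
    intro i hi
    have := hred p k (hp ▸ hk) i hi
    exact_mod_cast this
  refine ⟨fun i => reflect (k - d i) (p i), ?_⟩
  have hfe : f = x⁻¹ ^ k * comb x p ω := by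
    rw [← hp, ← mul_assoc, ← mul_pow, inv_mul_cancel₀ hx0, one_pow, one_mul]
  rw [hfe]
  unfold comb
  rw [Finset.mul_sum]
  refine Finset.sum_congr rfl fun i _ => ?_
  by_cases hi : p i = 0
  · simp [hi]
  · have h1 := hdeg i hi
    rw [bt_aeval_inv_reflect hx0 (k - d i) (p i) (by omega)]
    have hxk : x⁻¹ ^ k = x⁻¹ ^ (k - d i) * x⁻¹ ^ d i := by
      rw [← pow_add, Nat.sub_add_cancel (by omega)]
    rw [hxk]
    ring

/-- **BASIS-TRANSFER**. -/
theorem stmt_basisTransfer : H76.Stmt_basisTransfer := by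
  intro K F _ _ _ _ _ x hx hfd P hP r ω d hω hind hspan hred
  haveI := hfd
  have hx0 : x ≠ 0 := bt_ne_zero hx
  have hxi : Transcendental K x⁻¹ := bt_transcendental_inv hx
  obtain ⟨c, hc⟩ := bt_exists_basis hx ω
    (fun i => bt_isIntegral_of_reg hx hP ⟨d i, hω i⟩)
    (fun q hq => hind q hq)
    (fun f hf => hspan f (bt_reg_of_isIntegral hx hP hf))
  obtain ⟨c', hc'⟩ := bt_exists_basis hxi (fun i => x⁻¹ ^ d i * ω i)
    (fun i => bt_isIntegral_inv_pow_mul hx hP (hω i))
    (fun q hq => bt_indep_inv hx0 ω d hind q hq)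
    (fun f hf => bt_span_inv hx hP ω d hspan hred f hf)
  exact ⟨c, c', hc, hc'⟩

end Fermat.Agent.RED.H94
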