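import Fermat.Agent.RED.H76_RHDefs
import Fermat.Agent.RED.H76_IGModj
import Fermat.Agent.RED.H34_FibB

/-!
# RH-R (5), helper94: the order of the discriminant at `x = a` is exactly `n - r_a`

`stmt_discrExact : H76.Stmt_discrExact`, from
* `H34.pow_dvd_discr_ptsOver` (Dedekind's lower bound),
* `H34.not_pow_dvd_discr` (tame upper bound, `H82.h82_tameDiscr`),
* `H76.card_ptsOver` (maximal ideals over `x = a` ↔ places with `ord_v (x - a) > 0`).
-/

set_option autoImplicit false
set_option linter.style.haveILetI false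
set_option synthInstance.maxHeartbeats 400000
set_option maxHeartbeats 1000000

noncomputable section

open AlgebraicCurve IsDedekindDomain IntermediateField Polynomial
open scoped IntermediateField.algebraAdjoinAdjoin

namespace Fermat.Agent.RED.H94

open Fermat.Agent.RED.H34 Fermat.Agent.RED.H76

/-- **DISC-EXACT**. -/
theorem stmt_discrExact : H76.Stmt_discrExact := by
  intro K F _ _ _ _ _ x hx hfd n c p hp a
  haveI := hfd
  haveI hcz : CharZero ↥K⟮x⟯ := charZero_of_injective_algebraMap (algebraMap K ↥K⟮x⟯).injective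
  haveI hsep : Algebra.IsSeparable ↥K⟮x⟯ F := inferInstance
  have hlow := H34.pow_dvd_discr_ptsOver hx c a
  have hup := H34.not_pow_dvd_discr hx c a
  have hle := H34.ncard_ptsOver_le hx c a
  have hcard := H76.card_ptsOver x hx a
  have hpe : H34.polyEquiv hx p = Algebra.discr ↥(Algebra.adjoin K {x}) c := by
    apply Subtype.ext
    rw [H34.coe_polyEquiv]
    exact hp
  have hd0 : Algebra.discr ↥(Algebra.adjoin K {x}) c ≠ 0 :=
    H82.h82_discr_ne_zero ↥(Algebra.adjoin K {x}) ↥K⟮x⟯ F (Fin n) c
  have hp0 : p ≠ 0 := by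
    rintro rfl
    rw [map_zero] at hpe
    exact hd0 hpe.symm
  rw [← hpe, H34.pow_dvd_polyEquiv_iff] at hlow hup
  have h1 : n - (ptsOver x a).ncard ≤ p.rootMultiplicity a :=
    (Polynomial.le_rootMultiplicity_iff hp0).mpr hlow
  have h2 : ¬ (n - (ptsOver x a).ncard + 1 ≤ p.rootMultiplicity a) := fun h =>
    hup ((Polynomial.le_rootMultiplicity_iff hp0).mp h)
  rw [← hcard, Nat.card_coe_set_eq]
  omega

end Fermat.Agent.RED.H94
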