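import Fermat.Agent.RED.H76_RHFinal
import Fermat.Agent.RED.H94_BasisTransfer
import Fermat.Agent.RED.H94_DiscrExact
import Fermat.Agent.RED.H17_DiscrScale

/-!
# RH-R, unconditional (helper76 + helper94 + helper17)

`stmt_RHR : Stmt_RHR` — for a function field `F / K` (`K` algebraically closed of characteristic
zero) with Riemann genus `g` (`RED.H17.IsGenus K F g c`) and a non-constant `x`:
`2 g - 2 = ∑_{a ∈ S} (n - r_a) - n - r_∞`, `n = [F : K(x)]`, `r_a` the number of places over
`x = a`, `r_∞` the number of poles of `x`, `S` any finite set containing the branch values.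
-/

set_option autoImplicit false

namespace Fermat.Agent.RED.H76

/-- **RH-R**: the Riemann genus satisfies the Hurwitz formula. -/
theorem stmt_RHR : Stmt_RHR :=
  stmt_RHR_of Fermat.Agent.RED.H94.stmt_basisTransfer Fermat.Agent.RED.H17.stmt_discrScale
    Fermat.Agent.RED.H94.stmt_discrExact

end Fermat.Agent.RED.H76
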