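import Fermat.Agent.RED.H76_RHFam

/-!
# RH-R (helper76), part I c: a minimal family is reduced

`MinFam.reduced` : if `∑ p_i(x) ω_i ∈ L(m P)` then `deg p_i + d_i ≤ m` for all `i` with
`p_i ≠ 0`.
-/

set_option autoImplicit false

noncomputable section

open AlgebraicCurve WithZero Polynomial

namespace Fermat.Agent.RED.H76

variable {K F : Type*} [Field K] [Field F] [Algebra K F]
variable {P : Divisor K F} {x : F}

/-- A polynomial minus its leading monomial. -/
theorem sub_leading_eq_eraseLead (p : K[X]) :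
    p - C p.leadingCoeff * X ^ p.natDegree = p.eraseLead := by
  have := Polynomial.eraseLead_add_C_mul_X_pow p
  rw [eq_sub_iff_add_eq.mpr this]

theorem MinFam.reduced (hP : IsPoleDiv P x) (hneg : ∀ f : F, InL P (-1) f → f = 0)
    {r : ℕ} {ω : Fin r → F} {d : Fin r → ℕ} (h : MinFam P x r ω d)
    (p : Fin r → K[X]) (m : ℤ) (hm : InL P m (comb x p ω)) (i₀ : Fin r) (hi₀ : p i₀ ≠ 0) :
    ((p i₀).natDegree : ℤ) + d i₀ ≤ m := by
  classical
  by_contra hlt
  push Not at hlt
  -- the maximal weight `M`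
  set T : Finset (Fin r) := Finset.univ.filter (fun i => p i ≠ 0) with hT
  have hTne : T.Nonempty := ⟨i₀, Finset.mem_filter.mpr ⟨Finset.mem_univ _, hi₀⟩⟩
  obtain ⟨i₁, hi₁T, hi₁⟩ := Finset.exists_max_image T (fun i => (p i).natDegree + d i) hTne
  set M : ℕ := (p i₁).natDegree + d i₁ with hM
  have hMmax : ∀ i, p i ≠ 0 → (p i).natDegree + d i ≤ M := fun i hi =>
    hi₁ i (Finset.mem_filter.mpr ⟨Finset.mem_univ _, hi⟩)
  have hmM : m ≤ (M : ℤ) - 1 := by
    have := hMmax i₀ hi₀
    omega
  -- the set `I` where the maximum is attained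
  set I : Finset (Fin r) := T.filter (fun i => (p i).natDegree + d i = M) with hI
  have hIne : I.Nonempty := ⟨i₁, Finset.mem_filter.mpr ⟨hi₁T, rfl⟩⟩
  have hImem : ∀ i, i ∈ I ↔ p i ≠ 0 ∧ (p i).natDegree + d i = M := by
    intro i
    rw [hI, Finset.mem_filter, hT, Finset.mem_filter]
    simp
  obtain ⟨j, hjI, hj⟩ := Finset.exists_max_image I d hIne
  have hjI' := (hImem j).mp hjI
  -- the new element
  set q : Fin r → K[X] :=
    fun i => if i ∈ I then C (p i).leadingCoeff * X ^ (d j - d i) else 0 with hq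
  set t : K[X] := X ^ (M - d j) with ht
  have htq : ∀ i, t * q i = if i ∈ I then C (p i).leadingCoeff * X ^ (p i).natDegree else 0 := by
    intro i
    by_cases hiI : i ∈ I
    · have h1 := (hImem i).mp hiI
      have h2 := hj i hiI
      simp only [hq, ht, if_pos hiI]
      have : M - d j + (d j - d i) = (p i).natDegree := by omega
      rw [← this, pow_add]
      ring
    · simp only [hq, if_neg hiI, mul_zero]
  have hqmem : InL P (d j) (comb x q ω) := by
    refine inL_comb hP h.mem q (d j) ?_
    intro i hi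
    by_cases hiI : i ∈ I
    · have h2 := hj i hiI
      simp only [hq, if_pos hiI] at hi ⊢
      have hlc : (p i).leadingCoeff ≠ 0 := leadingCoeff_ne_zero.mpr ((hImem i).mp hiI).1
      rw [natDegree_C_mul_X_pow _ _ hlc]
      have : ((d j - d i : ℕ) : ℤ) = (d j : ℤ) - d i := by omega
      rw [this]
      omega
    · simp only [hq, if_neg hiI] at hi
      exact absurd rfl hi
  have hrest : InL P ((M : ℤ) - 1) (comb x (p - fun i => t * q i) ω) := by
    refine inL_comb hP h.mem _ _ ?_
    intro i hi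
    rw [Pi.sub_apply, htq] at hi ⊢
    by_cases hiI : i ∈ I
    · rw [if_pos hiI, sub_leading_eq_eraseLead] at hi ⊢
      have h1 := (hImem i).mp hiI
      rcases Polynomial.eraseLead_natDegree_lt_or_eraseLead_eq_zero (p i) with h3 | h3
      · omega
      · exact absurd h3 hi
    · rw [if_neg hiI, sub_zero] at hi ⊢
      have h1 := hMmax i hi
      have h2 : (p i).natDegree + d i ≠ M := fun h2 => hiI ((hImem i).mpr ⟨hi, h2⟩)
      omega
  have hprod : InL P ((M : ℤ) - 1) (aeval x t * comb x q ω) := by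
    rw [← comb_mul]
    have e : (fun i => t * q i) = p - (p - fun i => t * q i) := by
      funext i; simp
    rw [e, comb_sub]
    exact (hm.mono hP hmM).sub hrest
  have hdiv : InL P ((d j : ℤ) - 1) (comb x q ω) := by
    have hk : M - d j + d j = M := by omega
    have h1 := InL.of_mul hP (t := aeval x t) (k := M - d j)
      (fun v hv => by rw [ht, map_pow, aeval_X]; exact val_x_pow hP _ v hv) hprod hqmem
    have e : (M : ℤ) - 1 - ((M - d j : ℕ) : ℤ) = (d j : ℤ) - 1 := by omega
    rwa [e] at h1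
  have ht0 : t ≠ 0 := pow_ne_zero _ X_ne_zero
  refine h.no_exchange hneg j (comb x q ω) hdiv t ht0 (fun i => t * q i) ?_ ?_
  · rw [htq, if_pos hjI]
    exact mul_ne_zero (C_ne_zero.mpr (leadingCoeff_ne_zero.mpr hjI'.1))
      (pow_ne_zero _ X_ne_zero)
  · rw [comb_mul]

end Fermat.Agent.RED.H76
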