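import Fermat.Agent.RED.H76_RHReduced

/-!
# RH-R (helper76), part I d: a minimal family spans

`MinFam.span` : every `f ∈ L(m P)` is a polynomial combination `∑ p_i(x) ω_i`.
-/

set_option autoImplicit false

noncomputable section

open AlgebraicCurve WithZero Polynomial

namespace Fermat.Agent.RED.H76

variable {K F : Type*} [Field K] [Field F] [Algebra K F]
variable {P : Divisor K F} {x : F}

/-- Regular outside the poles of `x`. -/
def Reg (P : Divisor K F) (f : F) : Prop := ∃ m : ℤ, InL P m f

namespace Reg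

variable {f g : F}

theorem add (hP : IsPoleDiv P x) (hf : Reg P f) (hg : Reg P g) : Reg P (f + g) := by
  obtain ⟨m, hm⟩ := hf
  obtain ⟨m', hm'⟩ := hg
  exact ⟨max m m', (hm.mono hP (le_max_left _ _)).add (hm'.mono hP (le_max_right _ _))⟩

theorem neg (hf : Reg P f) : Reg P (-f) := by
  obtain ⟨m, hm⟩ := hf
  exact ⟨m, hm.neg⟩

theorem sub (hP : IsPoleDiv P x) (hf : Reg P f) (hg : Reg P g) : Reg P (f - g) := by
  rw [sub_eq_add_neg]; exact hf.add hP hg.neg

theorem mul (hf : Reg P f) (hg : Reg P g) : Reg P (f * g) := by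
  obtain ⟨m, hm⟩ := hf
  obtain ⟨m', hm'⟩ := hg
  exact ⟨m + m', hm.mul hm'⟩

theorem aeval (hP : IsPoleDiv P x) (p : K[X]) : Reg P (Polynomial.aeval x p) :=
  ⟨p.natDegree, inL_aeval hP p le_rfl⟩

theorem sum (hP : IsPoleDiv P x) {ι : Type*} (s : Finset ι) (f : ι → F)
    (h : ∀ i ∈ s, Reg P (f i)) : Reg P (∑ i ∈ s, f i) := by
  classical
  induction s using Finset.induction_on with
  | empty => exact ⟨0, by simpa using (InL.zero : InL P 0 (0 : F))⟩
  | insert i s his ih =>
    rw [Finset.sum_insert his]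
    exact (h i (Finset.mem_insert_self i s)).add hP
      (ih fun j hj => h j (Finset.mem_insert_of_mem hj))

theorem comb (hP : IsPoleDiv P x) {r : ℕ} {ω : Fin r → F} (hω : ∀ i, Reg P (ω i))
    (p : Fin r → K[X]) : Reg P (comb x p ω) :=
  Reg.sum hP _ _ fun i _ => (Reg.aeval hP (p i)).mul (hω i)

end Reg

theorem aeval_ne_zero_of_transcendental (hx : Transcendental K x) {b : K[X]} (hb : b ≠ 0) :
    aeval x b ≠ 0 := fun h => hb ((transcendental_iff.mp hx) b h)

/-- The inductive step of the spanning property: `b(x) f ∈ span ⟹ f ∈ span`. -/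
theorem MinFam.span_aux [IsAlgClosed K] (hP : IsPoleDiv P x) (hx : Transcendental K x)
    (hneg : ∀ f : F, InL P (-1) f → f = 0)
    {r : ℕ} {ω : Fin r → F} {d : Fin r → ℕ} (h : MinFam P x r ω d) :
    ∀ (k : ℕ) (f : F) (b : K[X]) (p : Fin r → K[X]), Reg P f → b ≠ 0 → b.natDegree ≤ k →
      aeval x b * f = comb x p ω → ∃ p' : Fin r → K[X], f = comb x p' ω := by
  classical
  have hωreg : ∀ i, Reg P (ω i) := fun i => ⟨d i, h.mem i⟩
  intro k
  induction k with
  | zero =>
    intro f b p _ hb hdeg hrel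
    have hbC : b = C (b.coeff 0) := eq_C_of_natDegree_le_zero hdeg
    have hβ : b.coeff 0 ≠ 0 := fun h0 => hb (by rw [hbC, h0, C_0])
    refine ⟨fun i => C (b.coeff 0)⁻¹ * p i, ?_⟩
    rw [comb_mul, ← hrel, ← mul_assoc, ← map_mul]
    nth_rewrite 2 [hbC]
    rw [← C_mul, inv_mul_cancel₀ hβ, C_1, map_one, one_mul]
  | succ k ih =>
    intro f b p hf hb hdeg hrel
    rcases Nat.lt_or_ge b.natDegree (k + 1) with hlt | hge
    · exact ih f b p hf hb (by omega) hrel
    have hdeg' : b.natDegree = k + 1 := le_antisymm hdeg hge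
    have hdeg0 : b.degree ≠ 0 := by
      rw [degree_eq_natDegree hb, hdeg']
      exact_mod_cast Nat.succ_ne_zero k
    obtain ⟨α, hα⟩ := IsAlgClosed.exists_root b hdeg0
    have hfac : (X - C α) * (b /ₘ (X - C α)) = b := mul_divByMonic_eq_iff_isRoot.mpr hα
    set b₁ : K[X] := b /ₘ (X - C α) with hb₁
    have hb₁0 : b₁ ≠ 0 := by
      rintro h0
      rw [h0, mul_zero] at hfac
      exact hb hfac.symm
    have hb₁deg : b₁.natDegree ≤ k := by
      have := congrArg natDegree hfac
      rw [natDegree_mul (X_sub_C_ne_zero α) hb₁0, natDegree_X_sub_C, hdeg'] at this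
      omega
    set f₁ : F := aeval x b₁ * f with hf₁
    have hf₁reg : Reg P f₁ := (Reg.aeval hP b₁).mul hf
    have hrel₁ : (x - algebraMap K F α) * f₁ = comb x p ω := by
      rw [← hrel, ← hfac, map_mul, map_sub, aeval_X, aeval_C, hf₁, mul_assoc]
    -- divide the coefficients by `X - α`
    set p' : Fin r → K[X] := fun i => p i /ₘ (X - C α) with hp'
    set γ : Fin r → K := fun i => (p i).eval α with hγ
    have hpi : ∀ i, p i = (X - C α) * p' i + C (γ i) := by
      intro i
      have := modByMonic_add_div (p i) (X - C α)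
      rw [modByMonic_X_sub_C_eq_C_eval] at this
      rw [← this]; ring
    set hh : F := f₁ - comb x p' ω with hhh
    have hhreg : Reg P hh := hf₁reg.sub hP (Reg.comb hP hωreg p')
    have hrel₂ : aeval x (X - C α) * hh = comb x (fun i => C (γ i)) ω := by
      have e : p = (fun i => (X - C α) * p' i) + fun i => C (γ i) := by
        funext i; rw [Pi.add_apply]; exact hpi i
      rw [e, comb_add, comb_mul] at hrel₁
      rw [hhh, mul_sub, map_sub, aeval_X, aeval_C, hrel₁]
      rw [map_sub, aeval_X, aeval_C]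
      ring
    by_cases hγ0 : ∀ i, γ i = 0
    · -- `hh = 0`
      have hz : comb x (fun i => C (γ i)) ω = 0 := by
        have : (fun i => C (γ i)) = (0 : Fin r → K[X]) := by
          funext i; rw [hγ0 i, C_0]; rfl
        rw [this, comb_zero]
      rw [hz] at hrel₂
      have hh0 : hh = 0 :=
        (mul_eq_zero.mp hrel₂).resolve_left
          (aeval_ne_zero_of_transcendental hx (X_sub_C_ne_zero α))
      have hf₁eq : aeval x b₁ * f = comb x p' ω := by
        rw [← hf₁]; exact sub_eq_zero.mp hh0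
      exact ih f b₁ p' hf hb₁0 hb₁deg hf₁eq
    · exfalso
      push Not at hγ0
      obtain ⟨i₀, hi₀⟩ := hγ0
      set J : Finset (Fin r) := Finset.univ.filter (fun i => γ i ≠ 0) with hJ
      have hJne : J.Nonempty := ⟨i₀, Finset.mem_filter.mpr ⟨Finset.mem_univ _, hi₀⟩⟩
      obtain ⟨j, hjJ, hj⟩ := Finset.exists_max_image J d hJne
      have hγj : γ j ≠ 0 := (Finset.mem_filter.mp hjJ).2
      have hzmem : InL P (d j) (comb x (fun i => C (γ i)) ω) := by
        refine inL_comb hP h.mem _ (d j) ?_
        intro i hi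
        have hγi : γ i ≠ 0 := fun h0 => hi (by rw [h0, C_0])
        have := hj i (Finset.mem_filter.mpr ⟨Finset.mem_univ _, hγi⟩)
        rw [natDegree_C]
        omega
      obtain ⟨m', hm'⟩ := hhreg
      have hdiv : InL P ((d j : ℤ) - 1) hh := by
        have h1 := InL.of_mul hP (t := aeval x (X - C α)) (k := 1)
          (fun v hv => by
            rw [map_sub, aeval_X, aeval_C]; exact val_x_sub hP α v hv)
          (by rw [hrel₂]; exact hzmem) hm'
        simpa using h1
      exact h.no_exchange hneg j hh hdiv (X - C α) (X_sub_C_ne_zero α) (fun i => C (γ i))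
        (C_ne_zero.mpr hγj) hrel₂

/-- **Spanning**: every function with poles only at the poles of `x` is a polynomial
combination of a minimal family. -/
theorem MinFam.span [IsAlgClosed K] (hP : IsPoleDiv P x) (hx : Transcendental K x)
    (hneg : ∀ f : F, InL P (-1) f → f = 0)
    {r : ℕ} {ω : Fin r → F} {d : Fin r → ℕ} (h : MinFam P x r ω d) (f : F) (hf : Reg P f) :
    ∃ p : Fin r → K[X], f = comb x p ω := by
  classical
  obtain ⟨m, hm⟩ := hf
  -- the family `(ω, f)` is dependent
  have hnot := h.max (Fin.snoc ω f) (Fin.snoc d m.toNat)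
  have hmem : ∀ i, InL P ((Fin.snoc d m.toNat : Fin (r + 1) → ℕ) i)
      ((Fin.snoc ω f : Fin (r + 1) → F) i) := by
    intro i
    refine Fin.lastCases ?_ (fun i => ?_) i
    · rw [Fin.snoc_last, Fin.snoc_last]
      exact hm.mono hP (Int.self_le_toNat m)
    · rw [Fin.snoc_castSucc, Fin.snoc_castSucc]
      exact h.mem i
  have hdep : ¬ ∀ p : Fin (r + 1) → K[X], comb x p (Fin.snoc ω f) = 0 → p = 0 :=
    fun hind => hnot ⟨hmem, hind⟩
  push Not at hdep
  obtain ⟨pt, hpt, hpt0⟩ := hdep
  have hsplit : comb x pt (Fin.snoc ω f)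
      = comb x (fun i => pt (Fin.castSucc i)) ω + aeval x (pt (Fin.last r)) * f := by
    unfold comb
    rw [Fin.sum_univ_castSucc]
    simp only [Fin.snoc_castSucc, Fin.snoc_last]
  rw [hsplit] at hpt
  have hb : pt (Fin.last r) ≠ 0 := by
    intro h0
    rw [h0, map_zero, zero_mul, add_zero] at hpt
    have := h.indep _ hpt
    apply hpt0
    funext i
    refine Fin.lastCases ?_ (fun i => ?_) i
    · exact h0
    · exact congrFun this i
  have hrel : aeval x (pt (Fin.last r)) * f = comb x (-fun i => pt (Fin.castSucc i)) ω := by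
    rw [comb_neg]
    exact eq_neg_of_add_eq_zero_right hpt
  exact h.span_aux hP hx hneg _ f _ _ ⟨m, hm⟩ hb le_rfl hrel

end Fermat.Agent.RED.H76
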