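import Fermat.Agent.RED.H79_ConsChart

/-!
# G-RED package CONS, C4 (helper79): every place of a chart has a reduction

`stmt_C4 : Stmt_C4`.  For `P` in the chart, `n := red (R ∩ m_P)` is a proper ideal of `Bt`; any
maximal ideal `n' ⊇ n` gives a place `Q` of `Ft` with `RedTo S x hx P Q`.
-/

set_option autoImplicit false
set_option linter.style.haveILetI false

noncomputable section

open AlgebraicCurve IsDedekindDomain WithZero IntermediateField
open scoped IntermediateField.algebraAdjoinAdjoin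

namespace Fermat.Agent.RED.H79

open Fermat.Agent.RED.H34 Fermat.Agent.RED.H51

section General

variable {K F : Type*} [Field K] [Field F] [Algebra K F]

/-- A constant of positive order is zero. -/
theorem const_eq_zero_of_ordGe_one (P : Place K F) (c : K)
    (h : OrdGe P 1 (algebraMap K F c)) : c = 0 := by
  rcases h with h | h
  · exact (map_eq_zero_iff _ (algebraMap K F).injective).1 h
  · rw [ord_algebraMap] at h
    omega

/-- Constants are integral over `K[x]`. -/
theorem isIntegral_const (x : F) (c : K) :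
    IsIntegral ↥(Algebra.adjoin K {x}) (algebraMap K F c) := by
  have : algebraMap K F c = algebraMap ↥(Algebra.adjoin K {x}) F
      (algebraMap K ↥(Algebra.adjoin K {x}) c) := rfl
  rw [this]
  exact isIntegral_algebraMap

/-- `x` is integral over `K[x]`. -/
theorem isIntegral_gen (x : F) : IsIntegral ↥(Algebra.adjoin K {x}) x :=
  isIntegral_algebraMap (R := ↥(Algebra.adjoin K {x})) (A := F)
    (x := ⟨x, Algebra.self_mem_adjoin_singleton K x⟩)

end General

section Red

variable {C F k Ft : Type} [Field C] [Field F] [Algebra C F] [Field k] [Field Ft] [Algebra k Ft]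
variable (S : RedSetting C F k Ft) {x : F}

theorem InChart.mem {P : Place C F} (h : InChart S x P) : x ∈ P.toValuationSubring := by
  obtain ⟨a, -, ha⟩ := h
  have h1 : OrdGe P 0 (x - algebraMap C F a) := ha.mono (by norm_num)
  have h2 : OrdGe P 0 (algebraMap C F a) := ordGe_algebraMap P a
  have h3 := h1.add h2
  rw [sub_add_cancel] at h3
  exact (ordGe_zero_iff_mem P x).1 h3

/-- The kernel of `red` on `R = B ∩ V` is `m_O R`. -/
theorem exists_scale_of_red_eq_zero (f : ↥S.V)
    (hf : IsIntegral ↥(Algebra.adjoin C {x}) (f : F)) (h0 : S.red f = 0) :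
    ∃ (c : ↥S.O) (u : ↥S.V), S.resO c = 0 ∧ IsIntegral ↥(Algebra.adjoin C {x}) (u : F) ∧
      (f : F) = algebraMap C F (c : C) * (u : F) := by
  rcases eq_or_ne (f : F) 0 with hf0 | hf0
  · exact ⟨0, 0, map_zero _, by simpa using isIntegral_zero, by simp [hf0]⟩
  obtain ⟨c, hc, u, hu⟩ := S.scale (f : F) hf0
  have hcV : algebraMap C F c ∈ S.V := by
    have : algebraMap C F c = (f : F) * (((u⁻¹ : (↥S.V)ˣ) : ↥S.V) : F) := by
      rw [hu, mul_assoc]
      have h1 : ((u : ↥S.V) : F) * (((u⁻¹ : (↥S.V)ˣ) : ↥S.V) : F) = 1 := by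
        have := congrArg Subtype.val u.mul_inv
        exact this
      rw [h1, mul_one]
    rw [this]
    exact mul_mem f.2 (Subtype.mem _)
  refine ⟨⟨c, hcV⟩, (u : ↥S.V), ?_, ?_, hu⟩
  · have h1 : f = S.inclO ⟨c, hcV⟩ * (u : ↥S.V) := Subtype.ext hu
    rw [h1, map_mul, S.red_inclO] at h0
    have hu0 : S.red (u : ↥S.V) ≠ 0 := (u.isUnit.map S.red).ne_zero
    have := (mul_eq_zero.1 h0).resolve_right hu0
    exact (map_eq_zero_iff _ (algebraMap k Ft).injective).1 this
  · have h1 : ((u : ↥S.V) : F) = algebraMap C F c⁻¹ * (f : F) := by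
      rw [hu, ← mul_assoc, ← map_mul, inv_mul_cancel₀ hc, map_one, one_mul]
    rw [h1]
    exact (isIntegral_const x c⁻¹).mul hf

end Red

section C4

variable {C F k Ft : Type} [Field C] [Field F] [Algebra C F] [Field k] [Field Ft] [Algebra k Ft]
variable (S : RedSetting C F k Ft) {x : F} (hx : x ∈ S.V)

theorem GoodChart.finite_red {S : RedSetting C F k Ft} {x : F} {hx : x ∈ S.V}
    (G : GoodChart S x hx) : FiniteDimensional k⟮S.red ⟨x, hx⟩⟯ Ft := by
  haveI := G.fin
  have h : 0 < Module.finrank k⟮S.red ⟨x, hx⟩⟯ Ft := by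
    rw [G.deg]
    exact Module.finrank_pos
  exact Module.finite_of_finrank_pos h

/-- The ideal `red (R ∩ m_P)` of `Bt`. -/
def redIdeal (hN : ChartNormal S x hx) (P : Place C F) (hxP : x ∈ P.toValuationSubring) :
    Ideal ↥(integralClosure ↥(Algebra.adjoin k {S.red ⟨x, hx⟩}) Ft) where
  carrier := {y | ∃ f : ↥S.V, IsIntegral ↥(Algebra.adjoin C {x}) (f : F) ∧
    OrdGe P 1 (f : F) ∧ S.red f = (y : Ft)}
  zero_mem' := ⟨0, by simpa using isIntegral_zero, ordGe_zero _ _, by simp⟩
  add_mem' := by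
    rintro y y' ⟨f, hf, hfP, hfy⟩ ⟨f', hf', hfP', hfy'⟩
    refine ⟨f + f', ?_, ?_, ?_⟩
    · simpa using hf.add hf'
    · simpa using hfP.add hfP'
    · rw [map_add, hfy, hfy']
      rfl
  smul_mem' := by
    rintro c y ⟨f, hf, hfP, hfy⟩
    obtain ⟨g, hg, hgc⟩ := hN (c : Ft) c.2
    refine ⟨g * f, ?_, ?_, ?_⟩
    · simpa using hg.mul hf
    · have h0 : OrdGe P 0 (g : F) := (ordGe_zero_iff_mem P _).2 (mem_of_isIntegral P hxP hg)
      have := h0.mul hfP
      simpa using this
    · rw [map_mul, hfy, hgc]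
      rfl

theorem mem_redIdeal_iff (hN : ChartNormal S x hx) (P : Place C F)
    (hxP : x ∈ P.toValuationSubring)
    (y : ↥(integralClosure ↥(Algebra.adjoin k {S.red ⟨x, hx⟩}) Ft)) :
    y ∈ redIdeal S hx hN P hxP ↔ ∃ f : ↥S.V, IsIntegral ↥(Algebra.adjoin C {x}) (f : F) ∧
      OrdGe P 1 (f : F) ∧ S.red f = (y : Ft) := Iff.rfl

theorem redIdeal_ne_top (hN : ChartNormal S x hx) (hI : ChartIntegral S x hx) (P : Place C F)
    (hP : InChart S x P) : redIdeal S hx hN P (InChart.mem S hP) ≠ ⊤ := by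
  rw [Ideal.ne_top_iff_one]
  rintro ⟨f, hf, hfP, hf1⟩
  have hred : S.red (f - 1) = 0 := by
    rw [map_sub, hf1, map_one]
    exact sub_self _
  have hint : IsIntegral ↥(Algebra.adjoin C {x}) ((f - 1 : ↥S.V) : F) := by
    simpa using hf.sub isIntegral_one
  obtain ⟨c, u, hc, hu, hfu⟩ := exists_scale_of_red_eq_zero S (f - 1) hint hred
  obtain ⟨a, ha⟩ := (hI u hu).2 P hP
  -- `1 + c a` has positive order at `P`
  have h1 : OrdGe P 1 (algebraMap C F ((1 + c * a : ↥S.O) : C)) := by
    have e : algebraMap C F ((1 + c * a : ↥S.O) : C)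
        = (f : F) - algebraMap C F (c : C) * ((u : F) - algebraMap C F (a : C)) := by
      have : ((f - 1 : ↥S.V) : F) = (f : F) - 1 := rfl
      rw [this] at hfu
      show algebraMap C F (1 + (c : C) * (a : C)) = _
      rw [map_add, map_one, map_mul]
      linear_combination (-1 : F) * hfu
    rw [e]
    have h2 : OrdGe P 1 (algebraMap C F (c : C) * ((u : F) - algebraMap C F (a : C))) := by
      have := (ordGe_algebraMap P (c : C)).mul ha
      simpa using this
    exact hfP.sub h2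
  have h2 := const_eq_zero_of_ordGe_one P _ h1
  have h3 : (1 + c * a : ↥S.O) = 0 := Subtype.ext h2
  have h4 := congrArg S.resO h3
  rw [map_add, map_mul, hc, zero_mul, add_zero, map_one, map_zero] at h4
  exact one_ne_zero h4

/-- **C4**: every place of the chart has a reduction. -/
theorem stmt_C4 : Stmt_C4 := by
  intro C F k Ft _ _ _ _ _ _ _ _ S x hx G hI P hP
  haveI := G.finite_red
  haveI := G.sept
  haveI := isDedekind_Bx (K := k) (S.red ⟨x, hx⟩) G.transc
  haveI := isFractionRing_Bx (K := k) (F := Ft) (S.red ⟨x, hx⟩)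
  have hxP := InChart.mem S hP
  obtain ⟨n', hmax, hle⟩ := Ideal.exists_le_maximal _ (redIdeal_ne_top S hx G.normal hI P hP)
  -- membership in `n` for `f - a`
  have key : ∀ f : ↥S.V, IsIntegral ↥(Algebra.adjoin C {x}) (f : F) → ∀ a : ↥S.O,
      OrdGe P 1 ((f : F) - algebraMap C F (a : C)) →
      ∃ y : ↥(integralClosure ↥(Algebra.adjoin k {S.red ⟨x, hx⟩}) Ft),
        y ∈ n' ∧ (y : Ft) = S.red f - algebraMap k Ft (S.resO a) := by
    intro f hf a ha
    have hint : IsIntegral ↥(Algebra.adjoin C {x}) ((f - S.inclO a : ↥S.V) : F) := by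
      have : ((f - S.inclO a : ↥S.V) : F) = (f : F) - algebraMap C F (a : C) := rfl
      rw [this]
      exact hf.sub (isIntegral_const x _)
    have hred : S.red (f - S.inclO a) = S.red f - algebraMap k Ft (S.resO a) := by
      rw [map_sub, S.red_inclO]
    have hy : IsIntegral ↥(Algebra.adjoin k {S.red ⟨x, hx⟩})
        (S.red f - algebraMap k Ft (S.resO a)) := by
      rw [← hred]
      exact (hI _ hint).1
    refine ⟨⟨_, hy⟩, hle ?_, rfl⟩
    exact ⟨f - S.inclO a, hint, ha, hred⟩
  have hne : n' ≠ ⊥ := by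
    obtain ⟨a, haV, haP⟩ := hP
    obtain ⟨y, hy, hyx⟩ := key ⟨x, hx⟩ (isIntegral_gen x) ⟨a, haV⟩ haP
    intro hbot
    rw [hbot, Ideal.mem_bot] at hy
    rw [hy] at hyx
    have h0 : S.red ⟨x, hx⟩ = algebraMap k Ft (S.resO ⟨a, haV⟩) := by
      have : (0 : Ft) = S.red ⟨x, hx⟩ - algebraMap k Ft (S.resO ⟨a, haV⟩) := hyx
      exact sub_eq_zero.1 this.symm
    apply G.transc
    rw [h0]
    exact isAlgebraic_algebraMap _
  let w : HeightOneSpectrum ↥(integralClosure ↥(Algebra.adjoin k {S.red ⟨x, hx⟩}) Ft) :=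
    ⟨n', hmax.isPrime, hne⟩
  refine ⟨ofH k w, ?_, ?_⟩
  · exact (ordGe_zero_iff_mem _ _).1 (ordGe_zero_algebraMap (K := k) (F := Ft) w
      ⟨S.red ⟨x, hx⟩, isIntegral_gen _⟩)
  · intro f hf a ha
    obtain ⟨y, hy, hyx⟩ := key f hf a ha
    rw [← hyx]
    exact (ordGe_one_algebraMap_iff (K := k) (F := Ft) w y).2 hy

end C4

end Fermat.Agent.RED.H79
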