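import Fermat.Agent.RED.H34_Lattice
import Fermat.Agent.RED.H51_Ord

/-!
# G-RED package CONS (helper79 + helper10): shared definitions

Setting: helper34's `RedSetting C F k Ft` (`S.V` valuation ring of `F`, `S.red : S.V → Ft`,
`S.O = S.V ∩ C`, `S.resO : S.O → k`).  A **chart** is `x ∈ S.V` with transcendental reduction
`xt = S.red x` such that `[Ft : k(xt)] = [F : C(x)]` and the chart is normal
(`ChartNormal` = conclusion of helper34's `Stmt_chartNormal`).
`B` = integral closure of `C[x]` in `F`, `R = B ∩ V`, `Bt` = integral closure of `k[xt]` in `Ft`.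

* `InChart S x P` : the place `P` lies in the closed unit disc of the chart: `x(P) ∈ O`.
* `RedTo S x hx P Q` : `Q` is finite over `xt` and evaluation at `Q` is the reduction of the
  evaluation at `P` on `R` (`f(P) = a ∈ O ⇒ (red f)(Q) = a mod m`).
* `ChartIntegral` (C2, helper10) : for `f ∈ R`: `red f ∈ Bt`, and `f(P) ∈ O` for `P` in the chart.
* `Stmt_C4` (helper79) : every `P` in the chart reduces to some `Q`.
* `Stmt_C5` (helper79) : `ord_Q (red f) ≤ Σ_{P in chart, r P = Q} ord_P f` for Gauss units `f ∈ R`.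

Route (helper10's note "CONS via FF-B norm formula"): C3 (fibre-wise conservation from the norm
formula) + C5 ⇒ conservation on the chart; two charts `x`, `1/x` ⇒ `IsRed`.
This file contains no `sorry`.
-/

set_option autoImplicit false

noncomputable section

open AlgebraicCurve IntermediateField

namespace Fermat.Agent.RED.H79

open Fermat.Agent.RED.H34 Fermat.Agent.RED.H51

variable {C F k Ft : Type} [Field C] [Field F] [Algebra C F] [Field k] [Field Ft] [Algebra k Ft]

/-- **(N)** the chart `x` is normal: every element of `Ft` integral over `k[xt]` is the reduction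
of an element of `V` integral over `C[x]`. -/
def ChartNormal (S : RedSetting C F k Ft) (x : F) (hx : x ∈ S.V) : Prop :=
  ∀ y : Ft, IsIntegral ↥(Algebra.adjoin k {S.red ⟨x, hx⟩}) y →
    ∃ f : ↥S.V, IsIntegral ↥(Algebra.adjoin C {x}) (f : F) ∧ S.red f = y

/-- The standing hypotheses on a chart. -/
structure GoodChart (S : RedSetting C F k Ft) (x : F) (hx : x ∈ S.V) : Prop where
  transc : Transcendental k (S.red ⟨x, hx⟩)
  fin : FiniteDimensional C⟮x⟯ F
  sep : Algebra.IsSeparable C⟮x⟯ F
  deg : Module.finrank k⟮S.red ⟨x, hx⟩⟯ Ft = Module.finrank C⟮x⟯ F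
  sept : Algebra.IsSeparable k⟮S.red ⟨x, hx⟩⟯ Ft
  normal : ChartNormal S x hx

/-- The place `P` lies in the closed unit disc of the chart `x`: `x(P) = a` with `a ∈ O`. -/
def InChart (S : RedSetting C F k Ft) (x : F) (P : Place C F) : Prop :=
  ∃ a : C, algebraMap C F a ∈ S.V ∧ OrdGe P 1 (x - algebraMap C F a)

/-- `Q` is a reduction of `P` on the chart `x` (evaluation form): `Q` is finite over `xt`, and
for `f ∈ R = B ∩ V` with `f(P) = a ∈ O` the reduction `red f` has the value `a mod m` at `Q`. -/
def RedTo (S : RedSetting C F k Ft) (x : F) (hx : x ∈ S.V) (P : Place C F) (Q : Place k Ft) :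
    Prop :=
  S.red ⟨x, hx⟩ ∈ Q.toValuationSubring ∧
  ∀ f : ↥S.V, IsIntegral ↥(Algebra.adjoin C {x}) (f : F) → ∀ a : ↥S.O,
    OrdGe P 1 ((f : F) - algebraMap C F (a : C)) →
    OrdGe Q 1 (S.red f - algebraMap k Ft (S.resO a))

/-- **(C2)** integrality on the chart (helper10): for `f ∈ R = B ∩ V` the reduction is integral
over `k[xt]`, and `f` has a value in `O` at every place of the chart. -/
def ChartIntegral (S : RedSetting C F k Ft) (x : F) (hx : x ∈ S.V) : Prop :=
  ∀ f : ↥S.V, IsIntegral ↥(Algebra.adjoin C {x}) (f : F) →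
    IsIntegral ↥(Algebra.adjoin k {S.red ⟨x, hx⟩}) (S.red f) ∧
    ∀ P : Place C F, InChart S x P →
      ∃ a : ↥S.O, OrdGe P 1 ((f : F) - algebraMap C F (a : C))

/-- **(C4)** every place of the chart has a reduction. -/
def Stmt_C4 : Prop :=
  ∀ (C F k Ft : Type) [Field C] [Field F] [Algebra C F] [Field k] [Field Ft] [Algebra k Ft]
    [IsAlgClosed C] [IsAlgClosed k] (S : RedSetting C F k Ft) (x : F) (hx : x ∈ S.V),
    GoodChart S x hx → ChartIntegral S x hx →
    ∀ P : Place C F, InChart S x P → ∃ Q : Place k Ft, RedTo S x hx P Q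

open Classical in
/-- **(C5)** the pointwise inequality: for a Gauss unit `f ∈ R` with divisor `D` and a place `Q`
of `Ft` finite over `xt`: `ord_Q (red f) ≤ Σ_{P in the chart, r P = Q} ord_P f`. -/
def Stmt_C5 : Prop :=
  ∀ (C F k Ft : Type) [Field C] [Field F] [Algebra C F] [Field k] [Field Ft] [Algebra k Ft]
    [IsAlgClosed C] [IsAlgClosed k] (S : RedSetting C F k Ft) (x : F) (hx : x ∈ S.V),
    GoodChart S x hx → ChartIntegral S x hx →
    ∀ r : Place C F → Place k Ft, (∀ P, InChart S x P → RedTo S x hx P (r P)) →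
    ∀ f : ↥S.V, IsUnit f → IsIntegral ↥(Algebra.adjoin C {x}) (f : F) →
    ∀ D : Divisor C F, (∀ P, D P = P.ord (f : F)) →
    ∀ Q : Place k Ft, S.red ⟨x, hx⟩ ∈ Q.toValuationSubring →
      Q.ord (S.red f) ≤ ∑ P ∈ D.support.filter (fun P => InChart S x P ∧ r P = Q), D P

end Fermat.Agent.RED.H79
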