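import Fermat.Agent.RED.H79_ConsDefs
import Fermat.Agent.S24.FF.Dict
import Fermat.Agent.S24.H72_FF1

/-!
# G-RED package CONS, dictionary (helper79): places containing a Dedekind domain

`B` a Dedekind domain with fraction field `F`, a `K`-algebra.
* `ordGe_ofH_iff` : `OrdGe (ofHeightOneSpectrum w) n f ↔ w.valuation F f ≤ exp (-n)`.
* `ordGe_one_algebraMap_iff` : `b ∈ w ↔ ord_w b ≥ 1`.
* `mem_range_of_forall_ordGe` : (b) an element of `F` regular at all `w` lies in `B`.
* `exists_eq_ofH` : (c) a place containing `B` is `ofHeightOneSpectrum w`.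
* `exists_ord_eq_one` : (d) uniformizers in `B`.
* `exists_mem_not_mem_ofH` : separation of two primes by an element of `B`.
-/

set_option autoImplicit false

noncomputable section

open AlgebraicCurve IsDedekindDomain WithZero

namespace Fermat.Agent.RED.H79

open Fermat.Agent.RED.H51

section Dict

variable {K F : Type*} [Field K] [Field F] [Algebra K F]
variable {B : Type*} [CommRing B] [IsDedekindDomain B] [Algebra B F] [IsFractionRing B F]
  [Algebra K B] [IsScalarTower K B F]

/-- The place of a height one prime (abbreviation). -/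
abbrev ofH (K : Type*) {F : Type*} [Field K] [Field F] [Algebra K F]
    {B : Type*} [CommRing B] [IsDedekindDomain B] [Algebra B F] [IsFractionRing B F]
    [Algebra K B] [IsScalarTower K B F] (w : HeightOneSpectrum B) : Place K F :=
  Place.ofHeightOneSpectrum (K := K) (F := F) w

theorem ordGe_ofH_iff (w : HeightOneSpectrum B) (n : ℤ) (f : F) :
    OrdGe (ofH K w) n f ↔ w.valuation F f ≤ exp (-n) := by
  rcases eq_or_ne f 0 with rfl | hf
  · simp [OrdGe]
  · have hv : w.valuation F f ≠ 0 := (Valuation.ne_zero_iff _).mpr hf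
    unfold OrdGe
    rw [or_iff_right hf, Fermat.Agent.S24.ord_ofHeightOneSpectrum (K := K) w hf]
    conv_rhs => rw [← exp_log hv, exp_le_exp]
    constructor <;> intro h <;> omega

theorem ordGe_zero_algebraMap (w : HeightOneSpectrum B) (b : B) :
    OrdGe (ofH K w) 0 (algebraMap B F b) := by
  rw [ordGe_ofH_iff, neg_zero, exp_zero]
  exact w.valuation_le_one b

theorem ordGe_one_algebraMap_iff (w : HeightOneSpectrum B) (b : B) :
    OrdGe (ofH K w) 1 (algebraMap B F b) ↔ b ∈ w.asIdeal := by
  rw [ordGe_ofH_iff, HeightOneSpectrum.valuation_of_algebraMap,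
    ← HeightOneSpectrum.intValuation_lt_one_iff_mem]
  rcases eq_or_ne (w.intValuation b) 0 with h0 | h0
  · rw [h0]; simp
  · conv_lhs => rw [← exp_log h0, exp_le_exp]
    conv_rhs => rw [← exp_log h0, ← exp_zero, exp_lt_exp]
    constructor <;> intro h <;> omega

/-- (b) An element of `F` which is regular at all height one primes lies in `B`. -/
theorem mem_range_of_forall_ordGe (f : F)
    (h : ∀ w : HeightOneSpectrum B, OrdGe (ofH K w) 0 f) : f ∈ (algebraMap B F).range := by
  apply HeightOneSpectrum.mem_integers_of_valuation_le_one F f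
  intro w
  have := (ordGe_ofH_iff (K := K) w 0 f).1 (h w)
  simpa using this

/-- (c) A place containing `B` is the place of a height one prime. -/
theorem exists_eq_ofH (v : Place K F) (hB : ∀ b : B, algebraMap B F b ∈ v.toValuationSubring) :
    ∃ w : HeightOneSpectrum B, v = ofH K w := by
  obtain ⟨w, hw⟩ := Fermat.Agent.S24.exists_heightOneSpectrum_of_le v hB
  exact ⟨w, Place.ext hw⟩

theorem ofH_injective : Function.Injective (ofH K (F := F) (B := B)) := by
  intro w w' h
  by_contra hne
  -- an element of `w` not in `w'`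
  have hnle : ¬ w.asIdeal ≤ w'.asIdeal := by
    intro hle
    have hmax : w.asIdeal.IsMaximal := w.isMaximal
    have := hmax.eq_of_le w'.isPrime.ne_top hle
    exact hne (HeightOneSpectrum.ext this)
  obtain ⟨b, hb, hb'⟩ := Set.not_subset.1 hnle
  have h1 := (ordGe_one_algebraMap_iff (K := K) (F := F) w b).2 hb
  rw [h] at h1
  exact hb' ((ordGe_one_algebraMap_iff (K := K) (F := F) w' b).1 h1)

/-- (d) A uniformizer in `B`. -/
theorem exists_ord_eq_one (w : HeightOneSpectrum B) :
    ∃ b : B, b ∈ w.asIdeal ∧ (ofH K w).ord (algebraMap B F b) = 1 := by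
  obtain ⟨π, hπ⟩ := w.intValuation_exists_uniformizer
  have hπ0 : π ≠ 0 := by
    rintro rfl
    rw [map_zero] at hπ
    exact exp_ne_zero hπ.symm
  have hπF : algebraMap B F π ≠ 0 := by
    rwa [ne_eq, map_eq_zero_iff _ (IsFractionRing.injective B F)]
  refine ⟨π, ?_, ?_⟩
  · rw [← HeightOneSpectrum.intValuation_lt_one_iff_mem, hπ, ← exp_zero, exp_lt_exp]
    norm_num
  · rw [Fermat.Agent.S24.ord_ofHeightOneSpectrum (K := K) w hπF,
      HeightOneSpectrum.valuation_of_algebraMap, hπ, log_exp]
    norm_num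

/-- An element of `B` outside `w` has order zero at `w`. -/
theorem ord_eq_zero_of_not_mem (w : HeightOneSpectrum B) {b : B} (hb : b ∉ w.asIdeal) :
    (ofH K w).ord (algebraMap B F b) = 0 := by
  have hb0 : b ≠ 0 := fun h => hb (h ▸ w.asIdeal.zero_mem)
  have hbF : algebraMap B F b ≠ 0 := by
    rwa [ne_eq, map_eq_zero_iff _ (IsFractionRing.injective B F)]
  have h0 := (ordGe_zero_algebraMap (K := K) (F := F) w b).le hbF
  have h1 : ¬ OrdGe (ofH K w) 1 (algebraMap B F b) := fun h =>
    hb ((ordGe_one_algebraMap_iff (K := K) (F := F) w b).1 h)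
  have h2 : ¬ (1 ≤ (ofH K w).ord (algebraMap B F b)) := fun h => h1 (Or.inr h)
  omega

/-- Separation: for `w ≠ w'` there is `b ∈ w'` with `b ∉ w`. -/
theorem exists_mem_not_mem_of_ne {w w' : HeightOneSpectrum B} (h : w ≠ w') :
    ∃ b : B, b ∈ w'.asIdeal ∧ b ∉ w.asIdeal := by
  have hnle : ¬ w'.asIdeal ≤ w.asIdeal := by
    intro hle
    have hmax : w'.asIdeal.IsMaximal := w'.isMaximal
    have := hmax.eq_of_le w.isPrime.ne_top hle
    exact h (HeightOneSpectrum.ext this).symm
  obtain ⟨b, hb, hb'⟩ := Set.not_subset.1 hnle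
  exact ⟨b, hb, hb'⟩

end Dict

end Fermat.Agent.RED.H79
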