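import Fermat.Agent.RED.H76_RHDefs
import Fermat.Agent.RED.H82_TameDiscr
import Fermat.Agent.RED.H34_IGCore

/-!
# RH-R (5), helper94: Dedekind's lower bound for the discriminant, abstract form

`stmt_discrLower : H76.Stmt_discrLower`: `R` a PID, `B` the integral closure of `R` in a finite separable
extension, `π` a prime of `R` all of whose primes `P` of `B` above have `B / P = R / π`; then
`π ^ (n - r) ∣ disc`, `r` the number of maximal ideals of `B` containing `π`.

Proof: `H34.pow_dvd_discr_of_linearMap` applied to `B → ∏_P B / P = (R / π)^r`.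
-/

set_option autoImplicit false
set_option linter.style.haveILetI false

noncomputable section

namespace Fermat.Agent.RED.H94

section Abstract

variable {R B : Type*} [CommRing R] [CommRing B] [Algebra R B]

/-- The component of the evaluation map at a maximal ideal `P` with `B / P = R / π`. -/
theorem exists_component (π : R) [hmax : (Ideal.span {π}).IsMaximal] (P : Ideal B)
    (hP : P.IsMaximal) (hπP : algebraMap R B π ∈ P)
    (hsurj : Function.Surjective (algebraMap R (B ⧸ P))) :
    ∃ g : B →ₗ[R] (R ⧸ Ideal.span {π}), ∀ y, g y = 0 ↔ y ∈ P := by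
  letI : Field (R ⧸ Ideal.span {π}) := Ideal.Quotient.field _
  haveI : Nontrivial (B ⧸ P) := Ideal.Quotient.nontrivial_iff.mpr hP.ne_top
  have hkill : ∀ a ∈ Ideal.span {π}, (Algebra.ofId R (B ⧸ P)) a = 0 := by
    intro a ha
    obtain ⟨t, rfl⟩ := Ideal.mem_span_singleton.mp ha
    change algebraMap R (B ⧸ P) (π * t) = 0
    rw [map_mul, IsScalarTower.algebraMap_apply R B (B ⧸ P) π, Ideal.Quotient.algebraMap_eq,
      Ideal.Quotient.eq_zero_iff_mem.mpr hπP, zero_mul]
  let ψ : (R ⧸ Ideal.span {π}) →ₐ[R] (B ⧸ P) :=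
    Ideal.Quotient.liftₐ (Ideal.span {π}) (Algebra.ofId R (B ⧸ P)) hkill
  have hψ : Function.Bijective ψ := by
    constructor
    · exact (ψ : (R ⧸ Ideal.span {π}) →+* (B ⧸ P)).injective
    · intro y
      obtain ⟨a, ha⟩ := hsurj y
      refine ⟨Ideal.Quotient.mk _ a, ?_⟩
      rw [← ha]
      rfl
  let E : (R ⧸ Ideal.span {π}) ≃ₐ[R] (B ⧸ P) := AlgEquiv.ofBijective ψ hψ
  refine ⟨E.symm.toLinearMap ∘ₗ (Ideal.Quotient.mkₐ R P).toLinearMap, fun y => ?_⟩
  rw [LinearMap.comp_apply, AlgEquiv.toLinearMap_apply, AlgHom.toLinearMap_apply,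
    map_eq_zero_iff _ E.symm.injective, Ideal.Quotient.mkₐ_eq_mk,
    Ideal.Quotient.eq_zero_iff_mem]

end Abstract

/-- **DISC-LOW**. -/
theorem stmt_discrLower : H76.Stmt_discrLower := by
  intro R K L _ _ _ _ _ _ _ _ _ _ _ _ ι _ _ c π hπ hdeg
  classical
  haveI hmax : (Ideal.span {π}).IsMaximal :=
    PrincipalIdealRing.isMaximal_of_irreducible hπ.irreducible
  set S : Set (Ideal ↥(integralClosure R L)) :=
    {P | P.IsMaximal ∧ algebraMap R ↥(integralClosure R L) π ∈ P} with hS
  have hfin : S.Finite := by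
    by_contra hinf
    obtain ⟨t, ht, htc⟩ := Set.Infinite.exists_subset_card_eq hinf (Fintype.card ι + 1)
    have h := H82.h82_count c π hπ (∅ : Finset ι)
      (fun i hi => absurd hi (Finset.notMem_empty i)) t (fun P hP => ht hP)
    rw [htc, Finset.card_empty] at h
    omega
  haveI : Finite ↥S := hfin
  have hcard : Nat.card ↥S = S.ncard := Nat.card_coe_set_eq _
  let e : ↥S ≃ Fin S.ncard := (Finite.equivFin _).trans (finCongr hcard)
  have hcomp : ∀ P : ↥S, ∃ g : ↥(integralClosure R L) →ₗ[R] (R ⧸ Ideal.span {π}),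
      ∀ y, g y = 0 ↔ y ∈ P.1 := fun P =>
    exists_component π P.1 P.2.1 P.2.2 (hdeg P.1 P.2.1 P.2.2)
  choose gP hgP using hcomp
  let g : ↥(integralClosure R L) →ₗ[R] (Fin S.ncard → R ⧸ Ideal.span {π}) :=
    LinearMap.pi fun i => gP (e.symm i)
  have hg : ∀ y, g y = 0 → ∃ m, y ^ m ∈
      Ideal.span {algebraMap R ↥(integralClosure R L) π} := by
    intro y hy
    rw [← Ideal.mem_radical_iff, Ideal.radical_eq_sInf, Ideal.mem_sInf]
    rintro J ⟨hJ1, hJ2⟩
    have hmem : algebraMap R ↥(integralClosure R L) π ∈ J :=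
      hJ1 (Ideal.subset_span (Set.mem_singleton _))
    have hcomap : Ideal.comap (algebraMap R ↥(integralClosure R L)) J = Ideal.span {π} := by
      symm
      apply hmax.eq_of_le (Ideal.comap_ne_top _ hJ2.ne_top)
      rw [Ideal.span_singleton_le_iff_mem]
      exact hmem
    haveI : Algebra.IsIntegral R ↥(integralClosure R L) := inferInstance
    have hJmax : J.IsMaximal :=
      Ideal.isMaximal_of_isIntegral_of_isMaximal_comap J (hcomap ▸ hmax)
    have hJS : J ∈ S := ⟨hJmax, hmem⟩
    have h1 := congrFun hy (e ⟨J, hJS⟩)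
    change gP (e.symm (e ⟨J, hJS⟩)) y = 0 at h1
    rw [Equiv.symm_apply_apply] at h1
    exact (hgP ⟨J, hJS⟩ y).mp h1
  exact H34.pow_dvd_discr_of_linearMap c π hπ g hg

end Fermat.Agent.RED.H94
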